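import Mathlib
import Fermat.Prelude.Thm_Algebra_finite_maximalSpectrum_and_bijective_localization_of_module_finite
import Fermat.Prelude.Thm_IsLocalRing_isAdicComplete_of_module_finite

/-!
# Components of finite algebras over a complete discrete valuation ring of characteristic zero
-/

set_option autoImplicit false

namespace Fermat.Agent.RT.Components

open IsLocalRing

/-- A finite algebra over a complete local noetherian ring which is a domain is local. -/
theorem isLocalRing_of_isDomain (𝒪 : Type) [CommRing 𝒪] [IsLocalRing 𝒪] [IsNoetherianRing 𝒪]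
    [IsAdicComplete (maximalIdeal 𝒪) 𝒪] (A : Type) [CommRing A] [IsDomain A] [Algebra 𝒪 A]
    [Module.Finite 𝒪 A] : IsLocalRing A := by
  classical
  obtain ⟨hfin, hbij, -, -⟩ :=
    Algebra.finite_maximalSpectrum_and_bijective_localization_of_module_finite (𝒪 := 𝒪) A
  obtain ⟨m, hm⟩ := Ideal.exists_maximal A
  refine IsLocalRing.of_unique_max_ideal ⟨m, hm, fun m' hm' => ?_⟩
  by_contra hne
  let P : MaximalSpectrum A := ⟨m, hm⟩
  let P' : MaximalSpectrum A := ⟨m', hm'⟩
  have hPP' : P ≠ P' := fun h => hne (congrArg MaximalSpectrum.asIdeal h).symm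
  obtain ⟨a, ha⟩ := hbij.2 (Pi.single P 1)
  obtain ⟨b, hb⟩ := hbij.2 (Pi.single P' 1)
  have hab : a * b = 0 := by
    apply hbij.1
    rw [map_mul, ha, hb, map_zero]
    funext Q
    by_cases hQ : Q = P
    · subst hQ
      rw [Pi.mul_apply, Pi.single_eq_of_ne hPP', mul_zero]
      rfl
    · rw [Pi.mul_apply, Pi.single_eq_of_ne hQ, zero_mul]
      rfl
  have ha0 : a ≠ 0 := by
    rintro rfl
    have h1 := congrFun ha P
    rw [map_zero, Pi.single_eq_same] at h1
    exact zero_ne_one h1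
  have hb0 : b ≠ 0 := by
    rintro rfl
    have h1 := congrFun hb P'
    rw [map_zero, Pi.single_eq_same] at h1
    exact zero_ne_one h1
  exact (mul_ne_zero ha0 hb0) hab

variable (𝒪 : Type) [CommRing 𝒪] [IsDomain 𝒪] [IsDiscreteValuationRing 𝒪]
  [IsAdicComplete (maximalIdeal 𝒪) 𝒪]

/-- A local homomorphism: an injective finite algebra over a local ring. -/
theorem isLocalHom_of_injective_of_finite {R A : Type*} [CommRing R] [CommRing A] [Algebra R A]
    [Module.Finite R A] (hinj : Function.Injective (algebraMap R A)) :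
    IsLocalHom (algebraMap R A) := by
  have : Algebra.IsIntegral R A := Algebra.IsIntegral.of_finite R A
  have : FaithfulSMul R A := (faithfulSMul_iff_algebraMap_injective R A).mpr hinj
  exact Algebra.IsIntegral.isLocalHom R A

/-- The residue field of a finite local algebra over a local ring with finite residue field is
finite. -/
theorem finite_residueField {R A : Type*} [CommRing R] [IsLocalRing R] [CommRing A]
    [IsLocalRing A] [Algebra R A] [Module.Finite R A] [IsLocalHom (algebraMap R A)]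
    [Finite (ResidueField R)] : Finite (ResidueField A) := by
  have h1 : Module.Finite R (ResidueField A) :=
    Module.Finite.of_surjective (IsScalarTower.toAlgHom R A (ResidueField A)).toLinearMap
      residue_surjective
  have h2 : Module.Finite (ResidueField R) (ResidueField A) :=
    Module.Finite.of_restrictScalars_finite R (ResidueField R) (ResidueField A)
  exact Module.finite_of_finite (ResidueField R)

/-- The normalisation of a finite domain over a complete characteristic zero DVR is again a complete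
DVR, finite over the base. -/
theorem exists_dvr_of_isDomain [CharZero 𝒪] [Finite (ResidueField 𝒪)]
    (A : Type) [CommRing A] [IsDomain A] [Algebra 𝒪 A] [Module.Finite 𝒪 A]
    (hinj : Function.Injective (algebraMap 𝒪 A)) :
    ∃ (𝒪' : Type) (_ : CommRing 𝒪') (_ : IsDomain 𝒪') (_ : IsDiscreteValuationRing 𝒪')
      (_ : IsAdicComplete (maximalIdeal 𝒪') 𝒪') (_ : Finite (ResidueField 𝒪'))
      (_ : CharZero 𝒪') (_ : Algebra 𝒪 𝒪') (_ : Module.Finite 𝒪 𝒪') (_ : Module.Free 𝒪 𝒪')
      (_ : IsLocalHom (algebraMap 𝒪 𝒪')),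
      Function.Injective (algebraMap 𝒪 𝒪') ∧ ∃ φ : A →ₐ[𝒪] 𝒪', Function.Injective φ := by
  let K := FractionRing 𝒪
  let L := FractionRing A
  have hfaith : FaithfulSMul 𝒪 A := (faithfulSMul_iff_algebraMap_injective 𝒪 A).mpr hinj
  have hint : Algebra.IsIntegral 𝒪 A := Algebra.IsIntegral.of_finite 𝒪 A
  have halg : Algebra.IsAlgebraic 𝒪 A := inferInstance
  have hinjL : Function.Injective (algebraMap 𝒪 L) := by
    rw [IsScalarTower.algebraMap_eq 𝒪 A L]
    exact (IsFractionRing.injective A L).comp hinj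
  have hfaithL : FaithfulSMul 𝒪 L := (faithfulSMul_iff_algebraMap_injective 𝒪 L).mpr hinjL
  let _ : Algebra K L := FractionRing.liftAlgebra 𝒪 L
  have hst : IsScalarTower 𝒪 K L := FractionRing.isScalarTower_liftAlgebra 𝒪 L
  have hKfin : FiniteDimensional K L := .of_isLocalization 𝒪 A (nonZeroDivisors 𝒪)
  have hK0 : CharZero K := charZero_of_injective_algebraMap (IsFractionRing.injective 𝒪 K)
  have hsep : Algebra.IsSeparable K L := inferInstance
  let 𝒪' := integralClosure 𝒪 L
  have hfin : Module.Finite 𝒪 𝒪' := IsIntegralClosure.finite 𝒪 K L 𝒪'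
  have hded : IsDedekindDomain 𝒪' := integralClosure.isDedekindDomain 𝒪 K L
  have hinj' : Function.Injective (algebraMap 𝒪 𝒪') := fun x y hxy =>
    hinjL (congrArg Subtype.val hxy)
  have hloc : IsLocalRing 𝒪' := isLocalRing_of_isDomain 𝒪 𝒪'
  have hlh : IsLocalHom (algebraMap 𝒪 𝒪') := isLocalHom_of_injective_of_finite hinj'
  have hnf : ¬ IsField 𝒪' := by
    intro hf
    obtain ⟨ϖ, hϖ⟩ := IsDiscreteValuationRing.exists_irreducible 𝒪
    have hne : algebraMap 𝒪 𝒪' ϖ ≠ 0 := fun h => hϖ.ne_zero (hinj' (h.trans (map_zero _).symm))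
    have hu : IsUnit (algebraMap 𝒪 𝒪' ϖ) := by
      let _ := hf.toField
      exact isUnit_iff_ne_zero.mpr hne
    exact hϖ.not_isUnit (isUnit_of_map_unit (algebraMap 𝒪 𝒪') ϖ hu)
  have hdvr : IsDiscreteValuationRing 𝒪' :=
    ((IsDiscreteValuationRing.TFAE 𝒪' hnf).out 0 2).mpr hded
  have hcomp : IsAdicComplete (maximalIdeal 𝒪') 𝒪' :=
    IsLocalRing.isAdicComplete_of_module_finite (𝒪 := 𝒪)
  have hres : Finite (ResidueField 𝒪') := finite_residueField (R := 𝒪)
  have hchar : CharZero 𝒪' := charZero_of_injective_algebraMap hinj'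
  have hfree : Module.Free 𝒪 𝒪' := by
    have : Module.IsTorsionFree 𝒪 𝒪' := inferInstance
    exact Module.free_of_finite_type_torsion_free'
  have hAint : ∀ a : A, algebraMap A L a ∈ integralClosure 𝒪 L := fun a =>
    (hint.isIntegral a).map (IsScalarTower.toAlgHom 𝒪 A L)
  refine ⟨𝒪', inferInstance, inferInstance, hdvr, hcomp, hres, hchar, inferInstance, hfin, hfree,
    hlh, hinj', (IsScalarTower.toAlgHom 𝒪 A L).codRestrict _ hAint, ?_⟩
  intro x y hxy
  exact IsFractionRing.injective A L (congrArg Subtype.val hxy)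

/-- Each prime `P` of a finite algebra `A` over a complete characteristic zero DVR with
`P ∩ 𝒪 = 0` is the kernel of a map to a complete DVR finite over `𝒪`. -/
theorem exists_dvr_of_isPrime [CharZero 𝒪] [Finite (ResidueField 𝒪)]
    (A : Type) [CommRing A] [Algebra 𝒪 A] [Module.Finite 𝒪 A] (P : Ideal A) [P.IsPrime]
    (hP : P.comap (algebraMap 𝒪 A) = ⊥) :
    ∃ (𝒪' : Type) (_ : CommRing 𝒪') (_ : IsDomain 𝒪') (_ : IsDiscreteValuationRing 𝒪')
      (_ : IsAdicComplete (maximalIdeal 𝒪') 𝒪') (_ : Finite (ResidueField 𝒪'))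
      (_ : CharZero 𝒪') (_ : Algebra 𝒪 𝒪') (_ : Module.Finite 𝒪 𝒪') (_ : Module.Free 𝒪 𝒪')
      (_ : IsLocalHom (algebraMap 𝒪 𝒪')),
      Function.Injective (algebraMap 𝒪 𝒪') ∧ ∃ φ : A →ₐ[𝒪] 𝒪', RingHom.ker φ = P := by
  have hinj : Function.Injective (algebraMap 𝒪 (A ⧸ P)) := by
    rw [injective_iff_map_eq_zero]
    intro x hx
    rw [IsScalarTower.algebraMap_apply 𝒪 A (A ⧸ P), Ideal.Quotient.algebraMap_eq,
      Ideal.Quotient.eq_zero_iff_mem] at hx
    have : x ∈ P.comap (algebraMap 𝒪 A) := hx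
    rwa [hP, Ideal.mem_bot] at this
  obtain ⟨𝒪', i1, i2, i3, i4, i5, i6, i7, i8, i9, i10, h1, φ, hφ⟩ :=
    exists_dvr_of_isDomain 𝒪 (A ⧸ P) hinj
  refine ⟨𝒪', i1, i2, i3, i4, i5, i6, i7, i8, i9, i10, h1,
    φ.comp (Ideal.Quotient.mkₐ 𝒪 P), ?_⟩
  ext x
  rw [RingHom.mem_ker]
  constructor
  · intro hx
    have h2 : φ (Ideal.Quotient.mk P x) = 0 := hx
    exact Ideal.Quotient.eq_zero_iff_mem.mp (hφ (h2.trans (map_zero φ).symm))
  · intro hx
    change φ (Ideal.Quotient.mk P x) = 0
    rw [Ideal.Quotient.eq_zero_iff_mem.mpr hx, map_zero]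

omit [IsDiscreteValuationRing 𝒪] [IsAdicComplete (maximalIdeal 𝒪) 𝒪] in
/-- Minimal primes of a torsion free algebra over a domain lie over `0`. -/
theorem comap_eq_bot_of_mem_minimalPrimes (A : Type) [CommRing A] [Algebra 𝒪 A]
    [Module.IsTorsionFree 𝒪 A] (P : Ideal A) (hP : P ∈ minimalPrimes A) :
    P.comap (algebraMap 𝒪 A) = ⊥ := by
  rw [eq_bot_iff]
  intro x hx
  rw [Ideal.mem_bot]
  by_contra hne
  refine Set.disjoint_left.mp (Ideal.disjoint_nonZeroDivisors_of_mem_minimalPrimes hP) hx ?_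
  refine mem_nonZeroDivisors_iff_right.mpr fun y hy => ?_
  have h1 : x • y = 0 := by rw [Algebra.smul_def, mul_comm]; exact hy
  exact (smul_eq_zero_iff_right hne).mp h1

/-- A reduced finite free algebra over a complete characteristic zero DVR: its elements are
detected by maps to complete DVRs finite over `𝒪`. -/
theorem eq_zero_of_forall_components [CharZero 𝒪] [Finite (ResidueField 𝒪)]
    (A : Type) [CommRing A] [IsReduced A] [Algebra 𝒪 A] [Module.Finite 𝒪 A]
    [Module.IsTorsionFree 𝒪 A] (a : A)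
    (ha : ∀ (𝒪' : Type) [CommRing 𝒪'] [IsDomain 𝒪'] [IsDiscreteValuationRing 𝒪']
      [IsAdicComplete (maximalIdeal 𝒪') 𝒪'] [Finite (ResidueField 𝒪')]
      [CharZero 𝒪'] [Algebra 𝒪 𝒪'] [Module.Finite 𝒪 𝒪'] [Module.Free 𝒪 𝒪']
      [IsLocalHom (algebraMap 𝒪 𝒪')], Function.Injective (algebraMap 𝒪 𝒪') →
      ∀ φ : A →ₐ[𝒪] 𝒪', φ a = 0) : a = 0 := by
  have h1 : a ∈ sInf (minimalPrimes A) := by
    rw [Ideal.mem_sInf]
    intro P hP
    have hPp : P.IsPrime := hP.1.1
    obtain ⟨𝒪', i1, i2, i3, i4, i5, i6, i7, i8, i9, i10, h1, φ, hφ⟩ :=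
      exists_dvr_of_isPrime 𝒪 A P (comap_eq_bot_of_mem_minimalPrimes 𝒪 A P hP)
    rw [← hφ, RingHom.mem_ker]
    exact ha 𝒪' h1 φ
  have h2 : sInf (minimalPrimes A) = (⊥ : Ideal A) := by
    have := Ideal.sInf_minimalPrimes (I := (⊥ : Ideal A))
    rw [minimalPrimes, this]
    exact nilradical_eq_bot_iff.mpr inferInstance
  rw [h2, Ideal.mem_bot] at h1
  exact h1

end Fermat.Agent.RT.Components
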