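import Mathlib

/-!
# Reducedness of coefficient rings of Hecke algebras

If `h` is a reduced ring, finite and torsion free over `ℤ`, then every finite torsion-free quotient
of `𝒪 ⊗ h` (with `𝒪` a domain of characteristic zero) is reduced.
-/

set_option autoImplicit false

namespace Fermat.Agent.RT.Reduced

open TensorProduct

/-- A commutative reduced Artinian ring has reduced quotients. -/
theorem isReduced_of_surjective_of_isArtinian {R S : Type*} [CommRing R] [CommRing S]
    [IsArtinianRing R] [IsReduced R] (f : R →+* S) (hf : Function.Surjective f) : IsReduced S := by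
  have h1 : IsSemisimpleRing R := IsArtinianRing.isSemisimpleRing_of_isReduced R
  have h2 : IsSemisimpleRing S := RingHom.isSemisimpleRing_of_surjective f hf
  infer_instance

/-- A quotient of a finite reduced algebra over a field is reduced. -/
theorem isReduced_of_surjective_of_finite (K : Type*) {R S : Type*} [Field K] [CommRing R]
    [Algebra K R] [Module.Finite K R] [CommRing S] [IsReduced R] (f : R →+* S)
    (hf : Function.Surjective f) : IsReduced S := by
  have : IsArtinianRing R := IsArtinianRing.of_finite K R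
  exact isReduced_of_surjective_of_isArtinian f hf

/-- A finite reduced algebra over a characteristic zero field is formally unramified. -/
theorem formallyUnramified_of_isReduced (k A : Type*) [Field k] [CharZero k] [CommRing A]
    [Algebra k A] [Module.Finite k A] [IsReduced A] : Algebra.FormallyUnramified k A := by
  have hart : IsArtinianRing A := IsArtinianRing.of_finite k A
  let e : A ≃+* ∀ I : MaximalSpectrum A, A ⧸ I.asIdeal := IsArtinianRing.equivPi A
  have hfin : Finite (MaximalSpectrum A) := inferInstance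
  let e' : A ≃ₐ[k] ∀ I : MaximalSpectrum A, A ⧸ I.asIdeal :=
    AlgEquiv.ofRingEquiv (f := e) (fun r => by
      funext I
      rfl)
  have h1 : Algebra.FormallyUnramified k (∀ I : MaximalSpectrum A, A ⧸ I.asIdeal) := by
    rw [Algebra.FormallyUnramified.pi_iff]
    intro I
    let _ : Field (A ⧸ I.asIdeal) := Ideal.Quotient.field _
    have : FiniteDimensional k (A ⧸ I.asIdeal) := inferInstance
    exact Algebra.FormallyUnramified.of_isSeparable k (A ⧸ I.asIdeal)
  exact Algebra.FormallyUnramified.of_equiv e'.symm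

/-- Base change of finite reduced algebras along extensions of characteristic zero fields. -/
theorem isReduced_baseChange_field (k K A : Type*) [Field k] [CharZero k] [Field K] [Algebra k K]
    [CommRing A] [Algebra k A] [Module.Finite k A] [IsReduced A] : IsReduced (K ⊗[k] A) := by
  have h1 := formallyUnramified_of_isReduced k A
  have h2 : Algebra.FormallyUnramified K (K ⊗[k] A) := inferInstance
  exact Algebra.FormallyUnramified.isReduced_of_field K (K ⊗[k] A)

/-- `ℚ ⊗ h` is reduced for `h` a reduced ring without additive torsion. -/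
theorem isReduced_rat_tensor (h : Type*) [CommRing h] [IsReduced h] : IsReduced (ℚ ⊗[ℤ] h) := by
  have : IsLocalization (Algebra.algebraMapSubmonoid h (nonZeroDivisors ℤ)) (h ⊗[ℤ] ℚ) :=
    inferInstance
  have h1 : IsReduced (h ⊗[ℤ] ℚ) :=
    isReduced_localizationPreserves (Algebra.algebraMapSubmonoid h (nonZeroDivisors ℤ))
      (h ⊗[ℤ] ℚ) inferInstance
  exact isReduced_of_injective (Algebra.TensorProduct.comm ℤ ℚ h)
    (Algebra.TensorProduct.comm ℤ ℚ h).injective

/-- `K ⊗ h` is reduced for `h` reduced and finite over `ℤ`, `K` a field of characteristic zero. -/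
theorem isReduced_field_tensor (h K : Type*) [CommRing h] [IsReduced h] [Module.Finite ℤ h]
    [Field K] [CharZero K] : IsReduced (K ⊗[ℤ] h) := by
  have h1 := isReduced_rat_tensor h
  have h2 : IsReduced (K ⊗[ℚ] (ℚ ⊗[ℤ] h)) := isReduced_baseChange_field ℚ K (ℚ ⊗[ℤ] h)
  let e := Algebra.TensorProduct.cancelBaseChange ℤ ℚ K K h
  exact isReduced_of_injective e.symm e.symm.injective

/-- Torsion-free finite quotients of generically reduced algebras are reduced. -/
theorem isReduced_of_surjective_of_isReduced_baseChange (𝒪 K B T : Type*) [CommRing 𝒪]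
    [IsDomain 𝒪] [Field K] [Algebra 𝒪 K] [IsFractionRing 𝒪 K] [CommRing B] [Algebra 𝒪 B]
    [Module.Finite 𝒪 B] [CommRing T] [Algebra 𝒪 T] [Module.IsTorsionFree 𝒪 T]
    (hB : IsReduced (K ⊗[𝒪] B)) (f : B →ₐ[𝒪] T) (hf : Function.Surjective f) :
    IsReduced T := by
  let g : K ⊗[𝒪] B →ₐ[K] K ⊗[𝒪] T := Algebra.TensorProduct.map (AlgHom.id K K) f
  have hg : Function.Surjective g :=
    Algebra.TensorProduct.map_surjective _ _ Function.surjective_id hf
  have h3 : IsReduced (K ⊗[𝒪] T) :=
    isReduced_of_surjective_of_finite K g.toRingHom hg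
  have hinj : Function.Injective (Algebra.TensorProduct.includeRight : T →ₐ[𝒪] K ⊗[𝒪] T) := by
    rw [injective_iff_map_eq_zero]
    intro x hx
    have hx' : (1 : K) ⊗ₜ[𝒪] x = 0 := hx
    have hloc : IsLocalizedModule (nonZeroDivisors 𝒪) (TensorProduct.mk 𝒪 K T 1) := inferInstance
    obtain ⟨c, hc⟩ := (IsLocalizedModule.eq_zero_iff (nonZeroDivisors 𝒪)
      (TensorProduct.mk 𝒪 K T 1)).mp hx'
    exact (smul_eq_zero_iff_right (nonZeroDivisors.ne_zero c.2)).mp hc
  exact isReduced_of_injective _ hinj

/-- `K ⊗ (𝒪 ⊗ h)` is reduced. -/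
theorem isReduced_baseChange_tensor (h 𝒪 K : Type*) [CommRing h] [IsReduced h]
    [Module.Finite ℤ h] [CommRing 𝒪] [Field K] [CharZero K] [Algebra 𝒪 K] :
    IsReduced (K ⊗[𝒪] (𝒪 ⊗[ℤ] h)) := by
  have h1 : IsReduced (K ⊗[ℤ] h) := isReduced_field_tensor h K
  let e := Algebra.TensorProduct.cancelBaseChange ℤ 𝒪 K K h
  exact isReduced_of_injective e e.injective

/-- Torsion-free finite quotients of `𝒪 ⊗ h` are reduced. -/
theorem isReduced_of_tensor_surjective (h 𝒪 T : Type*) [CommRing h] [IsReduced h]
    [Module.Finite ℤ h] [CommRing 𝒪] [IsDomain 𝒪] [CharZero 𝒪] [CommRing T] [Algebra 𝒪 T]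
    [Module.IsTorsionFree 𝒪 T] (f : 𝒪 ⊗[ℤ] h →ₐ[𝒪] T) (hf : Function.Surjective f) :
    IsReduced T := by
  have hK0 : CharZero (FractionRing 𝒪) :=
    charZero_of_injective_algebraMap (IsFractionRing.injective 𝒪 (FractionRing 𝒪))
  exact isReduced_of_surjective_of_isReduced_baseChange 𝒪 (FractionRing 𝒪) (𝒪 ⊗[ℤ] h) T
    (isReduced_baseChange_tensor h 𝒪 (FractionRing 𝒪)) f hf

/-- Version with generators: if `π : h → T` generates `T` as an `𝒪`-algebra. -/
theorem isReduced_of_adjoin_range_eq_top (h 𝒪 T : Type*) [CommRing h] [IsReduced h]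
    [Module.Finite ℤ h] [CommRing 𝒪] [IsDomain 𝒪] [CharZero 𝒪] [CommRing T] [Algebra 𝒪 T]
    [Module.IsTorsionFree 𝒪 T] (π : h →+* T) (hπ : Algebra.adjoin 𝒪 (Set.range π) = ⊤) :
    IsReduced T := by
  let f : 𝒪 ⊗[ℤ] h →ₐ[𝒪] T :=
    Algebra.TensorProduct.lift (Algebra.ofId 𝒪 T) π.toIntAlgHom (fun _ _ => Commute.all _ _)
  refine isReduced_of_tensor_surjective h 𝒪 T f ?_
  rw [← AlgHom.range_eq_top, eq_top_iff, ← hπ, Algebra.adjoin_le_iff]
  rintro _ ⟨t, rfl⟩
  refine ⟨1 ⊗ₜ t, ?_⟩
  change f (1 ⊗ₜ t) = π t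
  simp [f]

end Fermat.Agent.RT.Reduced
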