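import Fermat.Agent.LR.EigenSymbol

/-!
# Common definitions for team RT (helper59)

* `nilSub T` : the submodule of those `x` at which the operator `T` is topologically nilpotent
  (`∀ c ≠ 0, ∃ n z, T^n x = c • z`; `𝒪` is a DVR in all applications).
* `part H F = H ⊓ ⨅ T ∈ F, nilSub T` : localisation of `H` at the "maximal ideal" given by `F`.
* `sgnMS R ε Γ` : the `ε`-part of `MS Γ R` for `slash jMat` (`ε = 1` or `-1`).
* `dia N Q ψ : Γ₀(NQ) →* Δ`, `GammaH N Q ψ` its kernel.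
-/

set_option autoImplicit false

open Matrix Matrix.SpecialLinearGroup CongruenceSubgroup IsLocalRing
open scoped MatrixGroups OnePoint

noncomputable section

namespace Fermat.Agent.RT

open Fermat.Agent.LR Fermat.Agent.LR.PS

/-! ### Topologically nilpotent operators -/

section Nil

variable {𝒪 : Type*} [CommRing 𝒪] {X : Type*} [AddCommGroup X] [Module 𝒪 X]

/-- The submodule on which `T` is topologically nilpotent. -/
def nilSub (T : Module.End 𝒪 X) : Submodule 𝒪 X where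
  carrier := {x | ∀ c : 𝒪, c ≠ 0 → ∃ (n : ℕ) (z : X), (T ^ n) x = c • z}
  zero_mem' := fun _ _ => ⟨0, 0, by simp⟩
  add_mem' := by
    intro x y hx hy c hc
    obtain ⟨n, z, hz⟩ := hx c hc
    obtain ⟨m, w, hw⟩ := hy c hc
    refine ⟨m + n, (T ^ m) z + (T ^ n) w, ?_⟩
    rw [map_add, pow_add, Module.End.mul_apply, hz, ← pow_add, add_comm m n, pow_add,
      Module.End.mul_apply, hw, map_smul, map_smul, smul_add]
  smul_mem' := by
    intro a x hx c hc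
    obtain ⟨n, z, hz⟩ := hx c hc
    exact ⟨n, a • z, by rw [map_smul, hz, smul_comm]⟩

theorem mem_nilSub {T : Module.End 𝒪 X} {x : X} :
    x ∈ nilSub T ↔ ∀ c : 𝒪, c ≠ 0 → ∃ (n : ℕ) (z : X), (T ^ n) x = c • z := Iff.rfl

/-- The localisation of `H` at `F`. -/
def part (H : Submodule 𝒪 X) (F : Set (Module.End 𝒪 X)) : Submodule 𝒪 X :=
  H ⊓ ⨅ T ∈ F, nilSub T

theorem mem_part {H : Submodule 𝒪 X} {F : Set (Module.End 𝒪 X)} {x : X} :
    x ∈ part H F ↔ x ∈ H ∧ ∀ T ∈ F, x ∈ nilSub T := by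
  simp [part]

theorem part_le {H : Submodule 𝒪 X} {F : Set (Module.End 𝒪 X)} : part H F ≤ H := inf_le_left

theorem part_mono {H H' : Submodule 𝒪 X} {F F' : Set (Module.End 𝒪 X)} (h : H ≤ H')
    (hF : F' ⊆ F) : part H F ≤ part H' F' := fun _ hx =>
  mem_part.mpr ⟨h (mem_part.mp hx).1, fun T hT => (mem_part.mp hx).2 T (hF hT)⟩

end Nil

/-! ### Signs -/

/-- The `ε`-part of the modular symbols for the involution `diag(-1,1)`. -/
def sgnMS (R : Type*) [CommRing R] (ε : ℤ) (Γ : Subgroup SL(2, ℤ)) : Submodule R (Pairs R) :=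
  MS Γ R ⊓ LinearMap.ker (slash (R := R) jMat - (ε : R) • LinearMap.id)

theorem mem_sgnMS {R : Type*} [CommRing R] {ε : ℤ} {Γ : Subgroup SL(2, ℤ)} {x : Pairs R} :
    x ∈ sgnMS R ε Γ ↔ x ∈ MS Γ R ∧ slash jMat x = (ε : R) • x := by
  rw [sgnMS, Submodule.mem_inf, LinearMap.mem_ker, LinearMap.sub_apply, sub_eq_zero]
  rfl

/-! ### The groups `Γ_H` -/

/-- `Γ₀(NQ) → (ℤ/Q)ˣ → Δ`, `γ ↦ ψ(d)`. -/
def dia (N Q : ℕ) {Δ : Type*} [CommGroup Δ] (ψ : (ZMod Q)ˣ →* Δ) : Gamma0 (N * Q) →* Δ :=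
  (ψ.comp (ZMod.unitsMap (dvd_mul_left Q N))).comp (Gamma0Map (N * Q)).toHomUnits

theorem dia_apply (N Q : ℕ) {Δ : Type*} [CommGroup Δ] (ψ : (ZMod Q)ˣ →* Δ) (γ : Gamma0 (N * Q))
    (u : (ZMod Q)ˣ) (hu : (u : ZMod Q) = ((γ : SL(2, ℤ)) 1 1 : ZMod Q)) : dia N Q ψ γ = ψ u := by
  have : ZMod.unitsMap (dvd_mul_left Q N) ((Gamma0Map (N * Q)).toHomUnits γ) = u := by
    apply Units.ext
    rw [hu, ZMod.unitsMap_val]
    simp [Gamma0Map]
  rw [dia, MonoidHom.comp_apply, MonoidHom.comp_apply, this]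

/-- `Γ_H = {γ ∈ Γ₀(NQ) | ψ(d) = 1}`. -/
def GammaH (N Q : ℕ) {Δ : Type*} [CommGroup Δ] (ψ : (ZMod Q)ˣ →* Δ) : Subgroup SL(2, ℤ) :=
  (dia N Q ψ).ker.map (Gamma0 (N * Q)).subtype

theorem mem_GammaH {N Q : ℕ} {Δ : Type*} [CommGroup Δ] {ψ : (ZMod Q)ˣ →* Δ} {γ : SL(2, ℤ)} :
    γ ∈ GammaH N Q ψ ↔ ∃ h : γ ∈ Gamma0 (N * Q), dia N Q ψ ⟨γ, h⟩ = 1 := by
  constructor
  · rintro ⟨γ', h1, rfl⟩
    exact ⟨γ'.2, h1⟩
  · rintro ⟨h, h1⟩
    exact ⟨⟨γ, h⟩, h1, rfl⟩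

end Fermat.Agent.RT
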