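import Mathlib
import Fermat.Prelude.Def_CuspForm_HeckeLocal
import Fermat.Agent.RT.Reduced

/-!
# The non-Galois fields of a `HeckeGaloisRepDatum` for `heckeLocal`
-/

set_option autoImplicit false

noncomputable section

open scoped TensorProduct
open IsLocalRing

namespace Fermat.Agent.RT.HeckeLocalFields

open CuspForm

variable (N : ℕ) [NeZero N] (S : Set ℕ)
variable (𝒪 : Type) [CommRing 𝒪] [IsDomain 𝒪] [IsDiscreteValuationRing 𝒪]
  [IsAdicComplete (IsLocalRing.maximalIdeal 𝒪) 𝒪]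
variable (θ : heckeAlgebra N 2 S →+* IsLocalRing.ResidueField 𝒪)
variable [Fact (HasIntegralStructure N 2)]

/-- The composite `𝒪 ⊗ h → heckeLocal`. -/
def toLocal : (𝒪 ⊗[ℤ] ↥(heckeAlgebra N 2 S)) →+* heckeLocal N S 𝒪 θ :=
  (algebraMap (heckeBaseAlgebra N S 𝒪) (heckeLocal N S 𝒪 θ)).comp (latticeBaseChange N S 𝒪)

omit [Fact (HasIntegralStructure N 2)] in
theorem toLocal_one_tmul (t : ↥(heckeAlgebra N 2 S)) :
    toLocal N S 𝒪 θ (1 ⊗ₜ t) = heckeLocal.π N S 𝒪 θ t := rfl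

omit [Fact (HasIntegralStructure N 2)] in
theorem toLocal_algebraMap (a : 𝒪) :
    toLocal N S 𝒪 θ (algebraMap 𝒪 _ a) = algebraMap 𝒪 (heckeLocal N S 𝒪 θ) a := by
  rw [toLocal, RingHom.comp_apply, latticeBaseChange_algebraMap,
    ← IsScalarTower.algebraMap_apply 𝒪 (heckeBaseAlgebra N S 𝒪) (heckeLocal N S 𝒪 θ)]

theorem algebraMap_surjective :
    Function.Surjective (algebraMap (heckeBaseAlgebra N S 𝒪) (heckeLocal N S 𝒪 θ)) := by
  classical
  have hfin : Module.Finite 𝒪 (heckeBaseAlgebra N S 𝒪) :=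
    inferInstanceAs (Module.Finite 𝒪 (𝒪 ⊗[ℤ] ↥(heckeLatticeAlgebra N S)))
  obtain ⟨-, hbij, -, -⟩ :=
    Algebra.finite_maximalSpectrum_and_bijective_localization_of_module_finite (𝒪 := 𝒪)
      (heckeBaseAlgebra N S 𝒪)
  let P : MaximalSpectrum (heckeBaseAlgebra N S 𝒪) :=
    ⟨heckeLocalIdeal N S 𝒪 θ, heckeLocalIdeal.instIsMaximal N S 𝒪 θ⟩
  have hsurj : Function.Surjective (algebraMap (heckeBaseAlgebra N S 𝒪)
      (Localization.AtPrime P.asIdeal)) := by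
    intro z
    obtain ⟨b, hb⟩ := hbij.2 (Function.update 0 P z)
    refine ⟨b, ?_⟩
    have h := congrFun hb P
    simp only [Function.update_self] at h
    exact h
  have hloc : IsLocalization (heckeLocalIdeal N S 𝒪 θ).primeCompl (heckeLocal N S 𝒪 θ) :=
    heckeLocal.instIsLocalizationAtPrime N S 𝒪 θ
  let e : Localization.AtPrime P.asIdeal ≃ₐ[heckeBaseAlgebra N S 𝒪] heckeLocal N S 𝒪 θ :=
    IsLocalization.algEquiv (heckeLocalIdeal N S 𝒪 θ).primeCompl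
      (Localization.AtPrime (heckeLocalIdeal N S 𝒪 θ)) (heckeLocal N S 𝒪 θ)
  intro z
  obtain ⟨b, hb⟩ := hsurj (e.symm z)
  refine ⟨b, ?_⟩
  have h1 := congrArg e hb
  rw [e.apply_symm_apply, e.commutes] at h1
  exact h1

theorem toLocal_surjective : Function.Surjective (toLocal N S 𝒪 θ) :=
  (algebraMap_surjective N S 𝒪 θ).comp (latticeBaseChange_surjective N S 𝒪)

theorem toLocal_mem_maximalIdeal_iff (x : 𝒪 ⊗[ℤ] ↥(heckeAlgebra N 2 S)) :
    toLocal N S 𝒪 θ x ∈ maximalIdeal (heckeLocal N S 𝒪 θ) ↔ x ∈ heckeCharKernel N S 𝒪 θ := by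
  rw [toLocal, RingHom.comp_apply,
    IsLocalization.AtPrime.to_map_mem_maximal_iff (heckeLocal N S 𝒪 θ) (heckeLocalIdeal N S 𝒪 θ),
    ← Ideal.mem_comap, comap_heckeLocalIdeal N S 𝒪 θ (ker_latticeBaseChange_le_heckeCharKernel N S 𝒪 θ)]

theorem residue_toLocal_eq (x : 𝒪 ⊗[ℤ] ↥(heckeAlgebra N 2 S)) (a : 𝒪)
    (ha : IsLocalRing.residue 𝒪 a = residualCharacter N S 𝒪 θ x) :
    IsLocalRing.residue _ (toLocal N S 𝒪 θ x) =
      IsLocalRing.residue _ (algebraMap 𝒪 (heckeLocal N S 𝒪 θ) a) := by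
  rw [← sub_eq_zero, ← map_sub, IsLocalRing.residue_eq_zero_iff, ← toLocal_algebraMap, ← map_sub,
    toLocal_mem_maximalIdeal_iff, mem_heckeCharKernel_iff, map_sub, residualCharacter_algebraMap,
    ha, sub_self]

theorem residue_π (t : heckeAlgebra N 2 S) :
    IsLocalRing.residue (heckeLocal N S 𝒪 θ) (heckeLocal.π N S 𝒪 θ t) =
      IsLocalRing.ResidueField.map (algebraMap 𝒪 (heckeLocal N S 𝒪 θ)) (θ t) := by
  obtain ⟨a, ha⟩ := IsLocalRing.residue_surjective (θ t)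
  rw [← toLocal_one_tmul, residue_toLocal_eq N S 𝒪 θ (1 ⊗ₜ t) a, ← ha,
    IsLocalRing.ResidueField.map_residue]
  rw [ha, residualCharacter_tmul, map_one, one_mul]

theorem residue_surjective' :
    Function.Surjective (IsLocalRing.residue (heckeLocal N S 𝒪 θ) ∘
      algebraMap 𝒪 (heckeLocal N S 𝒪 θ)) := by
  intro x
  obtain ⟨y, rfl⟩ := IsLocalRing.residue_surjective x
  obtain ⟨z, rfl⟩ := toLocal_surjective N S 𝒪 θ y
  obtain ⟨a, ha⟩ := IsLocalRing.residue_surjective (residualCharacter N S 𝒪 θ z)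
  exact ⟨a, (residue_toLocal_eq N S 𝒪 θ z a ha).symm⟩

theorem adjoin_range_π :
    Algebra.adjoin 𝒪 (Set.range (heckeLocal.π N S 𝒪 θ)) = ⊤ := by
  rw [eq_top_iff]
  rintro x -
  obtain ⟨z, rfl⟩ := toLocal_surjective N S 𝒪 θ x
  induction z using TensorProduct.induction_on with
  | zero => rw [map_zero]; exact Subalgebra.zero_mem _
  | tmul a t =>
    have h1 : (a ⊗ₜ[ℤ] t : 𝒪 ⊗[ℤ] ↥(heckeAlgebra N 2 S)) = algebraMap 𝒪 _ a * (1 ⊗ₜ t) := by
      rw [Algebra.TensorProduct.algebraMap_apply, Algebra.TensorProduct.tmul_mul_tmul, mul_one,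
        one_mul]
      rfl
    rw [h1, map_mul, toLocal_algebraMap, toLocal_one_tmul]
    exact Subalgebra.mul_mem _ (Subalgebra.algebraMap_mem _ a)
      (Algebra.subset_adjoin ⟨t, rfl⟩)
  | add x y hx hy => rw [map_add]; exact Subalgebra.add_mem _ hx hy

theorem exists_point (χ : heckeAlgebra N 2 S →+* 𝒪)
    (hχ : ∀ t : heckeAlgebra N 2 S, IsLocalRing.residue 𝒪 (χ t) = θ t) :
    ∃ ψ : heckeLocal N S 𝒪 θ →ₐ[𝒪] 𝒪, ∀ t : heckeAlgebra N 2 S,
      ψ (heckeLocal.π N S 𝒪 θ t) = χ t := by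
  -- the character of `𝒪 ⊗ h`
  let χ₀ : (𝒪 ⊗[ℤ] ↥(heckeAlgebra N 2 S)) →ₐ[𝒪] 𝒪 :=
    Algebra.TensorProduct.lift (AlgHom.id 𝒪 𝒪) χ.toIntAlgHom (fun _ _ => Commute.all _ _)
  have hχ₀ : ∀ a t, χ₀ (a ⊗ₜ t) = a * χ t := fun a t => by simp [χ₀]
  have hres : ∀ x, IsLocalRing.residue 𝒪 (χ₀ x) = residualCharacter N S 𝒪 θ x := by
    intro x
    induction x using TensorProduct.induction_on with
    | zero => rw [map_zero, map_zero, map_zero]
    | tmul a t => rw [hχ₀, map_mul, hχ, residualCharacter_tmul]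
    | add x y hx hy => rw [map_add, map_add, map_add, hx, hy]
  let e : (𝒪 ⊗[ℤ] ↥(heckeAlgebra N 2 S)) ≃+* heckeBaseAlgebra N S 𝒪 :=
    RingEquiv.ofBijective (latticeBaseChange N S 𝒪)
      ⟨latticeBaseChange_injective N S 𝒪 Fact.out, latticeBaseChange_surjective N S 𝒪⟩
  have he : ∀ x, e x = latticeBaseChange N S 𝒪 x := fun _ => rfl
  let χ₁ : heckeBaseAlgebra N S 𝒪 →+* 𝒪 := (χ₀ : _ →+* 𝒪).comp e.symm.toRingHom
  have hχ₁ : ∀ x, χ₁ (latticeBaseChange N S 𝒪 x) = χ₀ x := by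
    intro x
    change χ₀ (e.symm (e x)) = χ₀ x
    rw [e.symm_apply_apply]
  have hunit : ∀ y : heckeLocalSubmonoid N S 𝒪 θ, IsUnit (χ₁ y) := by
    rintro ⟨_, x, hx, rfl⟩
    rw [hχ₁]
    by_contra hnu
    apply Ideal.mem_primeCompl_iff.mp hx
    rw [mem_heckeCharKernel_iff, ← hres, IsLocalRing.residue_eq_zero_iff]
    exact hnu
  let ψ₀ : heckeLocal N S 𝒪 θ →+* 𝒪 := IsLocalization.lift (M := heckeLocalSubmonoid N S 𝒪 θ) hunit
  have hψ₀ : ∀ x, ψ₀ (toLocal N S 𝒪 θ x) = χ₀ x := by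
    intro x
    rw [toLocal, RingHom.comp_apply]
    change IsLocalization.lift hunit _ = _
    rw [IsLocalization.lift_eq, hχ₁]
  refine ⟨{ ψ₀ with
    commutes' := fun a => ?_ }, fun t => ?_⟩
  · change ψ₀ (algebraMap 𝒪 (heckeLocal N S 𝒪 θ) a) = a
    rw [← toLocal_algebraMap, hψ₀, AlgHom.commutes]
    rfl
  · change ψ₀ (heckeLocal.π N S 𝒪 θ t) = χ t
    rw [← toLocal_one_tmul, hψ₀, hχ₀, one_mul]

/-- `heckeLocal` is reduced as soon as the Hecke algebra is (characteristic zero coefficients). -/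
theorem isReduced [CharZero 𝒪] (hred : IsReduced (heckeAlgebra N 2 S))
    (hfin : Module.Finite ℤ (heckeAlgebra N 2 S)) : IsReduced (heckeLocal N S 𝒪 θ) := by
  have htf : Module.IsTorsionFree 𝒪 (heckeLocal N S 𝒪 θ) := inferInstance
  exact Reduced.isReduced_of_adjoin_range_eq_top (heckeAlgebra N 2 S) 𝒪 _ (heckeLocal.π N S 𝒪 θ)
    (adjoin_range_π N S 𝒪 θ)

end Fermat.Agent.RT.HeckeLocalFields
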