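import Mathlib
import Fermat.Prelude.Thm_Algebra_finite_maximalSpectrum_and_bijective_localization_of_module_finite

/-!
# Localisation of finite modules over complete local rings

`𝒪` complete noetherian local, `A` a commutative `𝒪`-algebra, `V` an `A`-module finite over `𝒪`,
`𝔪` a maximal ideal of `A`. Then `V_𝔪 = LocalizedModule 𝔪.primeCompl V` is a direct summand of `V`.
-/

set_option autoImplicit false

open IsLocalRing

namespace Fermat.Agent.RT.LocalModule

section Idem

variable {𝒪 : Type} [CommRing 𝒪] [IsLocalRing 𝒪] [IsNoetherianRing 𝒪]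
  [IsAdicComplete (maximalIdeal 𝒪) 𝒪]

/-- The idempotent of a finite algebra attached to a maximal ideal. -/
theorem exists_idem_of_finite (T : Type) [CommRing T] [Algebra 𝒪 T] [Module.Finite 𝒪 T]
    (P : Ideal T) [P.IsMaximal] :
    ∃ e : T, e ∉ P ∧ e * e = e ∧ ∀ s ∉ P, ∃ s' : T, s * s' * e = e := by
  classical
  obtain ⟨-, hbij, -, -⟩ :=
    Algebra.finite_maximalSpectrum_and_bijective_localization_of_module_finite (𝒪 := 𝒪) T
  let P' : MaximalSpectrum T := ⟨P, inferInstance⟩
  let F : T →+* ∀ I : MaximalSpectrum T, Localization.AtPrime I.asIdeal :=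
    RingHom.pi fun I : MaximalSpectrum T => algebraMap T (Localization.AtPrime I.asIdeal)
  obtain ⟨e, he⟩ := hbij.2 (Pi.single P' 1)
  have heP : algebraMap T (Localization.AtPrime P'.asIdeal) e = 1 := by
    have := congrFun he P'
    rwa [Pi.single_eq_same] at this
  refine ⟨e, fun h => ?_, hbij.1 ?_, fun s hs => ?_⟩
  · have h1 := (IsLocalization.AtPrime.to_map_mem_maximal_iff
      (Localization.AtPrime P'.asIdeal) P'.asIdeal e).mpr h
    rw [heP] at h1
    exact (Ideal.ne_top_iff_one _).mp (maximalIdeal.isMaximal _).ne_top h1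
  · change F (e * e) = F e
    rw [map_mul]
    change F e = _ at he
    rw [he]
    ext I
    by_cases hI : I = P'
    · subst hI; rw [Pi.mul_apply, Pi.single_eq_same, one_mul]
    · rw [Pi.mul_apply, Pi.single_eq_of_ne hI, zero_mul]
  · have hu : IsUnit (algebraMap T (Localization.AtPrime P'.asIdeal) s) :=
      IsLocalization.map_units (M := P'.asIdeal.primeCompl) _ ⟨s, hs⟩
    obtain ⟨u, hu⟩ := hu
    obtain ⟨s', hs'⟩ := hbij.2 (Pi.single P' ((u⁻¹ : (Localization.AtPrime P'.asIdeal)ˣ) :
      Localization.AtPrime P'.asIdeal))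
    refine ⟨s', hbij.1 ?_⟩
    change F s' = _ at hs'
    change F e = _ at he
    change F (s * s' * e) = F e
    rw [map_mul, map_mul, he, hs']
    ext I
    by_cases hI : I = P'
    · subst hI
      rw [Pi.mul_apply, Pi.mul_apply, Pi.single_eq_same, Pi.single_eq_same, mul_one]
      change algebraMap T (Localization.AtPrime P'.asIdeal) s * _ = 1
      rw [← hu, Units.mul_inv]
    · rw [Pi.mul_apply, Pi.single_eq_of_ne hI, mul_zero]

variable {A : Type} [CommRing A] [Algebra 𝒪 A] (𝔪 : Ideal A) [𝔪.IsMaximal]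
  (V : Type) [AddCommGroup V] [Module 𝒪 V] [Module A V] [IsScalarTower 𝒪 A V] [Module.Finite 𝒪 V]

include 𝒪 in
/-- The idempotent attached to `𝔪` acting on a finite module. -/
theorem exists_idem : ∃ e : A, e ∉ 𝔪 ∧ (∀ v : V, e • e • v = e • v) ∧
    ∀ s ∉ 𝔪, ∃ s' : A, ∀ v : V, s • s' • e • v = e • v := by
  by_cases hle : Module.annihilator A V ≤ 𝔪
  · let T := A ⧸ Module.annihilator A V
    let F : A →ₐ[𝒪] Module.End 𝒪 V := Algebra.lsmul 𝒪 𝒪 V
    have hF : ∀ a, F a = 0 ↔ a ∈ Module.annihilator A V := by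
      intro a
      rw [Module.mem_annihilator]
      exact ⟨fun h v => LinearMap.congr_fun h v, fun h => LinearMap.ext h⟩
    let G : T →ₐ[𝒪] Module.End 𝒪 V := Ideal.Quotient.liftₐ _ F fun a ha => (hF a).mpr ha
    have hG : Function.Injective G := by
      rw [injective_iff_map_eq_zero]
      intro t ht
      obtain ⟨a, rfl⟩ := Ideal.Quotient.mk_surjective t
      exact Ideal.Quotient.eq_zero_iff_mem.mpr ((hF a).mp ht)
    have hfin : Module.Finite 𝒪 T := by
      have : Module.Finite 𝒪 (Module.End 𝒪 V) := inferInstance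
      exact Module.Finite.of_injective G.toLinearMap hG
    let P : Ideal T := 𝔪.map (Ideal.Quotient.mk _)
    have hPcomap : P.comap (Ideal.Quotient.mk _) = 𝔪 := by
      rw [Ideal.comap_map_of_surjective _ Ideal.Quotient.mk_surjective, ← RingHom.ker_eq_comap_bot,
        Ideal.mk_ker]
      exact sup_eq_left.mpr hle
    have hPmax : P.IsMaximal := by
      refine (Ideal.map_eq_top_or_isMaximal_of_surjective _ Ideal.Quotient.mk_surjective
        inferInstance).resolve_left fun h => ?_
      have h1 : P.comap (Ideal.Quotient.mk (Module.annihilator A V)) = ⊤ := by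
        rw [show P = ⊤ from h, Ideal.comap_top]
      rw [hPcomap] at h1
      exact Ideal.IsPrime.ne_top inferInstance h1
    obtain ⟨e, heP, hee, hes⟩ := exists_idem_of_finite (𝒪 := 𝒪) T P
    obtain ⟨e, rfl⟩ := Ideal.Quotient.mk_surjective e
    have hsub : ∀ a b : A, (Ideal.Quotient.mk (Module.annihilator A V) a = Ideal.Quotient.mk _ b) →
        ∀ v : V, a • v = b • v := by
      intro a b hab v
      rw [Ideal.Quotient.eq, Module.mem_annihilator] at hab
      have := hab v
      rwa [sub_smul, sub_eq_zero] at this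
    refine ⟨e, fun h => heP ?_, fun v => ?_, fun s hs => ?_⟩
    · exact Ideal.mem_map_of_mem _ h
    · rw [smul_smul]
      exact hsub (e * e) e (by rw [map_mul]; exact hee) v
    · obtain ⟨s', hs'⟩ := hes (Ideal.Quotient.mk _ s) (fun h => hs (by rw [← hPcomap]; exact h))
      obtain ⟨s', rfl⟩ := Ideal.Quotient.mk_surjective s'
      refine ⟨s', fun v => ?_⟩
      rw [smul_smul, smul_smul]
      exact hsub _ _ (by rw [map_mul, map_mul]; exact hs') v
  · obtain ⟨e, he, he'⟩ := SetLike.not_le_iff_exists.mp hle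
    rw [Module.mem_annihilator] at he
    exact ⟨e, he', fun v => by rw [he (e • v), he v], fun s _ => ⟨1, fun v => by
      rw [he, smul_zero, smul_zero]⟩⟩

include 𝒪 in
/-- **`V_𝔪` is a direct summand of `V`**, cut out by an element `e` of `A` acting as an
idempotent. -/
theorem exists_section : ∃ (σ : LocalizedModule 𝔪.primeCompl V →ₗ[A] V) (e : A), e ∉ 𝔪 ∧
    (∀ x, LocalizedModule.mkLinearMap 𝔪.primeCompl V (σ x) = x) ∧
    ∀ v, σ (LocalizedModule.mkLinearMap 𝔪.primeCompl V v) = e • v := by
  obtain ⟨e, he, hee, hes⟩ := exists_idem (𝒪 := 𝒪) 𝔪 V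
  let μ : V →ₗ[A] V := LinearMap.lsmul A V e
  let W : Submodule A V := LinearMap.range μ
  have hWe : ∀ w ∈ W, e • w = w := by
    rintro _ ⟨v, rfl⟩
    exact hee v
  have hunit : ∀ s : 𝔪.primeCompl, IsUnit (algebraMap A (Module.End A W) s) := by
    rintro ⟨s, hs⟩
    obtain ⟨s', hs'⟩ := hes s hs
    rw [Module.End.isUnit_iff]
    constructor
    · intro w w' hww'
      have h1 : s • (w : V) = s • (w' : V) := congrArg Subtype.val hww'
      refine Subtype.ext ?_
      have h2 : ∀ w : W, (w : V) = s' • s • (w : V) := fun w => by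
        rw [smul_comm, ← hWe w w.2, hs']
      rw [h2 w, h1, ← h2 w']
    · intro w
      refine ⟨s' • w, Subtype.ext ?_⟩
      change s • s' • (w : V) = w
      rw [← hWe w w.2, hs']
  let g : V →ₗ[A] W := μ.rangeRestrict
  refine ⟨W.subtype.comp (LocalizedModule.lift 𝔪.primeCompl g hunit), e, he, fun x => ?_,
    fun v => ?_⟩
  · have h2 : (LocalizedModule.mkLinearMap 𝔪.primeCompl V).comp
        (W.subtype.comp (LocalizedModule.lift 𝔪.primeCompl g hunit)) = LinearMap.id := by
      refine IsLocalizedModule.ext 𝔪.primeCompl (LocalizedModule.mkLinearMap 𝔪.primeCompl V)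
        (fun s => IsLocalizedModule.map_units (LocalizedModule.mkLinearMap 𝔪.primeCompl V) s) ?_
      refine LinearMap.ext fun v => ?_
      have h1 := LinearMap.congr_fun (LocalizedModule.lift_comp 𝔪.primeCompl g hunit) v
      rw [LinearMap.comp_apply] at h1
      rw [LinearMap.comp_apply, LinearMap.comp_apply, LinearMap.comp_apply, h1, LinearMap.comp_apply,
        LinearMap.id_apply]
      change LocalizedModule.mkLinearMap 𝔪.primeCompl V (e • v) = _
      rw [IsLocalizedModule.eq_iff_exists 𝔪.primeCompl]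
      exact ⟨⟨e, he⟩, hee v⟩
    exact LinearMap.congr_fun h2 x
  · rw [LinearMap.comp_apply]
    have h1 := LinearMap.congr_fun (LocalizedModule.lift_comp 𝔪.primeCompl g hunit) v
    rw [LinearMap.comp_apply] at h1
    rw [h1]
    rfl

include 𝒪 in
theorem mk_surjective :
    Function.Surjective (LocalizedModule.mkLinearMap 𝔪.primeCompl V) := by
  obtain ⟨σ, -, -, h, -⟩ := exists_section (𝒪 := 𝒪) 𝔪 V
  exact fun x => ⟨σ x, h x⟩

/-- `V_𝔪` is projective over any ring `Λ` mapping to `A` over which `V` is projective. -/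
theorem projective_localizedModule (Λ : Type) [CommRing Λ] [Algebra Λ A] [Module Λ V]
    [IsScalarTower Λ A V] [Module.Projective Λ V]
    (h𝒪 : ∃ (σ : LocalizedModule 𝔪.primeCompl V →ₗ[A] V),
      ∀ x, LocalizedModule.mkLinearMap 𝔪.primeCompl V (σ x) = x) :
    Module.Projective Λ (LocalizedModule 𝔪.primeCompl V) := by
  obtain ⟨σ, h⟩ := h𝒪
  exact Module.Projective.of_split (σ.restrictScalars Λ)
    ((LocalizedModule.mkLinearMap 𝔪.primeCompl V).restrictScalars Λ) (LinearMap.ext h)

/-- `V_𝔪` is free over any local ring `Λ` mapping to `A` over which `V` is finite and free. -/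
theorem free_localizedModule (Λ : Type) [CommRing Λ] [IsLocalRing Λ] [Algebra Λ A] [Module Λ V]
    [IsScalarTower Λ A V] [Module.Free Λ V] [Module.Finite Λ V]
    (h𝒪 : ∃ (σ : LocalizedModule 𝔪.primeCompl V →ₗ[A] V),
      ∀ x, LocalizedModule.mkLinearMap 𝔪.primeCompl V (σ x) = x) :
    Module.Free Λ (LocalizedModule 𝔪.primeCompl V) ∧
      Module.Finite Λ (LocalizedModule 𝔪.primeCompl V) := by
  have hproj := projective_localizedModule 𝔪 V Λ h𝒪
  obtain ⟨σ, h⟩ := h𝒪
  have hfin : Module.Finite Λ (LocalizedModule 𝔪.primeCompl V) :=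
    Module.Finite.of_surjective
      ((LocalizedModule.mkLinearMap 𝔪.primeCompl V).restrictScalars Λ) (fun x => ⟨σ x, h x⟩)
  exact ⟨Module.free_of_flat_of_isLocalRing, hfin⟩

end Idem

end Fermat.Agent.RT.LocalModule
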