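import Mathlib
import Fermat.Agent.LR.Ops
import Fermat.Agent.LR.BoundaryEis
import Fermat.Agent.S21
import Fermat.Prelude.Def_CuspForm_HeckeAlgebra

/-!
# The Hecke algebra of cusp forms acts on localised modular symbols

* `CommAct.act`: a commuting family of endomorphisms gives a polynomial action;
* `evForms`: `ℤ[X_ℓ : ℓ ∉ S] → heckeAlgebra M 2 S`;
* `msAct`: the action of `R₀[X_ℓ]` on `MS (Γ₀(M)) R`;
* `msAct_eq_zero_of_evForms_eq_zero`: if `a` vanishes in the Hecke algebra of forms then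
  `(X_ℓ - 1 - ℓ) a` kills `MS (Γ₀(M)) R` for `ℓ ≡ 1 mod M` (`R` torsion-free).
-/

set_option autoImplicit false
set_option linter.unusedSectionVars false

open Matrix Matrix.SpecialLinearGroup CongruenceSubgroup
open scoped MatrixGroups OnePoint

namespace Fermat.Agent.RT.MSHecke

open Fermat.Agent.LR Fermat.Agent.LR.PS

/-! ### Commuting families -/

section CommAct

variable {R V I : Type*} [CommRing R] [AddCommGroup V] [Module R V]

open scoped IsMulCommutative in
/-- The polynomial action attached to a commuting family of endomorphisms. -/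
noncomputable def commAct (t : I → Module.End R V) (h : ∀ i j, Commute (t i) (t j)) :
    MvPolynomial I R →ₐ[R] Module.End R V :=
  haveI : IsMulCommutative (Algebra.adjoin R (Set.range t)) :=
    Algebra.isMulCommutative_adjoin R (by
      rintro _ ⟨i, rfl⟩ _ ⟨j, rfl⟩
      exact h i j)
  (Algebra.adjoin R (Set.range t)).val.comp
    (MvPolynomial.aeval fun i => (⟨t i, Algebra.subset_adjoin ⟨i, rfl⟩⟩ :
      Algebra.adjoin R (Set.range t)))

theorem commAct_X (t : I → Module.End R V) (h : ∀ i j, Commute (t i) (t j)) (i : I) :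
    commAct t h (MvPolynomial.X i) = t i := by
  rw [commAct]
  simp only [AlgHom.comp_apply, MvPolynomial.aeval_X]
  rfl

/-- Intertwining maps are compatible with the polynomial actions. -/
theorem commAct_intertwine {V' : Type*} [AddCommGroup V'] [Module R V'] {t : I → Module.End R V}
    {h : ∀ i j, Commute (t i) (t j)} {t' : I → Module.End R V'} {h' : ∀ i j, Commute (t' i) (t' j)}
    (F : V →ₗ[R] V') (hF : ∀ i v, F (t i v) = t' i (F v)) (a : MvPolynomial I R) (v : V) :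
    F (commAct t h a v) = commAct t' h' a (F v) := by
  induction a using MvPolynomial.induction_on generalizing v with
  | C r =>
    have e1 : commAct t h (MvPolynomial.C r) = algebraMap R _ r := AlgHom.commutes _ r
    have e2 : commAct t' h' (MvPolynomial.C r) = algebraMap R _ r := AlgHom.commutes _ r
    rw [e1, e2, Module.algebraMap_end_apply, Module.algebraMap_end_apply, map_smul]
  | add a b ha hb => rw [map_add, map_add, LinearMap.add_apply, LinearMap.add_apply, map_add, ha, hb]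
  | mul_X a i ha =>
    rw [map_mul, map_mul, Module.End.mul_apply, Module.End.mul_apply, ha, commAct_X, commAct_X, hF]

/-- Stable submodules are stable under the polynomial action. -/
theorem commAct_mem {t : I → Module.End R V} {h : ∀ i j, Commute (t i) (t j)} (W : Submodule R V)
    (hW : ∀ i, ∀ v ∈ W, t i v ∈ W) (a : MvPolynomial I R) {v : V} (hv : v ∈ W) :
    commAct t h a v ∈ W := by
  induction a using MvPolynomial.induction_on generalizing v with
  | C r =>
    have e1 : commAct t h (MvPolynomial.C r) = algebraMap R _ r := AlgHom.commutes _ r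
    rw [e1, Module.algebraMap_end_apply]
    exact W.smul_mem r hv
  | add a b ha hb => rw [map_add, LinearMap.add_apply]; exact W.add_mem (ha hv) (hb hv)
  | mul_X a i ha =>
    rw [map_mul, Module.End.mul_apply, commAct_X]
    exact ha (hW i v hv)

end CommAct

/-! ### Additive maps to `ℂ` -/

/-- Additive maps to `ℂ` separate the points of a torsion-free group. -/
theorem exists_addHom_ne_zero {A : Type*} [AddCommGroup A] [Module.IsTorsionFree ℤ A] {r : A}
    (hr : r ≠ 0) : ∃ lam : A →+ ℂ, lam r ≠ 0 := by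
  let f : ℤ →+ A := (zmultiplesHom A) r
  have hf : Function.Injective f := by
    rw [injective_iff_map_eq_zero]
    intro n hn
    have h1 : n • r = 0 := hn
    exact (smul_eq_zero.mp h1).resolve_right hr
  obtain ⟨g, hg⟩ := (Module.Baer.of_divisible ℂ).extension_property_addMonoidHom f hf
    (Int.castAddHom ℂ)
  refine ⟨g, ?_⟩
  have h1 := DFunLike.congr_fun hg 1
  have h2 : f 1 = r := by simp [f]
  rw [AddMonoidHom.comp_apply, h2] at h1
  rw [h1]
  simp

section MapAdd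

variable {R R' : Type*} [CommRing R] [CommRing R']

/-- Change of coefficients along an additive map. -/
def mapAdd (lam : R →+ R') : Pairs R →+ Pairs R' where
  toFun x := fun a b => lam (x a b)
  map_zero' := by funext a b; simp
  map_add' x y := by funext a b; simp

theorem mapAdd_apply (lam : R →+ R') (x : Pairs R) (a b : Cusp) :
    mapAdd lam x a b = lam (x a b) := rfl

theorem mapAdd_slash (lam : R →+ R') (g : GL (Fin 2) ℚ) (x : Pairs R) :
    mapAdd lam (slash g x) = slash g (mapAdd lam x) := rfl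

theorem mapAdd_mem (lam : R →+ R') {Γ : Subgroup SL(2, ℤ)} {x : Pairs R} (hx : x ∈ MS Γ R) :
    mapAdd lam x ∈ MS Γ R' := by
  refine ⟨fun a b c => ?_, fun γ hγ => ?_⟩
  · simp only [mapAdd_apply]; rw [← map_add, hx.1]
  · rw [← mapAdd_slash, hx.2 γ hγ]

theorem mapAdd_heckeU (lam : R →+ R') (ℓ : ℕ) (x : Pairs R) :
    mapAdd lam (heckeU ℓ x) = heckeU ℓ (mapAdd lam x) := by
  simp only [heckeU_apply, map_sum, mapAdd_slash]

theorem mapAdd_heckeT (lam : R →+ R') (ℓ : ℕ) (x : Pairs R) :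
    mapAdd lam (heckeT ℓ x) = heckeT ℓ (mapAdd lam x) := by
  simp only [heckeT_apply, map_add, mapAdd_heckeU, degen_apply, mapAdd_slash]

theorem mapAdd_hop (lam : R →+ R') (M ℓ : ℕ) (x : Pairs R) :
    mapAdd lam (hop R M ℓ x) = hop R' M ℓ (mapAdd lam x) := by
  by_cases h : ℓ ∣ M
  · rw [hop_of_dvd h, hop_of_dvd h, mapAdd_heckeU]
  · rw [hop_of_not_dvd h, hop_of_not_dvd h, mapAdd_heckeT]

end MapAdd

/-! ### The Hecke action on modular symbols -/

section Action

variable (M : ℕ) [NeZero M] (S : Set ℕ)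

/-- The primes outside `S`. -/
abbrev Idx (S : Set ℕ) : Type := {ℓ : Nat.Primes // (ℓ : ℕ) ∉ S}

variable (R₀ R : Type*) [CommRing R₀] [CommRing R] [Algebra R₀ R]

/-- The Hecke operator `T_ℓ` (or `U_ℓ`) on `MS (Γ₀(M)) R`, linear over `R₀`. -/
noncomputable def opMS (ℓ : Idx S) : Module.End R₀ (MS (Gamma0 M) R) :=
  ((hop R M (ℓ.1 : ℕ)).restrict fun _ hx => hop_mem ℓ.1.2 hx).restrictScalars R₀

theorem opMS_apply (ℓ : Idx S) (x : MS (Gamma0 M) R) :
    (opMS M S R₀ R ℓ x : Pairs R) = hop R M (ℓ.1 : ℕ) x := rfl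

theorem opMS_comm (ℓ r : Idx S) : Commute (opMS M S R₀ R ℓ) (opMS M S R₀ R r) :=
  LinearMap.ext fun x => Subtype.ext (hop_comm ℓ.1.2 r.1.2 x.2)

/-- The action of the abstract anemic Hecke algebra on `MS (Γ₀(M)) R`. -/
noncomputable def msAct : MvPolynomial (Idx S) R₀ →ₐ[R₀] Module.End R₀ (MS (Gamma0 M) R) :=
  commAct (opMS M S R₀ R) (opMS_comm M S R₀ R)

theorem msAct_X (ℓ : Idx S) : msAct M S R₀ R (MvPolynomial.X ℓ) = opMS M S R₀ R ℓ :=
  commAct_X _ _ _

/-- Compatibility with additive change of coefficients. -/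
theorem mapAdd_msAct {R' : Type*} [CommRing R'] (lam : R →+ R') (a : MvPolynomial (Idx S) ℤ)
    (x : MS (Gamma0 M) R) : mapAdd lam (msAct M S ℤ R a x : Pairs R) =
      (msAct M S ℤ R' a ⟨mapAdd lam x, mapAdd_mem lam x.2⟩ : MS (Gamma0 M) R') := by
  let F : MS (Gamma0 M) R →ₗ[ℤ] MS (Gamma0 M) R' :=
    AddMonoidHom.toIntLinearMap
    { toFun := fun x => ⟨mapAdd lam x, mapAdd_mem lam x.2⟩
      map_zero' := Subtype.ext (map_zero _)
      map_add' := fun x y => Subtype.ext (map_add (mapAdd lam) x.1 y.1) }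
  have h1 := commAct_intertwine (h := opMS_comm M S ℤ R) (h' := opMS_comm M S ℤ R') F
    (fun i v => Subtype.ext (mapAdd_hop lam M _ v.1)) a x
  exact congrArg Subtype.val h1

end Action

/-! ### The forms side -/

section Forms

variable (M : ℕ) [NeZero M] (S : Set ℕ)

/-- The generators `T_ℓ`, `U_ℓ` of the Hecke algebra of forms. -/
noncomputable def genS (ℓ : Idx S) : CuspForm.heckeAlgebra M 2 S :=
  open Classical in
  if h : (ℓ.1 : ℕ) ∣ M then CuspForm.heckeAlgebra.U ℓ.1.2 h ℓ.2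
  else CuspForm.heckeAlgebra.T ℓ.1.2 h ℓ.2

theorem genS_of_not_dvd (ℓ : Idx S) (h : ¬ (ℓ.1 : ℕ) ∣ M) :
    genS M S ℓ = CuspForm.heckeAlgebra.T ℓ.1.2 h ℓ.2 := dif_neg h

theorem genS_of_dvd (ℓ : Idx S) (h : (ℓ.1 : ℕ) ∣ M) :
    genS M S ℓ = CuspForm.heckeAlgebra.U ℓ.1.2 h ℓ.2 := dif_pos h

theorem coe_genS (ℓ : Idx S) : (genS M S ℓ : Module.End ℂ (CuspForm (Gamma0 M) 2)) =
    frmOp M ℓ.1.2 := by
  by_cases h : (ℓ.1 : ℕ) ∣ M
  · rw [genS_of_dvd M S ℓ h, frmOp, dif_pos h]; rfl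
  · rw [genS_of_not_dvd M S ℓ h, frmOp, dif_neg h]; rfl

/-- The evaluation of the abstract anemic Hecke algebra in the Hecke algebra of forms. -/
noncomputable def evForms : MvPolynomial (Idx S) ℤ →ₐ[ℤ] CuspForm.heckeAlgebra M 2 S :=
  MvPolynomial.aeval (genS M S)

theorem evForms_X (ℓ : Idx S) : evForms M S (MvPolynomial.X ℓ) = genS M S ℓ :=
  MvPolynomial.aeval_X _ _

theorem evForms_surjective : Function.Surjective (evForms M S) := by
  rintro ⟨t, ht⟩
  induction ht using Algebra.adjoin_induction with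
  | mem t ht =>
    rcases ht with ⟨ℓ, hℓ, hℓM, hℓS, rfl⟩ | ⟨q, hqM, hq, hqS, rfl⟩
    · refine ⟨MvPolynomial.X ⟨⟨ℓ, hℓ⟩, hℓS⟩, ?_⟩
      rw [evForms_X, genS_of_not_dvd M S ⟨⟨ℓ, hℓ⟩, hℓS⟩ hℓM]
      rfl
    · refine ⟨MvPolynomial.X ⟨⟨q, hq⟩, hqS⟩, ?_⟩
      rw [evForms_X, genS_of_dvd M S ⟨⟨q, hq⟩, hqS⟩ hqM]
      rfl
  | algebraMap r =>
    exact ⟨MvPolynomial.C r, (AlgHom.commutes (evForms M S) r).trans rfl⟩
  | add s t hs ht h1 h2 =>
    obtain ⟨a, ha⟩ := h1
    obtain ⟨b, hb⟩ := h2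
    exact ⟨a + b, by rw [map_add, ha, hb]; rfl⟩
  | mul s t hs ht h1 h2 =>
    obtain ⟨a, ha⟩ := h1
    obtain ⟨b, hb⟩ := h2
    exact ⟨a * b, by rw [map_mul, ha, hb]; rfl⟩

/-- The period symbol is Hecke equivariant. -/
theorem perSym_evForms (a : MvPolynomial (Idx S) ℤ) (f : CuspForm (Gamma0 M) 2) :
    perSym M ((evForms M S a : Module.End ℂ (CuspForm (Gamma0 M) 2)) f) =
      (msAct M S ℤ ℂ a ⟨perSym M f, perSym_mem f⟩ : MS (Gamma0 M) ℂ) := by
  induction a using MvPolynomial.induction_on generalizing f with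
  | C r =>
    have e1 : evForms M S (MvPolynomial.C r) = algebraMap ℤ _ r := AlgHom.commutes _ r
    have e2 : msAct M S ℤ ℂ (MvPolynomial.C r) = algebraMap ℤ _ r := AlgHom.commutes _ r
    rw [e1, e2, Module.algebraMap_end_apply]
    change perSym M (r • f) = _
    rw [map_zsmul]
    rfl
  | add a b ha hb =>
    rw [map_add, map_add, LinearMap.add_apply]
    change perSym M ((evForms M S a : Module.End ℂ (CuspForm (Gamma0 M) 2)) f +
      (evForms M S b : Module.End ℂ (CuspForm (Gamma0 M) 2)) f) = _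
    rw [map_add, ha, hb]
    rfl
  | mul_X a i ha =>
    rw [map_mul, map_mul, Module.End.mul_apply, msAct_X, evForms_X]
    change perSym M ((evForms M S a : Module.End ℂ (CuspForm (Gamma0 M) 2))
      ((genS M S i : Module.End ℂ (CuspForm (Gamma0 M) 2)) f)) = _
    rw [ha]
    have h1 : (⟨perSym M ((genS M S i : Module.End ℂ (CuspForm (Gamma0 M) 2)) f), perSym_mem _⟩ :
        MS (Gamma0 M) ℂ) = opMS M S ℤ ℂ i ⟨perSym M f, perSym_mem f⟩ := by
      refine Subtype.ext ?_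
      rw [coe_genS]
      exact perSym_frmOp i.1.2 f
    rw [h1]

/-- The involution `ι` on `MS (Γ₀(M)) R`. -/
noncomputable def iotaMS (R₀ R : Type*) [CommRing R₀] [CommRing R] [Algebra R₀ R] :
    Module.End R₀ (MS (Gamma0 M) R) :=
  ((slash jMat).restrict fun _ hx => slash_jMat_mem hx).restrictScalars R₀

theorem iotaMS_apply {R₀ R : Type*} [CommRing R₀] [CommRing R] [Algebra R₀ R]
    (x : MS (Gamma0 M) R) : (iotaMS M R₀ R x : Pairs R) = slash jMat x.1 := rfl

theorem hop_slash_jMat {R : Type*} [CommRing R] {ℓ : ℕ} (hp : ℓ.Prime) {x : Pairs R}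
    (hx : x ∈ MS (Gamma0 M) R) : hop R M ℓ (slash jMat x) = slash jMat (hop R M ℓ x) := by
  by_cases h : ℓ ∣ M
  · rw [hop_of_dvd h, heckeU_slash_jMat hx hp.ne_zero]
  · rw [hop_of_not_dvd h, heckeT_slash_jMat hx hp.ne_zero]

theorem iotaMS_msAct {R₀ R : Type*} [CommRing R₀] [CommRing R] [Algebra R₀ R]
    (a : MvPolynomial (Idx S) R₀) (x : MS (Gamma0 M) R) :
    iotaMS M R₀ R (msAct M S R₀ R a x) = msAct M S R₀ R a (iotaMS M R₀ R x) :=
  commAct_intertwine (h := opMS_comm M S R₀ R) (h' := opMS_comm M S R₀ R) (iotaMS M R₀ R)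
    (fun i v => Subtype.ext (hop_slash_jMat M i.1.2 v.2).symm) a x

/-- The boundary symbols, as a submodule. -/
noncomputable def bdMS (R₀ R : Type*) [CommRing R₀] [CommRing R] [Algebra R₀ R] :
    Submodule R₀ (MS (Gamma0 M) R) where
  carrier := {x | IsBoundary (Gamma0 M) x.1}
  zero_mem' := ⟨0, by simp, by simp⟩
  add_mem' := by
    rintro x y hx hy
    have h1 := hx.sub (IsBoundary.smul (-1 : R) hy)
    simpa using h1
  smul_mem' := by
    rintro r x hx
    have h1 := IsBoundary.smul (algebraMap R₀ R r) hx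
    have h2 : ((r • x : MS (Gamma0 M) R) : Pairs R) = algebraMap R₀ R r • x.1 := by
      rw [algebraMap_smul]; rfl
    change IsBoundary (Gamma0 M) ((r • x : MS (Gamma0 M) R) : Pairs R)
    rw [h2]
    exact h1

theorem mem_bdMS {R₀ R : Type*} [CommRing R₀] [CommRing R] [Algebra R₀ R]
    {x : MS (Gamma0 M) R} : x ∈ bdMS M R₀ R ↔ IsBoundary (Gamma0 M) x.1 := Iff.rfl

theorem opMS_mem_bdMS {R₀ R : Type*} [CommRing R₀] [CommRing R] [Algebra R₀ R] (ℓ : Idx S)
    {x : MS (Gamma0 M) R} (hx : x ∈ bdMS M R₀ R) : opMS M S R₀ R ℓ x ∈ bdMS M R₀ R := by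
  rw [mem_bdMS] at hx ⊢
  rw [opMS_apply]
  by_cases h : (ℓ.1 : ℕ) ∣ M
  · rw [hop_of_dvd h]; exact hx.heckeU ℓ.1.2.ne_zero h
  · rw [hop_of_not_dvd h]; exact hx.heckeT ℓ.1.2 h

theorem msAct_mem_bdMS {R₀ R : Type*} [CommRing R₀] [CommRing R] [Algebra R₀ R]
    (a : MvPolynomial (Idx S) R₀) {x : MS (Gamma0 M) R} (hx : x ∈ bdMS M R₀ R) :
    msAct M S R₀ R a x ∈ bdMS M R₀ R :=
  commAct_mem (h := opMS_comm M S R₀ R) (bdMS M R₀ R) (fun i _ hv => opMS_mem_bdMS M S i hv) a hx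

/-- A Hecke polynomial vanishing on cusp forms maps modular symbols to boundary symbols. -/
theorem msAct_mem_bdMS_of_evForms_eq_zero {a : MvPolynomial (Idx S) ℤ} (ha : evForms M S a = 0)
    (x : MS (Gamma0 M) ℂ) : msAct M S ℤ ℂ a x ∈ bdMS M ℤ ℂ := by
  obtain ⟨u, v, huv⟩ := exists_decomp (S21.result M).2 x.2
  have h0 : ∀ f : CuspForm (Gamma0 M) 2, msAct M S ℤ ℂ a ⟨perSym M f, perSym_mem f⟩ = 0 := by
    intro f
    refine Subtype.ext ?_
    rw [← perSym_evForms, ha]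
    change perSym M ((0 : Module.End ℂ (CuspForm (Gamma0 M) 2)) f) = _
    rw [LinearMap.zero_apply, map_zero]
    rfl
  let y : MS (Gamma0 M) ℂ := x - (⟨perSym M u, perSym_mem u⟩ +
    iotaMS M ℤ ℂ ⟨perSym M v, perSym_mem v⟩)
  have hy : y ∈ bdMS M ℤ ℂ := huv
  have hx : x = y + (⟨perSym M u, perSym_mem u⟩ + iotaMS M ℤ ℂ ⟨perSym M v, perSym_mem v⟩) := by
    rw [sub_add_cancel]
  rw [hx, map_add, map_add, ← iotaMS_msAct, h0, h0, map_zero, add_zero, add_zero]
  exact msAct_mem_bdMS M S a hy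

/-- **Main relation**: if the Hecke polynomial `a` vanishes on cusp forms of level `M`, then
`(T_ℓ - 1 - ℓ) a` kills all modular symbols of level `M` with torsion-free coefficients, for
`ℓ ≡ 1 mod M`. -/
theorem msAct_eq_zero_of_evForms_eq_zero {R : Type*} [CommRing R] [Module.IsTorsionFree ℤ R]
    {a : MvPolynomial (Idx S) ℤ} (ha : evForms M S a = 0) (ℓ : Idx S)
    (hℓ : ((ℓ.1 : ℕ) : ZMod M) = 1) :
    msAct M S ℤ R ((MvPolynomial.X ℓ - MvPolynomial.C (1 + (ℓ.1 : ℕ) : ℤ)) * a) = 0 := by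
  have hℂ : ∀ x : MS (Gamma0 M) ℂ, msAct M S ℤ ℂ ((MvPolynomial.X ℓ -
      MvPolynomial.C (1 + (ℓ.1 : ℕ) : ℤ)) * a) x = 0 := by
    intro x
    have h1 := msAct_mem_bdMS_of_evForms_eq_zero M S ha x
    rw [map_mul, Module.End.mul_apply, map_sub, LinearMap.sub_apply, msAct_X]
    have e1 : msAct M S ℤ ℂ (MvPolynomial.C (1 + (ℓ.1 : ℕ) : ℤ)) = algebraMap ℤ _ (1 + (ℓ.1 : ℕ)) :=
      AlgHom.commutes _ _
    rw [e1, Module.algebraMap_end_apply]
    generalize msAct M S ℤ ℂ a x = y at h1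
    have hnd : ¬ (ℓ.1 : ℕ) ∣ M := by
      intro hd
      have h2 : ((M : ℕ) : ZMod (ℓ.1 : ℕ)) = 0 := (ZMod.natCast_eq_zero_iff _ _).mpr hd
      have h3 : ((ℓ.1 : ℕ) : ZMod (ℓ.1 : ℕ)) = 1 := by
        have h4 : ((ℓ.1 : ℕ) : ZMod M) = ((1 : ℕ) : ZMod M) := by rw [hℓ, Nat.cast_one]
        have h5 := ((ZMod.natCast_eq_natCast_iff _ _ _).mp h4).of_dvd hd
        have h6 := (ZMod.natCast_eq_natCast_iff _ _ _).mpr h5
        rwa [Nat.cast_one] at h6
      rw [ZMod.natCast_self] at h3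
      have : Fact (ℓ.1 : ℕ).Prime := ⟨ℓ.1.2⟩
      exact zero_ne_one h3
    refine Subtype.ext ?_
    change (opMS M S ℤ ℂ ℓ y : Pairs ℂ) - ((1 + (ℓ.1 : ℕ) : ℤ) • y : MS (Gamma0 M) ℂ) = 0
    rw [opMS_apply, hop_of_not_dvd hnd, heckeT_of_isBoundary ℓ.1.2 hℓ h1]
    have e2 : (((1 + (ℓ.1 : ℕ) : ℤ) • y : MS (Gamma0 M) ℂ) : Pairs ℂ) =
        (((ℓ.1 : ℕ) : ℂ) + 1) • (y : Pairs ℂ) := by
      have : (((1 + (ℓ.1 : ℕ) : ℤ) • y : MS (Gamma0 M) ℂ) : Pairs ℂ) =
        (1 + (ℓ.1 : ℕ) : ℤ) • (y : Pairs ℂ) := rfl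
      rw [this, ← Int.cast_smul_eq_zsmul ℂ]
      congr 1
      push_cast
      ring
    rw [e2, sub_self]
  refine LinearMap.ext fun x => Subtype.ext ?_
  by_contra hne
  have h1 : ∃ c d, (msAct M S ℤ R ((MvPolynomial.X ℓ - MvPolynomial.C (1 + (ℓ.1 : ℕ) : ℤ)) * a) x :
      Pairs R) c d ≠ 0 := by
    by_contra hcon
    push Not at hcon
    exact hne (funext fun c => funext fun d => hcon c d)
  obtain ⟨c, d, hcd⟩ := h1
  obtain ⟨lam, hlam⟩ := exists_addHom_ne_zero hcd
  have h2 := mapAdd_msAct M S R lam ((MvPolynomial.X ℓ - MvPolynomial.C (1 + (ℓ.1 : ℕ) : ℤ)) * a) x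
  rw [hℂ] at h2
  exact hlam (congrFun (congrFun h2 c) d)

/-- A Hecke polynomial killing all integral modular symbols vanishes on cusp forms. -/
theorem evForms_eq_zero_of_msAct {a : MvPolynomial (Idx S) ℤ}
    (ha : msAct M S ℤ ℂ a = 0) : evForms M S a = 0 := by
  refine Subtype.ext (LinearMap.ext fun f => ?_)
  refine perSym_injective ?_
  rw [perSym_evForms, ha]
  change (0 : Pairs ℂ) = perSym M (0 : CuspForm (Gamma0 M) 2)
  rw [map_zero]

end Forms

end Fermat.Agent.RT.MSHecke
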