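import Mathlib
import Fermat.Agent.RT.HeckeLocalFields
import Fermat.Agent.RT.MSHecke
import Fermat.Agent.RT.LocalModule

/-!
# Maps out of `heckeLocal` and its action on localised modules
-/

set_option autoImplicit false

noncomputable section

open scoped TensorProduct
open IsLocalRing

namespace Fermat.Agent.RT.HeckeLocalLift

open CuspForm Fermat.Agent.RT.HeckeLocalFields Fermat.Agent.RT.MSHecke

variable (M : ℕ) [NeZero M] (S : Set ℕ)
variable (𝒪 : Type) [CommRing 𝒪] [IsDomain 𝒪] [IsDiscreteValuationRing 𝒪]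
  [IsAdicComplete (IsLocalRing.maximalIdeal 𝒪) 𝒪]
variable (θ : heckeAlgebra M 2 S →+* IsLocalRing.ResidueField 𝒪)
variable [Fact (HasIntegralStructure M 2)]

/-- Universal property of `heckeLocal`: a character of the Hecke algebra with values in a local
`𝒪`-algebra with the right residual character extends to `heckeLocal`. -/
theorem exists_algHom {B : Type*} [CommRing B] [IsLocalRing B] [Algebra 𝒪 B]
    [IsLocalHom (algebraMap 𝒪 B)] (g : heckeAlgebra M 2 S →+* B)
    (hg : ∀ t, residue B (g t) = ResidueField.map (algebraMap 𝒪 B) (θ t)) :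
    ∃ ψ : heckeLocal M S 𝒪 θ →ₐ[𝒪] B, ∀ t, ψ (heckeLocal.π M S 𝒪 θ t) = g t := by
  let χ₀ : (𝒪 ⊗[ℤ] ↥(heckeAlgebra M 2 S)) →ₐ[𝒪] B :=
    Algebra.TensorProduct.lift (Algebra.ofId 𝒪 B) g.toIntAlgHom (fun _ _ => Commute.all _ _)
  have hχ₀ : ∀ a t, χ₀ (a ⊗ₜ t) = algebraMap 𝒪 B a * g t := fun a t => by
    simp [χ₀, Algebra.ofId_apply]
  have hres : ∀ x, residue B (χ₀ x) =
      ResidueField.map (algebraMap 𝒪 B) (residualCharacter M S 𝒪 θ x) := by
    intro x
    induction x using TensorProduct.induction_on with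
    | zero => rw [map_zero, map_zero, map_zero, map_zero]
    | tmul a t =>
      rw [hχ₀, map_mul, hg, residualCharacter_tmul, map_mul, ResidueField.map_residue]
    | add x y hx hy => rw [map_add, map_add, map_add, hx, hy, map_add]
  let e : (𝒪 ⊗[ℤ] ↥(heckeAlgebra M 2 S)) ≃+* heckeBaseAlgebra M S 𝒪 :=
    RingEquiv.ofBijective (latticeBaseChange M S 𝒪)
      ⟨latticeBaseChange_injective M S 𝒪 Fact.out, latticeBaseChange_surjective M S 𝒪⟩
  have he : ∀ x, e x = latticeBaseChange M S 𝒪 x := fun _ => rfl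
  let χ₁ : heckeBaseAlgebra M S 𝒪 →+* B := (χ₀ : _ →+* B).comp e.symm.toRingHom
  have hχ₁ : ∀ x, χ₁ (latticeBaseChange M S 𝒪 x) = χ₀ x := by
    intro x
    change χ₀ (e.symm (e x)) = χ₀ x
    rw [e.symm_apply_apply]
  have hunit : ∀ y : heckeLocalSubmonoid M S 𝒪 θ, IsUnit (χ₁ y) := by
    rintro ⟨_, x, hx, rfl⟩
    rw [hχ₁]
    by_contra hnu
    apply Ideal.mem_primeCompl_iff.mp hx
    rw [mem_heckeCharKernel_iff]
    have h1 : residue B (χ₀ x) = 0 := (residue_eq_zero_iff _).mpr hnu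
    rw [hres] at h1
    exact (map_eq_zero_iff _ (RingHom.injective _)).mp h1
  let ψ₀ : heckeLocal M S 𝒪 θ →+* B := IsLocalization.lift (M := heckeLocalSubmonoid M S 𝒪 θ) hunit
  have hψ₀ : ∀ x, ψ₀ (toLocal M S 𝒪 θ x) = χ₀ x := by
    intro x
    rw [toLocal, RingHom.comp_apply]
    change IsLocalization.lift hunit _ = _
    rw [IsLocalization.lift_eq, hχ₁]
  refine ⟨{ ψ₀ with
    commutes' := fun a => ?_ }, fun t => ?_⟩
  · change ψ₀ (algebraMap 𝒪 (heckeLocal M S 𝒪 θ) a) = algebraMap 𝒪 B a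
    rw [← toLocal_algebraMap, hψ₀, AlgHom.commutes]
  · change ψ₀ (heckeLocal.π M S 𝒪 θ t) = g t
    rw [← toLocal_one_tmul, hψ₀, hχ₀, map_one, one_mul]

/-- Two `𝒪`-algebra maps out of `heckeLocal` which agree on the Hecke operators are equal. -/
theorem algHom_ext {B : Type*} [CommRing B] [Algebra 𝒪 B] {f g : heckeLocal M S 𝒪 θ →ₐ[𝒪] B}
    (h : ∀ t, f (heckeLocal.π M S 𝒪 θ t) = g (heckeLocal.π M S 𝒪 θ t)) : f = g := by
  refine AlgHom.ext_of_adjoin_eq_top (adjoin_range_π M S 𝒪 θ) ?_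
  rintro _ ⟨t, rfl⟩
  exact h t

end Fermat.Agent.RT.HeckeLocalLift

/-! ### The ring acting on a localised module -/

namespace Fermat.Agent.RT

variable {A : Type} [CommRing A] (𝔪 : Ideal A) [𝔪.IsMaximal]
  (V : Type) [AddCommGroup V] [Module A V]

/-- The ring through which `A_𝔪` acts on `V_𝔪`. -/
def LocRing : Type :=
  Localization.AtPrime 𝔪 ⧸ Module.annihilator (Localization.AtPrime 𝔪)
    (LocalizedModule 𝔪.primeCompl V)

namespace LocRing

instance instCommRing : CommRing (LocRing 𝔪 V) :=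
  inferInstanceAs (CommRing (Localization.AtPrime 𝔪 ⧸ _))

instance instAlgebraLoc : Algebra (Localization.AtPrime 𝔪) (LocRing 𝔪 V) :=
  inferInstanceAs (Algebra (Localization.AtPrime 𝔪) (Localization.AtPrime 𝔪 ⧸ _))

instance instAlgebra (R₀ : Type*) [CommRing R₀] [Algebra R₀ A] : Algebra R₀ (LocRing 𝔪 V) :=
  inferInstanceAs (Algebra R₀ (Localization.AtPrime 𝔪 ⧸ _))

instance instModule : Module (LocRing 𝔪 V) (LocalizedModule 𝔪.primeCompl V) :=
  Module.quotientAnnihilator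

instance instTowerLoc : IsScalarTower A (Localization.AtPrime 𝔪) (LocRing 𝔪 V) :=
  inferInstanceAs (IsScalarTower A (Localization.AtPrime 𝔪) (Localization.AtPrime 𝔪 ⧸ _))

instance instTower (R₀ : Type*) [CommRing R₀] [Algebra R₀ A] : IsScalarTower R₀ A (LocRing 𝔪 V) :=
  inferInstanceAs (IsScalarTower R₀ A (Localization.AtPrime 𝔪 ⧸ _))

theorem algebraMapLoc_smul (a : Localization.AtPrime 𝔪) (v : LocalizedModule 𝔪.primeCompl V) :
    algebraMap (Localization.AtPrime 𝔪) (LocRing 𝔪 V) a • v = a • v := rfl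

theorem algebraMapLoc_surjective :
    Function.Surjective (algebraMap (Localization.AtPrime 𝔪) (LocRing 𝔪 V)) :=
  Ideal.Quotient.mk_surjective

theorem algebraMap_smul' (a : A) (v : LocalizedModule 𝔪.primeCompl V) :
    algebraMap A (LocRing 𝔪 V) a • v = a • v := by
  rw [IsScalarTower.algebraMap_apply A (Localization.AtPrime 𝔪) (LocRing 𝔪 V),
    algebraMapLoc_smul, algebraMap_smul]

theorem eq_zero_of_smul {t : LocRing 𝔪 V} (h : ∀ v : LocalizedModule 𝔪.primeCompl V, t • v = 0) :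
    t = 0 := by
  obtain ⟨a, rfl⟩ := algebraMapLoc_surjective 𝔪 V t
  change Ideal.Quotient.mk _ a = 0
  rw [Ideal.Quotient.eq_zero_iff_mem, Module.mem_annihilator]
  exact h

theorem nontrivial [Nontrivial (LocalizedModule 𝔪.primeCompl V)] : Nontrivial (LocRing 𝔪 V) := by
  refine ⟨1, 0, fun h => ?_⟩
  obtain ⟨v, hv⟩ := exists_ne (0 : LocalizedModule 𝔪.primeCompl V)
  exact hv (by rw [← one_smul (LocRing 𝔪 V) v, h, zero_smul])

theorem isLocalRing [Nontrivial (LocalizedModule 𝔪.primeCompl V)] : IsLocalRing (LocRing 𝔪 V) := by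
  have := nontrivial 𝔪 V
  exact IsLocalRing.of_surjective' _ (algebraMapLoc_surjective 𝔪 V)

theorem algebraMap_eq_zero_iff (a : A) : algebraMap A (LocRing 𝔪 V) a = 0 ↔
    ∀ v : V, ∃ s ∉ 𝔪, s • a • v = 0 := by
  have h1 : algebraMap A (LocRing 𝔪 V) a = 0 ↔
      ∀ w : LocalizedModule 𝔪.primeCompl V, a • w = 0 := by
    constructor
    · intro h w
      rw [← algebraMap_smul' 𝔪 V, h, zero_smul]
    · intro h
      exact eq_zero_of_smul 𝔪 V fun w => by rw [algebraMap_smul' 𝔪 V, h]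
  rw [h1]
  constructor
  · intro h v
    have h2 := h (LocalizedModule.mkLinearMap 𝔪.primeCompl V v)
    rw [← map_smul, IsLocalizedModule.eq_zero_iff 𝔪.primeCompl] at h2
    obtain ⟨⟨s, hs⟩, h3⟩ := h2
    exact ⟨s, hs, h3⟩
  · intro h w
    obtain ⟨⟨v, s⟩, hv⟩ := IsLocalizedModule.surj 𝔪.primeCompl
      (LocalizedModule.mkLinearMap 𝔪.primeCompl V) w
    obtain ⟨s', hs', h3⟩ := h v
    have h4 : (s : A) • a • w = 0 := by
      rw [smul_comm]
      have : (s : A) • w = LocalizedModule.mkLinearMap 𝔪.primeCompl V v := hv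
      rw [this, ← map_smul, IsLocalizedModule.eq_zero_iff 𝔪.primeCompl]
      exact ⟨⟨s', hs'⟩, h3⟩
    have h5 := (Module.End.isUnit_iff _).mp (IsLocalizedModule.map_units
      (LocalizedModule.mkLinearMap 𝔪.primeCompl V) s)
    refine h5.1 ?_
    rw [map_zero]
    exact h4

/-- Elements outside `𝔪` become units. -/
theorem isUnit_algebraMap {a : A} (ha : a ∉ 𝔪) : IsUnit (algebraMap A (LocRing 𝔪 V) a) := by
  rw [IsScalarTower.algebraMap_apply A (Localization.AtPrime 𝔪) (LocRing 𝔪 V)]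
  exact (IsLocalization.map_units (M := 𝔪.primeCompl) (Localization.AtPrime 𝔪) ⟨a, ha⟩).map _

/-- Elements of `𝔪` are mapped into the maximal ideal. -/
theorem algebraMap_mem_maximalIdeal [IsLocalRing (LocRing 𝔪 V)] {a : A} (ha : a ∈ 𝔪) :
    algebraMap A (LocRing 𝔪 V) a ∈ maximalIdeal (LocRing 𝔪 V) := by
  intro hu
  obtain ⟨u, hu⟩ := hu
  obtain ⟨b, hb⟩ := algebraMapLoc_surjective 𝔪 V ((u⁻¹ : (LocRing 𝔪 V)ˣ) : LocRing 𝔪 V)
  -- `1 - a b` is a unit in the localisation, but it is killed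
  have h1 : algebraMap (Localization.AtPrime 𝔪) (LocRing 𝔪 V)
      (1 - algebraMap A (Localization.AtPrime 𝔪) a * b) = 0 := by
    rw [map_sub, map_one, map_mul, hb, ← IsScalarTower.algebraMap_apply, ← hu, Units.mul_inv,
      sub_self]
  have h2 : algebraMap A (Localization.AtPrime 𝔪) a ∈ maximalIdeal (Localization.AtPrime 𝔪) :=
    (IsLocalization.AtPrime.to_map_mem_maximal_iff (Localization.AtPrime 𝔪) 𝔪 a).mpr ha
  have h3 : IsUnit (1 - algebraMap A (Localization.AtPrime 𝔪) a * b) := by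
    by_contra hnu
    have h4 : (1 : Localization.AtPrime 𝔪) ∈ maximalIdeal (Localization.AtPrime 𝔪) := by
      have h5 : (1 - algebraMap A (Localization.AtPrime 𝔪) a * b) ∈
        maximalIdeal (Localization.AtPrime 𝔪) := hnu
      have h6 := Ideal.add_mem _ h5 (Ideal.mul_mem_right b _ h2)
      rwa [sub_add_cancel] at h6
    exact (Ideal.ne_top_iff_one _).mp (maximalIdeal.isMaximal _).ne_top h4
  have h7 := h3.map (algebraMap (Localization.AtPrime 𝔪) (LocRing 𝔪 V))
  rw [h1] at h7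
  exact not_isUnit_zero h7

end LocRing

end Fermat.Agent.RT

namespace Fermat.Agent.RT.HeckeLocalLift

open CuspForm Fermat.Agent.RT.HeckeLocalFields Fermat.Agent.RT.MSHecke

section Action

variable (M : ℕ) [NeZero M] (S : Set ℕ)
variable (𝒪 : Type) [CommRing 𝒪] [IsDomain 𝒪] [IsDiscreteValuationRing 𝒪]
  [IsAdicComplete (IsLocalRing.maximalIdeal 𝒪) 𝒪]
variable (θ : heckeAlgebra M 2 S →+* IsLocalRing.ResidueField 𝒪)
variable [Fact (HasIntegralStructure M 2)]

variable {A : Type} [CommRing A] [Algebra 𝒪 A] (𝔪 : Ideal A) [𝔪.IsMaximal]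
  (V : Type) [AddCommGroup V] [Module A V]
  (h𝒪 : ∀ c ∈ maximalIdeal 𝒪, algebraMap 𝒪 A c ∈ 𝔪) (x : Idx S → A)
  (hx : ∀ ℓ (c : 𝒪), residue 𝒪 c = θ (genS M S ℓ) → x ℓ - algebraMap 𝒪 A c ∈ 𝔪)
  (hK : ∀ a : MvPolynomial (Idx S) ℤ, evForms M S a = 0 →
    ∀ v : V, ∃ s ∉ 𝔪, s • (MvPolynomial.aeval x a : A) • v = 0)

include h𝒪 hx hK in
/-- `heckeLocal` acts on `V_𝔪` as soon as the relations of the Hecke algebra of forms hold
on `V_𝔪`. -/
theorem exists_algHom_locRing [Nontrivial (LocalizedModule 𝔪.primeCompl V)] :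
    ∃ ψ : heckeLocal M S 𝒪 θ →ₐ[𝒪] LocRing 𝔪 V,
      ∀ a : MvPolynomial (Idx S) ℤ, ψ (heckeLocal.π M S 𝒪 θ (evForms M S a)) =
        algebraMap A (LocRing 𝔪 V) (MvPolynomial.aeval x a) := by
  have hloc := LocRing.isLocalRing 𝔪 V
  have hlh : IsLocalHom (algebraMap 𝒪 (LocRing 𝔪 V)) := by
    refine ⟨fun c hc => ?_⟩
    by_contra hnu
    have h1 := LocRing.algebraMap_mem_maximalIdeal 𝔪 V (h𝒪 c hnu)
    rw [← IsScalarTower.algebraMap_apply] at h1
    exact h1 hc
  let G : MvPolynomial (Idx S) ℤ →+* LocRing 𝔪 V :=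
    (algebraMap A (LocRing 𝔪 V)).comp (MvPolynomial.aeval x : MvPolynomial (Idx S) ℤ →ₐ[ℤ] A)
  have hker : RingHom.ker (evForms M S : MvPolynomial (Idx S) ℤ →+* heckeAlgebra M 2 S) ≤
      RingHom.ker G := by
    intro a ha
    exact (LocRing.algebraMap_eq_zero_iff 𝔪 V _).mpr (hK a ha)
  let g : heckeAlgebra M 2 S →+* LocRing 𝔪 V :=
    RingHom.liftOfSurjective (evForms M S : MvPolynomial (Idx S) ℤ →+* heckeAlgebra M 2 S)
      (evForms_surjective M S) ⟨G, hker⟩
  have hg : ∀ a, g (evForms M S a) = G a := fun a =>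
    RingHom.liftOfRightInverse_comp_apply _ _ _ _ a
  obtain ⟨ψ, hψ⟩ := exists_algHom M S 𝒪 θ g (by
    have h1 : ((residue (LocRing 𝔪 V)).comp g).comp
        (evForms M S : MvPolynomial (Idx S) ℤ →+* heckeAlgebra M 2 S) =
        ((ResidueField.map (algebraMap 𝒪 (LocRing 𝔪 V))).comp θ).comp
        (evForms M S : MvPolynomial (Idx S) ℤ →+* heckeAlgebra M 2 S) := by
      refine MvPolynomial.ringHom_ext (fun r => ?_) (fun ℓ => ?_)
      · simp
      · change residue (LocRing 𝔪 V) (g (evForms M S (MvPolynomial.X ℓ))) =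
          ResidueField.map (algebraMap 𝒪 (LocRing 𝔪 V)) (θ (evForms M S (MvPolynomial.X ℓ)))
        rw [hg, evForms_X]
        obtain ⟨c, hc⟩ := residue_surjective (θ (genS M S ℓ))
        rw [← hc, ResidueField.map_residue, ← sub_eq_zero, ← map_sub, residue_eq_zero_iff]
        have h2 := LocRing.algebraMap_mem_maximalIdeal 𝔪 V (hx ℓ c hc)
        rw [map_sub, ← IsScalarTower.algebraMap_apply] at h2
        have h3 : G (MvPolynomial.X ℓ) = algebraMap A (LocRing 𝔪 V) (x ℓ) := by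
          change algebraMap A (LocRing 𝔪 V) (MvPolynomial.aeval x (MvPolynomial.X ℓ)) = _
          rw [MvPolynomial.aeval_X]
        rw [h3]
        exact h2
    intro t
    obtain ⟨a, rfl⟩ := evForms_surjective M S t
    exact RingHom.congr_fun h1 a)
  exact ⟨ψ, fun a => by rw [hψ, hg]; rfl⟩

end Action

end Fermat.Agent.RT.HeckeLocalLift
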