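import Mathlib
import Fermat.Agent.LR.GaloisInput
import Fermat.Agent.BrauerNesbittGalois

/-!
# Absolutely irreducible residual representations are not Eisenstein

If `ρ` is absolutely irreducible with `tr ρ(Frob_ℓ) = t ℓ`, `det ρ(Frob_ℓ) = ℓ`, then
`t ℓ ≠ 1 + ℓ` for some `ℓ ≡ 1 mod D` (in fact with `ℓ ≡ 1 mod p`).
-/

set_option autoImplicit false

open Polynomial

namespace Fermat.Agent.RT.NonEisenstein

open Fermat.Agent.Cyclotomic Fermat.Agent.LR.GaloisInput

local notation "Γℚ" => (AlgebraicClosure ℚ ≃ₐ[ℚ] AlgebraicClosure ℚ)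

section LinearAlgebra

variable {k V : Type*} [Field k] [AddCommGroup V] [Module k V] [FiniteDimensional k V]

/-- Polarised Cayley–Hamilton for unipotent elements. -/
theorem mul_add_mul_eq {A : Type*} [Ring A] {a b : A} (ha : a * a = 2 * a - 1)
    (hb : b * b = 2 * b - 1) (hab : (a * b) * (a * b) = 2 * (a * b) - 1) :
    a * b + b * a = 2 * a + 2 * b - 2 := by
  have ha' : (2 - a) * a = 1 := by rw [sub_mul, ha]; abel
  have hb' : b * (2 - b) = 1 := by rw [mul_sub, hb, mul_two, two_mul]; abel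
  have h1 : b * (a * b) = 2 * b - 2 + a := by
    calc b * (a * b) = ((2 - a) * a) * (b * (a * b)) := by rw [ha', one_mul]
      _ = (2 - a) * ((a * b) * (a * b)) := by simp only [mul_assoc]
      _ = (2 - a) * (2 * (a * b) - 1) := by rw [hab]
      _ = 2 * (((2 - a) * a) * b) - (2 - a) := by noncomm_ring
      _ = 2 * b - 2 + a := by rw [ha', one_mul]; abel
  have h2 : b * a = 2 * (b * (2 - b)) - 2 * (2 - b) + a * (2 - b) := by
    calc b * a = b * a * (b * (2 - b)) := by rw [hb', mul_one]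
      _ = (b * (a * b)) * (2 - b) := by simp only [mul_assoc]
      _ = (2 * b - 2 + a) * (2 - b) := by rw [h1]
      _ = _ := by noncomm_ring
  rw [h2, hb', ← one_add_one_eq_two]
  noncomm_ring

/-- A group acting on a plane with all traces `2` and determinants `1` has a nonzero fixed
vector. -/
theorem exists_fixed_of_trace_eq_two {G : Type*} [Group G] (h : Module.finrank k V = 2)
    (H : Subgroup G) (ρ : G →* Module.End k V)
    (ht : ∀ g ∈ H, LinearMap.trace k V (ρ g) = 2) (hd : ∀ g ∈ H, LinearMap.det (ρ g) = 1) :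
    ∃ v : V, v ≠ 0 ∧ ∀ g ∈ H, ρ g v = v := by
  have hunip : ∀ g ∈ H, (ρ g - 1) * (ρ g - 1) = 0 := fun g hg => by
    rw [← sq]; exact sub_one_sq_eq_zero h (ht g hg) (hd g hg)
  by_cases hall : ∀ g ∈ H, ρ g = 1
  · have : Nontrivial V := Module.nontrivial_of_finrank_pos (R := k) (by rw [h]; norm_num)
    obtain ⟨v, hv⟩ := exists_ne (0 : V)
    exact ⟨v, hv, fun g hg => by rw [hall g hg]; rfl⟩
  push Not at hall
  obtain ⟨g₀, hg₀, hne⟩ := hall
  set n : Module.End k V := ρ g₀ - 1 with hn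
  have hn0 : n ≠ 0 := sub_ne_zero.mpr hne
  have hnn : n * n = 0 := hunip g₀ hg₀
  obtain ⟨w, hw⟩ : ∃ w, n w ≠ 0 := by
    by_contra hcon
    push Not at hcon
    exact hn0 (LinearMap.ext hcon)
  -- the kernel of `n` is a line
  have hker : ∀ x, n x = 0 → ∃ c : k, x = c • n w := by
    intro x hx
    by_contra hcon
    push Not at hcon
    -- then `n w` and `x` are independent, hence `n = 0`
    have hli : LinearIndependent k ![n w, x] := by
      rw [LinearIndependent.pair_iff]
      intro s t hst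
      have ht0 : t = 0 := by
        by_contra ht0
        refine hcon (-(t⁻¹ * s)) ?_
        have : t • x = -(s • n w) := by rw [← add_eq_zero_iff_eq_neg, add_comm]; exact hst
        calc x = t⁻¹ • (t • x) := by rw [smul_smul, inv_mul_cancel₀ ht0, one_smul]
          _ = _ := by rw [this, smul_neg, smul_smul, neg_smul]
      rw [ht0, zero_smul, add_zero] at hst
      exact ⟨(smul_eq_zero.mp hst).resolve_right hw, ht0⟩
    have hsp : Submodule.span k (Set.range ![n w, x]) = ⊤ :=
      hli.span_eq_top_of_card_eq_finrank' (by rw [h]; rfl)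
    refine hn0 (LinearMap.ext_on hsp ?_)
    rintro _ ⟨i, rfl⟩
    fin_cases i
    · have : (n * n) w = 0 := by rw [hnn]; rfl
      simpa using this
    · simpa using hx
  refine ⟨n w, hw, fun g hg => ?_⟩
  -- `ρ g n + n ρ g = 2 n`
  have hCH : ρ g * n + n * ρ g = (2 : k) • n := by
    have e : ∀ x ∈ H, ρ x * ρ x = 2 * ρ x - 1 := fun x hx => by
      rw [← sq, sq_eq_of_trace_det h (ht x hx) (hd x hx), two_smul, two_mul]
    have e1 := e _ (H.mul_mem hg hg₀)
    rw [map_mul] at e1
    have e2 := mul_add_mul_eq (e g hg) (e g₀ hg₀) e1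
    have e3 : ρ g₀ = 1 + n := by rw [hn]; abel
    rw [e3, mul_add, add_mul, mul_one, one_mul] at e2
    have e4 : ρ g * n + n * ρ g = (ρ g + ρ g * n + (ρ g + n * ρ g)) - 2 * ρ g := by
      rw [two_mul]; abel
    rw [e4, e2, two_smul, ← one_add_one_eq_two]
    noncomm_ring
  have h2 : n (ρ g (n w)) = 0 := by
    have h3 : n * (ρ g * n + n * ρ g) = n * ((2 : k) • n) := by rw [hCH]
    rw [mul_add, ← mul_assoc n n, hnn, zero_mul, add_zero, mul_smul_comm, hnn, smul_zero] at h3
    have := LinearMap.congr_fun h3 w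
    simpa using this
  obtain ⟨c, hc⟩ := hker _ h2
  -- `c = 1`
  have h3 := LinearMap.congr_fun (hunip g hg) (n w)
  have h4 : (ρ g - 1) (n w) = (c - 1) • n w := by
    rw [LinearMap.sub_apply, hc, Module.End.one_apply, sub_smul, one_smul]
  rw [Module.End.mul_apply, h4, map_smul, h4, smul_smul, LinearMap.zero_apply] at h3
  have h5 := (smul_eq_zero.mp h3).resolve_right hw
  have h6 : c = 1 := sub_eq_zero.mp (mul_self_eq_zero.mp h5)
  rw [hc, h6, one_smul]

end LinearAlgebra

theorem exists_not_commute {k V : Type*} [Field k] [AddCommGroup V] [Module k V]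
    (h : Module.finrank k V = 2) : ∃ f g : Module.End k V, f * g ≠ g * f := by
  have : Module.Finite k V := Module.finite_of_finrank_eq_succ h
  let b := Module.finBasisOfFinrankEq k V h
  let E := Matrix.toLinAlgEquiv b
  let m : Matrix (Fin 2) (Fin 2) k := !![0, 1; 0, 0]
  let n : Matrix (Fin 2) (Fin 2) k := !![0, 0; 1, 0]
  refine ⟨E m, E n, fun h1 => ?_⟩
  have h2 : E (m * n) = E (n * m) := (map_mul E m n).trans (h1.trans (map_mul E n m).symm)
  have h3 := congrFun (congrFun (E.injective h2) 0) 0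
  simp [m, n, Matrix.mul_apply, Fin.sum_univ_two] at h3

/-- If the image of a normal subgroup with abelian quotient fixes a nonzero vector, the image of
the group does not span the endomorphisms of a plane. -/
theorem span_ne_top_of_fixed {k V G A : Type*} [Field k] [AddCommGroup V] [Module k V] [Group G]
    [CommGroup A] (h2 : Module.finrank k V = 2) (ρ : G →* Module.End k V) (c : G →* A) {v : V}
    (hv0 : v ≠ 0) (hv : ∀ g ∈ c.ker, ρ g v = v) :
    Submodule.span k (Set.range ρ) ≠ ⊤ := by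
  intro hspan
  have : Module.Finite k V := Module.finite_of_finrank_eq_succ h2
  let W : Submodule k V :=
    { carrier := {x | ∀ g ∈ c.ker, ρ g x = x}
      add_mem' := fun {x y} hx hy g hg => by rw [map_add, hx g hg, hy g hg]
      zero_mem' := fun g _ => map_zero _
      smul_mem' := fun c x hx g hg => by rw [map_smul, hx g hg] }
  have hWst : ∀ g : G, ∀ x ∈ W, ρ g x ∈ W := by
    intro g x hx h hh
    have h1 : g⁻¹ * h * g ∈ c.ker := by
      have := c.normal_ker.conj_mem h hh g⁻¹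
      rwa [inv_inv] at this
    have h2 := hx _ h1
    have h3 : ρ h * ρ g = ρ g * ρ (g⁻¹ * h * g) := by
      rw [← map_mul, ← map_mul]; congr 1; group
    have h4 := LinearMap.congr_fun h3 x
    rw [Module.End.mul_apply, Module.End.mul_apply, h2] at h4
    exact h4
  have hWend : ∀ f : Module.End k V, ∀ x ∈ W, f x ∈ W := by
    intro f x hx
    have hf : f ∈ Submodule.span k (Set.range ρ) := by rw [hspan]; trivial
    induction hf using Submodule.span_induction with
    | mem f hf => obtain ⟨g, rfl⟩ := hf; exact hWst g x hx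
    | zero => exact W.zero_mem
    | add f f' _ _ hf hf' => exact W.add_mem hf hf'
    | smul c f _ hf => exact W.smul_mem c hf
  have hWtop : ∀ x : V, x ∈ W := by
    intro x
    obtain ⟨φ, hφ⟩ := Module.Projective.exists_dual_ne_zero k hv0
    have h1 := hWend (((φ v)⁻¹ • φ).smulRight x) v hv
    rwa [LinearMap.smulRight_apply, LinearMap.smul_apply, smul_eq_mul, inv_mul_cancel₀ hφ,
      one_smul] at h1
  have hker : ∀ g ∈ c.ker, ρ g = 1 := fun g hg => LinearMap.ext fun x =>
    hWtop x g hg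
  -- the image is abelian
  have hcomm : ∀ g h : G, ρ g * ρ h = ρ h * ρ g := by
    intro g h
    have h1 : (h * g)⁻¹ * (g * h) ∈ c.ker := by
      rw [MonoidHom.mem_ker, map_mul, map_inv, map_mul, map_mul, mul_comm (c h),
        inv_mul_cancel]
    have h2 : g * h = (h * g) * ((h * g)⁻¹ * (g * h)) := by group
    rw [← map_mul, ← map_mul, h2, map_mul ρ (h * g), hker _ h1, mul_one]
  have h1 : ∀ g : G, ∀ f ∈ Submodule.span k (Set.range ρ), f * ρ g = ρ g * f := by
    intro g f hf
    induction hf using Submodule.span_induction with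
    | mem f hf => obtain ⟨h, rfl⟩ := hf; exact hcomm h g
    | zero => rw [zero_mul, mul_zero]
    | add f f' _ _ hf hf' => rw [add_mul, mul_add, hf, hf']
    | smul c f _ hf => rw [smul_mul_assoc, mul_smul_comm, hf]
  have hcommE : ∀ f f' : Module.End k V, f * f' = f' * f := by
    intro f f'
    have hf : f ∈ Submodule.span k (Set.range ρ) := by rw [hspan]; trivial
    have hf' : f' ∈ Submodule.span k (Set.range ρ) := by rw [hspan]; trivial
    induction hf' using Submodule.span_induction with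
    | mem f' hf' => obtain ⟨h, rfl⟩ := hf'; exact h1 h f hf
    | zero => rw [zero_mul, mul_zero]
    | add f' f'' _ _ h h' => rw [add_mul, mul_add, h, h']
    | smul c f' _ h => rw [smul_mul_assoc, mul_smul_comm, h]
  obtain ⟨f, g, hfg⟩ := exists_not_commute h2
  exact hfg (hcommE f g)

/-- **Non-Eisenstein primes.** -/
theorem exists_prime_trace_ne {k : Type} [Field k] {p : ℕ} [Fact p.Prime] (hp : (p : k) = 0)
    (ρ : ResidualGaloisRep k) (habs : ρ.IsAbsolutelyIrreducible) (S : Finset ℕ) (t : ℕ → k)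
    (hF : ∀ ℓ : ℕ, ℓ.Prime → ℓ ∉ S → ∀ A : ValuationSubring (AlgebraicClosure ℚ),
      A.LiesOverPrime ℓ → ∀ σ : Γℚ, A.IsFrobeniusAt σ ℓ →
        LinearMap.trace k ρ.V (ρ.ρ σ) = t ℓ ∧ LinearMap.det (ρ.ρ σ) = (ℓ : k))
    (D : ℕ) (hD : 0 < D) (S' : Finset ℕ) :
    ∃ ℓ : ℕ, ℓ.Prime ∧ ℓ ∉ S' ∧ ℓ ≡ 1 [MOD D * p] ∧ t ℓ ≠ 2 := by
  by_contra hcon
  push Not at hcon
  have hpp : p.Prime := Fact.out
  have hNp : NeZero p := ⟨hpp.ne_zero⟩
  have hND : NeZero (D * p) := ⟨(Nat.mul_pos hD hpp.pos).ne'⟩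
  obtain ⟨L, hL, hLρ⟩ := ρ.factorsThroughFiniteLevel
  obtain ⟨ζ, hζ⟩ := exists_primitiveRoot (D * p)
  have hfin' : FiniteDimensional ℚ (IntermediateField.adjoin ℚ ({ζ} : Set (AlgebraicClosure ℚ))) :=
    IntermediateField.adjoin.finiteDimensional (Algebra.IsIntegral.isIntegral ζ)
  let L' : IntermediateField ℚ (AlgebraicClosure ℚ) := L ⊔ IntermediateField.adjoin ℚ {ζ}
  have hfinL' : FiniteDimensional ℚ L' := IntermediateField.finiteDimensional_sup _ _
  have hζL : ζ ∈ L' := (le_sup_right : _ ≤ L')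
    (IntermediateField.subset_adjoin ℚ _ (Set.mem_singleton ζ))
  have hLL : L ≤ L' := le_sup_left
  have hρeq : ∀ g g' : Γℚ, (∀ x ∈ L', g x = g' x) → ρ.ρ g = ρ.ρ g' := by
    intro g g' hgg'
    have h1 : ρ.ρ (g'⁻¹ * g) = 1 := hLρ _ fun x hx => by
      rw [AlgEquiv.mul_apply, hgg' x (hLL hx)]
      change g'.symm (g' x) = x
      exact g'.symm_apply_apply x
    have : g = g' * (g'⁻¹ * g) := by group
    rw [this, map_mul, h1, mul_one]
  -- all the traces on the kernel of the cyclotomic character are `2`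
  have key : ∀ σ ∈ (cyc (D * p)).ker, LinearMap.trace k ρ.V (ρ.ρ σ) = 2 ∧
      LinearMap.det (ρ.ρ σ) = 1 := by
    intro σ hσ
    rw [MonoidHom.mem_ker] at hσ
    obtain ⟨ℓ, hℓ, hℓS, A, φ, hA, hφ, ⟨j, hj⟩, ⟨m, hm⟩⟩ := FrobDensity.frobenius_density L'
      (S ∪ S' ∪ (D * p).primeFactors) σ
    simp only [Finset.mem_union, not_or] at hℓS
    obtain ⟨⟨hℓS, hℓS'⟩, hℓD⟩ := hℓS
    have hcycφ : cyc (D * p) φ = 1 := by
      refine cyc_eq_one_of_fixes (D * p) φ hζ ?_
      rw [hm ζ hζL]
      exact cyc_fixes (D * p) (by rw [map_pow, hσ, one_pow]) hζ.pow_eq_one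
    have hℓDp : ¬ ℓ ∣ D * p := fun h => hℓD (Nat.mem_primeFactors.mpr ⟨hℓ, h, NeZero.ne _⟩)
    have hmod : ℓ ≡ 1 [MOD D * p] := by
      have h1 := cyc_frobenius (n := D * p) hℓ hℓDp A hA hφ
      rw [hcycφ, Units.val_one] at h1
      rw [← ZMod.natCast_eq_natCast_iff, ← h1, Nat.cast_one]
    have hℓ1 : (ℓ : k) = 1 := by
      have hmodp : ℓ ≡ 1 [MOD p] := hmod.of_mul_left D
      obtain ⟨c, hc⟩ := (Nat.modEq_iff_dvd' hℓ.one_le).mp hmodp.symm
      have : ℓ = p * c + 1 := by have := hℓ.one_le; omega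
      rw [this, Nat.cast_add, Nat.cast_mul, hp, zero_mul, zero_add, Nat.cast_one]
    obtain ⟨h1, h2⟩ := hF ℓ hℓ hℓS A hA φ hφ
    rw [hcon ℓ hℓ hℓS' hmod] at h1
    rw [hℓ1] at h2
    rw [hρeq σ (φ ^ j) hj, map_pow]
    exact ⟨trace_pow_eq_two ρ.finrank_eq h1 h2 j, by rw [map_pow, h2, one_pow]⟩
  obtain ⟨v, hv0, hv⟩ := exists_fixed_of_trace_eq_two ρ.finrank_eq (cyc (D * p)).ker ρ.ρ
    (fun g hg => (key g hg).1) (fun g hg => (key g hg).2)
  exact span_ne_top_of_fixed ρ.finrank_eq ρ.ρ (cyc (D * p)) hv0 hv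
    ((BN2.isAbsolutelyIrreducible_iff_span ρ).mp habs)

end Fermat.Agent.RT.NonEisenstein
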