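import Mathlib
import Fermat.Agent.RT.HeckeLocalLift
import Fermat.Agent.RT.NonEisenstein

/-!
# `heckeLocal` acts on localised modular symbols

* `exists_algHom_of_embedding`: the general statement for `V ↪ MS (Γ₀(M)) R`;
* the signed parts `MSs M ε R`, faithfulness of the action.
-/

set_option autoImplicit false
set_option linter.unusedSectionVars false

noncomputable section

open scoped TensorProduct MatrixGroups OnePoint
open IsLocalRing CongruenceSubgroup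

namespace Fermat.Agent.RT.MSLocal

open CuspForm Fermat.Agent.RT.HeckeLocalFields Fermat.Agent.RT.MSHecke Fermat.Agent.LR
  Fermat.Agent.LR.PS

section Embedding

variable (M : ℕ) [NeZero M] (S : Set ℕ)
variable (𝒪 : Type) [CommRing 𝒪] [IsDomain 𝒪] [IsDiscreteValuationRing 𝒪]
  [IsAdicComplete (IsLocalRing.maximalIdeal 𝒪) 𝒪]
variable (θ : heckeAlgebra M 2 S →+* IsLocalRing.ResidueField 𝒪)
variable [Fact (HasIntegralStructure M 2)]

variable {A : Type} [CommRing A] [Algebra 𝒪 A] (𝔪 : Ideal A) [𝔪.IsMaximal]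
  (V : Type) [AddCommGroup V] [Module A V] (x : Idx S → A)
  {R : Type*} [CommRing R] (F : V →+ MS (Gamma0 M) R)
  (hF : ∀ ℓ v, F (x ℓ • v) = opMS M S ℤ R ℓ (F v))

include hF in
theorem map_aeval_smul (a : MvPolynomial (Idx S) ℤ) (v : V) :
    F ((MvPolynomial.aeval x a : A) • v) = msAct M S ℤ R a (F v) := by
  induction a using MvPolynomial.induction_on generalizing v with
  | C r =>
    have e1 : (MvPolynomial.aeval x (MvPolynomial.C r) : A) = (r : A) := by
      rw [MvPolynomial.aeval_C]; simp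
    have e2 : msAct M S ℤ R (MvPolynomial.C r) = algebraMap ℤ _ r := AlgHom.commutes _ r
    rw [e1, e2, Module.algebraMap_end_apply, Int.cast_smul_eq_zsmul, map_zsmul]
  | add a b ha hb => rw [map_add, add_smul, map_add, ha, hb, map_add, LinearMap.add_apply]
  | mul_X a i ha =>
    rw [map_mul, MvPolynomial.aeval_X, mul_smul, ha, hF, map_mul, Module.End.mul_apply, msAct_X]

variable [Module.IsTorsionFree ℤ R] (hFinj : ∀ v, F v = 0 → ∃ s ∉ 𝔪, s • v = 0)
  (ℓ₀ : Idx S) (hℓ₀ : ((ℓ₀.1 : ℕ) : ZMod M) = 1) (hE : x ℓ₀ - (1 + ((ℓ₀.1 : ℕ) : A)) ∉ 𝔪)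

include hF hFinj hℓ₀ hE in
theorem exists_smul_eq_zero (a : MvPolynomial (Idx S) ℤ) (ha : evForms M S a = 0) (v : V) :
    ∃ s ∉ 𝔪, s • (MvPolynomial.aeval x a : A) • v = 0 := by
  have h1 := map_aeval_smul M S V x F hF
    ((MvPolynomial.X ℓ₀ - MvPolynomial.C (1 + (ℓ₀.1 : ℕ) : ℤ)) * a) v
  rw [msAct_eq_zero_of_evForms_eq_zero M S ha ℓ₀ hℓ₀, LinearMap.zero_apply, map_mul, map_sub,
    MvPolynomial.aeval_X, MvPolynomial.aeval_C, mul_smul] at h1
  obtain ⟨s, hs, hs'⟩ := hFinj _ h1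
  refine ⟨s * (x ℓ₀ - (1 + ((ℓ₀.1 : ℕ) : A))), fun h => ?_, ?_⟩
  · rcases (inferInstance : 𝔪.IsPrime).mem_or_mem h with h | h
    · exact hs h
    · exact hE h
  · rw [mul_smul]
    convert hs' using 4
    simp

include hF hFinj hℓ₀ hE in
/-- **`heckeLocal` acts on `V_𝔪`** when `V` embeds equivariantly in modular symbols of level `M`
(up to elements killed by something outside `𝔪`), with torsion-free coefficients, and `𝔪` is not
Eisenstein. -/
theorem exists_algHom_of_embedding [Nontrivial (LocalizedModule 𝔪.primeCompl V)]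
    (h𝒪 : ∀ c ∈ maximalIdeal 𝒪, algebraMap 𝒪 A c ∈ 𝔪)
    (hx : ∀ ℓ (c : 𝒪), residue 𝒪 c = θ (genS M S ℓ) → x ℓ - algebraMap 𝒪 A c ∈ 𝔪) :
    ∃ ψ : heckeLocal M S 𝒪 θ →ₐ[𝒪] LocRing 𝔪 V,
      ∀ a : MvPolynomial (Idx S) ℤ, ψ (heckeLocal.π M S 𝒪 θ (evForms M S a)) =
        algebraMap A (LocRing 𝔪 V) (MvPolynomial.aeval x a) :=
  HeckeLocalLift.exists_algHom_locRing M S 𝒪 θ 𝔪 V h𝒪 x hx
    (exists_smul_eq_zero M S 𝔪 V x F hF hFinj ℓ₀ hℓ₀ hE)

end Embedding

end Fermat.Agent.RT.MSLocal
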