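import Mathlib
import Fermat.Agent.RT.MSLocal
import Fermat.Agent.RT.Defs

/-!
# RT-ACT : `heckeLocal` acts on finite modules mapping injectively to modular symbols

`exists_act`: `X` a finite `𝒪`-module with commuting operators `a_ℓ` (`ℓ ∉ S`), residually equal to
`θ(T_ℓ)` up to topologically nilpotent operators, and a jointly injective family of equivariant maps
`X → MS (Γ₀(M)) 𝒪`; `θ` not Eisenstein. Then `heckeLocal M S 𝒪 θ` acts on `X` through
`T_ℓ ↦ a_ℓ`.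
-/

set_option autoImplicit false
set_option linter.unusedSectionVars false

noncomputable section

open scoped TensorProduct MatrixGroups OnePoint
open IsLocalRing CongruenceSubgroup

namespace Fermat.Agent.RT.Act

open CuspForm Fermat.Agent.RT.HeckeLocalFields Fermat.Agent.RT.MSHecke Fermat.Agent.LR
  Fermat.Agent.LR.PS

/-! ### The local ring generated by residually scalar operators -/

section LocalRing

variable {𝒪 : Type*} [CommRing 𝒪] [IsLocalRing 𝒪] [IsNoetherianRing 𝒪] {I : Type*}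
  {X : Type*} [AddCommGroup X] [Module 𝒪 X] [Module.Finite 𝒪 X]
  (a : I → Module.End 𝒪 X) (hcomm : ∀ i j, Commute (a i) (a j)) (t : I → 𝒪)
  (hnil : ∀ i (x : X), ∃ n : ℕ, ((a i - algebraMap 𝒪 _ (t i)) ^ n) x ∈
    maximalIdeal 𝒪 • (⊤ : Submodule 𝒪 X))

/-- the ring generated by the operators -/
abbrev GRing : Type _ := MvPolynomial I 𝒪 ⧸ RingHom.ker (commAct a hcomm)

/-- its action on `X` -/
def gAct : GRing a hcomm →ₐ[𝒪] Module.End 𝒪 X :=
  Ideal.kerLiftAlg (commAct a hcomm)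

theorem gAct_mk (P : MvPolynomial I 𝒪) :
    gAct a hcomm (Ideal.Quotient.mk _ P) = commAct a hcomm P := rfl

theorem gAct_injective : Function.Injective (gAct a hcomm) :=
  Ideal.kerLiftAlg_injective (commAct a hcomm)

theorem finite_GRing : Module.Finite 𝒪 (GRing a hcomm) :=
  Module.Finite.of_injective (gAct a hcomm).toLinearMap (gAct_injective a hcomm)

include hnil in
/-- every maximal ideal containing the kernel contains `X_i - t_i` and `𝔪` -/
theorem mem_of_isMaximal (n : Ideal (MvPolynomial I 𝒪)) [hn : n.IsMaximal]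
    (hker : RingHom.ker (commAct a hcomm) ≤ n) :
    (∀ c ∈ maximalIdeal 𝒪, MvPolynomial.C c ∈ n) ∧
      ∀ i, MvPolynomial.X i - MvPolynomial.C (t i) ∈ n := by
  have hfin := finite_GRing a hcomm
  -- the maximal ideal of `𝒪`
  have h1 : ∀ c ∈ maximalIdeal 𝒪, MvPolynomial.C c ∈ n := by
    let n' : Ideal (GRing a hcomm) := n.map (Ideal.Quotient.mk _)
    have hn' : n'.IsMaximal :=
      Ideal.IsMaximal.map_of_surjective_of_ker_le Ideal.Quotient.mk_surjective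
        (by rw [Ideal.mk_ker]; exact hker)
    have hint : Algebra.IsIntegral 𝒪 (GRing a hcomm) := inferInstance
    have hcm : (n'.comap (algebraMap 𝒪 (GRing a hcomm))).IsMaximal :=
      Ideal.isMaximal_comap_of_isIntegral_of_isMaximal n'
    intro c hc
    rw [← IsLocalRing.eq_maximalIdeal hcm] at hc
    have h2 : Ideal.Quotient.mk (RingHom.ker (commAct a hcomm)) (MvPolynomial.C c) ∈ n' := hc
    have h3 : MvPolynomial.C c ∈ n'.comap (Ideal.Quotient.mk (RingHom.ker (commAct a hcomm))) := h2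
    rwa [Ideal.comap_map_of_surjective _ Ideal.Quotient.mk_surjective, ← RingHom.ker_eq_comap_bot,
      Ideal.mk_ker, sup_eq_left.mpr hker] at h3
  refine ⟨h1, fun i => ?_⟩
  let _ : Module (MvPolynomial I 𝒪) X := Module.compHom X (commAct a hcomm).toRingHom
  have hsm : ∀ (P : MvPolynomial I 𝒪) (x : X), P • x = commAct a hcomm P x := fun _ _ => rfl
  have hC : ∀ (c : 𝒪) (x : X), (MvPolynomial.C c : MvPolynomial I 𝒪) • x = c • x := by
    intro c x
    have : commAct a hcomm (MvPolynomial.C c) = algebraMap 𝒪 _ c := AlgHom.commutes _ c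
    rw [hsm, this, Module.algebraMap_end_apply]
  have : IsScalarTower 𝒪 (MvPolynomial I 𝒪) X := ⟨fun c P x => by
    rw [MvPolynomial.smul_eq_C_mul, mul_smul, hC]⟩
  have hfinX : Module.Finite (MvPolynomial I 𝒪) X := Module.Finite.of_restrictScalars_finite 𝒪 _ _
  have hne : n • (⊤ : Submodule (MvPolynomial I 𝒪) X) ≠ ⊤ := by
    intro h
    obtain ⟨r, hr1, hr2⟩ := Submodule.exists_sub_one_mem_and_smul_eq_zero_of_fg_of_le_smul n
      (⊤ : Submodule (MvPolynomial I 𝒪) X) Module.Finite.fg_top h.ge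
    have h4 : r ∈ n := hker (by
      rw [RingHom.mem_ker]
      exact LinearMap.ext fun x => hr2 x trivial)
    have h5 := n.sub_mem h4 hr1
    rw [sub_sub_cancel] at h5
    exact hn.ne_top ((Ideal.eq_top_iff_one _).mpr h5)
  obtain ⟨x, -, hx⟩ : ∃ x ∈ (⊤ : Submodule (MvPolynomial I 𝒪) X),
      x ∉ n • (⊤ : Submodule (MvPolynomial I 𝒪) X) := by
    by_contra hcon
    push Not at hcon
    exact hne (eq_top_iff.mpr fun y hy => hcon y hy)
  by_contra hb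
  obtain ⟨m, hm⟩ := hnil i x
  set b : MvPolynomial I 𝒪 := MvPolynomial.X i - MvPolynomial.C (t i) with hbdef
  have hbm : b ^ m ∉ n := fun h => hb (hn.isPrime.mem_of_pow_mem m h)
  have hbx : b ^ m • x ∈ n • (⊤ : Submodule (MvPolynomial I 𝒪) X) := by
    have e1 : b ^ m • x = ((a i - algebraMap 𝒪 _ (t i)) ^ m) x := by
      rw [hsm, map_pow, hbdef, map_sub, commAct_X]
      congr 3
      exact AlgHom.commutes _ _
    rw [e1]
    refine Submodule.smul_induction_on hm (fun c hc y _ => ?_) (fun y z hy hz => add_mem hy hz)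
    rw [← hC]
    exact Submodule.smul_mem_smul (h1 c hc) trivial
  obtain ⟨s, hs⟩ := hn.exists_inv hbm
  obtain ⟨z, hz, hsz⟩ := hs
  have e2 : x = s • (b ^ m • x) + z • x := by
    rw [← mul_smul, ← add_smul, hsz, one_smul]
  exact hx (e2 ▸ add_mem (Submodule.smul_mem _ _ hbx) (Submodule.smul_mem_smul hz trivial))

include hnil in
theorem mem_iff_of_isMaximal (n : Ideal (MvPolynomial I 𝒪)) [hn : n.IsMaximal]
    (hker : RingHom.ker (commAct a hcomm) ≤ n) (P : MvPolynomial I 𝒪) :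
    P ∈ n ↔ MvPolynomial.eval t P ∈ maximalIdeal 𝒪 := by
  obtain ⟨h1, h2⟩ := mem_of_isMaximal a hcomm t hnil n hker
  have h3 : (Ideal.Quotient.mkₐ 𝒪 n) = ((IsScalarTower.toAlgHom 𝒪 𝒪 (MvPolynomial I 𝒪 ⧸ n)).comp
      (MvPolynomial.aeval t : MvPolynomial I 𝒪 →ₐ[𝒪] 𝒪)) := by
    refine MvPolynomial.algHom_ext fun i => ?_
    rw [AlgHom.comp_apply, MvPolynomial.aeval_X]
    exact Ideal.Quotient.eq.mpr (h2 i)
  have h4 : Ideal.Quotient.mk n P = Ideal.Quotient.mk n (MvPolynomial.C (MvPolynomial.eval t P)) := by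
    have := DFunLike.congr_fun h3 P
    rw [AlgHom.comp_apply] at this
    exact this
  have h5 : P ∈ n ↔ MvPolynomial.C (MvPolynomial.eval t P) ∈ n := by
    rw [← Ideal.Quotient.eq_zero_iff_mem, ← Ideal.Quotient.eq_zero_iff_mem, h4]
  rw [h5]
  refine ⟨fun h => ?_, h1 _⟩
  by_contra hu
  have hu' : IsUnit (MvPolynomial.eval t P) := by
    rwa [IsLocalRing.mem_maximalIdeal, mem_nonunits_iff, not_not] at hu
  exact hn.ne_top (Ideal.eq_top_of_isUnit_mem _ h (hu'.map MvPolynomial.C))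

include hnil in
theorem isLocalRing_GRing [Nontrivial X] : IsLocalRing (GRing a hcomm) := by
  have hnt : Nontrivial (GRing a hcomm) := by
    rw [Ideal.Quotient.nontrivial_iff]
    intro h
    have h1 : (1 : MvPolynomial I 𝒪) ∈ RingHom.ker (commAct a hcomm) := by rw [h]; trivial
    rw [RingHom.mem_ker, map_one] at h1
    obtain ⟨x, hx⟩ := exists_ne (0 : X)
    exact hx (by simpa using LinearMap.congr_fun h1 x)
  have key : ∀ n' : Ideal (GRing a hcomm), n'.IsMaximal → ∀ P : MvPolynomial I 𝒪,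
      Ideal.Quotient.mk _ P ∈ n' ↔ MvPolynomial.eval t P ∈ maximalIdeal 𝒪 := by
    intro n' hn' P
    have hn : (n'.comap (Ideal.Quotient.mk (RingHom.ker (commAct a hcomm)))).IsMaximal :=
      Ideal.comap_isMaximal_of_surjective _ Ideal.Quotient.mk_surjective
    refine mem_iff_of_isMaximal a hcomm t hnil
      (n'.comap (Ideal.Quotient.mk (RingHom.ker (commAct a hcomm)))) (fun Q hQ => ?_) P
    rw [Ideal.mem_comap, Ideal.Quotient.eq_zero_iff_mem.mpr hQ]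
    exact n'.zero_mem
  obtain ⟨n', hn'⟩ := Ideal.exists_maximal (GRing a hcomm)
  refine IsLocalRing.of_unique_max_ideal ⟨n', hn', fun n'' hn'' => ?_⟩
  ext x
  obtain ⟨P, rfl⟩ := Ideal.Quotient.mk_surjective x
  rw [key n' hn', key n'' hn'']

include hnil in
theorem mk_mem_maximalIdeal_iff [IsLocalRing (GRing a hcomm)] (P : MvPolynomial I 𝒪) :
    Ideal.Quotient.mk _ P ∈ maximalIdeal (GRing a hcomm) ↔
      MvPolynomial.eval t P ∈ maximalIdeal 𝒪 := by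
  have hn : ((maximalIdeal (GRing a hcomm)).comap
      (Ideal.Quotient.mk (RingHom.ker (commAct a hcomm)))).IsMaximal :=
    Ideal.comap_isMaximal_of_surjective _ Ideal.Quotient.mk_surjective
  refine mem_iff_of_isMaximal a hcomm t hnil ((maximalIdeal (GRing a hcomm)).comap
      (Ideal.Quotient.mk (RingHom.ker (commAct a hcomm)))) (fun Q hQ => ?_) P
  rw [Ideal.mem_comap, Ideal.Quotient.eq_zero_iff_mem.mpr hQ]
  exact Ideal.zero_mem _

end LocalRing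

/-! ### The action of `heckeLocal` -/

section Main

variable (M : ℕ) [NeZero M] (S : Set ℕ)
variable (𝒪 : Type) [CommRing 𝒪] [IsDomain 𝒪] [IsDiscreteValuationRing 𝒪]
  [IsAdicComplete (IsLocalRing.maximalIdeal 𝒪) 𝒪]
variable (θ : heckeAlgebra M 2 S →+* IsLocalRing.ResidueField 𝒪)
variable [Fact (HasIntegralStructure M 2)]

variable {X : Type} [AddCommGroup X] [Module 𝒪 X] [Module.Finite 𝒪 X]
  (a : Idx S → Module.End 𝒪 X) (hcomm : ∀ i j, Commute (a i) (a j)) (t : Idx S → 𝒪)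
  (ht : ∀ ℓ, residue 𝒪 (t ℓ) = θ (genS M S ℓ))
  (hnil : ∀ i (x : X), ∃ n : ℕ, ((a i - algebraMap 𝒪 _ (t i)) ^ n) x ∈
    maximalIdeal 𝒪 • (⊤ : Submodule 𝒪 X))
  {R : Type*} [CommRing R] [Module.IsTorsionFree ℤ R] {J : Type*}
  (Tw : J → X →+ MS (Gamma0 M) R) (hinj : ∀ x, (∀ j, Tw j x = 0) → x = 0)
  (hTw : ∀ j ℓ x, Tw j (a ℓ x) = opMS M S ℤ R ℓ (Tw j x))
  (ℓ₀ : Idx S) (hℓ₀ : ((ℓ₀.1 : ℕ) : ZMod M) = 1) (hE : θ (genS M S ℓ₀) ≠ 1 + ((ℓ₀.1 : ℕ) : _))

include hcomm ht hnil hinj hTw hℓ₀ hE in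
/-- **RT-ACT.** -/
theorem exists_act : ∃ Φ : heckeLocal M S 𝒪 θ →ₐ[𝒪] Module.End 𝒪 X,
    ∀ ℓ, Φ (heckeLocal.π M S 𝒪 θ (genS M S ℓ)) = a ℓ := by
  rcases subsingleton_or_nontrivial X with hX | hX
  · -- the zero module
    have hsub : Subsingleton (Module.End 𝒪 X) := inferInstance
    exact ⟨{ toFun := fun _ => 0
             map_one' := Subsingleton.elim _ _
             map_mul' := fun _ _ => Subsingleton.elim _ _
             map_zero' := rfl
             map_add' := fun _ _ => Subsingleton.elim _ _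
             commutes' := fun _ => Subsingleton.elim _ _ }, fun _ => Subsingleton.elim _ _⟩
  have hloc := isLocalRing_GRing a hcomm t hnil
  have hlh : IsLocalHom (algebraMap 𝒪 (GRing a hcomm)) := by
    refine ⟨fun c hc => ?_⟩
    by_contra hnu
    have h1 : Ideal.Quotient.mk _ (MvPolynomial.C c) ∈ maximalIdeal (GRing a hcomm) := by
      rw [mk_mem_maximalIdeal_iff a hcomm t hnil, MvPolynomial.eval_C]
      exact hnu
    exact h1 hc
  -- the `A`-module structure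
  let _ : Module (MvPolynomial (Idx S) 𝒪) X := Module.compHom X (commAct a hcomm).toRingHom
  have hsm : ∀ (P : MvPolynomial (Idx S) 𝒪) (x : X), P • x = commAct a hcomm P x := fun _ _ => rfl
  have hX' : ∀ (ℓ : Idx S) (x : X), (MvPolynomial.X ℓ : MvPolynomial (Idx S) 𝒪) • x = a ℓ x := by
    intro ℓ x
    rw [hsm, commAct_X]
  have hmap : ∀ j (P : MvPolynomial (Idx S) ℤ) (v : X),
      Tw j ((MvPolynomial.aeval (fun ℓ => (MvPolynomial.X ℓ : MvPolynomial (Idx S) 𝒪)) P :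
        MvPolynomial (Idx S) 𝒪) • v) = msAct M S ℤ R P (Tw j v) := by
    intro j P v
    exact MSLocal.map_aeval_smul M S X (fun ℓ => (MvPolynomial.X ℓ : MvPolynomial (Idx S) 𝒪))
      (Tw j) (fun ℓ v => by rw [hX', hTw]) P v
  have hunit : ∀ v : X, (MvPolynomial.X ℓ₀ - MvPolynomial.C (1 + ((ℓ₀.1 : ℕ) : 𝒪)) :
      MvPolynomial (Idx S) 𝒪) • v = 0 → v = 0 := by
    intro v hv
    have hu : IsUnit (Ideal.Quotient.mk (RingHom.ker (commAct a hcomm))
        (MvPolynomial.X ℓ₀ - MvPolynomial.C (1 + ((ℓ₀.1 : ℕ) : 𝒪)) : MvPolynomial (Idx S) 𝒪)) := by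
      by_contra hnu
      have h1 := (mk_mem_maximalIdeal_iff a hcomm t hnil _).mp hnu
      rw [map_sub, MvPolynomial.eval_X, MvPolynomial.eval_C, ← residue_eq_zero_iff, map_sub, ht,
        map_add, map_one, map_natCast, sub_eq_zero] at h1
      exact hE h1
    obtain ⟨u, hu⟩ := hu
    have h2 : gAct a hcomm (u : GRing a hcomm) v = 0 := by rw [hu, gAct_mk]; exact hv
    have h3 : gAct a hcomm ((u⁻¹ : (GRing a hcomm)ˣ) : GRing a hcomm)
        (gAct a hcomm (u : GRing a hcomm) v) = v := by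
      rw [← Module.End.mul_apply, ← map_mul, Units.inv_mul, map_one, Module.End.one_apply]
    rw [← h3, h2, map_zero]
  let G : MvPolynomial (Idx S) ℤ →+* GRing a hcomm :=
    (Ideal.Quotient.mk (RingHom.ker (commAct a hcomm))).comp
      (MvPolynomial.aeval (fun ℓ => (MvPolynomial.X ℓ : MvPolynomial (Idx S) 𝒪)) :
        MvPolynomial (Idx S) ℤ →ₐ[ℤ] MvPolynomial (Idx S) 𝒪)
  have hker : RingHom.ker (evForms M S : MvPolynomial (Idx S) ℤ →+* heckeAlgebra M 2 S) ≤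
      RingHom.ker G := by
    intro P hP
    rw [RingHom.mem_ker]
    refine Ideal.Quotient.eq_zero_iff_mem.mpr ?_
    rw [RingHom.mem_ker]
    refine LinearMap.ext fun v => ?_
    refine hunit _ (hinj _ fun j => ?_)
    have h1 := hmap j ((MvPolynomial.X ℓ₀ - MvPolynomial.C (1 + (ℓ₀.1 : ℕ) : ℤ)) * P) v
    rw [msAct_eq_zero_of_evForms_eq_zero M S hP ℓ₀ hℓ₀, LinearMap.zero_apply, map_mul, mul_smul,
      map_sub, MvPolynomial.aeval_X, MvPolynomial.aeval_C] at h1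
    have e1 : (algebraMap ℤ (MvPolynomial (Idx S) 𝒪)) (1 + ((ℓ₀.1 : ℕ) : ℤ)) =
        MvPolynomial.C (1 + ((ℓ₀.1 : ℕ) : 𝒪)) := by simp
    rw [e1] at h1
    exact h1
  let g : heckeAlgebra M 2 S →+* GRing a hcomm :=
    RingHom.liftOfSurjective (evForms M S : MvPolynomial (Idx S) ℤ →+* heckeAlgebra M 2 S)
      (evForms_surjective M S) ⟨G, hker⟩
  have hg : ∀ P, g (evForms M S P) = G P := fun P =>
    RingHom.liftOfRightInverse_comp_apply _ _ _ _ P
  have hGX : ∀ ℓ, G (MvPolynomial.X ℓ) = Ideal.Quotient.mk _ (MvPolynomial.X ℓ) := by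
    intro ℓ
    change Ideal.Quotient.mk _ (MvPolynomial.aeval _ (MvPolynomial.X ℓ)) = _
    rw [MvPolynomial.aeval_X]
  obtain ⟨ψ, hψ⟩ := HeckeLocalLift.exists_algHom M S 𝒪 θ g (by
    have h1 : ((residue (GRing a hcomm)).comp g).comp
        (evForms M S : MvPolynomial (Idx S) ℤ →+* heckeAlgebra M 2 S) =
        ((ResidueField.map (algebraMap 𝒪 (GRing a hcomm))).comp θ).comp
        (evForms M S : MvPolynomial (Idx S) ℤ →+* heckeAlgebra M 2 S) := by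
      refine MvPolynomial.ringHom_ext (fun r => ?_) (fun ℓ => ?_)
      · simp
      · change residue (GRing a hcomm) (g (evForms M S (MvPolynomial.X ℓ))) =
          ResidueField.map (algebraMap 𝒪 (GRing a hcomm)) (θ (evForms M S (MvPolynomial.X ℓ)))
        rw [hg, evForms_X, ← ht, ResidueField.map_residue, ← sub_eq_zero, ← map_sub,
          residue_eq_zero_iff, hGX]
        have h3 : algebraMap 𝒪 (GRing a hcomm) (t ℓ) = Ideal.Quotient.mk _ (MvPolynomial.C (t ℓ)) :=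
          rfl
        rw [h3, ← map_sub, mk_mem_maximalIdeal_iff a hcomm t hnil, map_sub, MvPolynomial.eval_X,
          MvPolynomial.eval_C, sub_self]
        exact Ideal.zero_mem _
    intro s
    obtain ⟨P, rfl⟩ := evForms_surjective M S s
    exact RingHom.congr_fun h1 P)
  refine ⟨(gAct a hcomm).comp ψ, fun ℓ => ?_⟩
  rw [AlgHom.comp_apply, hψ, ← evForms_X, hg, hGX, gAct_mk, commAct_X]

end Main

/-! ### Submodules of an ambient module -/

section Sub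

theorem mem_smul_top_of_nilSub {𝒪 : Type*} [CommRing 𝒪] [IsDomain 𝒪] [IsDiscreteValuationRing 𝒪]
    {P : Type*} [AddCommGroup P] [Module 𝒪 P] (X : Submodule 𝒪 P)
    (hsat : ∀ (c : 𝒪) (z : P), c ≠ 0 → c • z ∈ X → z ∈ X) {T : Module.End 𝒪 P}
    {T' : Module.End 𝒪 X} (hT : ∀ x : X, (T' x : P) = T x) (x : X) (hx : (x : P) ∈ nilSub T) :
    ∃ n : ℕ, (T' ^ n) x ∈ maximalIdeal 𝒪 • (⊤ : Submodule 𝒪 X) := by
  obtain ⟨ϖ, hϖ⟩ := IsDiscreteValuationRing.exists_irreducible 𝒪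
  obtain ⟨n, z, hz⟩ := hx ϖ hϖ.ne_zero
  have hpow : ∀ (n : ℕ) (x : X), ((T' ^ n) x : P) = (T ^ n) x := by
    intro n
    induction n with
    | zero => intro x; rfl
    | succ n ih => intro x; rw [pow_succ, pow_succ, Module.End.mul_apply, Module.End.mul_apply, ih,
        hT]
  refine ⟨n, ?_⟩
  have hzX : z ∈ X := hsat ϖ z hϖ.ne_zero (by rw [← hz, ← hpow]; exact ((T' ^ n) x).2)
  have h1 : (T' ^ n) x = ϖ • (⟨z, hzX⟩ : X) := Subtype.ext (by rw [hpow, hz]; rfl)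
  rw [h1]
  refine Submodule.smul_mem_smul ?_ trivial
  rw [hϖ.maximalIdeal_eq]
  exact Ideal.mem_span_singleton_self ϖ

/-- `nilSub` is saturated. -/
theorem mem_nilSub_of_smul {𝒪 : Type*} [CommRing 𝒪] [IsDomain 𝒪]
    {P : Type*} [AddCommGroup P] [Module 𝒪 P] [Module.IsTorsionFree 𝒪 P] {T : Module.End 𝒪 P}
    {c : 𝒪} (hc : c ≠ 0) {z : P} (h : c • z ∈ nilSub T) : z ∈ nilSub T := by
  intro d hd
  obtain ⟨n, w, hw⟩ := h (c * d) (mul_ne_zero hc hd)
  refine ⟨n, w, ?_⟩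
  rw [map_smul, mul_smul] at hw
  exact (smul_right_injective P hc) hw

variable (M : ℕ) [NeZero M] (S : Set ℕ)
variable (𝒪 : Type) [CommRing 𝒪] [IsDomain 𝒪] [IsDiscreteValuationRing 𝒪]
  [IsAdicComplete (IsLocalRing.maximalIdeal 𝒪) 𝒪]
variable (θ : heckeAlgebra M 2 S →+* IsLocalRing.ResidueField 𝒪)
variable [Fact (HasIntegralStructure M 2)]

/-- **RT-ACT**, for a submodule `X` of an ambient module `P` (e.g. `Pairs 𝒪`) with operators
defined on `P`. -/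
theorem exists_act_sub {P : Type} [AddCommGroup P] [Module 𝒪 P] (X : Submodule 𝒪 P)
    [Module.Finite 𝒪 X] (hsat : ∀ (c : 𝒪) (z : P), c ≠ 0 → c • z ∈ X → z ∈ X)
    (A : Idx S → Module.End 𝒪 P) (hA : ∀ ℓ, ∀ x ∈ X, A ℓ x ∈ X)
    (hcomm : ∀ i j, ∀ x ∈ X, A i (A j x) = A j (A i x)) (t : Idx S → 𝒪)
    (ht : ∀ ℓ, residue 𝒪 (t ℓ) = θ (genS M S ℓ))
    (hnil : ∀ ℓ, ∀ x ∈ X, x ∈ nilSub (A ℓ - algebraMap 𝒪 _ (t ℓ)))
    {R : Type*} [CommRing R] [Module.IsTorsionFree ℤ R] {J : Type*}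
    (Tw : J → P →+ Pairs R) (hmem : ∀ j, ∀ x ∈ X, Tw j x ∈ MS (Gamma0 M) R)
    (hinj : ∀ x ∈ X, (∀ j, Tw j x = 0) → x = 0)
    (hTw : ∀ j (ℓ : Idx S), ∀ x ∈ X, Tw j (A ℓ x) = hop R M (ℓ.1 : ℕ) (Tw j x))
    (ℓ₀ : Idx S) (hℓ₀ : ((ℓ₀.1 : ℕ) : ZMod M) = 1)
    (hE : θ (genS M S ℓ₀) ≠ 1 + ((ℓ₀.1 : ℕ) : _)) :
    ∃ Φ : heckeLocal M S 𝒪 θ →ₐ[𝒪] Module.End 𝒪 X,
      ∀ (ℓ : Idx S) (x : X), (Φ (heckeLocal.π M S 𝒪 θ (genS M S ℓ)) x : P) = A ℓ x := by
  obtain ⟨Φ, hΦ⟩ := exists_act M S 𝒪 θ (X := X) (fun ℓ => (A ℓ).restrict (hA ℓ))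
    (fun i j => LinearMap.ext fun x => Subtype.ext (hcomm i j x x.2)) t ht
    (fun ℓ x => mem_smul_top_of_nilSub X hsat (T := A ℓ - algebraMap 𝒪 _ (t ℓ))
      (fun x => rfl) x (hnil ℓ x x.2))
    (fun j => ((Tw j).comp X.subtype.toAddMonoidHom).codRestrict
      (MS (Gamma0 M) R).toAddSubmonoid (fun x => hmem j x x.2))
    (fun x hx => Subtype.ext (hinj x x.2 fun j => congrArg Subtype.val (hx j)))
    (fun j ℓ x => Subtype.ext (hTw j ℓ x x.2)) ℓ₀ hℓ₀ hE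
  exact ⟨Φ, fun ℓ x => by rw [hΦ]; rfl⟩

/-- **RT-ACT** for a part of `MS (Γ₀(M)) 𝒪`. -/
theorem exists_act_MS [Module.IsTorsionFree ℤ 𝒪] (X : Submodule 𝒪 (Pairs 𝒪))
    (hX : X ≤ MS (Gamma0 M) 𝒪) [Module.Finite 𝒪 X]
    (hsat : ∀ (c : 𝒪) (z : Pairs 𝒪), c ≠ 0 → c • z ∈ X → z ∈ X)
    (hA : ∀ ℓ : Idx S, ∀ x ∈ X, hop 𝒪 M (ℓ.1 : ℕ) x ∈ X) (t : Idx S → 𝒪)
    (ht : ∀ ℓ, residue 𝒪 (t ℓ) = θ (genS M S ℓ))
    (hnil : ∀ ℓ : Idx S, ∀ x ∈ X, x ∈ nilSub (hop 𝒪 M (ℓ.1 : ℕ) - algebraMap 𝒪 _ (t ℓ)))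
    (ℓ₀ : Idx S) (hℓ₀ : ((ℓ₀.1 : ℕ) : ZMod M) = 1)
    (hE : θ (genS M S ℓ₀) ≠ 1 + ((ℓ₀.1 : ℕ) : _)) :
    ∃ Φ : heckeLocal M S 𝒪 θ →ₐ[𝒪] Module.End 𝒪 X,
      ∀ (ℓ : Idx S) (x : X), (Φ (heckeLocal.π M S 𝒪 θ (genS M S ℓ)) x : Pairs 𝒪) =
        hop 𝒪 M (ℓ.1 : ℕ) x :=
  exists_act_sub M S 𝒪 θ X hsat (fun ℓ => hop 𝒪 M (ℓ.1 : ℕ)) hA
    (fun i j x hx => hop_comm i.1.2 j.1.2 (hX hx)) t ht hnil (J := Unit)
    (fun _ => AddMonoidHom.id _) (fun _ x hx => hX hx) (fun x _ h => h ()) (fun _ _ _ _ => rfl)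
    ℓ₀ hℓ₀ hE

/-- `part H F` is saturated if `H` is. -/
theorem part_saturated {H : Submodule 𝒪 (Pairs 𝒪)}
    (hH : ∀ (c : 𝒪) (z : Pairs 𝒪), c ≠ 0 → c • z ∈ H → z ∈ H)
    (F : Set (Module.End 𝒪 (Pairs 𝒪))) (c : 𝒪) (z : Pairs 𝒪) (hc : c ≠ 0)
    (h : c • z ∈ part H F) : z ∈ part H F := by
  rw [mem_part] at h ⊢
  exact ⟨hH c z hc h.1, fun T hT => mem_nilSub_of_smul hc (h.2 T hT)⟩

/-- `sgnMS` is saturated. -/
theorem sgnMS_saturated (ε : ℤ) (Γ : Subgroup SL(2, ℤ)) (c : 𝒪) (z : Pairs 𝒪) (hc : c ≠ 0)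
    (h : c • z ∈ sgnMS 𝒪 ε Γ) : z ∈ sgnMS 𝒪 ε Γ := by
  have hinj : Function.Injective (fun x : Pairs 𝒪 => c • x) := smul_right_injective _ hc
  have hinj' : Function.Injective (fun x : 𝒪 => c * x) := mul_right_injective₀ hc
  rw [mem_sgnMS] at h ⊢
  refine ⟨⟨fun a b d => ?_, fun γ hγ => hinj ?_⟩, hinj ?_⟩
  · have h1 := h.1.1 a b d
    simp only [Pi.smul_apply, smul_eq_mul, ← mul_add] at h1
    exact hinj' h1
  · have h1 := h.1.2 γ hγ
    rwa [map_smul] at h1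
  · have h1 := h.2
    rw [map_smul] at h1
    change c • slash jMat z = c • ((ε : 𝒪) • z)
    rw [h1, smul_comm]

end Sub

end Fermat.Agent.RT.Act
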