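import Fermat.Agent.RT.TwistHTw

/-!
# Injectivity of twisting (RT-TWIST, 3)

(T6) `Tw_injective` : if `R` has no `ℤ`-torsion and `Tw (D ε x) = 0` for all `ε ∈ Δ` then `x = 0`.
-/

set_option autoImplicit false

open Matrix Matrix.SpecialLinearGroup CongruenceSubgroup
open scoped MatrixGroups OnePoint

noncomputable section

namespace Fermat.Agent.RT.TwistH

open Fermat.Agent.LR Fermat.Agent.LR.PS Fermat.Agent.RT ModularCurve.Period

/-! ### a combinatorial lemma (square of the absolute value of a Gauss sum) -/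

theorem gauss_aux {F M : Type*} [Field F] [Fintype F] [DecidableEq F] [AddCommGroup M]
    (htf : ∀ (n : ℕ) (y : M), n ≠ 0 → n • y = 0 → y = 0) (m : Fˣ → F → M)
    (h : ∀ b i, ∑ a : Fˣ, m (a * b) ((a : F) + i) = 0) :
    (∀ i, ∑ a : Fˣ, m a i = 0) ∧ ∀ b i j, m b i = m b j := by
  set q : ℕ := Fintype.card F with hq
  have hq1 : 1 < q := Fintype.one_lt_card
  set s : F → M := fun i => ∑ a : Fˣ, m a i with hs
  set n : Fˣ → M := fun b => ∑ j : F, m b j with hn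
  set sn : M := ∑ a : Fˣ, n a with hsn
  have hcard : Fintype.card Fˣ = q - 1 := by rw [hq]; exact Fintype.card_units F
  -- the fundamental relation
  have star : ∀ b i, (q : ℤ) • m b i + sn - n b - s i = 0 := by
    intro b i
    have h1 : ∑ c : Fˣ, ∑ a : Fˣ, m (a * (b * c⁻¹)) ((a : F) + (i - c)) = 0 :=
      Finset.sum_eq_zero fun c _ => h _ _
    have h2 : ∀ c : Fˣ, ∑ a : Fˣ, m (a * (b * c⁻¹)) ((a : F) + (i - c)) =
        ∑ r : Fˣ, m (r * b) (((r : F) - 1) * c + i) := by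
      intro c
      rw [← Equiv.sum_comp (Equiv.mulRight c) (fun a : Fˣ =>
        m (a * (b * c⁻¹)) ((a : F) + (i - c)))]
      refine Finset.sum_congr rfl fun r _ => ?_
      rw [Equiv.coe_mulRight]
      congr 1
      · rw [mul_comm b, ← mul_assoc, mul_inv_cancel_right]
      · push_cast; ring
    rw [Finset.sum_congr rfl fun c _ => h2 c, Finset.sum_comm] at h1
    have h3 : ∀ r : Fˣ, ∑ c : Fˣ, m (r * b) (((r : F) - 1) * c + i) =
        if r = 1 then ((q : ℤ) - 1) • m b i else n (r * b) - m (r * b) i := by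
      intro r
      split_ifs with hr
      · subst hr
        simp only [Units.val_one, sub_self, zero_mul, zero_add, one_mul, Finset.sum_const,
          Finset.card_univ, hcard]
        rw [← natCast_zsmul, Nat.cast_sub hq1.le]
        simp
      · have hr' : (r : F) - 1 ≠ 0 := by
          rw [sub_ne_zero]
          intro h'
          exact hr (Units.ext h')
        have h4 : ∑ c : F, m (r * b) (((r : F) - 1) * c + i) = n (r * b) := by
          rw [hn]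
          exact Equiv.sum_comp ((Equiv.mulLeft₀ _ hr').trans (Equiv.addRight i))
            (fun j => m (r * b) j)
        rw [sum_eq_add_sum_units] at h4
        rw [← h4]
        simp
    rw [Finset.sum_congr rfl fun r _ => h3 r, Finset.sum_ite, Finset.sum_sub_distrib] at h1
    simp only [Finset.sum_const] at h1
    have hf1 : (Finset.univ.filter fun r : Fˣ => r = 1) = {1} := by ext r; simp
    have h5 : ∀ g : Fˣ → M, ∑ r ∈ Finset.univ.filter (fun r : Fˣ => ¬ r = 1), g r =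
        (∑ r : Fˣ, g r) - g 1 := by
      intro g
      rw [← Finset.sum_filter_add_sum_filter_not Finset.univ (fun r : Fˣ => r = 1) g, hf1,
        Finset.sum_singleton]
      abel
    rw [h5, h5, hf1, Finset.card_singleton, one_smul] at h1
    simp only [one_mul] at h1
    have h6 : ∑ r : Fˣ, n (r * b) = sn := Equiv.sum_comp (Equiv.mulRight b) n
    have h7 : ∑ r : Fˣ, m (r * b) i = s i := Equiv.sum_comp (Equiv.mulRight b) (fun a => m a i)
    rw [h6, h7, sub_smul, one_smul] at h1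
    rw [← h1]
    abel
  have hs1 : ∀ i, s i = (2 - (q : ℤ)) • sn := by
    intro i
    have h1 : ∑ b : Fˣ, ((q : ℤ) • m b i + sn - n b - s i) = 0 :=
      Finset.sum_eq_zero fun b _ => star b i
    rw [Finset.sum_sub_distrib, Finset.sum_sub_distrib, Finset.sum_add_distrib, ← Finset.smul_sum,
      Finset.sum_const, Finset.sum_const, Finset.card_univ, hcard, ← natCast_zsmul,
      ← natCast_zsmul, Nat.cast_sub hq1.le] at h1
    have h2 : (q : ℤ) • s i + ((q : ℤ) - 1) • sn - sn - ((q : ℤ) - 1) • s i = 0 := by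
      simpa using h1
    have h3 : s i - (2 - (q : ℤ)) • sn = 0 := by
      rw [← h2]
      module
    exact sub_eq_zero.mp h3
  have hsn0 : sn = 0 := by
    have h1 : ∑ i : F, s i = sn := by rw [hs, Finset.sum_comm]
    simp only [hs1, Finset.sum_const, Finset.card_univ] at h1
    rw [← hq, ← natCast_zsmul, smul_smul] at h1
    have h2 : ((q - 1) ^ 2 : ℕ) • sn = 0 := by
      rw [← natCast_zsmul, Nat.cast_pow, Nat.cast_sub hq1.le]
      have h3 : sn - ((q : ℤ) * (2 - (q : ℤ))) • sn = 0 := by rw [h1, sub_self]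
      rw [← h3]
      push_cast
      module
    exact htf _ _ (pow_ne_zero _ (by omega)) h2
  have hs0 : ∀ i, s i = 0 := fun i => by rw [hs1, hsn0, smul_zero]
  refine ⟨hs0, fun b i j => ?_⟩
  have h1 := star b i
  have h2 := star b j
  rw [hsn0, hs0] at h1 h2
  have h3 : q • (m b i - m b j) = 0 := by
    rw [← natCast_zsmul, smul_sub]
    have h4 : (q : ℤ) • m b i = n b := by
      rw [← sub_eq_zero]; rw [← h1]; abel
    have h5 : (q : ℤ) • m b j = n b := by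
      rw [← sub_eq_zero]; rw [← h2]; abel
    rw [h4, h5, sub_self]
  exact sub_eq_zero.mp (htf _ _ (by omega) h3)

variable {R : Type*} [CommRing R]
variable {N Q : ℕ} {Δ : Type*} [CommGroup Δ] {ψ : (ZMod Q)ˣ →* Δ}

/-- `R` has no `ℤ`-torsion. -/
def NTor (R : Type*) [CommRing R] : Prop :=
  ∀ (n : ℕ) (y : R), n ≠ 0 → (n : R) * y = 0 → y = 0

theorem nTor_of_charZero (R : Type*) [CommRing R] [IsDomain R] [CharZero R] : NTor R :=
  fun _ _ hn h => (mul_eq_zero.mp h).resolve_left (Nat.cast_ne_zero.mpr hn)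

theorem NTor.pairs (htf : NTor R) (n : ℕ) (y : Pairs R) (hn : n ≠ 0) (h : n • y = 0) : y = 0 := by
  funext a b
  refine htf n _ hn ?_
  have h1 := congrFun (congrFun h a) b
  simpa [nsmul_eq_mul] using h1

/-! ### the operators `gOp` -/

/-- `∑_{a mod E} [T^{a/E}][ω a]` acting on functions `Δ → Pairs R`. -/
def gOp (E : ℕ) [NeZero E] (ω : (ZMod E)ˣ →* Δ) (f : Δ → Pairs R) : Δ → Pairs R :=
  fun ε => ∑ a : (ZMod E)ˣ, ts E ((a : ZMod E).val : ℤ) (f (ε * ω a))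

theorem tInv_ts {E : ℕ} (hE : E ≠ 0) {x : Pairs R} (hx : TInv x) (v : ℤ) : TInv (ts E v x) := by
  intro k
  have h1 : ∀ z : Pairs R, slash (toQ (ModularGroup.T ^ k)) z = ts E (E * k) z := by
    intro z
    rw [ts_apply]
    refine slash_congr (c := ((E : ℚ))⁻¹) (inv_ne_zero (by exact_mod_cast hE)) ?_ z
    rw [val_toQ_T_zpow, val_triMat _ (sq_ne hE)]
    have hE' : (E : ℚ) ≠ 0 := by exact_mod_cast hE
    ext i j
    fin_cases i <;> fin_cases j <;> simp [hE']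
  rw [h1, ts_ts hE, add_comm, ← ts_ts hE, ← h1, hx]

theorem tInv_sum {ι : Type*} (s : Finset ι) (F : ι → Pairs R) (h : ∀ i ∈ s, TInv (F i)) :
    TInv (∑ i ∈ s, F i) := fun k => by
  rw [map_sum]; exact Finset.sum_congr rfl fun i hi => h i hi k

theorem tInv_gOp {E : ℕ} [NeZero E] {ω : (ZMod E)ˣ →* Δ} {f : Δ → Pairs R} (hf : ∀ ε, TInv (f ε))
    (ε : Δ) : TInv (gOp E ω f ε) :=
  tInv_sum _ _ fun _ _ => tInv_ts (NeZero.ne E) (hf _) _

theorem gOp_prime (htf : NTor R) {q : ℕ} [Fact q.Prime] {ω : (ZMod q)ˣ →* Δ} {f : Δ → Pairs R}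
    (hf : ∀ ε, TInv (f ε)) (h : gOp q ω f = 0) (ε : Δ) :
    ∑ a : (ZMod q)ˣ, f (ε * ω a) = 0 ∧ ts q 1 (f ε) = f ε := by
  have hq0 : q ≠ 0 := (Fact.out : q.Prime).ne_zero
  obtain ⟨h1, h2⟩ := gauss_aux htf.pairs
    (fun (b : (ZMod q)ˣ) (i : ZMod q) => ts q (i.val : ℤ) (f (ε * ω b))) (fun b i => by
      have h3 : ∀ a : (ZMod q)ˣ, ts q ((((a : ZMod q) + i : ZMod q)).val : ℤ) (f (ε * ω (a * b))) =
          ts q (i.val : ℤ) (ts q ((a : ZMod q).val : ℤ) (f (ε * ω b * ω a))) := by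
        intro a
        rw [ts_ts hq0, map_mul, mul_comm (ω a), ← mul_assoc]
        refine (ts_congr hq0 (hf _) (modEq_val_of_cast ?_)).symm
        push_cast
        rw [ZMod.natCast_zmod_val, ZMod.natCast_zmod_val, add_comm]
      rw [Finset.sum_congr rfl fun a _ => h3 a, ← map_sum]
      have h4 := congrFun h (ε * ω b)
      rw [gOp] at h4
      rw [h4]
      exact map_zero _)
  refine ⟨?_, ?_⟩
  · have h3 := h1 0
    simpa [ts_zero hq0] using h3
  · have h3 := h2 1 1 0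
    simp only [map_one, mul_one, ZMod.val_zero] at h3
    rw [Nat.cast_zero, ts_zero hq0] at h3
    have h4 : ts q 1 (f ε) = ts q (((1 : ZMod q)).val : ℤ) (f ε) :=
      ts_congr hq0 (hf _) (modEq_val_of_cast (by simp))
    rw [h4, h3]

/-! ### CRT maps -/

theorem zmod_ext {Q E F : ℕ} (hQ : Q = E * F) (hc : Nat.Coprime E F) (hE : E ∣ Q) (hF : F ∣ Q)
    {x y : ZMod Q} (h1 : ZMod.castHom hE (ZMod E) x = ZMod.castHom hE (ZMod E) y)
    (h2 : ZMod.castHom hF (ZMod F) x = ZMod.castHom hF (ZMod F) y) : x = y := by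
  obtain ⟨a, rfl⟩ := ZMod.intCast_surjective x
  obtain ⟨b, rfl⟩ := ZMod.intCast_surjective y
  rw [map_intCast, map_intCast, ZMod.intCast_eq_intCast_iff] at h1 h2
  rw [ZMod.intCast_eq_intCast_iff, hQ]
  have h3 : ((E * F : ℕ) : ℤ) ∣ b - a := by
    push_cast
    exact IsCoprime.mul_dvd (Nat.isCoprime_iff_coprime.mpr hc) h1.dvd h2.dvd
  exact Int.modEq_iff_dvd.mpr h3

theorem exists_iota {Q E : ℕ} (hsq : Squarefree Q) (hE : E ∣ Q) :
    ∃ ι : (ZMod E)ˣ →* (ZMod Q)ˣ, ∀ a, ZMod.castHom hE (ZMod E) (ι a : ZMod Q) = a ∧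
      ∀ F (hF : F ∣ Q), Nat.Coprime E F → ZMod.castHom hF (ZMod F) (ι a : ZMod Q) = 1 := by
  obtain ⟨G, rfl⟩ := hE
  have hc : Nat.Coprime E G := Nat.coprime_of_squarefree_mul hsq
  let ι : (ZMod E)ˣ →* (ZMod (E * G))ˣ :=
    (Units.mapEquiv (ZMod.chineseRemainder hc).symm.toMulEquiv).toMonoidHom.comp
      (MulEquiv.prodUnits.symm.toMonoidHom.comp (MonoidHom.prod (MonoidHom.id _) 1))
  have h1 : ∀ a, (ZMod.chineseRemainder hc) (ι a : ZMod (E * G)) = ((a : ZMod E), (1 : ZMod G)) := by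
    intro a
    exact (ZMod.chineseRemainder hc).apply_symm_apply _
  have hfst : ∀ x : ZMod (E * G), ((ZMod.chineseRemainder hc) x).1 =
      ZMod.castHom (dvd_mul_right E G) (ZMod E) x := by
    intro x
    obtain ⟨a, rfl⟩ := ZMod.intCast_surjective x
    rw [map_intCast, map_intCast]; rfl
  have hsnd : ∀ x : ZMod (E * G), ((ZMod.chineseRemainder hc) x).2 =
      ZMod.castHom (dvd_mul_left G E) (ZMod G) x := by
    intro x
    obtain ⟨a, rfl⟩ := ZMod.intCast_surjective x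
    rw [map_intCast, map_intCast]; rfl
  refine ⟨ι, fun a => ⟨?_, fun F hF hEF => ?_⟩⟩
  · rw [← hfst, h1]
  · have hFG : F ∣ G := Nat.Coprime.dvd_of_dvd_mul_left hEF.symm hF
    have h2 : ZMod.castHom (dvd_mul_left G E) (ZMod G) (ι a : ZMod (E * G)) = 1 := by
      rw [← hsnd, h1]
    have h3 : ZMod.castHom hF (ZMod F) = (ZMod.castHom hFG (ZMod F)).comp
        (ZMod.castHom (dvd_mul_left G E) (ZMod G)) := RingHom.ext_zmod _ _
    rw [h3, RingHom.comp_apply, h2, map_one]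

/-- the unit `≡ a mod E`, `≡ 1 mod Q/E`. -/
def iota {Q E : ℕ} (hsq : Squarefree Q) (hE : E ∣ Q) : (ZMod E)ˣ →* (ZMod Q)ˣ :=
  (exists_iota hsq hE).choose

theorem iota_left {Q E : ℕ} (hsq : Squarefree Q) (hE : E ∣ Q) (a : (ZMod E)ˣ) :
    ZMod.castHom hE (ZMod E) (iota hsq hE a : ZMod Q) = a :=
  ((exists_iota hsq hE).choose_spec a).1

theorem iota_right {Q E : ℕ} (hsq : Squarefree Q) (hE : E ∣ Q) (a : (ZMod E)ˣ) {F : ℕ}
    (hF : F ∣ Q) (hEF : Nat.Coprime E F) :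
    ZMod.castHom hF (ZMod F) (iota hsq hE a : ZMod Q) = 1 :=
  ((exists_iota hsq hE).choose_spec a).2 F hF hEF

theorem iota_self {Q : ℕ} (hsq : Squarefree Q) (a : (ZMod Q)ˣ) : iota hsq dvd_rfl a = a := by
  have h1 := iota_left hsq dvd_rfl a
  have h2 : ZMod.castHom (dvd_refl Q) (ZMod Q) = RingHom.id _ := RingHom.ext_zmod _ _
  rw [h2] at h1
  exact Units.ext h1

/-- twisting characters `w ∘ ι_E` -/
def wE (hsq : Squarefree Q) (ψ : (ZMod Q)ˣ →* Δ) {E : ℕ} (hE : E ∣ Q) : (ZMod E)ˣ →* Δ :=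
  (wch ψ).comp (iota hsq hE)

/-! ### Invariance -/

/-- the invariance of partially twisted symbols. -/
def ZE (N Q : ℕ) (ψ : (ZMod Q)ˣ →* Δ) (E : ℕ) (f : Δ → Pairs R) : Prop :=
  ∀ γ ∈ Gamma0 (N * Q * E), (E : ℤ) ∣ γ 1 1 - 1 → ∀ u : (ZMod Q)ˣ,
    ((γ 1 1 : ℤ) : ZMod Q) = u → ∀ ε, slash (toQ γ) (f ε) = f (ε * ψ u)

theorem ZE.mono {E E' : ℕ} (hE : E ∣ E') {f : Δ → Pairs R} (hf : ZE N Q ψ E f) :
    ZE N Q ψ E' f := fun γ hγ h1 u hu ε =>
  hf γ (Gamma0_mono (Nat.mul_dvd_mul_left _ hE) hγ) ((Int.natCast_dvd_natCast.mpr hE).trans h1)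
    u hu ε

theorem ZE_one (H : TwHyp N Q ψ) {x : Pairs R} (hx : HInv N Q ψ x) :
    ZE N Q ψ 1 (fun ε => D N Q ψ ε x) := fun γ hγ _ u hu ε => by
  rw [mul_one] at hγ
  rw [(hx.D ε).slash_eq' H hγ u hu, hx.D_D H, mul_comm]

theorem ZE.gOp {E : ℕ} [NeZero E] (hE : E ∣ Q) {ω : (ZMod E)ˣ →* Δ} {f : Δ → Pairs R}
    (hf : ZE N Q ψ 1 f) : ZE N Q ψ E (gOp E ω f) := by
  intro γ hγ h1 u hu ε
  obtain ⟨F, hF⟩ := hE
  obtain ⟨k, hk⟩ := mem_Gamma0_iff.mp hγ
  obtain ⟨g, hg⟩ := h1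
  have hdet := det_eq' γ
  have h2 : (E : ℤ) ∣ γ 1 1 - γ 0 0 := by
    have h3 : γ 1 1 - γ 0 0 = (γ 1 1 - 1) * (1 + γ 0 0) - γ 0 1 * γ 1 0 := by
      linear_combination -hdet
    rw [h3]
    refine dvd_sub (Dvd.dvd.mul_right ⟨g, hg⟩ _) (Dvd.dvd.mul_left ?_ _)
    rw [hk]; push_cast; exact ⟨N * Q * k, by ring⟩
  obtain ⟨f', hf'⟩ := h2
  rw [TwistH.gOp, TwistH.gOp, map_sum]
  refine Finset.sum_congr rfl fun a _ => ?_
  obtain ⟨γ', h3, h4, h5⟩ := slash_ts (R := R) (E := E) (NeZero.ne E) (γ := γ) (e := N * F * k)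
    (f := f' * ((a : ZMod E).val : ℤ)) (v := ((a : ZMod E).val : ℤ))
    (v' := ((a : ZMod E).val : ℤ)) (by rw [hk, hF]; push_cast; ring)
    (by linear_combination ((a : ZMod E).val : ℤ) * hf')
  rw [h5]
  congr 1
  have h6 : γ' ∈ Gamma0 (N * Q * 1) := by
    rw [mem_Gamma0_iff, h3, hk]; push_cast; exact ⟨E * k, by ring⟩
  have h7 : ((γ' 1 1 : ℤ) : ZMod Q) = u := by
    rw [h4, ← hu]
    have h8 : (E : ZMod Q) * F = 0 := by rw [← Nat.cast_mul, ← hF]; simp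
    push_cast
    linear_combination (-(N : ZMod Q) * k * ((a : ZMod E).val : ZMod Q)) * h8
  rw [hf γ' h6 (by simp) u h7]
  congr 1
  rw [mul_assoc, mul_assoc, mul_comm (ω a)]

/-! ### group theory: removing `Γ₁(q)`-structure -/

theorem T_S_T : ModularGroup.T * ModularGroup.S * ModularGroup.T = mkSL 1 0 1 1 (by ring) := by
  ext i j
  fin_cases i <;> fin_cases j <;> rfl

/-- if `y` is invariant under `Γ₀(Mq) ∩ Γ₁(E) ∩ Γ₁(q)`, `q ∤ M`, `E ∣ M`, and `y|T^{1/q} = y` then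
`y` is invariant under `Γ₀(Mq) ∩ Γ₁(E)`. -/
theorem inv_of_shift {M E q : ℕ} (hq : q.Prime) (hqM : ¬ q ∣ M) (hE : E ∣ M) {y : Pairs R}
    (h1 : ∀ γ ∈ Gamma0 (M * q), (E : ℤ) ∣ γ 1 1 - 1 → (q : ℤ) ∣ γ 1 1 - 1 →
      slash (toQ γ) y = y) (h2 : ts q 1 y = y) {γ : SL(2, ℤ)} (hγ : γ ∈ Gamma0 (M * q))
    (hγE : (E : ℤ) ∣ γ 1 1 - 1) : slash (toQ γ) y = y := by
  have hq0 : (q : ℤ) ≠ 0 := by exact_mod_cast hq.ne_zero
  have hqQ : (q : ℚ) ≠ 0 := by exact_mod_cast hq.ne_zero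
  have hcop : Nat.Coprime M q := ((Nat.Prime.coprime_iff_not_dvd hq).mpr hqM).symm
  have h1q : (1 : ℤ) * q ≠ 0 := by simpa using hq0
  have hq1 : (q : ℤ) * 1 ≠ 0 := by simpa using hq0
  set y' : Pairs R := slash (triMat 1 0 q) y with hy'
  -- `G' = Γ₀(M) ∩ Γ₁(E)`
  have hmem : ∀ {g g' : SL(2, ℤ)}, (M : ℤ) ∣ g 1 0 → (E : ℤ) ∣ g 1 1 - 1 →
      (M : ℤ) ∣ g' 1 0 → (E : ℤ) ∣ g' 1 1 - 1 →
      (M : ℤ) ∣ (g'⁻¹ * g) 1 0 ∧ (E : ℤ) ∣ (g'⁻¹ * g) 1 1 - 1 := by
    intro g g' a1 a2 a3 a4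
    have e1 : (g'⁻¹ * g) 1 0 = g' 0 0 * g 1 0 - g' 1 0 * g 0 0 := by
      simp [Matrix.mul_apply, Fin.sum_univ_two, Matrix.SpecialLinearGroup.coe_inv,
        Matrix.adjugate_fin_two]
      ring
    have e2 : (g'⁻¹ * g) 1 1 = g' 0 0 * g 1 1 - g' 1 0 * g 0 1 := by
      simp [Matrix.mul_apply, Fin.sum_univ_two, Matrix.SpecialLinearGroup.coe_inv,
        Matrix.adjugate_fin_two]
      ring
    have hd := det_eq' g'
    have hEM : (E : ℤ) ∣ M := Int.natCast_dvd_natCast.mpr hE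
    refine ⟨?_, ?_⟩
    · rw [e1]; exact dvd_sub (Dvd.dvd.mul_left a1 _) (Dvd.dvd.mul_right a3 _)
    · rw [e2]
      have e3 : g' 0 0 * g 1 1 - g' 1 0 * g 0 1 - 1 = g' 0 0 * (g 1 1 - 1) - g' 0 0 * (g' 1 1 - 1)
          + g' 1 0 * (g' 0 1 - g 0 1) := by linear_combination hd
      rw [e3]
      exact dvd_add (dvd_sub (Dvd.dvd.mul_left a2 _) (Dvd.dvd.mul_left a4 _))
        (Dvd.dvd.mul_right (hEM.trans a3) _)
  -- base case
  have base : ∀ g : SL(2, ℤ), (M : ℤ) ∣ g 1 0 → (E : ℤ) ∣ g 1 1 - 1 → (q : ℤ) ∣ g 0 1 →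
      (q : ℤ) ∣ g 1 1 - 1 → slash (toQ g) y' = y' := by
    intro g a1 a2 a3 a4
    obtain ⟨b, hb⟩ := a3
    have hd := det_eq' g
    have hd' : g 0 0 * g 1 1 - b * (q * g 1 0) = 1 := by rw [hb] at hd; linear_combination hd
    have h3 : slash (toQ (mkSL (g 0 0) b (q * g 1 0) (g 1 1) hd')) y = y := by
      refine h1 _ ?_ ?_ ?_
      · rw [mem_Gamma0_iff]
        obtain ⟨c, hc⟩ := a1
        have : (mkSL (g 0 0) b (q * g 1 0) (g 1 1) hd') 1 0 = q * g 1 0 := by simp [mkSL]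
        rw [this, hc]; push_cast; exact ⟨c, by ring⟩
      · simpa [mkSL] using a2
      · simpa [mkSL] using a4
    rw [hy', ← slash_mul]
    have h4 : slash (triMat 1 0 q * toQ g) y =
        slash (toQ (mkSL (g 0 0) b (q * g 1 0) (g 1 1) hd') * triMat 1 0 q) y := by
      congr 2
      apply Units.ext
      rw [val_mul', val_mul', val_toQ_mkSL, val_toQ, val_triMat _ h1q]
      have hb' : ((g 0 1 : ℤ) : ℚ) = q * b := by exact_mod_cast hb
      rw [hb']
      ext i j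
      fin_cases i <;> fin_cases j <;> simp [Matrix.mul_apply, Fin.sum_univ_two, mul_comm]
    rw [h4, slash_mul, h3]
  -- translation
  have hT : slash (toQ ModularGroup.T) y' = y' := by
    have h3 : slash (toQ ModularGroup.T) y' = slash (triMat 1 0 q) (ts q 1 y) := by
      rw [hy', ts_apply, ← slash_mul, ← slash_mul]
      refine slash_congr (c := (q : ℚ)⁻¹) (inv_ne_zero hqQ) ?_ y
      have h4 := val_toQ_T_zpow 1
      rw [zpow_one] at h4
      rw [val_mul', val_mul', h4, val_triMat _ h1q, val_triMat _ (sq_ne hq.ne_zero)]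
      ext i j
      fin_cases i <;> fin_cases j <;> simp [Matrix.mul_apply, Fin.sum_univ_two, hqQ]
    rw [h3, h2]
  -- the induction
  have hind : ∀ h : SL(2, ℤ), ∀ g : SL(2, ℤ), (M : ℤ) ∣ g 1 0 → (E : ℤ) ∣ g 1 1 - 1 →
      redN q g = redN q h → slash (toQ g) y' = y' := by
    have hlift : ∀ h : SL(2, ℤ), ∃ g : SL(2, ℤ), (M : ℤ) ∣ g 1 0 ∧ (E : ℤ) ∣ g 1 1 - 1 ∧
        redN q g = redN q h := by
      intro h
      obtain ⟨g, hg, hg'⟩ := exists_Gamma_redN hcop h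
      rw [Gamma_mem] at hg
      refine ⟨g, (ZMod.intCast_zmod_eq_zero_iff_dvd _ _).mp hg.2.2.1, ?_, hg'⟩
      refine (Int.natCast_dvd_natCast.mpr hE).trans ?_
      rw [← ZMod.intCast_zmod_eq_zero_iff_dvd]
      push_cast
      rw [hg.2.2.2, sub_self]
    have hbase' : ∀ g : SL(2, ℤ), (M : ℤ) ∣ g 1 0 → (E : ℤ) ∣ g 1 1 - 1 →
        redN q g = 1 → slash (toQ g) y' = y' := by
      intro g a1 a2 a3
      have e1 := redN_apply q g 0 1
      have e2 := redN_apply q g 1 1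
      rw [a3] at e1 e2
      refine base g a1 a2 ?_ ?_
      · rw [← ZMod.intCast_zmod_eq_zero_iff_dvd, ← e1]; rfl
      · rw [← ZMod.intCast_zmod_eq_zero_iff_dvd]; push_cast; rw [← e2]; simp
    have hmul : ∀ h h' : SL(2, ℤ),
        (∀ g : SL(2, ℤ), (M : ℤ) ∣ g 1 0 → (E : ℤ) ∣ g 1 1 - 1 → redN q g = redN q h →
          slash (toQ g) y' = y') →
        (∀ g : SL(2, ℤ), (M : ℤ) ∣ g 1 0 → (E : ℤ) ∣ g 1 1 - 1 → redN q g = redN q h' →
          slash (toQ g) y' = y') →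
        (∀ g : SL(2, ℤ), (M : ℤ) ∣ g 1 0 → (E : ℤ) ∣ g 1 1 - 1 → redN q g = redN q (h * h') →
          slash (toQ g) y' = y') := by
      intro h h' ih ih' g a1 a2 a3
      obtain ⟨k, b1, b2, b3⟩ := hlift h
      obtain ⟨c1, c2⟩ := hmem a1 a2 b1 b2
      have h5 : slash (toQ (k⁻¹ * g)) y' = y' := by
        refine ih' _ c1 c2 ?_
        rw [map_mul, map_inv, a3, b3, map_mul, inv_mul_cancel_left]
      have h6 : g = k * (k⁻¹ * g) := by group
      rw [h6, toQ_mul, slash_mul, ih k b1 b2 b3, h5]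
    have hinv : ∀ h : SL(2, ℤ),
        (∀ g : SL(2, ℤ), (M : ℤ) ∣ g 1 0 → (E : ℤ) ∣ g 1 1 - 1 → redN q g = redN q h →
          slash (toQ g) y' = y') →
        (∀ g : SL(2, ℤ), (M : ℤ) ∣ g 1 0 → (E : ℤ) ∣ g 1 1 - 1 → redN q g = redN q h⁻¹ →
          slash (toQ g) y' = y') := by
      intro h ih g a1 a2 a3
      obtain ⟨c1, c2⟩ := hmem (g := 1) (g' := g) (by simp) (by simp) a1 a2
      rw [mul_one] at c1 c2
      have h5 : slash (toQ g⁻¹) y' = y' := by
        refine ih _ c1 c2 ?_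
        rw [map_inv, a3, map_inv, inv_inv]
      have h6 : slash (toQ g) (slash (toQ g⁻¹) y') = y' := by
        rw [← slash_mul, ← toQ_mul, inv_mul_cancel]
        have : toQ (1 : SL(2, ℤ)) = 1 := map_one _
        rw [this, slash_one]
      rwa [h5] at h6
    have hTT : ∀ g : SL(2, ℤ), (M : ℤ) ∣ g 1 0 → (E : ℤ) ∣ g 1 1 - 1 →
        redN q g = redN q ModularGroup.T → slash (toQ g) y' = y' := by
      intro g a1 a2 a3
      obtain ⟨c1, c2⟩ := hmem a1 a2 (g' := ModularGroup.T) (by simp [ModularGroup.T])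
        (by simp [ModularGroup.T])
      have h5 : slash (toQ (ModularGroup.T⁻¹ * g)) y' = y' := by
        refine hbase' _ c1 c2 ?_
        rw [map_mul, map_inv, a3, inv_mul_cancel]
      have h6 : g = ModularGroup.T * (ModularGroup.T⁻¹ * g) := by group
      rw [h6, toQ_mul, slash_mul, hT, h5]
    have hLL : ∀ g : SL(2, ℤ), (M : ℤ) ∣ g 1 0 → (E : ℤ) ∣ g 1 1 - 1 →
        redN q g = redN q (mkSL 1 0 1 1 (by ring)) → slash (toQ g) y' = y' := by
      intro g a1 a2 a3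
      have e1 := redN_apply q g 0 1
      have e2 := redN_apply q g 1 1
      rw [a3, redN_apply] at e1 e2
      refine base g a1 a2 ?_ ?_
      · rw [← ZMod.intCast_zmod_eq_zero_iff_dvd, ← e1]; simp [mkSL]
      · rw [← ZMod.intCast_zmod_eq_zero_iff_dvd]; push_cast; rw [← e2]; simp [mkSL]
    have hS : ModularGroup.S = ModularGroup.T⁻¹ * mkSL 1 0 1 1 (by ring) * ModularGroup.T⁻¹ := by
      rw [← T_S_T]; group
    intro h
    have hh : h ∈ Subgroup.closure {ModularGroup.S, ModularGroup.T} := by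
      rw [SpecialLinearGroup.SL2Z_generators]; trivial
    induction hh using Subgroup.closure_induction with
    | mem x hx =>
      rcases hx with rfl | rfl
      · rw [hS]
        exact hmul _ _ (hmul _ _ (hinv _ hTT) hLL) (hinv _ hTT)
      · exact hTT
    | one => intro g a1 a2 a3; exact hbase' g a1 a2 (by rw [a3, map_one])
    | mul x y _ _ hx hy => exact hmul x y hx hy
    | inv x _ hx => exact hinv x hx
  -- conclusion
  have hback : slash (triMat q 0 1) y' = y := by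
    rw [hy', ← slash_mul]
    refine (slash_congr (c := (q : ℚ)) (h := 1) hqQ ?_ y).trans (slash_one y)
    rw [val_mul', val_triMat _ h1q, val_triMat _ hq1]
    ext i j
    fin_cases i <;> fin_cases j <;> simp [Matrix.mul_apply, Fin.sum_univ_two]
  obtain ⟨c, hc⟩ := mem_Gamma0_iff.mp hγ
  have hd := det_eq' γ
  have hd' : γ 0 0 * γ 1 1 - (q * γ 0 1) * (M * c) = 1 := by
    rw [hc] at hd; push_cast at hd; linear_combination hd
  have h7 : slash (toQ (mkSL (γ 0 0) (q * γ 0 1) (M * c) (γ 1 1) hd')) y' = y' :=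
    hind _ _ (by simp [mkSL]) (by simpa [mkSL] using hγE) rfl
  conv_lhs => rw [← hback]
  rw [← slash_mul]
  have h8 : slash (triMat q 0 1 * toQ γ) y' =
      slash (toQ (mkSL (γ 0 0) (q * γ 0 1) (M * c) (γ 1 1) hd') * triMat q 0 1) y' := by
    congr 2
    apply Units.ext
    rw [val_mul', val_mul', val_toQ_mkSL, val_toQ, val_triMat _ hq1]
    have hc' : ((γ 1 0 : ℤ) : ℚ) = M * q * c := by rw [hc]; push_cast; ring
    rw [hc']
    ext i j
    fin_cases i <;> fin_cases j <;> simp [Matrix.mul_apply, Fin.sum_univ_two] <;> ring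
  rw [h8, slash_mul, h7, hback]

/-! ### one prime at a time -/

theorem eq_zero_of_gOp (H : TwHyp N Q ψ) (htf : NTor R) {q Q' : ℕ} (hQ : Q = q * Q')
    [hqp : Fact q.Prime] (hqQ : q ∣ Q) {f : Δ → Pairs R} (hf : ∀ ε, TInv (f ε))
    (hZ : ZE N Q ψ Q' f) (h : gOp q (wE H.sqf ψ hqQ) f = 0) : f = 0 := by
  have hq := hqp.out
  have hcQ : Nat.Coprime q Q' := Nat.coprime_of_squarefree_mul (hQ ▸ H.sqf)
  have hQ'Q : Q' ∣ Q := ⟨q, by rw [hQ, mul_comm]⟩
  have hqM : ¬ q ∣ N * Q' * Q' := by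
    intro h1
    have h2 : Nat.Coprime q (N * Q' * Q') :=
      Nat.Coprime.mul_right (Nat.Coprime.mul_right
        (Nat.Coprime.symm (Nat.Coprime.coprime_dvd_right hqQ H.cop)) hcQ) hcQ
    exact hq.one_lt.ne' (Nat.dvd_one.mp (h2 ▸ Nat.dvd_gcd dvd_rfl h1))
  funext ε
  obtain ⟨hsum, hshift⟩ := gOp_prime htf hf h ε
  have hMq : N * Q' * Q' * q = N * Q * Q' := by rw [hQ]; ring
  have key : ∀ γ ∈ Gamma0 (N * Q * Q'), (Q' : ℤ) ∣ γ 1 1 - 1 → slash (toQ γ) (f ε) = f ε := by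
    intro γ hγ hγ1
    rw [← hMq] at hγ
    refine inv_of_shift hq hqM (dvd_mul_left Q' _) (fun g hg hg1 hg2 => ?_) hshift hγ hγ1
    rw [hMq] at hg
    have h1 : ((g 1 1 : ℤ) : ZMod Q) = (1 : (ZMod Q)ˣ) := by
      have h2 : ((q * Q' : ℕ) : ℤ) ∣ g 1 1 - 1 := by
        push_cast
        exact IsCoprime.mul_dvd (Nat.isCoprime_iff_coprime.mpr hcQ) hg2 hg1
      rw [← hQ, ← ZMod.intCast_zmod_eq_zero_iff_dvd] at h2
      push_cast at h2
      rw [sub_eq_zero.mp h2, Units.val_one]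
    rw [hZ g hg hg1 1 h1, map_one, mul_one]
  have hψ : ∀ a : (ZMod q)ˣ, f (ε * ψ (iota H.sqf hqQ a)) = f ε := by
    intro a
    have hM : N * Q * Q' ≠ 0 := mul_ne_zero H.hNQ (by rintro rfl; exact H.hQ (by rw [hQ, mul_zero]))
    obtain ⟨γ, h1, h2⟩ := exists_Gamma0_unit hM (Dvd.dvd.mul_right (dvd_mul_left Q N) Q')
      (iota H.sqf hqQ a)
    have h3 : (Q' : ℤ) ∣ γ 1 1 - 1 := by
      rw [← ZMod.intCast_zmod_eq_zero_iff_dvd]
      push_cast
      have h4 := iota_right H.sqf hqQ a hQ'Q hcQ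
      rw [← h2, map_intCast] at h4
      rw [h4, sub_self]
    rw [← hZ γ h1 h3 _ h2, key γ h1 h3]
  have hw : ∀ a : (ZMod q)ˣ, f (ε * wE H.sqf ψ hqQ a) = f ε := by
    intro a
    rw [wE, MonoidHom.comp_apply, wch_eq, ← map_pow, hψ]
  rw [Finset.sum_congr rfl fun a _ => hw a, Finset.sum_const] at hsum
  exact htf.pairs _ _ (Finset.card_ne_zero.mpr Finset.univ_nonempty) hsum

/-! ### several primes -/

theorem iota_mul {q E : ℕ} (hsq : Squarefree Q) (h : q * E ∣ Q) (hq : q ∣ Q) (hE : E ∣ Q)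
    (a : (ZMod (q * E))ˣ) (b : (ZMod q)ˣ) (c : (ZMod E)ˣ)
    (hb : ZMod.castHom (dvd_mul_right q E) (ZMod q) (a : ZMod (q * E)) = b)
    (hc : ZMod.castHom (dvd_mul_left E q) (ZMod E) (a : ZMod (q * E)) = c) :
    iota hsq h a = iota hsq hq b * iota hsq hE c := by
  obtain ⟨G, hG⟩ := h
  have hcop : Nat.Coprime (q * E) G := Nat.coprime_of_squarefree_mul (hG ▸ hsq)
  have hcop' : Nat.Coprime q E := Nat.coprime_of_squarefree_mul
    (Squarefree.squarefree_of_dvd ⟨G, hG⟩ hsq)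
  have hqG : Nat.Coprime q G := Nat.Coprime.coprime_mul_right hcop
  have hEG : Nat.Coprime E G := Nat.Coprime.coprime_mul_left hcop
  have hGQ : G ∣ Q := ⟨q * E, by rw [hG, mul_comm]⟩
  have h : q * E ∣ Q := ⟨G, hG⟩
  apply Units.ext
  refine zmod_ext hG hcop h hGQ ?_ ?_
  · rw [iota_left]
    refine zmod_ext rfl hcop' (dvd_mul_right q E) (dvd_mul_left E q) ?_ ?_
    · rw [hb]
      have h1 : ∀ x : ZMod Q, ZMod.castHom (dvd_mul_right q E) (ZMod q)
          (ZMod.castHom h (ZMod (q * E)) x) = ZMod.castHom hq (ZMod q) x := by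
        intro x
        obtain ⟨n, rfl⟩ := ZMod.intCast_surjective x
        simp only [map_intCast]
      rw [h1, Units.val_mul, map_mul, iota_left, iota_right hsq hE c hq hcop'.symm, mul_one]
    · rw [hc]
      have h1 : ∀ x : ZMod Q, ZMod.castHom (dvd_mul_left E q) (ZMod E)
          (ZMod.castHom h (ZMod (q * E)) x) = ZMod.castHom hE (ZMod E) x := by
        intro x
        obtain ⟨n, rfl⟩ := ZMod.intCast_surjective x
        simp only [map_intCast]
      rw [h1, Units.val_mul, map_mul, iota_left, iota_right hsq hq b hE hcop', one_mul]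
  · rw [iota_right hsq h a hGQ hcop, Units.val_mul, map_mul, iota_right hsq hq b hGQ hqG,
      iota_right hsq hE c hGQ hEG, one_mul]

theorem exists_crtEquiv {q E : ℕ} (hc : Nat.Coprime q E) :
    ∃ e : (ZMod q)ˣ × (ZMod E)ˣ ≃ (ZMod (q * E))ˣ, ∀ p,
      ZMod.castHom (dvd_mul_right q E) (ZMod q) (e p : ZMod (q * E)) = (E : ZMod q) * p.1 ∧
      ZMod.castHom (dvd_mul_left E q) (ZMod E) (e p : ZMod (q * E)) = (q : ZMod E) * p.2 := by
  set u1 : (ZMod q)ˣ := ZMod.unitOfCoprime E hc.symm with hu1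
  set u2 : (ZMod E)ˣ := ZMod.unitOfCoprime q hc with hu2
  let crt : (ZMod (q * E))ˣ ≃* (ZMod q)ˣ × (ZMod E)ˣ :=
    (Units.mapEquiv (ZMod.chineseRemainder hc).toMulEquiv).trans MulEquiv.prodUnits
  have hfst : ∀ x : (ZMod (q * E))ˣ, (((crt x).1 : (ZMod q)ˣ) : ZMod q) =
      ZMod.castHom (dvd_mul_right q E) (ZMod q) (x : ZMod (q * E)) := by
    intro x
    have h1 : (((crt x).1 : (ZMod q)ˣ) : ZMod q) =
      ((ZMod.chineseRemainder hc) (x : ZMod (q * E))).1 := rfl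
    rw [h1]
    obtain ⟨n, hn⟩ := ZMod.intCast_surjective (x : ZMod (q * E))
    rw [← hn, map_intCast, map_intCast]; rfl
  have hsnd : ∀ x : (ZMod (q * E))ˣ, (((crt x).2 : (ZMod E)ˣ) : ZMod E) =
      ZMod.castHom (dvd_mul_left E q) (ZMod E) (x : ZMod (q * E)) := by
    intro x
    have h1 : (((crt x).2 : (ZMod E)ˣ) : ZMod E) =
      ((ZMod.chineseRemainder hc) (x : ZMod (q * E))).2 := rfl
    rw [h1]
    obtain ⟨n, hn⟩ := ZMod.intCast_surjective (x : ZMod (q * E))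
    rw [← hn, map_intCast, map_intCast]; rfl
  refine ⟨(Equiv.prodCongr (Equiv.mulLeft u1) (Equiv.mulLeft u2)).trans crt.symm.toEquiv,
    fun p => ?_⟩
  have h1 : crt (crt.symm (u1 * p.1, u2 * p.2)) = (u1 * p.1, u2 * p.2) := crt.apply_symm_apply _
  have h2 : ((Equiv.prodCongr (Equiv.mulLeft u1) (Equiv.mulLeft u2)).trans crt.symm.toEquiv) p =
    crt.symm (u1 * p.1, u2 * p.2) := rfl
  rw [h2, ← hfst, ← hsnd, h1]
  simp [hu1, hu2]

theorem gOp_mul (hsq : Squarefree Q) {q E : ℕ} [NeZero q] [NeZero E] [NeZero (q * E)]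
    (h : q * E ∣ Q) (hq : q ∣ Q) (hE : E ∣ Q) {f : Δ → Pairs R} (hf : ∀ ε, TInv (f ε)) :
    ∃ κ : Δ, ∀ ε, gOp (q * E) (wE hsq ψ h) f ε =
      gOp q (wE hsq ψ hq) (gOp E (wE hsq ψ hE) f) (ε * κ) := by
  have hcop' : Nat.Coprime q E := Nat.coprime_of_squarefree_mul
    (Squarefree.squarefree_of_dvd h hsq)
  obtain ⟨e, he⟩ := exists_crtEquiv hcop'
  set u1 : (ZMod q)ˣ := ZMod.unitOfCoprime E hcop'.symm with hu1
  set u2 : (ZMod E)ˣ := ZMod.unitOfCoprime q hcop' with hu2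
  refine ⟨wE hsq ψ hq u1 * wE hsq ψ hE u2, fun ε => ?_⟩
  simp only [gOp]
  rw [← Equiv.sum_comp e, Fintype.sum_prod_type]
  refine Finset.sum_congr rfl fun b _ => ?_
  rw [map_sum]
  refine Finset.sum_congr rfl fun c _ => ?_
  have h1 : wE hsq ψ h (e (b, c)) = wE hsq ψ hq (u1 * b) * wE hsq ψ hE (u2 * c) := by
    rw [wE, wE, wE, MonoidHom.comp_apply, MonoidHom.comp_apply, MonoidHom.comp_apply, ← map_mul]
    congr 1
    refine iota_mul hsq h hq hE _ _ _ ?_ ?_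
    · rw [(he (b, c)).1, Units.val_mul, hu1, ZMod.coe_unitOfCoprime]
    · rw [(he (b, c)).2, Units.val_mul, hu2, ZMod.coe_unitOfCoprime]
  rw [h1, map_mul, map_mul]
  have h2 : ε * (wE hsq ψ hq u1 * wE hsq ψ hq b * (wE hsq ψ hE u2 * wE hsq ψ hE c)) =
      ε * (wE hsq ψ hq u1 * wE hsq ψ hE u2) * wE hsq ψ hq b * wE hsq ψ hE c := by
    simp only [mul_assoc, mul_left_comm, mul_comm]
  rw [h2]
  set y := f (ε * (wE hsq ψ hq u1 * wE hsq ψ hE u2) * wE hsq ψ hq b * wE hsq ψ hE c) with hy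
  have hq0 : q ≠ 0 := NeZero.ne q
  have hE0 : E ≠ 0 := NeZero.ne E
  have h3 : ts E ((c : ZMod E).val : ℤ) y = ts (q * E) (q * ((c : ZMod E).val : ℤ)) y :=
    (ts_scale hq0 hE0 _ _).symm
  have h4 : ∀ z : Pairs R, ts q ((b : ZMod q).val : ℤ) z =
      ts (q * E) (E * ((b : ZMod q).val : ℤ)) z := by
    intro z
    rw [mul_comm q E]
    exact (ts_scale hE0 hq0 _ _).symm
  rw [h3, h4, ts_ts (mul_ne_zero hq0 hE0)]
  refine ts_congr (mul_ne_zero hq0 hE0) (hf _) ?_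
  refine (modEq_val_of_cast ?_).symm
  refine zmod_ext rfl hcop' (dvd_mul_right q E) (dvd_mul_left E q) ?_ ?_
  · rw [(he (b, c)).1, map_intCast]
    push_cast
    rw [ZMod.natCast_zmod_val]
    simp
  · rw [(he (b, c)).2, map_intCast]
    push_cast
    rw [ZMod.natCast_zmod_val]
    simp

theorem eq_zero_of_gOp_all (H : TwHyp N Q ψ) (htf : NTor R) {f : Δ → Pairs R}
    (hf : ∀ ε, TInv (f ε)) (hZ : ZE N Q ψ 1 f) (E : ℕ) :
    ∀ (hE : E ∣ Q) [NeZero E], gOp E (wE H.sqf ψ hE) f = 0 → f = 0 := by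
  induction E using induction_on_primes with
  | zero => intro hE; exact absurd (Nat.eq_zero_of_zero_dvd hE) H.hQ
  | one =>
    intro hE _ h
    funext ε
    have h1 := congrFun h ε
    simp only [gOp] at h1
    have h2 : ∀ a : (ZMod 1)ˣ, a = 1 := fun a => Subsingleton.elim _ _
    rw [Fintype.sum_eq_single 1 (fun a ha => absurd (h2 a) ha), map_one, mul_one] at h1
    have h3 : (((1 : (ZMod 1)ˣ) : ZMod 1).val : ℤ) = 0 := by
      have : ((1 : (ZMod 1)ˣ) : ZMod 1) = 0 := Subsingleton.elim _ _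
      rw [this]; simp
    rw [h3, ts_zero one_ne_zero] at h1
    exact h1
  | prime_mul p a hp ih =>
    intro hE _ h
    have hpF : Fact p.Prime := ⟨hp⟩
    have hpQ : p ∣ Q := (dvd_mul_right p a).trans hE
    have haQ : a ∣ Q := (dvd_mul_left a p).trans hE
    have ha0 : NeZero a := ⟨by rintro rfl; exact H.hQ (Nat.eq_zero_of_zero_dvd haQ)⟩
    obtain ⟨κ, hκ⟩ := gOp_mul (ψ := ψ) H.sqf hE hpQ haQ hf
    have h1 : gOp p (wE H.sqf ψ hpQ) (gOp a (wE H.sqf ψ haQ) f) = 0 := by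
      funext ε
      have h2 := hκ (ε * κ⁻¹)
      rw [inv_mul_cancel_right] at h2
      rw [← h2, h]; rfl
    obtain ⟨Q', hQ'⟩ := hpQ
    have haQ' : a ∣ Q' := by
      obtain ⟨G, hG⟩ := hE
      refine ⟨G, ?_⟩
      have h2 : p * Q' = p * (a * G) := by rw [← hQ', hG, mul_assoc]
      exact Nat.eq_of_mul_eq_mul_left hp.pos h2
    have h3 : gOp a (wE H.sqf ψ haQ) f = 0 :=
      eq_zero_of_gOp H htf hQ' _ (fun ε => tInv_gOp hf ε) ((hZ.gOp haQ).mono haQ') h1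
    exact ih haQ h3

theorem Tw_eq_gOp (H : TwHyp N Q ψ) [NeZero Q] {x : Pairs R} (hx : HInv N Q ψ x) (ε : Δ) :
    Tw N Q ψ (D N Q ψ ε x) = gOp Q (wE H.sqf ψ dvd_rfl) (fun δ => D N Q ψ δ x) ε := by
  rw [Tw_D H hx, gOp]
  refine Finset.sum_congr rfl fun u _ => ?_
  rw [wE, MonoidHom.comp_apply, iota_self, mul_comm]

/-- **(T6) injectivity of twisting.** -/
theorem Tw_injective (H : TwHyp N Q ψ) [NeZero Q] (htf : NTor R) {x : Pairs R}
    (hx : HInv N Q ψ x) (h : ∀ ε, Tw N Q ψ (D N Q ψ ε x) = 0) : x = 0 := by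
  have h1 : gOp Q (wE H.sqf ψ dvd_rfl) (fun δ => D N Q ψ δ x) = 0 := by
    funext ε
    rw [← Tw_eq_gOp H hx, h]; rfl
  have h2 := eq_zero_of_gOp_all H htf (fun δ => (hx.D δ).tInv) (ZE_one H hx) Q dvd_rfl h1
  have h3 := congrFun h2 1
  rw [← hx.D_one H]
  exact h3

end Fermat.Agent.RT.TwistH
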