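import Fermat.Agent.RT.TWBasic
import Fermat.Agent.RT.Act
import Fermat.Agent.RT.TwistHInj

/-!
# The action of `heckeLocal (N Q²)` on the Taylor–Wiles module `M'` (team RT, helper59)
-/

set_option autoImplicit false
set_option linter.unusedSectionVars false

open Matrix Matrix.SpecialLinearGroup CongruenceSubgroup IsLocalRing CuspForm
open scoped MatrixGroups OnePoint

noncomputable section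

namespace Fermat.Agent.RT.TWS

open Fermat.Agent.LR Fermat.Agent.LR.PS Fermat.Agent.RT Fermat.Agent.RT.TwistH
  Fermat.Agent.RT.GroupAlg Fermat.Agent.RT.Dict Fermat.Agent.RT.Loc Fermat.Agent.RT.GR
  Fermat.Agent.RT.MSHecke Fermat.Agent.RT.HeckeLocalFields

namespace TWP

variable {p N r : ℕ} {W : TWP p N r} [hp : Fact p.Prime]
variable {𝒪 : Type} [CommRing 𝒪] [IsDomain 𝒪] [IsDiscreteValuationRing 𝒪]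
  [IsAdicComplete (maximalIdeal 𝒪) 𝒪] [Finite (ResidueField 𝒪)]
variable {ε : ℤ} {t α : ℕ → 𝒪} {S I SQ : Set ℕ}

/-- The excluded set at the Taylor–Wiles level. -/
def IsSQ (W : TWP p N r) (S SQ : Set ℕ) : Prop :=
  ∀ ℓ : ℕ, ℓ.Prime → (ℓ ∈ SQ ↔ ℓ ∈ S ∨ ℓ ∣ W.Q)

theorem not_dvd_of_IsSQ (hG : W.Good S I) (hSQ : IsSQ W S SQ) {ℓ : ℕ} (hℓ : ℓ.Prime)
    (h : ℓ ∉ SQ) : ¬ ℓ ∣ N * W.Q := by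
  rw [hSQ ℓ hℓ, not_or] at h
  intro h'
  rcases (Nat.Prime.dvd_mul hℓ).mp h' with h'' | h''
  · exact h.1 (hG.hS ℓ hℓ h'')
  · exact h.2 h''

theorem not_dvd_sq_of_IsSQ (hG : W.Good S I) (hSQ : IsSQ W S SQ) {ℓ : ℕ} (hℓ : ℓ.Prime)
    (h : ℓ ∉ SQ) : ¬ ℓ ∣ N * W.Q ^ 2 := by
  have h1 := not_dvd_of_IsSQ hG hSQ hℓ h
  intro h'
  apply h1
  rcases (Nat.Prime.dvd_mul hℓ).mp h' with h'' | h''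
  · exact h''.mul_right _
  · exact (hℓ.dvd_of_dvd_pow h'').mul_left _

/-- **The action of `heckeLocal (N Q²)` on `M'`**, `T_ℓ ↦ TH ℓ`. -/
theorem exists_act (hG : W.Good S I) [CharZero 𝒪] (hSQ : IsSQ W S SQ) [NeZero (N * W.Q ^ 2)]
    [Fact (HasIntegralStructure (N * W.Q ^ 2) 2)]
    (θ : heckeAlgebra (N * W.Q ^ 2) 2 SQ →+* ResidueField 𝒪)
    (hθ : ∀ (ℓ : ℕ) (hℓ : ℓ.Prime) (hℓN : ¬ ℓ ∣ N * W.Q ^ 2) (hℓS : ℓ ∉ SQ),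
      residue 𝒪 (t ℓ) = θ (heckeAlgebra.T hℓ hℓN hℓS))
    (hE : ∃ ℓ₀ : ℕ, ℓ₀.Prime ∧ ℓ₀ ∉ SQ ∧ ((ℓ₀ : ℕ) : ZMod (N * W.Q ^ 2)) = 1 ∧
      residue 𝒪 (t ℓ₀) ≠ 1 + (ℓ₀ : ResidueField 𝒪)) :
    ∃ Φ : heckeLocal (N * W.Q ^ 2) SQ 𝒪 θ →ₐ[𝒪] Module.End 𝒪 (W.M' ε S t I α),
      ∀ (ℓ : ℕ) (hℓ : ℓ.Prime) (hℓN : ¬ ℓ ∣ N * W.Q ^ 2) (hℓS : ℓ ∉ SQ),
        Φ (heckeLocal.π (N * W.Q ^ 2) SQ 𝒪 θ (heckeAlgebra.T hℓ hℓN hℓS)) =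
          hopM' hG ε t α (isHop_TH hℓ (not_dvd_of_IsSQ hG hSQ hℓ hℓS)) := by
  have H := hG.hyp
  have hQ0 : NeZero W.Q := ⟨W.Q_ne_zero⟩
  have hfin := finite_M' (𝒪 := 𝒪) (ε := ε) (t := t) (α := α) hG
  obtain ⟨ℓ₀, hℓ₀, hℓ₀S, hℓ₀1, hne⟩ := hE
  have hgen : ∀ ℓ : Idx SQ, genS (N * W.Q ^ 2) SQ ℓ = heckeAlgebra.T ℓ.1.2
      (not_dvd_sq_of_IsSQ hG hSQ ℓ.1.2 ℓ.2) ℓ.2 := fun ℓ => genS_of_not_dvd _ _ _ _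
  have hIsHop : ∀ ℓ : Idx SQ, IsHop W (TH N W.Q W.ψ (ℓ.1 : ℕ) : Module.End 𝒪 (Pairs 𝒪)) :=
    fun ℓ => isHop_TH ℓ.1.2 (not_dvd_of_IsSQ hG hSQ ℓ.1.2 ℓ.2)
  have htf : Module.IsTorsionFree ℤ 𝒪 := inferInstance
  obtain ⟨Φ, hΦ⟩ := Act.exists_act_sub (N * W.Q ^ 2) SQ 𝒪 θ (W.M' ε S t I α)
    (fun c z hc hz => saturated_M' c hc z hz)
    (fun ℓ => (TH N W.Q W.ψ (ℓ.1 : ℕ) : Module.End 𝒪 (Pairs 𝒪)))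
    (fun ℓ x hx => (hIsHop ℓ).mem_M' hG hx)
    (fun i j x hx => (hIsHop i).comm hG (hIsHop j) (M'_le_MS hx))
    (fun ℓ => t (ℓ.1 : ℕ)) (fun ℓ => by
      rw [hgen]; exact hθ _ _ _ _)
    (fun ℓ x hx => by
      have h1 := (mem_part.mp hx).2 (TH N W.Q W.ψ (ℓ.1 : ℕ) - t (ℓ.1 : ℕ) • LinearMap.id)
        (Or.inl ⟨(ℓ.1 : ℕ), ℓ.1.2, fun h => ℓ.2 ((hSQ _ ℓ.1.2).mpr (Or.inl h)),
          fun h => ℓ.2 ((hSQ _ ℓ.1.2).mpr (Or.inr h)), rfl⟩)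
      exact h1)
    (R := 𝒪) (J := W.Δ)
    (fun δ => ((Tw N W.Q W.ψ : Pairs 𝒪 →ₗ[𝒪] Pairs 𝒪) ∘ₗ D N W.Q W.ψ δ).toAddMonoidHom)
    (fun δ x hx => Tw_mem H (D_mem (M'_le_MS hx) δ))
    (fun x hx h => Tw_injective H (nTor_of_charZero 𝒪) (hInv_of_mem (M'_le_MS hx)) h)
    (fun δ ℓ x hx => by
      have h1 := hInv_of_mem (M'_le_MS hx)
      have h2 := not_dvd_of_IsSQ hG hSQ ℓ.1.2 ℓ.2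
      have h3 : Tw N W.Q W.ψ (D N W.Q W.ψ δ (TH N W.Q W.ψ (ℓ.1 : ℕ) x)) =
          hop 𝒪 (N * W.Q ^ 2) (ℓ.1 : ℕ) (Tw N W.Q W.ψ (D N W.Q W.ψ δ x)) := by
        rw [hop_of_not_dvd (not_dvd_sq_of_IsSQ hG hSQ ℓ.1.2 ℓ.2), D_TH H ℓ.1.2 h2 h1,
          heckeT_Tw H ℓ.1.2 h2 (h1.D δ)]
      exact h3)
    ⟨⟨ℓ₀, hℓ₀⟩, hℓ₀S⟩ hℓ₀1 (by
      rw [hgen]
      have := hθ ℓ₀ hℓ₀ (not_dvd_sq_of_IsSQ hG hSQ hℓ₀ hℓ₀S) hℓ₀S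
      rw [← this]
      exact hne)
  refine ⟨Φ, fun ℓ hℓ hℓN hℓS => LinearMap.ext fun x => Subtype.ext ?_⟩
  have h1 := hΦ ⟨⟨ℓ, hℓ⟩, hℓS⟩ x
  rw [hgen] at h1
  exact h1

end TWP

end Fermat.Agent.RT.TWS
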