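import Fermat.Agent.RT.TWEig1
import Fermat.Agent.RT.TWAct

/-!
# (E1) for the Taylor–Wiles module `M'` (helper30)
-/

set_option autoImplicit false
set_option linter.unusedSectionVars false

open Matrix Matrix.SpecialLinearGroup CongruenceSubgroup IsLocalRing Polynomial
open scoped MatrixGroups OnePoint

noncomputable section

namespace Fermat.Agent.RT.TWS

open Fermat.Agent.LR Fermat.Agent.LR.PS Fermat.Agent.RT Fermat.Agent.RT.TwistH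
  Fermat.Agent.RT.GroupAlg Fermat.Agent.RT.Dict Fermat.Agent.RT.Loc Fermat.Agent.RT.GR
  Fermat.Agent.RT.MSHecke Fermat.Agent.CMP.S58Assembly

local notation "Qbar" => AlgebraicClosure ℚ
local notation "Γℚ" => (AlgebraicClosure ℚ ≃ₐ[ℚ] AlgebraicClosure ℚ)

namespace TWP

variable {p N r : ℕ} {W : TWP p N r} [hp : Fact p.Prime]

/-- the product of the other primes -/
def Qe (W : TWP p N r) (i : Fin r) : ℕ := ∏ j ∈ Finset.univ.erase i, W.q j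

theorem Q_eq_mul (i : Fin r) : W.Q = W.q i * Qe W i :=
  (Finset.mul_prod_erase Finset.univ W.q (Finset.mem_univ i)).symm

theorem Qe_dvd (i : Fin r) : Qe W i ∣ W.Q := ⟨W.q i, by rw [Q_eq_mul i, mul_comm]⟩

theorem dvd_Qe {i j : Fin r} (h : j ≠ i) : W.q j ∣ Qe W i :=
  Finset.dvd_prod_of_mem W.q (Finset.mem_erase.mpr ⟨h, Finset.mem_univ j⟩)

theorem psi_eq_gen_pow (i : Fin r) (u : (ZMod W.Q)ˣ) (hu : ZMod.unitsMap (Qe_dvd i) u = 1) :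
    W.ψ u = gen (fun i => p ^ W.a i) i ^ expo (fun i => p ^ W.a i) (W.ψ u) i := by
  have h1 : ∀ j, j ≠ i → W.ψ u j = 1 := by
    intro j hj
    rw [ψ_apply]
    have h2 : ZMod.unitsMap (W.dvd_Q j) u =
        ZMod.unitsMap (dvd_Qe hj) (ZMod.unitsMap (Qe_dvd i) u) := by
      rw [← MonoidHom.comp_apply, ZMod.unitsMap_comp]
    rw [h2, hu, map_one, map_one]
  have h3 := eq_prod_gen (q := fun i => p ^ W.a i) (W.ψ u)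
  rw [Finset.prod_eq_single i] at h3
  · exact h3
  · intro j _ hj
    have h4 : expo (fun i => p ^ W.a i) (W.ψ u) j = 0 := by
      unfold expo
      rw [h1 j hj]
      simp
    rw [h4, pow_zero]
  · intro h; exact absurd (Finset.mem_univ i) h

variable {𝒪 : Type} [CommRing 𝒪] [IsDomain 𝒪] [IsDiscreteValuationRing 𝒪]
  [IsAdicComplete (maximalIdeal 𝒪) 𝒪] [Finite (ResidueField 𝒪)] [CharZero 𝒪]
variable {ε : ℤ} {t α : ℕ → 𝒪} {S I : Set ℕ} {SQ : Finset ℕ}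

/-- **(E1) on `M'`.** -/
theorem eig_one (h30 : Datum.S30Statement) (h35 : S35Prop) (hpO : (p : 𝒪) ∈ maximalIdeal 𝒪)
    (hG : W.Good S I) (hSQ : IsSQ W S (↑SQ : Set ℕ)) (hpS : p ∈ SQ) [NeZero (N * W.Q ^ 2)]
    [Fact (CuspForm.HasIntegralStructure (N * W.Q ^ 2) 2)]
    {θ : CuspForm.heckeAlgebra (N * W.Q ^ 2) 2 (↑SQ : Set ℕ) →+* ResidueField 𝒪}
    (hθ : ∀ (ℓ : ℕ) (hℓ : ℓ.Prime) (hℓN : ¬ ℓ ∣ N * W.Q ^ 2) (hℓS : ℓ ∉ (↑SQ : Set ℕ)),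
      residue 𝒪 (t ℓ) = θ (CuspForm.heckeAlgebra.T hℓ hℓN hℓS))
    (hE : ∃ ℓ₀ : ℕ, ℓ₀.Prime ∧ ℓ₀ ∉ (↑SQ : Set ℕ) ∧ ((ℓ₀ : ℕ) : ZMod (N * W.Q ^ 2)) = 1 ∧
      residue 𝒪 (t ℓ₀) ≠ 1 + (ℓ₀ : ResidueField 𝒪))
    (d : CuspForm.HeckeGaloisRepDatum (N * W.Q ^ 2) (↑SQ : Set ℕ) 𝒪 θ
      (CuspForm.heckeLocal (N * W.Q ^ 2) (↑SQ : Set ℕ) 𝒪 θ))
    (hd : d.π = CuspForm.heckeLocal.π (N * W.Q ^ 2) (↑SQ : Set ℕ) 𝒪 θ)
    (Φ : CuspForm.heckeLocal (N * W.Q ^ 2) (↑SQ : Set ℕ) 𝒪 θ →ₐ[𝒪]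
      Module.End 𝒪 (W.M' ε S t I α))
    (hΦ : ∀ (ℓ : ℕ) (hℓ : ℓ.Prime) (hℓN : ¬ ℓ ∣ N * W.Q ^ 2) (hℓS : ℓ ∉ (↑SQ : Set ℕ)),
      Φ (CuspForm.heckeLocal.π (N * W.Q ^ 2) (↑SQ : Set ℕ) 𝒪 θ
        (CuspForm.heckeAlgebra.T hℓ hℓN hℓS)) =
          hopM' hG ε t α (isHop_TH hℓ (not_dvd_of_IsSQ hG hSQ hℓ hℓS)))
    (i : Fin r) {P : ValuationSubring Qbar} (hP : P.LiesOverPrime (W.q i)) {σ : Γℚ}
    (hσ : P.IsFrobeniusAt σ (W.q i))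
    {α' β' : ResidueField (CuspForm.heckeLocal (N * W.Q ^ 2) (↑SQ : Set ℕ) 𝒪 θ)}
    (hαβ : α' ≠ β')
    (hchar : LinearMap.charpoly (d.ρ.residual.ρ σ) = (X - C α') * (X - C β'))
    {g : CuspForm.heckeLocal (N * W.Q ^ 2) (↑SQ : Set ℕ) 𝒪 θ}
    (hg : ∀ (𝒪' : Type) [CommRing 𝒪'] [IsDomain 𝒪'] [IsLocalRing 𝒪']
      (f : CuspForm.heckeLocal (N * W.Q ^ 2) (↑SQ : Set ℕ) 𝒪 θ →+* 𝒪') (hf : IsLocalHom f),
      (d.ρ.baseChangeAlong f hf).IsUnramifiedAt (W.q i) → f g = 1)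
    {z : W.M' ε S t I α} (hz : dia' hG ε t α (gen (fun i => p ^ W.a i) i) z = z) :
    Φ g z = z := by
  obtain ⟨ℓ₀, hℓ₀, hℓ₀S, hℓ₀1, hne⟩ := hE
  have hℓ₀N := not_dvd_sq_of_IsSQ hG hSQ hℓ₀ hℓ₀S
  refine TWEig.eig_one h30 h35 hpO (Q_eq_mul i) (Qe_dvd i) (W.prime i) (W.ne i)
    ((dvd_pow_self p (W.apos i)).trans (W.ha i)) hG.hyp hpS ?_ d hd M'_le_MS Φ ?_ hℓ₀ hℓ₀N hℓ₀S
    hℓ₀1 ?_ hP hσ hαβ hchar hg ?_
  · intro ℓ hℓ h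
    by_contra hcon
    exact not_dvd_sq_of_IsSQ hG hSQ hℓ (fun h' => hcon (Finset.mem_coe.mp h')) h
  · intro ℓ hℓ hℓN hℓS x
    rw [hΦ]
    rfl
  · rw [← hθ ℓ₀ hℓ₀ hℓ₀N hℓ₀S]
    exact hne
  · intro u hu
    rw [psi_eq_gen_pow i u hu]
    have h1 : ∀ k : ℕ, dia' hG ε t α (gen (fun i => p ^ W.a i) i ^ k) z = z := by
      intro k
      induction k with
      | zero => rw [pow_zero, map_one]; rfl
      | succ k ih => rw [pow_succ, map_mul, Module.End.mul_apply, hz, ih]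
    exact congrArg Subtype.val (h1 _)

end TWP

end Fermat.Agent.RT.TWS
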