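import Fermat.Agent.RT.TWInertia

/-!
# Inertia elements in deformation rings

* `exists_data`: inertia element at `q` for a universal deformation, `ρbar` unramified at `q` with
  distinct Frobenius eigenvalues;
* `ker_eq_span`: the kernel of `R_Q → R` is generated by the `g_i - 1`.
-/

set_option autoImplicit false
set_option linter.unusedSectionVars false

open IsLocalRing Polynomial Pointwise

namespace Fermat.Agent.RT.TWInertia

open Fermat.Agent.UDef Fermat.Agent.RT.SelUnram Fermat.Agent.RT.SelTame Fermat.Agent.RT.SelStep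
  Fermat.Agent.DefCond

local notation "Qb" => AlgebraicClosure ℚ

theorem residual_eq_one_of_isEquiv {k k' : Type} [Field k] [Field k'] {ρ : ResidualGaloisRep k'}
    {ρbar : ResidualGaloisRep k} {f : k →+* k'} (h : ρ.IsEquiv (ρbar.baseChangeAlong f)) {σ : GalQ}
    (hσ : ρbar.ρ σ = 1) : ρ.ρ σ = 1 := by
  obtain ⟨M, hM⟩ := exists_modelR ρ
  obtain ⟨Mb, hMb⟩ := exists_modelR ρbar
  obtain ⟨P, hP, hPM⟩ := hM.exists_conj (hMb.baseChangeAlong f) h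
  obtain ⟨b, hb⟩ := hM
  obtain ⟨b', hb'⟩ := hMb
  have h1 : Mb σ = 1 := by rw [← hb', hσ]; exact LinearMap.toMatrix_one b'
  have h2 := hPM σ
  rw [mapRep_apply, h1, Matrix.map_one _ (map_zero f) (map_one f), one_mul] at h2
  have h3 : M σ = 1 := hP.mul_left_cancel (by rw [h2, mul_one])
  rw [← hb] at h3
  exact (LinearMap.toMatrix b b).injective (h3.trans (LinearMap.toMatrix_one b).symm)

theorem charpoly_of_isEquiv {k k' : Type} [Field k] [Field k'] {ρ : ResidualGaloisRep k'}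
    {ρbar : ResidualGaloisRep k} {f : k →+* k'} (h : ρ.IsEquiv (ρbar.baseChangeAlong f)) (σ : GalQ) :
    LinearMap.charpoly (ρ.ρ σ) = (LinearMap.charpoly (ρbar.ρ σ)).map f := by
  obtain ⟨M, hM⟩ := exists_modelR ρ
  obtain ⟨Mb, hMb⟩ := exists_modelR ρbar
  obtain ⟨P, hP, hPM⟩ := hM.exists_conj (hMb.baseChangeAlong f) h
  obtain ⟨b, hb⟩ := hM
  obtain ⟨b', hb'⟩ := hMb
  have h1 : LinearMap.charpoly (ρ.ρ σ) = (M σ).charpoly := by
    rw [← hb, LinearMap.charpoly_toMatrix]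
  have h2 : LinearMap.charpoly (ρbar.ρ σ) = (Mb σ).charpoly := by
    rw [← hb', LinearMap.charpoly_toMatrix]
  rw [h1, h2, ← Matrix.charpoly_map]
  obtain ⟨u, rfl⟩ := hP
  have h3 : M σ = ((u⁻¹ : (Matrix (Fin 2) (Fin 2) k')ˣ) : Matrix (Fin 2) (Fin 2) k') *
      (Mb σ).map f * (u : Matrix (Fin 2) (Fin 2) k') := by
    have h4 := hPM σ
    rw [mapRep_apply] at h4
    rw [mul_assoc, ← h4, ← mul_assoc, Units.inv_mul, one_mul]
  rw [h3]
  simp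

variable {𝒪 : Type} [CommRing 𝒪] [IsDomain 𝒪] [IsDiscreteValuationRing 𝒪]
  [IsAdicComplete (maximalIdeal 𝒪) 𝒪] {ρbar : ResidualGaloisRep (ResidueField 𝒪)}
  {𝒟 𝒟₁ 𝒟₂ : ∀ ⦃A : Type⦄ [CommRing A] [IsLocalRing A] [Algebra 𝒪 A], GaloisRepAdic A → Prop}

/-- The inertia element at a Taylor–Wiles prime in a deformation ring. -/
theorem exists_data (D : GaloisRep.DeformationRingData 𝒪 ρbar 𝒟) {p q a : ℕ} (hp : p.Prime)
    (hq : q.Prime) (hpq : p ≠ q) (hdet : D.ρ.DetIsCyclotomic p)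
    (hpa : p ^ a ∣ q - 1) (ha : a ≠ 0) (hpa' : ¬ p ^ (a + 1) ∣ q - 1)
    {P : ValuationSubring Qb} (hP : P.LiesOverPrime q) {φ : GalQ} (hφ : P.IsFrobeniusAt φ q)
    (hunr : ρbar.IsUnramifiedAt q) {α β : ResidueField 𝒪} (hαβ : α ≠ β)
    (hchar : LinearMap.charpoly (ρbar.ρ φ) = (X - C α) * (X - C β)) :
    ∃ T : Data D.ρ P φ (p ^ a), residue D.R T.A = ResidueField.map (algebraMap 𝒪 D.R) α ∧
      residue D.R T.D = ResidueField.map (algebraMap 𝒪 D.R) β := by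
  refine nonempty_data hp hq hpq hP hdet hφ hpa ha hpa' (fun σ hσ =>
    residual_eq_one_of_isEquiv D.residual_isEquiv (hunr P hP σ hσ)) ?_ ?_
  · exact fun h => hαβ ((ResidueField.map (algebraMap 𝒪 D.R)).injective h)
  · rw [charpoly_of_isEquiv D.residual_isEquiv, hchar, Polynomial.map_mul, Polynomial.map_sub,
      Polynomial.map_sub, Polynomial.map_X, Polynomial.map_C, Polynomial.map_C]

/-- **The kernel of `R_Q → R` is generated by the elements `g_i - 1`.** -/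
theorem ker_eq_span (D₁ : GaloisRep.DeformationRingData 𝒪 ρbar 𝒟₁)
    (D₂ : GaloisRep.DeformationRingData 𝒪 ρbar 𝒟₂)
    (hbc : ∀ ⦃A B : Type⦄ [CommRing A] [IsLocalRing A] [Algebra 𝒪 A]
      [CommRing B] [IsLocalRing B] [Algebra 𝒪 B], IsCoeff 𝒪 A → IsCoeff 𝒪 B →
      ∀ (φ : A →ₐ[𝒪] B) (hφ : IsLocalHom (φ : A →+* B)) ⦃ρ : GaloisRepAdic A⦄,
        𝒟₂ ρ → 𝒟₂ (ρ.baseChangeAlong (φ : A →+* B) hφ))
    {ι : Type} (qv : ι → ℕ) (hq : ∀ i, (qv i).Prime)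
    (h𝒟 : ∀ ⦃A : Type⦄ [CommRing A] [IsLocalRing A] [Algebra 𝒪 A], IsCoeff 𝒪 A →
      ∀ (ρ : GaloisRepAdic A), 𝒟₁ ρ ↔ 𝒟₂ ρ ∧ ∀ i, ρ.IsUnramifiedAt (qv i))
    (π : D₂.R →ₐ[𝒪] D₁.R) (hπ : IsLocalHom (π : D₂.R →+* D₁.R))
    (hπe : (D₂.ρ.baseChangeAlong (π : D₂.R →+* D₁.R) hπ).IsEquiv D₁.ρ)
    (P : ι → ValuationSubring Qb) (hP : ∀ i, (P i).LiesOverPrime (qv i)) (φ : ι → GalQ)
    (N : ι → ℕ) (T : ∀ i, Data D₂.ρ (P i) (φ i) (N i)) :
    Function.Surjective π ∧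
      RingHom.ker π = Ideal.span (Set.range fun i => ((T i).g : D₂.R) - 1) := by
  have hc₁ : IsCoeff 𝒪 D₁.R := ⟨inferInstance, D₁.residue_surjective, inferInstance⟩
  have hc₂ : IsCoeff 𝒪 D₂.R := ⟨inferInstance, D₂.residue_surjective, inferInstance⟩
  have hunr₁ := ((h𝒟 hc₁ D₁.ρ).mp D₁.isOfType).2
  set J := Ideal.span (Set.range fun i => ((T i).g : D₂.R) - 1) with hJdef
  have hJ : J ≤ RingHom.ker π := by
    rw [hJdef, Ideal.span_le]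
    rintro _ ⟨i, rfl⟩
    show ((T i).g : D₂.R) - 1 ∈ RingHom.ker π
    rw [RingHom.mem_ker, map_sub, map_one, sub_eq_zero]
    refine ((T i).isUnramifiedAt_iff (hq i) (hP i) (π : D₂.R →+* D₁.R) hπ).mp ?_
    intro P' hP' σ hσ
    obtain ⟨M, hM⟩ := exists_model (D₂.ρ.baseChangeAlong (π : D₂.R →+* D₁.R) hπ)
    exact (isModel_eq_one_iff hM σ).mp
      ((isModel_eq_one_iff (hM.of_isEquiv hπe) σ).mpr (hunr₁ i P' hP' σ hσ))
  have hJtop : J ≠ ⊤ := by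
    intro h
    have h1 : (1 : D₂.R) ∈ RingHom.ker π := hJ (h ▸ Submodule.mem_top)
    rw [RingHom.mem_ker, map_one] at h1
    exact one_ne_zero h1
  obtain ⟨hl, hcomp, hloc, hsurj, hmk'⟩ := quotient_facts (𝒪 := 𝒪) D₂.residue_surjective hJtop
  have hcq : IsCoeff 𝒪 (D₂.R ⧸ J) := ⟨hloc, hsurj, inferInstance⟩
  refine ker_eq_of_quotient D₁ D₂ π hπ hπe J hJ fun hl' hmk => ?_
  have hb : 𝒟₂ (D₂.ρ.baseChangeAlong ((Ideal.Quotient.mkₐ 𝒪 J : D₂.R →ₐ[𝒪] D₂.R ⧸ J) :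
      D₂.R →+* D₂.R ⧸ J) hmk) := hbc hc₂ hcq (Ideal.Quotient.mkₐ 𝒪 J) hmk D₂.isOfType
  refine ⟨(h𝒟 hcq _).mpr ⟨hb, fun i => ?_⟩, hb⟩
  refine ((T i).isUnramifiedAt_iff (hq i) (hP i) _ hmk).mpr ?_
  have h1 : ((T i).g : D₂.R) - 1 ∈ J := Ideal.subset_span ⟨i, rfl⟩
  have h2 : Ideal.Quotient.mk J (((T i).g : D₂.R) - 1) = 0 := Ideal.Quotient.eq_zero_iff_mem.mpr h1
  rw [map_sub, map_one, sub_eq_zero] at h2
  exact h2

end Fermat.Agent.RT.TWInertia
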