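import Fermat.Agent.RT.TypeRing
import Fermat.Agent.RT.Wiring.EDef
import Fermat.Agent.RT.Wiring.Levels

/-!
# RT-TYPE at the levels `R·Nmin·Q²` and `R·Nsig`

`W` semistable, `ρbar = rhoBar W hΔ p 𝒪`.

* `TauInput W hΔ p 𝒪` : some `τ` moves `E[p]` if `p ∣ Δ`, `p ∤ v_p(Δ)`;
* `AuxOK W p k R Qs` : the auxiliary level `R` (`R = 1` is allowed);
* `exists_surjective_min` : level `R * Nmin W p * (∏ q ∈ Qs, q)²`, type `tmin`, `S₀ = Smin ∪ Qs`;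
* `exists_surjective_sig` : level `R * Nsig W p`, type `tsig`, `S₀ = Sbad`.
-/

set_option autoImplicit false

open Polynomial IsLocalRing CongruenceSubgroup ModularFormClass CuspForm

namespace Fermat.Agent.RT.Typ

open Fermat.Agent.CMP Fermat.Agent.FrobCompare Fermat.Agent.CMP.Density
open Fermat.Agent.RT.Wiring

local notation "Γℚ" => (AlgebraicClosure ℚ ≃ₐ[ℚ] AlgebraicClosure ℚ)

/-- The auxiliary squarefree level `R`: at the primes `r ∣ R` the curve `W` has good reduction and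
`a_r(W)² ≠ (r+1)²` in `k`, and `r ∤ p`, `r ∉ Qs`. -/
structure AuxOK (W : WeierstrassCurve ℤ) (p : ℕ) (k : Type) [Field k] (R : ℕ)
    (Qs : Finset ℕ) : Prop where
  squarefree : Squarefree R
  ne : ∀ r : ℕ, r.Prime → r ∣ R → r ≠ p
  good : ∀ r : ℕ, r.Prime → r ∣ R → W.IsGoodPrimeFor r
  not_mem : ∀ r : ℕ, r.Prime → r ∣ R → r ∉ Qs
  ap : ∀ r : ℕ, r.Prime → r ∣ R → ((W.apOfModel r : ℤ) : k) ^ 2 ≠ ((r : k) + 1) ^ 2

theorem auxOK_one (W : WeierstrassCurve ℤ) (p : ℕ) (k : Type) [Field k] (Qs : Finset ℕ) :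
    AuxOK W p k 1 Qs where
  squarefree := squarefree_one
  ne := fun r hr h => absurd (Nat.dvd_one.mp h) hr.ne_one
  good := fun r hr h => absurd (Nat.dvd_one.mp h) hr.ne_one
  not_mem := fun r hr h => absurd (Nat.dvd_one.mp h) hr.ne_one
  ap := fun r hr h => absurd (Nat.dvd_one.mp h) hr.ne_one

theorem AuxOK.mono {W : WeierstrassCurve ℤ} {p : ℕ} {k : Type} [Field k] {R : ℕ}
    {Qs Qs' : Finset ℕ} (h : AuxOK W p k R Qs) (hQ : Qs' ⊆ Qs) : AuxOK W p k R Qs' :=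
  ⟨h.squarefree, h.ne, h.good, fun r hr hrR hr' => h.not_mem r hr hrR (hQ hr'), h.ap⟩

section

variable {W : WeierstrassCurve ℤ} (hΔ : W.Δ ≠ 0) {p : ℕ} [hpf : Fact p.Prime]

theorem isGoodPrimeFor_iff {q : ℕ} : W.IsGoodPrimeFor q ↔ ¬ (q : ℤ) ∣ W.Δ := Iff.rfl

/-- The Taylor–Wiles level. -/
def twLevel (W : WeierstrassCurve ℤ) (p R : ℕ) (Qs : Finset ℕ) : ℕ :=
  R * Nmin W p * (∏ q ∈ Qs, q) ^ 2

/-- The final level, with the auxiliary level `R`. -/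
def sigLevel (W : WeierstrassCurve ℤ) (p R : ℕ) : ℕ := R * Nsig W p

variable {k : Type} [Field k] {R : ℕ} {Qs : Finset ℕ}

theorem twLevel_ne_zero (hR : AuxOK W p k R Qs) (hQ : ∀ q ∈ Qs, q.Prime) :
    twLevel W p R Qs ≠ 0 :=
  mul_ne_zero (mul_ne_zero hR.squarefree.ne_zero (Nmin_pos hpf.out).ne')
    (pow_ne_zero 2 (Finset.prod_ne_zero_iff.mpr fun q hq => (hQ q hq).ne_zero))

theorem sigLevel_ne_zero (hR : AuxOK W p k R Qs) : sigLevel W p R ≠ 0 :=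
  mul_ne_zero hR.squarefree.ne_zero (Nsig_pos hpf.out).ne'

theorem factorization_twLevel (hR : AuxOK W p k R Qs) (hQ : ∀ q ∈ Qs, q.Prime) (q : ℕ) :
    (twLevel W p R Qs).factorization q =
      R.factorization q + (Nmin W p).factorization q + (if q ∈ Qs then 2 else 0) := by
  have h0 : (∏ q ∈ Qs, q) ≠ 0 := Finset.prod_ne_zero_iff.mpr fun q hq => (hQ q hq).ne_zero
  rw [twLevel, Nat.factorization_mul (mul_ne_zero hR.squarefree.ne_zero (Nmin_pos hpf.out).ne')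
    (pow_ne_zero 2 h0), Finsupp.add_apply, Nat.factorization_mul hR.squarefree.ne_zero
    (Nmin_pos hpf.out).ne', Finsupp.add_apply, Nat.factorization_pow, Finsupp.smul_apply,
    factorization_prod_primes_one hQ]
  split_ifs <;> simp

theorem factorization_sigLevel (hR : AuxOK W p k R Qs) (q : ℕ) :
    (sigLevel W p R).factorization q =
      R.factorization q + (Nsig W p).factorization q := by
  rw [sigLevel, Nat.factorization_mul hR.squarefree.ne_zero (Nsig_pos hpf.out).ne',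
    Finsupp.add_apply]

theorem factorization_aux_le (hR : AuxOK W p k R Qs) (q : ℕ) : R.factorization q ≤ 1 :=
  hR.squarefree.natFactorization_le_one q

theorem factorization_aux_eq_zero (hR : AuxOK W p k R Qs) {q : ℕ}
    (h : ∀ hq : q.Prime, ¬ q ∣ R) : R.factorization q = 0 := by
  by_cases hq : q.Prime
  · exact Nat.factorization_eq_zero_of_not_dvd (h hq)
  · exact Nat.factorization_eq_zero_of_not_prime R hq

include hΔ in
theorem not_dvd_aux_of_mem_Sbad (hR : AuxOK W p k R Qs) {q : ℕ} (hq : q ∈ Sbad W p)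
    (hq' : q.Prime) : ¬ q ∣ R := by
  intro h
  rcases (mem_Sbad hΔ).mp hq with h1 | h1
  · exact hR.ne q hq' h h1
  · exact hR.good q hq' h h1.2

theorem sq_dvd_iff {n q : ℕ} (hn : n ≠ 0) (hq : q.Prime) : q ^ 2 ∣ n ↔ 2 ≤ n.factorization q :=
  hq.pow_dvd_iff_le_factorization hn

theorem dvd_iff {n q : ℕ} (hn : n ≠ 0) (hq : q.Prime) : q ∣ n ↔ 1 ≤ n.factorization q :=
  hq.dvd_iff_one_le_factorization hn

include hΔ in
theorem dvd_twLevel_cases (hR : AuxOK W p k R Qs) (hQ : ∀ q ∈ Qs, q.Prime) {q : ℕ} (hq : q.Prime)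
    (h : q ∣ twLevel W p R Qs) : q ∈ Smin W p ∪ Qs ∨ (q ∣ R ∧ ¬ q ^ 2 ∣ twLevel W p R Qs) := by
  have h0 := twLevel_ne_zero (k := k) hR hQ
  rw [dvd_iff h0 hq, factorization_twLevel hR hQ] at h
  by_cases h1 : q ∈ Smin W p ∪ Qs
  · exact Or.inl h1
  · right
    rw [Finset.mem_union, not_or] at h1
    rw [if_neg h1.2, add_zero] at h
    have h2 : (Nmin W p).factorization q = 0 := by
      refine Nat.factorization_eq_zero_of_not_dvd fun hd => h1.1 (mem_Smin.mpr ?_)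
      rcases (dvd_Nmin_iff hpf.out hq).mp hd with h3 | h3
      · exact Or.inl h3.1
      · exact Or.inr h3
    rw [h2, add_zero] at h
    refine ⟨(dvd_iff hR.squarefree.ne_zero hq).mpr h, ?_⟩
    rw [sq_dvd_iff h0 hq, factorization_twLevel hR hQ, h2, if_neg h1.2]
    have := factorization_aux_le hR q
    omega

include hΔ in
theorem not_sq_dvd_twLevel (hR : AuxOK W p k R Qs) (hQ : ∀ q ∈ Qs, q.Prime)
    (hQS : ∀ q ∈ Qs, q ∉ Smin W p) {q : ℕ} (hq : q.Prime) (hqS : q ∈ Smin W p) :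
    ¬ q ^ 2 ∣ twLevel W p R Qs := by
  rw [sq_dvd_iff (twLevel_ne_zero (k := k) hR hQ) hq, factorization_twLevel hR hQ,
    if_neg (fun h => hQS q h hqS), factorization_aux_eq_zero hR (fun hq' =>
      not_dvd_aux_of_mem_Sbad hΔ hR (Smin_subset_Sbad hqS) hq')]
  have := factorization_Nmin_le (W := W) hpf.out q
  omega

include hΔ in
theorem dvd_sigLevel_cases (hR : AuxOK W p k R Qs) {q : ℕ} (hq : q.Prime)
    (h : q ∣ sigLevel W p R) : q ∈ Sbad W p ∨ (q ∣ R ∧ ¬ q ^ 2 ∣ sigLevel W p R) := by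
  have h0 := sigLevel_ne_zero (W := W) (k := k) hR
  rw [dvd_iff h0 hq, factorization_sigLevel hR] at h
  by_cases h1 : q ∈ Sbad W p
  · exact Or.inl h1
  · right
    have h2 : (Nsig W p).factorization q = 0 := by
      refine Nat.factorization_eq_zero_of_not_dvd fun hd => h1 ?_
      rw [Sbad_eq, Finset.mem_union, mem_Smin]
      rcases (dvd_Nsig_iff hpf.out hq).mp hd with h3 | h3 | h3
      · exact Or.inl (Or.inl h3.1)
      · exact Or.inl (Or.inr h3)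
      · exact Or.inr h3
    rw [h2, add_zero] at h
    refine ⟨(dvd_iff hR.squarefree.ne_zero hq).mpr h, ?_⟩
    rw [sq_dvd_iff h0 hq, factorization_sigLevel hR, h2]
    have := factorization_aux_le hR q
    omega

include hΔ in
theorem not_sq_dvd_sigLevel (hR : AuxOK W p k R Qs) {q : ℕ} (hq : q.Prime) (hqS : q ∈ Smin W p)
    (hqp : q ≠ p) : ¬ q ^ 2 ∣ sigLevel W p R := by
  rw [sq_dvd_iff (sigLevel_ne_zero (k := k) hR) hq, factorization_sigLevel hR,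
    factorization_aux_eq_zero hR (fun hq' =>
      not_dvd_aux_of_mem_Sbad hΔ hR (Smin_subset_Sbad hqS) hq'), factorization_Nsig hpf.out,
    if_neg (fun h => hqp h.1)]
  have h1 : q ∈ Sram W p := (mem_Smin.mp hqS).resolve_left hqp
  rw [if_pos h1, if_neg (fun h => not_mem_both h1 h)]
  omega

variable (𝒪 : Type) [CommRing 𝒪]

section Rho

variable [IsLocalRing 𝒪] [Algebra ℤ_[p] 𝒪] [IsLocalHom (algebraMap ℤ_[p] 𝒪)]

/-- The element `τ` of inertia at `p` moves `E[p]` if `W` is multiplicative at `p` and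
`p ∤ v_p(Δ)`. -/
def TauInput : Prop :=
  (p : ℤ) ∣ W.Δ → ¬ p ∣ padicValInt p W.Δ →
    ∀ P : ValuationSubring (AlgebraicClosure ℚ), P.LiesOverPrime p →
      ∃ τ : Γℚ, PStep.IsTau P p τ ∧ (rhoBar W hΔ p 𝒪).ρ τ ≠ 1

/-- `ρbar` is ordinary at `p` if `W` is multiplicative at `p`. -/
theorem rhoBar_isOrdinaryAt (hss : W.IsSemistableModel) (hbad : (p : ℤ) ∣ W.Δ) :
    (GaloisRepAdic.ofResidualGaloisRep (rhoBar W hΔ p 𝒪)).IsOrdinaryAt p :=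
  SelMain.isOrdinaryAt_of_isEquiv (residual_isEquiv_bc (rhoE W hΔ p 𝒪))
    (isOrdinaryAt_bc _ _ (rhoE_isStrictOrdinaryAt hΔ 𝒪 hss hbad).isOrdinaryAt)

/-- `NoNewAt` for `ρbar` in terms of `a_r(W)`. -/
theorem noNewAt_rhoBar {r : ℕ} (hr : r.Prime) (hrp : r ≠ p) (hgood : W.IsGoodPrimeFor r)
    (har : ((W.apOfModel r : ℤ) : ResidueField 𝒪) ^ 2 ≠ ((r : ResidueField 𝒪) + 1) ^ 2) :
    NoNewAt (rhoBar W hΔ p 𝒪) r := by
  obtain ⟨A, hA⟩ := FrobExists.exists_liesOverPrime (AlgebraicClosure ℚ) hr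
  obtain ⟨σ, hσ⟩ := FrobExists.exists_isFrobeniusAt A hr hA
  refine ⟨A, hA, σ, hσ, ?_⟩
  have h1 := rhoBar_charpoly_frob hΔ 𝒪 hr hrp hgood A hA hσ
  rw [BN2.charpoly_eq_of_finrank_two (rhoBar W hΔ p 𝒪).finrank_eq] at h1
  rw [S58Assembly.eq_of_quad h1]
  exact har

/-- The eigensystem of `W` is the eigensystem of `ρbar`. -/
theorem resAttached_rhoBar {N : ℕ} [NeZero N] {S : Set ℕ} (hS : (↑(Sbad W p) : Set ℕ) ⊆ S)
    {θ : heckeAlgebra N 2 S →+* ResidueField 𝒪}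
    (hθ : ∀ (ℓ : ℕ) (hℓ : ℓ.Prime) (hℓN : ¬ ℓ ∣ N) (hℓS : ℓ ∉ S),
      θ (heckeAlgebra.T hℓ hℓN hℓS) = ((W.apOfModel ℓ : ℤ) : ResidueField 𝒪)) :
    ResAttached θ (rhoBar W hΔ p 𝒪) := by
  intro ℓ hℓ hℓN hℓS A hA σ hσ
  have h1 : ℓ ∉ Sbad W p := fun h => hℓS (hS (Finset.mem_coe.mpr h))
  obtain ⟨h2, h3⟩ := not_mem_Sbad hΔ hℓ h1
  rw [rhoBar_charpoly_frob hΔ 𝒪 hℓ h2 h3 A hA hσ, hθ]

theorem atP_tmin (hss : W.IsSemistableModel) (hτ : TauInput hΔ (p := p) 𝒪) {N : ℕ} (hN : N ≠ 0)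
    (hNp : N.factorization p = (Nmin W p).factorization p) :
    AtP (tmin W p) p N (rhoBar W hΔ p 𝒪) := by
  have hp : p.Prime := hpf.out
  have h0 : p ∉ Sram W p := fun h => ne_of_mem_Sram h rfl
  rw [factorization_Nmin hp, if_neg h0, add_zero] at hNp
  rw [tmin]
  by_cases h : (p : ℤ) ∣ W.Δ ∧ ¬ p ∣ padicValInt p W.Δ
  · rw [if_pos h]
    rw [if_pos ⟨rfl, h⟩] at hNp
    refine ⟨(dvd_iff hN hp).mpr hNp.ge, ?_, rhoBar_isOrdinaryAt hΔ 𝒪 hss h.1, hτ h.1 h.2⟩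
    rw [sq_dvd_iff hN hp]
    omega
  · rw [if_neg h]
    rw [if_neg (fun h' => h h'.2)] at hNp
    intro hd
    rw [dvd_iff hN hp] at hd
    omega

theorem atP_tsig (hss : W.IsSemistableModel) (hτ : TauInput hΔ (p := p) 𝒪) {N : ℕ} (hN : N ≠ 0)
    (hNp : N.factorization p = (Nsig W p).factorization p) :
    AtP (tsig W p) p N (rhoBar W hΔ p 𝒪) := by
  have hp : p.Prime := hpf.out
  have h0 : p ∉ Sram W p := fun h => ne_of_mem_Sram h rfl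
  have h0' : p ∉ Ssig W p := fun h => ne_of_mem_Ssig h rfl
  rw [factorization_Nsig hp, if_neg h0, if_neg h0', add_zero, add_zero] at hNp
  rw [tsig]
  by_cases h : (p : ℤ) ∣ W.Δ
  · rw [if_pos h]
    rw [if_pos ⟨rfl, h⟩] at hNp
    have h1 : p ∣ N := (dvd_iff hN hp).mpr hNp.ge
    have h2 : ¬ p ^ 2 ∣ N := by
      rw [sq_dvd_iff hN hp]
      omega
    have h3 := rhoBar_isOrdinaryAt hΔ 𝒪 hss h
    by_cases h' : p ∣ padicValInt p W.Δ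
    · rw [if_pos h']
      exact ⟨h1, h2, h3⟩
    · rw [if_neg h']
      exact ⟨h1, h2, h3, hτ h h'⟩
  · rw [if_neg h]
    rw [if_neg (fun h' => h h'.2)] at hNp
    intro hd
    rw [dvd_iff hN hp] at hd
    omega

end Rho

section Final

variable {𝒪} [IsDomain 𝒪] [IsDiscreteValuationRing 𝒪] [IsAdicComplete (maximalIdeal 𝒪) 𝒪]
  [Finite (ResidueField 𝒪)] [CharZero 𝒪] [Algebra ℤ_[p] 𝒪] [IsLocalHom (algebraMap ℤ_[p] 𝒪)]
  (hp𝒪 : (p : 𝒪) ∈ maximalIdeal 𝒪) (hp2 : p ≠ 2) (hss : W.IsSemistableModel)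
  (hirr : W.ModRepIsIrreducible p) (I : Inputs) (hτ : TauInput hΔ (p := p) 𝒪)
  {S : Finset ℕ} (hS : Sbad W p ⊆ S)

include hp𝒪 hp2 hss hirr I hτ hS in
/-- **RT-TYPE (i), (iii)**: the levels `R·Nmin·Q²` (`R = 1`, `Qs = ∅` allowed). -/
theorem exists_surjective_min {R : ℕ} {Qs : Finset ℕ} (hR : AuxOK W p (ResidueField 𝒪) R Qs)
    (hQ : ∀ q ∈ Qs, q.Prime) (hQS : ∀ q ∈ Qs, q ∉ Smin W p)
    {N : ℕ} [NeZero N] [Fact (HasIntegralStructure N 2)] (hN : N = twLevel W p R Qs)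
    (hNS : ∀ q : ℕ, q.Prime → q ∣ N → q ∈ S)
    {θ : heckeAlgebra N 2 (↑S : Set ℕ) →+* ResidueField 𝒪}
    (hθ : ∀ (ℓ : ℕ) (hℓ : ℓ.Prime) (hℓN : ¬ ℓ ∣ N) (hℓS : ℓ ∉ (↑S : Set ℕ)),
      θ (heckeAlgebra.T hℓ hℓN hℓS) = ((W.apOfModel ℓ : ℤ) : ResidueField 𝒪))
    (D : GaloisRep.DeformationRingData 𝒪 (rhoBar W hΔ p 𝒪)
      (dCond (tmin W p) 𝒪 p (Smin W p ∪ Qs) (Smin W p))) :
    ∃ (d : HeckeGaloisRepDatum N (↑S : Set ℕ) 𝒪 θ (heckeLocal N (↑S : Set ℕ) 𝒪 θ))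
      (φ : D.R →ₐ[𝒪] heckeLocal N (↑S : Set ℕ) 𝒪 θ)
      (hφ : IsLocalHom (φ : D.R →+* heckeLocal N (↑S : Set ℕ) 𝒪 θ)),
      d.π = heckeLocal.π N (↑S : Set ℕ) 𝒪 θ ∧
      dCond (tmin W p) 𝒪 p (Smin W p ∪ Qs) (Smin W p) d.ρ ∧
      Function.Surjective φ ∧
      (D.ρ.baseChangeAlong (φ : D.R →+* heckeLocal N (↑S : Set ℕ) 𝒪 θ) hφ).IsEquiv d.ρ ∧
      ∀ (ℓ : ℕ) (hℓ : ℓ.Prime) (hℓN : ¬ ℓ ∣ N) (hℓS : ℓ ∉ (↑S : Set ℕ)),
        ∀ A : ValuationSubring (AlgebraicClosure ℚ), A.LiesOverPrime ℓ →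
          ∀ σ : Γℚ, A.IsFrobeniusAt σ ℓ → φ (D.ρ.trace σ) =
            heckeLocal.π N (↑S : Set ℕ) 𝒪 θ (heckeAlgebra.T hℓ hℓN hℓS) := by
  have hp : p.Prime := hpf.out
  have hpQ : p ∉ Qs := fun h => hQS p h p_mem_Smin
  refine exists_surjective (hS p_mem_Sbad) hNS hp𝒪
    (rhoBar_isAbsolutelyIrreducible hΔ 𝒪 hp2 hss hirr)
    (resAttached_rhoBar hΔ 𝒪 (Finset.coe_subset.mpr hS) hθ) I hp2 (tmin W p) _ _
    (Finset.mem_union_left _ p_mem_Smin) ?_ ?_ ?_ D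
  · intro q hq hqN hqS
    rw [hN] at hqN ⊢
    obtain ⟨h1, h2⟩ := (dvd_twLevel_cases hΔ hR hQ hq hqN).resolve_left hqS
    exact ⟨h2, noNewAt_rhoBar hΔ 𝒪 hq (hR.ne q hq h1) (hR.good q hq h1) (hR.ap q hq h1)⟩
  · intro q hqS hq _
    rw [hN]
    exact not_sq_dvd_twLevel hΔ hR hQ hQS hq hqS
  · refine atP_tmin hΔ 𝒪 hss hτ (NeZero.ne N) ?_
    rw [hN, factorization_twLevel hR hQ, if_neg hpQ, factorization_aux_eq_zero hR (fun hq' =>
      not_dvd_aux_of_mem_Sbad hΔ hR p_mem_Sbad hq')]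
    omega

include hp𝒪 hp2 hss hirr I hτ hS in
/-- **RT-TYPE (ii)**: the levels `R·Nsig` (`R = 1` allowed). -/
theorem exists_surjective_sig {R : ℕ} (hR : AuxOK W p (ResidueField 𝒪) R ∅)
    {N : ℕ} [NeZero N] [Fact (HasIntegralStructure N 2)] (hN : N = sigLevel W p R)
    (hNS : ∀ q : ℕ, q.Prime → q ∣ N → q ∈ S)
    {θ : heckeAlgebra N 2 (↑S : Set ℕ) →+* ResidueField 𝒪}
    (hθ : ∀ (ℓ : ℕ) (hℓ : ℓ.Prime) (hℓN : ¬ ℓ ∣ N) (hℓS : ℓ ∉ (↑S : Set ℕ)),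
      θ (heckeAlgebra.T hℓ hℓN hℓS) = ((W.apOfModel ℓ : ℤ) : ResidueField 𝒪))
    (D : GaloisRep.DeformationRingData 𝒪 (rhoBar W hΔ p 𝒪)
      (dCond (tsig W p) 𝒪 p (Sbad W p) (Smin W p))) :
    ∃ (d : HeckeGaloisRepDatum N (↑S : Set ℕ) 𝒪 θ (heckeLocal N (↑S : Set ℕ) 𝒪 θ))
      (φ : D.R →ₐ[𝒪] heckeLocal N (↑S : Set ℕ) 𝒪 θ)
      (hφ : IsLocalHom (φ : D.R →+* heckeLocal N (↑S : Set ℕ) 𝒪 θ)),
      d.π = heckeLocal.π N (↑S : Set ℕ) 𝒪 θ ∧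
      dCond (tsig W p) 𝒪 p (Sbad W p) (Smin W p) d.ρ ∧
      Function.Surjective φ ∧
      (D.ρ.baseChangeAlong (φ : D.R →+* heckeLocal N (↑S : Set ℕ) 𝒪 θ) hφ).IsEquiv d.ρ ∧
      ∀ (ℓ : ℕ) (hℓ : ℓ.Prime) (hℓN : ¬ ℓ ∣ N) (hℓS : ℓ ∉ (↑S : Set ℕ)),
        ∀ A : ValuationSubring (AlgebraicClosure ℚ), A.LiesOverPrime ℓ →
          ∀ σ : Γℚ, A.IsFrobeniusAt σ ℓ → φ (D.ρ.trace σ) =
            heckeLocal.π N (↑S : Set ℕ) 𝒪 θ (heckeAlgebra.T hℓ hℓN hℓS) := by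
  have hp : p.Prime := hpf.out
  refine exists_surjective (hS p_mem_Sbad) hNS hp𝒪
    (rhoBar_isAbsolutelyIrreducible hΔ 𝒪 hp2 hss hirr)
    (resAttached_rhoBar hΔ 𝒪 (Finset.coe_subset.mpr hS) hθ) I hp2 (tsig W p) _ _
    p_mem_Sbad ?_ ?_ ?_ D
  · intro q hq hqN hqS
    rw [hN] at hqN ⊢
    obtain ⟨h1, h2⟩ := (dvd_sigLevel_cases hΔ hR hq hqN).resolve_left hqS
    exact ⟨h2, noNewAt_rhoBar hΔ 𝒪 hq (hR.ne q hq h1) (hR.good q hq h1) (hR.ap q hq h1)⟩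
  · intro q hqS hq hqp
    rw [hN]
    exact not_sq_dvd_sigLevel hΔ hR hq hqS hqp
  · refine atP_tsig hΔ 𝒪 hss hτ (NeZero.ne N) ?_
    rw [hN, factorization_sigLevel hR, factorization_aux_eq_zero hR (fun hq' =>
      not_dvd_aux_of_mem_Sbad hΔ hR p_mem_Sbad hq')]
    omega

end Final

end

end Fermat.Agent.RT.Typ
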