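import Fermat.Agent.RT.TypeLevels
import Fermat.Agent.LOC.TauTorsion

/-!
# RT-TYPE: `τ` moves `E[p]` if `W` is multiplicative at `p` and `p ∤ v_p(Δ)`
-/

set_option autoImplicit false

open Polynomial IsLocalRing
open WeierstrassCurve.Affine.Point
open scoped WeierstrassCurve.Affine TensorProduct

namespace Fermat.Agent.RT.Typ

open Fermat.Agent.RT.Wiring

local notation "Γℚ" => (AlgebraicClosure ℚ ≃ₐ[ℚ] AlgebraicClosure ℚ)

theorem rho_eq_one_of_isEquiv {k : Type} [Field k] {ρ ρ' : ResidualGaloisRep k}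
    (h : ρ.IsEquiv ρ') {σ : Γℚ} (h1 : ρ.ρ σ = 1) : ρ'.ρ σ = 1 := by
  obtain ⟨e⟩ := h
  refine LinearMap.ext fun y => ?_
  have h2 := e.map_apply σ (e.toLinearEquiv.symm y)
  rw [h1, LinearEquiv.apply_symm_apply] at h2
  rw [← h2]
  exact e.toLinearEquiv.apply_symm_apply y

theorem rho_eq_one_of_baseChangeAlong {k k' : Type} [Field k] [Field k'] (ψ : k →+* k')
    (ρ : ResidualGaloisRep k) {σ : Γℚ} (h1 : (ρ.baseChangeAlong ψ).ρ σ = 1) : ρ.ρ σ = 1 := by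
  let _ : Algebra k k' := ψ.toAlgebra
  have h1' : (ρ.ρ σ).baseChange k' = 1 := h1
  refine LinearMap.ext fun x => ?_
  have h2 := LinearMap.congr_fun h1' (1 ⊗ₜ[k] x)
  rw [LinearMap.baseChange_tmul, Module.End.one_apply] at h2
  have h3 : Function.Injective (fun x : ρ.V => (1 : k') ⊗ₜ[k] x) :=
    Module.FaithfullyFlat.tensorProduct_mk_injective (A := k) (B := k') ρ.V
  exact h3 h2

/-- **The τ input.** -/
theorem tauInput {W : WeierstrassCurve ℤ} (hΔ : W.Δ ≠ 0) {p : ℕ} [hpf : Fact p.Prime]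
    (hp2 : p ≠ 2) (hss : W.IsSemistableModel) (𝒪 : Type) [CommRing 𝒪] [IsLocalRing 𝒪]
    [Algebra ℤ_[p] 𝒪] [IsLocalHom (algebraMap ℤ_[p] 𝒪)] : TauInput hΔ (p := p) 𝒪 := by
  intro hbad hndvd P hP
  have hp : p.Prime := hpf.out
  obtain ⟨τ, hτ⟩ := PStep.exists_isTau hp hp2 hP
  refine ⟨τ, hτ, fun h => hndvd ?_⟩
  rw [← LOC.TauTorsion.tau_fixes_iff W hΔ hp hp2 (hss p hp hbad) hbad P hP hτ]
  intro x hx
  have hcard := hcard_of (W := W) (p := p) hΔ
  have hker := hker_of (W := W) (p := p) hΔ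
  have h1 := rho_eq_one_of_baseChangeAlong _ _ (rho_eq_one_of_isEquiv
    (rhoBar_isEquiv hΔ 𝒪 hcard hker (zmodToResidue p 𝒪)) h)
  have hx' : x ∈ Submodule.torsionBy ℤ
      ((W.map (Int.castRingHom ℚ))⁄(AlgebraicClosure ℚ)).Point p := by
    rw [Submodule.mem_torsionBy_iff, Nat.cast_smul_eq_nsmul]; exact hx
  have h2 := LinearMap.congr_fun h1 ⟨x, hx'⟩
  exact congrArg Subtype.val h2

end Fermat.Agent.RT.Typ
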