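import Fermat.Agent.RT.PointSig

/-!
# More on eigenspaces of modular symbols (RT-PT)

* `mem_eigMS_badSet`: an eigensymbol for almost all `T_ℓ` is an eigensymbol for all `T_ℓ`, `ℓ ∤ M`.
* `heckeU_quadratic`: `U_p² - a_p U_p + p = 0` in level `M p`.
* `heckeU_steinberg`: `U_q (U_q - a_q) = 0` in level `M q`, `q ∣ M`, if `U_q = a_q` in level `M`.
-/

set_option autoImplicit false

noncomputable section

open UpperHalfPlane CongruenceSubgroup Matrix Matrix.SpecialLinearGroup ModularFormClass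
open scoped MatrixGroups ModularForm OnePoint

namespace Fermat.Agent.RT.Point

open Fermat.Agent.LR Fermat.Agent.LR.PS Fermat.Agent.Newform Fermat.Agent.ES

variable {N : ℕ} [NeZero N] {g : CuspForm (Gamma0 N) 2} {M : ℕ} [NeZero M] {S : Set ℕ}

/-- Forms: an eigenform for almost all `T_ℓ` is an eigenform for all `T_ℓ`, `ℓ ∤ M`. -/
theorem mem_eigSub_badSet (hg : g.IsNewform) (hS : S.Finite) {f : ℍ → ℂ}
    (hf : f ∈ eigSub 2 M S (qCoeff ⇑g)) : f ∈ eigSub 2 M (badSet M) (qCoeff ⇑g) := by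
  have h := eigSub_le_span hg M hS hf
  refine (Submodule.span_le.2 ?_ : Submodule.span ℂ _ ≤ _) h
  rintro x ⟨d, hd, rfl⟩
  exact diag_mem_eigSub hg.1 hd

/-- An eigensymbol for almost all `T_ℓ` is an eigensymbol for all `T_ℓ`, `ℓ ∤ M`. -/
theorem mem_eigMS_badSet (hg : g.IsNewform) (hS : S.Finite)
    (hbad : ∀ p : ℕ, p.Prime → p ∣ M → p ∈ S) (hne : NonEis M S (qCoeff ⇑g)) {y : Pairs ℂ}
    (hy : y ∈ eigMS M S (qCoeff ⇑g)) : y ∈ eigMS M (badSet M) (qCoeff ⇑g) := by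
  obtain ⟨u, v, huv, hu, hv⟩ := exists_decomp_eig hbad hne hy
  have hu' := mem_eigSub_badSet hg hS (f := ⇑u) ⟨isCF_coe u, hu⟩
  have hv' := mem_eigSub_badSet hg hS (f := ⇑v) ⟨isCF_coe v, hv⟩
  rw [huv]
  exact Submodule.add_mem _ (perSym_mem_eigMS (fun _ _ h => h) hu'.2)
    (slash_jMat_mem_eigMS (perSym_mem_eigMS (fun _ _ h => h) hv'.2))

/-- `T_q y = a_q(g) y` for `q ∤ M`. -/
theorem heckeT_eq_of_mem (hg : g.IsNewform) (hS : S.Finite)
    (hbad : ∀ p : ℕ, p.Prime → p ∣ M → p ∈ S) (hne : NonEis M S (qCoeff ⇑g)) {y : Pairs ℂ}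
    (hy : y ∈ eigMS M S (qCoeff ⇑g)) {q : ℕ} (hq : q.Prime) (hqM : ¬ q ∣ M) :
    heckeT q y = qCoeff ⇑g q • y :=
  (mem_eigMS_badSet hg hS hbad hne hy).2 q hq hqM

/-- **`U_p² - a_p U_p + p = 0`** in level `M p`, `p ∤ M`. -/
theorem heckeU_quadratic (hg : g.IsNewform) {p : ℕ} (hS : S.Finite)
    (hbad : ∀ r : ℕ, r.Prime → r ∣ M * p → r ∈ S) (hne : NonEis (M * p) S (qCoeff ⇑g))
    (hp : p.Prime) (hpM : ¬ p ∣ M) (hNM : N ∣ M) {y : Pairs ℂ}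
    (hy : y ∈ eigMS (M * p) S (qCoeff ⇑g)) :
    heckeU p (heckeU p y) - qCoeff ⇑g p • heckeU p y + (p : ℂ) • y = 0 := by
  have i1 : NeZero (M * p) := ⟨mul_ne_zero (NeZero.ne M) hp.ne_zero⟩
  have e2 : M * p / p = M := Nat.mul_div_cancel _ hp.pos
  obtain ⟨x₀, h0, x₁, h1, e⟩ := exists_of_mem_eigMS hg hS hbad hne hp (Nat.dvd_mul_left p M)
    (by rw [e2]; exact hNM) hy
  rw [e2] at h0 h1
  have hU1 : ∀ x ∈ eigMS M (badSet M) (qCoeff ⇑g),
      heckeU p x = qCoeff ⇑g p • x - degen p x := fun x hx => by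
    rw [heckeU_eq_sub, hx.2 p hp hpM]
  have hU2 : ∀ x ∈ eigMS M (badSet M) (qCoeff ⇑g), heckeU p (degen p x) = (p : ℂ) • x :=
    fun x hx => heckeU_degen_self hp.ne_zero (TInv_of_mem hx.1)
  rw [e, map_add, hU1 x₀ h0, hU2 x₁ h1, map_add, map_sub, map_smul, map_smul, hU1 x₀ h0,
    hU2 x₀ h0, hU1 x₁ h1]
  module

/-- the two steps for a prime `q` with `q ∥ N`, `q² ∥ M q` -/
theorem heckeU_steinberg (hg : g.IsNewform) {q : ℕ} (hS : S.Finite)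
    (hbad : ∀ r : ℕ, r.Prime → r ∣ M * q → r ∈ S) (hne : NonEis (M * q) S (qCoeff ⇑g))
    (hq : q.Prime) (hNM : N ∣ M)
    (hU : ∀ x ∈ eigMS M (badSet M) (qCoeff ⇑g), heckeU q x = qCoeff ⇑g q • x) {y : Pairs ℂ}
    (hy : y ∈ eigMS (M * q) S (qCoeff ⇑g)) :
    heckeU q (heckeU q y) - qCoeff ⇑g q • heckeU q y = 0 := by
  have i1 : NeZero (M * q) := ⟨mul_ne_zero (NeZero.ne M) hq.ne_zero⟩
  have e2 : M * q / q = M := Nat.mul_div_cancel _ hq.pos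
  obtain ⟨x₀, h0, x₁, h1, e⟩ := exists_of_mem_eigMS hg hS hbad hne hq (Nat.dvd_mul_left q M)
    (by rw [e2]; exact hNM) hy
  rw [e2] at h0 h1
  rw [e, map_add, hU x₀ h0, heckeU_degen_self hq.ne_zero (TInv_of_mem h1.1), map_add, map_smul,
    map_smul, hU x₀ h0, hU x₁ h1]
  module

end Fermat.Agent.RT.Point
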