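import Fermat.Agent.RT.PointMS

/-!
# Depletion maps on modular symbols (RT-PT, PT5)

* `iQ R q x = q x - (T_q x)|V_q + x|V_q²`, `iP α p x = α x - x|V_p`.
* `exists_iQ`: every `y` of level `M q²` in the eigenspace of `g` with `U_q y = 0` is `iQ q x` for
  a unique `x` of level `M`.
* `exists_iP`: same for `U_p y = α y` in level `M p`.
* `exists_sigma`, `exists_sigma_p`: multiplicity one in level `N ∏ q²` (`· p`).
-/

set_option autoImplicit false

noncomputable section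

open UpperHalfPlane CongruenceSubgroup Matrix Matrix.SpecialLinearGroup ModularFormClass
open scoped MatrixGroups ModularForm OnePoint

namespace Fermat.Agent.RT.Point

open Fermat.Agent.LR Fermat.Agent.LR.PS Fermat.Agent.Newform Fermat.Agent.ES

section general

variable {R : Type*} [CommRing R]

/-- `U_q (x|V_q) = q x`. -/
theorem heckeU_degen_self {q : ℕ} (hq : q ≠ 0) {x : Pairs R} (hx : TInv x) :
    heckeU q (degen q x) = (q : R) • x := by
  have h1 : (q : ℤ) * 1 ≠ 0 := by simpa using hq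
  have h2 : (1 : ℤ) * q ≠ 0 := by simpa using hq
  have h3 : ∀ j : ℕ, slash (heckeMat q (j : ℤ)) (degen q x) = x := by
    intro j
    rw [degen_apply, ← slash_mul]
    have h4 : slash (diagMat q * heckeMat q (j : ℤ)) x = slash (toQ (ModularGroup.T ^ (j : ℤ))) x := by
      refine slash_congr (c := (q : ℚ)) (by exact_mod_cast hq) ?_ x
      rw [val_mul', val_diagMat hq, val_heckeMat hq, val_toQ_T_zpow]
      ext i k
      fin_cases i <;> fin_cases k <;> simp [Matrix.mul_apply, Fin.sum_univ_two]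
    rw [h4, hx]
  rw [heckeU_apply, Finset.sum_congr rfl fun j _ => h3 j, Finset.sum_const, Finset.card_range,
    Nat.cast_smul_eq_nsmul]

theorem heckeU_eq_sub (q : ℕ) (x : Pairs R) : heckeU q x = heckeT q x - degen q x := by
  rw [heckeT_apply, add_sub_cancel_right]

variable (R) in
/-- `x ↦ q x - (T_q x)|V_q + x|V_q²`. -/
def iQ (q : ℕ) : Pairs R →ₗ[R] Pairs R :=
  (q : R) • LinearMap.id - degen q ∘ₗ heckeT q + degen q ∘ₗ degen q

theorem iQ_apply (q : ℕ) (x : Pairs R) :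
    iQ R q x = (q : R) • x - degen q (heckeT q x) + degen q (degen q x) := rfl

/-- `x ↦ α x - x|V_p`. -/
def iP (α : R) (p : ℕ) : Pairs R →ₗ[R] Pairs R := α • LinearMap.id - degen p

theorem iP_apply (α : R) (p : ℕ) (x : Pairs R) : iP α p x = α • x - degen p x := rfl

theorem iQ_mem {M q : ℕ} (hq : q.Prime) (hqM : ¬ q ∣ M) {x : Pairs R} (hx : x ∈ MS (Gamma0 M) R) :
    iQ R q x ∈ MS (Gamma0 (M * q ^ 2)) R := by
  have e : M * q ^ 2 = M * q * q := by ring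
  rw [e, iQ_apply]
  refine Submodule.add_mem _ (Submodule.sub_mem _ (Submodule.smul_mem _ _ ?_) ?_) ?_
  · exact MS_mono (Gamma0_mono ((Nat.dvd_mul_right M q).trans (Nat.dvd_mul_right _ q))) hx
  · exact MS_mono (Gamma0_mono (Nat.dvd_mul_right _ q))
      (degen_mem hq.ne_zero (heckeT_mem_MS hq hqM hx))
  · exact degen_mem hq.ne_zero (degen_mem hq.ne_zero hx)

theorem iP_mem {M p : ℕ} (hp : p ≠ 0) (α : R) {x : Pairs R} (hx : x ∈ MS (Gamma0 M) R) :
    iP α p x ∈ MS (Gamma0 (M * p)) R :=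
  Submodule.sub_mem _ (Submodule.smul_mem _ _ (MS_mono (Gamma0_mono (Nat.dvd_mul_right M p)) hx))
    (degen_mem hp hx)

theorem heckeU_iQ {M q : ℕ} (hq : q.Prime) (hqM : ¬ q ∣ M) {x : Pairs R}
    (hx : x ∈ MS (Gamma0 M) R) : heckeU q (iQ R q x) = 0 := by
  have h1 := TInv_of_mem hx
  have h2 := TInv_of_mem (heckeT_mem_MS hq hqM hx)
  have h3 := TInv_of_mem (degen_mem hq.ne_zero hx)
  rw [iQ_apply, map_add, map_sub, map_smul, heckeU_degen_self hq.ne_zero h2,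
    heckeU_degen_self hq.ne_zero h3, heckeU_eq_sub, smul_sub]
  abel

theorem heckeU_iP {M p : ℕ} (hp : p ≠ 0) {α : R} {x : Pairs R} (hx : x ∈ MS (Gamma0 M) R)
    (h : α ^ 2 • x - α • heckeT p x + (p : R) • x = 0) :
    heckeU p (iP α p x) = α • iP α p x := by
  rw [iP_apply, map_sub, map_smul, heckeU_degen_self hp (TInv_of_mem hx), heckeU_eq_sub, smul_sub,
    smul_sub, smul_smul, ← pow_two]
  rw [← sub_eq_zero]
  have : α • heckeT p x - α • degen p x - (p : R) • x - (α ^ 2 • x - α • degen p x) =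
      -(α ^ 2 • x - α • heckeT p x + (p : R) • x) := by abel
  rw [this, h, neg_zero]

/-- `iQ` commutes with the Hecke operators away from `q`. -/
theorem heckeT_iQ {M q ℓ : ℕ} (hq : q.Prime) (hqM : ¬ q ∣ M) (hℓ : ℓ.Prime) (hne : ℓ ≠ q)
    {x : Pairs R} (hx : x ∈ MS (Gamma0 M) R) : heckeT ℓ (iQ R q x) = iQ R q (heckeT ℓ x) := by
  have hc : Nat.Coprime q ℓ := (Nat.coprime_primes hq hℓ).2 (Ne.symm hne)
  have h1 := TInv_of_mem hx
  have h2 := TInv_of_mem (heckeT_mem_MS hq hqM hx)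
  have h3 := TInv_of_mem (degen_mem hq.ne_zero hx)
  rw [iQ_apply, iQ_apply, map_add, map_sub, map_smul, heckeT_degen hℓ.ne_zero hq.ne_zero hc h2,
    heckeT_degen hℓ.ne_zero hq.ne_zero hc h3, heckeT_degen hℓ.ne_zero hq.ne_zero hc h1,
    heckeT_comm hℓ.ne_zero hq.ne_zero hc.symm h1]

theorem heckeU_iQ_comm {M q r : ℕ} (hq : q.Prime) (hqM : ¬ q ∣ M) (hr : r.Prime) (hne : r ≠ q)
    {x : Pairs R} (hx : x ∈ MS (Gamma0 M) R) : heckeU r (iQ R q x) = iQ R q (heckeU r x) := by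
  have hc : Nat.Coprime q r := (Nat.coprime_primes hq hr).2 (Ne.symm hne)
  have h1 := TInv_of_mem hx
  have h2 := TInv_of_mem (heckeT_mem_MS hq hqM hx)
  have h3 := TInv_of_mem (degen_mem hq.ne_zero hx)
  rw [iQ_apply, iQ_apply, map_add, map_sub, map_smul, heckeU_degen hr.ne_zero hq.ne_zero hc h2,
    heckeU_degen hr.ne_zero hq.ne_zero hc h3, heckeU_degen hr.ne_zero hq.ne_zero hc h1,
    heckeT_heckeU hq.ne_zero hr.ne_zero hc h1]

theorem slash_jMat_degen {q : ℕ} (hq : q ≠ 0) (x : Pairs R) :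
    slash jMat (degen q x) = degen q (slash jMat x) := by
  rw [degen_apply, degen_apply, ← slash_mul, ← slash_mul, jMat_mul_diagMat hq]

theorem slash_jMat_iQ {M q : ℕ} (hq : q ≠ 0) {x : Pairs R} (hx : x ∈ MS (Gamma0 M) R) :
    slash jMat (iQ R q x) = iQ R q (slash jMat x) := by
  rw [iQ_apply, iQ_apply, map_add, map_sub, map_smul, slash_jMat_degen hq, slash_jMat_degen hq,
    slash_jMat_degen hq, heckeT_slash_jMat hx hq]

theorem heckeT_iP {M p ℓ : ℕ} (hp : p.Prime) (hℓ : ℓ.Prime) (hne : ℓ ≠ p) (α : R)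
    {x : Pairs R} (hx : x ∈ MS (Gamma0 M) R) : heckeT ℓ (iP α p x) = iP α p (heckeT ℓ x) := by
  have hc : Nat.Coprime p ℓ := (Nat.coprime_primes hp hℓ).2 (Ne.symm hne)
  rw [iP_apply, iP_apply, map_sub, map_smul, heckeT_degen hℓ.ne_zero hp.ne_zero hc (TInv_of_mem hx)]

theorem heckeU_iP_comm {M p r : ℕ} (hp : p.Prime) (hr : r.Prime) (hne : r ≠ p) (α : R)
    {x : Pairs R} (hx : x ∈ MS (Gamma0 M) R) : heckeU r (iP α p x) = iP α p (heckeU r x) := by
  have hc : Nat.Coprime p r := (Nat.coprime_primes hp hr).2 (Ne.symm hne)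
  rw [iP_apply, iP_apply, map_sub, map_smul, heckeU_degen hr.ne_zero hp.ne_zero hc (TInv_of_mem hx)]

theorem slash_jMat_iP {p : ℕ} (hp : p ≠ 0) (α : R) (x : Pairs R) :
    slash jMat (iP α p x) = iP α p (slash jMat x) := by
  rw [iP_apply, iP_apply, map_sub, map_smul, slash_jMat_degen hp]

end general

/-! ### over `ℂ` -/

section complex

variable {M : ℕ} [NeZero M] {S : Set ℕ} {c : ℕ → ℂ}

omit [NeZero M] in
theorem heckeU_mem_eigMS {r : ℕ} (hr : r.Prime) (hrM : r ∣ M) (hbad : r ∈ S) {x : Pairs ℂ}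
    (hx : x ∈ eigMS M S c) : heckeU r x ∈ eigMS M S c :=
  ⟨heckeU_mem hr.ne_zero hrM hx.1, fun ℓ hℓ hS => by
    have hne : ℓ ≠ r := fun h => hS (h ▸ hbad)
    rw [heckeT_heckeU hℓ.ne_zero hr.ne_zero ((Nat.coprime_primes hℓ hr).2 hne) (TInv_of_mem hx.1),
      hx.2 ℓ hℓ hS, map_smul]⟩

/-- `iQ` is injective on eigensymbols. -/
theorem eq_zero_of_iQ {q : ℕ} (hq : q.Prime) (hqM : ¬ q ∣ M)
    (hbad : ∀ p : ℕ, p.Prime → p ∣ M * q → p ∈ S) (hne : NonEis (M * q) S c) {x : Pairs ℂ}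
    (hx : x ∈ eigMS M S c) (h : iQ ℂ q x = 0) : x = 0 := by
  have hMq : NeZero (M * q) := ⟨mul_ne_zero (NeZero.ne M) hq.ne_zero⟩
  have hqS : q ∈ S := hbad q hq (Nat.dvd_mul_left q M)
  have hT : heckeT q x ∈ eigMS M S c :=
    ⟨heckeT_mem_MS hq hqM hx.1, fun ℓ hℓ hS => by
      have hne : ℓ ≠ q := fun h => hS (h ▸ hqS)
      rw [heckeT_comm hℓ.ne_zero hq.ne_zero ((Nat.coprime_primes hℓ hq).2 hne)
        (TInv_of_mem hx.1), hx.2 ℓ hℓ hS, map_smul]⟩
  have h1 : (q : ℂ) • x + degen q (degen q x - heckeT q x) = 0 := by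
    rw [← h, iQ_apply, map_sub]; abel
  have h2 := (eq_zero_of_add_degen (Nat.dvd_mul_right M q) hbad hne hq hqM
    (Submodule.smul_mem _ _ hx)
    (Submodule.sub_mem _ (degen_mem_eigMS hq hqS hx)
      (eigMS_mono (Nat.dvd_mul_right M q) (fun _ _ h => h) hT)) h1).1
  exact (smul_eq_zero.1 h2).resolve_left (by exact_mod_cast hq.ne_zero)

theorem eq_zero_of_iP {p : ℕ} (hp : p.Prime) (hpM : ¬ p ∣ M)
    (hbad : ∀ r : ℕ, r.Prime → r ∣ M → r ∈ S) (hne : NonEis M S c) {α : ℂ} {x : Pairs ℂ}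
    (hx : x ∈ eigMS M S c) (h : iP α p x = 0) : x = 0 := by
  have h1 : α • x + degen p (-x) = 0 := by
    rw [map_neg, ← h, iP_apply]; abel
  have h2 := (eq_zero_of_add_degen dvd_rfl hbad hne hp hpM (Submodule.smul_mem _ _ hx)
    (Submodule.neg_mem _ hx) h1).2
  exact neg_eq_zero.1 h2

end complex

section newform

variable {N : ℕ} [NeZero N] {g : CuspForm (Gamma0 N) 2} {M : ℕ} [NeZero M] {S : Set ℕ}

/-- The two `q`-steps. -/
theorem exists_three (hg : g.IsNewform) {q : ℕ} (hS : S.Finite)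
    (hbad : ∀ p : ℕ, p.Prime → p ∣ M * q ^ 2 → p ∈ S) (hne : NonEis (M * q ^ 2) S (qCoeff ⇑g))
    (hq : q.Prime) (hNM : N ∣ M) {y : Pairs ℂ} (hy : y ∈ eigMS (M * q ^ 2) S (qCoeff ⇑g)) :
    ∃ x₀ ∈ eigMS M (badSet M) (qCoeff ⇑g), ∃ x₁ ∈ eigMS M (badSet M) (qCoeff ⇑g),
      ∃ x₂ ∈ eigMS M (badSet M) (qCoeff ⇑g), y = x₀ + degen q x₁ + degen q (degen q x₂) := by
  have i1 : NeZero (M * q) := ⟨mul_ne_zero (NeZero.ne M) hq.ne_zero⟩
  have i2 : NeZero (M * q ^ 2) := ⟨mul_ne_zero (NeZero.ne M) (pow_ne_zero _ hq.ne_zero)⟩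
  have e1 : M * q ^ 2 / q = M * q := by
    rw [pow_two, ← mul_assoc, Nat.mul_div_cancel _ hq.pos]
  have e2 : M * q / q = M := Nat.mul_div_cancel _ hq.pos
  have hd1 : q ∣ M * q ^ 2 := (dvd_pow_self q two_ne_zero).mul_left M
  have hd2 : M * q ∣ M * q ^ 2 := mul_dvd_mul_left M (dvd_pow_self q two_ne_zero)
  obtain ⟨y₀, hy₀, y₁, hy₁, e⟩ := exists_of_mem_eigMS hg hS hbad hne hq hd1
    (by rw [e1]; exact hNM.mul_right q) hy
  rw [e1] at hy₀ hy₁
  have hne1 : NonEis (M * q) (badSet (M * q)) (qCoeff ⇑g) :=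
    hne.mono hd2 fun p hp h => hbad p hp (h.trans hd2)
  have step : ∀ z ∈ eigMS (M * q) (badSet (M * q)) (qCoeff ⇑g),
      ∃ x ∈ eigMS M (badSet M) (qCoeff ⇑g), ∃ x' ∈ eigMS M (badSet M) (qCoeff ⇑g),
        z = x + degen q x' := by
    intro z hz
    have := exists_of_mem_eigMS hg finite_badSet (fun p _ h => h) hne1 hq
      (Nat.dvd_mul_left q M) (by rw [e2]; exact hNM) hz
    rwa [e2] at this
  obtain ⟨a₀, ha₀, a₁, ha₁, ea⟩ := step y₀ hy₀
  obtain ⟨b₀, hb₀, b₁, hb₁, eb⟩ := step y₁ hy₁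
  refine ⟨a₀, ha₀, a₁ + b₀, Submodule.add_mem _ ha₁ hb₀, b₁, hb₁, ?_⟩
  rw [e, ea, eb, map_add, map_add]
  abel

omit [NeZero N] [NeZero M] in
/-- Action of `U_q` on the three copies. -/
theorem heckeU_three {q : ℕ} (hq : q.Prime) (hqM : ¬ q ∣ M) {x₀ x₁ x₂ : Pairs ℂ}
    (h0 : x₀ ∈ eigMS M (badSet M) (qCoeff ⇑g)) (h1 : x₁ ∈ eigMS M (badSet M) (qCoeff ⇑g))
    (h2 : x₂ ∈ eigMS M (badSet M) (qCoeff ⇑g)) :
    heckeU q (x₀ + degen q x₁ + degen q (degen q x₂)) =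
      (qCoeff ⇑g q • x₀ + (q : ℂ) • x₁) + degen q ((q : ℂ) • x₂ - x₀) := by
  rw [map_add, map_add, heckeU_eq_sub, h0.2 q hq hqM, heckeU_degen_self hq.ne_zero
    (TInv_of_mem h1.1), heckeU_degen_self hq.ne_zero (TInv_of_mem (degen_mem hq.ne_zero h2.1)),
    map_sub, map_smul]
  abel

/-- **PT5, one prime.** -/
theorem exists_iQ (hg : g.IsNewform) {q : ℕ} (hS : S.Finite)
    (hbad : ∀ p : ℕ, p.Prime → p ∣ M * q ^ 2 → p ∈ S) (hne : NonEis (M * q ^ 2) S (qCoeff ⇑g))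
    (hq : q.Prime) (hqM : ¬ q ∣ M) (hNM : N ∣ M) {y : Pairs ℂ}
    (hy : y ∈ eigMS (M * q ^ 2) S (qCoeff ⇑g)) (hU : heckeU q y = 0) :
    ∃ x ∈ eigMS M (badSet M) (qCoeff ⇑g), y = iQ ℂ q x := by
  obtain ⟨x₀, h0, x₁, h1, x₂, h2, e⟩ := exists_three hg hS hbad hne hq hNM hy
  rw [e, heckeU_three hq hqM h0 h1 h2] at hU
  have hMd : M ∣ M * q ^ 2 := Nat.dvd_mul_right M _
  have hq0 : (q : ℂ) ≠ 0 := by exact_mod_cast hq.ne_zero
  obtain ⟨e1, e2⟩ := eq_zero_of_add_degen (S := badSet M) dvd_rfl (fun p _ h => h)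
    (hne.mono hMd fun p hp h => hbad p hp (h.trans hMd)) hq hqM
    (Submodule.add_mem _ (Submodule.smul_mem _ _ h0) (Submodule.smul_mem _ _ h1))
    (Submodule.sub_mem _ (Submodule.smul_mem _ _ h2) h0) hU
  have e3 : x₀ = (q : ℂ) • x₂ := (sub_eq_zero.1 e2).symm
  have e4 : x₁ = -(qCoeff ⇑g q • x₂) := by
    have h5 : (q : ℂ) • (x₁ + qCoeff ⇑g q • x₂) = 0 := by
      rw [smul_add, smul_comm, ← e3, add_comm]; exact e1
    exact eq_neg_of_add_eq_zero_left ((smul_eq_zero.1 h5).resolve_left hq0)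
  refine ⟨x₂, h2, ?_⟩
  rw [e, e3, e4, iQ_apply, h2.2 q hq hqM, map_neg]
  abel

/-- The cubic relation of `U_q` in level `M q²`. -/
theorem heckeU_cubic (hg : g.IsNewform) {q : ℕ} (hS : S.Finite)
    (hbad : ∀ p : ℕ, p.Prime → p ∣ M * q ^ 2 → p ∈ S) (hne : NonEis (M * q ^ 2) S (qCoeff ⇑g))
    (hq : q.Prime) (hqM : ¬ q ∣ M) (hNM : N ∣ M) {y : Pairs ℂ}
    (hy : y ∈ eigMS (M * q ^ 2) S (qCoeff ⇑g)) :
    heckeU q (heckeU q (heckeU q y)) - qCoeff ⇑g q • heckeU q (heckeU q y) +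
      (q : ℂ) • heckeU q y = 0 := by
  obtain ⟨x₀, h0, x₁, h1, x₂, h2, e⟩ := exists_three hg hS hbad hne hq hNM hy
  have hU1 : ∀ x ∈ eigMS M (badSet M) (qCoeff ⇑g),
      heckeU q x = qCoeff ⇑g q • x - degen q x := fun x hx => by
    rw [heckeU_eq_sub, hx.2 q hq hqM]
  have hU2 : ∀ x ∈ eigMS M (badSet M) (qCoeff ⇑g), heckeU q (degen q x) = (q : ℂ) • x :=
    fun x hx => heckeU_degen_self hq.ne_zero (TInv_of_mem hx.1)
  have hq1 : ∀ x ∈ eigMS M (badSet M) (qCoeff ⇑g),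
      heckeU q (heckeU q x) - qCoeff ⇑g q • heckeU q x + (q : ℂ) • x = 0 := by
    intro x hx
    rw [hU1 x hx, map_sub, map_smul, hU1 x hx, hU2 x hx]
    abel
  have hq2 : ∀ x ∈ eigMS M (badSet M) (qCoeff ⇑g),
      heckeU q (heckeU q (degen q x)) - qCoeff ⇑g q • heckeU q (degen q x) +
        (q : ℂ) • degen q x = 0 := by
    intro x hx
    rw [hU2 x hx, map_smul, hU1 x hx]
    module
  rw [e, heckeU_three hq hqM h0 h1 h2]
  have ha := hq1 _ (Submodule.add_mem _ (Submodule.smul_mem _ (qCoeff ⇑g q) h0)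
    (Submodule.smul_mem _ (q : ℂ) h1))
  have hb := hq2 _ (Submodule.sub_mem _ (Submodule.smul_mem _ (q : ℂ) h2) h0)
  set a := qCoeff ⇑g q • x₀ + (q : ℂ) • x₁ with haa
  set b := (q : ℂ) • x₂ - x₀ with hbb
  rw [map_add, map_add, smul_add, smul_add]
  have e5 : heckeU q (heckeU q a) + heckeU q (heckeU q (degen q b)) -
      (qCoeff ⇑g q • heckeU q a + qCoeff ⇑g q • heckeU q (degen q b)) +
      ((q : ℂ) • a + (q : ℂ) • degen q b) =
      (heckeU q (heckeU q a) - qCoeff ⇑g q • heckeU q a + (q : ℂ) • a) +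
      (heckeU q (heckeU q (degen q b)) - qCoeff ⇑g q • heckeU q (degen q b) +
        (q : ℂ) • degen q b) := by abel
  rw [e5, ha, hb, add_zero]

/-- **PT5, the prime `p`.** -/
theorem exists_iP (hg : g.IsNewform) {p : ℕ} (hS : S.Finite)
    (hbad : ∀ r : ℕ, r.Prime → r ∣ M * p → r ∈ S) (hne : NonEis (M * p) S (qCoeff ⇑g))
    (hp : p.Prime) (hpM : ¬ p ∣ M) (hNM : N ∣ M) {α : ℂ} {y : Pairs ℂ}
    (hy : y ∈ eigMS (M * p) S (qCoeff ⇑g)) (hU : heckeU p y = α • y) :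
    ∃ x ∈ eigMS M (badSet M) (qCoeff ⇑g), y = iP α p x ∧
      (α ^ 2 - α * qCoeff ⇑g p + p) • x = 0 := by
  have i1 : NeZero (M * p) := ⟨mul_ne_zero (NeZero.ne M) hp.ne_zero⟩
  have e2 : M * p / p = M := Nat.mul_div_cancel _ hp.pos
  have hMd : M ∣ M * p := Nat.dvd_mul_right M p
  obtain ⟨x₀, h0, x₁, h1, e⟩ := exists_of_mem_eigMS hg hS hbad hne hp (Nat.dvd_mul_left p M)
    (by rw [e2]; exact hNM) hy
  rw [e2] at h0 h1
  rw [e, map_add, heckeU_degen_self hp.ne_zero (TInv_of_mem h1.1), heckeU_eq_sub,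
    h0.2 p hp hpM] at hU
  have h3 : (qCoeff ⇑g p • x₀ + (p : ℂ) • x₁ - α • x₀) + degen p (-x₀ - α • x₁) = 0 := by
    rw [map_sub, map_neg, map_smul]
    rw [← sub_eq_zero] at hU
    rw [← hU, smul_add]
    abel
  obtain ⟨e3, e4⟩ := eq_zero_of_add_degen (S := badSet M) dvd_rfl (fun p _ h => h)
    (hne.mono hMd fun r hr h => hbad r hr (h.trans hMd)) hp hpM
    (Submodule.sub_mem _ (Submodule.add_mem _ (Submodule.smul_mem _ _ h0)
      (Submodule.smul_mem _ _ h1)) (Submodule.smul_mem _ _ h0))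
    (Submodule.sub_mem _ (Submodule.neg_mem _ h0) (Submodule.smul_mem _ _ h1)) h3
  have e5 : x₀ = -(α • x₁) := by
    have := sub_eq_zero.1 e4
    rw [← this, neg_neg]
  refine ⟨-x₁, Submodule.neg_mem _ h1, ?_, ?_⟩
  · rw [e, e5, iP_apply, map_neg, smul_neg, sub_neg_eq_add]
  · rw [e5] at e3
    rw [smul_neg, neg_eq_zero, ← e3]
    module

/-! ### Several primes -/

/-- The vector `∏_{q ∈ L} i_q (newSym g ε)`. -/
def sigSym (g : CuspForm (Gamma0 N) 2) (ε : ℤ) : List ℕ → Pairs ℂ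
  | [] => newSym g ε
  | q :: L => iQ ℂ q (sigSym g ε L)

/-- The level `N ∏_{q ∈ L} q²`. -/
def sigLevel (N : ℕ) : List ℕ → ℕ
  | [] => N
  | q :: L => sigLevel N L * q ^ 2

/-- `L` is a list of distinct primes not dividing `N`. -/
def GoodList (N : ℕ) (L : List ℕ) : Prop := L.Nodup ∧ ∀ q ∈ L, q.Prime ∧ ¬ q ∣ N

theorem sigLevel_eq (N : ℕ) (L : List ℕ) : sigLevel N L = N * (L.map (· ^ 2)).prod := by
  induction L with
  | nil => simp [sigLevel]
  | cons q L ih => rw [sigLevel, ih, List.map_cons, List.prod_cons]; ring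

theorem GoodList.tail {N q : ℕ} {L : List ℕ} (h : GoodList N (q :: L)) : GoodList N L :=
  ⟨(List.nodup_cons.1 h.1).2, fun r hr => h.2 r (List.mem_cons_of_mem q hr)⟩

theorem prime_dvd_sigLevel {N : ℕ} {L : List ℕ} (h : GoodList N L) {r : ℕ} (hr : r.Prime) :
    r ∣ sigLevel N L ↔ r ∣ N ∨ r ∈ L := by
  induction L with
  | nil => simp [sigLevel]
  | cons q L ih =>
    rw [sigLevel, hr.dvd_mul, ih h.tail, List.mem_cons]
    have h1 : r ∣ q ^ 2 ↔ r = q := by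
      rw [← Nat.prime_dvd_prime_iff_eq hr (h.2 q List.mem_cons_self).1]
      exact ⟨hr.dvd_of_dvd_pow, fun h => h.trans (dvd_pow_self q two_ne_zero)⟩
    rw [h1]; tauto

theorem GoodList.not_dvd {N q : ℕ} {L : List ℕ} (h : GoodList N (q :: L)) :
    ¬ q ∣ sigLevel N L := by
  rw [prime_dvd_sigLevel h.tail (h.2 q List.mem_cons_self).1, not_or]
  exact ⟨(h.2 q List.mem_cons_self).2, (List.nodup_cons.1 h.1).1⟩

theorem sigLevel_ne_zero {N : ℕ} (hN : N ≠ 0) {L : List ℕ} (h : GoodList N L) :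
    sigLevel N L ≠ 0 := by
  induction L with
  | nil => exact hN
  | cons q L ih =>
    exact mul_ne_zero (ih h.tail) (pow_ne_zero _ (h.2 q List.mem_cons_self).1.ne_zero)

theorem dvd_sigLevel (N : ℕ) (L : List ℕ) : N ∣ sigLevel N L := by
  rw [sigLevel_eq]; exact Nat.dvd_mul_right _ _

theorem sigSym_mem (hg : g.IsNewform) (ε : ℤ) {L : List ℕ} (hL : GoodList N L) :
    sigSym g ε L ∈ eigMS (sigLevel N L) (badSet (sigLevel N L)) (qCoeff ⇑g) := by
  induction L with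
  | nil => exact newSym_mem_eigMS hg ε
  | cons q L ih =>
    have hq := (hL.2 q List.mem_cons_self).1
    have h := ih hL.tail
    refine ⟨iQ_mem hq hL.not_dvd h.1, fun ℓ hℓ hS => ?_⟩
    have h1 : ¬ ℓ ∣ sigLevel N (q :: L) := hS
    rw [prime_dvd_sigLevel hL hℓ, List.mem_cons, not_or, not_or] at h1
    have h2 : ¬ ℓ ∣ sigLevel N L := by
      rw [prime_dvd_sigLevel hL.tail hℓ, not_or]; exact ⟨h1.1, h1.2.2⟩
    rw [sigSym, heckeT_iQ hq hL.not_dvd hℓ h1.2.1 h.1, h.2 ℓ hℓ h2, map_smul]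

theorem slash_jMat_sigSym (hg : g.IsNewform) {ε : ℤ} (hε : ε * ε = 1) {L : List ℕ}
    (hL : GoodList N L) : slash jMat (sigSym g ε L) = (ε : ℂ) • sigSym g ε L := by
  induction L with
  | nil => exact (mem_sgnMS.1 (newSym_mem g hε)).2
  | cons q L ih =>
    rw [sigSym, slash_jMat_iQ (hL.2 q List.mem_cons_self).1.ne_zero (sigSym_mem hg ε hL.tail).1,
      ih hL.tail, map_smul]

theorem heckeU_sigSym (hg : g.IsNewform) (ε : ℤ) {L : List ℕ} (hL : GoodList N L) {q : ℕ}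
    (hq : q ∈ L) : heckeU q (sigSym g ε L) = 0 := by
  induction L with
  | nil => exact absurd hq List.not_mem_nil
  | cons r L ih =>
    have hr := (hL.2 r List.mem_cons_self).1
    have h := sigSym_mem hg ε hL.tail
    by_cases hqr : q = r
    · subst hqr
      exact heckeU_iQ hr hL.not_dvd h.1
    · have hqL : q ∈ L := (List.mem_cons.1 hq).resolve_left hqr
      rw [sigSym, heckeU_iQ_comm hr hL.not_dvd (hL.2 q hq).1 hqr h.1, ih hL.tail hqL, map_zero]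

theorem heckeU_sigSym' (hg : g.IsNewform) (ε : ℤ) {L : List ℕ} (hL : GoodList N L) {r : ℕ}
    (hr : r.Prime) (hrN : r ∣ N) :
    heckeU r (sigSym g ε L) = qCoeff ⇑g r • sigSym g ε L := by
  induction L with
  | nil => exact heckeU_newSym hg ε hr hrN
  | cons q L ih =>
    have hq := (hL.2 q List.mem_cons_self)
    have hne : r ≠ q := fun h => hq.2 (h ▸ hrN)
    rw [sigSym, heckeU_iQ_comm hq.1 hL.not_dvd hr hne (sigSym_mem hg ε hL.tail).1, ih hL.tail,
      map_smul]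

theorem sigSym_ne_zero (hg : g.IsNewform) (ε : ℤ) {L : List ℕ} (hL : GoodList N L)
    (hne : ∀ M : ℕ, M ≠ 0 → NonEis M (badSet M) (qCoeff ⇑g)) : sigSym g ε L ≠ 0 := by
  induction L with
  | nil => exact newSym_ne_zero hg ε
  | cons q L ih =>
    have hq := (hL.2 q List.mem_cons_self).1
    have h0 := sigLevel_ne_zero (NeZero.ne N) hL.tail
    have i1 : NeZero (sigLevel N L) := ⟨h0⟩
    intro h
    refine ih hL.tail (eq_zero_of_iQ hq hL.not_dvd (S := badSet (sigLevel N L * q))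
      (fun _ _ h => h) (hne _ (mul_ne_zero h0 hq.ne_zero)) ?_ h)
    exact eigMS_mono dvd_rfl (fun p _ hp => Dvd.dvd.mul_right hp q) (sigSym_mem hg ε hL.tail)

/-- **PT5**: multiplicity one in level `N ∏ q²`. -/
theorem exists_smul_sigSym (hg : g.IsNewform) {ε : ℤ} {L : List ℕ} (hL : GoodList N L)
    {S : Set ℕ} (hS : S.Finite) (hbad : ∀ p : ℕ, p.Prime → p ∣ sigLevel N L → p ∈ S)
    (hne : NonEis (sigLevel N L) S (qCoeff ⇑g)) {y : Pairs ℂ}
    (hy : y ∈ eigMS (sigLevel N L) S (qCoeff ⇑g)) (hyε : slash jMat y = (ε : ℂ) • y)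
    (hU : ∀ q ∈ L, heckeU q y = 0) : ∃ a : ℂ, y = a • sigSym g ε L := by
  induction L generalizing y S with
  | nil => exact exists_smul_of_mem_sgn hg hS hbad hne hy hyε
  | cons q L ih =>
    have hq := (hL.2 q List.mem_cons_self).1
    have h0 := sigLevel_ne_zero (NeZero.ne N) hL.tail
    have i1 : NeZero (sigLevel N L) := ⟨h0⟩
    have hqM := hL.not_dvd
    have hMd : sigLevel N L ∣ sigLevel N (q :: L) := Nat.dvd_mul_right _ _
    have hMd2 : sigLevel N L * q ∣ sigLevel N (q :: L) :=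
      mul_dvd_mul_left _ (dvd_pow_self q two_ne_zero)
    obtain ⟨x, hx, rfl⟩ := exists_iQ hg hS hbad hne hq hqM (dvd_sigLevel N L) hy
      (hU q List.mem_cons_self)
    have hne2 : NonEis (sigLevel N L * q) (badSet (sigLevel N L * q)) (qCoeff ⇑g) :=
      hne.mono hMd2 fun p hp h => hbad p hp (h.trans hMd2)
    have hx' : x ∈ eigMS (sigLevel N L) (badSet (sigLevel N L * q)) (qCoeff ⇑g) :=
      eigMS_mono dvd_rfl (fun p _ hp => Dvd.dvd.mul_right hp q) hx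
    have hinj : ∀ z ∈ eigMS (sigLevel N L) (badSet (sigLevel N L * q)) (qCoeff ⇑g),
        iQ ℂ q z = 0 → z = 0 := fun z hz h =>
      eq_zero_of_iQ hq hqM (S := badSet (sigLevel N L * q)) (fun _ _ h => h) hne2 hz h
    have hxε : slash jMat x = (ε : ℂ) • x := by
      rw [← sub_eq_zero]
      refine hinj _ (Submodule.sub_mem _ (slash_jMat_mem_eigMS hx') (Submodule.smul_mem _ _ hx')) ?_
      rw [map_sub, map_smul, ← slash_jMat_iQ hq.ne_zero hx.1, hyε, sub_self]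
    have hxU : ∀ r ∈ L, heckeU r x = 0 := by
      intro r hr
      have hrp := (hL.2 r (List.mem_cons_of_mem q hr)).1
      have hrne : r ≠ q := fun h => (List.nodup_cons.1 hL.1).1 (h ▸ hr)
      have hrM : r ∣ sigLevel N L := (prime_dvd_sigLevel hL.tail hrp).2 (Or.inr hr)
      refine hinj _ (heckeU_mem_eigMS hrp hrM (Dvd.dvd.mul_right hrM q) hx') ?_
      rw [← heckeU_iQ_comm hq hqM hrp hrne hx.1, hU r (List.mem_cons_of_mem q hr)]
    obtain ⟨a, ha⟩ := ih hL.tail finite_badSet (fun p _ h => h)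
      (hne.mono hMd fun p hp h => hbad p hp (h.trans hMd)) hx hxε hxU
    exact ⟨a, by rw [ha, map_smul, sigSym]⟩

/-- **PT5**: multiplicity one in level `N ∏ q² · p`. -/
theorem exists_smul_iP_sigSym (hg : g.IsNewform) {ε : ℤ} {L : List ℕ} (hL : GoodList N L)
    {p : ℕ} (hp : p.Prime) (hpM : ¬ p ∣ sigLevel N L) {α : ℂ}
    {S : Set ℕ} (hS : S.Finite) (hbad : ∀ r : ℕ, r.Prime → r ∣ sigLevel N L * p → r ∈ S)
    (hne : NonEis (sigLevel N L * p) S (qCoeff ⇑g)) {y : Pairs ℂ}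
    (hy : y ∈ eigMS (sigLevel N L * p) S (qCoeff ⇑g)) (hyε : slash jMat y = (ε : ℂ) • y)
    (hU : ∀ q ∈ L, heckeU q y = 0) (hUp : heckeU p y = α • y) :
    ∃ a : ℂ, y = a • iP α p (sigSym g ε L) := by
  have h0 := sigLevel_ne_zero (NeZero.ne N) hL
  have i1 : NeZero (sigLevel N L) := ⟨h0⟩
  have hMd : sigLevel N L ∣ sigLevel N L * p := Nat.dvd_mul_right _ _
  obtain ⟨x, hx, rfl, -⟩ := exists_iP hg hS hbad hne hp hpM (dvd_sigLevel N L) hy hUp
  have hne' : NonEis (sigLevel N L) (badSet (sigLevel N L)) (qCoeff ⇑g) :=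
    hne.mono hMd fun p hp h => hbad p hp (h.trans hMd)
  have hinj : ∀ z ∈ eigMS (sigLevel N L) (badSet (sigLevel N L)) (qCoeff ⇑g),
      iP α p z = 0 → z = 0 := fun z hz h => eq_zero_of_iP hp hpM (fun _ _ h => h) hne' hz h
  have hxε : slash jMat x = (ε : ℂ) • x := by
    rw [← sub_eq_zero]
    refine hinj _ (Submodule.sub_mem _ (slash_jMat_mem_eigMS hx) (Submodule.smul_mem _ _ hx)) ?_
    rw [map_sub, map_smul, ← slash_jMat_iP hp.ne_zero, hyε, sub_self]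
  have hxU : ∀ r ∈ L, heckeU r x = 0 := by
    intro r hr
    have hrp := (hL.2 r hr).1
    have hrM : r ∣ sigLevel N L := (prime_dvd_sigLevel hL hrp).2 (Or.inr hr)
    have hrne : r ≠ p := fun h => hpM (h ▸ hrM)
    refine hinj _ (heckeU_mem_eigMS hrp hrM hrM hx) ?_
    rw [← heckeU_iP_comm hp hrp hrne α hx.1, hU r hr]
  obtain ⟨a, ha⟩ := exists_smul_sigSym hg hL finite_badSet (fun p _ h => h) hne' hx hxε hxU
  exact ⟨a, by rw [ha, map_smul]⟩

end newform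

end Fermat.Agent.RT.Point
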