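import Fermat.Agent.RT.TwistHInj

/-!
# Twists by non trivial characters are new (RT-TWIST, 4)

(T7) `eq_zero_of_Tw_old` : `R` a domain of characteristic `0`, `x` on `Γ_H`, `D δ x = χ(δ) x`,
`Q = q Q'`, `χ` non trivial on `ψ(1 + Q'ℤ mod Q)`, `Tw x = z₀ + z₁|diag(q,1)` with `z₀` of level
`Γ₀(N Q'² q)` and `z₁` translation invariant ⟹ `x = 0`.
(T8) `mem_lower` : if `x` is invariant under the part of `Δ` at `q` then `x` is a symbol on
`GammaH (N q) Q' ψ'`.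
-/

set_option autoImplicit false

open Matrix Matrix.SpecialLinearGroup CongruenceSubgroup
open scoped MatrixGroups OnePoint

noncomputable section

namespace Fermat.Agent.RT.TwistH

open Fermat.Agent.LR Fermat.Agent.LR.PS Fermat.Agent.RT ModularCurve.Period

variable {R : Type*} [CommRing R]

/-! ### Matrices with prescribed reduction -/

theorem inv_mul_entries (g g' : SL(2, ℤ)) :
    (g'⁻¹ * g) 0 1 = g' 1 1 * g 0 1 - g' 0 1 * g 1 1 ∧
    (g'⁻¹ * g) 1 0 = g' 0 0 * g 1 0 - g' 1 0 * g 0 0 ∧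
    (g'⁻¹ * g) 1 1 = g' 0 0 * g 1 1 - g' 1 0 * g 0 1 := by
  refine ⟨?_, ?_, ?_⟩
  all_goals
    simp [Matrix.mul_apply, Fin.sum_univ_two, Matrix.SpecialLinearGroup.coe_inv,
        Matrix.adjugate_fin_two]
    ring

theorem mul_entries (g h : SL(2, ℤ)) :
    (g * h) 0 0 = g 0 0 * h 0 0 + g 0 1 * h 1 0 ∧
    (g * h) 0 1 = g 0 0 * h 0 1 + g 0 1 * h 1 1 ∧
    (g * h) 1 0 = g 1 0 * h 0 0 + g 1 1 * h 1 0 ∧
    (g * h) 1 1 = g 1 0 * h 0 1 + g 1 1 * h 1 1 := by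
  refine ⟨?_, ?_, ?_, ?_⟩ <;> simp [Matrix.mul_apply, Fin.sum_univ_two]

theorem exists_lower {M q : ℕ} (hq : q ≠ 0) (hcop : Nat.Coprime M q) (d : (ZMod q)ˣ)
    (c : ZMod q) : ∃ s ∈ Gamma M, ((s 0 0 : ℤ) : ZMod q) = ((d⁻¹ : (ZMod q)ˣ) : ZMod q) ∧
      ((s 0 1 : ℤ) : ZMod q) = 0 ∧ ((s 1 0 : ℤ) : ZMod q) = c ∧ ((s 1 1 : ℤ) : ZMod q) = d := by
  obtain ⟨g, hg1, hg2⟩ := exists_Gamma0_unit hq dvd_rfl d
  have hg3 : ((g 1 0 : ℤ) : ZMod q) = 0 :=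
    (ZMod.intCast_zmod_eq_zero_iff_dvd _ _).mpr (mem_Gamma0_iff.mp hg1)
  have hg4 : ((g 0 0 : ℤ) : ZMod q) = ((d⁻¹ : (ZMod q)ˣ) : ZMod q) := by
    have h1 := congrArg (Int.cast : ℤ → ZMod q) (det_eq' g)
    push_cast at h1
    rw [hg3, hg2, mul_zero, sub_zero] at h1
    rw [← Units.mul_inv_cancel_right ((g 0 0 : ℤ) : ZMod q) d, h1, one_mul]
  obtain ⟨k, hk⟩ := ZMod.intCast_surjective (-((g 0 1 : ℤ) : ZMod q) * (d : ZMod q))
  obtain ⟨c', hc'⟩ := ZMod.intCast_surjective (((d⁻¹ : (ZMod q)ˣ) : ZMod q) * c)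
  obtain ⟨s, hs1, hs2⟩ := exists_Gamma_redN hcop (g * mkSL 1 k 0 1 (by ring) *
    mkSL 1 0 c' 1 (by ring))
  have hdd : ((d⁻¹ : (ZMod q)ˣ) : ZMod q) * d = 1 := Units.inv_mul d
  have e : ∀ i j, ((s i j : ℤ) : ZMod q) = (((g * mkSL 1 k 0 1 (by ring) *
      mkSL 1 0 c' 1 (by ring)) i j : ℤ) : ZMod q) := by
    intro i j
    rw [← redN_apply, ← redN_apply, hs2]
  obtain ⟨a1, a2, a3, a4⟩ := mul_entries g (mkSL 1 k 0 1 (by ring))
  obtain ⟨b1, b2, b3, b4⟩ := mul_entries (g * mkSL 1 k 0 1 (by ring)) (mkSL 1 0 c' 1 (by ring))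
  have f1 : (mkSL 1 k 0 1 (by ring)) 0 0 = 1 := rfl
  have f2 : (mkSL 1 k 0 1 (by ring)) 0 1 = k := rfl
  have f3 : (mkSL 1 k 0 1 (by ring)) 1 0 = 0 := rfl
  have f4 : (mkSL 1 k 0 1 (by ring)) 1 1 = 1 := rfl
  have g1 : (mkSL 1 0 c' 1 (by ring)) 0 0 = 1 := rfl
  have g2 : (mkSL 1 0 c' 1 (by ring)) 0 1 = 0 := rfl
  have g3 : (mkSL 1 0 c' 1 (by ring)) 1 0 = c' := rfl
  have g4 : (mkSL 1 0 c' 1 (by ring)) 1 1 = 1 := rfl
  rw [f1, f3] at a1
  rw [f2, f4] at a2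
  rw [f1, f3] at a3
  rw [f2, f4] at a4
  rw [a1, a2, g1, g3] at b1
  rw [a1, a2, g2, g4] at b2
  rw [a3, a4, g1, g3] at b3
  rw [a3, a4, g2, g4] at b4
  refine ⟨s, hs1, ?_, ?_, ?_, ?_⟩
  · rw [e, b1]; push_cast; rw [hg4, hc', hk]
    linear_combination (-((g 0 1 : ℤ) : ZMod q) * ((d⁻¹ : (ZMod q)ˣ) : ZMod q) * c) * hdd
  · rw [e, b2]; push_cast; rw [hg4, hk]
    linear_combination (-((g 0 1 : ℤ) : ZMod q)) * hdd
  · rw [e, b3]; push_cast; rw [hg3, hc', hg2]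
    linear_combination c * hdd
  · rw [e, b4]; push_cast; rw [hg3, hg2]; ring

/-! ### The projector for the lower triangular group -/

/-- lower triangular elements of `Γ(M)` modulo `q`. -/
def GB (M q : ℕ) : Subgroup SL(2, ℤ) where
  carrier := {γ | γ ∈ Gamma M ∧ (q : ℤ) ∣ γ 0 1}
  one_mem' := ⟨one_mem _, by simp⟩
  mul_mem' := by
    rintro a b ⟨ha, ha'⟩ ⟨hb, hb'⟩
    refine ⟨mul_mem ha hb, ?_⟩
    rw [(mul_entries a b).2.1]
    exact dvd_add (Dvd.dvd.mul_left hb' _) (Dvd.dvd.mul_right ha' _)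
  inv_mem' := by
    rintro a ⟨ha, ha'⟩
    refine ⟨inv_mem ha, ?_⟩
    have h1 := (inv_mul_entries 1 a).1
    rw [mul_one] at h1
    rw [h1]
    simpa using ha'

theorem GB_det {M q : ℕ} {γ : SL(2, ℤ)} (hγ : γ ∈ GB M q) :
    ((γ 0 0 : ℤ) : ZMod q) * ((γ 1 1 : ℤ) : ZMod q) = 1 := by
  have h1 := congrArg (Int.cast : ℤ → ZMod q) (det_eq' γ)
  have h2 : ((γ 0 1 : ℤ) : ZMod q) = 0 := (ZMod.intCast_zmod_eq_zero_iff_dvd _ _).mpr hγ.2
  push_cast at h1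
  rwa [h2, zero_mul, sub_zero] at h1

/-- the lower right entry -/
def dGB (M q : ℕ) : GB M q →* (ZMod q)ˣ where
  toFun γ := ⟨(((γ : SL(2, ℤ)) 1 1 : ℤ) : ZMod q), (((γ : SL(2, ℤ)) 0 0 : ℤ) : ZMod q),
    by rw [mul_comm]; exact GB_det γ.2, GB_det γ.2⟩
  map_one' := by apply Units.ext; simp
  map_mul' a b := by
    apply Units.ext
    have h2 : ((((b : SL(2, ℤ)) 0 1 : ℤ)) : ZMod q) = 0 :=
      (ZMod.intCast_zmod_eq_zero_iff_dvd _ _).mpr b.2.2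
    show (((((a * b : GB M q) : SL(2, ℤ)) 1 1 : ℤ)) : ZMod q) = _
    rw [Subgroup.coe_mul, (mul_entries _ _).2.2.2]
    push_cast
    rw [h2, mul_zero, zero_add]

theorem dGB_val {M q : ℕ} (γ : GB M q) :
    ((dGB M q γ : (ZMod q)ˣ) : ZMod q) = (((γ : SL(2, ℤ)) 1 1 : ℤ) : ZMod q) := rfl

theorem dGB_congr {M q : ℕ} {γ γ' : GB M q} (h : redN q γ = redN q γ') :
    dGB M q γ = dGB M q γ' := by
  apply Units.ext
  rw [dGB_val, dGB_val, ← redN_apply, ← redN_apply, h]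

/-- the finite image of `GB`. -/
abbrev FB (M q : ℕ) : Type := (GB M q).map (redN q)

instance finSL (q0 : ℕ) [NeZero q0] : Finite (SL(2, ZMod q0)) :=
  Finite.of_injective (fun g : SL(2, ZMod q0) => (g : Matrix (Fin 2) (Fin 2) (ZMod q0)))
    Subtype.coe_injective

instance fintypeFB (M q : ℕ) [NeZero q] : Fintype (FB M q) := Fintype.ofFinite _

theorem exists_liftB {M q : ℕ} (b : FB M q) : ∃ γ : GB M q, redN q (γ : SL(2, ℤ)) = b := by
  obtain ⟨γ, h1, h2⟩ := b.2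
  exact ⟨⟨γ, h1⟩, h2⟩

/-- a lift -/
def liftB {M q : ℕ} (b : FB M q) : GB M q := (exists_liftB b).choose

theorem redN_liftB {M q : ℕ} (b : FB M q) : redN q (liftB b : SL(2, ℤ)) = b :=
  (exists_liftB b).choose_spec

/-- invariance under `Γ(M) ∩ Γ(q)`. -/
def KInv (M q : ℕ) (y : Pairs R) : Prop :=
  ∀ γ ∈ Gamma M, redN q γ = 1 → slash (toQ γ) y = y

theorem KInv.congr {M q : ℕ} {y : Pairs R} (hy : KInv M q y) {γ γ' : SL(2, ℤ)}
    (hγ : γ ∈ Gamma M) (hγ' : γ' ∈ Gamma M) (h : redN q γ = redN q γ') :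
    slash (toQ γ) y = slash (toQ γ') y := by
  have h1 := hy (γ * γ'⁻¹) (mul_mem hγ (inv_mem hγ')) (by
    rw [map_mul, map_inv, h, mul_inv_cancel])
  have h2 : γ = (γ * γ'⁻¹) * γ' := by group
  conv_lhs => rw [h2, toQ_mul, slash_mul, h1]

/-- conjugation by `T^j` -/
theorem slash_T_comm (j : ℤ) (s : SL(2, ℤ)) (y : Pairs R) :
    slash (toQ s) (slash (toQ (ModularGroup.T ^ j)) y) =
      slash (toQ (ModularGroup.T ^ j))
        (slash (toQ (ModularGroup.T ^ j * s * (ModularGroup.T ^ j)⁻¹)) y) := by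
  rw [← slash_mul, ← slash_mul, ← toQ_mul, ← toQ_mul]
  congr 3
  group

theorem KInv.T {M q : ℕ} {y : Pairs R} (hy : KInv M q y) (j : ℤ) :
    KInv M q (slash (toQ (ModularGroup.T ^ j)) y) := by
  intro γ hγ hγ1
  rw [slash_T_comm, hy _ ((Gamma_normal M).conj_mem γ hγ (ModularGroup.T ^ j)) (by
    rw [map_mul, map_mul, map_inv, hγ1, mul_one, mul_inv_cancel])]

open Classical in
/-- the projector -/
def PB (M q : ℕ) [NeZero q] (l : (ZMod q)ˣ →* R) : Pairs R →ₗ[R] Pairs R :=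
  ∑ b : FB M q, (l (dGB M q (liftB b))⁻¹ ^ 2) • slash (toQ (liftB b : SL(2, ℤ)))

theorem PB_apply (M q : ℕ) [NeZero q] (l : (ZMod q)ˣ →* R) (y : Pairs R) :
    PB M q l y = ∑ b : FB M q,
      (l (dGB M q (liftB b))⁻¹ ^ 2) • slash (toQ (liftB b : SL(2, ℤ))) y := by
  simp [PB]

theorem PB_slash {M q : ℕ} [NeZero q] {l : (ZMod q)ˣ →* R} {y : Pairs R} (hy : KInv M q y)
    (s : GB M q) : PB M q l (slash (toQ (s : SL(2, ℤ))) y) = (l (dGB M q s) ^ 2) • PB M q l y := by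
  classical
  rw [PB_apply, PB_apply, Finset.smul_sum]
  let sb : FB M q := ⟨redN q (s : SL(2, ℤ)), Subgroup.mem_map_of_mem _ s.2⟩
  rw [← Equiv.sum_comp (Equiv.mulLeft sb) (fun b : FB M q =>
    l (dGB M q s) ^ 2 • (l (dGB M q (liftB b))⁻¹ ^ 2) • slash (toQ (liftB b : SL(2, ℤ))) y)]
  refine Finset.sum_congr rfl fun b _ => ?_
  have h1 : redN q ((s * liftB b : GB M q) : SL(2, ℤ)) =
      redN q (liftB ((Equiv.mulLeft sb) b) : SL(2, ℤ)) := by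
    rw [redN_liftB, Equiv.coe_mulLeft, Subgroup.coe_mul, Subgroup.coe_mul, map_mul, redN_liftB]
  rw [← slash_mul, ← toQ_mul, ← Subgroup.coe_mul,
    hy.congr (s * liftB b).2.1 (liftB ((Equiv.mulLeft sb) b)).2.1 h1, smul_smul]
  congr 1
  rw [← dGB_congr h1, map_mul, mul_inv, map_mul, mul_pow, ← mul_assoc, ← mul_pow, ← map_mul,
    mul_inv_cancel, map_one, one_pow, one_mul]

theorem pairs_smul_eq_zero [IsDomain R] {r : R} (hr : r ≠ 0) {y : Pairs R} (h : r • y = 0) :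
    y = 0 := by
  funext a b
  have h1 := congrFun (congrFun h a) b
  exact (mul_eq_zero.mp h1).resolve_left hr

theorem eq_zero_of_smul_eq [IsDomain R] {r r' : R} (hr : r ≠ r') {y : Pairs R}
    (h : r • y = r' • y) : y = 0 :=
  pairs_smul_eq_zero (sub_ne_zero.mpr hr) (by rw [sub_smul, h, sub_self])

/-- existence of an element of a torus -/
theorem exists_torus {M q : ℕ} [hqF : Fact q.Prime] (hcop : Nat.Coprime M q) (d : (ZMod q)ˣ)
    {j : ℤ} (hj : ¬ (q : ℤ) ∣ j) : ∃ s : GB M q, dGB M q s = d ∧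
      ∃ h : ModularGroup.T ^ j * (s : SL(2, ℤ)) * (ModularGroup.T ^ j)⁻¹ ∈ GB M q,
        dGB M q ⟨_, h⟩ = d⁻¹ := by
  have hj' : (j : ZMod q) ≠ 0 := fun h => hj ((ZMod.intCast_zmod_eq_zero_iff_dvd _ _).mp h)
  have hjj : (j : ZMod q) * (j : ZMod q)⁻¹ = 1 := mul_inv_cancel₀ hj'
  obtain ⟨s, hs, h1, h2, h3, h4⟩ := exists_lower (M := M) hqF.out.ne_zero hcop d
    (((d : ZMod q) - ((d⁻¹ : (ZMod q)ˣ) : ZMod q)) * (j : ZMod q)⁻¹)
  have hsB : s ∈ GB M q := ⟨hs, (ZMod.intCast_zmod_eq_zero_iff_dvd _ _).mp h2⟩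
  have e1 : (ModularGroup.T ^ j * s * (ModularGroup.T ^ j)⁻¹) 0 1 =
      -j * (s 0 0 + j * s 1 0) + (s 0 1 + j * s 1 1) := by
    rw [← _root_.zpow_neg]
    have a1 := (mul_entries (ModularGroup.T ^ j * s) (ModularGroup.T ^ (-j))).2.1
    rw [a1, (mul_entries _ _).1, (mul_entries _ _).2.1]
    simp only [ModularGroup.coe_T_zpow]
    simp
    ring
  have e2 : (ModularGroup.T ^ j * s * (ModularGroup.T ^ j)⁻¹) 1 1 = s 1 1 - j * s 1 0 := by
    rw [← _root_.zpow_neg]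
    have a1 := (mul_entries (ModularGroup.T ^ j * s) (ModularGroup.T ^ (-j))).2.2.2
    rw [a1, (mul_entries _ _).2.2.1, (mul_entries _ _).2.2.2]
    simp only [ModularGroup.coe_T_zpow]
    simp
    ring
  have h5 : ModularGroup.T ^ j * s * (ModularGroup.T ^ j)⁻¹ ∈ GB M q := by
    refine ⟨(Gamma_normal M).conj_mem s hs _, ?_⟩
    rw [← ZMod.intCast_zmod_eq_zero_iff_dvd, e1]
    push_cast
    rw [h1, h2, h3, h4]
    linear_combination (-(j : ZMod q) * ((d : ZMod q) - ((d⁻¹ : (ZMod q)ˣ) : ZMod q))) * hjj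
  refine ⟨⟨s, hsB⟩, Units.ext h4, h5, ?_⟩
  apply Units.ext
  rw [dGB_val]
  show (((ModularGroup.T ^ j * s * (ModularGroup.T ^ j)⁻¹) 1 1 : ℤ) : ZMod q) = _
  rw [e2, Int.cast_sub, Int.cast_mul, h3, h4]
  linear_combination (-((d : ZMod q) - ((d⁻¹ : (ZMod q)ˣ) : ZMod q))) * hjj

section Main

variable {M q : ℕ} [hqF : Fact q.Prime] {l : (ZMod q)ˣ →* R}

theorem PB_T_eq_zero [IsDomain R] (hcop : Nat.Coprime M q) {y : Pairs R} (hy : KInv M q y) (e : ℕ)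
    (hy' : ∀ s : GB M q, slash (toQ (s : SL(2, ℤ))) y = (l (dGB M q s) ^ e) • y)
    {d : (ZMod q)ˣ} (hd : l d ^ (2 + e) ≠ 1) {j : ℤ} (hj : ¬ (q : ℤ) ∣ j) :
    PB M q l (slash (toQ (ModularGroup.T ^ j)) y) = 0 := by
  obtain ⟨s, h1, h2, h3⟩ := exists_torus (M := M) hcop d hj
  have h4 := PB_slash (l := l) (hy.T j) s
  rw [slash_T_comm, hy' ⟨_, h2⟩, h3, h1, map_smul, map_smul] at h4
  refine eq_zero_of_smul_eq (r := 1) (r' := l d ^ (2 + e)) (Ne.symm hd) ?_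
  have h5 : l d * l d⁻¹ = 1 := by rw [← map_mul, mul_inv_cancel, map_one]
  calc (1 : R) • PB M q l (slash (toQ (ModularGroup.T ^ j)) y)
      = (l d ^ e * l d⁻¹ ^ e) • PB M q l (slash (toQ (ModularGroup.T ^ j)) y) := by
        rw [← mul_pow, h5, one_pow]
    _ = l d ^ e • (l d⁻¹ ^ e • PB M q l (slash (toQ (ModularGroup.T ^ j)) y)) := by
        rw [smul_smul]
    _ = _ := by rw [h4, smul_smul, ← pow_add, add_comm]

theorem PB_self {y : Pairs R}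
    (hy' : ∀ s : GB M q, slash (toQ (s : SL(2, ℤ))) y = (l (dGB M q s) ^ 2) • y) :
    ∃ n : ℕ, n ≠ 0 ∧ PB M q l y = n • y := by
  classical
  refine ⟨Fintype.card (FB M q), Fintype.card_ne_zero, ?_⟩
  rw [PB_apply, ← Finset.card_univ, ← Finset.sum_const]
  refine Finset.sum_congr rfl fun b _ => ?_
  rw [hy', smul_smul, ← mul_pow, ← map_mul, inv_mul_cancel, map_one, one_pow, one_smul]

/-- the local statement -/
theorem eq_zero_of_twist_old [IsDomain R] [CharZero R] (hqM : ¬ q ∣ M) (hl : ∃ d, l d ^ 4 ≠ 1) {Y z0 z1 : Pairs R}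
    (hY : ∀ γ ∈ Gamma0 (M * q), (M : ℤ) ∣ γ 1 1 - 1 → ∀ d : (ZMod q)ˣ,
      ((γ 1 1 : ℤ) : ZMod q) = d → slash (toQ γ) Y = (l d ^ 2) • Y)
    (hz0 : ∀ γ ∈ Gamma0 (M * q), slash (toQ γ) z0 = z0) (hz1 : TInv z1)
    (h : ∑ b : (ZMod q)ˣ, l b • ts q ((b : ZMod q).val : ℤ) Y = z0 + degen q z1) : Y = 0 := by
  have hq := hqF.out
  have hq0 : (q : ℤ) ≠ 0 := by exact_mod_cast hq.ne_zero
  have hqQ : (q : ℚ) ≠ 0 := by exact_mod_cast hq.ne_zero
  have hcop : Nat.Coprime M q := ((Nat.Prime.coprime_iff_not_dvd hq).mpr hqM).symm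
  have h1q : (1 : ℤ) * q ≠ 0 := by simpa using hq0
  have hq1 : (q : ℤ) * 1 ≠ 0 := by simpa using hq0
  -- conjugation by diag(1,q)
  have hconj : ∀ (s : GB M q), ∃ γ' ∈ Gamma0 (M * q), (M : ℤ) ∣ γ' 1 1 - 1 ∧
      ((γ' 1 1 : ℤ) : ZMod q) = dGB M q s ∧
      ∀ y : Pairs R, slash (toQ (s : SL(2, ℤ))) (slash (triMat 1 0 q) y) =
        slash (triMat 1 0 q) (slash (toQ γ') y) := by
    intro s
    obtain ⟨b, hb⟩ := s.2.2
    have hsM := Gamma_mem.mp s.2.1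
    have hd := det_eq' (s : SL(2, ℤ))
    have hd' : (s : SL(2, ℤ)) 0 0 * (s : SL(2, ℤ)) 1 1 - b * (q * (s : SL(2, ℤ)) 1 0) = 1 := by
      rw [hb] at hd; linear_combination hd
    refine ⟨mkSL ((s : SL(2, ℤ)) 0 0) b (q * (s : SL(2, ℤ)) 1 0) ((s : SL(2, ℤ)) 1 1) hd',
      ?_, ?_, ?_, ?_⟩
    · rw [mem_Gamma0_iff]
      obtain ⟨c, hc⟩ := (ZMod.intCast_zmod_eq_zero_iff_dvd _ _).mp hsM.2.2.1
      have : (mkSL ((s : SL(2, ℤ)) 0 0) b (q * (s : SL(2, ℤ)) 1 0)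
        ((s : SL(2, ℤ)) 1 1) hd') 1 0 = q * (s : SL(2, ℤ)) 1 0 := rfl
      rw [this, hc]; push_cast; exact ⟨c, by ring⟩
    · show (M : ℤ) ∣ (s : SL(2, ℤ)) 1 1 - 1
      rw [← ZMod.intCast_zmod_eq_zero_iff_dvd]
      push_cast
      rw [hsM.2.2.2, sub_self]
    · rfl
    · intro y
      rw [← slash_mul, ← slash_mul]
      congr 2
      apply Units.ext
      rw [val_mul', val_mul', val_toQ_mkSL, val_toQ, val_triMat _ h1q]
      have hb' : (((s : SL(2, ℤ)) 0 1 : ℤ) : ℚ) = q * b := by exact_mod_cast hb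
      rw [hb']
      ext i j
      fin_cases i <;> fin_cases j <;> simp [Matrix.mul_apply, Fin.sum_univ_two, mul_comm]
  obtain ⟨Y', hY'⟩ : ∃ y : Pairs R, y = slash (triMat 1 0 q) Y := ⟨_, rfl⟩
  obtain ⟨Z0, hZ0⟩ : ∃ y : Pairs R, y = slash (triMat 1 0 q) z0 := ⟨_, rfl⟩
  have hYs : ∀ s : GB M q, slash (toQ (s : SL(2, ℤ))) Y' = (l (dGB M q s) ^ 2) • Y' := by
    intro s
    obtain ⟨γ', a1, a2, a3, a4⟩ := hconj s
    rw [hY', a4, hY γ' a1 a2 _ a3, map_smul]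
  have hZs : ∀ s : GB M q, slash (toQ (s : SL(2, ℤ))) Z0 = (l (dGB M q s) ^ 0) • Z0 := by
    intro s
    obtain ⟨γ', a1, a2, a3, a4⟩ := hconj s
    rw [hZ0, a4, hz0 γ' a1, pow_zero, one_smul]
  have hK : ∀ (y : Pairs R) (e : ℕ),
      (∀ s : GB M q, slash (toQ (s : SL(2, ℤ))) y = (l (dGB M q s) ^ e) • y) → KInv M q y := by
    intro y e hy γ hγ hγ1
    have h01 : ((γ 0 1 : ℤ) : ZMod q) = 0 := by
      rw [← redN_apply, hγ1]; rfl
    have h11 : ((γ 1 1 : ℤ) : ZMod q) = 1 := by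
      rw [← redN_apply, hγ1]; rfl
    have h2 := hy ⟨γ, hγ, (ZMod.intCast_zmod_eq_zero_iff_dvd _ _).mp h01⟩
    have h3 : dGB M q ⟨γ, hγ, (ZMod.intCast_zmod_eq_zero_iff_dvd _ _).mp h01⟩ = 1 :=
      Units.ext h11
    rw [h3, map_one, one_pow, one_smul] at h2
    exact h2
  have hYK := hK Y' 2 hYs
  have hZK := hK Z0 0 hZs
  obtain ⟨d, hd⟩ := hl
  have hd2 : l d ^ 2 ≠ 1 := fun h2 => hd (by
    have : l d ^ 4 = (l d ^ 2) ^ 2 := by ring
    rw [this, h2, one_pow])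
  -- the equation after conjugation
  have heq : ∑ b : (ZMod q)ˣ, l b • slash (toQ (ModularGroup.T ^ (((b : ZMod q).val : ℤ)))) Y' =
      Z0 + z1 := by
    have h1 := congrArg (slash (R := R) (triMat 1 0 q)) h
    rw [map_add, map_sum] at h1
    have h2 : slash (triMat 1 0 q) (degen q z1) = z1 := by
      rw [degen_apply, ← slash_mul]
      refine (slash_congr (c := (q : ℚ)) (h := 1) hqQ ?_ z1).trans (slash_one z1)
      rw [val_mul', val_diagMat hq.ne_zero, val_triMat _ h1q]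
      ext i j
      fin_cases i <;> fin_cases j <;> simp [Matrix.mul_apply, Fin.sum_univ_two]
    rw [h2, ← hZ0] at h1
    rw [← h1]
    refine Finset.sum_congr rfl fun b _ => ?_
    rw [map_smul]
    congr 1
    rw [hY', ts_apply, ← slash_mul, ← slash_mul]
    refine slash_congr (c := (q : ℚ)⁻¹) (inv_ne_zero hqQ) ?_ Y
    rw [val_mul', val_mul', val_toQ_T_zpow, val_triMat _ h1q, val_triMat _ (sq_ne hq.ne_zero)]
    ext i j
    fin_cases i <;> fin_cases j <;> simp [Matrix.mul_apply, Fin.sum_univ_two, hqQ]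
    field_simp
  have heq2 : ∑ b : (ZMod q)ˣ,
      l b • slash (toQ (ModularGroup.T ^ (((b : ZMod q).val : ℤ) + -1))) Y' =
      slash (toQ (ModularGroup.T ^ (-1 : ℤ))) Z0 + z1 := by
    have h1 := congrArg (slash (R := R) (toQ (ModularGroup.T ^ (-1 : ℤ)))) heq
    rw [map_add, map_sum, hz1] at h1
    rw [← h1]
    refine Finset.sum_congr rfl fun b _ => ?_
    rw [map_smul, ← slash_mul, ← toQ_mul, ← _root_.zpow_add]
  -- apply the projector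
  have hP0 : PB M q l Z0 = 0 := by
    obtain ⟨s, hs, -⟩ := exists_torus (M := M) hcop d (j := 1) (by
      intro h1
      have := Int.le_of_dvd one_pos h1
      have := hq.two_le
      omega)
    have h1 := PB_slash (l := l) hZK s
    rw [hZs, pow_zero, hs] at h1
    exact eq_zero_of_smul_eq (r := 1) (Ne.symm hd2) (by rw [← h1, one_smul, one_smul])
  have hP1 : PB M q l (slash (toQ (ModularGroup.T ^ (-1 : ℤ))) Z0) = 0 := by
    refine PB_T_eq_zero hcop hZK 0 hZs (d := d) (by simpa using hd2) ?_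
    intro h1
    have h2 := (Int.dvd_neg.mp h1)
    have := Int.le_of_dvd one_pos h2
    have := hq.two_le
    omega
  have hPj : ∀ j : ℤ, ¬ (q : ℤ) ∣ j →
      PB M q l (slash (toQ (ModularGroup.T ^ j)) Y') = 0 := fun j hj =>
    PB_T_eq_zero hcop hYK 2 hYs (d := d) hd hj
  have hval : ∀ b : (ZMod q)ˣ, ¬ (q : ℤ) ∣ ((b : ZMod q).val : ℤ) := by
    intro b h1
    rw [← ZMod.intCast_zmod_eq_zero_iff_dvd] at h1
    push_cast at h1
    rw [ZMod.natCast_zmod_val] at h1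
    exact b.ne_zero h1
  have hval2 : ∀ b : (ZMod q)ˣ, b ≠ 1 → ¬ (q : ℤ) ∣ ((b : ZMod q).val : ℤ) + -1 := by
    intro b hb h1
    rw [← ZMod.intCast_zmod_eq_zero_iff_dvd] at h1
    push_cast at h1
    rw [ZMod.natCast_zmod_val] at h1
    exact hb (Units.ext (by rw [Units.val_one]; linear_combination h1))
  have e1 := congrArg (PB M q l) heq
  have e2 := congrArg (PB M q l) heq2
  rw [map_sum, map_add, hP0, zero_add] at e1
  rw [map_sum, map_add, hP1, zero_add] at e2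
  have e3 : ∑ b : (ZMod q)ˣ, PB M q l (l b • slash (toQ (ModularGroup.T ^
      (((b : ZMod q).val : ℤ)))) Y') = 0 :=
    Finset.sum_eq_zero fun b _ => by rw [map_smul, hPj _ (hval b), smul_zero]
  have e4 : ∑ b : (ZMod q)ˣ, PB M q l (l b • slash (toQ (ModularGroup.T ^
      (((b : ZMod q).val : ℤ) + -1))) Y') = PB M q l Y' := by
    rw [Finset.sum_eq_single (1 : (ZMod q)ˣ)]
    · have h1 : (((1 : (ZMod q)ˣ) : ZMod q).val : ℤ) + -1 = 0 := by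
        have : Fact (1 < q) := ⟨hq.one_lt⟩
        rw [Units.val_one, ZMod.val_one]; simp
      rw [h1, map_one, one_smul, zpow_zero]
      have : toQ (1 : SL(2, ℤ)) = 1 := map_one _
      rw [this, slash_one]
    · intro b _ hb
      rw [map_smul, hPj _ (hval2 b hb), smul_zero]
    · intro h1; exact absurd (Finset.mem_univ _) h1
  rw [e3] at e1
  rw [e4, ← e1] at e2
  obtain ⟨n, hn, hn'⟩ := PB_self (M := M) (l := l) hYs
  rw [e2] at hn'
  have hY0 : Y' = 0 := (nTor_of_charZero R).pairs n _ hn hn'.symm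
  have hback : slash (triMat q 0 1) Y' = Y := by
    rw [hY', ← slash_mul]
    refine (slash_congr (c := (q : ℚ)) (h := 1) hqQ ?_ Y).trans (slash_one Y)
    rw [val_mul', val_triMat _ h1q, val_triMat _ hq1]
    ext i j
    fin_cases i <;> fin_cases j <;> simp [Matrix.mul_apply, Fin.sum_univ_two]
  rw [← hback, hY0, map_zero]

end Main

/-! ### (T7) -/

section T7

variable {N Q : ℕ} {Δ : Type*} [CommGroup Δ] {ψ : (ZMod Q)ˣ →* Δ}

theorem gOp_eigen {E : ℕ} [NeZero E] {ω : (ZMod E)ˣ →* Δ} {f : Δ → Pairs R} {χ : Δ →* R}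
    (hf : ∀ ε δ, f (ε * δ) = χ ε • f δ) (ε : Δ) : gOp E ω f ε = χ ε • gOp E ω f 1 := by
  rw [gOp, gOp, Finset.smul_sum]
  refine Finset.sum_congr rfl fun a _ => ?_
  rw [hf, map_smul, one_mul]

/-- **(T7)** the twist of a `Δ`-eigensymbol whose character is non trivial at `q` is `q`-new. -/
theorem eq_zero_of_Tw_old (H : TwHyp N Q ψ) [NeZero Q] [IsDomain R] [CharZero R] {q Q' : ℕ}
    (hq : q.Prime) (hQ : Q = q * Q') (hQ' : Q' ∣ Q) {x : Pairs R} (hx : HInv N Q ψ x)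
    (χ : Δ →* R) (hχ : ∀ δ, D N Q ψ δ x = χ δ • x)
    (hne : ∃ u : (ZMod Q)ˣ, ZMod.castHom hQ' (ZMod Q') (u : ZMod Q) = 1 ∧ χ (ψ u) ≠ 1)
    {z0 z1 : Pairs R} (hz0 : ∀ γ ∈ Gamma0 (N * Q' ^ 2 * q), slash (toQ γ) z0 = z0)
    (hz1 : TInv z1) (h : Tw N Q ψ x = z0 + degen q z1) : x = 0 := by
  subst hQ
  have hqF : Fact q.Prime := ⟨hq⟩
  have hQ'0 : NeZero Q' := ⟨by rintro rfl; exact H.hQ (mul_zero _)⟩
  have hcQ : Nat.Coprime q Q' := Nat.coprime_of_squarefree_mul H.sqf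
  have hqQ : q ∣ q * Q' := dvd_mul_right q Q'
  have hqM : ¬ q ∣ N * Q' ^ 2 := by
    intro h1
    have h2 : Nat.Coprime q (N * Q' ^ 2) :=
      Nat.Coprime.mul_right (Nat.Coprime.symm (Nat.Coprime.coprime_dvd_right hqQ H.cop))
        (Nat.Coprime.pow_right 2 hcQ)
    exact hq.one_lt.ne' (Nat.dvd_one.mp (h2 ▸ Nat.dvd_gcd dvd_rfl h1))
  set f : Δ → Pairs R := fun ε => D N (q * Q') ψ ε x with hf
  have hfχ : ∀ ε δ, f (ε * δ) = χ ε • f δ := by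
    intro ε δ
    simp only [hf]
    rw [hχ, hχ, map_mul, smul_smul]
  have hfT : ∀ ε, TInv (f ε) := fun ε => (hx.D ε).tInv
  obtain ⟨κ, hκ⟩ := gOp_mul (ψ := ψ) H.sqf (dvd_refl (q * Q')) hqQ hQ' hfT
  set f' : Δ → Pairs R := gOp Q' (wE H.sqf ψ hQ') f with hf'
  have hf'χ : ∀ ε, f' ε = χ ε • f' 1 := gOp_eigen hfχ
  set l : (ZMod q)ˣ →* R := χ.comp (wE H.sqf ψ hqQ) with hl
  have hunit : ∀ δ : Δ, χ δ⁻¹ * χ δ = 1 := fun δ => by rw [← map_mul, inv_mul_cancel, map_one]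
  -- the equation
  have heq : ∑ b : (ZMod q)ˣ, l b • ts q ((b : ZMod q).val : ℤ) (f' 1) =
      χ κ⁻¹ • z0 + degen q (χ κ⁻¹ • z1) := by
    have h1 : Tw N (q * Q') ψ x = gOp q (wE H.sqf ψ hqQ) f' κ := by
      have h2 := Tw_eq_gOp H hx 1
      rw [hx.D_one H] at h2
      rw [h2, hκ 1, one_mul]
    rw [map_smul, ← smul_add, ← h, h1, gOp, Finset.smul_sum]
    refine Finset.sum_congr rfl fun b _ => ?_
    rw [hf'χ (κ * _), map_smul, smul_smul, map_mul, ← mul_assoc, hunit, one_mul]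
    rfl
  have hY1 : f' 1 = 0 := by
    refine eq_zero_of_twist_old hqM ?_ ?_ (z0 := χ κ⁻¹ • z0) (z1 := χ κ⁻¹ • z1) ?_ ?_ heq
    · -- nontriviality
      obtain ⟨u, hu1, hu2⟩ := hne
      set a : (ZMod q)ˣ := Units.map (ZMod.castHom hqQ (ZMod q)).toMonoidHom u with ha
      have hua : u = iota H.sqf hqQ a := by
        apply Units.ext
        refine zmod_ext rfl hcQ hqQ hQ' ?_ ?_
        · rw [iota_left]; rfl
        · rw [iota_right H.sqf hqQ a hQ' hcQ, hu1]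
      refine ⟨a, fun h4 => hu2 ?_⟩
      have e1 : χ (ψ u) = l a ^ 2 := by
        rw [← wch_mul_self H u, hua, map_mul, pow_two]; rfl
      have e2 : l a ^ Nat.card Δ = 1 := by
        rw [hl, MonoidHom.comp_apply, ← map_pow, pow_card_eq_one', map_one]
      have e3 : l a = 1 := by
        obtain ⟨k, hk⟩ := H.odd
        rw [hk] at e2
        -- a ^ (2k+1) = 1, a ^ 4 = 1
        rcases Nat.even_or_odd k with ⟨m, hm⟩ | ⟨m, hm⟩
        · have : 2 * k + 1 = 4 * m + 1 := by omega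
          rw [this, pow_add, pow_mul, h4, one_pow, one_mul, pow_one] at e2
          exact e2
        · have : 2 * k + 1 = 4 * m + 3 := by omega
          rw [this, pow_add, pow_mul, h4, one_pow, one_mul] at e2
          calc l a = l a * (l a ^ 3) := by rw [e2, mul_one]
            _ = l a ^ 4 := by ring
            _ = 1 := h4
      rw [e1, e3, one_pow]
    · intro γ hγ h1 d hd
      have hZ : ZE N (q * Q') ψ Q' f' := (ZE_one H hx).gOp hQ'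
      have hγ' : γ ∈ Gamma0 (N * (q * Q') * Q') := by
        have : N * (q * Q') * Q' = N * Q' ^ 2 * q := by ring
        rw [this]; exact hγ
      have h2 : (Q' : ℤ) ∣ γ 1 1 - 1 :=
        (Int.natCast_dvd_natCast.mpr (by exact ⟨N * Q', by ring⟩)).trans h1
      have h3 : ((γ 1 1 : ℤ) : ZMod (q * Q')) = iota H.sqf hqQ d := by
        refine zmod_ext rfl hcQ hqQ hQ' ?_ ?_
        · rw [iota_left, map_intCast, hd]
        · rw [iota_right H.sqf hqQ d hQ' hcQ, map_intCast]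
          have h4 := (ZMod.intCast_zmod_eq_zero_iff_dvd _ _).mpr h2
          push_cast at h4
          exact sub_eq_zero.mp h4
      rw [hZ γ hγ' h2 _ h3, one_mul, hf'χ, ← wch_mul_self H, map_mul, pow_two]
      rfl
    · intro γ hγ
      rw [map_smul, hz0 γ hγ]
    · intro k
      rw [map_smul, hz1 k]
  have hf'0 : f' = 0 := by
    funext ε
    rw [hf'χ, hY1, smul_zero]; rfl
  have hf0 := eq_zero_of_gOp_all H (nTor_of_charZero R) hfT (ZE_one H hx) Q' hQ' hf'0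
  have h3 := congrFun hf0 1
  rw [← hx.D_one H]
  exact h3

end T7

/-! ### (T8) -/

section T8

variable {N q Q' : ℕ} {Δ Δ' : Type*} [CommGroup Δ] [CommGroup Δ'] {ψ : (ZMod (q * Q'))ˣ →* Δ}
  {ψ' : (ZMod Q')ˣ →* Δ'}

theorem dQ_assoc {γ : SL(2, ℤ)} (hγ : γ ∈ Gamma0 (N * (q * Q'))) (hγ' : γ ∈ Gamma0 (N * q * Q')) :
    ZMod.unitsMap (dvd_mul_left Q' q) (dQ N (q * Q') ⟨γ, hγ⟩) = dQ (N * q) Q' ⟨γ, hγ'⟩ := by
  apply Units.ext
  rw [ZMod.unitsMap_val, dQ_val, dQ_val]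
  simp

/-- **(T8)** -/
theorem mem_lower (H : TwHyp N (q * Q') ψ) {x : Pairs R}
    (hx : x ∈ MS (GammaH N (q * Q') ψ) R)
    (h : ∀ u : (ZMod (q * Q'))ˣ, ψ' (ZMod.unitsMap (dvd_mul_left Q' q) u) = 1 →
      D N (q * Q') ψ (ψ u) x = x) : x ∈ MS (GammaH (N * q) Q' ψ') R := by
  refine mem_MS_GammaH.mpr ⟨hx.1, fun γ hγ => ?_⟩
  have hγ' : (γ : SL(2, ℤ)) ∈ Gamma0 (N * (q * Q')) := by rw [← mul_assoc]; exact γ.2
  rw [(hInv_of_mem hx).slash_eq H ⟨γ, hγ'⟩, dia_eq]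
  refine h _ ?_
  rw [dQ_assoc hγ' γ.2]
  exact hγ

/-- comparison of the diamond operators of the two levels. -/
theorem D_lower (H : TwHyp N (q * Q') ψ) (H' : TwHyp (N * q) Q' ψ') {x : Pairs R}
    (hx : HInv N (q * Q') ψ x) (hx' : HInv (N * q) Q' ψ' x) (u : (ZMod (q * Q'))ˣ) :
    D N (q * Q') ψ (ψ u) x = D (N * q) Q' ψ' (ψ' (ZMod.unitsMap (dvd_mul_left Q' q) u)) x := by
  obtain ⟨γ, hγ⟩ := exists_dQ H u
  have hγ' : (γ : SL(2, ℤ)) ∈ Gamma0 (N * q * Q') := by rw [mul_assoc]; exact γ.2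
  have h1 := hx.slash_eq H γ
  have h2 := hx'.slash_eq H' ⟨γ, hγ'⟩
  rw [dia_eq, hγ] at h1
  rw [dia_eq, ← dQ_assoc γ.2 hγ', hγ] at h2
  rw [← h1, ← h2]

theorem wN_lower (H : TwHyp N (q * Q') ψ) (H' : TwHyp (N * q) Q' ψ')
    (hcard : Nat.card Δ' ∣ Nat.card Δ) {x : Pairs R}
    (hx : HInv N (q * Q') ψ x) (hx' : HInv (N * q) Q' ψ' x) {ℓ : ℕ} (hℓ : ℓ.Coprime (q * Q')) :
    D N (q * Q') ψ (wN ψ ℓ) x = D (N * q) Q' ψ' (wN ψ' ℓ) x ∧
    D N (q * Q') ψ (wN ψ ℓ)⁻¹ x = D (N * q) Q' ψ' (wN ψ' ℓ)⁻¹ x := by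
  have hℓ' : ℓ.Coprime Q' := Nat.Coprime.coprime_mul_left_right hℓ
  have e1 : ZMod.unitsMap (dvd_mul_left Q' q) (ZMod.unitOfCoprime ℓ hℓ) =
      ZMod.unitOfCoprime ℓ hℓ' := by
    apply Units.ext
    rw [ZMod.unitsMap_val, ZMod.coe_unitOfCoprime, ZMod.coe_unitOfCoprime]
    simp
  have e2 : ψ' (ZMod.unitOfCoprime ℓ hℓ' ^ ((Nat.card Δ + 1) / 2)) = wN ψ' ℓ := by
    rw [wN_of_coprime hℓ', wch_apply, map_pow]
    set t := ψ' (ZMod.unitOfCoprime ℓ hℓ') with ht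
    obtain ⟨m, hm⟩ := hcard
    obtain ⟨k, hk⟩ := H'.odd
    have hm' : Odd m := Nat.odd_mul.mp (hm ▸ H.odd) |>.2
    obtain ⟨n, hn⟩ := hm'
    have h3 : (Nat.card Δ + 1) / 2 = Nat.card Δ' * n + (Nat.card Δ' + 1) / 2 := by
      rw [hm, hk, hn]
      have : (2 * k + 1) * (2 * n + 1) + 1 = 2 * ((2 * k + 1) * n + (k + 1)) := by ring
      rw [this]; omega
    rw [h3, pow_add, pow_mul, pow_card_eq_one', one_pow, one_mul]
  have e3 : ψ (ZMod.unitOfCoprime ℓ hℓ ^ ((Nat.card Δ + 1) / 2)) = wN ψ ℓ := by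
    rw [wN_of_coprime hℓ, wch_eq]
  refine ⟨?_, ?_⟩
  · rw [← e3, D_lower H H' hx hx', map_pow, e1, e2]
  · rw [← e3, ← map_inv, D_lower H H' hx hx', map_inv, map_pow, e1, map_inv, e2]

/-- the twisted Hecke operators of the two levels agree. -/
theorem TH_lower (H : TwHyp N (q * Q') ψ) (H' : TwHyp (N * q) Q' ψ')
    (hcard : Nat.card Δ' ∣ Nat.card Δ) {x : Pairs R}
    (hx : HInv N (q * Q') ψ x) (hx' : HInv (N * q) Q' ψ' x) {ℓ : ℕ} (hℓ : ℓ.Coprime (q * Q')) :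
    TH N (q * Q') ψ ℓ x = TH (N * q) Q' ψ' ℓ x := by
  obtain ⟨h1, h2⟩ := wN_lower H H' hcard hx hx' hℓ
  rw [TH_apply, TH_apply, h1, h2]

end T8

end Fermat.Agent.RT.TwistH
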