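import Mathlib
import Fermat.Agent.PseudoRep

/-!
# Two-dimensional pseudo-representations over commutative rings with a unit off-diagonal product

This is the ring version of the explicit matrices of `Fermat.Agent.PseudoRep`: over any commutative
ring in which `2` is invertible, a pseudo-representation with an involution `c`, `D c = -1`, and
some invertible `x(g₀, h₀)` is the trace of a genuine matrix representation.
-/

set_option autoImplicit false

namespace Fermat.Agent.RT.PseudoRepRing

open MonoidAlgebra Polynomial Fermat.Agent.PseudoRep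

section Idem

variable {G : Type*} [Group G] {K : Type*} [CommRing K] {i2 : K} (h2 : 2 * i2 = 1) (T : G → K) (D : G →* K)
  (c : G)

/-- The idempotent `(1 + c)/2` of the group algebra. -/
noncomputable def eIdem {K : Type*} [CommRing K] (i2 : K) (c : G) : MonoidAlgebra K G :=
  i2 • (1 + MonoidAlgebra.of K G c)

noncomputable def fIdem {K : Type*} [CommRing K] (i2 : K) (c : G) : MonoidAlgebra K G :=
  i2 • (1 - MonoidAlgebra.of K G c)

noncomputable def aEnt (i2 : K) (T : G → K) (c : G) (g : G) : K := lin T (eIdem i2 c * MonoidAlgebra.of K G g)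
noncomputable def dEnt (i2 : K) (T : G → K) (c : G) (g : G) : K := lin T (fIdem i2 c * MonoidAlgebra.of K G g)
noncomputable def xEnt (i2 : K) (T : G → K) (c : G) (g h : G) : K :=
  lin T (eIdem i2 c * MonoidAlgebra.of K G g * fIdem i2 c * MonoidAlgebra.of K G h)

theorem aEnt_eq (g : G) : aEnt i2 T c g = i2 * (T g + T (c * g)) := by
  simp only [aEnt, eIdem, smul_mul_assoc, add_mul, one_mul, ← map_mul, map_smul, map_add, lin_of,
    smul_eq_mul]

theorem dEnt_eq (g : G) : dEnt i2 T c g = i2 * (T g - T (c * g)) := by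
  simp only [dEnt, fIdem, smul_mul_assoc, sub_mul, one_mul, ← map_mul, map_smul, map_sub, lin_of,
    smul_eq_mul]

variable {T D c}

include h2 in
theorem eIdem_add_fIdem : eIdem i2 c + fIdem i2 c = 1 := by
  rw [eIdem, fIdem, ← smul_add]
  have : (1 + MonoidAlgebra.of K G c + (1 - MonoidAlgebra.of K G c)) = (2 : K) • 1 := by
    rw [two_smul]; abel
  rw [this, smul_smul, mul_comm, h2, one_smul]

variable (hc : c * c = 1)

include h2 hc in
theorem eIdem_mul_self : eIdem i2 c * eIdem i2 c = eIdem i2 c := by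
  have h : MonoidAlgebra.of K G c * MonoidAlgebra.of K G c = 1 := by rw [← map_mul, hc, map_one]
  rw [eIdem, smul_mul_smul_comm]
  have : (1 + MonoidAlgebra.of K G c) * (1 + MonoidAlgebra.of K G c)
      = (2 : K) • (1 + MonoidAlgebra.of K G c) := by
    rw [mul_add, add_mul, add_mul, h, one_mul, one_mul, mul_one, two_smul]; abel
  rw [this, smul_smul]
  congr 1
  linear_combination i2 * h2

include h2 hc in
theorem fIdem_mul_self : fIdem i2 c * fIdem i2 c = fIdem i2 c := by
  have h : MonoidAlgebra.of K G c * MonoidAlgebra.of K G c = 1 := by rw [← map_mul, hc, map_one]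
  rw [fIdem, smul_mul_smul_comm]
  have : (1 - MonoidAlgebra.of K G c) * (1 - MonoidAlgebra.of K G c)
      = (2 : K) • (1 - MonoidAlgebra.of K G c) := by
    rw [mul_sub, sub_mul, sub_mul, h, one_mul, one_mul, mul_one, two_smul]; abel
  rw [this, smul_smul]
  congr 1
  linear_combination i2 * h2

include hc in
theorem eIdem_mul_fIdem : eIdem i2 c * fIdem i2 c = 0 := by
  have h : MonoidAlgebra.of K G c * MonoidAlgebra.of K G c = 1 := by rw [← map_mul, hc, map_one]
  rw [eIdem, fIdem, smul_mul_smul_comm]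
  have : (1 + MonoidAlgebra.of K G c) * (1 - MonoidAlgebra.of K G c) = 0 := by
    rw [mul_sub, add_mul, add_mul, h, one_mul, one_mul, mul_one]; abel
  rw [this, smul_zero]

include hc in
theorem fIdem_mul_eIdem : fIdem i2 c * eIdem i2 c = 0 := by
  have h : MonoidAlgebra.of K G c * MonoidAlgebra.of K G c = 1 := by rw [← map_mul, hc, map_one]
  rw [eIdem, fIdem, smul_mul_smul_comm]
  have : (1 - MonoidAlgebra.of K G c) * (1 + MonoidAlgebra.of K G c) = 0 := by
    rw [mul_add, sub_mul, sub_mul, h, one_mul, one_mul, mul_one]; abel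
  rw [this, smul_zero]

variable (H : IsPseudoRep T D) (hDc : D c = -1)

include h2 hc H hDc in
theorem T_c_eq_zero : T c = 0 := by
  have h := H.mul 1 c
  have hc' : c⁻¹ = c := inv_eq_of_mul_eq_one_left hc
  rw [hc', one_mul, hDc, H.map_one] at h
  linear_combination -i2 * h - T c * h2

include h2 hc H hDc in
theorem lin_eIdem : lin T (eIdem i2 c) = 1 := by
  rw [eIdem, map_smul, map_add, lin_one H, lin_of, T_c_eq_zero h2 hc H hDc, add_zero, smul_eq_mul,
    mul_comm, h2]

include h2 hc H hDc in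
theorem lin_fIdem : lin T (fIdem i2 c) = 1 := by
  rw [fIdem, map_smul, map_sub, lin_one H, lin_of, T_c_eq_zero h2 hc H hDc, sub_zero, smul_eq_mul,
    mul_comm, h2]

include h2 hc H hDc in
theorem corner_e (x y : MonoidAlgebra K G) :
    lin T (eIdem i2 c * x * eIdem i2 c * y) = lin T (eIdem i2 c * x) * lin T (eIdem i2 c * y) :=
  lin_corner H (eIdem_mul_self h2 hc) (lin_eIdem h2 hc H hDc) x y

include h2 hc H hDc in
theorem corner_f (x y : MonoidAlgebra K G) :
    lin T (fIdem i2 c * x * fIdem i2 c * y) = lin T (fIdem i2 c * x) * lin T (fIdem i2 c * y) :=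
  lin_corner H (fIdem_mul_self h2 hc) (lin_fIdem h2 hc H hDc) x y

theorem mul_one_insert {e f : MonoidAlgebra K G} (hef : e + f = 1) (x y : MonoidAlgebra K G) :
    x * y = x * e * y + x * f * y := by
  rw [← add_mul, ← mul_add, hef, mul_one]

include h2 hc H hDc in
theorem aEnt_mul (g h : G) : aEnt i2 T c (g * h) = aEnt i2 T c g * aEnt i2 T c h + xEnt i2 T c g h := by
  rw [aEnt, map_mul (MonoidAlgebra.of K G), ← mul_assoc, mul_one_insert (eIdem_add_fIdem h2 (c := c)), map_add,
    corner_e h2 hc H hDc]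
  rfl

include h2 hc H hDc in
theorem dEnt_mul (g h : G) : dEnt i2 T c (g * h) = dEnt i2 T c g * dEnt i2 T c h + xEnt i2 T c h g := by
  rw [dEnt, map_mul (MonoidAlgebra.of K G), ← mul_assoc, mul_one_insert (eIdem_add_fIdem h2 (c := c)), map_add,
    corner_f h2 hc H hDc, add_comm]
  congr 1
  rw [xEnt, mul_assoc, lin_comm H, ← mul_assoc]

include h2 hc H hDc in
theorem xEnt_mul_left (g h s : G) :
    xEnt i2 T c (g * h) s = aEnt i2 T c g * xEnt i2 T c h s + xEnt i2 T c g s * dEnt i2 T c h := by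
  have key : eIdem i2 c * MonoidAlgebra.of K G (g * h) * fIdem i2 c * MonoidAlgebra.of K G s =
      eIdem i2 c * MonoidAlgebra.of K G g * eIdem i2 c *
        (MonoidAlgebra.of K G h * fIdem i2 c * MonoidAlgebra.of K G s) +
      eIdem i2 c * MonoidAlgebra.of K G g * (fIdem i2 c * MonoidAlgebra.of K G h * fIdem i2 c *
        MonoidAlgebra.of K G s) := by
    rw [map_mul]
    have := mul_one_insert (eIdem_add_fIdem h2 (c := c)) (eIdem i2 c * MonoidAlgebra.of K G g)
      (MonoidAlgebra.of K G h * fIdem i2 c * MonoidAlgebra.of K G s)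
    simp only [mul_assoc] at this ⊢
    exact this
  rw [xEnt, key, map_add, corner_e h2 hc H hDc]
  congr 1
  · simp only [aEnt, xEnt, mul_assoc]
  · rw [lin_comm H]
    have e1 : fIdem i2 c * MonoidAlgebra.of K G h * fIdem i2 c * MonoidAlgebra.of K G s *
        (eIdem i2 c * MonoidAlgebra.of K G g) =
        fIdem i2 c * MonoidAlgebra.of K G h * fIdem i2 c * (MonoidAlgebra.of K G s *
        (eIdem i2 c * MonoidAlgebra.of K G g)) := by simp only [mul_assoc]
    rw [e1, corner_f h2 hc H hDc, mul_comm]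
    congr 1
    rw [xEnt, ← mul_assoc, lin_comm H]
    simp only [mul_assoc]

include h2 hc H hDc in
theorem xEnt_mul_right (s g h : G) :
    xEnt i2 T c s (g * h) = xEnt i2 T c s g * aEnt i2 T c h + dEnt i2 T c g * xEnt i2 T c s h := by
  have key : eIdem i2 c * MonoidAlgebra.of K G s * fIdem i2 c * MonoidAlgebra.of K G (g * h) =
      eIdem i2 c * (MonoidAlgebra.of K G s * fIdem i2 c * MonoidAlgebra.of K G g) * eIdem i2 c *
        MonoidAlgebra.of K G h +
      eIdem i2 c * MonoidAlgebra.of K G s * (fIdem i2 c * MonoidAlgebra.of K G g * fIdem i2 c *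
        MonoidAlgebra.of K G h) := by
    rw [map_mul]
    have := mul_one_insert (eIdem_add_fIdem h2 (c := c)) (eIdem i2 c * MonoidAlgebra.of K G s *
      fIdem i2 c * MonoidAlgebra.of K G g) (MonoidAlgebra.of K G h)
    simp only [mul_assoc] at this ⊢
    exact this
  rw [xEnt, key, map_add, corner_e h2 hc H hDc]
  congr 1
  · simp only [aEnt, xEnt, mul_assoc]
  · rw [lin_comm H]
    have e1 : fIdem i2 c * MonoidAlgebra.of K G g * fIdem i2 c * MonoidAlgebra.of K G h *
        (eIdem i2 c * MonoidAlgebra.of K G s) =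
        fIdem i2 c * MonoidAlgebra.of K G g * fIdem i2 c * (MonoidAlgebra.of K G h *
        (eIdem i2 c * MonoidAlgebra.of K G s)) := by simp only [mul_assoc]
    rw [e1, corner_f h2 hc H hDc]
    congr 1
    rw [xEnt, ← mul_assoc, lin_comm H]
    simp only [mul_assoc]

include h2 hc H hDc in
theorem xEnt_swap (g h r s : G) :
    xEnt i2 T c g h * xEnt i2 T c r s = xEnt i2 T c g s * xEnt i2 T c r h := by
  have e1 : xEnt i2 T c g h * xEnt i2 T c r s = lin T (eIdem i2 c * (MonoidAlgebra.of K G g * fIdem i2 c *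
      MonoidAlgebra.of K G h) * eIdem i2 c *
      (MonoidAlgebra.of K G r * fIdem i2 c * MonoidAlgebra.of K G s)) := by
    rw [corner_e h2 hc H hDc]
    simp only [xEnt, mul_assoc]
  have e2 : lin T (eIdem i2 c * (MonoidAlgebra.of K G g * fIdem i2 c *
      MonoidAlgebra.of K G h) * eIdem i2 c *
      (MonoidAlgebra.of K G r * fIdem i2 c * MonoidAlgebra.of K G s)) =
      lin T (fIdem i2 c * (MonoidAlgebra.of K G h * eIdem i2 c * MonoidAlgebra.of K G r) *
        fIdem i2 c * (MonoidAlgebra.of K G s * eIdem i2 c * MonoidAlgebra.of K G g)) := by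
    have := lin_comm H (eIdem i2 c * MonoidAlgebra.of K G g) (fIdem i2 c *
      MonoidAlgebra.of K G h * eIdem i2 c *
      (MonoidAlgebra.of K G r * fIdem i2 c * MonoidAlgebra.of K G s))
    simp only [mul_assoc] at this ⊢
    exact this
  have e3 : lin T (fIdem i2 c * (MonoidAlgebra.of K G h * eIdem i2 c * MonoidAlgebra.of K G r)) =
      xEnt i2 T c r h := by
    rw [xEnt, ← mul_assoc, ← mul_assoc, mul_assoc, lin_comm H]
    simp only [mul_assoc]
  have e4 : lin T (fIdem i2 c * (MonoidAlgebra.of K G s * eIdem i2 c * MonoidAlgebra.of K G g)) =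
      xEnt i2 T c g s := by
    rw [xEnt, ← mul_assoc, ← mul_assoc, mul_assoc, lin_comm H]
    simp only [mul_assoc]
  rw [e1, e2, corner_f h2 hc H hDc, e3, e4, mul_comm]

include h2 hc H hDc in
theorem aEnt_one : aEnt i2 T c 1 = 1 := by
  rw [aEnt, map_one, mul_one, lin_eIdem h2 hc H hDc]

include h2 hc H hDc in
theorem dEnt_one : dEnt i2 T c 1 = 1 := by
  rw [dEnt, map_one, mul_one, lin_fIdem h2 hc H hDc]

include hc in
theorem xEnt_one_left (h : G) : xEnt i2 T c 1 h = 0 := by
  rw [xEnt, map_one, mul_one, eIdem_mul_fIdem hc, zero_mul, map_zero]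

include hc H in
theorem xEnt_one_right (g : G) : xEnt i2 T c g 1 = 0 := by
  rw [xEnt, map_one, mul_one, lin_comm H, ← mul_assoc, fIdem_mul_eIdem hc, zero_mul, map_zero]

include h2 in
theorem aEnt_add_dEnt (g : G) : aEnt i2 T c g + dEnt i2 T c g = T g := by
  rw [aEnt, dEnt, ← map_add, ← add_mul, eIdem_add_fIdem h2, one_mul, lin_of]

include h2 hc H hDc in
theorem det_ent (g : G) : aEnt i2 T c g * dEnt i2 T c g - xEnt i2 T c g g = D g := by
  have h := H.mul g g
  rw [mul_inv_cancel, H.map_one, ← aEnt_add_dEnt h2 (T := T) (c := c) (g * g),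
    ← aEnt_add_dEnt h2 (T := T) (c := c) g, aEnt_mul h2 hc H hDc, dEnt_mul h2 hc H hDc] at h
  have e : 2 * (aEnt i2 T c g * dEnt i2 T c g - xEnt i2 T c g g) = 2 * D g := by
    linear_combination -h
  linear_combination i2 * e + (D g - (aEnt i2 T c g * dEnt i2 T c g - xEnt i2 T c g g)) * h2

end Idem

section MatrixRep

variable {G : Type*} [Group G] {K : Type*} [CommRing K]

/-- Explicit matrices attached to a two dimensional pseudo-representation with a
complex conjugation `c` and an invertible `x(g₀, h₀)`. -/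
noncomputable def matRep {i2 : K} (h2 : 2 * i2 = 1) {T : G → K} {D : G →* K} {c : G}
    (hc : c * c = 1) (H : IsPseudoRep T D) (hDc : D c = -1) (g₀ h₀ : G) (u : K)
    (hu : u * xEnt i2 T c g₀ h₀ = 1) : G →* Matrix (Fin 2) (Fin 2) K where
  toFun g := !![aEnt i2 T c g, u * xEnt i2 T c g h₀; xEnt i2 T c g₀ g, dEnt i2 T c g]
  map_one' := by
    rw [aEnt_one h2 hc H hDc, dEnt_one h2 hc H hDc, xEnt_one_left hc, xEnt_one_right hc H,
        mul_zero, Matrix.one_fin_two]
  map_mul' g h := by
    rw [Matrix.mul_fin_two]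
    have e1 := aEnt_mul h2 hc H hDc g h
    have e2 := dEnt_mul h2 hc H hDc g h
    have e3 := xEnt_mul_left h2 hc H hDc g h h₀
    have e4 := xEnt_mul_right h2 hc H hDc g₀ g h
    have s1 := xEnt_swap h2 hc H hDc g h g₀ h₀
    have s2 := xEnt_swap h2 hc H hDc h g g₀ h₀
    congr 1
    ext i j
    fin_cases i <;> fin_cases j
    · simp only [Matrix.cons_val', Matrix.cons_val_zero, Fin.zero_eta,
        Matrix.cons_val_fin_one]
      rw [e1]
      linear_combination u * s1 - xEnt i2 T c g h * hu
    · simp only [Matrix.cons_val', Matrix.cons_val_zero, Fin.zero_eta,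
        Matrix.cons_val_fin_one, Fin.mk_one, Matrix.cons_val_one]
      rw [e3]
      ring
    · simp only [Matrix.cons_val', Matrix.cons_val_zero, Fin.zero_eta,
        Matrix.cons_val_fin_one, Fin.mk_one, Matrix.cons_val_one]
      rw [e4]
    · simp only [Matrix.cons_val',
        Matrix.cons_val_fin_one, Fin.mk_one, Matrix.cons_val_one]
      rw [e2]
      linear_combination u * s2 - xEnt i2 T c h g * hu

variable {i2 : K} (h2 : 2 * i2 = 1) {T : G → K} {D : G →* K} {c : G}
    (hc : c * c = 1) (H : IsPseudoRep T D) (hDc : D c = -1) (g₀ h₀ : G) (u : K)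
    (hu : u * xEnt i2 T c g₀ h₀ = 1)

theorem matRep_apply (g : G) : matRep h2 hc H hDc g₀ h₀ u hu g =
    !![aEnt i2 T c g, u * xEnt i2 T c g h₀; xEnt i2 T c g₀ g, dEnt i2 T c g] := rfl

theorem trace_matRep (g : G) : (matRep h2 hc H hDc g₀ h₀ u hu g).trace = T g := by
  rw [matRep_apply, Matrix.trace_fin_two_of]
  exact aEnt_add_dEnt h2 g

theorem det_matRep (g : G) : (matRep h2 hc H hDc g₀ h₀ u hu g).det = D g := by
  rw [matRep_apply, Matrix.det_fin_two_of]
  have s1 := xEnt_swap h2 hc H hDc g g g₀ h₀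
  rw [← det_ent h2 hc H hDc]
  linear_combination u * s1 - xEnt i2 T c g g * hu

include h2 hc H hDc in
theorem xEnt_eq (g h : G) : xEnt i2 T c g h =
    aEnt i2 T c (g * h) - aEnt i2 T c g * aEnt i2 T c h := by
  rw [aEnt_mul h2 hc H hDc]; ring

include h2 hc H hDc in
/-- Entries of `matRep` are controlled by the pseudo-character. -/
theorem matRep_sub_one_mem (I : Ideal K) (g : G) (hg : ∀ h, T (g * h) - T h ∈ I) :
    ∀ i j, (matRep h2 hc H hDc g₀ h₀ u hu g - 1) i j ∈ I := by
  have hgc : ∀ h, T (h * g) - T h ∈ I := fun h => by rw [H.comm h g]; exact hg h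
  have ha : ∀ h, aEnt i2 T c (g * h) - aEnt i2 T c h ∈ I := by
    intro h
    have e : aEnt i2 T c (g * h) - aEnt i2 T c h =
        i2 * ((T (g * h) - T h) + (T (g * (h * c)) - T (h * c))) := by
      rw [aEnt_eq, aEnt_eq]
      have e1 : T (c * (g * h)) = T (g * (h * c)) := by rw [H.comm, mul_assoc]
      have e2 : T (c * h) = T (h * c) := H.comm _ _
      rw [e1, e2]; ring
    rw [e]
    exact I.mul_mem_left _ (I.add_mem (hg h) (hg (h * c)))
  have hac : ∀ h, aEnt i2 T c (h * g) - aEnt i2 T c h ∈ I := by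
    intro h
    have e : aEnt i2 T c (h * g) - aEnt i2 T c h =
        i2 * ((T (h * g) - T h) + (T ((c * h) * g) - T (c * h))) := by
      rw [aEnt_eq, aEnt_eq, mul_assoc]; ring
    rw [e]
    exact I.mul_mem_left _ (I.add_mem (hgc h) (hgc (c * h)))
  have ha1 : aEnt i2 T c g - 1 ∈ I := by
    have := ha 1
    rwa [mul_one, aEnt_one h2 hc H hDc] at this
  have hT : T g - 2 ∈ I := by
    have := hg 1
    rwa [mul_one, H.map_one] at this
  have hd1 : dEnt i2 T c g - 1 ∈ I := by
    have e : dEnt i2 T c g - 1 = (T g - 2) - (aEnt i2 T c g - 1) := by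
      rw [← aEnt_add_dEnt h2 (T := T) (c := c) g]; ring
    rw [e]; exact I.sub_mem hT ha1
  have hx1 : ∀ h, xEnt i2 T c g h ∈ I := by
    intro h
    rw [xEnt_eq h2 hc H hDc]
    have e : aEnt i2 T c (g * h) - aEnt i2 T c g * aEnt i2 T c h =
      (aEnt i2 T c (g * h) - aEnt i2 T c h) - (aEnt i2 T c g - 1) * aEnt i2 T c h := by ring
    rw [e]
    exact I.sub_mem (ha h) (I.mul_mem_right _ ha1)
  have hx2 : ∀ h, xEnt i2 T c h g ∈ I := by
    intro h
    rw [xEnt_eq h2 hc H hDc]
    have e : aEnt i2 T c (h * g) - aEnt i2 T c h * aEnt i2 T c g =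
      (aEnt i2 T c (h * g) - aEnt i2 T c h) - aEnt i2 T c h * (aEnt i2 T c g - 1) := by ring
    rw [e]
    exact I.sub_mem (hac h) (I.mul_mem_left _ ha1)
  intro i j
  rw [matRep_apply]
  fin_cases i <;> fin_cases j
  · simpa using ha1
  · simpa using I.mul_mem_left u (hx1 h₀)
  · simpa using hx2 g₀
  · simpa using hd1

end MatrixRep

end Fermat.Agent.RT.PseudoRepRing
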