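import Mathlib
import Fermat.Agent.FrobCompareDet
import Fermat.Agent.BrauerNesbittGalois
import Fermat.Agent.RT.PseudoRepRing

/-!
# Gluing adic Galois representations over the components of a finite algebra
-/

set_option autoImplicit false

open Polynomial IsLocalRing
open scoped TensorProduct

namespace Fermat.Agent.RT.Glue

open Fermat.Agent.PseudoRep Fermat.Agent.FrobCompare

local notation "Γℚ" => (AlgebraicClosure ℚ ≃ₐ[ℚ] AlgebraicClosure ℚ)

/-! ## Commutative algebra -/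

section Alg

variable {R : Type*} [CommRing R] [IsLocalRing R]

/-- In a finite local algebra a power of the maximal ideal is contained in the extension of the
maximal ideal of the base. -/
theorem exists_pow_maximalIdeal_le_map (R B : Type*) [CommRing R] [IsLocalRing R] [CommRing B]
    [IsLocalRing B] [Algebra R B] [Module.Finite R B] [IsLocalHom (algebraMap R B)] :
    ∃ N : ℕ, maximalIdeal B ^ N ≤ (maximalIdeal R).map (algebraMap R B) := by
  set J : Ideal B := (maximalIdeal R).map (algebraMap R B) with hJ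
  have hJle : J ≤ maximalIdeal B := by
    rw [hJ, Ideal.map_le_iff_le_comap]
    exact fun x hx => Ideal.mem_comap.mpr (map_nonunit (algebraMap R B) x hx)
  have hne : J ≠ ⊤ := fun h => (Ideal.IsMaximal.ne_top inferInstance : maximalIdeal B ≠ ⊤)
    (top_le_iff.mp (h ▸ hJle))
  have hnt : Nontrivial (B ⧸ J) := Ideal.Quotient.nontrivial_iff.mpr hne
  have hloc : IsLocalRing (B ⧸ J) := IsLocalRing.of_surjective' (Ideal.Quotient.mk J)
    Ideal.Quotient.mk_surjective
  let _ : Field (R ⧸ maximalIdeal R) := Ideal.Quotient.field _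
  let _ : Algebra (R ⧸ maximalIdeal R) (B ⧸ J) :=
    (Ideal.quotientMap J (algebraMap R B) (Ideal.le_comap_map)).toAlgebra
  have hst : IsScalarTower R (R ⧸ maximalIdeal R) (B ⧸ J) :=
    IsScalarTower.of_algebraMap_eq' rfl
  have hfin : Module.Finite R (B ⧸ J) :=
    Module.Finite.of_surjective (Ideal.Quotient.mkₐ R J).toLinearMap Ideal.Quotient.mk_surjective
  have hfin' : Module.Finite (R ⧸ maximalIdeal R) (B ⧸ J) :=
    Module.Finite.of_restrictScalars_finite R (R ⧸ maximalIdeal R) (B ⧸ J)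
  have hart : IsArtinianRing (B ⧸ J) := IsArtinianRing.of_finite (R ⧸ maximalIdeal R) (B ⧸ J)
  obtain ⟨N, hN⟩ := IsArtinianRing.isNilpotent_jacobson_bot (R := B ⧸ J)
  rw [IsLocalRing.jacobson_eq_maximalIdeal ⊥ bot_ne_top] at hN
  refine ⟨N, ?_⟩
  intro x hx
  have h1 : Ideal.Quotient.mk J x ∈ maximalIdeal (B ⧸ J) ^ N := by
    have h2 : (maximalIdeal B).map (Ideal.Quotient.mk J) ≤ maximalIdeal (B ⧸ J) := by
      have hlh : IsLocalHom (Ideal.Quotient.mk J) :=
        Function.Surjective.isLocalHom _ Ideal.Quotient.mk_surjective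
      rw [Ideal.map_le_iff_le_comap]
      exact fun y hy => Ideal.mem_comap.mpr (map_nonunit (Ideal.Quotient.mk J) y hy)
    refine Ideal.pow_right_mono h2 N ?_
    rw [← Ideal.map_pow]
    exact Ideal.mem_map_of_mem _ hx
  rw [hN] at h1
  exact Ideal.Quotient.eq_zero_iff_mem.mp h1

theorem exists_pow_maximalIdeal_le_map_pow (R B : Type*) [CommRing R] [IsLocalRing R] [CommRing B]
    [IsLocalRing B] [Algebra R B] [Module.Finite R B] [IsLocalHom (algebraMap R B)] (n : ℕ) :
    ∃ N : ℕ, maximalIdeal B ^ N ≤ (maximalIdeal R ^ n).map (algebraMap R B) := by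
  obtain ⟨N, hN⟩ := exists_pow_maximalIdeal_le_map R B
  refine ⟨N * n, ?_⟩
  rw [pow_mul, Ideal.map_pow]
  exact Ideal.pow_right_mono hN n

/-- Submodules of finite modules over noetherian local rings are closed. -/
theorem mem_of_forall_mem_sup [IsNoetherianRing R] {M : Type*} [AddCommGroup M] [Module R M]
    [Module.Finite R M] (N : Submodule R M) (x : M)
    (h : ∀ n : ℕ, x ∈ N ⊔ (maximalIdeal R ^ n) • (⊤ : Submodule R M)) : x ∈ N := by
  rw [← Submodule.Quotient.mk_eq_zero]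
  have h1 : (Submodule.Quotient.mk x : M ⧸ N) ∈
      (⨅ n : ℕ, maximalIdeal R ^ n • (⊤ : Submodule R (M ⧸ N)) : Submodule R (M ⧸ N)) := by
    rw [Submodule.mem_iInf]
    intro n
    obtain ⟨y, hy, z, hz, rfl⟩ := Submodule.mem_sup.mp (h n)
    rw [Submodule.Quotient.mk_add, (Submodule.Quotient.mk_eq_zero N).mpr hy, zero_add]
    have h2 := Submodule.mem_map_of_mem (f := N.mkQ) hz
    rw [Submodule.map_smul''] at h2
    exact Submodule.smul_mono le_rfl le_top h2
  rw [Ideal.iInf_pow_smul_eq_bot_of_isLocalRing _ (Ideal.IsPrime.ne_top inferInstance)] at h1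
  exact h1

/-- Artin–Rees: the subspace topology on a submodule is the adic topology. -/
theorem exists_mem_smul_of_mem_smul [IsNoetherianRing R] {A M : Type*} [AddCommGroup A]
    [Module R A] [Module.Finite R A] [AddCommGroup M] [Module R M]
    [Module.Finite R M] (f : A →ₗ[R] M) (hf : Function.Injective f) (n : ℕ) :
    ∃ k : ℕ, ∀ x : A, f x ∈ (maximalIdeal R ^ k) • (⊤ : Submodule R M) →
      x ∈ (maximalIdeal R ^ n) • (⊤ : Submodule R A) := by
  obtain ⟨k, hk⟩ := Ideal.exists_pow_inf_eq_pow_smul (maximalIdeal R) (LinearMap.range f)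
  refine ⟨k + n, fun x hx => ?_⟩
  have h1 : f x ∈ (maximalIdeal R ^ (k + n)) • (⊤ : Submodule R M) ⊓ LinearMap.range f :=
    ⟨hx, ⟨x, rfl⟩⟩
  rw [hk (k + n) (Nat.le_add_right k n), Nat.add_sub_cancel_left] at h1
  have h2 : f x ∈ (maximalIdeal R ^ n) • LinearMap.range f :=
    Submodule.smul_mono le_rfl inf_le_right h1
  rw [LinearMap.range_eq_map, ← Submodule.map_smul''] at h2
  obtain ⟨y, hy, hxy⟩ := h2
  rwa [← hf hxy]

omit [IsLocalRing R] in
theorem mem_smul_top_pi {ι : Type*} [Finite ι] {M : ι → Type*} [∀ i, AddCommGroup (M i)]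
    [∀ i, Module R (M i)] (I : Ideal R) (x : ∀ i, M i)
    (hx : ∀ i, x i ∈ I • (⊤ : Submodule R (M i))) : x ∈ I • (⊤ : Submodule R (∀ i, M i)) := by
  classical
  cases nonempty_fintype ι
  have h1 : x = ∑ i, LinearMap.single R M i (x i) := by
    ext j
    simp [Finset.sum_apply, LinearMap.single_apply]
  rw [h1]
  refine Submodule.sum_mem _ fun i _ => ?_
  have h2 := Submodule.mem_map_of_mem (f := LinearMap.single R M i) (hx i)
  rw [Submodule.map_smul''] at h2
  exact Submodule.smul_mono le_rfl le_top h2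

end Alg

/-! ## Rank two representations give pseudo-representations -/

theorem isPseudoRep_of_finrank_two {G R V : Type*} [Group G] [CommRing R] [Nontrivial R]
    [AddCommGroup V] [Module R V] [Module.Free R V] [Module.Finite R V]
    (h : Module.finrank R V = 2) (ρ : G →* Module.End R V) :
    IsPseudoRep (fun g => LinearMap.trace R V (ρ g)) (LinearMap.det.comp ρ) where
  map_one := by
    rw [map_one, LinearMap.trace_one, h]
    norm_num
  comm g g' := by rw [map_mul ρ, map_mul ρ, LinearMap.trace_mul_comm]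
  mul g g' := by
    have h1 := cayleyHamilton_two h (ρ g')
    have h2 : ρ g * ρ g' + LinearMap.det (ρ g') • (ρ g * ρ g'⁻¹) =
        LinearMap.trace R V (ρ g') • ρ g := by
      have h3 : ρ g' * ρ g'⁻¹ = 1 := by rw [← map_mul ρ, mul_inv_cancel, map_one]
      have h4 : ρ g' ^ 2 * ρ g'⁻¹ = ρ g' := by rw [sq, mul_assoc, h3, mul_one]
      have h5 := congrArg (fun f => ρ g * (f * ρ g'⁻¹)) h1
      simp only [h4, sub_mul, smul_mul_assoc, one_mul, mul_sub, mul_smul_comm, h3, mul_one] at h5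
      rw [h5]
      abel
    have h6 := congrArg (LinearMap.trace R V) h2
    rw [map_add, map_smul, map_smul, smul_eq_mul, smul_eq_mul] at h6
    rw [map_mul ρ g g', map_mul ρ g g'⁻¹]
    change LinearMap.trace R V (ρ g * ρ g') + LinearMap.det (ρ g') * _ = _
    rw [h6, mul_comm]

/-! ## The glued pseudo-representation -/

theorem trace_det_of_charpoly {R V : Type*} [CommRing R] [Nontrivial R] [AddCommGroup V]
    [Module R V] [Module.Free R V] [Module.Finite R V] (h : Module.finrank R V = 2)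
    (f : Module.End R V) {a b : R}
    (hf : LinearMap.charpoly f = X ^ 2 - C a * X + C b) :
    LinearMap.trace R V f = a ∧ LinearMap.det f = b := by
  rw [BN2.charpoly_eq_of_finrank_two h] at hf
  have h1 := congrArg (fun p => p.coeff 1) hf
  have h0 := congrArg (fun p => p.coeff 0) hf
  simp only [coeff_add, coeff_sub, coeff_X_pow, coeff_C_mul, coeff_X, coeff_C] at h0 h1
  norm_num at h0 h1
  exact ⟨h1, h0⟩

section Main

variable (hD : FrobDensity) {𝒪 : Type} [CommRing 𝒪] [IsLocalRing 𝒪] [IsNoetherianRing 𝒪]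
    {A : Type} [CommRing A] [IsLocalRing A] [Algebra 𝒪 A] [Module.Finite 𝒪 A]
    [IsLocalHom (algebraMap 𝒪 A)]
    {ι : Type} [Finite ι] (B : ι → Type) [∀ i, CommRing (B i)] [∀ i, IsLocalRing (B i)]
    [∀ i, Algebra 𝒪 (B i)] [∀ i, Module.Finite 𝒪 (B i)] [∀ i, IsLocalHom (algebraMap 𝒪 (B i))]
    (φ : ∀ i, A →ₐ[𝒪] B i) (hφ : ∀ a : A, (∀ i, φ i a = 0) → a = 0)
    (ρ : ∀ i, GaloisRepAdic (B i)) (S : Finset ℕ) (t : ℕ → A)
    (hF : ∀ i, ∀ ℓ : ℕ, ℓ.Prime → ℓ ∉ S → ∀ P : ValuationSubring (AlgebraicClosure ℚ),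
      P.LiesOverPrime ℓ → ∀ σ : Γℚ, P.IsFrobeniusAt σ ℓ →
        LinearMap.charpoly ((ρ i).ρ σ) = X ^ 2 - C (φ i (t ℓ)) * X + C ((ℓ : B i)))

/-- The algebra map into the product. -/
def toProd : A →ₗ[𝒪] (∀ i, B i) := (AlgHom.pi φ).toLinearMap

omit [IsLocalRing 𝒪] [IsNoetherianRing 𝒪] [IsLocalRing A] [Module.Finite 𝒪 A]
  [IsLocalHom (algebraMap 𝒪 A)] [Finite ι] [∀ i, IsLocalRing (B i)] [∀ i, Module.Finite 𝒪 (B i)]
  [∀ i, IsLocalHom (algebraMap 𝒪 (B i))] in
theorem toProd_apply (a : A) (i : ι) : toProd B φ a i = φ i a := rfl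

omit [IsLocalRing 𝒪] [IsNoetherianRing 𝒪] [IsLocalRing A] [Module.Finite 𝒪 A]
  [IsLocalHom (algebraMap 𝒪 A)] [Finite ι] [∀ i, IsLocalRing (B i)] [∀ i, Module.Finite 𝒪 (B i)]
  [∀ i, IsLocalHom (algebraMap 𝒪 (B i))] in
include hφ in
theorem toProd_injective : Function.Injective (toProd B φ) := by
  rw [injective_iff_map_eq_zero]
  intro a ha
  exact hφ a fun i => congrFun ha i

omit [IsLocalRing A] [Module.Finite 𝒪 A] [IsLocalHom (algebraMap 𝒪 A)] [IsNoetherianRing 𝒪] in
include hD hF in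
/-- Approximation of traces and determinants by elements of `A`. -/
theorem exists_approx (g : Γℚ) (n : ℕ) : ∃ a d : A, ∀ i,
    LinearMap.trace (B i) (ρ i).V ((ρ i).ρ g) - φ i a ∈
      (maximalIdeal 𝒪 ^ n) • (⊤ : Submodule 𝒪 (B i)) ∧
    LinearMap.det ((ρ i).ρ g) - φ i d ∈ (maximalIdeal 𝒪 ^ n) • (⊤ : Submodule 𝒪 (B i)) := by
  have hN := fun i => exists_pow_maximalIdeal_le_map_pow 𝒪 (B i) n
  choose N hN using hN
  have hL := fun i => exists_charpolyConstantOn_of_isAdicContinuous (ρ i).ρ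
    (ρ i).isAdicContinuous (N i)
    (Ideal.Quotient.mk ((maximalIdeal 𝒪 ^ n).map (algebraMap 𝒪 (B i))))
    (by rw [Ideal.mk_ker]; exact hN i)
  choose L hLfin hL using hL
  have hfin : FiniteDimensional ℚ (⨆ i, L i : IntermediateField ℚ (AlgebraicClosure ℚ)) :=
    IntermediateField.finiteDimensional_iSup_of_finite
  obtain ⟨ℓ, hℓ, hℓS, P, hP, σ, hσ, k, hk⟩ := hD (⨆ i, L i) g S
  refine ⟨powTrace (t ℓ) (ℓ : A) k, (ℓ : A) ^ k, fun i => ?_⟩
  have hcp := hL i g (σ ^ k) fun x hx => hk x ((le_iSup L i) hx)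
  obtain ⟨htr, hdet⟩ := trace_det_of_charpoly (ρ i).finrank_eq _ (hF i ℓ hℓ hℓS P hP σ hσ)
  have h1 := BN2.trace_eq_of_charpoly_map_eq (ρ i).finrank_eq (ρ i).finrank_eq _ _ _ _ hcp
  have h2 := BN2.det_eq_of_charpoly_map_eq (ρ i).finrank_eq (ρ i).finrank_eq _ _ _ _ hcp
  rw [map_pow (ρ i).ρ, trace_pow_eq (ρ i).finrank_eq, htr, hdet] at h1
  rw [map_pow (ρ i).ρ, map_pow LinearMap.det, hdet] at h2
  constructor
  · rw [Ideal.smul_top_eq_map, Submodule.restrictScalars_mem, ← Ideal.Quotient.eq_zero_iff_mem,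
      map_sub, h1, sub_eq_zero]
    congr 1
    have := map_powTrace (φ i).toRingHom (t ℓ) (ℓ : A) k
    rw [AlgHom.toRingHom_eq_coe, RingHom.coe_coe, map_natCast] at this
    exact this.symm
  · rw [Ideal.smul_top_eq_map, Submodule.restrictScalars_mem, ← Ideal.Quotient.eq_zero_iff_mem,
      map_sub, h2, sub_eq_zero]
    congr 1
    rw [map_pow, map_natCast]

include hD hφ hF in
/-- The glued pseudo-representation. -/
theorem exists_glued_pseudoRep :
    ∃ (T : Γℚ → A) (D : Γℚ →* A), IsPseudoRep T D ∧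
      (∀ i g, φ i (T g) = LinearMap.trace (B i) (ρ i).V ((ρ i).ρ g)) ∧
      (∀ i g, φ i (D g) = LinearMap.det ((ρ i).ρ g)) ∧
      ∀ n : ℕ, ∃ L : IntermediateField ℚ (AlgebraicClosure ℚ), FiniteDimensional ℚ L ∧
        ∀ σ : Γℚ, (∀ x ∈ L, σ x = x) → ∀ h, T (σ * h) - T h ∈ maximalIdeal A ^ n := by
  have hex : ∀ g : Γℚ, ∃ a : A, ∀ i, φ i a = LinearMap.trace (B i) (ρ i).V ((ρ i).ρ g) := by
    intro g
    have h1 : (fun i => LinearMap.trace (B i) (ρ i).V ((ρ i).ρ g)) ∈
        LinearMap.range (toProd B φ) := by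
      refine mem_of_forall_mem_sup _ _ fun n => ?_
      obtain ⟨a, d, had⟩ := exists_approx hD B φ ρ S t hF g n
      refine Submodule.mem_sup.mpr ⟨toProd B φ a, ⟨a, rfl⟩, _ , ?_, add_sub_cancel _ _⟩
      exact mem_smul_top_pi _ _ fun i => (had i).1
    obtain ⟨a, ha⟩ := h1
    exact ⟨a, fun i => congrFun ha i⟩
  have hex' : ∀ g : Γℚ, ∃ a : A, ∀ i, φ i a = LinearMap.det ((ρ i).ρ g) := by
    intro g
    have h1 : (fun i => LinearMap.det ((ρ i).ρ g)) ∈ LinearMap.range (toProd B φ) := by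
      refine mem_of_forall_mem_sup _ _ fun n => ?_
      obtain ⟨a, d, had⟩ := exists_approx hD B φ ρ S t hF g n
      refine Submodule.mem_sup.mpr ⟨toProd B φ d, ⟨d, rfl⟩, _ , ?_, add_sub_cancel _ _⟩
      exact mem_smul_top_pi _ _ fun i => (had i).2
    obtain ⟨a, ha⟩ := h1
    exact ⟨a, fun i => congrFun ha i⟩
  choose T hT using hex
  choose D hD' using hex'
  have hinj : ∀ a b : A, (∀ i, φ i a = φ i b) → a = b := by
    intro a b hab
    rw [← sub_eq_zero]
    exact hφ _ fun i => by rw [map_sub, hab i, sub_self]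
  let D' : Γℚ →* A :=
    { toFun := D
      map_one' := hinj _ _ fun i => by rw [hD', map_one, map_one, map_one]
      map_mul' := fun g h => hinj _ _ fun i => by
        rw [map_mul, hD', hD', hD', map_mul (ρ i).ρ, map_mul LinearMap.det] }
  have hpr := fun i => isPseudoRep_of_finrank_two (ρ i).finrank_eq (ρ i).ρ
  refine ⟨T, D', ⟨?_, ?_, ?_⟩, fun i g => hT g i, fun i g => hD' g i, ?_⟩
  · refine hinj _ _ fun i => ?_
    rw [hT, (hpr i).map_one, map_ofNat]
  · intro g h
    refine hinj _ _ fun i => ?_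
    rw [hT, hT, (hpr i).comm]
  · intro g h
    refine hinj _ _ fun i => ?_
    have h1 := (hpr i).mul g h
    change φ i (T (g * h) + D h * T (g * h⁻¹)) = _
    rw [map_add, map_mul, map_mul, hT, hT, hT, hT, hD']
    exact h1
  · intro n
    obtain ⟨k, hk⟩ := exists_mem_smul_of_mem_smul (toProd B φ) (toProd_injective B φ hφ) n
    have hN := fun i => exists_pow_maximalIdeal_le_map_pow 𝒪 (B i) k
    choose N hN using hN
    have hL := fun i => exists_charpolyConstantOn_of_isAdicContinuous (ρ i).ρ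
      (ρ i).isAdicContinuous (N i)
      (Ideal.Quotient.mk ((maximalIdeal 𝒪 ^ k).map (algebraMap 𝒪 (B i))))
      (by rw [Ideal.mk_ker]; exact hN i)
    choose L hLfin hL using hL
    have hfin : FiniteDimensional ℚ (⨆ i, L i : IntermediateField ℚ (AlgebraicClosure ℚ)) :=
      IntermediateField.finiteDimensional_iSup_of_finite
    refine ⟨⨆ i, L i, hfin, fun σ hσ h => ?_⟩
    have hcomm : T (σ * h) = T (h * σ) := hinj _ _ fun i => by rw [hT, hT, (hpr i).comm]
    rw [hcomm]
    have h1 : T (h * σ) - T h ∈ (maximalIdeal 𝒪 ^ n) • (⊤ : Submodule 𝒪 A) := by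
      refine hk _ (mem_smul_top_pi _ _ fun i => ?_)
      rw [toProd_apply, map_sub, hT, hT, Ideal.smul_top_eq_map, Submodule.restrictScalars_mem,
        ← Ideal.Quotient.eq_zero_iff_mem, map_sub, sub_eq_zero]
      refine BN2.trace_eq_of_charpoly_map_eq (ρ i).finrank_eq (ρ i).finrank_eq _ _ _ _
        (hL i (h * σ) h fun x hx => ?_)
      rw [AlgEquiv.mul_apply, hσ x ((le_iSup L i) hx)]
    rw [Ideal.smul_top_eq_map, Submodule.restrictScalars_mem, Ideal.map_pow] at h1
    refine Ideal.pow_right_mono ?_ n h1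
    rw [Ideal.map_le_iff_le_comap]
    exact fun x hx => Ideal.mem_comap.mpr (map_nonunit (algebraMap 𝒪 A) x hx)

end Main

end Fermat.Agent.RT.Glue
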