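import Mathlib
import Fermat.Agent.RT.Glue

/-!
# Adic Galois representations over local rings from residually absolutely irreducible
pseudo-representations
-/

set_option autoImplicit false

open Polynomial IsLocalRing
open scoped TensorProduct

namespace Fermat.Agent.RT.Lift

open Fermat.Agent.PseudoRep Fermat.Agent.RT.PseudoRepRing

local notation "Γℚ" => (AlgebraicClosure ℚ ≃ₐ[ℚ] AlgebraicClosure ℚ)

section Field

variable {G : Type*} [Group G] {k : Type*} [CommRing k] {i2 : k} (h2 : 2 * i2 = 1)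
  {T : G → k} {D : G →* k} {c : G} (hc : c * c = 1) (H : IsPseudoRep T D) (hDc : D c = -1)

/-- The diagonal representation when all `x(g,h)` vanish. -/
noncomputable def diagRep (hx : ∀ g h, xEnt i2 T c g h = 0) : G →* Matrix (Fin 2) (Fin 2) k where
  toFun g := !![aEnt i2 T c g, 0; 0, dEnt i2 T c g]
  map_one' := by
    rw [aEnt_one h2 hc H hDc, dEnt_one h2 hc H hDc, Matrix.one_fin_two]
  map_mul' g h := by
    rw [Matrix.mul_fin_two, aEnt_mul h2 hc H hDc g h, dEnt_mul h2 hc H hDc g h, hx, hx]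
    simp

theorem diagRep_apply (hx : ∀ g h, xEnt i2 T c g h = 0) (g : G) :
    diagRep h2 hc H hDc hx g = !![aEnt i2 T c g, 0; 0, dEnt i2 T c g] := rfl

theorem trace_diagRep (hx : ∀ g h, xEnt i2 T c g h = 0) (g : G) :
    (diagRep h2 hc H hDc hx g).trace = T g := by
  rw [diagRep_apply, Matrix.trace_fin_two_of]
  exact aEnt_add_dEnt h2 g

end Field

/-- Over a field: if the traces agree with those of an absolutely irreducible representation then
some `x(g,h)` is nonzero. -/
theorem exists_xEnt_ne_zero {k k' K : Type} [Field k] [Field k'] [Field K] (i : k →+* K)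
    (i' : k' →+* K) {i2 : k} (h2 : 2 * i2 = 1)
    {T : Γℚ → k} {D : Γℚ →* k} {c : Γℚ} (hc : c * c = 1) (H : IsPseudoRep T D) (hDc : D c = -1)
    (ρ' : ResidualGaloisRep k') (habs : ρ'.IsAbsolutelyIrreducible)
    (htr : ∀ g, i (T g) = i' (LinearMap.trace k' ρ'.V (ρ'.ρ g))) :
    ∃ g h, xEnt i2 T c g h ≠ 0 := by
  by_contra hcon
  push Not at hcon
  let M := diagRep h2 hc H hDc hcon
  let r : Γℚ →* Module.End k (Fin 2 → k) :=
    (Matrix.toLinAlgEquiv' : Matrix (Fin 2) (Fin 2) k ≃ₐ[k] _).toAlgHom.toRingHom.toMonoidHom.comp M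
  have hr : ∀ g, r g = Matrix.toLin' (M g) := fun g => rfl
  have hrtr : ∀ g, LinearMap.trace k (Fin 2 → k) (r g) = T g := by
    intro g
    rw [hr, Matrix.trace_toLin'_eq, trace_diagRep]
  rw [BN2.isAbsolutelyIrreducible_iff_span] at habs
  have hspan := BN2.span_range_eq_top_of_trace_eq r ρ'.ρ i i'
    (by rw [ρ'.finrank_eq]; simp) (fun g => by rw [hrtr, htr]) habs
  -- the functional `f ↦ (f e₁)₀` vanishes on the range but not on everything
  let ψ : Module.End k (Fin 2 → k) →ₗ[k] k :=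
    (LinearMap.proj (0 : Fin 2)).comp (LinearMap.applyₗ (Pi.single (1 : Fin 2) (1 : k)))
  have hψ : ∀ f : Module.End k (Fin 2 → k), ψ f = f (Pi.single 1 1) 0 := fun f => rfl
  have h0 : Submodule.span k (Set.range r) ≤ LinearMap.ker ψ := by
    rw [Submodule.span_le]
    rintro _ ⟨g, rfl⟩
    rw [SetLike.mem_coe, LinearMap.mem_ker, hψ, hr, Matrix.toLin'_apply, Matrix.mulVec_single_one]
    change (M g) 0 1 = 0
    simp [M, diagRep_apply]
  rw [hspan, top_le_iff] at h0
  have h1 : ψ (Matrix.toLin' !![0, 1; 0, 0]) = 0 := by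
    have : Matrix.toLin' !![(0 : k), 1; 0, 0] ∈ LinearMap.ker ψ := by rw [h0]; trivial
    exact this
  rw [hψ, Matrix.toLin'_apply, Matrix.mulVec_single_one] at h1
  simp at h1

theorem map_aEnt {G : Type*} [Group G] {R S : Type*} [CommRing R] [CommRing S] (f : R →+* S)
    (i2 : R) (T : G → R) (c g : G) :
    aEnt (f i2) (fun g => f (T g)) c g = f (aEnt i2 T c g) := by
  rw [PseudoRepRing.aEnt_eq, PseudoRepRing.aEnt_eq, map_mul, map_add]

/-- **Lifting theorem.** A continuous pseudo-representation over a local ring with `2` invertible,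
odd and residually absolutely irreducible, is the trace of an adic Galois representation. -/
theorem exists_galoisRepAdic {A : Type} [CommRing A] [IsLocalRing A] (hA2 : IsUnit (2 : A))
    {T : Γℚ → A} {D : Γℚ →* A} {c : Γℚ} (hc : c * c = 1) (H : IsPseudoRep T D) (hDc : D c = -1)
    (hcont : ∀ n : ℕ, ∃ L : IntermediateField ℚ (AlgebraicClosure ℚ), FiniteDimensional ℚ L ∧
      ∀ σ : Γℚ, (∀ x ∈ L, σ x = x) → ∀ h, T (σ * h) - T h ∈ maximalIdeal A ^ n)
    {k' K : Type} [Field k'] [Field K] (i : ResidueField A →+* K) (i' : k' →+* K)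
    (ρ' : ResidualGaloisRep k') (habs : ρ'.IsAbsolutelyIrreducible)
    (htr : ∀ g, i (residue A (T g)) = i' (LinearMap.trace k' ρ'.V (ρ'.ρ g))) :
    ∃ ρ : GaloisRepAdic A,
      (∀ g, LinearMap.charpoly (ρ.ρ g) = X ^ 2 - C (T g) * X + C (D g)) ∧
      (∀ g, (∀ h, T (g * h) = T h) → ρ.ρ g = 1) ∧
      ρ.residual.IsAbsolutelyIrreducible := by
  classical
  obtain ⟨u2, hu2⟩ := hA2
  let i2 : A := ((u2⁻¹ : Aˣ) : A)
  have h2 : 2 * i2 = 1 := by rw [← hu2]; exact Units.mul_inv u2
  -- residual pseudo-representation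
  have Hres : IsPseudoRep (fun g => residue A (T g)) ((residue A).toMonoidHom.comp D) :=
    H.map (residue A)
  have h2res : 2 * residue A i2 = 1 := by
    rw [← map_ofNat (residue A) 2, ← map_mul, h2, map_one]
  have hDcres : ((residue A).toMonoidHom.comp D) c = -1 := by
    change residue A (D c) = -1
    rw [hDc, map_neg, map_one]
  obtain ⟨g₀, h₀, hx⟩ := exists_xEnt_ne_zero i i' h2res hc Hres hDcres ρ' habs htr
  have hxA : IsUnit (xEnt i2 T c g₀ h₀) := by
    have e1 := xEnt_eq h2res hc Hres hDcres g₀ h₀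
    have e2 := xEnt_eq h2 hc H hDc g₀ h₀
    rw [map_aEnt, map_aEnt, map_aEnt, ← map_mul, ← map_sub, ← e2] at e1
    rw [e1, Ne, residue_eq_zero_iff] at hx
    exact notMem_maximalIdeal.mp hx
  obtain ⟨v, hv⟩ := hxA
  have hu : ((v⁻¹ : Aˣ) : A) * xEnt i2 T c g₀ h₀ = 1 := by rw [← hv]; exact Units.inv_mul v
  let M := matRep h2 hc H hDc g₀ h₀ ((v⁻¹ : Aˣ) : A) hu
  have hMtr : ∀ g, (M g).trace = T g := trace_matRep h2 hc H hDc g₀ h₀ _ hu
  have hMdet : ∀ g, (M g).det = D g := det_matRep h2 hc H hDc g₀ h₀ _ hu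
  have hMI : ∀ (I : Ideal A) (g : Γℚ), (∀ h, T (g * h) - T h ∈ I) → ∀ i j, (M g - 1) i j ∈ I :=
    fun I g hg => matRep_sub_one_mem h2 hc H hDc g₀ h₀ _ hu I g hg
  let ρ : Γℚ →* Module.End A (Fin 2 → A) :=
    (Matrix.toLinAlgEquiv' : Matrix (Fin 2) (Fin 2) A ≃ₐ[A] _).toAlgHom.toRingHom.toMonoidHom.comp M
  have hρ : ∀ g, ρ g = Matrix.toLin' (M g) := fun g => rfl
  have hcont' : GaloisActionIsAdicContinuous A ρ := by
    intro n
    obtain ⟨L, hL, h⟩ := hcont n
    refine ⟨L, hL, fun σ hσ v => ?_⟩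
    have hb' := hMI _ σ (h σ hσ)
    have e : ρ σ v - v = Matrix.toLin' (M σ - 1) v := by
      rw [hρ, map_sub, Matrix.toLin'_one, LinearMap.sub_apply, LinearMap.id_apply]
    rw [e]
    have e2 : ∀ w : Fin 2 → A, (∀ i, w i ∈ maximalIdeal A ^ n) →
        w ∈ (maximalIdeal A ^ n) • (⊤ : Submodule A (Fin 2 → A)) := by
      intro w hw
      have : w = ∑ i, w i • (Pi.single i 1 : Fin 2 → A) := by
        ext j; simp [Finset.sum_apply, Pi.single_apply]
      rw [this]
      exact Submodule.sum_mem _ fun i _ => Submodule.smul_mem_smul (hw i) Submodule.mem_top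
    apply e2
    intro i
    rw [Matrix.toLin'_apply, Matrix.mulVec, dotProduct]
    exact Ideal.sum_mem _ fun j _ => Ideal.mul_mem_right _ _ (hb' i j)
  let R : GaloisRepAdic A :=
    { V := Fin 2 → A
      finrank_eq := by simp
      ρ := ρ
      isAdicContinuous := hcont' }
  have hcp : ∀ g, LinearMap.charpoly (R.ρ g) = X ^ 2 - C (T g) * X + C (D g) := by
    intro g
    change LinearMap.charpoly (Matrix.toLin' (M g)) = _
    rw [Matrix.charpoly_toLin', Matrix.charpoly_fin_two, hMtr, hMdet]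
  refine ⟨R, hcp, ?_, ?_⟩
  · intro g hg
    change Matrix.toLin' (M g) = 1
    have : M g = 1 := by
      have hb := hMI ⊥ g (fun h => by rw [hg h, sub_self]; exact Submodule.zero_mem _)
      ext i j
      have h1 := hb i j
      rw [Ideal.mem_bot, Matrix.sub_apply, sub_eq_zero] at h1
      exact h1
    rw [this, Matrix.toLin'_one]
    rfl
  · refine BN2.isAbsolutelyIrreducible_of_trace_eq i i' R.residual ρ' (fun σ => ?_) habs
    rw [← htr]
    congr 1
    change LinearMap.trace (ResidueField A) (ResidueField A ⊗[A] R.V)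
      ((R.ρ σ).baseChange (ResidueField A)) = _
    rw [LinearMap.trace_baseChange]
    have h1 := (Glue.trace_det_of_charpoly R.finrank_eq (R.ρ σ) (hcp σ)).1
    rw [h1]
    rfl

end Fermat.Agent.RT.Lift
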