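import Mathlib
import Fermat.Agent.RT.Lift
import Fermat.Agent.RT.Components
import Fermat.Agent.RT.HeckeLocalFields
import Fermat.Prelude.Def_CuspForm_HeckeGaloisRepDatum

/-!
# Construction of `HeckeGaloisRepDatum` for the local Hecke algebra
-/

set_option autoImplicit false

open Polynomial IsLocalRing
open scoped TensorProduct

namespace Fermat.Agent.RT.Datum

open Fermat.Agent.PseudoRep Fermat.Agent.FrobCompare

local notation "Γℚ" => (AlgebraicClosure ℚ ≃ₐ[ℚ] AlgebraicClosure ℚ)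

/-! ## Comparison of a pseudo-representation with a representation -/

theorem pseudo_pow {G R : Type*} [Group G] [CommRing R] {T : G → R} {D : G →* R}
    (H : IsPseudoRep T D) (g : G) (n : ℕ) : T (g ^ n) = powTrace (T g) (D g) n := by
  induction n using Nat.twoStepInduction with
  | zero => rw [pow_zero, H.map_one, powTrace]
  | one => rw [pow_one, powTrace]
  | more n ih1 ih2 =>
    have h := H.mul (g ^ (n + 1)) g
    rw [← pow_succ, pow_succ g n, mul_inv_cancel_right, ← pow_succ, ih1, ih2] at h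
    rw [powTrace]
    linear_combination h

theorem pseudo_trace_compare (hD : FrobDensity) {A : Type} [CommRing A] [IsLocalRing A]
    {T : Γℚ → A} {D : Γℚ →* A} (H : IsPseudoRep T D)
    (hcont : ∀ n : ℕ, ∃ L : IntermediateField ℚ (AlgebraicClosure ℚ), FiniteDimensional ℚ L ∧
      ∀ σ : Γℚ, (∀ x ∈ L, σ x = x) → ∀ h, T (σ * h) - T h ∈ maximalIdeal A ^ n)
    {R V B : Type*} [CommRing R] [Nontrivial R] [AddCommGroup V] [Module R V] [Module.Free R V]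
    [Module.Finite R V] (hV : Module.finrank R V = 2) [CommRing B] (ρ' : Γℚ →* Module.End R V)
    (f : A →+* B) (f' : R →+* B) (n : ℕ) (hf : maximalIdeal A ^ n ≤ RingHom.ker f)
    (L' : IntermediateField ℚ (AlgebraicClosure ℚ)) [FiniteDimensional ℚ L']
    (hL' : CharpolyConstantOn ρ' f' L') (S : Finset ℕ)
    (hF : ∀ ℓ : ℕ, ℓ.Prime → ℓ ∉ S → ∀ P : ValuationSubring (AlgebraicClosure ℚ),
      P.LiesOverPrime ℓ → ∀ σ : Γℚ, P.IsFrobeniusAt σ ℓ →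
        f (T σ) = f' (LinearMap.trace R V (ρ' σ)) ∧ f (D σ) = f' (LinearMap.det (ρ' σ)))
    (g : Γℚ) : f (T g) = f' (LinearMap.trace R V (ρ' g)) := by
  obtain ⟨L, hL, h⟩ := hcont n
  obtain ⟨ℓ, hℓ, hℓS, P, hP, τ, hτ, k, hk⟩ := hD (L ⊔ L') g S
  have e1 : f (T g) = f (T (τ ^ k)) := by
    rw [← sub_eq_zero, ← map_sub]
    refine RingHom.mem_ker.mp (hf ?_)
    have e2 : T g = T (((τ ^ k)⁻¹ * g) * τ ^ k) := by
      rw [H.comm ((τ ^ k)⁻¹ * g) (τ ^ k), mul_inv_cancel_left]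
    rw [e2]
    refine h _ (fun x hx => ?_) _
    rw [AlgEquiv.mul_apply, hk x ((le_sup_left : L ≤ L ⊔ L') hx)]
    change (τ ^ k).symm ((τ ^ k) x) = x
    exact (τ ^ k).symm_apply_apply x
  have e3 := hL' g (τ ^ k) fun x hx => hk x ((le_sup_right : L' ≤ L ⊔ L') hx)
  have e4 := BN2.trace_eq_of_charpoly_map_eq hV hV f' f' _ _ e3
  obtain ⟨ht, hd⟩ := hF ℓ hℓ hℓS P hP τ hτ
  rw [e1, e4, map_pow ρ', trace_pow_eq hV, pseudo_pow H, map_powTrace, map_powTrace, ht, hd]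

/-! ## The datum -/

/-- The statement `S30` (frozen statement, verbatim). -/
def S30Statement : Prop :=
    ∀ (p : ℕ) [Fact p.Prime] (N : ℕ) [NeZero N] (S : Finset ℕ)
      (_hpS : p ∈ S) (_hNS : ∀ q : ℕ, q.Prime → q ∣ N → q ∈ S)
      (𝒪' : Type) [CommRing 𝒪'] [IsDomain 𝒪'] [IsDiscreteValuationRing 𝒪']
      [IsAdicComplete (IsLocalRing.maximalIdeal 𝒪') 𝒪'] [Finite (IsLocalRing.ResidueField 𝒪')]
      [CharZero 𝒪'] (_hp𝒪' : (p : 𝒪') ∈ IsLocalRing.maximalIdeal 𝒪')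
      (χ : CuspForm.heckeAlgebra N 2 (↑S : Set ℕ) →+* 𝒪'),
      ∃ (𝒪'' : Type) (_ : CommRing 𝒪'') (_ : IsDomain 𝒪'') (_ : IsDiscreteValuationRing 𝒪'')
        (_ : IsAdicComplete (IsLocalRing.maximalIdeal 𝒪'') 𝒪'')
        (_ : Finite (IsLocalRing.ResidueField 𝒪'')) (_ : CharZero 𝒪'')
        (_ : Algebra 𝒪' 𝒪'') (_ : Module.Finite 𝒪' 𝒪'') (_ : IsLocalHom (algebraMap 𝒪' 𝒪'')),
      Function.Injective (algebraMap 𝒪' 𝒪'') ∧
      ∃ ρ : GaloisRepAdic 𝒪'',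
        (∀ (ℓ : ℕ) (hℓ : ℓ.Prime) (hℓN : ¬ ℓ ∣ N) (hℓS : ℓ ∉ (↑S : Set ℕ)),
          ∀ A : ValuationSubring (AlgebraicClosure ℚ), A.LiesOverPrime ℓ →
            ∀ σ : AlgebraicClosure ℚ ≃ₐ[ℚ] AlgebraicClosure ℚ, A.IsFrobeniusAt σ ℓ →
              LinearMap.charpoly (ρ.ρ σ) =
                X ^ 2 - C (algebraMap 𝒪' 𝒪'' (χ (CuspForm.heckeAlgebra.T hℓ hℓN hℓS))) * X
                  + C ((ℓ : 𝒪''))) ∧
        (∀ q : ℕ, q.Prime → ¬ q ∣ N → q ≠ p → ρ.IsUnramifiedAt q)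

section

variable (hS30 : S30Statement) {p : ℕ} [Fact p.Prime] {N : ℕ} [NeZero N] {S : Finset ℕ}
  (hpS : p ∈ S) (hNS : ∀ q : ℕ, q.Prime → q ∣ N → q ∈ S)
  {𝒪 : Type} [CommRing 𝒪] [IsDomain 𝒪] [IsDiscreteValuationRing 𝒪]
  [IsAdicComplete (maximalIdeal 𝒪) 𝒪] [Finite (ResidueField 𝒪)] [CharZero 𝒪]
  (hp𝒪 : (p : 𝒪) ∈ maximalIdeal 𝒪)
  {A : Type} [CommRing A] [IsLocalRing A] [Algebra 𝒪 A] [Module.Finite 𝒪 A]
  [IsLocalHom (algebraMap 𝒪 A)] (π : CuspForm.heckeAlgebra N 2 (↑S : Set ℕ) →+* A)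

include hS30 hpS hNS hp𝒪 in
/-- The Galois representation attached to a characteristic zero prime of `A`. -/
theorem exists_component_rep (P : Ideal A) [P.IsPrime] (hP : P.comap (algebraMap 𝒪 A) = ⊥) :
    ∃ (B : Type) (_ : CommRing B) (_ : IsLocalRing B) (_ : IsNoetherianRing B) (_ : Algebra 𝒪 B)
      (_ : Module.Finite 𝒪 B) (_ : IsLocalHom (algebraMap 𝒪 B)) (φ : A →ₐ[𝒪] B)
      (ρ : GaloisRepAdic B), RingHom.ker φ = P ∧
      ∀ (ℓ : ℕ) (hℓ : ℓ.Prime) (hℓN : ¬ ℓ ∣ N) (hℓS : ℓ ∉ (↑S : Set ℕ)),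
        ∀ Q : ValuationSubring (AlgebraicClosure ℚ), Q.LiesOverPrime ℓ →
          ∀ σ : Γℚ, Q.IsFrobeniusAt σ ℓ → LinearMap.charpoly (ρ.ρ σ) =
            X ^ 2 - C (φ (π (CuspForm.heckeAlgebra.T hℓ hℓN hℓS))) * X + C ((ℓ : B)) := by
  obtain ⟨𝒪', i1, i2, i3, i4, i5, i6, i7, i8, i9, i10, hinj, φ, hφ⟩ :=
    Components.exists_dvr_of_isPrime 𝒪 A P hP
  have hp𝒪' : (p : 𝒪') ∈ maximalIdeal 𝒪' := by
    have h1 := map_nonunit (algebraMap 𝒪 𝒪') (p : 𝒪) hp𝒪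
    rwa [map_natCast] at h1
  obtain ⟨B, j1, j2, j3, j4, j5, j6, j7, j8, j9, hinj', ρ, hρ, -⟩ :=
    hS30 p N S hpS hNS 𝒪' hp𝒪' ((φ : A →+* 𝒪').comp π)
  let _ : Algebra 𝒪 B := ((algebraMap 𝒪' B).comp (algebraMap 𝒪 𝒪')).toAlgebra
  have hst : IsScalarTower 𝒪 𝒪' B := IsScalarTower.of_algebraMap_eq' rfl
  have hfin : Module.Finite 𝒪 B := Module.Finite.trans 𝒪' B
  have hlh : IsLocalHom (algebraMap 𝒪 B) := RingHom.isLocalHom_comp _ _
  refine ⟨B, j1, inferInstance, inferInstance, inferInstance, hfin, hlh,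
    (IsScalarTower.toAlgHom 𝒪 𝒪' B).comp φ, ρ, ?_, ?_⟩
  · rw [← hφ]
    ext x
    rw [RingHom.mem_ker, RingHom.mem_ker]
    change algebraMap 𝒪' B (φ x) = 0 ↔ φ x = 0
    constructor
    · intro h; exact hinj' (h.trans (map_zero _).symm)
    · intro h; rw [h, map_zero]
  · intro ℓ hℓ hℓN hℓS Q hQ σ hσ
    exact hρ ℓ hℓ hℓN hℓS Q hQ σ hσ

end

/-! ## The datum from a pseudo-representation -/

open CuspForm in
/-- A pseudo-representation over a local `𝒪`-algebra `A` with the residue field of `𝒪`,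
having the right Frobenius traces, and residually absolutely irreducible, comes from a
`GaloisRepAdic A`. -/
theorem exists_rep_of_pseudoRep (hD : FrobDensity) {p : ℕ} [Fact p.Prime] (hp2 : p ≠ 2) (N : ℕ)
    [NeZero N] (S : Finset ℕ) (hNS : ∀ q : ℕ, q.Prime → q ∣ N → q ∈ S)
    (𝒪 : Type) [CommRing 𝒪] [IsLocalRing 𝒪] (hp𝒪 : (p : 𝒪) ∈ maximalIdeal 𝒪)
    (A : Type) [CommRing A] [IsLocalRing A] [Algebra 𝒪 A] [IsLocalHom (algebraMap 𝒪 A)]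
    (hsurj : Function.Surjective (residue A ∘ algebraMap 𝒪 A))
    (π : heckeAlgebra N 2 (↑S : Set ℕ) →+* A)
    (θ : heckeAlgebra N 2 (↑S : Set ℕ) →+* ResidueField 𝒪)
    (hπ : ∀ t, residue A (π t) = ResidueField.map (algebraMap 𝒪 A) (θ t))
    {k' K : Type} [Field k'] [Field K] (i : ResidueField 𝒪 →+* K) (i' : k' →+* K)
    (ρ' : ResidualGaloisRep k') (habs : ρ'.IsAbsolutelyIrreducible)
    (hρ' : ∀ (ℓ : ℕ) (hℓ : ℓ.Prime) (hℓN : ¬ ℓ ∣ N) (hℓS : ℓ ∉ (↑S : Set ℕ)),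
      ∀ P : ValuationSubring (AlgebraicClosure ℚ), P.LiesOverPrime ℓ →
        ∀ σ : Γℚ, P.IsFrobeniusAt σ ℓ → (LinearMap.charpoly (ρ'.ρ σ)).map i' =
          (X ^ 2 - C (θ (heckeAlgebra.T hℓ hℓN hℓS)) * X + C ((ℓ : ResidueField 𝒪))).map i)
    {T : Γℚ → A} {D : Γℚ →* A} (H : IsPseudoRep T D)
    (hcont : ∀ n : ℕ, ∃ L : IntermediateField ℚ (AlgebraicClosure ℚ), FiniteDimensional ℚ L ∧
      ∀ σ : Γℚ, (∀ x ∈ L, σ x = x) → ∀ h, T (σ * h) - T h ∈ maximalIdeal A ^ n)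
    (hfrob : ∀ (ℓ : ℕ) (hℓ : ℓ.Prime) (hℓN : ¬ ℓ ∣ N) (hℓS : ℓ ∉ (↑S : Set ℕ)),
      ∀ P : ValuationSubring (AlgebraicClosure ℚ), P.LiesOverPrime ℓ →
        ∀ σ : Γℚ, P.IsFrobeniusAt σ ℓ → T σ = π (heckeAlgebra.T hℓ hℓN hℓS) ∧ D σ = (ℓ : A))
    {c : Γℚ} (hc : c * c = 1) (hDc : D c = -1) :
    ∃ ρ : GaloisRepAdic A,
      (∀ g, LinearMap.charpoly (ρ.ρ g) = X ^ 2 - C (T g) * X + C (D g)) ∧
      (∀ g, (∀ h, T (g * h) = T h) → ρ.ρ g = 1) ∧ ρ.residual.IsAbsolutelyIrreducible := by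
  have hpA : (p : A) ∈ maximalIdeal A := by
    have h1 := map_nonunit (algebraMap 𝒪 A) (p : 𝒪) hp𝒪
    rwa [map_natCast] at h1
  have h2 : IsUnit (2 : A) := by
    by_contra h
    have h2' : (2 : A) ∈ maximalIdeal A := h
    obtain ⟨m, hm⟩ : Odd p := (Fact.out : p.Prime).odd_of_ne_two hp2
    have : (1 : A) ∈ maximalIdeal A := by
      have e : (1 : A) = (p : A) - (m : A) * 2 := by rw [hm]; push_cast; ring
      rw [e]
      exact Ideal.sub_mem _ hpA (Ideal.mul_mem_left _ _ h2')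
    exact (maximalIdeal.isMaximal A).ne_top ((Ideal.eq_top_iff_one _).mpr this)
  -- the residue field identification
  have hbij : Function.Bijective (ResidueField.map (algebraMap 𝒪 A)) := by
    refine ⟨RingHom.injective _, fun x => ?_⟩
    obtain ⟨a, ha⟩ := hsurj x
    exact ⟨residue 𝒪 a, by rw [ResidueField.map_residue]; exact ha⟩
  let e : ResidueField 𝒪 ≃+* ResidueField A := RingEquiv.ofBijective _ hbij
  let iA : ResidueField A →+* K := i.comp e.symm.toRingHom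
  have hiA : ∀ x, iA (ResidueField.map (algebraMap 𝒪 A) x) = i x := fun x => by
    change i (e.symm (e x)) = i x
    rw [e.symm_apply_apply]
  obtain ⟨L', hL', hL'c⟩ := ρ'.factorsThroughFiniteLevel
  have htr : ∀ g, iA (residue A (T g)) = i' (LinearMap.trace k' ρ'.V (ρ'.ρ g)) := by
    intro g
    exact pseudo_trace_compare hD H hcont ρ'.finrank_eq ρ'.ρ (iA.comp (residue A)) i' 1
      (by
        rw [pow_one]
        intro x hx
        rw [RingHom.mem_ker, RingHom.comp_apply, (residue_eq_zero_iff x).mpr hx, map_zero]) L'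
      (charpolyConstantOn_of_factors _ _ _ hL'c) (S : Finset ℕ)
      (by
        intro ℓ hℓ hℓS P hP σ hσ
        have hℓN : ¬ ℓ ∣ N := fun h => hℓS (hNS ℓ hℓ h)
        obtain ⟨h1, h2⟩ := hfrob ℓ hℓ hℓN hℓS P hP σ hσ
        have h3 := hρ' ℓ hℓ hℓN hℓS P hP σ hσ
        rw [BN2.charpoly_eq_of_finrank_two ρ'.finrank_eq] at h3
        have h4 := congrArg (fun q => q.coeff 1) h3
        have h5 := congrArg (fun q => q.coeff 0) h3
        simp only [Polynomial.map_add, Polynomial.map_sub, Polynomial.map_pow, map_X,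
          Polynomial.map_mul, map_C, coeff_add, coeff_sub, coeff_X_pow, coeff_C_mul, coeff_X_one,
          coeff_C_succ, coeff_X_zero, coeff_C_zero] at h4 h5
        norm_num at h4 h5
        rw [h1, h2]
        constructor
        · change iA (residue A _) = _
          rw [hπ, hiA, ← h4]
        · change iA (residue A _) = _
          rw [map_natCast, map_natCast, h5]) g
  exact Lift.exists_galoisRepAdic h2 hc H hDc hcont iA i' ρ' habs htr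

open CuspForm in
/-- A pseudo-representation over `heckeLocal` with the right Frobenius traces, residually absolutely
irreducible, gives a `HeckeGaloisRepDatum`. -/
theorem datum_of_pseudoRep (hD : FrobDensity) {p : ℕ} [Fact p.Prime] (hp2 : p ≠ 2) (N : ℕ)
    [NeZero N] (S : Finset ℕ) (hNS : ∀ q : ℕ, q.Prime → q ∣ N → q ∈ S)
    (𝒪 : Type) [CommRing 𝒪] [IsDomain 𝒪] [IsDiscreteValuationRing 𝒪]
    [IsAdicComplete (maximalIdeal 𝒪) 𝒪] (hp𝒪 : (p : 𝒪) ∈ maximalIdeal 𝒪)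
    [Fact (HasIntegralStructure N 2)]
    (θ : heckeAlgebra N 2 (↑S : Set ℕ) →+* ResidueField 𝒪)
    {k' K : Type} [Field k'] [Field K] (i : ResidueField 𝒪 →+* K) (i' : k' →+* K)
    (ρ' : ResidualGaloisRep k') (habs : ρ'.IsAbsolutelyIrreducible)
    (hρ' : ∀ (ℓ : ℕ) (hℓ : ℓ.Prime) (hℓN : ¬ ℓ ∣ N) (hℓS : ℓ ∉ (↑S : Set ℕ)),
      ∀ P : ValuationSubring (AlgebraicClosure ℚ), P.LiesOverPrime ℓ →
        ∀ σ : Γℚ, P.IsFrobeniusAt σ ℓ → (LinearMap.charpoly (ρ'.ρ σ)).map i' =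
          (X ^ 2 - C (θ (heckeAlgebra.T hℓ hℓN hℓS)) * X + C ((ℓ : ResidueField 𝒪))).map i)
    {T : Γℚ → heckeLocal N (↑S : Set ℕ) 𝒪 θ} {D : Γℚ →* heckeLocal N (↑S : Set ℕ) 𝒪 θ}
    (H : IsPseudoRep T D)
    (hcont : ∀ n : ℕ, ∃ L : IntermediateField ℚ (AlgebraicClosure ℚ), FiniteDimensional ℚ L ∧
      ∀ σ : Γℚ, (∀ x ∈ L, σ x = x) → ∀ h, T (σ * h) - T h ∈ maximalIdeal _ ^ n)
    (hfrob : ∀ (ℓ : ℕ) (hℓ : ℓ.Prime) (hℓN : ¬ ℓ ∣ N) (hℓS : ℓ ∉ (↑S : Set ℕ)),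
      ∀ P : ValuationSubring (AlgebraicClosure ℚ), P.LiesOverPrime ℓ →
        ∀ σ : Γℚ, P.IsFrobeniusAt σ ℓ →
          T σ = heckeLocal.π N (↑S : Set ℕ) 𝒪 θ (heckeAlgebra.T hℓ hℓN hℓS) ∧ D σ = (ℓ : _))
    {c : Γℚ} (hc : c * c = 1) (hDc : D c = -1) :
    ∃ d : HeckeGaloisRepDatum N (↑S : Set ℕ) 𝒪 θ (heckeLocal N (↑S : Set ℕ) 𝒪 θ),
      d.π = heckeLocal.π N (↑S : Set ℕ) 𝒪 θ ∧
      (∀ g, LinearMap.charpoly (d.ρ.ρ g) = X ^ 2 - C (T g) * X + C (D g)) ∧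
      (∀ g, (∀ h, T (g * h) = T h) → d.ρ.ρ g = 1) := by
  obtain ⟨ρ, hρ, hρ1, hρirr⟩ := exists_rep_of_pseudoRep hD hp2 N S hNS 𝒪 hp𝒪
    (heckeLocal N (↑S : Set ℕ) 𝒪 θ) (HeckeLocalFields.residue_surjective' N (↑S : Set ℕ) 𝒪 θ)
    (heckeLocal.π N (↑S : Set ℕ) 𝒪 θ) θ (HeckeLocalFields.residue_π N (↑S : Set ℕ) 𝒪 θ) i i' ρ'
    habs hρ' H hcont hfrob hc hDc
  exact ⟨{ π := heckeLocal.π N (↑S : Set ℕ) 𝒪 θ
           residue_π := HeckeLocalFields.residue_π N (↑S : Set ℕ) 𝒪 θ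
           adjoin_range_π := HeckeLocalFields.adjoin_range_π N (↑S : Set ℕ) 𝒪 θ
           exists_point := HeckeLocalFields.exists_point N (↑S : Set ℕ) 𝒪 θ
           residue_surjective := HeckeLocalFields.residue_surjective' N (↑S : Set ℕ) 𝒪 θ
           ρ := ρ
           charpoly_frob := fun ℓ hℓ hℓN hℓS P hP σ hσ => by
             rw [hρ, (hfrob ℓ hℓ hℓN hℓS P hP σ hσ).1, (hfrob ℓ hℓ hℓN hℓS P hP σ hσ).2]
           residual_absIrr := hρirr }, rfl, hρ, hρ1⟩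

end Fermat.Agent.RT.Datum
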