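import Mathlib.RingTheory.AdicCompletion.Basic
import Mathlib.RingTheory.Filtration
import Mathlib.RingTheory.Ideal.Quotient.Index
import Mathlib.RingTheory.DiscreteValuationRing.Basic
import Mathlib.RingTheory.MvPowerSeries.Inverse
import Mathlib.RingTheory.MvPowerSeries.Equiv
import Mathlib.Order.Filter.Ultrafilter.Basic

/-!
# Ultrafilter limits in complete local rings with finite residue field

`TendsU 𝓤 I x L` : the sequence `x` tends to `L` along the ultrafilter `𝓤` in the `I`-adic sense.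
`HasULim 𝓤 I` : every sequence has a limit.
-/

set_option autoImplicit false

open Filter IsLocalRing

namespace Fermat.Agent.RT.ULim

variable {A : Type*} [CommRing A]

/-- the sequence `x` tends `I`-adically to `L` along the ultrafilter `𝓤`. -/
def TendsU (𝓤 : Ultrafilter ℕ) (I : Ideal A) (x : ℕ → A) (L : A) : Prop :=
  ∀ k : ℕ, ∀ᶠ n in (𝓤 : Filter ℕ), x n - L ∈ I ^ k

/-- every sequence has an `I`-adic limit along the ultrafilter `𝓤`. -/
def HasULim (𝓤 : Ultrafilter ℕ) (I : Ideal A) : Prop :=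
  ∀ x : ℕ → A, ∃ L : A, TendsU 𝓤 I x L

/-- limits are unique. -/
def UHaus (I : Ideal A) : Prop := ∀ x : A, (∀ k : ℕ, x ∈ I ^ k) → x = 0

variable {𝓤 : Ultrafilter ℕ} {I : Ideal A}

theorem TendsU.const (a : A) : TendsU 𝓤 I (fun _ => a) a := fun k =>
  Eventually.of_forall fun _ => by simp

theorem TendsU.congr {x y : ℕ → A} {L : A} (h : TendsU 𝓤 I x L)
    (hxy : ∀ k, ∀ᶠ n in (𝓤 : Filter ℕ), x n - y n ∈ I ^ k) : TendsU 𝓤 I y L := fun k => by
  filter_upwards [h k, hxy k] with n h1 h2
  have := (I ^ k).sub_mem h1 h2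
  have h3 : x n - L - (x n - y n) = y n - L := by ring
  rwa [h3] at this

theorem TendsU.add {x y : ℕ → A} {L L' : A} (h : TendsU 𝓤 I x L) (h' : TendsU 𝓤 I y L') :
    TendsU 𝓤 I (fun n => x n + y n) (L + L') := fun k => by
  filter_upwards [h k, h' k] with n h1 h2
  have := (I ^ k).add_mem h1 h2
  have h3 : x n - L + (y n - L') = x n + y n - (L + L') := by ring
  rwa [h3] at this

theorem TendsU.neg {x : ℕ → A} {L : A} (h : TendsU 𝓤 I x L) :
    TendsU 𝓤 I (fun n => - x n) (- L) := fun k => by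
  filter_upwards [h k] with n h1
  have := (I ^ k).neg_mem h1
  have h3 : - (x n - L) = - x n - (- L) := by ring
  rwa [h3] at this

theorem TendsU.sub {x y : ℕ → A} {L L' : A} (h : TendsU 𝓤 I x L) (h' : TendsU 𝓤 I y L') :
    TendsU 𝓤 I (fun n => x n - y n) (L - L') := by
  simpa only [sub_eq_add_neg] using h.add h'.neg

theorem TendsU.mul {x y : ℕ → A} {L L' : A} (h : TendsU 𝓤 I x L) (h' : TendsU 𝓤 I y L') :
    TendsU 𝓤 I (fun n => x n * y n) (L * L') := fun k => by
  filter_upwards [h k, h' k] with n h1 h2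
  have := (I ^ k).add_mem ((I ^ k).mul_mem_right (y n) h1) ((I ^ k).mul_mem_left L h2)
  have h3 : (x n - L) * y n + L * (y n - L') = x n * y n - L * L' := by ring
  rwa [h3] at this

theorem TendsU.sum {ι : Type*} (s : Finset ι) {x : ι → ℕ → A} {L : ι → A}
    (h : ∀ i ∈ s, TendsU 𝓤 I (x i) (L i)) :
    TendsU 𝓤 I (fun n => ∑ i ∈ s, x i n) (∑ i ∈ s, L i) := by
  classical
  induction s using Finset.induction_on with
  | empty => simpa using TendsU.const (0 : A)
  | insert i s hi ih =>
    simp only [Finset.sum_insert hi]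
    exact (h i (Finset.mem_insert_self _ _)).add
      (ih fun j hj => h j (Finset.mem_insert_of_mem hj))

theorem TendsU.unique (hI : UHaus I) {x : ℕ → A} {L L' : A} (h : TendsU 𝓤 I x L)
    (h' : TendsU 𝓤 I x L') : L = L' := by
  rw [← sub_eq_zero]
  apply hI
  intro k
  obtain ⟨n, h1, h2⟩ := ((h k).and (h' k)).exists
  have := (I ^ k).sub_mem h2 h1
  have h3 : x n - L' - (x n - L) = L - L' := by ring
  rwa [h3] at this

/-- images under a ring hom mapping `I` into `J`. -/
theorem TendsU.map {B : Type*} [CommRing B] {J : Ideal B} (f : A →+* B) (hf : I.map f ≤ J)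
    {x : ℕ → A} {L : A} (h : TendsU 𝓤 I x L) : TendsU 𝓤 J (fun n => f (x n)) (f L) := fun k => by
  filter_upwards [h k] with n h1
  rw [← map_sub]
  have h2 := Ideal.mem_map_of_mem f h1
  rw [Ideal.map_pow] at h2
  exact Ideal.pow_right_mono hf k h2

/-- along an ultrafilter, a map to a finite type is eventually constant. -/
theorem exists_eventually_eq {α : Type*} [Finite α] (𝓤 : Ultrafilter ℕ) (f : ℕ → α) :
    ∃ a, ∀ᶠ n in (𝓤 : Filter ℕ), f n = a := by
  obtain ⟨a, ha⟩ := (𝓤.map f).eq_pure_of_finite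
  refine ⟨a, ?_⟩
  have h : ({a} : Set α) ∈ 𝓤.map f := by rw [ha]; exact Ultrafilter.mem_pure.mpr rfl
  exact h

theorem hasULim_of_isPrecomplete [IsPrecomplete I A] (hfin : ∀ k, Finite (A ⧸ I ^ k)) :
    HasULim 𝓤 I := by
  intro x
  have h1 : ∀ k, ∃ y : A, ∀ᶠ n in (𝓤 : Filter ℕ), x n - y ∈ I ^ k := by
    intro k
    have := hfin k
    obtain ⟨a, ha⟩ := exists_eventually_eq 𝓤 (fun n => Ideal.Quotient.mk (I ^ k) (x n))
    obtain ⟨y, rfl⟩ := Ideal.Quotient.mk_surjective a
    exact ⟨y, ha.mono fun n hn => Ideal.Quotient.eq.mp hn⟩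
  choose y hy using h1
  obtain ⟨L, hL⟩ := IsPrecomplete.prec (inferInstance : IsPrecomplete I A) (f := y) (by
    intro m n hmn
    rw [SModEq.sub_mem]
    simp only [smul_eq_mul, Ideal.mul_top]
    obtain ⟨j, h2, h3⟩ := ((hy m).and (hy n)).exists
    have := (I ^ m).sub_mem (Ideal.pow_le_pow_right hmn h3) h2
    have h4 : x j - y n - (x j - y m) = y m - y n := by ring
    rwa [h4] at this)
  refine ⟨L, fun k => ?_⟩
  filter_upwards [hy k] with n hn
  have h5 := hL k
  rw [SModEq.sub_mem] at h5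
  simp only [smul_eq_mul, Ideal.mul_top] at h5
  have := (I ^ k).add_mem hn h5
  have h4 : x n - y k + (y k - L) = x n - L := by ring
  rwa [h4] at this

theorem uHaus_of_isHausdorff [IsHausdorff I A] : UHaus I := by
  intro x hx
  apply IsHausdorff.haus (inferInstance : IsHausdorff I A)
  intro n
  rw [SModEq.zero]
  simpa using hx n

theorem uHaus_maximalIdeal [IsLocalRing A] [IsNoetherianRing A] : UHaus (maximalIdeal A) := by
  intro x hx
  have h := Ideal.iInf_pow_eq_bot_of_isLocalRing (maximalIdeal A)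
    (maximalIdeal.isMaximal A).ne_top
  have h2 : x ∈ ⨅ i, maximalIdeal A ^ i := by
    rw [Submodule.mem_iInf]; exact hx
  rw [h] at h2
  simpa using h2

theorem HasULim.of_surjective {B : Type*} [CommRing B] {J : Ideal B} (f : A →+* B)
    (hf : Function.Surjective f) (hIJ : I.map f ≤ J) (h : HasULim 𝓤 I) : HasULim 𝓤 J := by
  intro x
  choose y hy using fun n => hf (x n)
  obtain ⟨L, hL⟩ := h y
  refine ⟨f L, ?_⟩
  have := hL.map f hIJ
  simpa only [hy] using this

theorem finite_quotient_pow [IsLocalRing A] [IsNoetherianRing A] [Finite (ResidueField A)]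
    (k : ℕ) : Finite (A ⧸ maximalIdeal A ^ k) := by
  have : Finite (A ⧸ maximalIdeal A) := inferInstanceAs (Finite (ResidueField A))
  exact Ideal.finite_quotient_pow (IsNoetherian.noetherian _) k

theorem hasULim_maximalIdeal [IsLocalRing A] [IsNoetherianRing A] [Finite (ResidueField A)]
    [IsAdicComplete (maximalIdeal A) A] : HasULim 𝓤 (maximalIdeal A) :=
  hasULim_of_isPrecomplete finite_quotient_pow

end Fermat.Agent.RT.ULim
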