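import Mathlib
import Fermat.Agent.CMP.CharExtend
import Fermat.Agent.RT.ULim

/-!
# Embeddings of complete discrete valuation rings into `ℂ` (RT-PT, PT0)
-/

set_option autoImplicit false

noncomputable section

open IsLocalRing Cardinal

namespace Fermat.Agent.RT.Point

/-- A Hausdorff local ring with finite residue field has at most the cardinality of the
continuum. -/
theorem cardinal_le_continuum (𝒪 : Type) [CommRing 𝒪] [IsLocalRing 𝒪] [IsNoetherianRing 𝒪]
    [Finite (ResidueField 𝒪)] [IsHausdorff (maximalIdeal 𝒪) 𝒪] : #𝒪 ≤ 𝔠 := by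
  let f : 𝒪 → ∀ n : ℕ, 𝒪 ⧸ maximalIdeal 𝒪 ^ n := fun x n => Ideal.Quotient.mk _ x
  have hf : Function.Injective f := by
    intro x y hxy
    rw [← sub_eq_zero]
    refine IsHausdorff.haus' (I := maximalIdeal 𝒪) _ fun n => ?_
    rw [SModEq.zero, smul_eq_mul, Ideal.mul_top, ← Ideal.Quotient.eq]
    exact congrFun hxy n
  have hfin : ∀ n : ℕ, Finite (𝒪 ⧸ maximalIdeal 𝒪 ^ n) := fun n => ULim.finite_quotient_pow n
  refine (mk_le_of_injective hf).trans ?_
  rw [mk_pi]
  calc Cardinal.prod (fun n : ℕ => #(𝒪 ⧸ maximalIdeal 𝒪 ^ n)) ≤ Cardinal.prod (fun _ : ℕ => ℵ₀) :=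
        prod_le_prod _ _ fun n => (lt_aleph0_of_finite _).le
    _ = ℵ₀ ^ ℵ₀ := by simp
    _ = 𝔠 := aleph0_power_aleph0

/-- A domain of characteristic zero of cardinality at most the continuum embeds into `ℂ`. -/
theorem exists_embedding_of_cardinal_le (𝒪 : Type) [CommRing 𝒪] [IsDomain 𝒪] [CharZero 𝒪]
    (h : #𝒪 ≤ 𝔠) : ∃ j : 𝒪 →+* ℂ, Function.Injective j := by
  let F₀ := FractionRing (MvPolynomial ℝ 𝒪)
  let F := AlgebraicClosure F₀
  have h1 : #F₀ = 𝔠 := by
    rw [mk_fractionRing, MvPolynomial.cardinalMk_eq_max, mk_real, max_eq_right h,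
      max_eq_left aleph0_le_continuum]
  have hF0 : CharZero F₀ := charZero_of_injective_algebraMap
    (IsFractionRing.injective (MvPolynomial ℝ 𝒪) F₀)
  have h2 : #F = 𝔠 := by
    refine le_antisymm ?_ ?_
    · refine (Algebra.IsAlgebraic.cardinalMk_le_max F₀ F).trans ?_
      rw [h1, max_eq_left aleph0_le_continuum]
    · rw [← h1]
      exact mk_le_of_injective (algebraMap F₀ F).injective
  have hF : CharZero F := charZero_of_injective_algebraMap (algebraMap F₀ F).injective
  have h3 : Nonempty (F ≃ ℂ) := Cardinal.eq.1 (by rw [h2, mk_complex])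
  obtain ⟨e⟩ := IsAlgClosed.ringEquiv_of_equiv_of_charZero
    (by rw [h2]; exact aleph0_lt_continuum) h3
  refine ⟨(e : F →+* ℂ).comp ((algebraMap F₀ F).comp ((algebraMap (MvPolynomial ℝ 𝒪) F₀).comp
    MvPolynomial.C)), ?_⟩
  exact e.injective.comp ((algebraMap F₀ F).injective.comp
    ((IsFractionRing.injective (MvPolynomial ℝ 𝒪) F₀).comp (MvPolynomial.C_injective ℝ 𝒪)))

/-- **PT0.** -/
theorem exists_embedding_complex (𝒪 : Type) [CommRing 𝒪] [IsDomain 𝒪] [IsLocalRing 𝒪]
    [IsNoetherianRing 𝒪] [Finite (ResidueField 𝒪)] [IsHausdorff (maximalIdeal 𝒪) 𝒪] [CharZero 𝒪] :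
    ∃ j : 𝒪 →+* ℂ, Function.Injective j :=
  exists_embedding_of_cardinal_le 𝒪 (cardinal_le_continuum 𝒪)

/-- **PT0.** Embeddings into an algebraically closed field extend to finite extension domains. -/
theorem exists_embedding_extend {A B K : Type*} [CommRing A] [CommRing B] [IsDomain B]
    [Algebra A B] (hinj : Function.Injective (algebraMap A B)) [Algebra.IsIntegral A B] [Field K]
    [IsAlgClosed K] (j₀ : A →+* K) (hj₀ : Function.Injective j₀) :
    ∃ j : B →+* K, Function.Injective j ∧ j.comp (algebraMap A B) = j₀ := by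
  obtain ⟨j, hj⟩ := Fermat.Agent.CMP.CharExtend.exists_extend hinj j₀
  have : Nontrivial A := j₀.domain_nontrivial
  refine ⟨j, ?_, hj⟩
  rw [RingHom.injective_iff_ker_eq_bot]
  refine Ideal.eq_bot_of_comap_eq_bot (R := A) ?_
  rw [RingHom.comap_ker, hj, ← RingHom.injective_iff_ker_eq_bot]
  exact hj₀

end Fermat.Agent.RT.Point
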