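import Mathlib
import Fermat.Agent.RT.PointEmb
import Fermat.Agent.RT.Components
import Fermat.Agent.RT.Datum
import Fermat.Agent.CMP.S58Assembly
import Fermat.Agent.S31Lib.TraceForm
import Fermat.Agent.Newform.StrongMult

/-!
# The Galois representation of a point of the Hecke algebra (RT-PT, PT1, PT2, PT3)

`ρ : GaloisRepAdic 𝒪` over a complete DVR of characteristic zero, `t : ℕ → 𝒪`,
`Attached S t ρ`: `charpoly ρ(Frob_ℓ) = X² - t_ℓ X + ℓ` for all primes `ℓ ∉ S`;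
`j : 𝒪 → ℂ` injective, `g` a newform of level `C` with `a_ℓ(g) = j(t_ℓ)` for `ℓ ∉ S`.

* `exists_newform`: existence of `g` for a character of a Hecke algebra (PT1).
* `isUnramifiedAt`: `ρ` is unramified at `q ∤ C p` (PT1).
* `exists_trace_eq`: `charpoly ρ(Frob_q) = X² - a X + q`, `j a = a_q(g)`, for `q ∤ C p` (PT1).
* `charpoly_steinberg`: `charpoly ρ(Frob_q) = X² ∓ (q+1) X + q` for `q ∥ C`, `q ≠ p` (PT2, exact).
* `not_unipotent`: `ρ` is not unipotent at `q` if `q² ∥ C`, `q ≠ p` (PT3).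
-/

set_option autoImplicit false

noncomputable section

open Polynomial IsLocalRing CongruenceSubgroup ModularFormClass

namespace Fermat.Agent.RT.Point

open Fermat.Agent.FrobCompare Fermat.Agent.CMP Fermat.Agent.CMP.S58Assembly
  Fermat.Agent.CMP.Density

local notation "Qbar" => AlgebraicClosure ℚ
local notation "Γℚ" => (AlgebraicClosure ℚ ≃ₐ[ℚ] AlgebraicClosure ℚ)

/-- `ρ` has Frobenius traces `t_ℓ`, `ℓ ∉ S`. -/
def Attached {R : Type} [CommRing R] [IsLocalRing R] (S : Finset ℕ) (t : ℕ → R)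
    (ρ : GaloisRepAdic R) : Prop :=
  ∀ ℓ : ℕ, ℓ.Prime → ℓ ∉ S → ∀ A : ValuationSubring Qbar, A.LiesOverPrime ℓ →
    ∀ σ : Γℚ, A.IsFrobeniusAt σ ℓ →
      LinearMap.charpoly (ρ.ρ σ) = X ^ 2 - C (t ℓ) * X + C (ℓ : R)

theorem Attached.mono {R : Type} [CommRing R] [IsLocalRing R] {S S' : Finset ℕ} {t : ℕ → R}
    {ρ : GaloisRepAdic R} (h : Attached S t ρ) (hS : S ⊆ S') : Attached S' t ρ :=
  fun ℓ hℓ hℓS => h ℓ hℓ fun h' => hℓS (hS h')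

/-- Comparison of two attached representations. -/
theorem Attached.charpoly_map_eq {R R' B : Type} [CommRing R] [IsLocalRing R] [CommRing R']
    [IsLocalRing R'] [CommRing B] [IsLocalRing B] [IsNoetherianRing B] {S S' : Finset ℕ}
    {t : ℕ → R} {t' : ℕ → R'} {ρ : GaloisRepAdic R} {ρ' : GaloisRepAdic R'}
    (h : Attached S t ρ) (h' : Attached S' t' ρ') (i : R →+* B) (i' : R' →+* B)
    (hi : IsLocalHom i) (hi' : IsLocalHom i')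
    (htt : ∀ ℓ : ℕ, ℓ.Prime → ℓ ∉ S → ℓ ∉ S' → i (t ℓ) = i' (t' ℓ)) (σ : Γℚ) :
    (LinearMap.charpoly (ρ.ρ σ)).map i = (LinearMap.charpoly (ρ'.ρ σ)).map i' := by
  classical
  refine adic_charpoly_map_eq frobDensity i i' hi hi' ρ ρ' (S ∪ S') ?_ σ
  intro ℓ hℓ hℓS A hA τ hτ
  rw [Finset.mem_union, not_or] at hℓS
  rw [h ℓ hℓ hℓS.1 A hA τ hτ, h' ℓ hℓ hℓS.2 A hA τ hτ]
  simp only [Polynomial.map_add, Polynomial.map_sub, Polynomial.map_mul, Polynomial.map_pow,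
    Polynomial.map_X, Polynomial.map_C, map_natCast, Polynomial.map_natCast,
    htt ℓ hℓ hℓS.1 hℓS.2]

/-! ### PT1: the newform -/

/-- **PT1.** The newform behind a character of a Hecke algebra. -/
theorem exists_newform {N : ℕ} [NeZero N] {S : Set ℕ} {𝒪 : Type*} [CommRing 𝒪] (j : 𝒪 →+* ℂ)
    (χ : CuspForm.heckeAlgebra N 2 S →+* 𝒪) :
    ∃ (N' : ℕ) (_ : NeZero N') (g : CuspForm (Gamma0 N') 2), N' ∣ N ∧ g.IsNewform ∧
      ∀ (ℓ : ℕ) (hℓ : ℓ.Prime) (hℓN : ¬ ℓ ∣ N) (hℓS : ℓ ∉ S),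
        qCoeff ⇑g ℓ = j (χ (CuspForm.heckeAlgebra.T hℓ hℓN hℓS)) := by
  obtain ⟨f, hf, hfa⟩ := CharExtend.exists_eigenform_of_char (j.comp χ)
  obtain ⟨m, hm0, g, hm, hg, hgf, -⟩ := Newform.exists_unique_newform hf
  refine ⟨m, hm0, g, hm, hg, fun ℓ hℓ hℓN hℓS => ?_⟩
  rw [hgf ℓ hℓ hℓN, hfa ℓ hℓ hℓN hℓS]
  rfl

section iota

variable {N : ℕ} [NeZero N] {g : CuspForm (Gamma0 N) 2}

/-- The ring of eigenvalues of `g` away from `S` embeds into `𝒪`. -/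
theorem exists_iota {𝒪 : Type*} [CommRing 𝒪] (j : 𝒪 →+* ℂ) (hj : Function.Injective j)
    (hg : g.IsNormalizedEigenform) (S : Set ℕ)
    (h : ∀ ℓ : ℕ, ℓ.Prime → ℓ ∉ S → qCoeff ⇑g ℓ ∈ j.range) :
    ∃ iota : (EigenCharOn.eigenCharOn S hg).range →+* 𝒪, ∀ x, j (iota x) = x := by
  have hle := EigenCharOn.range_eigenCharOn_le S hg j.range h
  let e : 𝒪 ≃+* j.range := RingEquiv.ofBijective j.rangeRestrict
    ⟨fun x y hxy => hj (congrArg Subtype.val hxy), j.rangeRestrict_surjective⟩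
  refine ⟨(e.symm : j.range →+* 𝒪).comp (Subring.inclusion hle), fun x => ?_⟩
  have h1 := e.apply_symm_apply (Subring.inclusion hle x)
  exact congrArg Subtype.val h1

theorem iota_T {𝒪 : Type*} [CommRing 𝒪] {j : 𝒪 →+* ℂ} (hj : Function.Injective j)
    (hg : g.IsNormalizedEigenform) {S : Set ℕ}
    {iota : (EigenCharOn.eigenCharOn S hg).range →+* 𝒪} (hiota : ∀ x, j (iota x) = x)
    {ℓ : ℕ} (hℓ : ℓ.Prime) (hℓN : ¬ ℓ ∣ N) (hℓS : ℓ ∉ S) {a : 𝒪} (ha : qCoeff ⇑g ℓ = j a) :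
    (iota.comp (EigenCharOn.eigenCharOn S hg).rangeRestrict)
      (CuspForm.heckeAlgebra.T hℓ hℓN hℓS) = a := by
  apply hj
  rw [← ha, RingHom.comp_apply, hiota, RingHom.coe_rangeRestrict, EigenCharOn.eigenCharOn_T]

end iota

/-! ### The main comparison theorems -/

section main

variable {p : ℕ} [Fact p.Prime] {N : ℕ} [NeZero N] {g : CuspForm (Gamma0 N) 2}
  {𝒪 : Type} [CommRing 𝒪] [IsDomain 𝒪] [IsDiscreteValuationRing 𝒪]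
  [IsAdicComplete (maximalIdeal 𝒪) 𝒪] [Finite (ResidueField 𝒪)] [CharZero 𝒪]
  {S : Finset ℕ} {t : ℕ → 𝒪} {ρ : GaloisRepAdic 𝒪} {j : 𝒪 →+* ℂ}

/-- A representation attached to `g` away from `S`, over a finite extension, from S30. -/
theorem exists_rep (h30 : Datum.S30Statement) (hpO : (p : 𝒪) ∈ maximalIdeal 𝒪) (hg : g.IsNewform)
    (hpS : p ∈ S) (hNS : ∀ q : ℕ, q.Prime → q ∣ N → q ∈ S) (hj : Function.Injective j)
    (htg : ∀ ℓ : ℕ, ℓ.Prime → ℓ ∉ S → qCoeff ⇑g ℓ = j (t ℓ)) :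
    ∃ (𝒪'' : Type) (_ : CommRing 𝒪'') (_ : IsDomain 𝒪'') (_ : IsDiscreteValuationRing 𝒪'')
      (_ : IsAdicComplete (IsLocalRing.maximalIdeal 𝒪'') 𝒪'')
      (_ : Finite (IsLocalRing.ResidueField 𝒪'')) (_ : CharZero 𝒪'')
      (_ : Algebra 𝒪 𝒪'') (_ : Module.Finite 𝒪 𝒪'') (_ : IsLocalHom (algebraMap 𝒪 𝒪'')),
      Function.Injective (algebraMap 𝒪 𝒪'') ∧
      ∃ ρ' : GaloisRepAdic 𝒪'', Attached S (fun ℓ => algebraMap 𝒪 𝒪'' (t ℓ)) ρ' ∧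
        (∀ q : ℕ, q.Prime → ¬ q ∣ N → q ≠ p → ρ'.IsUnramifiedAt q) := by
  obtain ⟨iota, hiota⟩ := exists_iota j hj hg.1 (↑S : Set ℕ) fun ℓ hℓ hℓS => by
    rw [htg ℓ hℓ (fun h => hℓS (Finset.mem_coe.2 h))]; exact ⟨_, rfl⟩
  obtain ⟨𝒪'', i1, i2, i3, i4, i5, i6, i7, i8, i9, hinj, ρ', hρ', hunr⟩ :=
    h30 p N S hpS hNS 𝒪 hpO (iota.comp (EigenCharOn.eigenCharOn (↑S : Set ℕ) hg.1).rangeRestrict)
  refine ⟨𝒪'', i1, i2, i3, i4, i5, i6, i7, i8, i9, hinj, ρ', ?_, hunr⟩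
  intro ℓ hℓ hℓS A hA σ hσ
  have hℓN : ¬ ℓ ∣ N := fun h => hℓS (hNS ℓ hℓ h)
  have hℓS' : ℓ ∉ (↑S : Set ℕ) := fun h => hℓS (Finset.mem_coe.1 h)
  rw [hρ' ℓ hℓ hℓN hℓS' A hA σ hσ, iota_T hj hg.1 hiota hℓ hℓN hℓS' (htg ℓ hℓ hℓS)]

omit [IsAdicComplete (maximalIdeal 𝒪) 𝒪] [Finite (ResidueField 𝒪)] [CharZero 𝒪] in
theorem trace_eq_of_charpoly_map {R : Type} [CommRing R] [IsLocalRing R] {i : 𝒪 →+* R}
    {ρ' : GaloisRepAdic R} (ρ : GaloisRepAdic 𝒪)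
    (h : ∀ σ : Γℚ, (LinearMap.charpoly (ρ.ρ σ)).map i = LinearMap.charpoly (ρ'.ρ σ)) (σ : Γℚ) :
    i (LinearMap.trace 𝒪 ρ.V (ρ.ρ σ)) = LinearMap.trace R ρ'.V (ρ'.ρ σ) := by
  have h1 := BN2.trace_eq_of_charpoly_map_eq ρ.finrank_eq ρ'.finrank_eq i (RingHom.id R)
    (ρ.ρ σ) (ρ'.ρ σ) (by rw [Polynomial.map_id]; exact h σ)
  exact h1

/-- **PT1.** `ρ` is unramified at `q ∤ N p`. -/
theorem isUnramifiedAt (h30 : Datum.S30Statement) (hpO : (p : 𝒪) ∈ maximalIdeal 𝒪)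
    (hg : g.IsNewform) (hpS : p ∈ S) (hNS : ∀ q : ℕ, q.Prime → q ∣ N → q ∈ S)
    (hj : Function.Injective j) (htg : ∀ ℓ : ℕ, ℓ.Prime → ℓ ∉ S → qCoeff ⇑g ℓ = j (t ℓ))
    (hρ : Attached S t ρ) (hirr : ρ.residual.IsAbsolutelyIrreducible) {q : ℕ} (hq : q.Prime)
    (hqN : ¬ q ∣ N) (hqp : q ≠ p) : ρ.IsUnramifiedAt q := by
  obtain ⟨𝒪'', i1, i2, i3, i4, i5, i6, i7, i8, i9, hinj, ρ', hρ', hunr⟩ :=
    exists_rep h30 hpO hg hpS hNS hj htg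
  have hcmp : ∀ σ : Γℚ, (LinearMap.charpoly (ρ.ρ σ)).map (algebraMap 𝒪 𝒪'') =
      LinearMap.charpoly (ρ'.ρ σ) := fun σ => by
    have := hρ.charpoly_map_eq hρ' (algebraMap 𝒪 𝒪'') (RingHom.id 𝒪'') i9
      ⟨fun _ h => h⟩ (fun _ _ _ _ => rfl) σ
    rwa [Polynomial.map_id] at this
  intro P hP σ hσ
  refine S31Lib.rho_eq_one_of_trace_eq ρ hirr σ fun τ => hinj ?_
  rw [trace_eq_of_charpoly_map ρ hcmp, trace_eq_of_charpoly_map ρ hcmp, map_mul,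
    hunr q hq hqN hqp P hP σ hσ, one_mul]

/-- **PT2** (from S35), in characteristic zero. -/
theorem charpoly_steinberg (h35 : S35Prop) (hpO : (p : 𝒪) ∈ maximalIdeal 𝒪)
    (hg : g.IsNewform) (hpS : p ∈ S) (hNS : ∀ q : ℕ, q.Prime → q ∣ N → q ∈ S)
    (hj : Function.Injective j) (htg : ∀ ℓ : ℕ, ℓ.Prime → ℓ ∉ S → qCoeff ⇑g ℓ = j (t ℓ))
    (hρ : Attached S t ρ) {q : ℕ} (hq : q.Prime) (hqN : q ∣ N) (hqN2 : ¬ q ^ 2 ∣ N)
    (hqp : q ≠ p) {P : ValuationSubring Qbar} (hP : P.LiesOverPrime q) {φ : Γℚ}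
    (hφ : P.IsFrobeniusAt φ q) :
    LinearMap.charpoly (ρ.ρ φ) = X ^ 2 - C ((q : 𝒪) + 1) * X + C ((q : 𝒪)) ∨
      LinearMap.charpoly (ρ.ρ φ) = X ^ 2 + C ((q : 𝒪) + 1) * X + C ((q : 𝒪)) := by
  obtain ⟨iota, hiota⟩ := exists_iota j hj hg.1 (↑S : Set ℕ) fun ℓ hℓ hℓS => by
    rw [htg ℓ hℓ (fun h => hℓS (Finset.mem_coe.2 h))]; exact ⟨_, rfl⟩
  obtain ⟨𝒪'', i1, i2, i3, i4, i5, i6, i7, i8, i9, hinj, ρ', hρ', hst⟩ :=
    h35 hg p S 𝒪 hpO (EigenCharOn.eigenCharOn (↑S : Set ℕ) hg.1)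
      (fun ℓ hℓ hℓM hℓS => EigenCharOn.eigenCharOn_T _ hg.1 hℓ hℓM hℓS) iota hpS hNS
  have hatt : Attached S (fun ℓ => algebraMap 𝒪 𝒪'' (t ℓ)) ρ' := by
    intro ℓ hℓ hℓS A hA σ hσ
    have hℓN : ¬ ℓ ∣ N := fun h => hℓS (hNS ℓ hℓ h)
    have hℓS' : ℓ ∉ (↑S : Set ℕ) := fun h => hℓS (Finset.mem_coe.1 h)
    rw [hρ' ℓ hℓ hℓN hℓS' A hA σ hσ, iota_T hj hg.1 hiota hℓ hℓN hℓS' (htg ℓ hℓ hℓS)]
  have hcmp : (LinearMap.charpoly (ρ.ρ φ)).map (algebraMap 𝒪 𝒪'') =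
      LinearMap.charpoly (ρ'.ρ φ) := by
    have := hρ.charpoly_map_eq hatt (algebraMap 𝒪 𝒪'') (RingHom.id 𝒪'') i9
      ⟨fun _ h => h⟩ (fun _ _ _ _ => rfl) φ
    rwa [Polynomial.map_id] at this
  have hmi := Polynomial.map_injective _ hinj
  rcases hst q hq hqp hqN hqN2 P hP φ hφ with h | h
  · left
    apply hmi
    rw [hcmp, h]
    simp
  · right
    apply hmi
    rw [hcmp, h]
    simp

/-- **PT3** (from S36). -/
theorem not_unipotent (h36 : S36Prop) (hpO : (p : 𝒪) ∈ maximalIdeal 𝒪) (hp2 : p ≠ 2)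
    (hg : g.IsNewform) (hpS : p ∈ S) (hNS : ∀ q : ℕ, q.Prime → q ∣ N → q ∈ S)
    (hj : Function.Injective j) (htg : ∀ ℓ : ℕ, ℓ.Prime → ℓ ∉ S → qCoeff ⇑g ℓ = j (t ℓ))
    (hρ : Attached S t ρ) (hirr : ρ.residual.IsAbsolutelyIrreducible) {q : ℕ} (hq : q.Prime)
    (hqp : q ≠ p) (hfac : N.factorization q = 2) : ¬ ρ.IsUnipotentOnInertiaAt q := by
  obtain ⟨iota, hiota⟩ := exists_iota j hj hg.1 (↑S : Set ℕ) fun ℓ hℓ hℓS => by
    rw [htg ℓ hℓ (fun h => hℓS (Finset.mem_coe.2 h))]; exact ⟨_, rfl⟩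
  have hcharp : CharP (ResidueField 𝒪) p := by
    have h0 : ((p : ℕ) : ResidueField 𝒪) = 0 := by
      rw [← map_natCast (residue 𝒪) p]; exact (residue_eq_zero_iff _).2 hpO
    exact (CharP.charP_iff_prime_eq_zero Fact.out).2 h0
  have hodd : ρ.residual.IsOdd := by
    refine isOdd_of_frob frobDensity p ρ.residual S ?_
    intro ℓ hℓ hℓS P hP σ hσ
    have h1 := charpoly_residual ρ σ
    rw [hρ ℓ hℓ hℓS P hP σ hσ,
      BN2.charpoly_eq_of_finrank_two ρ.residual.finrank_eq] at h1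
    have h2 := congrArg (fun P => P.coeff 0) h1
    simpa [coeff_C] using h2
  have hatt : ∀ (𝒪'' : Type) [CommRing 𝒪''] [IsLocalRing 𝒪''] [Algebra 𝒪 𝒪'']
      (ρ' : GaloisRepAdic 𝒪''),
      (∀ (ℓ : ℕ) (hℓ : ℓ.Prime) (hℓlam : ℓ ≠ p) (hℓM : ¬ ℓ ∣ N) (hℓS : ℓ ∉ (↑S : Set ℕ)),
        ∀ A : ValuationSubring Qbar, A.LiesOverPrime ℓ → ∀ σ : Γℚ, A.IsFrobeniusAt σ ℓ →
          LinearMap.charpoly (ρ'.ρ σ) = X ^ 2 - C (algebraMap 𝒪 𝒪''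
            ((iota.comp (EigenCharOn.eigenCharOn (↑S : Set ℕ) hg.1).rangeRestrict)
              (CuspForm.heckeAlgebra.T hℓ hℓM hℓS))) * X + C ((ℓ : 𝒪''))) →
      Attached S (fun ℓ => algebraMap 𝒪 𝒪'' (t ℓ)) ρ' := by
    intro 𝒪'' _ _ _ ρ' hρ' ℓ hℓ hℓS A hA σ hσ
    have hℓN : ¬ ℓ ∣ N := fun h => hℓS (hNS ℓ hℓ h)
    have hℓS' : ℓ ∉ (↑S : Set ℕ) := fun h => hℓS (Finset.mem_coe.1 h)
    have hℓp : ℓ ≠ p := fun h => hℓS (h ▸ hpS)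
    rw [hρ' ℓ hℓ hℓp hℓN hℓS' A hA σ hσ, iota_T hj hg.1 hiota hℓ hℓN hℓS' (htg ℓ hℓ hℓS)]
  have hcmp : ∀ (𝒪'' : Type) [CommRing 𝒪''] [IsLocalRing 𝒪''] [IsNoetherianRing 𝒪'']
      [Algebra 𝒪 𝒪''] [IsLocalHom (algebraMap 𝒪 𝒪'')] (ρ' : GaloisRepAdic 𝒪''),
      Attached S (fun ℓ => algebraMap 𝒪 𝒪'' (t ℓ)) ρ' → ∀ σ : Γℚ,
      (LinearMap.charpoly (ρ.ρ σ)).map (algebraMap 𝒪 𝒪'') = LinearMap.charpoly (ρ'.ρ σ) := by
    intro 𝒪'' _ _ _ _ i9 ρ' hρ' σ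
    have := hρ.charpoly_map_eq hρ' (algebraMap 𝒪 𝒪'') (RingHom.id 𝒪'') i9
      ⟨fun _ h => h⟩ (fun _ _ _ _ => rfl) σ
    rwa [Polynomial.map_id] at this
  obtain ⟨𝒪'', i1, i2, i3, i4, i5, i6, i7, i8, i9, hinj, ρ', hρ', hnu⟩ :=
    h36 hg p S 𝒪 hpO hp2 (EigenCharOn.eigenCharOn (↑S : Set ℕ) hg.1)
      (fun ℓ hℓ hℓM hℓS => EigenCharOn.eigenCharOn_T _ hg.1 hℓ hℓM hℓS) iota hpS hNS (by
        intro 𝒪'' _ _ _ _ _ _ _ _ _ _ ρ' hρ'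
        have hc := hcmp 𝒪'' ρ' (hatt 𝒪'' ρ' hρ')
        have hcr : ∀ σ : Γℚ, (LinearMap.charpoly (ρ'.residual.ρ σ)).map (RingHom.id _) =
            (LinearMap.charpoly (ρ.residual.ρ σ)).map
              (ResidueField.map (algebraMap 𝒪 𝒪'')) := by
          intro σ
          rw [Polynomial.map_id, charpoly_residual, charpoly_residual, ← hc σ,
            Polynomial.map_map, Polynomial.map_map]
          rfl
        refine ⟨BN2.isAbsolutelyIrreducible_of_charpoly_eq _ _ _ _ hcr hirr, ?_⟩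
        intro c hc hc1
        have h1 := BN2.det_eq_of_charpoly_map_eq ρ'.residual.finrank_eq ρ.residual.finrank_eq
          _ _ _ _ (hcr c)
        rw [hodd c hc hc1, map_neg, map_one, RingHom.id_apply] at h1
        exact h1)
  have hatt' := hatt 𝒪'' ρ' fun ℓ hℓ _ => hρ' ℓ hℓ
  intro hun
  refine hnu q hq hqp hfac fun P hP σ hσ => ?_
  rw [← hcmp 𝒪'' ρ' hatt' σ, hun P hP σ hσ]
  simp

/-- Enlarging `𝒪` so that its image in `ℂ` contains a given algebraic integer. -/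
theorem exists_extension (j : 𝒪 →+* ℂ) (hj : Function.Injective j) (α : ℂ) (hα : IsIntegral ℤ α) :
    ∃ (𝒪' : Type) (_ : CommRing 𝒪') (_ : IsDomain 𝒪') (_ : IsDiscreteValuationRing 𝒪')
      (_ : IsAdicComplete (maximalIdeal 𝒪') 𝒪') (_ : Finite (ResidueField 𝒪'))
      (_ : CharZero 𝒪') (_ : Algebra 𝒪 𝒪') (_ : Module.Finite 𝒪 𝒪')
      (_ : IsLocalHom (algebraMap 𝒪 𝒪')), Function.Injective (algebraMap 𝒪 𝒪') ∧
      ∃ j' : 𝒪' →+* ℂ, Function.Injective j' ∧ j'.comp (algebraMap 𝒪 𝒪') = j ∧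
        ∃ a : 𝒪', j' a = α := by
  let _ : Algebra 𝒪 ℂ := j.toAlgebra
  let B : Subalgebra 𝒪 ℂ := Algebra.adjoin 𝒪 {α}
  have hα' : IsIntegral 𝒪 α := by
    obtain ⟨P, hP, hPα⟩ := hα
    refine ⟨P.map (algebraMap ℤ 𝒪), hP.map _, ?_⟩
    rw [Polynomial.eval₂_map, ← hPα]
    congr 1
    exact RingHom.ext_int _ _
  have hfin : Module.Finite 𝒪 B :=
    ⟨(Submodule.fg_top _).2 (IsIntegral.fg_adjoin_singleton hα')⟩
  have hinjB : Function.Injective (algebraMap 𝒪 B) := fun x y hxy =>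
    hj (congrArg Subtype.val hxy)
  obtain ⟨𝒪', i1, i2, i3, i4, i5, i6, i7, i8, i9, i10, hinj, φ, hφ⟩ :=
    Components.exists_dvr_of_isDomain 𝒪 B hinjB
  let _ : Algebra B 𝒪' := (φ : B →+* 𝒪').toAlgebra
  have hst : IsScalarTower 𝒪 B 𝒪' := IsScalarTower.of_algebraMap_eq' (by
    exact φ.comp_algebraMap.symm)
  have hfin' : Module.Finite B 𝒪' := Module.Finite.of_restrictScalars_finite 𝒪 B 𝒪'
  have hint : Algebra.IsIntegral B 𝒪' := Algebra.IsIntegral.of_finite B 𝒪'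
  obtain ⟨j', hj', hjj⟩ := exists_embedding_extend (A := B) (B := 𝒪') (K := ℂ) hφ
    (B.val : B →+* ℂ) Subtype.val_injective
  refine ⟨𝒪', i1, i2, i3, i4, i5, i6, i7, i8, i10, hinj, j', hj', ?_,
    φ ⟨α, Algebra.self_mem_adjoin_singleton 𝒪 α⟩, ?_⟩
  · ext x
    have h1 := congrArg (fun F : B →+* ℂ => F (algebraMap 𝒪 B x)) hjj
    have h2 : algebraMap B 𝒪' (algebraMap 𝒪 B x) = algebraMap 𝒪 𝒪' x :=
      (IsScalarTower.algebraMap_apply 𝒪 B 𝒪' x).symm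
    simp only [RingHom.comp_apply] at h1 ⊢
    rw [← h2, h1]
    rfl
  · exact congrArg (fun F : B →+* ℂ => F ⟨α, Algebra.self_mem_adjoin_singleton 𝒪 α⟩) hjj

/-- **PT1.** The characteristic polynomial of a Frobenius at every prime `q ∤ N p`. -/
theorem exists_trace_eq (h30 : Datum.S30Statement) (hpO : (p : 𝒪) ∈ maximalIdeal 𝒪)
    (hg : g.IsNewform) (hpS : p ∈ S) (hNS : ∀ q : ℕ, q.Prime → q ∣ N → q ∈ S)
    (hj : Function.Injective j) (htg : ∀ ℓ : ℕ, ℓ.Prime → ℓ ∉ S → qCoeff ⇑g ℓ = j (t ℓ))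
    (hρ : Attached S t ρ) {q : ℕ} (hq : q.Prime) (hqN : ¬ q ∣ N) (hqp : q ≠ p) :
    ∃ a : 𝒪, j a = qCoeff ⇑g q ∧ ∀ P : ValuationSubring Qbar, P.LiesOverPrime q → ∀ φ : Γℚ,
      P.IsFrobeniusAt φ q → LinearMap.charpoly (ρ.ρ φ) = X ^ 2 - C a * X + C ((q : 𝒪)) := by
  classical
  obtain ⟨𝒪', i1, i2, i3, i4, i5, i6, i7, i8, i9, hinj, j', hj', hjj, a', ha'⟩ :=
    exists_extension j hj (qCoeff ⇑g q) (EigenCharacter.isIntegral_qCoeff hg.1 hq)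
  have hpO' : (p : 𝒪') ∈ maximalIdeal 𝒪' := by
    have h1 := map_nonunit (algebraMap 𝒪 𝒪') (p : 𝒪) hpO
    rwa [map_natCast] at h1
  let t' : ℕ → 𝒪' := fun ℓ => if ℓ = q then a' else algebraMap 𝒪 𝒪' (t ℓ)
  obtain ⟨𝒪'', k1, k2, k3, k4, k5, k6, k7, k8, k9, hinj', ρ', hρ', hunr⟩ :=
    exists_rep (g := g) (t := t') (S := S.erase q) (j := j') h30 hpO' hg
      (Finset.mem_erase.2 ⟨Ne.symm hqp, hpS⟩)
      (fun r hr hrN => Finset.mem_erase.2 ⟨fun h => hqN (h ▸ hrN), hNS r hr hrN⟩) hj'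
      (fun ℓ hℓ hℓS => by
        by_cases hℓq : ℓ = q
        · subst hℓq
          simp only [t', if_true, ha']
        · have : ℓ ∉ S := fun h => hℓS (Finset.mem_erase.2 ⟨hℓq, h⟩)
          simp only [t', if_neg hℓq]
          rw [htg ℓ hℓ this, ← hjj]
          rfl)
  let i : 𝒪 →+* 𝒪'' := (algebraMap 𝒪' 𝒪'').comp (algebraMap 𝒪 𝒪')
  have hi : IsLocalHom i := RingHom.isLocalHom_comp _ _
  have hii : Function.Injective i := hinj'.comp hinj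
  have hcmp : ∀ σ : Γℚ, (LinearMap.charpoly (ρ.ρ σ)).map i = LinearMap.charpoly (ρ'.ρ σ) := by
    intro σ
    have := (hρ.mono (Finset.subset_insert q S)).charpoly_map_eq hρ' i (RingHom.id 𝒪'') hi
      ⟨fun _ h => h⟩ (fun ℓ _ hℓS _ => by
        have h1 : ℓ ≠ q := fun h => hℓS (h ▸ Finset.mem_insert_self q S)
        simp only [t', if_neg h1]
        rfl) σ
    rwa [Polynomial.map_id] at this
  -- all Frobenius elements at `q`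
  have hfrob : ∀ P : ValuationSubring Qbar, P.LiesOverPrime q → ∀ φ : Γℚ,
      P.IsFrobeniusAt φ q → (LinearMap.charpoly (ρ.ρ φ)).map i =
        X ^ 2 - C (algebraMap 𝒪' 𝒪'' a') * X + C (q : 𝒪'') := by
    intro P hP φ hφ
    rw [hcmp φ, hρ' q hq (Finset.notMem_erase q S) P hP φ hφ]
    simp only [t', if_true]
  obtain ⟨P₀, hP₀⟩ := FrobExists.exists_liesOverPrime Qbar hq
  obtain ⟨φ₀, hφ₀⟩ := FrobExists.exists_isFrobeniusAt P₀ hq hP₀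
  have h0 := hfrob P₀ hP₀ φ₀ hφ₀
  rw [BN2.charpoly_eq_of_finrank_two ρ.finrank_eq] at h0
  have h1 := congrArg (fun P => P.coeff 1) h0
  have h2 : i (LinearMap.trace 𝒪 ρ.V (ρ.ρ φ₀)) = algebraMap 𝒪' 𝒪'' a' := by
    simpa [coeff_X, coeff_C] using h1
  have h3 : algebraMap 𝒪 𝒪' (LinearMap.trace 𝒪 ρ.V (ρ.ρ φ₀)) = a' := hinj' h2
  refine ⟨LinearMap.trace 𝒪 ρ.V (ρ.ρ φ₀), ?_, fun P hP φ hφ => ?_⟩
  · rw [← hjj, RingHom.comp_apply, h3, ha']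
  · apply Polynomial.map_injective i hii
    rw [hfrob P hP φ hφ, ← h2]
    simp

end main

end Fermat.Agent.RT.Point
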