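import Mathlib

/-!
# The universal derivation `R → Φ = ker λ / (ker λ)²` of an augmented algebra
-/

set_option autoImplicit false

noncomputable section

open IsLocalRing

namespace Fermat.Agent.RT.SelDer

section Der

variable {𝒪 R : Type*} [CommRing 𝒪] [CommRing R] [Algebra 𝒪 R] (lam : R →ₐ[𝒪] 𝒪)

/-- The cotangent space of an augmentation `λ : R → 𝒪`. -/
abbrev Cot : Type _ := (RingHom.ker lam).Cotangent

theorem sub_mem_ker (x : R) : x - algebraMap 𝒪 R (lam x) ∈ RingHom.ker lam := by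
  rw [RingHom.mem_ker, map_sub, AlgHom.commutes, Algebra.algebraMap_self, RingHom.id_apply,
    sub_self]

theorem smul_cot (r : R) (z : Cot lam) : r • z = lam r • z := by
  have h := Ideal.Cotangent.smul_eq_zero_of_mem (sub_mem_ker lam r) z
  rw [sub_smul, sub_eq_zero] at h
  rw [h, algebraMap_smul]

/-- The universal derivation. -/
def der : R →ₗ[𝒪] Cot lam where
  toFun x := (RingHom.ker lam).toCotangent ⟨x - algebraMap 𝒪 R (lam x), sub_mem_ker lam x⟩
  map_add' x y := by
    rw [← map_add]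
    congr 1
    apply Subtype.ext
    show x + y - algebraMap 𝒪 R (lam (x + y)) = (x - algebraMap 𝒪 R (lam x)) +
      (y - algebraMap 𝒪 R (lam y))
    rw [map_add, map_add]
    ring
  map_smul' c x := by
    rw [RingHom.id_apply]
    rw [← algebraMap_smul R c ((RingHom.ker lam).toCotangent _), ← map_smul]
    congr 1
    apply Subtype.ext
    show c • x - algebraMap 𝒪 R (lam (c • x)) = algebraMap 𝒪 R c * (x - algebraMap 𝒪 R (lam x))
    rw [map_smul, smul_eq_mul, map_mul, Algebra.smul_def]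
    ring

theorem der_apply (x : R) : der lam x =
    (RingHom.ker lam).toCotangent ⟨x - algebraMap 𝒪 R (lam x), sub_mem_ker lam x⟩ := rfl

theorem der_of_mem {x : R} (hx : x ∈ RingHom.ker lam) :
    der lam x = (RingHom.ker lam).toCotangent ⟨x, hx⟩ := by
  rw [der_apply]
  congr 1
  apply Subtype.ext
  show x - algebraMap 𝒪 R (lam x) = x
  rw [(RingHom.mem_ker).mp hx, map_zero, sub_zero]

theorem der_eq_zero_iff {x : R} (hx : x ∈ RingHom.ker lam) :
    der lam x = 0 ↔ x ∈ RingHom.ker lam ^ 2 := by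
  rw [der_of_mem lam hx, Ideal.toCotangent_eq_zero]

@[simp] theorem der_algebraMap (c : 𝒪) : der lam (algebraMap 𝒪 R c) = 0 := by
  rw [der_apply]
  convert map_zero (RingHom.ker lam).toCotangent
  show algebraMap 𝒪 R c - algebraMap 𝒪 R (lam (algebraMap 𝒪 R c)) = 0
  rw [AlgHom.commutes]
  exact sub_self _

@[simp] theorem der_one : der lam 1 = 0 := by
  have := der_algebraMap lam 1
  rwa [map_one] at this

@[simp] theorem der_natCast (n : ℕ) : der lam (n : R) = 0 := by
  have := der_algebraMap lam (n : 𝒪)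
  rwa [map_natCast] at this

theorem der_mul (x y : R) : der lam (x * y) = lam x • der lam y + lam y • der lam x := by
  rw [← smul_cot, ← smul_cot]
  simp only [der_apply]
  rw [← map_smul, ← map_smul, ← map_add, ← sub_eq_zero, ← map_sub, Ideal.toCotangent_eq_zero]
  show x * y - algebraMap 𝒪 R (lam (x * y)) - (x * (y - algebraMap 𝒪 R (lam y)) +
    y * (x - algebraMap 𝒪 R (lam x))) ∈ RingHom.ker lam ^ 2
  have h : x * y - algebraMap 𝒪 R (lam (x * y)) - (x * (y - algebraMap 𝒪 R (lam y)) +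
      y * (x - algebraMap 𝒪 R (lam x))) =
      - ((x - algebraMap 𝒪 R (lam x)) * (y - algebraMap 𝒪 R (lam y))) := by
    rw [map_mul, map_mul]; ring
  rw [h, pow_two]
  exact neg_mem (Ideal.mul_mem_mul (sub_mem_ker lam x) (sub_mem_ker lam y))

theorem der_surjective : Function.Surjective (der lam) := by
  intro z
  obtain ⟨⟨x, hx⟩, rfl⟩ := (RingHom.ker lam).toCotangent_surjective z
  exact ⟨x, der_of_mem lam hx⟩

instance finite_cot [IsNoetherianRing R] : Module.Finite 𝒪 (Cot lam) := by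
  classical
  have hfg : (RingHom.ker lam).FG := IsNoetherian.noetherian _
  obtain ⟨s, hs⟩ := hfg
  refine ⟨⟨s.image (der lam), ?_⟩⟩
  rw [eq_top_iff]
  rintro z -
  obtain ⟨⟨x, hx⟩, rfl⟩ := (RingHom.ker lam).toCotangent_surjective z
  rw [← der_of_mem lam hx]
  rw [← hs] at hx
  have hsub : ∀ y ∈ s, y ∈ RingHom.ker lam := fun y hy => hs ▸ Ideal.subset_span hy
  have key : der lam x ∈ Submodule.span 𝒪 ((s.image (der lam) : Finset (Cot lam)) :
      Set (Cot lam)) ∧ x ∈ RingHom.ker lam := by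
    refine Submodule.span_induction (p := fun x _ => der lam x ∈ Submodule.span 𝒪
      ((s.image (der lam) : Finset (Cot lam)) : Set (Cot lam)) ∧ x ∈ RingHom.ker lam)
      ?_ ?_ ?_ ?_ hx
    · intro y hy
      exact ⟨Submodule.subset_span (by simpa using ⟨y, hy, rfl⟩), hsub y hy⟩
    · exact ⟨by rw [map_zero]; exact Submodule.zero_mem _, Ideal.zero_mem _⟩
    · intro a b _ _ ha hb
      exact ⟨by rw [map_add]; exact Submodule.add_mem _ ha.1 hb.1, Ideal.add_mem _ ha.2 hb.2⟩
    · intro r y _ hy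
      refine ⟨?_, Ideal.mul_mem_left _ _ hy.2⟩
      rw [smul_eq_mul, der_mul, (RingHom.mem_ker).mp hy.2, zero_smul, add_zero]
      exact Submodule.smul_mem _ _ hy.1
  exact key.1

end Der

section Local

variable {𝒪 R : Type*} [CommRing 𝒪] [CommRing R] [Algebra 𝒪 R] [IsLocalRing 𝒪] [IsLocalRing R]
  (lam : R →ₐ[𝒪] 𝒪)

/-- An augmentation of local rings is a local homomorphism. -/
theorem map_mem_maximalIdeal {x : R} (hx : x ∈ maximalIdeal R) : lam x ∈ maximalIdeal 𝒪 := by
  by_contra h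
  rw [mem_maximalIdeal, mem_nonunits_iff, not_not] at h
  have hu : IsUnit (algebraMap 𝒪 R (lam x)) := h.map _
  have hker : x - algebraMap 𝒪 R (lam x) ∈ maximalIdeal R := by
    refine IsLocalRing.le_maximalIdeal ?_ (sub_mem_ker lam x)
    exact RingHom.ker_ne_top lam
  have : algebraMap 𝒪 R (lam x) ∈ maximalIdeal R := by
    have h2 := Ideal.sub_mem _ hx hker
    rwa [sub_sub_cancel] at h2
  exact (mem_maximalIdeal _).mp this hu

theorem map_mem_maximalIdeal_pow {x : R} (n : ℕ) (hx : x ∈ maximalIdeal R ^ n) :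
    lam x ∈ maximalIdeal 𝒪 ^ n := by
  have h : (maximalIdeal R).map lam ≤ maximalIdeal 𝒪 :=
    Ideal.map_le_iff_le_comap.mpr fun a ha => map_mem_maximalIdeal lam ha
  have h2 : (maximalIdeal R ^ n).map lam ≤ maximalIdeal 𝒪 ^ n := by
    rw [Ideal.map_pow]
    exact Ideal.pow_right_mono h n
  exact h2 (Ideal.mem_map_of_mem _ hx)

/-- `der` maps `𝔪_R^{n+1}` to `𝔪_𝒪^n Φ`. -/
theorem der_mem_of_mem_pow (n : ℕ) {x : R} (hx : x ∈ maximalIdeal R ^ (n + 1)) :
    der lam x ∈ (maximalIdeal 𝒪 ^ n • ⊤ : Submodule 𝒪 (Cot lam)) := by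
  induction n generalizing x with
  | zero => rw [pow_zero, Ideal.one_eq_top, Submodule.top_smul]; exact Submodule.mem_top
  | succ n ih =>
    rw [pow_succ] at hx
    refine Submodule.mul_induction_on hx ?_ ?_
    · intro a ha b hb
      rw [der_mul]
      refine Submodule.add_mem _ ?_ ?_
      · exact Submodule.smul_mem_smul (map_mem_maximalIdeal_pow lam _ ha) Submodule.mem_top
      · have h1 := Submodule.smul_mem_smul (map_mem_maximalIdeal lam hb) (ih ha)
        rwa [← Submodule.mul_smul, ← pow_succ'] at h1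
    · intro a b ha hb
      rw [map_add]
      exact Submodule.add_mem _ ha hb

/-- The ideal `(ker λ)² + 𝔪_R^{n+1}`. -/
def KI (n : ℕ) : Ideal R := RingHom.ker lam ^ 2 ⊔ maximalIdeal R ^ (n + 1)

theorem der_mem_of_mem_KI (n : ℕ) {x : R} (hx : x ∈ KI lam n) :
    der lam x ∈ (maximalIdeal 𝒪 ^ n • ⊤ : Submodule 𝒪 (Cot lam)) := by
  obtain ⟨a, ha, b, hb, rfl⟩ := Submodule.mem_sup.mp hx
  rw [map_add, (der_eq_zero_iff lam (Ideal.pow_le_self two_ne_zero ha)).mpr ha, zero_add]
  exact der_mem_of_mem_pow lam n hb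

end Local

end Fermat.Agent.RT.SelDer
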