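import Mathlib

/-!
# Lengths of modules given by square presentations

* `length_quotient_range`: for an injective endomorphism `T` of a finite free module over a PID,
  the length of the cokernel is `Ring.ord R (det T)`;
* `length_span_le`: if `A • x = 0` for a square matrix `A` and a vector `x` with entries in a
  module, then the span of the entries of `x` has length at most `Ring.ord R A.det`;
* `length_span_le_of_adjoint`: the case of a traceless `2 × 2` matrix `X` with entries in a module
  such that `B X = q X B`;
* `length_le_of_forall_quotient`: a finite module over a noetherian local ring all of whose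
  quotients `N / m^k N` have length at most `c` has length at most `c`.
-/

set_option autoImplicit false

noncomputable section

open Module

namespace Fermat.Agent.RT.SelLength

section Smith

variable {R : Type*} [CommRing R] [IsDomain R] [IsPrincipalIdealRing R]
  {ι : Type*} [Fintype ι] [DecidableEq ι]

omit [IsPrincipalIdealRing R] in
theorem ord_prod {κ : Type*} (s : Finset κ) (a : κ → R) (ha : ∀ i ∈ s, a i ≠ 0) :
    Ring.ord R (∏ i ∈ s, a i) = ∑ i ∈ s, Ring.ord R (a i) := by
  classical
  induction s using Finset.induction_on with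
  | empty =>
    rw [Finset.prod_empty, Finset.sum_empty]
    exact Ring.ord_one R
  | insert i s hi ih =>
    rw [Finset.prod_insert hi, Finset.sum_insert hi, Ring.ord_mul R, ih fun j hj =>
      ha j (Finset.mem_insert_of_mem hj)]
    exact mem_nonZeroDivisors_of_ne_zero
      (Finset.prod_ne_zero_iff.mpr fun j hj => ha j (Finset.mem_insert_of_mem hj))

omit [IsPrincipalIdealRing R] in
theorem ord_congr {a b : R} (h : Associated a b) : Ring.ord R a = Ring.ord R b := by
  rw [Ring.ord, Ring.ord, Ideal.span_singleton_eq_span_singleton.mpr h]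

/-- The length of the cokernel of an injective endomorphism of a free module is the order of the
determinant. -/
theorem length_quotient_range_of_injective {M : Type*} [AddCommGroup M] [Module R M]
    (b : Basis ι R M) (T : M →ₗ[R] M) (hinj : Function.Injective T) :
    Module.length R (M ⧸ LinearMap.range T) = Ring.ord R (LinearMap.det T) := by
  have : Module.Free R M := Module.Free.of_basis b
  have : Module.Finite R M := Module.Finite.of_basis b
  let e : M ≃ₗ[R] LinearMap.range T := LinearEquiv.ofInjective T hinj
  have hrank : Module.finrank R (LinearMap.range T) = Module.finrank R M := e.symm.finrank_eq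
  let b' := Submodule.smithNormalFormTopBasis b hrank
  let ab := Submodule.smithNormalFormBotBasis b hrank
  let a := Submodule.smithNormalFormCoeffs b hrank
  have ha : ∀ i, a i ≠ 0 := Submodule.smithNormalFormCoeffs_ne_zero b hrank
  have hab : ∀ i, (ab i : M) = a i • b' i := Submodule.smithNormalFormBotBasis_def b hrank
  have hT : T = (LinearMap.range T).subtype ∘ₗ e.toLinearMap := rfl
  have hsub : LinearMap.toMatrix ab b' (LinearMap.range T).subtype = Matrix.diagonal a := by
    ext i j
    rw [LinearMap.toMatrix_apply, Submodule.subtype_apply, hab, map_smul, Basis.repr_self,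
      Finsupp.smul_apply, Matrix.diagonal_apply, Finsupp.single_apply, smul_eq_mul]
    by_cases hij : i = j
    · subst hij; simp
    · rw [if_neg hij, if_neg (fun h => hij h.symm), mul_zero]
  have hdet : LinearMap.det T = (∏ i, a i) * (LinearMap.toMatrix b' ab e.toLinearMap).det := by
    rw [← LinearMap.det_toMatrix b' T]
    conv_lhs => rw [hT]
    rw [LinearMap.toMatrix_comp b' ab b', Matrix.det_mul, hsub, Matrix.det_diagonal]
  have hunit : IsUnit (LinearMap.toMatrix b' ab e.toLinearMap).det := by
    have h1 : LinearMap.toMatrix b' ab e.toLinearMap * LinearMap.toMatrix ab b' e.symm.toLinearMap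
        = 1 := by
      rw [← LinearMap.toMatrix_comp, LinearEquiv.comp_symm, LinearMap.toMatrix_id]
    refine IsUnit.of_mul_eq_one (LinearMap.toMatrix ab b' e.symm.toLinearMap).det ?_
    rw [← Matrix.det_mul, h1, Matrix.det_one]
  have hass : Associated (LinearMap.det T) (∏ i, a i) := by
    rw [hdet]
    exact (associated_mul_unit_right _ _ hunit).symm
  rw [ord_congr hass, ord_prod _ _ fun i _ => ha i,
    (Submodule.quotientEquivPiSpan (LinearMap.range T) b hrank).length_eq,
    Module.length_pi_of_fintype]
  rfl

/-- If `A • x = 0` for a square matrix `A`, the span of the entries of `x` has length at most the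
order of `det A`. -/
theorem length_span_le {E : Type*} [AddCommGroup E] [Module R E] (A : Matrix ι ι R) (x : ι → E)
    (h : ∀ i, ∑ j, A i j • x j = 0) (hdet : A.det ≠ 0) :
    Module.length R (Submodule.span R (Set.range x)) ≤ Ring.ord R A.det := by
  let T : (ι → R) →ₗ[R] (ι → R) := Matrix.toLin' A.transpose
  have hTinj : Function.Injective T := by
    have h1 : A.transpose.det ≠ 0 := by rwa [Matrix.det_transpose]
    exact Matrix.mulVec_injective_of_det_ne_zero h1
  have hTdet : LinearMap.det T = A.det := by
    rw [LinearMap.det_toLin', Matrix.det_transpose]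
  rw [← hTdet, ← length_quotient_range_of_injective (Pi.basisFun R ι) T hTinj]
  let F : (ι → R) →ₗ[R] E := Fintype.linearCombination R x
  have hF : LinearMap.range F = Submodule.span R (Set.range x) := Fintype.range_linearCombination R x
  have hker : LinearMap.range T ≤ LinearMap.ker F.rangeRestrict := by
    rw [LinearMap.ker_rangeRestrict]
    rintro _ ⟨v, rfl⟩
    rw [LinearMap.mem_ker]
    show Fintype.linearCombination R x (Matrix.toLin' A.transpose v) = 0
    rw [Fintype.linearCombination_apply]
    simp only [Matrix.toLin'_apply, Matrix.mulVec, dotProduct, Matrix.transpose_apply,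
      Finset.sum_smul]
    rw [Finset.sum_comm]
    refine Finset.sum_eq_zero fun i _ => ?_
    have h2 : ∀ j, (A i j * v i) • x j = v i • (A i j • x j) := fun j => by
      rw [smul_smul, mul_comm]
    simp only [h2]
    rw [← Finset.smul_sum, h i, smul_zero]
  rw [← hF]
  refine Module.length_le_of_surjective ((LinearMap.range T).liftQ F.rangeRestrict hker) ?_
  rw [← LinearMap.range_eq_top, Submodule.range_liftQ, LinearMap.range_eq_top]
  exact F.surjective_rangeRestrict

/-- A traceless `2 × 2` matrix `X` with entries in a module such that `B X = q X B`. -/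
theorem length_span_le_of_adjoint' {E : Type*} [AddCommGroup E] [Module R E]
    (B : Matrix (Fin 2) (Fin 2) R) (X : Matrix (Fin 2) (Fin 2) E) (q : R)
    (htr : X 0 0 + X 1 1 = 0)
    (hBX : ∀ i j, B i 0 • X 0 j + B i 1 • X 1 j = q • (B 0 j • X i 0 + B 1 j • X i 1))
    (hdet : B.det ^ 2 * ((1 - q) * (B.det * (1 + q) ^ 2 - q * B.trace ^ 2)) ≠ 0) :
    Module.length R (Submodule.span R {y | ∃ i j, y = X i j}) ≤
      Ring.ord R (B.det ^ 2 * ((1 - q) * (B.det * (1 + q) ^ 2 - q * B.trace ^ 2))) := by
  set a := B 0 0 with ha
  set b := B 0 1 with hb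
  set c := B 1 0 with hc
  set d := B 1 1 with hd
  have hD : B.det = a * d - b * c := Matrix.det_fin_two B
  have ht : B.trace = a + d := Matrix.trace_fin_two B
  let A : Matrix (Fin 3) (Fin 3) R :=
    !![a * d + b * c - q * (a * d - b * c), - (a * c), b * d;
       - (2 * a * b), a ^ 2 - q * (a * d - b * c), - b ^ 2;
       2 * c * d, - c ^ 2, d ^ 2 - q * (a * d - b * c)]
  have hA : A.det = B.det ^ 2 * ((1 - q) * (B.det * (1 + q) ^ 2 - q * B.trace ^ 2)) := by
    rw [hD, ht, Matrix.det_fin_three]
    rw [show A 0 0 = a * d + b * c - q * (a * d - b * c) from rfl, show A 0 1 = - (a * c) from rfl,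
      show A 0 2 = b * d from rfl, show A 1 0 = - (2 * a * b) from rfl,
      show A 1 1 = a ^ 2 - q * (a * d - b * c) from rfl, show A 1 2 = - b ^ 2 from rfl,
      show A 2 0 = 2 * c * d from rfl, show A 2 1 = - c ^ 2 from rfl,
      show A 2 2 = d ^ 2 - q * (a * d - b * c) from rfl]
    ring
  let x : Fin 3 → E := ![X 0 0, X 0 1, X 1 0]
  have h11 : X 1 1 = - X 0 0 := by
    rw [eq_neg_iff_add_eq_zero, add_comm]; exact htr
  have h00 := hBX 0 0
  have h01 := hBX 0 1
  have h10 := hBX 1 0
  have h11' := hBX 1 1
  rw [h11] at h01 h10 h11'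
  simp only [← ha, ← hb, ← hc, ← hd] at h00 h01 h10 h11'
  have hAx : ∀ i, ∑ j, A i j • x j = 0 := by
    intro i
    rw [Fin.sum_univ_three]
    fin_cases i
    · show (a * d + b * c - q * (a * d - b * c)) • X 0 0 + (- (a * c)) • X 0 1 +
        (b * d) • X 1 0 = 0
      linear_combination (norm := module) d • h00 - c • h01
    · show (- (2 * a * b)) • X 0 0 + (a ^ 2 - q * (a * d - b * c)) • X 0 1 +
        (- b ^ 2) • X 1 0 = 0
      linear_combination (norm := module) a • h01 - b • h00
    · show (2 * c * d) • X 0 0 + (- c ^ 2) • X 0 1 +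
        (d ^ 2 - q * (a * d - b * c)) • X 1 0 = 0
      linear_combination (norm := module) d • h10 - c • h11'
  have hspan : Submodule.span R {y | ∃ i j, y = X i j} ≤ Submodule.span R (Set.range x) := by
    rw [Submodule.span_le]
    rintro _ ⟨i, j, rfl⟩
    fin_cases i <;> fin_cases j
    · exact Submodule.subset_span ⟨0, rfl⟩
    · exact Submodule.subset_span ⟨1, rfl⟩
    · exact Submodule.subset_span ⟨2, rfl⟩
    · show X 1 1 ∈ _
      rw [h11]
      exact Submodule.neg_mem _ (Submodule.subset_span ⟨0, rfl⟩)
  rw [← hA] at hdet ⊢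
  exact (Module.length_le_of_injective (Submodule.inclusion hspan)
    (Submodule.inclusion_injective hspan)).trans (length_span_le A x hAx hdet)

end Smith

section Local

open IsLocalRing

variable {R : Type*} [CommRing R] [IsLocalRing R] [IsNoetherianRing R]
  {N : Type*} [AddCommGroup N] [Module R N] [Module.Finite R N]

theorem length_le_of_forall_quotient (c : ℕ∞)
    (h : ∀ m : ℕ, Module.length R (N ⧸ (maximalIdeal R ^ m • ⊤ : Submodule R N)) ≤ c) :
    Module.length R N ≤ c := by
  induction c using ENat.recTopCoe with
  | top => exact le_top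
  | coe n =>
    have key : ∃ m, m ≤ n ∧ (maximalIdeal R ^ (m + 1) • ⊤ : Submodule R N) =
        (maximalIdeal R ^ m • ⊤ : Submodule R N) := by
      by_contra hcon
      push Not at hcon
      have hle : ∀ m, (maximalIdeal R ^ (m + 1) • ⊤ : Submodule R N) ≤
          (maximalIdeal R ^ m • ⊤ : Submodule R N) := fun m =>
        Submodule.smul_mono_left (Ideal.pow_le_pow_right (Nat.le_succ m))
      have h1 : ∀ m, m ≤ n + 1 → (m : ℕ∞) ≤
          Order.coheight (maximalIdeal R ^ m • ⊤ : Submodule R N) := by
        intro m
        induction m with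
        | zero => intro _; exact zero_le
        | succ m ih =>
          intro hm
          have hlt : (maximalIdeal R ^ (m + 1) • ⊤ : Submodule R N) <
              (maximalIdeal R ^ m • ⊤ : Submodule R N) :=
            lt_of_le_of_ne (hle m) (hcon m (by omega))
          have h2 := Order.coheight_add_one_le hlt
          have h3 := ih (by omega)
          push_cast
          exact (add_le_add_left h3 1).trans h2
      have h2 := h1 (n + 1) le_rfl
      rw [← Module.length_quotient] at h2
      have h3 := h2.trans (h (n + 1))
      have h4 : n + 1 ≤ n := by exact_mod_cast h3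
      omega
    obtain ⟨m, -, hm⟩ := key
    have h0 : (maximalIdeal R ^ m • ⊤ : Submodule R N) = ⊥ := by
      refine Submodule.eq_bot_of_le_smul_of_le_jacobson_bot (maximalIdeal R) _
        (IsNoetherian.noetherian _) ?_ ?_
      · rw [← Submodule.mul_smul, ← pow_succ', hm]
      · exact (IsLocalRing.jacobson_eq_maximalIdeal ⊥ bot_ne_top).ge
    have h1 := h m
    rw [h0] at h1
    rwa [(Submodule.quotEquivOfEqBot (⊥ : Submodule R N) rfl).length_eq] at h1

/-- A submodule `N` of a finite module `Φ` all of whose images in `Φ / m^k Φ` have length at most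
`c` has length at most `c`. -/
theorem length_le_of_forall_map {Φ : Type*} [AddCommGroup Φ] [Module R Φ] [Module.Finite R Φ]
    (P : Submodule R Φ) (c : ℕ∞)
    (h : ∀ m : ℕ, Module.length R
      (P.map (maximalIdeal R ^ m • ⊤ : Submodule R Φ).mkQ) ≤ c) :
    Module.length R P ≤ c := by
  obtain ⟨k, hk⟩ := (maximalIdeal R).exists_pow_inf_eq_pow_smul P
  refine length_le_of_forall_quotient c fun j => le_trans ?_ (h (j + k))
  let Q : Submodule R Φ := maximalIdeal R ^ (j + k) • ⊤
  let g : P →ₗ[R] P.map Q.mkQ := (Q.mkQ).restrict fun x hx => Submodule.mem_map_of_mem hx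
  have hg : Function.Surjective g := by
    rintro ⟨_, ⟨x, hx, rfl⟩⟩
    exact ⟨⟨x, hx⟩, rfl⟩
  have hker : LinearMap.ker g ≤ (maximalIdeal R ^ j • ⊤ : Submodule R P) := by
    rintro ⟨x, hx⟩ hxg
    have hxQ : x ∈ Q := by
      have h1 : (g ⟨x, hx⟩ : Φ ⧸ Q) = 0 := by
        rw [LinearMap.mem_ker.mp hxg]; rfl
      exact (Submodule.Quotient.mk_eq_zero Q).mp h1
    have h2 : x ∈ Q ⊓ P := ⟨hxQ, hx⟩
    rw [hk (j + k) (Nat.le_add_left _ _), Nat.add_sub_cancel] at h2
    have h3 : x ∈ maximalIdeal R ^ j • P :=
      Submodule.smul_mono le_rfl inf_le_right h2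
    have h4 : (maximalIdeal R ^ j • (⊤ : Submodule R P)).map P.subtype = maximalIdeal R ^ j • P := by
      rw [Submodule.map_smul'', Submodule.map_top, Submodule.range_subtype]
    rw [← h4] at h3
    obtain ⟨y, hy, hyx⟩ := h3
    have : y = ⟨x, hx⟩ := Subtype.ext hyx
    rwa [← this]
  -- `P / ker g ≅ map`, and `P / m^j P` is a quotient of `P / ker g`
  let e := g.quotKerEquivOfSurjective hg
  rw [← e.length_eq]
  exact Module.length_le_of_surjective (Submodule.factor hker) (Submodule.factor_surjective hker)

end Local

end Fermat.Agent.RT.SelLength
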