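import Mathlib
import Fermat.Agent.TWP.Tame

/-!
# Tame inertia: the Frobenius relation

On top of `Fermat.Agent.TWP.Tame` (tame inertia is procyclic at finite level): for a homomorphism
`f : Γ →* H` of finite level such that `f σ ^ p = 1` on the inertia group at a place over `q`,
`p` prime to `q`, we have `f (φ τ φ⁻¹) = f τ ^ q` for `τ` in inertia and `φ` a Frobenius.
-/

set_option autoImplicit false

open Pointwise NumberField

namespace Fermat.Agent.RT.SelTame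

open Fermat.Agent.TWP.Tame Fermat.Agent

local notation "Qb" => AlgebraicClosure ℚ
local notation "Γ" => (AlgebraicClosure ℚ ≃ₐ[ℚ] AlgebraicClosure ℚ)

variable {A : ValuationSubring Qb}

/-- Elements in the kernel of the tame character of a uniformizer of a normal finite level are
killed by `f`. -/
theorem exists_tame_kernel {q : ℕ} (hq : q.Prime) (hA : A.LiesOverPrime q)
    {H : Type*} [Group H] (f : Γ →* H)
    (hf : ∃ L : IntermediateField ℚ Qb, FiniteDimensional ℚ L ∧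
      ∀ σ : Γ, (∀ x ∈ L, σ x = x) → f σ = 1) {p : ℕ} (hpq : p.Coprime q)
    (hexp : ∀ σ ∈ A.inertiaSubgroupIn ℚ, f σ ^ p = 1) :
    ∃ π : Qb, π ≠ 0 ∧ ∀ σ ∈ A.inertiaSubgroupIn ℚ, TT A σ π → f σ = 1 := by
  classical
  obtain ⟨L₀, hL₀, hf₀⟩ := hf
  let L : IntermediateField ℚ Qb := IntermediateField.normalClosure ℚ L₀ Qb
  have hLfin : FiniteDimensional ℚ L := normalClosure.is_finiteDimensional ℚ L₀ Qb
  have hLn : Normal ℚ L := normalClosure.normal ℚ L₀ Qb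
  have hL₀L : L₀ ≤ L := IntermediateField.le_normalClosure L₀
  have hfL : ∀ σ : Γ, (∀ x ∈ L, σ x = x) → f σ = 1 := fun σ h => hf₀ σ fun x hx => h x (hL₀L hx)
  have hstab : ∀ (σ : Γ) (x : Qb), x ∈ L → σ x ∈ L := by
    intro σ x hx
    have := (σ.restrictNormal L ⟨x, hx⟩).2
    have e : ((σ.restrictNormal L ⟨x, hx⟩ : L) : Qb) = σ x :=
      AlgEquiv.restrictNormal_commutes σ L ⟨x, hx⟩
    rwa [e] at this
  obtain ⟨π, hπL, hπ0, hπ⟩ := exists_uniformizer A hq hA L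
  have hord : ∀ σ : Γ, ∃ N : ℕ, 0 < N ∧ ∀ x ∈ L, (σ ^ N) x = x := by
    intro σ
    obtain ⟨N, hN, hN'⟩ := (isOfFinOrder_of_finite (σ.restrictNormal L)).exists_pow_eq_one
    refine ⟨N, hN, fun x hx => ?_⟩
    have e : ((((σ ^ N).restrictNormal L) ⟨x, hx⟩ : L) : Qb) = (σ ^ N) x :=
      AlgEquiv.restrictNormal_commutes (σ ^ N) L ⟨x, hx⟩
    have e2 : (σ ^ N).restrictNormal L = (σ.restrictNormal L) ^ N :=
      map_pow (AlgEquiv.restrictNormalHom L) σ N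
    rw [← e, e2, hN']
    rfl
  refine ⟨π, hπ0, fun σ hσ hTT => ?_⟩
  have hall : ∀ y ∈ L, y ≠ 0 → TT A σ y := by
    intro y hy hy0
    obtain ⟨n, hn⟩ := hπ y hy hy0
    have hu : A.valuation (y * (π ^ n)⁻¹) = 1 := by
      rw [map_mul, map_inv₀, map_zpow₀, hn]
      exact mul_inv_cancel₀ (zpow_ne_zero _ ((A.valuation).ne_zero_iff.mpr hπ0))
    have h1 := (TT.of_unit hσ hu).mul hσ (hTT.zpow hσ n)
    have e : y * (π ^ n)⁻¹ * π ^ n = y := by
      rw [mul_assoc, inv_mul_cancel₀ (zpow_ne_zero _ hπ0), mul_one]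
    rwa [e] at h1
  obtain ⟨N, hN, hN'⟩ := hord σ
  obtain ⟨a, m, hm, hNm⟩ := Nat.exists_eq_pow_mul_and_not_dvd hN.ne' q hq.ne_one
  have hmq : m.Coprime q := ((Nat.Prime.coprime_iff_not_dvd hq).mpr hm).symm
  have hτ : σ ^ (q ^ a) ∈ A.inertiaSubgroupIn ℚ := pow_mem hσ _
  have htriv : ∀ x ∈ L, (σ ^ (q ^ a)) x = x := by
    intro x hx
    by_contra hne
    have hy0 : (σ ^ (q ^ a)) x - x ≠ 0 := sub_ne_zero.mpr hne
    have hyL : (σ ^ (q ^ a)) x - x ∈ L := L.sub_mem (hstab _ _ hx) hx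
    have h1 : TT A (σ ^ (q ^ a)) ((σ ^ (q ^ a)) x - x) :=
      (hall _ hyL hy0).pow_left hσ _
    apply pow_apply_ne hA hτ h1 hmq
    rw [← pow_mul, ← hNm]
    exact hN' x hx
  have h1 : f σ ^ (q ^ a) = 1 := by rw [← map_pow]; exact hfL _ htriv
  have h2 := hexp σ hσ
  have hcop : Nat.Coprime (q ^ a) p := (Nat.Coprime.pow_left a hpq.symm)
  have h3 : orderOf (f σ) ∣ Nat.gcd (q ^ a) p :=
    Nat.dvd_gcd (orderOf_dvd_of_pow_eq_one h1) (orderOf_dvd_of_pow_eq_one h2)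
  rw [hcop] at h3
  exact orderOf_eq_one_iff.mp (Nat.dvd_one.mp h3)

theorem th_mul_arg {x y : Qb} (hx : x ≠ 0) (hy : y ≠ 0) (σ : A.inertiaSubgroupIn ℚ) :
    th (A := A) (x * y) (mul_ne_zero hx hy) σ = th x hx σ * th y hy σ := by
  rw [th, th, th, ← map_mul]
  congr 1
  apply Subtype.ext
  show σ.1 (x * y) / (x * y) = (σ.1 x / x) * (σ.1 y / y)
  rw [map_mul]
  field_simp

theorem th_congr_arg {x y : Qb} (hx : x ≠ 0) (hy : y ≠ 0)
    (hxy : A.valuation x = A.valuation y) (σ : A.inertiaSubgroupIn ℚ) :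
    th x hx σ = th y hy σ := by
  have hu : A.valuation (x / y) = 1 := by
    rw [map_div₀, hxy, div_self ((A.valuation).ne_zero_iff.mpr hy)]
  have hu0 : x / y ≠ 0 := div_ne_zero hx hy
  have h1 : th (x / y) hu0 σ = 1 := (th_eq_one_iff _ _ _).mpr (TT.of_unit σ.2 hu)
  have h2 := th_mul_arg hu0 hy σ
  rw [h1, one_mul] at h2
  rw [← h2]
  congr 1
  field_simp

/-- Conjugation of inertia elements by elements of the decomposition group. -/
theorem conj_mem_inertia {φ τ : Γ} (hφ : φ ∈ A.decompositionSubgroup ℚ)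
    (hτ : τ ∈ A.inertiaSubgroupIn ℚ) : φ * τ * φ⁻¹ ∈ A.inertiaSubgroupIn ℚ := by
  have h := TWP.Place.mem_inertia_conj φ hτ
  rwa [show φ • A = A from hφ] at h

theorem th_conj {q : ℕ} {φ : Γ} (hφ : A.IsFrobeniusAt φ q) {π : Qb} (hπ : π ≠ 0)
    (τ : A.inertiaSubgroupIn ℚ) :
    th (A := A) π hπ ⟨φ * τ.1 * φ⁻¹, conj_mem_inertia hφ.mem_decompositionSubgroup τ.2⟩ =
      th π hπ τ ^ q := by
  have hφD : φ ∈ A.decompositionSubgroup ℚ := hφ.mem_decompositionSubgroup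
  have hφD' : φ⁻¹ ∈ A.decompositionSubgroup ℚ := inv_mem hφD
  obtain ⟨hφA, hφx⟩ := (TWP.Place.isFrobeniusAt_iff A φ q).mp hφ
  set π' : Qb := φ⁻¹ π with hπ'
  have hπ'0 : π' ≠ 0 := by
    intro h
    apply hπ
    have : φ (φ⁻¹ π) = π := φ.apply_symm_apply π
    rw [← this, ← hπ', h, map_zero]
  have hval : A.valuation π' = A.valuation π := LOC.decomposition_valuation A hφD' π
  rw [← th_congr_arg hπ'0 hπ hval τ]
  have hu : A.valuation (τ.1 π' / π') = 1 := unit_div τ.2 hπ'0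
  have huA : τ.1 π' / π' ∈ A := (A.valuation_le_one_iff _).mp hu.le
  have h1 : φ (τ.1 π' / π') - (τ.1 π' / π') ^ q ∈ A.nonunits := hφx _ huA
  have h2 : (φ * τ.1 * φ⁻¹) π / π = φ (τ.1 π' / π') := by
    rw [map_div₀]
    have : φ π' = π := φ.apply_symm_apply π
    rw [this]
    rfl
  rw [th, th, ← map_pow, ← sub_eq_zero, ← map_sub, IsLocalRing.residue_eq_zero_iff,
    ← ValuationSubring.coe_mem_nonunits_iff]
  convert h1 using 1
  rw [← h2]
  rfl

/-- **Frobenius relation on tame inertia.** -/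
theorem frobenius_tame {q : ℕ} (hq : q.Prime) (hA : A.LiesOverPrime q)
    {H : Type*} [Group H] (f : Γ →* H)
    (hf : ∃ L : IntermediateField ℚ Qb, FiniteDimensional ℚ L ∧
      ∀ σ : Γ, (∀ x ∈ L, σ x = x) → f σ = 1) {p : ℕ} (hpq : p.Coprime q)
    (hexp : ∀ σ ∈ A.inertiaSubgroupIn ℚ, f σ ^ p = 1) {φ τ : Γ} (hφ : A.IsFrobeniusAt φ q)
    (hτ : τ ∈ A.inertiaSubgroupIn ℚ) : f (φ * τ * φ⁻¹) = f τ ^ q := by
  obtain ⟨π, hπ0, hπ⟩ := exists_tame_kernel hq hA f hf hpq hexp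
  let τ' : A.inertiaSubgroupIn ℚ := ⟨τ, hτ⟩
  let σ' : A.inertiaSubgroupIn ℚ :=
    ⟨φ * τ * φ⁻¹, conj_mem_inertia hφ.mem_decompositionSubgroup hτ⟩
  let w : A.inertiaSubgroupIn ℚ := σ' * (τ' ^ q)⁻¹
  have h1 : thHom (A := A) π hπ0 σ' = thHom π hπ0 τ' ^ q := by
    apply Units.ext
    rw [Units.val_pow_eq_pow_val]
    exact th_conj hφ hπ0 τ'
  have hw : thHom (A := A) π hπ0 w = 1 := by
    rw [map_mul, map_inv, map_pow, h1, mul_inv_cancel]
  have h2 := hπ w.1 w.2 ((thHom_eq_one_iff π hπ0 w).mp hw)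
  have h3 : w.1 = φ * τ * φ⁻¹ * (τ ^ q)⁻¹ := rfl
  rw [h3, map_mul, map_inv, map_pow, mul_inv_eq_one] at h2
  exact h2

end Fermat.Agent.RT.SelTame
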