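import Mathlib
import Fermat.Agent.RT.SelLength
import Fermat.Agent.RT.SelDer
import Fermat.Agent.RT.SelTame
import Fermat.Agent.DefRing.Dictionary

/-!
# The span of the derivatives of inertia at `q` has bounded length

Let `R` be a local `𝒪`-algebra, `λ : R → 𝒪` an augmentation, `M : Γ → M₂(R)` a continuous
representation such that `λ(M)` is trivial on inertia at a place `P` over `q ≠ p` and `det M = 1`
there.  Then the `𝒪`-span in `Φ = ker λ / (ker λ)²` of the derivatives of the entries of `M σ`,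
`σ ∈ I_P`, has length at most the order of
`det B² (1 - q) (det B (1 + q)² - q (tr B)²)`, `B = λ(M φ)`, `φ` a Frobenius at `P`.
-/

set_option autoImplicit false
set_option linter.unusedSectionVars false

noncomputable section

open IsLocalRing Matrix

namespace Fermat.Agent.RT.SelInertia

open Fermat.Agent.RT.SelDer Fermat.Agent.RT.SelLength Fermat.Agent.UDef

local notation "Qb" => AlgebraicClosure ℚ

/-- `(1 + Y) ^ n = 1 + n Y` if `Y² = 0`. -/
theorem pow_eq_of_sq_zero {S : Type*} [Ring S] {u : S} (h : (u - 1) * (u - 1) = 0) (n : ℕ) :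
    u ^ n = 1 + n * (u - 1) := by
  induction n with
  | zero => simp
  | succ n ih =>
    have h2 : u = 1 + (u - 1) := by abel
    calc u ^ (n + 1) = u ^ n * u := pow_succ _ _
      _ = (1 + n * (u - 1)) * (1 + (u - 1)) := by rw [ih]; congr 1
      _ = 1 + (n + 1 : ℕ) * (u - 1) + n * ((u - 1) * (u - 1)) := by
          push_cast; noncomm_ring
      _ = 1 + (n + 1 : ℕ) * (u - 1) := by rw [h, mul_zero, add_zero]

theorem natCast_mul_apply {S : Type*} [CommRing S] (k : ℕ) (Z : Matrix (Fin 2) (Fin 2) S)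
    (i j : Fin 2) : ((k : Matrix (Fin 2) (Fin 2) S) * Z) i j = (k : S) * Z i j := by
  rw [← Matrix.diagonal_natCast' k, Matrix.diagonal_mul]
  rfl

theorem one_smul_left {S E : Type*} [CommRing S] [AddCommGroup E] [Module S E] (z : Fin 2 → E) :
    ∀ j : Fin 2, (1 : Matrix (Fin 2) (Fin 2) S) 0 j • z 0 +
      (1 : Matrix (Fin 2) (Fin 2) S) 1 j • z 1 = z j
  | 0 => by rw [Matrix.one_apply_eq, Matrix.one_apply_ne (by decide), one_smul, zero_smul, add_zero]
  | 1 => by rw [Matrix.one_apply_eq, Matrix.one_apply_ne (by decide), one_smul, zero_smul, zero_add]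

theorem one_smul_right {S E : Type*} [CommRing S] [AddCommGroup E] [Module S E] (z : Fin 2 → E) :
    ∀ i : Fin 2, (1 : Matrix (Fin 2) (Fin 2) S) i 0 • z 0 +
      (1 : Matrix (Fin 2) (Fin 2) S) i 1 • z 1 = z i
  | 0 => by rw [Matrix.one_apply_eq, Matrix.one_apply_ne (by decide), one_smul, zero_smul, add_zero]
  | 1 => by rw [Matrix.one_apply_eq, Matrix.one_apply_ne (by decide), one_smul, zero_smul, zero_add]

variable {𝒪 R : Type} [CommRing 𝒪] [CommRing R] [Algebra 𝒪 R] [IsLocalRing 𝒪] [IsLocalRing R]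
  (lam : R →ₐ[𝒪] 𝒪)

/-- Reduction of a matrix representation modulo `K_n = (ker λ)² + 𝔪^{n+1}`, with values in units. -/
def redHom (M : GalQ →* Matrix (Fin 2) (Fin 2) R) (n : ℕ) :
    GalQ →* (Matrix (Fin 2) (Fin 2) (R ⧸ KI lam n))ˣ :=
  ((Ideal.Quotient.mk (KI lam n)).mapMatrix.toMonoidHom.comp M).toHomUnits

theorem redHom_coe (M : GalQ →* Matrix (Fin 2) (Fin 2) R) (n : ℕ) (σ : GalQ) :
    ((redHom lam M n σ : (Matrix (Fin 2) (Fin 2) (R ⧸ KI lam n))ˣ) :
      Matrix (Fin 2) (Fin 2) (R ⧸ KI lam n)) = (M σ).map (Ideal.Quotient.mk (KI lam n)) := rfl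

theorem redHom_factors {M : GalQ →* Matrix (Fin 2) (Fin 2) R} (hM : MCont M) (n : ℕ) :
    ∃ L : IntermediateField ℚ Qb, FiniteDimensional ℚ L ∧
      ∀ σ : GalQ, (∀ x ∈ L, σ x = x) → redHom lam M n σ = 1 := by
  obtain ⟨L, hL, h⟩ := hM (n + 1)
  refine ⟨L, hL, fun σ hσ => ?_⟩
  apply Units.ext
  rw [redHom_coe]
  ext i j
  rw [Matrix.map_apply]
  have h1 : (M σ - 1) i j ∈ KI lam n := (le_sup_right : _ ≤ KI lam n) (h σ hσ i j)
  have h2 : Ideal.Quotient.mk (KI lam n) ((M σ - 1) i j) = 0 := Ideal.Quotient.eq_zero_iff_mem.mpr h1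
  rw [Matrix.sub_apply, map_sub, sub_eq_zero] at h2
  rw [h2]
  show Ideal.Quotient.mk (KI lam n) ((1 : Matrix (Fin 2) (Fin 2) R) i j) =
    (1 : Matrix (Fin 2) (Fin 2) (R ⧸ KI lam n)) i j
  rw [Matrix.one_apply, Matrix.one_apply]
  split_ifs <;> simp

section Inertia

variable {M : GalQ →* Matrix (Fin 2) (Fin 2) R} {σ : GalQ}

theorem entry_mem_ker (hσ : (M σ).map lam = 1) (i j : Fin 2) :
    (M σ - 1) i j ∈ RingHom.ker lam := by
  rw [RingHom.mem_ker, Matrix.sub_apply, map_sub, sub_eq_zero]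
  have h := congrFun (congrFun hσ i) j
  rw [Matrix.map_apply] at h
  rw [h, Matrix.one_apply, Matrix.one_apply]
  split_ifs <;> simp

theorem redHom_sub_one_sq (hσ : (M σ).map lam = 1) (n : ℕ) :
    ((redHom lam M n σ : Matrix (Fin 2) (Fin 2) (R ⧸ KI lam n)) - 1) *
      ((redHom lam M n σ : Matrix (Fin 2) (Fin 2) (R ⧸ KI lam n)) - 1) = 0 := by
  have h1 : (redHom lam M n σ : Matrix (Fin 2) (Fin 2) (R ⧸ KI lam n)) - 1 =
      (M σ - 1).map (Ideal.Quotient.mk (KI lam n)) := by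
    rw [redHom_coe, Matrix.map_sub _ (map_sub _)]
    congr 1
    ext i j
    rw [Matrix.map_apply, Matrix.one_apply, Matrix.one_apply]
    split_ifs <;> simp
  rw [h1, ← Matrix.map_mul]
  ext i j
  rw [Matrix.map_apply, Matrix.zero_apply, Ideal.Quotient.eq_zero_iff_mem]
  refine (le_sup_left : _ ≤ KI lam n) ?_
  rw [Matrix.mul_apply, pow_two]
  exact Ideal.sum_mem _ fun k _ =>
    Ideal.mul_mem_mul (entry_mem_ker lam hσ i k) (entry_mem_ker lam hσ k j)

theorem redHom_pow (hσ : (M σ).map lam = 1) (n k : ℕ) :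
    ((redHom lam M n σ ^ k : (Matrix (Fin 2) (Fin 2) (R ⧸ KI lam n))ˣ) :
      Matrix (Fin 2) (Fin 2) (R ⧸ KI lam n)) =
      1 + (k : Matrix (Fin 2) (Fin 2) (R ⧸ KI lam n)) *
        ((redHom lam M n σ : Matrix (Fin 2) (Fin 2) (R ⧸ KI lam n)) - 1) := by
  rw [Units.val_pow_eq_pow_val]
  exact pow_eq_of_sq_zero (redHom_sub_one_sq lam hσ n) k

theorem redHom_exp {p : ℕ} (hp : (p : R) ∈ maximalIdeal R) (hσ : (M σ).map lam = 1) (n : ℕ) :
    redHom lam M n σ ^ (p ^ (n + 1)) = 1 := by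
  apply Units.ext
  rw [redHom_pow lam hσ]
  have h1 : ((p ^ (n + 1) : ℕ) : R ⧸ KI lam n) = 0 := by
    rw [← map_natCast (Ideal.Quotient.mk (KI lam n)), Ideal.Quotient.eq_zero_iff_mem]
    refine (le_sup_right : _ ≤ KI lam n) ?_
    push_cast
    exact Ideal.pow_mem_pow hp _
  have h2 : ((p ^ (n + 1) : ℕ) : Matrix (Fin 2) (Fin 2) (R ⧸ KI lam n)) = 0 := by
    have h3 : ((p ^ (n + 1) : ℕ) : Matrix (Fin 2) (Fin 2) (R ⧸ KI lam n)) =
        Matrix.diagonal (fun _ => ((p ^ (n + 1) : ℕ) : R ⧸ KI lam n)) := by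
      exact (Matrix.diagonal_natCast' _).symm
    rw [h3, h1]
    exact Matrix.diagonal_zero
  rw [h2, zero_mul, add_zero, Units.val_one]

/-- The matrix of derivatives. -/
def dM (M : GalQ →* Matrix (Fin 2) (Fin 2) R) (σ : GalQ) (i j : Fin 2) : Cot lam :=
  der lam (M σ i j)

/-- Congruence modulo `K_n` gives congruence of derivatives modulo `𝔪^n Φ`. -/
theorem der_congr (n : ℕ) {x y : R}
    (h : Ideal.Quotient.mk (KI lam n) x = Ideal.Quotient.mk (KI lam n) y) :
    (maximalIdeal 𝒪 ^ n • ⊤ : Submodule 𝒪 (Cot lam)).mkQ (der lam x) =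
      (maximalIdeal 𝒪 ^ n • ⊤ : Submodule 𝒪 (Cot lam)).mkQ (der lam y) := by
  rw [← sub_eq_zero, ← map_sub, ← map_sub, Submodule.mkQ_apply, Submodule.Quotient.mk_eq_zero]
  exact der_mem_of_mem_KI lam n (Ideal.Quotient.eq.mp h)

/-- derivative of a product of two matrices. -/
theorem der_mul_apply (X Y : Matrix (Fin 2) (Fin 2) R) (i j : Fin 2) :
    der lam ((X * Y) i j) =
      (lam (X i 0) • der lam (Y 0 j) + lam (X i 1) • der lam (Y 1 j)) +
      (lam (Y 0 j) • der lam (X i 0) + lam (Y 1 j) • der lam (X i 1)) := by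
  rw [Matrix.mul_apply, Fin.sum_univ_two, map_add, der_mul, der_mul]
  abel

end Inertia

section Main

variable [IsDomain 𝒪] [IsPrincipalIdealRing 𝒪] [IsNoetherianRing R]

/-- The order of this element bounds the contribution of the prime `q`. -/
def locEl (q : ℕ) (B : Matrix (Fin 2) (Fin 2) 𝒪) : 𝒪 :=
  B.det ^ 2 * ((1 - (q : 𝒪)) * (B.det * (1 + (q : 𝒪)) ^ 2 - (q : 𝒪) * B.trace ^ 2))

/-- The span of the derivatives of the entries of `M σ` for `σ` in inertia at `P`. -/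
def inertiaSpan (M : GalQ →* Matrix (Fin 2) (Fin 2) R) (P : ValuationSubring Qb) :
    Submodule 𝒪 (Cot lam) :=
  Submodule.span 𝒪 {y | ∃ σ ∈ P.inertiaSubgroupIn ℚ, ∃ i j, y = der lam (M σ i j)}

theorem length_inertiaSpan_le {p q : ℕ} (hq : q.Prime) (hpq : p.Coprime q)
    (hpR : (p : R) ∈ maximalIdeal R) {P : ValuationSubring Qb} (hP : P.LiesOverPrime q)
    {φ : GalQ} (hφ : P.IsFrobeniusAt φ q) {M : GalQ →* Matrix (Fin 2) (Fin 2) R} (hM : MCont M)
    (hunr : ∀ σ ∈ P.inertiaSubgroupIn ℚ, (M σ).map lam = 1)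
    (hdet : ∀ σ ∈ P.inertiaSubgroupIn ℚ, (M σ).det = 1)
    (h0 : locEl q ((M φ).map lam) ≠ 0) :
    Module.length 𝒪 (inertiaSpan lam M P) ≤ Ring.ord 𝒪 (locEl q ((M φ).map lam)) := by
  refine length_le_of_forall_map _ _ fun n => ?_
  set Q : Submodule 𝒪 (Cot lam) := maximalIdeal 𝒪 ^ n • ⊤ with hQ
  set f := redHom lam M n with hf
  have hfl := redHom_factors lam hM n
  have hexp : ∀ σ ∈ P.inertiaSubgroupIn ℚ, f σ ^ (p ^ (n + 1)) = 1 := fun σ hσ =>
    redHom_exp lam hpR (hunr σ hσ) n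
  have hcop : (p ^ (n + 1)).Coprime q := Nat.Coprime.pow_left _ hpq
  obtain ⟨τ, hτ, hgen⟩ := Fermat.Agent.TWP.Tame.exists_tame_generator hq hP f hfl hcop hexp
  let X : Matrix (Fin 2) (Fin 2) (Cot lam ⧸ Q) := fun i j => Q.mkQ (der lam (M τ i j))
  set B : Matrix (Fin 2) (Fin 2) 𝒪 := (M φ).map lam with hB
  have hlτ : ∀ i j, lam (M τ i j) = (1 : Matrix (Fin 2) (Fin 2) 𝒪) i j := fun i j =>
    congrFun (congrFun (hunr τ hτ) i) j
  -- derivatives of inertia elements are multiples of `X`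
  have hX : ∀ σ ∈ P.inertiaSubgroupIn ℚ, ∃ k : ℕ, ∀ i j,
      Q.mkQ (der lam (M σ i j)) = (k : 𝒪) • X i j := by
    intro σ hσ
    obtain ⟨k, hk⟩ := hgen σ hσ
    refine ⟨k, fun i j => ?_⟩
    have h1 : (f σ : Matrix (Fin 2) (Fin 2) (R ⧸ KI lam n)) = 1 + (k : Matrix (Fin 2) (Fin 2)
        (R ⧸ KI lam n)) * ((f τ : Matrix (Fin 2) (Fin 2) (R ⧸ KI lam n)) - 1) := by
      rw [hk, redHom_pow lam (hunr τ hτ)]
    have h2 : Ideal.Quotient.mk (KI lam n) (M σ i j) =
        Ideal.Quotient.mk (KI lam n) ((1 : Matrix (Fin 2) (Fin 2) R) i j +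
          (k : R) * (M τ i j - (1 : Matrix (Fin 2) (Fin 2) R) i j)) := by
      have h3 := congrFun (congrFun h1 i) j
      rw [redHom_coe, Matrix.map_apply] at h3
      rw [h3, Matrix.add_apply, map_add, map_mul, map_natCast, map_sub]
      have h4 : ∀ i j, (1 : Matrix (Fin 2) (Fin 2) (R ⧸ KI lam n)) i j =
          Ideal.Quotient.mk (KI lam n) ((1 : Matrix (Fin 2) (Fin 2) R) i j) := by
        intro i j
        rw [Matrix.one_apply, Matrix.one_apply]
        split_ifs <;> simp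
      rw [h4]
      congr 1
      rw [natCast_mul_apply, Matrix.sub_apply, redHom_coe, Matrix.map_apply, h4]
    have h5 := der_congr lam n h2
    rw [h5]
    have h6 : der lam ((1 : Matrix (Fin 2) (Fin 2) R) i j) = 0 := by
      rw [Matrix.one_apply]
      split_ifs <;> simp
    rw [map_add, h6, zero_add, der_mul, der_natCast, smul_zero, add_zero, map_natCast, map_sub, h6,
      sub_zero, map_smul]
  -- the Frobenius relation
  have hfrob := Fermat.Agent.RT.SelTame.frobenius_tame hq hP f hfl hcop hexp hφ hτ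
  have hfrob' : f (φ * τ) = f τ ^ q * f φ := by
    rw [← hfrob, ← map_mul]
    congr 1
    group
  have hmat : ((M (φ * τ)).map (Ideal.Quotient.mk (KI lam n))) =
      (1 + (q : Matrix (Fin 2) (Fin 2) (R ⧸ KI lam n)) *
        (((M τ).map (Ideal.Quotient.mk (KI lam n))) - 1)) *
        ((M φ).map (Ideal.Quotient.mk (KI lam n))) := by
    have h1 := congrArg (fun u : (Matrix (Fin 2) (Fin 2) (R ⧸ KI lam n))ˣ =>
      (u : Matrix (Fin 2) (Fin 2) (R ⧸ KI lam n))) hfrob'
    simp only [Units.val_mul] at h1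
    rw [redHom_pow lam (hunr τ hτ)] at h1
    exact h1
  let Y : Matrix (Fin 2) (Fin 2) R := fun i j => (1 : Matrix (Fin 2) (Fin 2) R) i j +
    (q : R) * (M τ i j - (1 : Matrix (Fin 2) (Fin 2) R) i j)
  have hY : ((M (φ * τ)).map (Ideal.Quotient.mk (KI lam n))) =
      (Y * M φ).map (Ideal.Quotient.mk (KI lam n)) := by
    rw [hmat, Matrix.map_mul]
    congr 1
    ext i j
    have h4 : (1 : Matrix (Fin 2) (Fin 2) (R ⧸ KI lam n)) i j =
        Ideal.Quotient.mk (KI lam n) ((1 : Matrix (Fin 2) (Fin 2) R) i j) := by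
      rw [Matrix.one_apply, Matrix.one_apply]
      split_ifs <;> simp
    rw [Matrix.add_apply, natCast_mul_apply, Matrix.sub_apply,
      Matrix.map_apply, Matrix.map_apply, h4]
    simp only [Y, map_add, map_mul, map_natCast, map_sub]
  have hdY : ∀ i j, der lam (Y i j) = (q : 𝒪) • der lam (M τ i j) := by
    intro i j
    have h6 : der lam ((1 : Matrix (Fin 2) (Fin 2) R) i j) = 0 := by
      rw [Matrix.one_apply]
      split_ifs <;> simp
    show der lam ((1 : Matrix (Fin 2) (Fin 2) R) i j + (q : R) * (M τ i j -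
      (1 : Matrix (Fin 2) (Fin 2) R) i j)) = _
    rw [map_add, h6, zero_add, der_mul, der_natCast, smul_zero, add_zero, map_natCast, map_sub, h6,
      sub_zero]
  have hlY : ∀ i j, lam (Y i j) = (1 : Matrix (Fin 2) (Fin 2) 𝒪) i j := by
    intro i j
    have h7 : lam ((1 : Matrix (Fin 2) (Fin 2) R) i j) = (1 : Matrix (Fin 2) (Fin 2) 𝒪) i j := by
      rw [Matrix.one_apply, Matrix.one_apply]
      split_ifs <;> simp
    show lam ((1 : Matrix (Fin 2) (Fin 2) R) i j + (q : R) * (M τ i j -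
      (1 : Matrix (Fin 2) (Fin 2) R) i j)) = _
    rw [map_add, map_mul, map_sub, hlτ, h7, sub_self, mul_zero, add_zero]
  have hBX : ∀ i j, B i 0 • X 0 j + B i 1 • X 1 j =
      (q : 𝒪) • (B 0 j • X i 0 + B 1 j • X i 1) := by
    intro i j
    have h1 := der_congr lam n (congrFun (congrFun hY i) j)
    rw [map_mul M, der_mul_apply, der_mul_apply] at h1
    simp only [hlτ, hlY, hdY] at h1
    have h2 : ∀ k l, lam (M φ k l) = B k l := fun k l => rfl
    simp only [h2] at h1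
    have h3 : ((1 : Matrix (Fin 2) (Fin 2) 𝒪) 0 j • der lam (M φ i 0) +
        (1 : Matrix (Fin 2) (Fin 2) 𝒪) 1 j • der lam (M φ i 1)) = der lam (M φ i j) :=
      one_smul_left (fun k => der lam (M φ i k)) j
    have h4 : ((1 : Matrix (Fin 2) (Fin 2) 𝒪) i 0 • der lam (M φ 0 j) +
        (1 : Matrix (Fin 2) (Fin 2) 𝒪) i 1 • der lam (M φ 1 j)) = der lam (M φ i j) :=
      one_smul_right (fun k => der lam (M φ k j)) i
    rw [h3, h4] at h1
    have h5 : Q.mkQ (B i 0 • der lam (M τ 0 j) + B i 1 • der lam (M τ 1 j)) =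
        Q.mkQ (B 0 j • (q : 𝒪) • der lam (M τ i 0) + B 1 j • (q : 𝒪) • der lam (M τ i 1)) := by
      have h6 := h1
      rw [map_add, add_comm (der lam (M φ i j)), map_add] at h6
      exact add_right_cancel h6
    simp only [map_add, map_smul] at h5
    show B i 0 • Q.mkQ (der lam (M τ 0 j)) + B i 1 • Q.mkQ (der lam (M τ 1 j)) =
      (q : 𝒪) • (B 0 j • Q.mkQ (der lam (M τ i 0)) + B 1 j • Q.mkQ (der lam (M τ i 1)))
    rw [h5, smul_add]
    congr 1 <;> rw [smul_comm]
  -- the trace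
  have htr : X 0 0 + X 1 1 = 0 := by
    have h1 := hdet τ hτ
    rw [Matrix.det_fin_two] at h1
    have h2 := congrArg (der lam) h1
    rw [map_sub, der_mul, der_mul, der_one, hlτ, hlτ, hlτ, hlτ] at h2
    simp only [Matrix.one_apply_eq, one_smul, ne_eq, zero_ne_one, not_false_eq_true,
      Matrix.one_apply_ne, zero_smul, one_ne_zero, add_zero, sub_zero] at h2
    show Q.mkQ (der lam (M τ 0 0)) + Q.mkQ (der lam (M τ 1 1)) = 0
    rw [← map_add, add_comm, h2, map_zero]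
  have hle : (inertiaSpan lam M P).map Q.mkQ ≤ Submodule.span 𝒪 {y | ∃ i j, y = X i j} := by
    rw [inertiaSpan, Submodule.map_span, Submodule.span_le]
    rintro _ ⟨_, ⟨σ, hσ, i, j, rfl⟩, rfl⟩
    obtain ⟨k, hk⟩ := hX σ hσ
    rw [hk i j]
    exact Submodule.smul_mem _ _ (Submodule.subset_span ⟨i, j, rfl⟩)
  exact (Module.length_le_of_injective (Submodule.inclusion hle)
    (Submodule.inclusion_injective hle)).trans
      (length_span_le_of_adjoint' B X (q : 𝒪) htr hBX h0)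

end Main

end Fermat.Agent.RT.SelInertia
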