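import Mathlib
import Fermat.Prelude.Thm_IsLocalRing_isAdicComplete_of_module_finite
import Fermat.Agent.RT.SelInertia
import Fermat.Agent.DefCond.Basic
import Fermat.Agent.Lib.Cyclotomic

/-!
# Comparing the cotangent spaces of two universal deformation rings

If `𝒟₁` is a stronger condition than `𝒟₂`, `π : R₂ → R₁` is the canonical map of the universal
deformation rings, and `J ≤ ker π` is an ideal of `R₂` such that the universal deformation modulo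
`J` is of type `𝒟₁`, then `R₁ = R₂ / J`, and for an augmentation `λ : R₁ → 𝒪` the length of the
cotangent space of `λ ∘ π` exceeds that of `λ` at most by the length of the image of `J`.
-/

set_option autoImplicit false
set_option linter.unusedSectionVars false

noncomputable section

open IsLocalRing

namespace Fermat.Agent.RT.SelStep

open Fermat.Agent.RT.SelDer Fermat.Agent.UDef Fermat.Agent.DefCond

local notation "Qb" => AlgebraicClosure ℚ

section BaseChange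

variable {A B C : Type} [CommRing A] [IsLocalRing A] [CommRing B] [IsLocalRing B] [CommRing C]
  [IsLocalRing C]

theorem IsEquiv.symm' {ρ ρ' : GaloisRepAdic A} (h : ρ.IsEquiv ρ') : ρ'.IsEquiv ρ :=
  ⟨h.some.symm⟩

theorem IsEquiv.trans' {ρ ρ' ρ'' : GaloisRepAdic A} (h : ρ.IsEquiv ρ') (h' : ρ'.IsEquiv ρ'') :
    ρ.IsEquiv ρ'' := ⟨h.some.trans h'.some⟩

theorem IsEquiv.bc {ρ ρ' : GaloisRepAdic A} (h : ρ.IsEquiv ρ') (φ : A →+* B) (hφ : IsLocalHom φ) :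
    (ρ.baseChangeAlong φ hφ).IsEquiv (ρ'.baseChangeAlong φ hφ) :=
  ⟨GaloisRepAdic.Equiv.baseChangeAlong φ hφ h.some⟩

theorem bc_comp (ρ : GaloisRepAdic A) (φ : A →+* B) (hφ : IsLocalHom φ) (ψ : B →+* C)
    (hψ : IsLocalHom ψ) (χ : A →+* C) (hχ : IsLocalHom χ) (h : ψ.comp φ = χ) :
    ((ρ.baseChangeAlong φ hφ).baseChangeAlong ψ hψ).IsEquiv (ρ.baseChangeAlong χ hχ) := by
  subst h
  obtain ⟨M, hM⟩ := exists_model ρ
  refine ((hM.baseChangeAlong φ hφ).baseChangeAlong ψ hψ).isEquiv (hM.baseChangeAlong _ hχ) 1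
    isUnit_one fun σ => ?_
  rw [one_mul, mul_one]
  rfl

theorem bc_id (ρ : GaloisRepAdic A) (φ : A →+* A) (hφ : IsLocalHom φ) (h : φ = RingHom.id A) :
    (ρ.baseChangeAlong φ hφ).IsEquiv ρ := by
  subst h
  obtain ⟨M, hM⟩ := exists_model ρ
  refine (hM.baseChangeAlong _ hφ).isEquiv hM 1 isUnit_one fun σ => ?_
  rw [one_mul, mul_one]
  rfl

theorem bc_congr (ρ : GaloisRepAdic A) {φ φ' : A →+* B} (hφ : IsLocalHom φ)
    (hφ' : IsLocalHom φ') (h : φ = φ') :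
    (ρ.baseChangeAlong φ hφ).IsEquiv (ρ.baseChangeAlong φ' hφ') := by
  subst h
  exact ⟨GaloisRepAdic.Equiv.refl _⟩

/-- The residual condition is stable under base change. -/
theorem residual_bc {𝒪 : Type} [CommRing 𝒪] [IsLocalRing 𝒪] [Algebra 𝒪 A] [Algebra 𝒪 B]
    [IsLocalHom (algebraMap 𝒪 A)] [IsLocalHom (algebraMap 𝒪 B)]
    {ρbar : ResidualGaloisRep (ResidueField 𝒪)} {ρ : GaloisRepAdic A}
    (h : ρ.residual.IsEquiv (ρbar.baseChangeAlong (ResidueField.map (algebraMap 𝒪 A))))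
    (φ : A →ₐ[𝒪] B) (hφ : IsLocalHom (φ : A →+* B)) :
    (ρ.baseChangeAlong (φ : A →+* B) hφ).residual.IsEquiv
      (ρbar.baseChangeAlong (ResidueField.map (algebraMap 𝒪 B))) := by
  obtain ⟨M, hM⟩ := exists_model ρ
  obtain ⟨Mb, hMb⟩ := exists_modelR ρbar
  obtain ⟨P, hP, hPM⟩ := hM.residual.exists_conj (hMb.baseChangeAlong _) h
  let ψ : ResidueField A →+* ResidueField B := ResidueField.map (φ : A →+* B)
  refine (hM.baseChangeAlong (φ : A →+* B) hφ).residual.isEquiv (hMb.baseChangeAlong _)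
    (P.map ψ) (hP.map ψ.mapMatrix) fun σ => ?_
  have h1 := congrArg (fun X : Matrix (Fin 2) (Fin 2) (ResidueField A) => X.map ψ) (hPM σ)
  simp only [Matrix.map_mul] at h1
  have e1 : (mapRep (residue B) (mapRep (φ : A →+* B) M)) σ = (mapRep (residue A) M σ).map ψ := by
    rw [mapRep_apply, mapRep_apply, mapRep_apply, Matrix.map_map, Matrix.map_map]
    congr 1
  have e2 : (mapRep (ResidueField.map (algebraMap 𝒪 B)) Mb) σ =
      (mapRep (ResidueField.map (algebraMap 𝒪 A)) Mb σ).map ψ := by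
    rw [mapRep_apply, mapRep_apply, Matrix.map_map]
    congr 1
    have : (ResidueField.map (algebraMap 𝒪 B)) = ψ.comp (ResidueField.map (algebraMap 𝒪 A)) := by
      ext x
      obtain ⟨x, rfl⟩ := IsLocalRing.residue_surjective x
      show residue B (algebraMap 𝒪 B x) = residue B (φ (algebraMap 𝒪 A x))
      rw [AlgHom.commutes]
    rw [this]
    rfl
  rw [e1, e2]
  exact h1

end BaseChange

section Uniqueness

variable {𝒪 : Type} [CommRing 𝒪] [IsDomain 𝒪] [IsDiscreteValuationRing 𝒪]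
  [IsAdicComplete (maximalIdeal 𝒪) 𝒪] {ρbar : ResidualGaloisRep (ResidueField 𝒪)}
  {𝒟 : ∀ ⦃A : Type⦄ [CommRing A] [IsLocalRing A] [Algebra 𝒪 A], GaloisRepAdic A → Prop}

theorem universal_unique (D : GaloisRep.DeformationRingData 𝒪 ρbar 𝒟) {A : Type} [CommRing A]
    [IsLocalRing A] [IsNoetherianRing A] [IsAdicComplete (maximalIdeal A) A] [Algebra 𝒪 A]
    [IsLocalHom (algebraMap 𝒪 A)] (hA : Function.Surjective (residue A ∘ algebraMap 𝒪 A))
    {f g : D.R →ₐ[𝒪] A} (hf : IsLocalHom (f : D.R →+* A)) (hg : IsLocalHom (g : D.R →+* A))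
    (hfg : (D.ρ.baseChangeAlong (f : D.R →+* A) hf).IsEquiv
      (D.ρ.baseChangeAlong (g : D.R →+* A) hg))
    (h𝒟 : 𝒟 (D.ρ.baseChangeAlong (g : D.R →+* A) hg)) : f = g := by
  obtain ⟨φ, -, huniq⟩ := D.universal A hA _ h𝒟 (residual_bc D.residual_isEquiv g hg)
  rw [huniq f ⟨hf, hfg⟩, huniq g ⟨hg, ⟨GaloisRepAdic.Equiv.refl _⟩⟩]

end Uniqueness

section Quotient

variable {𝒪 R : Type} [CommRing 𝒪] [IsLocalRing 𝒪] [CommRing R] [IsLocalRing R]
  [IsNoetherianRing R] [IsAdicComplete (maximalIdeal R) R] [Algebra 𝒪 R]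
  [IsLocalHom (algebraMap 𝒪 R)]

/-- All the structure on a quotient of a coefficient ring. -/
theorem quotient_facts (hR : Function.Surjective (residue R ∘ algebraMap 𝒪 R)) {J : Ideal R}
    (hJ : J ≠ ⊤) :
    ∃ _ : IsLocalRing (R ⧸ J), IsAdicComplete (maximalIdeal (R ⧸ J)) (R ⧸ J) ∧
      IsLocalHom (algebraMap 𝒪 (R ⧸ J)) ∧
      Function.Surjective (residue (R ⧸ J) ∘ algebraMap 𝒪 (R ⧸ J)) ∧
      IsLocalHom ((Ideal.Quotient.mkₐ 𝒪 J : R →ₐ[𝒪] R ⧸ J) : R →+* R ⧸ J) := by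
  have hl : IsLocalRing (R ⧸ J) := isLocalRing_quotient hJ
  have hmk : IsLocalHom ((Ideal.Quotient.mkₐ 𝒪 J : R →ₐ[𝒪] R ⧸ J) : R →+* R ⧸ J) :=
    IsLocalHom.of_surjective _ Ideal.Quotient.mk_surjective
  have hmk' : IsLocalHom (algebraMap R (R ⧸ J)) := hmk
  have e : algebraMap 𝒪 (R ⧸ J) = ((Ideal.Quotient.mkₐ 𝒪 J : R →ₐ[𝒪] R ⧸ J) : R →+* R ⧸ J).comp
      (algebraMap 𝒪 R) := rfl
  refine ⟨hl, IsLocalRing.isAdicComplete_of_module_finite (𝒪 := R), ?_, ?_, hmk⟩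
  · rw [e]
    exact RingHom.isLocalHom_comp _ _
  · intro y
    obtain ⟨a, rfl⟩ := IsLocalRing.residue_surjective y
    obtain ⟨a, rfl⟩ := Ideal.Quotient.mk_surjective a
    obtain ⟨x, hx⟩ := hR (residue R a)
    refine ⟨x, ?_⟩
    have h2 := congrArg (ResidueField.map
      ((Ideal.Quotient.mkₐ 𝒪 J : R →ₐ[𝒪] R ⧸ J) : R →+* R ⧸ J)) hx
    rw [Function.comp_apply, ResidueField.map_residue, ResidueField.map_residue] at h2
    exact h2

end Quotient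

section Main

variable {𝒪 : Type} [CommRing 𝒪] [IsDomain 𝒪] [IsDiscreteValuationRing 𝒪]
  [IsAdicComplete (maximalIdeal 𝒪) 𝒪] {ρbar : ResidualGaloisRep (ResidueField 𝒪)}
  {𝒟₁ 𝒟₂ : ∀ ⦃A : Type⦄ [CommRing A] [IsLocalRing A] [Algebra 𝒪 A], GaloisRepAdic A → Prop}

/-- If the universal deformation of type `𝒟₂` modulo `J ≤ ker π` is of type `𝒟₁`, then the
canonical map `π : R₂ → R₁` is surjective with kernel `J`. -/
theorem ker_eq_of_quotient (D₁ : GaloisRep.DeformationRingData 𝒪 ρbar 𝒟₁)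
    (D₂ : GaloisRep.DeformationRingData 𝒪 ρbar 𝒟₂)
    (π : D₂.R →ₐ[𝒪] D₁.R) (hπ : IsLocalHom (π : D₂.R →+* D₁.R))
    (hπe : (D₂.ρ.baseChangeAlong (π : D₂.R →+* D₁.R) hπ).IsEquiv D₁.ρ)
    (J : Ideal D₂.R) (hJ : J ≤ RingHom.ker π)
    (h𝒟 : ∀ (_ : IsLocalRing (D₂.R ⧸ J))
      (hmk : IsLocalHom ((Ideal.Quotient.mkₐ 𝒪 J : D₂.R →ₐ[𝒪] D₂.R ⧸ J) : D₂.R →+* D₂.R ⧸ J)),
      𝒟₁ (D₂.ρ.baseChangeAlong ((Ideal.Quotient.mkₐ 𝒪 J : D₂.R →ₐ[𝒪] D₂.R ⧸ J) :
        D₂.R →+* D₂.R ⧸ J) hmk) ∧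
      𝒟₂ (D₂.ρ.baseChangeAlong ((Ideal.Quotient.mkₐ 𝒪 J : D₂.R →ₐ[𝒪] D₂.R ⧸ J) :
        D₂.R →+* D₂.R ⧸ J) hmk)) :
    Function.Surjective π ∧ RingHom.ker π = J := by
  have hJtop : J ≠ ⊤ := by
    intro h
    have h1 : (1 : D₂.R) ∈ RingHom.ker π := hJ (h ▸ Submodule.mem_top)
    rw [RingHom.mem_ker, map_one] at h1
    exact one_ne_zero h1
  obtain ⟨hl, hcomp, hloc, hsurj, hmk⟩ := quotient_facts (𝒪 := 𝒪) D₂.residue_surjective hJtop
  set mk : D₂.R →ₐ[𝒪] D₂.R ⧸ J := Ideal.Quotient.mkₐ 𝒪 J with hmkdef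
  obtain ⟨h𝒟₁, h𝒟₂⟩ := h𝒟 hl hmk
  obtain ⟨h, ⟨hh, hhe⟩, -⟩ := D₁.universal (D₂.R ⧸ J) hsurj _ h𝒟₁
    (residual_bc D₂.residual_isEquiv mk hmk)
  -- `h ∘ π = mk`
  have hhπ_loc : IsLocalHom ((h.comp π : D₂.R →ₐ[𝒪] D₂.R ⧸ J) : D₂.R →+* D₂.R ⧸ J) :=
    RingHom.isLocalHom_comp (h : D₁.R →+* D₂.R ⧸ J) (π : D₂.R →+* D₁.R)
  have h1 : h.comp π = mk := by
    refine universal_unique D₂ hsurj hhπ_loc hmk ?_ h𝒟₂
    refine IsEquiv.trans' (IsEquiv.symm' (bc_comp D₂.ρ (π : D₂.R →+* D₁.R) hπ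
      (h : D₁.R →+* D₂.R ⧸ J) hh _ hhπ_loc rfl)) ?_
    exact IsEquiv.trans' (IsEquiv.bc hπe _ hh) hhe
  -- `π̄`
  let πbar : D₂.R ⧸ J →ₐ[𝒪] D₁.R := Ideal.Quotient.liftₐ J π fun a ha => hJ ha
  have hπbar : πbar.comp mk = π := by
    ext x; rfl
  have hπbar_loc : IsLocalHom (πbar : D₂.R ⧸ J →+* D₁.R) := by
    constructor
    intro a ha
    obtain ⟨x, rfl⟩ := Ideal.Quotient.mk_surjective a
    have : IsUnit x := hπ.map_nonunit x ha
    exact this.map _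
  have hid_loc : IsLocalHom ((AlgHom.id 𝒪 D₁.R : D₁.R →ₐ[𝒪] D₁.R) : D₁.R →+* D₁.R) :=
    ⟨fun a ha => ha⟩
  have hπh_loc : IsLocalHom ((πbar.comp h : D₁.R →ₐ[𝒪] D₁.R) : D₁.R →+* D₁.R) :=
    RingHom.isLocalHom_comp (πbar : D₂.R ⧸ J →+* D₁.R) (h : D₁.R →+* D₂.R ⧸ J)
  have hid : (D₁.ρ.baseChangeAlong ((AlgHom.id 𝒪 D₁.R : D₁.R →ₐ[𝒪] D₁.R) : D₁.R →+* D₁.R)
      hid_loc).IsEquiv D₁.ρ := bc_id _ _ _ rfl
  have hcoeff : IsCoeff 𝒪 D₁.R := ⟨inferInstance, D₁.residue_surjective, inferInstance⟩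
  have h2 : πbar.comp h = AlgHom.id 𝒪 D₁.R := by
    -- both give `ρ₁`
    obtain ⟨φ, -, huniq⟩ := D₁.universal D₁.R D₁.residue_surjective D₁.ρ D₁.isOfType
      D₁.residual_isEquiv
    rw [huniq _ ⟨hid_loc, hid⟩]
    refine huniq _ ⟨hπh_loc, ?_⟩
    refine IsEquiv.trans' (IsEquiv.symm' (bc_comp D₁.ρ (h : D₁.R →+* D₂.R ⧸ J) hh
      (πbar : D₂.R ⧸ J →+* D₁.R) hπbar_loc _ hπh_loc rfl)) ?_
    refine IsEquiv.trans' (IsEquiv.bc hhe _ hπbar_loc) ?_
    refine IsEquiv.trans' (bc_comp D₂.ρ (mk : D₂.R →+* D₂.R ⧸ J) hmk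
      (πbar : D₂.R ⧸ J →+* D₁.R) hπbar_loc (π : D₂.R →+* D₁.R) hπ ?_) hπe
    ext x; rfl
  refine ⟨fun y => ?_, le_antisymm (fun x hx => ?_) hJ⟩
  · obtain ⟨x, hx⟩ := Ideal.Quotient.mk_surjective (h y)
    refine ⟨x, ?_⟩
    have h3 : πbar (h y) = y := DFunLike.congr_fun h2 y
    rw [← h3, ← hx]
    rfl
  · have h3 : h (π x) = mk x := DFunLike.congr_fun h1 x
    rw [(RingHom.mem_ker).mp hx, map_zero] at h3
    exact Ideal.Quotient.eq_zero_iff_mem.mp h3.symm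

/-- Comparison of cotangent spaces along a surjection with kernel `J`. -/
theorem length_cot_le {R₁ R₂ : Type} [CommRing R₁] [CommRing R₂] [Algebra 𝒪 R₁] [Algebra 𝒪 R₂]
    (π : R₂ →ₐ[𝒪] R₁) (hπ : Function.Surjective π) (lam : R₁ →ₐ[𝒪] 𝒪) :
    Module.length 𝒪 (Cot (lam.comp π)) ≤ Module.length 𝒪 (Cot lam) +
      Module.length 𝒪 (((RingHom.ker π).restrictScalars 𝒪).map (der (lam.comp π))) := by
  have hle : RingHom.ker (lam.comp π) ≤ (RingHom.ker lam).comap π := fun x hx => hx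
  let g : Cot (lam.comp π) →ₗ[𝒪] Cot lam := Ideal.mapCotangent _ _ π hle
  have hg : ∀ x, g (der (lam.comp π) x) = der lam (π x) := by
    intro x
    rw [der_apply, der_apply]
    show Ideal.mapCotangent _ _ π hle (Ideal.toCotangent _ _) = _
    rw [Ideal.mapCotangent_toCotangent]
    congr 1
    apply Subtype.ext
    show π (x - algebraMap 𝒪 R₂ (lam (π x))) = π x - algebraMap 𝒪 R₁ (lam (π x))
    rw [map_sub, AlgHom.commutes]
  have hker : LinearMap.ker g ≤ ((RingHom.ker π).restrictScalars 𝒪).map (der (lam.comp π)) := by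
    intro z hz
    obtain ⟨⟨x, hx⟩, rfl⟩ := (RingHom.ker (lam.comp π)).toCotangent_surjective z
    rw [← der_of_mem (lam.comp π) hx] at hz ⊢
    rw [LinearMap.mem_ker, hg] at hz
    replace hz := (der_eq_zero_iff lam (x := π x) hx).mp hz
    have h1 : (RingHom.ker lam ^ 2) = ((RingHom.ker (lam.comp π)) ^ 2).map π := by
      rw [Ideal.map_pow]
      congr 1
      apply le_antisymm
      · intro y hy
        obtain ⟨w, rfl⟩ := hπ y
        exact Ideal.mem_map_of_mem _ hy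
      · rw [Ideal.map_le_iff_le_comap]
        exact hle
    rw [h1] at hz
    obtain ⟨w, hw, hwx⟩ := (Ideal.mem_map_iff_of_surjective π hπ).mp hz
    refine ⟨x - w, ?_, ?_⟩
    · show x - w ∈ RingHom.ker π
      rw [RingHom.mem_ker, map_sub, hwx, sub_self]
    · rw [map_sub, (der_eq_zero_iff _ (Ideal.pow_le_self two_ne_zero hw)).mpr hw, sub_zero]
  rw [Module.length_eq_add_of_exact (LinearMap.ker g).subtype g.rangeRestrict
    (Submodule.subtype_injective _) g.surjective_rangeRestrict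
    (by
      rw [LinearMap.exact_iff, LinearMap.ker_rangeRestrict, Submodule.range_subtype]), add_comm]
  exact add_le_add
    (Module.length_le_of_injective (LinearMap.range g).subtype (Submodule.subtype_injective _))
    (Module.length_le_of_injective (Submodule.inclusion hker) (Submodule.inclusion_injective _))

end Main

end Fermat.Agent.RT.SelStep
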