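import Mathlib
import Fermat.Agent.RT.SelStep

/-!
# Relaxing the deformation condition "unramified at `q`"

Main theorem `length_cot_le_unram`: if `𝒟₁ = 𝒟₂ + unramified at q` (`q ≠ p`), then for an
augmentation `λ` of `R₁`,
`length Φ_{R₂} ≤ length Φ_{R₁} + length 𝒪 / ((q - 1) ((q + 1)² - t²))`, `t = λ(tr ρ(Frob_q))`.
-/

set_option autoImplicit false
set_option linter.unusedSectionVars false

noncomputable section

open IsLocalRing Pointwise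

namespace Fermat.Agent.RT.SelUnram

open Fermat.Agent.RT.SelDer Fermat.Agent.RT.SelInertia Fermat.Agent.RT.SelStep
  Fermat.Agent.UDef Fermat.Agent.DefCond

local notation "Qb" => AlgebraicClosure ℚ

section Det

variable {A : Type} [CommRing A] [IsLocalRing A] [IsNoetherianRing A]

theorem det_eq_natCast {ρ : GaloisRepAdic A} {p : ℕ} (h : ρ.DetIsCyclotomic p) {σ : GalQ} {a : ℕ}
    (ha : ∀ n : ℕ, ∀ μ : Qb, μ ^ p ^ n = 1 → σ μ = μ ^ a) :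
    LinearMap.det (ρ.ρ σ) = (a : A) := by
  rw [← sub_eq_zero]
  have h1 : Ideal.span {(p : A)} ≠ ⊤ := by
    intro htop
    have h2 : (1 : A) ∈ maximalIdeal A := by
      have h3 : Ideal.span {(p : A)} ≤ maximalIdeal A :=
        (Ideal.span_singleton_le_iff_mem _).mpr h.1
      exact h3 (htop ▸ Submodule.mem_top)
    exact (Ideal.ne_top_iff_one _).mp (maximalIdeal.isMaximal A).ne_top h2
  have h2 := Ideal.iInf_pow_eq_bot_of_isLocalRing (Ideal.span {(p : A)}) h1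
  have h3 : LinearMap.det (ρ.ρ σ) - (a : A) ∈ ⨅ i : ℕ, Ideal.span {(p : A)} ^ i := by
    rw [Ideal.mem_iInf]
    intro n
    rw [Ideal.span_singleton_pow]
    have h4 := h.2 n σ a (ha n)
    push_cast at h4
    exact h4
  rw [h2] at h3
  exact (Submodule.mem_bot A).mp h3

theorem inertia_root {p q : ℕ} (hp : p.Prime) (hq : q.Prime) (hpq : p ≠ q)
    {P : ValuationSubring Qb} (hP : P.LiesOverPrime q) {σ : GalQ}
    (hσ : σ ∈ P.inertiaSubgroupIn ℚ) (n : ℕ) (μ : Qb) (hμ : μ ^ p ^ n = 1) : σ μ = μ ^ 1 := by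
  have : NeZero (p ^ n) := ⟨pow_ne_zero _ hp.ne_zero⟩
  have hqn : ¬ q ∣ p ^ n := fun h => hpq.symm ((Nat.prime_dvd_prime_iff_eq hq hp).mp
    (hq.dvd_of_dvd_pow h))
  rw [Cyclotomic.cyc_spec (p ^ n) σ hμ, Cyclotomic.cyc_inertia (n := p ^ n) hq hqn P hP hσ]
  have h1 := Cyclotomic.pow_val_natCast (p ^ n) hμ 1
  rw [Nat.cast_one] at h1
  exact h1

theorem frobenius_root {p q : ℕ} (hp : p.Prime) (hq : q.Prime) (hpq : p ≠ q)
    {P : ValuationSubring Qb} (hP : P.LiesOverPrime q) {σ : GalQ}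
    (hσ : P.IsFrobeniusAt σ q) (n : ℕ) (μ : Qb) (hμ : μ ^ p ^ n = 1) : σ μ = μ ^ q := by
  have : NeZero (p ^ n) := ⟨pow_ne_zero _ hp.ne_zero⟩
  have hqn : ¬ q ∣ p ^ n := fun h => hpq.symm ((Nat.prime_dvd_prime_iff_eq hq hp).mp
    (hq.dvd_of_dvd_pow h))
  rw [Cyclotomic.cyc_spec (p ^ n) σ hμ, Cyclotomic.cyc_frobenius (n := p ^ n) hq hqn P hP hσ]
  exact Cyclotomic.pow_val_natCast (p ^ n) hμ q

theorem IsModel.det {ρ : GaloisRepAdic A} {M : GalQ →* Matrix (Fin 2) (Fin 2) A}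
    (h : IsModel ρ M) (σ : GalQ) : (M σ).det = LinearMap.det (ρ.ρ σ) := by
  obtain ⟨b, hb⟩ := h
  rw [← hb, LinearMap.det_toMatrix]

theorem IsModel.eq_one_iff {ρ : GaloisRepAdic A} {M : GalQ →* Matrix (Fin 2) (Fin 2) A}
    (h : IsModel ρ M) (σ : GalQ) : M σ = 1 ↔ ρ.ρ σ = 1 := by
  obtain ⟨b, hb⟩ := h
  rw [← hb]
  constructor
  · intro h1
    apply (LinearMap.toMatrix b b).injective
    rw [h1]
    exact (LinearMap.toMatrix_one b).symm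
  · intro h1
    rw [h1]
    exact LinearMap.toMatrix_one b

/-- Unramifiedness can be tested at one place. -/
theorem isUnramifiedAt_of_place {ρ : GaloisRepAdic A} {q : ℕ} (hq : q.Prime)
    {P : ValuationSubring Qb} (hP : P.LiesOverPrime q)
    (h : ∀ σ ∈ P.inertiaSubgroupIn ℚ, ρ.ρ σ = 1) : ρ.IsUnramifiedAt q := by
  intro P' hP' σ hσ
  obtain ⟨g, rfl⟩ := FrobExists.exists_smul_eq P P' hq hP hP'
  have h1 := TWP.Place.mem_inertia_conj g⁻¹ hσ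
  rw [inv_smul_smul, inv_inv] at h1
  have h2 := h _ h1
  have h3 : σ = g * (g⁻¹ * σ * g) * g⁻¹ := by group
  rw [h3, map_mul, map_mul, h2, mul_one, ← map_mul, mul_inv_cancel, map_one]

end Det

section Main

variable {𝒪 : Type} [CommRing 𝒪] [IsDomain 𝒪] [IsDiscreteValuationRing 𝒪]
  [IsAdicComplete (maximalIdeal 𝒪) 𝒪] {ρbar : ResidualGaloisRep (ResidueField 𝒪)}
  {𝒟₁ 𝒟₂ : ∀ ⦃A : Type⦄ [CommRing A] [IsLocalRing A] [Algebra 𝒪 A], GaloisRepAdic A → Prop}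

/-- The ideal generated by the entries of `M σ - 1`, `σ` in inertia at `P`. -/
def inertiaIdeal {R : Type} [CommRing R] (M : GalQ →* Matrix (Fin 2) (Fin 2) R)
    (P : ValuationSubring Qb) : Ideal R :=
  Ideal.span {x | ∃ σ ∈ P.inertiaSubgroupIn ℚ, ∃ i j, x = (M σ - 1) i j}

theorem map_inertiaIdeal_le {R : Type} [CommRing R] [IsLocalRing R] [Algebra 𝒪 R] (lam : R →ₐ[𝒪] 𝒪)
    {M : GalQ →* Matrix (Fin 2) (Fin 2) R} {P : ValuationSubring Qb}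
    (hunr : ∀ σ ∈ P.inertiaSubgroupIn ℚ, (M σ).map lam = 1) :
    ((inertiaIdeal M P).restrictScalars 𝒪).map (der lam) ≤ inertiaSpan lam M P := by
  rintro _ ⟨x, hx, rfl⟩
  have key : der lam x ∈ inertiaSpan lam M P ∧ x ∈ RingHom.ker lam := by
    refine Submodule.span_induction (p := fun x _ => der lam x ∈ inertiaSpan lam M P ∧
      x ∈ RingHom.ker lam) ?_ ?_ ?_ ?_ hx
    · rintro _ ⟨σ, hσ, i, j, rfl⟩
      refine ⟨?_, entry_mem_ker lam (hunr σ hσ) i j⟩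
      rw [Matrix.sub_apply, map_sub]
      have h6 : der lam ((1 : Matrix (Fin 2) (Fin 2) R) i j) = 0 := by
        rw [Matrix.one_apply]
        split_ifs <;> simp
      rw [h6, sub_zero]
      exact Submodule.subset_span ⟨σ, hσ, i, j, rfl⟩
    · exact ⟨by rw [map_zero]; exact Submodule.zero_mem _, Ideal.zero_mem _⟩
    · intro a b _ _ ha hb
      exact ⟨by rw [map_add]; exact Submodule.add_mem _ ha.1 hb.1, Ideal.add_mem _ ha.2 hb.2⟩
    · intro r y _ hy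
      refine ⟨?_, Ideal.mul_mem_left _ _ hy.2⟩
      rw [smul_eq_mul, der_mul, (RingHom.mem_ker).mp hy.2, zero_smul, add_zero]
      exact Submodule.smul_mem _ _ hy.1
  exact key.1

/-- The canonical map `R₂ → R₁` for `𝒟₁ ⊂ 𝒟₂`. -/
theorem exists_canonical (D₁ : GaloisRep.DeformationRingData 𝒪 ρbar 𝒟₁)
    (D₂ : GaloisRep.DeformationRingData 𝒪 ρbar 𝒟₂) (h : 𝒟₂ D₁.ρ) :
    ∃ (π : D₂.R →ₐ[𝒪] D₁.R) (hπ : IsLocalHom (π : D₂.R →+* D₁.R)),
      (D₂.ρ.baseChangeAlong (π : D₂.R →+* D₁.R) hπ).IsEquiv D₁.ρ := by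
  obtain ⟨φ, ⟨hφ, he⟩, -⟩ := D₂.universal D₁.R D₁.residue_surjective D₁.ρ h D₁.residual_isEquiv
  exact ⟨φ, hφ, he⟩

/-- **Relaxing "unramified at `q`".** -/
theorem length_cot_le_unram (D₁ : GaloisRep.DeformationRingData 𝒪 ρbar 𝒟₁)
    (D₂ : GaloisRep.DeformationRingData 𝒪 ρbar 𝒟₂)
    (hbc : ∀ ⦃A B : Type⦄ [CommRing A] [IsLocalRing A] [Algebra 𝒪 A]
      [CommRing B] [IsLocalRing B] [Algebra 𝒪 B], IsCoeff 𝒪 A → IsCoeff 𝒪 B →
      ∀ (φ : A →ₐ[𝒪] B) (hφ : IsLocalHom (φ : A →+* B)) ⦃ρ : GaloisRepAdic A⦄,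
        𝒟₂ ρ → 𝒟₂ (ρ.baseChangeAlong (φ : A →+* B) hφ))
    {p q : ℕ} (hp : p.Prime) (hq : q.Prime) (hpq : p ≠ q)
    (h𝒟 : ∀ ⦃A : Type⦄ [CommRing A] [IsLocalRing A] [Algebra 𝒪 A], IsCoeff 𝒪 A →
      ∀ (ρ : GaloisRepAdic A), 𝒟₁ ρ ↔ 𝒟₂ ρ ∧ ρ.IsUnramifiedAt q)
    (hdet : D₂.ρ.DetIsCyclotomic p)
    (π : D₂.R →ₐ[𝒪] D₁.R) (hπ : IsLocalHom (π : D₂.R →+* D₁.R))
    (hπe : (D₂.ρ.baseChangeAlong (π : D₂.R →+* D₁.R) hπ).IsEquiv D₁.ρ)
    (lam : D₁.R →ₐ[𝒪] 𝒪) {P : ValuationSubring Qb} (hP : P.LiesOverPrime q) {φ : GalQ}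
    (hφ : P.IsFrobeniusAt φ q)
    (h0 : ((q : 𝒪) - 1) * (((q : 𝒪) + 1) ^ 2 - lam (D₁.ρ.trace φ) ^ 2) ≠ 0) :
    Module.length 𝒪 (Cot (lam.comp π)) ≤ Module.length 𝒪 (Cot lam) +
      Ring.ord 𝒪 (((q : 𝒪) - 1) * (((q : 𝒪) + 1) ^ 2 - lam (D₁.ρ.trace φ) ^ 2)) := by
  have hc₁ : IsCoeff 𝒪 D₁.R := ⟨inferInstance, D₁.residue_surjective, inferInstance⟩
  have hc₂ : IsCoeff 𝒪 D₂.R := ⟨inferInstance, D₂.residue_surjective, inferInstance⟩
  obtain ⟨M, hM⟩ := exists_model D₂.ρ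
  have hM₁ : IsModel D₁.ρ (mapRep (π : D₂.R →+* D₁.R) M) :=
    (hM.baseChangeAlong _ hπ).of_isEquiv hπe
  have hunr₁ := ((h𝒟 hc₁ D₁.ρ).mp D₁.isOfType).2
  have hMπ : ∀ σ ∈ P.inertiaSubgroupIn ℚ, (M σ).map π = 1 := fun σ hσ =>
    (IsModel.eq_one_iff hM₁ σ).mpr (hunr₁ P hP σ hσ)
  set J := inertiaIdeal M P with hJdef
  have hJ : J ≤ RingHom.ker π := by
    rw [hJdef, inertiaIdeal, Ideal.span_le]
    rintro _ ⟨σ, hσ, i, j, rfl⟩
    show (M σ - 1) i j ∈ RingHom.ker π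
    rw [RingHom.mem_ker, Matrix.sub_apply, map_sub, sub_eq_zero]
    have h := congrFun (congrFun (hMπ σ hσ) i) j
    rw [Matrix.map_apply] at h
    rw [h, Matrix.one_apply, Matrix.one_apply]
    split_ifs <;> simp
  have hJtop : J ≠ ⊤ := by
    intro h
    have h1 : (1 : D₂.R) ∈ RingHom.ker π := hJ (h ▸ Submodule.mem_top)
    rw [RingHom.mem_ker, map_one] at h1
    exact one_ne_zero h1
  obtain ⟨hl, hcomp, hloc, hsurj, hmk'⟩ := quotient_facts (𝒪 := 𝒪) D₂.residue_surjective hJtop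
  have hcq : IsCoeff 𝒪 (D₂.R ⧸ J) := ⟨hloc, hsurj, inferInstance⟩
  obtain ⟨hπs, hker⟩ := ker_eq_of_quotient D₁ D₂ π hπ hπe J hJ (by
    intro hl' hmk
    have hb : 𝒟₂ (D₂.ρ.baseChangeAlong ((Ideal.Quotient.mkₐ 𝒪 J : D₂.R →ₐ[𝒪] D₂.R ⧸ J) :
        D₂.R →+* D₂.R ⧸ J) hmk) := hbc hc₂ hcq (Ideal.Quotient.mkₐ 𝒪 J) hmk D₂.isOfType
    refine ⟨(h𝒟 hcq _).mpr ⟨hb, ?_⟩, hb⟩
    refine isUnramifiedAt_of_place hq hP fun σ hσ => ?_
    refine (IsModel.eq_one_iff (hM.baseChangeAlong _ hmk) σ).mp ?_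
    ext i j
    rw [mapRep_apply, Matrix.map_apply]
    have h1 : (M σ - 1) i j ∈ J := Ideal.subset_span ⟨σ, hσ, i, j, rfl⟩
    have h2 : Ideal.Quotient.mk J ((M σ - 1) i j) = 0 := Ideal.Quotient.eq_zero_iff_mem.mpr h1
    rw [Matrix.sub_apply, map_sub, sub_eq_zero] at h2
    show Ideal.Quotient.mk J (M σ i j) = _
    rw [h2, Matrix.one_apply, Matrix.one_apply]
    split_ifs <;> simp)
  have hunr : ∀ σ ∈ P.inertiaSubgroupIn ℚ, (M σ).map (lam.comp π) = 1 := by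
    intro σ hσ
    have h1 := congrArg (fun X : Matrix (Fin 2) (Fin 2) D₁.R => X.map lam) (hMπ σ hσ)
    simp only [Matrix.map_map] at h1
    have h2 : (1 : Matrix (Fin 2) (Fin 2) D₁.R).map lam = 1 :=
      Matrix.map_one _ (map_zero lam) (map_one lam)
    rw [h2] at h1
    exact h1
  have hdetI : ∀ σ ∈ P.inertiaSubgroupIn ℚ, (M σ).det = 1 := by
    intro σ hσ
    rw [IsModel.det hM, det_eq_natCast hdet (a := 1)
      (fun n μ hμ => inertia_root hp hq hpq hP hσ n μ hμ), Nat.cast_one]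
  have hdetφ : (M φ).det = (q : D₂.R) := by
    rw [IsModel.det hM, det_eq_natCast hdet (a := q)
      (fun n μ hμ => frobenius_root hp hq hpq hP hφ n μ hμ)]
  set B := (M φ).map (lam.comp π) with hB
  have hBdet : B.det = (q : 𝒪) := by
    have h1 : B.det = (lam.comp π) (M φ).det := by
      rw [hB]
      exact ((lam.comp π : D₂.R →ₐ[𝒪] 𝒪).map_det (M φ)).symm
    rw [h1, hdetφ, map_natCast]
  have hBtr : B.trace = lam (D₁.ρ.trace φ) := by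
    rw [hM₁.trace, Matrix.trace_fin_two, Matrix.trace_fin_two, map_add]
    rfl
  have hqu : IsUnit (q : 𝒪) := by
    by_contra h
    have h1 : (q : 𝒪) ∈ maximalIdeal 𝒪 := h
    have h2 : (p : 𝒪) ∈ maximalIdeal 𝒪 := by
      have := map_mem_maximalIdeal (lam.comp π) hdet.1
      rwa [map_natCast] at this
    obtain ⟨a, b, hab⟩ := Nat.isCoprime_iff_coprime.mpr
      ((Nat.coprime_primes hp hq).mpr hpq)
    have h3 : (a : 𝒪) * (p : 𝒪) + (b : 𝒪) * (q : 𝒪) = 1 := by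
      have h5 := congrArg (Int.cast : ℤ → 𝒪) hab
      push_cast at h5
      exact h5
    have h4 : (1 : 𝒪) ∈ maximalIdeal 𝒪 := by
      rw [← h3]
      exact Ideal.add_mem _ (Ideal.mul_mem_left _ _ h2) (Ideal.mul_mem_left _ _ h1)
    exact (Ideal.ne_top_iff_one _).mp (maximalIdeal.isMaximal 𝒪).ne_top h4
  have hloc : locEl q B = (-(q : 𝒪) ^ 3) *
      (((q : 𝒪) - 1) * (((q : 𝒪) + 1) ^ 2 - lam (D₁.ρ.trace φ) ^ 2)) := by
    rw [locEl, hBdet, hBtr]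
    ring
  have hu3 : IsUnit (-(q : 𝒪) ^ 3) := (hqu.pow 3).neg
  have hloc0 : locEl q B ≠ 0 := by
    rw [hloc]
    exact mul_ne_zero hu3.ne_zero h0
  have hlen := length_inertiaSpan_le (lam.comp π) hq ((Nat.coprime_primes hp hq).mpr hpq) hdet.1 hP
    hφ hM.mcont hunr hdetI hloc0
  have hord : Ring.ord 𝒪 (locEl q B) =
      Ring.ord 𝒪 (((q : 𝒪) - 1) * (((q : 𝒪) + 1) ^ 2 - lam (D₁.ρ.trace φ) ^ 2)) := by
    rw [hloc]
    exact Ring.ord_mul_of_isUnit_left hu3 _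
  refine (length_cot_le π hπs lam).trans (add_le_add le_rfl ?_)
  rw [hker, ← hord]
  refine le_trans ?_ hlen
  have h5 := map_inertiaIdeal_le (lam.comp π) hunr
  exact Module.length_le_of_injective (Submodule.inclusion h5) (Submodule.inclusion_injective h5)

end Main

end Fermat.Agent.RT.SelUnram
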