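import Fermat.Agent.RT.TWAct
import Fermat.Agent.RT.TW.Defs

/-!
# The `TWHecke` instance (team RT, helper59)
-/

set_option autoImplicit false
set_option linter.unusedSectionVars false
set_option linter.style.haveILetI false

open Matrix Matrix.SpecialLinearGroup CongruenceSubgroup IsLocalRing CuspForm
open scoped MatrixGroups OnePoint

noncomputable section

namespace Fermat.Agent.RT.GR

/-- A free `A[Δ]`-module has an `A`-basis permuted by `Δ`. -/
theorem RepFree.exists_basis {A Δ : Type} [CommRing A] [CommGroup Δ] [Finite Δ] {N : Type}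
    [AddCommGroup N] [Module A N] {ρ : Δ →* Module.End A N} (h : RepFree ρ) :
    ∃ (ι : Type) (_ : Finite ι) (b : Module.Basis (Δ × ι) A N),
      ∀ x k, ρ x (b (1, k)) = b (x, k) := by
  letI := repModule ρ
  have h1 := repModule_tower ρ
  have h3 := h.1
  have h4 := h.2
  rcases subsingleton_or_nontrivial A with hA | hA
  · have hN : Subsingleton N := Module.subsingleton A N
    refine ⟨Empty, inferInstance, Module.Basis.empty N, fun x k => k.elim⟩
  · let c := Module.Free.chooseBasis (MonoidAlgebra A Δ) N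
    refine ⟨Module.Free.ChooseBasisIndex (MonoidAlgebra A Δ) N, inferInstance,
      (MonoidAlgebra.basis Δ A).smulTower c, fun x k => ?_⟩
    rw [Module.Basis.smulTower_apply, Module.Basis.smulTower_apply, MonoidAlgebra.basis_apply,
      MonoidAlgebra.basis_apply, ← repModule_of_smul ρ, MonoidAlgebra.of_apply, smul_smul,
      MonoidAlgebra.single_mul_single, one_mul, mul_one]

end Fermat.Agent.RT.GR

namespace Fermat.Agent.RT.TWS

open Fermat.Agent.LR Fermat.Agent.LR.PS Fermat.Agent.RT Fermat.Agent.RT.TwistH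
  Fermat.Agent.RT.GroupAlg Fermat.Agent.RT.Dict Fermat.Agent.RT.Loc Fermat.Agent.RT.GR
  Fermat.Agent.RT.MSHecke Fermat.Agent.RT.HeckeLocalFields

theorem orderOf_gen {r : ℕ} (q : Fin r → ℕ) [∀ i, NeZero (q i)] (i : Fin r) :
    orderOf (GroupAlg.gen q i) = q i := by
  classical
  rw [GroupAlg.gen]
  have h1 := orderOf_injective (MonoidHom.mulSingle (fun i => Multiplicative (ZMod (q i))) i)
    (fun x y h => Pi.mulSingle_injective (M := fun i => Multiplicative (ZMod (q i))) i h)
    (Multiplicative.ofAdd 1)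
  have h2 : orderOf (Multiplicative.ofAdd (1 : ZMod (q i))) = q i := by
    rw [orderOf_ofAdd_eq_addOrderOf, ZMod.addOrderOf_one]
  rw [h2] at h1
  exact h1

namespace TWP

variable {p N r : ℕ} {W : TWP p N r} [hp : Fact p.Prime]
variable {𝒪 : Type} [CommRing 𝒪] [IsDomain 𝒪] [IsDiscreteValuationRing 𝒪]
  [IsAdicComplete (maximalIdeal 𝒪) 𝒪] [Finite (ResidueField 𝒪)]
variable {t α : ℕ → 𝒪} {S I : Set ℕ}

/-- **Abstract construction of `TWHecke`.** -/
theorem exists_TWHecke (hG : W.Good S I) (h2 : IsUnit (2 : 𝒪)) (hp𝒪 : (p : 𝒪) ∈ maximalIdeal 𝒪)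
    (h3 : IsUnit (3 : 𝒪) ∨ ∃ s : ℕ, s.Prime ∧ s % 3 = 2 ∧ s ∣ N)
    {R' : Type} [CommRing R'] [Algebra 𝒪 R'] (g : Fin r → R')
    {R : Type} [CommRing R] [Algebra 𝒪 R] (πR : R' →ₐ[𝒪] R)
    (M : Type) [AddCommGroup M] [Module R M] [Module 𝒪 M]
    (Ψ : R' →ₐ[𝒪] Module.End 𝒪 (W.M' 1 S t I α))
    (hΨD : ∀ f δ, Commute (Ψ f) (dia' hG 1 t α δ))
    (E1 : ∀ i z, dia' hG 1 t α (GroupAlg.gen _ i) z = z → Ψ (g i) z = z)
    (E2 : ∀ i z, ∑ j ∈ Finset.range p, dia' hG 1 t α (GroupAlg.gen _ i ^ j) z = 0 →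
      Ψ (g i) z = z → z = 0)
    (e : W.M0 1 S t I α ≃ₗ[𝒪] M)
    (he : ∀ (f : R') (x y : W.M0 1 S t I α), Submodule.inclusion (M0_le hG) y =
      Ψ f (Submodule.inclusion (M0_le hG) x) → e y = πR f • e x) :
    Nonempty (TW.TWHecke 𝒪 p W.a g πR M) := by
  classical
  have hfr := repFree (t := t) (α := α) hG h2 hp𝒪 h3
  obtain ⟨ι, hι, b, hb⟩ := hfr.exists_basis
  letI := Fintype.ofFinite W.Δ
  obtain ⟨ν, hν1, hν2, hν3⟩ := exists_norm (t := t) (α := α) hG h2 hp𝒪 h3
  letI : Module R' (W.M' 1 S t I α) := Module.compHom _ Ψ.toRingHom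
  have hsm : ∀ (f : R') (z : W.M' 1 S t I α), f • z = Ψ f z := fun _ _ => rfl
  have htower : IsScalarTower 𝒪 R' (W.M' 1 S t I α) := ⟨fun c f z => by
    rw [hsm, hsm, map_smul, LinearMap.smul_apply]⟩
  exact ⟨{
    M' := W.M' 1 S t I α
    Δ := W.Δ
    δ := GroupAlg.gen fun i => p ^ W.a i
    orderOf_δ := fun i => orderOf_gen _ i
    closure_δ := closure_gen
    card_Δ := W.card_Δ
    D := dia' hG 1 t α
    D_smul := fun x f z => by
      rw [hsm, hsm]
      have h := LinearMap.congr_fun (hΨD f x).eq z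
      rw [Module.End.mul_apply, Module.End.mul_apply] at h
      exact h.symm
    ι := ι
    instFiniteι := hι
    b := b
    D_b := hb
    E1 := E1
    E2 := E2
    π := (e.toLinearMap ∘ₗ ν).toAddMonoidHom
    π_surjective := e.surjective.comp hν1
    π_smul := fun f z => by
      refine he f (ν z) (ν (Ψ f z)) ?_
      rw [hν2, hν2, map_sum]
      refine Finset.sum_congr rfl fun δ _ => ?_
      have h := LinearMap.congr_fun (hΨD f δ).eq z
      rw [Module.End.mul_apply, Module.End.mul_apply] at h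
      exact h.symm
    ker_π := fun z hz => by
      have h1 : ν z = 0 := e.injective (by rw [map_zero]; exact hz)
      have h2 : z ∈ LinearMap.ker ν := h1
      rw [hν3] at h2
      exact h2 }⟩

end TWP

end Fermat.Agent.RT.TWS
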