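import Mathlib
import Fermat.Agent.RT.Datum
import Fermat.Agent.RT.Glue
import Fermat.Agent.GAL.PseudoRepGal
import Fermat.Agent.BrauerNesbittGalois
import Fermat.Agent.FrobCompareDet
import Fermat.Agent.InvolutionCyc
import Fermat.Agent.Petersson.Reduced
import Fermat.Agent.IntStr.Main

/-!
# `HeckeGaloisRepDatum` for the local Hecke algebra

* `exists_datum_of_galInput`: from the Galois module input `GalInputAt N p`;
* `exists_datum_of_S30`: from the statement `S30` (pointwise representations), by glueing.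
-/

set_option autoImplicit false

open Polynomial IsLocalRing
open scoped TensorProduct

namespace Fermat.Agent.RT.DatumGal

open Fermat.Agent.PseudoRep Fermat.Agent.FrobCompare CuspForm

local notation "Γℚ" => (AlgebraicClosure ℚ ≃ₐ[ℚ] AlgebraicClosure ℚ)

theorem mem_pow_of_dvd {A : Type*} [CommRing A] [IsLocalRing A] {p : ℕ}
    (hp : (p : A) ∈ maximalIdeal A) {n : ℕ} {x : A} (h : (p : A) ^ n ∣ x) :
    x ∈ maximalIdeal A ^ n := by
  obtain ⟨y, rfl⟩ := h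
  exact Ideal.mul_mem_right _ _ (Ideal.pow_mem_pow hp n)

/-- The determinant of a cyclotomic-determinant representation is `-1` at involutions. -/
theorem det_involution {A : Type} [CommRing A] [IsLocalRing A] [IsNoetherianRing A] {p : ℕ}
    [Fact p.Prime] (ρ : GaloisRepAdic A) (hρ : ρ.DetIsCyclotomic p) {c : Γℚ} (hc : c * c = 1)
    (hc1 : c ≠ 1) : LinearMap.det (ρ.ρ c) = -1 := by
  have hp0 : p ≠ 0 := (Fact.out : p.Prime).ne_zero
  rw [← sub_eq_zero, sub_neg_eq_add]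
  refine eq_zero_of_forall_mem_pow fun n => ?_
  have h1 := hρ.2 n c (p ^ n - 1) (fun μ hμ => by
    rw [InvolutionCyc.involution_rootOfUnity c hc hc1 (pow_ne_zero n hp0) hμ]
    refine inv_eq_of_mul_eq_one_right ?_
    rw [← pow_succ', Nat.sub_add_cancel (Nat.one_le_pow _ _ (Fact.out : p.Prime).pos), hμ])
  have h2 : LinearMap.det (ρ.ρ c) + 1 ∈ Ideal.span {((p ^ n : ℕ) : A)} := by
    have h3 : LinearMap.det (ρ.ρ c) + 1 =
        (LinearMap.det (ρ.ρ c) - ((p ^ n - 1 : ℕ) : A)) + ((p ^ n : ℕ) : A) := by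
      rw [Nat.cast_sub (Nat.one_le_pow _ _ (Fact.out : p.Prime).pos), Nat.cast_one]
      ring
    rw [h3]
    exact Ideal.add_mem _ h1 (Ideal.mem_span_singleton_self _)
  obtain ⟨y, hy⟩ := Ideal.mem_span_singleton.mp h2
  rw [hy, Nat.cast_pow]
  exact Ideal.mul_mem_right _ _ (Ideal.pow_mem_pow hρ.1 n)

section

variable {p : ℕ} [Fact p.Prime] (hp2 : p ≠ 2) (N : ℕ)
    [NeZero N] (S : Finset ℕ) (hpS : p ∈ S) (hNS : ∀ q : ℕ, q.Prime → q ∣ N → q ∈ S)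
    (𝒪 : Type) [CommRing 𝒪] [IsDomain 𝒪] [IsDiscreteValuationRing 𝒪]
    [IsAdicComplete (maximalIdeal 𝒪) 𝒪] (hp𝒪 : (p : 𝒪) ∈ maximalIdeal 𝒪)
    [Fact (HasIntegralStructure N 2)]
    (θ : heckeAlgebra N 2 (↑S : Set ℕ) →+* ResidueField 𝒪)
    {k' K : Type} [Field k'] [Field K] (i : ResidueField 𝒪 →+* K) (i' : k' →+* K)
    (ρ' : ResidualGaloisRep k') (habs : ρ'.IsAbsolutelyIrreducible)
    (hρ' : ∀ (ℓ : ℕ) (hℓ : ℓ.Prime) (hℓN : ¬ ℓ ∣ N) (hℓS : ℓ ∉ (↑S : Set ℕ)),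
      ∀ P : ValuationSubring (AlgebraicClosure ℚ), P.LiesOverPrime ℓ →
        ∀ σ : Γℚ, P.IsFrobeniusAt σ ℓ → (LinearMap.charpoly (ρ'.ρ σ)).map i' =
          (X ^ 2 - C (θ (heckeAlgebra.T hℓ hℓN hℓS)) * X + C ((ℓ : ResidueField 𝒪))).map i)

include hp2 hpS hNS hp𝒪 habs hρ' in
/-- The datum attached to `heckeLocal`, from the Galois module input. -/
theorem exists_datum_of_galInput (hD : FrobDensity) (I : GAL.GalInputAt N p) :
    ∃ d : HeckeGaloisRepDatum N (↑S : Set ℕ) 𝒪 θ (heckeLocal N (↑S : Set ℕ) 𝒪 θ),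
      d.π = heckeLocal.π N (↑S : Set ℕ) 𝒪 θ ∧ d.ρ.DetIsCyclotomic p ∧
      (∀ q : ℕ, q.Prime → ¬ q ∣ N → q ≠ p → d.ρ.IsUnramifiedAt q) := by
  have hpC : S30Assembly.PComplete p (heckeLocal N (↑S : Set ℕ) 𝒪 θ) :=
    S30Assembly.PComplete.of_finite_free (R := 𝒪) (S30Assembly.PComplete.of_dvr' hp𝒪)
  have hpA : (p : heckeLocal N (↑S : Set ℕ) 𝒪 θ) ∈ maximalIdeal _ := by
    have h1 := map_nonunit (algebraMap 𝒪 (heckeLocal N (↑S : Set ℕ) 𝒪 θ)) (p : 𝒪) hp𝒪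
    rwa [map_natCast] at h1
  obtain ⟨T, D, H, hDc, hDcyc, hcont, hfr, hin⟩ := GAL.PseudoRepGal.exists_pseudoRep hpS hNS I hpC
    (heckeLocal.π N (↑S : Set ℕ) 𝒪 θ)
  obtain ⟨d, hdπ, hchar, htriv⟩ := Datum.datum_of_pseudoRep hD hp2 N S hNS 𝒪 hp𝒪 θ i i' ρ' habs hρ'
    H (fun n => by
      obtain ⟨L, hL, h⟩ := hcont n
      exact ⟨L, hL, fun σ hσ h' => mem_pow_of_dvd hpA ((h σ hσ).1 h')⟩)
    hfr _root_.complexConjugation_mul_self
    (hDc _ _root_.complexConjugation_mul_self BN2.complexConjugation_ne_one)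
  refine ⟨d, hdπ, ?_, ?_⟩
  · refine detIsCyclotomic_of_frob hD d.ρ (Fact.out : p.Prime).ne_zero hpA S
      fun ℓ hℓ hℓS P hP σ hσ => ?_
    have hℓN : ¬ ℓ ∣ N := fun h => hℓS (hNS ℓ hℓ h)
    have h1 := d.charpoly_frob ℓ hℓ hℓN (by simpa using hℓS) P hP σ hσ
    exact (Glue.trace_det_of_charpoly d.ρ.finrank_eq _ h1).2
  · intro q hq hqN hqp P hP σ hσ
    exact htriv σ ((hin q hq hqN hqp P hP σ hσ).1)

include hp2 hpS hNS hp𝒪 habs hρ' in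
/-- The datum attached to `heckeLocal`, from the pointwise representations of `S30`, by glueing. -/
theorem exists_datum_of_S30 [CharZero 𝒪] [Finite (ResidueField 𝒪)] (hD : FrobDensity)
    (hS30 : Datum.S30Statement) :
    ∃ d : HeckeGaloisRepDatum N (↑S : Set ℕ) 𝒪 θ (heckeLocal N (↑S : Set ℕ) 𝒪 θ),
      d.π = heckeLocal.π N (↑S : Set ℕ) 𝒪 θ ∧ d.ρ.DetIsCyclotomic p := by
  classical
  let A := heckeLocal N (↑S : Set ℕ) 𝒪 θ
  have hpA : (p : A) ∈ maximalIdeal A := by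
    have h1 := map_nonunit (algebraMap 𝒪 A) (p : 𝒪) hp𝒪
    rwa [map_natCast] at h1
  have hred : IsReduced A := HeckeLocalFields.isReduced N (↑S : Set ℕ) 𝒪 θ
    (Petersson.isReduced_heckeAlgebra (fun q hq hqN => by simpa using hNS q hq hqN))
    (IntStr.moduleFinite_heckeAlgebra N 2 _)
  have : Finite (minimalPrimes A) := (minimalPrimes.finite_of_isNoetherianRing A).to_subtype
  have hcomp : ∀ P : minimalPrimes A,
      ∃ (B : Type) (_ : CommRing B) (_ : IsLocalRing B) (_ : IsNoetherianRing B) (_ : Algebra 𝒪 B)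
      (_ : Module.Finite 𝒪 B) (_ : IsLocalHom (algebraMap 𝒪 B)) (φ : A →ₐ[𝒪] B)
      (ρ : GaloisRepAdic B), RingHom.ker φ = P.1 ∧
      ∀ (ℓ : ℕ) (hℓ : ℓ.Prime) (hℓN : ¬ ℓ ∣ N) (hℓS : ℓ ∉ (↑S : Set ℕ)),
        ∀ Q : ValuationSubring (AlgebraicClosure ℚ), Q.LiesOverPrime ℓ →
          ∀ σ : Γℚ, Q.IsFrobeniusAt σ ℓ → LinearMap.charpoly (ρ.ρ σ) =
            X ^ 2 - C (φ (heckeLocal.π N (↑S : Set ℕ) 𝒪 θ (CuspForm.heckeAlgebra.T hℓ hℓN hℓS))) * X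
              + C ((ℓ : B)) := by
    intro P
    have hPprime : P.1.IsPrime := P.2.1.1
    exact Datum.exists_component_rep hS30 hpS hNS hp𝒪 (heckeLocal.π N (↑S : Set ℕ) 𝒪 θ) P.1
      (Components.comap_eq_bot_of_mem_minimalPrimes 𝒪 A P.1 P.2)
  choose B i1 i2 i3 i4 i5 i6 φ ρ hker hfr using hcomp
  have hφ : ∀ a : A, (∀ P, φ P a = 0) → a = 0 := by
    intro a ha
    have h1 : a ∈ sInf (minimalPrimes A) := by
      rw [Ideal.mem_sInf]
      intro P hP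
      have h2 := ha ⟨P, hP⟩
      rw [← RingHom.mem_ker, hker] at h2
      exact h2
    rw [minimalPrimes, Ideal.sInf_minimalPrimes] at h1
    have h3 : (⊥ : Ideal A).radical = ⊥ := (Ideal.isRadical_bot_iff.mpr hred).radical
    rw [h3] at h1
    exact (Submodule.mem_bot A).mp h1
  let t : ℕ → A := fun ℓ => if h : ∃ (hℓ : ℓ.Prime) (_ : ¬ ℓ ∣ N), ℓ ∉ (↑S : Set ℕ) then
    heckeLocal.π N (↑S : Set ℕ) 𝒪 θ (CuspForm.heckeAlgebra.T h.choose h.choose_spec.choose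
      h.choose_spec.choose_spec) else 0
  have ht : ∀ (ℓ : ℕ) (hℓ : ℓ.Prime) (hℓN : ¬ ℓ ∣ N) (hℓS : ℓ ∉ (↑S : Set ℕ)),
      t ℓ = heckeLocal.π N (↑S : Set ℕ) 𝒪 θ (CuspForm.heckeAlgebra.T hℓ hℓN hℓS) :=
    fun ℓ hℓ hℓN hℓS => dif_pos ⟨hℓ, hℓN, hℓS⟩
  obtain ⟨T, D, H, hT, hD', hcont⟩ := Glue.exists_glued_pseudoRep hD B φ hφ ρ S t
    (fun P ℓ hℓ hℓS Q hQ σ hσ => by
      have hℓN : ¬ ℓ ∣ N := fun h => hℓS (hNS ℓ hℓ h)
      rw [ht ℓ hℓ hℓN (by simpa using hℓS)]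
      exact hfr P ℓ hℓ hℓN (by simpa using hℓS) Q hQ σ hσ)
  have hfrob : ∀ (ℓ : ℕ) (hℓ : ℓ.Prime) (hℓN : ¬ ℓ ∣ N) (hℓS : ℓ ∉ (↑S : Set ℕ)),
      ∀ P : ValuationSubring (AlgebraicClosure ℚ), P.LiesOverPrime ℓ →
        ∀ σ : Γℚ, P.IsFrobeniusAt σ ℓ →
          T σ = heckeLocal.π N (↑S : Set ℕ) 𝒪 θ (heckeAlgebra.T hℓ hℓN hℓS) ∧ D σ = (ℓ : A) := by
    intro ℓ hℓ hℓN hℓS P hP σ hσ
    constructor
    · rw [← sub_eq_zero]
      refine hφ _ fun Q => ?_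
      rw [map_sub, hT, sub_eq_zero]
      exact (Glue.trace_det_of_charpoly (ρ Q).finrank_eq _ (hfr Q ℓ hℓ hℓN hℓS P hP σ hσ)).1
    · rw [← sub_eq_zero]
      refine hφ _ fun Q => ?_
      rw [map_sub, hD', sub_eq_zero, map_natCast]
      exact (Glue.trace_det_of_charpoly (ρ Q).finrank_eq _ (hfr Q ℓ hℓ hℓN hℓS P hP σ hσ)).2
  have hDc : D _root_.complexConjugation = -1 := by
    rw [← sub_eq_zero]
    refine hφ _ fun Q => ?_
    rw [map_sub, hD', sub_eq_zero, map_neg, map_one]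
    have hpB : (p : B Q) ∈ maximalIdeal (B Q) := by
      have h1 := map_nonunit (algebraMap 𝒪 (B Q)) (p : 𝒪) hp𝒪
      rwa [map_natCast] at h1
    refine det_involution (p := p) (ρ Q) ?_ _root_.complexConjugation_mul_self
      BN2.complexConjugation_ne_one
    refine detIsCyclotomic_of_frob hD (ρ Q) (Fact.out : p.Prime).ne_zero hpB S
      fun ℓ hℓ hℓS P hP σ hσ => ?_
    have hℓN : ¬ ℓ ∣ N := fun h => hℓS (hNS ℓ hℓ h)
    exact (Glue.trace_det_of_charpoly (ρ Q).finrank_eq _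
      (hfr Q ℓ hℓ hℓN (by simpa using hℓS) P hP σ hσ)).2
  obtain ⟨d, hdπ, hchar, htriv⟩ := Datum.datum_of_pseudoRep hD hp2 N S hNS 𝒪 hp𝒪 θ i i' ρ' habs hρ'
    H hcont hfrob _root_.complexConjugation_mul_self hDc
  refine ⟨d, hdπ, ?_⟩
  refine detIsCyclotomic_of_frob hD d.ρ (Fact.out : p.Prime).ne_zero hpA S
    fun ℓ hℓ hℓS P hP σ hσ => ?_
  have hℓN : ¬ ℓ ∣ N := fun h => hℓS (hNS ℓ hℓ h)
  have h1 := d.charpoly_frob ℓ hℓ hℓN (by simpa using hℓS) P hP σ hσ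
  exact (Glue.trace_det_of_charpoly d.ρ.finrank_eq _ h1).2

end

end Fermat.Agent.RT.DatumGal
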