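import Fermat.Agent.RT.LevelMk
import Mathlib.Algebra.CharP.Lemmas
import Mathlib.Algebra.MonoidAlgebra.Basic
import Mathlib.RingTheory.Finiteness.Basic
import Mathlib.LinearAlgebra.Basis.Basic

/-!
# The group algebra of a finite abelian `p`-group and power series

`𝒪⟦S₁,…,S_r⟧ / ((1 + S_i)^(p^a_i) - 1)` is spanned over `𝒪` by the images of the group elements.
-/

set_option autoImplicit false
set_option linter.unusedSectionVars false

open IsLocalRing MvPowerSeries

namespace Fermat.Agent.RT.GroupAlg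

open Fermat.Agent.RT.ULim Fermat.Agent.RT.MvEval Fermat.Agent.RT.Patch

section pow

/-- the finite abelian group -/
abbrev Grp {r : ℕ} (q : Fin r → ℕ) : Type := ∀ i, Multiplicative (ZMod (q i))

variable {r : ℕ} (q : Fin r → ℕ) [∀ i, NeZero (q i)]

/-- the standard generators -/
def gen (i : Fin r) : Grp q := Pi.mulSingle i (Multiplicative.ofAdd 1)

/-- exponent -/
def expo (g : Grp q) (i : Fin r) : ℕ := (Multiplicative.toAdd (g i)).val

variable {q}

theorem expo_mul_modEq (g h : Grp q) (i : Fin r) :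
    expo q (g * h) i ≡ expo q g i + expo q h i [MOD q i] := by
  unfold expo
  rw [Pi.mul_apply, toAdd_mul, ZMod.val_add]
  exact Nat.mod_modEq _ _

/-- the homomorphism `g ↦ ∏ u_i ^ (g_i)` -/
def powHom {B : Type*} [CommRing B] (u : Fin r → B) (hu : ∀ i, u i ^ q i = 1) : Grp q →* B where
  toFun g := ∏ i, u i ^ expo q g i
  map_one' := by simp [expo]
  map_mul' g h := by
    rw [← Finset.prod_mul_distrib]
    refine Finset.prod_congr rfl fun i _ => ?_
    rw [← pow_add]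
    exact pow_eq_pow_of_modEq (expo_mul_modEq g h i) (hu i)

theorem powHom_apply {B : Type*} [CommRing B] (u : Fin r → B) (hu : ∀ i, u i ^ q i = 1)
    (g : Grp q) : powHom u hu g = ∏ i, u i ^ expo q g i := rfl

theorem eq_prod_gen (g : Grp q) : g = ∏ i, gen q i ^ expo q g i := by
  funext j
  rw [Finset.prod_apply]
  rw [Finset.prod_eq_single j]
  · simp only [gen, Pi.pow_apply, Pi.mulSingle_eq_same]
    rw [← ofAdd_nsmul]
    simp [expo]
  · intro i _ hij
    simp [gen, Pi.mulSingle_eq_of_ne hij.symm]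
  · intro h; exact absurd (Finset.mem_univ _) h

theorem gen_pow (i : Fin r) : gen q i ^ q i = 1 := by
  rw [gen, ← Pi.mulSingle_pow, ← ofAdd_nsmul]
  simp

end pow

section adjoin

variable {𝒪 : Type} [CommRing 𝒪] {r : ℕ}

theorem exists_mem_adjoin_sub_mem (K : ℕ) (c : MvPowerSeries (Fin r) 𝒪) :
    ∃ P ∈ Algebra.adjoin 𝒪 (Set.range (X : Fin r → MvPowerSeries (Fin r) 𝒪)),
      c - P ∈ idealX 𝒪 r ^ K := by
  induction K generalizing c with
  | zero => exact ⟨0, zero_mem _, by simp⟩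
  | succ K ih =>
    choose P hP hP' using fun i => ih (xquot c i)
    refine ⟨C (constantCoeff c) + ∑ i, X i * P i, ?_, ?_⟩
    · refine add_mem ?_ (Subalgebra.sum_mem _ fun i _ => Subalgebra.mul_mem _ ?_ (hP i))
      · exact Subalgebra.algebraMap_mem _ (constantCoeff c)
      · exact Algebra.subset_adjoin ⟨i, rfl⟩
    · have h1 : c - (C (constantCoeff c) + ∑ i, X i * P i) = ∑ i, X i * (xquot c i - P i) := by
        conv_lhs => rw [eq_C_add_sum c]
        simp only [mul_sub, Finset.sum_sub_distrib]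
        simp
      rw [h1]
      refine Ideal.sum_mem _ fun i _ => ?_
      rw [pow_succ']
      exact Ideal.mul_mem_mul (Ideal.subset_span ⟨i, rfl⟩) (hP' i)

end adjoin

section span

variable {𝒪 : Type} [CommRing 𝒪] [IsLocalRing 𝒪] [IsNoetherianRing 𝒪]
    [IsAdicComplete (maximalIdeal 𝒪) 𝒪] {r : ℕ} {p : ℕ} (a : Fin r → ℕ)

/-- the ideal `((1 + X_i)^(p^a_i) - 1)` -/
noncomputable def idealJ (𝒪 : Type) [CommRing 𝒪] {r : ℕ} (p : ℕ) (a : Fin r → ℕ) :
    Ideal (MvPowerSeries (Fin r) 𝒪) :=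
  Ideal.span (Set.range fun i : Fin r => ((1 + X i) ^ (p ^ a i) - 1 : MvPowerSeries (Fin r) 𝒪))

theorem mk_pow_eq_one (i : Fin r) :
    (Ideal.Quotient.mk (idealJ 𝒪 p a) (1 + X i)) ^ (p ^ a i) = 1 := by
  rw [← map_pow, ← map_one (Ideal.Quotient.mk (idealJ 𝒪 p a)), Ideal.Quotient.eq]
  exact Ideal.subset_span ⟨i, rfl⟩

variable [hp : Fact p.Prime]

instance (i : Fin r) : NeZero ((fun i => p ^ a i) i) := ⟨pow_ne_zero _ hp.out.ne_zero⟩

/-- `𝒪[G] → 𝒪⟦X⟧/J` -/
noncomputable def F : MonoidAlgebra 𝒪 (Grp fun i => p ^ a i) →ₐ[𝒪]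
    (MvPowerSeries (Fin r) 𝒪 ⧸ idealJ 𝒪 p a) :=
  MonoidAlgebra.lift 𝒪 _ _ (powHom (q := fun i => p ^ a i)
    (fun i => Ideal.Quotient.mk (idealJ 𝒪 p a) (1 + X i)) (mk_pow_eq_one a))

theorem F_surjective (hp𝒪 : (p : 𝒪) ∈ maximalIdeal 𝒪) :
    Function.Surjective (F (𝒪 := 𝒪) (p := p) a) := by
  classical
  set J := idealJ 𝒪 p a with hJ
  -- local structure
  have hJle : J ≤ maximalIdeal (MvPowerSeries (Fin r) 𝒪) := by
    rw [hJ, idealJ, Ideal.span_le]
    rintro _ ⟨i, rfl⟩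
    have h2 : ((p : ℕ) : MvPowerSeries (Fin r) 𝒪) ∈ maximalIdeal (MvPowerSeries (Fin r) 𝒪) := by
      have := C_mem_maximalIdeal (r := r) hp𝒪
      simpa using this
    have h3 := one_add_pow_sub_one_mem (maximalIdeal (MvPowerSeries (Fin r) 𝒪)) p h2
      (X_mem_maximalIdeal i) (a i)
    exact Ideal.pow_le_self (Nat.succ_ne_zero _) h3
  have hJtop : J ≠ ⊤ := fun h => (maximalIdeal.isMaximal _).ne_top (top_le_iff.mp (h ▸ hJle))
  have : Nontrivial (MvPowerSeries (Fin r) 𝒪 ⧸ J) := Ideal.Quotient.nontrivial_iff.mpr hJtop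
  have : IsLocalRing (MvPowerSeries (Fin r) 𝒪 ⧸ J) :=
    IsLocalRing.of_surjective' (Ideal.Quotient.mk J) Ideal.Quotient.mk_surjective
  have : IsNoetherianRing (MvPowerSeries (Fin r) 𝒪 ⧸ J) :=
    isNoetherianRing_of_surjective _ _ (Ideal.Quotient.mk J) Ideal.Quotient.mk_surjective
  have hmle : (maximalIdeal 𝒪).map (algebraMap 𝒪 (MvPowerSeries (Fin r) 𝒪 ⧸ J)) ≤
      maximalIdeal (MvPowerSeries (Fin r) 𝒪 ⧸ J) := by
    rw [Ideal.map_le_iff_le_comap]
    intro x hx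
    rw [Ideal.mem_comap]
    have h1 : algebraMap 𝒪 (MvPowerSeries (Fin r) 𝒪 ⧸ J) x = Ideal.Quotient.mk J (C x) := rfl
    rw [h1, ← IsLocalRing.map_maximalIdeal_of_surjective (Ideal.Quotient.mk J)
      Ideal.Quotient.mk_surjective]
    exact Ideal.mem_map_of_mem _ (C_mem_maximalIdeal hx)
  have hH : IsHausdorff (maximalIdeal 𝒪) (MvPowerSeries (Fin r) 𝒪 ⧸ J) := by
    rw [← IsHausdorff.map_algebraMap_iff (S := MvPowerSeries (Fin r) 𝒪 ⧸ J)]
    exact IsHausdorff.of_le_jacobson _ _ (hmle.trans (maximalIdeal_le_jacobson _))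
  have hP : IsPrecomplete (maximalIdeal 𝒪) (MonoidAlgebra 𝒪 (Grp fun i => p ^ a i)) := by
    have : Module.Finite 𝒪 (MonoidAlgebra 𝒪 (Grp fun i => p ^ a i)) := by
      have : Finite (Grp fun i => p ^ a i) := inferInstance
      infer_instance
    exact FiniteComplete.isPrecomplete_of_finite
  refine surjective_of_mkQ_comp_surjective (I := maximalIdeal 𝒪) (f := (F a).toLinearMap) ?_
  -- the ideal `m 𝒪⟦X⟧/J`
  set 𝔪 : Ideal (MvPowerSeries (Fin r) 𝒪 ⧸ J) :=
    (maximalIdeal 𝒪).map (algebraMap 𝒪 (MvPowerSeries (Fin r) 𝒪 ⧸ J)) with h𝔪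
  have hp𝔪 : ((p : ℕ) : MvPowerSeries (Fin r) 𝒪 ⧸ J) ∈ 𝔪 := by
    have := Ideal.mem_map_of_mem (algebraMap 𝒪 (MvPowerSeries (Fin r) 𝒪 ⧸ J)) hp𝒪
    simpa using this
  have hX𝔪 : ∀ i, Ideal.Quotient.mk J (X i) ^ (p ^ a i) ∈ 𝔪 := by
    intro i
    obtain ⟨t, ht⟩ := exists_add_pow_prime_pow_eq hp.out (1 : MvPowerSeries (Fin r) 𝒪 ⧸ J)
      (Ideal.Quotient.mk J (X i)) (a i)
    have h1 := mk_pow_eq_one (𝒪 := 𝒪) (p := p) a i
    rw [map_add, map_one] at h1
    rw [h1, one_pow] at ht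
    have h2 : Ideal.Quotient.mk J (X i) ^ (p ^ a i) =
        - ((p : MvPowerSeries (Fin r) 𝒪 ⧸ J) * (Ideal.Quotient.mk J (X i) * t)) := by
      linear_combination - ht
    rw [h2]
    exact neg_mem (Ideal.mul_mem_right _ _ hp𝔪)
  have hKex : ∃ K, ((idealX 𝒪 r).map (Ideal.Quotient.mk J)) ^ K ≤ 𝔪 := by
    apply Ideal.exists_pow_le_of_le_radical_of_fg
    · rw [Ideal.map_le_iff_le_comap, idealX, Ideal.span_le]
      rintro _ ⟨i, rfl⟩
      exact ⟨p ^ a i, hX𝔪 i⟩
    · exact IsNoetherian.noetherian _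
  obtain ⟨K, hK⟩ := hKex
  intro y
  obtain ⟨y, rfl⟩ := Submodule.mkQ_surjective _ y
  obtain ⟨c, rfl⟩ := Ideal.Quotient.mk_surjective y
  obtain ⟨P, hP, hcP⟩ := exists_mem_adjoin_sub_mem K c
  -- the range contains polynomials
  have hrange : (Ideal.Quotient.mk J) P ∈ (F (𝒪 := 𝒪) (p := p) a).range := by
    have h1 : Algebra.adjoin 𝒪 (Set.range (X : Fin r → MvPowerSeries (Fin r) 𝒪)) ≤
        (F (𝒪 := 𝒪) (p := p) a).range.comap (Ideal.Quotient.mkₐ 𝒪 J) := by
      rw [Algebra.adjoin_le_iff]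
      rintro _ ⟨i, rfl⟩
      rw [SetLike.mem_coe, Subalgebra.mem_comap]
      have h2 : Ideal.Quotient.mkₐ 𝒪 J (X i) =
          F (𝒪 := 𝒪) (p := p) a (MonoidAlgebra.of 𝒪 _ (gen _ i)) - 1 := by
        rw [F, MonoidAlgebra.lift_of, powHom_apply, Finset.prod_eq_single i]
        · have h3 : (Ideal.Quotient.mk J (1 + X i)) ^ expo (fun i => p ^ a i) (gen _ i) i =
            Ideal.Quotient.mk J (1 + X i) := by
            by_cases h4 : a i = 0
            · have h5 := mk_pow_eq_one (𝒪 := 𝒪) (p := p) a i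
              rw [h4, pow_zero, pow_one] at h5
              rw [h5, one_pow]
            · have h5 : expo (fun i => p ^ a i) (gen _ i) i = 1 := by
                simp only [expo, gen, Pi.mulSingle_eq_same, toAdd_ofAdd]
                have : Fact (1 < p ^ a i) := ⟨Nat.one_lt_pow h4 hp.out.one_lt⟩
                exact ZMod.val_one _
              rw [h5, pow_one]
          rw [h3, map_add, map_one]
          simp
        · intro j _ hj
          have h5 : expo (fun i => p ^ a i) (gen _ i) j = 0 := by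
            simp [expo, gen, Pi.mulSingle_eq_of_ne hj]
          rw [h5, pow_zero]
        · intro h; exact absurd (Finset.mem_univ _) h
      rw [h2]
      exact sub_mem ⟨_, rfl⟩ (one_mem _)
    exact h1 hP
  obtain ⟨l, hl⟩ := hrange
  refine ⟨l, ?_⟩
  rw [LinearMap.comp_apply]
  change Submodule.mkQ _ (F a l) = _
  have hl' : F a l = Ideal.Quotient.mk J P := hl
  rw [hl', ← sub_eq_zero, ← map_sub, Submodule.mkQ_apply, Submodule.Quotient.mk_eq_zero,
    ← map_sub]
  have h6 : Ideal.Quotient.mk J (P - c) ∈ 𝔪 := by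
    apply hK
    rw [← Ideal.map_pow]
    apply Ideal.mem_map_of_mem
    rw [← neg_sub]
    exact neg_mem hcP
  rw [Ideal.smul_top_eq_map]
  exact h6

end span

end Fermat.Agent.RT.GroupAlg
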