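import Fermat.Agent.RT.LocSub

/-!
# Topologically nilpotent operators modulo `𝔪`, unit operators (team RT, helper59)
-/

set_option autoImplicit false
set_option linter.unusedSectionVars false

open IsLocalRing

noncomputable section

namespace Fermat.Agent.RT.Loc

open Fermat.Agent.RT

variable {𝒪 : Type*} [CommRing 𝒪] [IsDomain 𝒪] [IsDiscreteValuationRing 𝒪]
  [IsAdicComplete (maximalIdeal 𝒪) 𝒪] [Finite (ResidueField 𝒪)]
variable {N : Type*} [AddCommGroup N] [Module 𝒪 N] [Module.Finite 𝒪 N]

theorem modT_one (k : ℕ) : modT (1 : Module.End 𝒪 N) k = 1 := by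
  refine LinearMap.ext fun x => ?_
  obtain ⟨x, rfl⟩ := Submodule.Quotient.mk_surjective _ x
  rfl

theorem modT_mul (s t : Module.End 𝒪 N) (k : ℕ) : modT (s * t) k = modT s k * modT t k := by
  refine LinearMap.ext fun x => ?_
  obtain ⟨x, rfl⟩ := Submodule.Quotient.mk_surjective _ x
  rfl

theorem modT_add (s t : Module.End 𝒪 N) (k : ℕ) : modT (s + t) k = modT s k + modT t k := by
  refine LinearMap.ext fun x => ?_
  obtain ⟨x, rfl⟩ := Submodule.Quotient.mk_surjective _ x
  rfl

theorem modT_commute {s t : Module.End 𝒪 N} (h : Commute s t) (k : ℕ) :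
    Commute (modT s k) (modT t k) := by
  rw [Commute, SemiconjBy, ← modT_mul, ← modT_mul, h.eq]

/-- `T` is topologically nilpotent iff it is nilpotent modulo `𝔪`. -/
theorem nilSub_eq_top_iff {T : Module.End 𝒪 N} : nilSub T = ⊤ ↔ IsNilpotent (modT T 1) := by
  constructor
  · intro h
    obtain ⟨s, hs⟩ := (Module.Finite.fg_top : (⊤ : Submodule 𝒪 N).FG)
    have h1 : ∀ x : N, ∃ n, (T ^ n) x ∈ mN 𝒪 N 1 := fun x =>
      mem_nilSub_iff.mp (h ▸ (trivial : x ∈ (⊤ : Submodule 𝒪 N))) 1
    choose n hn using h1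
    have h2 : ∀ x m, n x ≤ m → (T ^ m) x ∈ mN 𝒪 N 1 := by
      intro x m hm
      obtain ⟨c, rfl⟩ := Nat.exists_eq_add_of_le hm
      rw [add_comm, pow_add, Module.End.mul_apply]
      exact map_mem_mN _ (hn x)
    refine ⟨s.sup n, ?_⟩
    refine LinearMap.ext fun x => ?_
    obtain ⟨x, rfl⟩ := Submodule.Quotient.mk_surjective _ x
    rw [modT_pow_mk, LinearMap.zero_apply, Submodule.Quotient.mk_eq_zero]
    have h3 : x ∈ Submodule.span 𝒪 (s : Set N) := hs ▸ (trivial : x ∈ (⊤ : Submodule 𝒪 N))
    induction h3 using Submodule.span_induction with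
    | mem x hx => exact h2 x _ (Finset.le_sup (f := n) hx)
    | zero => rw [map_zero]; exact zero_mem _
    | add x y _ _ hx hy => rw [map_add]; exact add_mem hx hy
    | smul a x _ hx => rw [map_smul]; exact Submodule.smul_mem _ a hx
  · rintro ⟨n, hn⟩
    refine top_le_iff.mp fun x _ => mem_nilSub_iff.mpr fun k => ?_
    have h1 : ∀ y, (T ^ n) y ∈ mN 𝒪 N 1 := by
      intro y
      have := LinearMap.congr_fun hn (Submodule.Quotient.mk y)
      rw [modT_pow_mk, LinearMap.zero_apply, Submodule.Quotient.mk_eq_zero] at this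
      exact this
    have h2 : ∀ k, ∀ y, ((T ^ n) ^ k) y ∈ mN 𝒪 N k := by
      intro k
      induction k with
      | zero => intro y; simp [mN]
      | succ k ih =>
        intro y
        rw [pow_succ, Module.End.mul_apply]
        have h3 := h1 y
        rw [mN, pow_one] at h3
        refine Submodule.smul_induction_on h3 (fun r hr z _ => ?_) (fun u v hu hv => ?_)
        · rw [map_smul, mN, pow_succ', mul_smul]
          exact Submodule.smul_mem_smul hr (ih z)
        · rw [map_add]
          exact add_mem hu hv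
    exact ⟨n * k, by rw [pow_mul]; exact h2 k x⟩

theorem nilSub_add_eq_top {s t : Module.End 𝒪 N} (h : Commute s t) (hs : nilSub s = ⊤)
    (ht : nilSub t = ⊤) : nilSub (s + t) = ⊤ := by
  rw [nilSub_eq_top_iff] at hs ht ⊢
  rw [modT_add]
  exact (modT_commute h 1).isNilpotent_add hs ht

theorem nilSub_mul_eq_top {s t : Module.End 𝒪 N} (h : Commute s t)
    (ht : nilSub t = ⊤) : nilSub (s * t) = ⊤ := by
  rw [nilSub_eq_top_iff] at ht ⊢
  rw [modT_mul]
  exact (modT_commute h 1).isNilpotent_mul_left ht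

theorem nilSub_smul_eq_top {t : Module.End 𝒪 N} (c : 𝒪) (ht : nilSub t = ⊤) :
    nilSub (c • t) = ⊤ := by
  have : c • t = (c • (1 : Module.End 𝒪 N)) * t := by
    refine LinearMap.ext fun x => ?_
    simp
  rw [this]
  refine nilSub_mul_eq_top ?_ ht
  refine LinearMap.ext fun x => ?_
  simp

theorem nilSub_smul_one_of_mem {c : 𝒪} (hc : c ∈ maximalIdeal 𝒪) :
    nilSub (c • (1 : Module.End 𝒪 N)) = ⊤ := by
  rw [nilSub_eq_top_iff]
  refine ⟨1, ?_⟩
  rw [pow_one]
  refine LinearMap.ext fun x => ?_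
  obtain ⟨x, rfl⟩ := Submodule.Quotient.mk_surjective _ x
  have : (modT (c • (1 : Module.End 𝒪 N)) 1) (Submodule.Quotient.mk x) =
    Submodule.Quotient.mk (c • x) := rfl
  rw [this, LinearMap.zero_apply, Submodule.Quotient.mk_eq_zero, mN, pow_one]
  exact Submodule.smul_mem_smul hc trivial

theorem comm_aeval (T : Module.End 𝒪 N) (P Q : Polynomial 𝒪) :
    Commute (Polynomial.aeval T P) (Polynomial.aeval T Q) := by
  rw [Commute, SemiconjBy, ← map_mul, ← map_mul, mul_comm]

/-- polynomial calculus: `Q(T) - Q(a)` is topologically nilpotent if `T - a` is. -/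
theorem nilSub_aeval_sub_eq_top {T : Module.End 𝒪 N} {a : 𝒪}
    (h : nilSub (T - a • (1 : Module.End 𝒪 N)) = ⊤) (Q : Polynomial 𝒪) :
    nilSub (Polynomial.aeval T Q - Q.eval a • (1 : Module.End 𝒪 N)) = ⊤ := by
  obtain ⟨R, hR⟩ : (Polynomial.X - Polynomial.C a) ∣ (Q - Polynomial.C (Q.eval a)) := by
    rw [Polynomial.dvd_iff_isRoot]; simp
  have h1 : Polynomial.aeval T Q - Q.eval a • (1 : Module.End 𝒪 N) =
      Polynomial.aeval T R * (T - a • (1 : Module.End 𝒪 N)) := by
    have h2 := congrArg (Polynomial.aeval T) hR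
    rw [map_sub, map_mul, map_sub, Polynomial.aeval_C, Polynomial.aeval_X, Polynomial.aeval_C,
      Algebra.algebraMap_eq_smul_one, Algebra.algebraMap_eq_smul_one] at h2
    rw [h2]
    have h3 : Commute (T - a • (1 : Module.End 𝒪 N)) (Polynomial.aeval T R) := by
      have h4 : T - a • (1 : Module.End 𝒪 N) =
          Polynomial.aeval T (Polynomial.X - Polynomial.C a) := by
        rw [map_sub, Polynomial.aeval_X, Polynomial.aeval_C, Algebra.algebraMap_eq_smul_one]
      rw [h4]
      exact comm_aeval T _ _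
    exact h3.eq
  rw [h1]
  refine nilSub_mul_eq_top ?_ h
  have h4 : T - a • (1 : Module.End 𝒪 N) =
      Polynomial.aeval T (Polynomial.X - Polynomial.C a) := by
    rw [map_sub, Polynomial.aeval_X, Polynomial.aeval_C, Algebra.algebraMap_eq_smul_one]
  rw [h4]
  exact comm_aeval T _ _

/-- If `T - a` is topologically nilpotent with `a` a unit then `T` is bijective. -/
theorem bijective_of_nilSub_sub {T : Module.End 𝒪 N} {a : 𝒪} (ha : IsUnit a)
    (h : nilSub (T - a • (1 : Module.End 𝒪 N)) = ⊤) : Function.Bijective T := by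
  have hsurj : Function.Surjective T := by
    have h1 : (⊤ : Submodule 𝒪 N) ≤ LinearMap.range T ⊔ maximalIdeal 𝒪 • (⊤ : Submodule 𝒪 N) := by
      intro x _
      have hx : x ∈ nilSub (T - a • (1 : Module.End 𝒪 N)) := by rw [h]; trivial
      obtain ⟨n, hn⟩ := mem_nilSub_iff.mp hx 1
      rw [mN, pow_one] at hn
      -- `(T - a)^n = T * R + (-a)^n`
      obtain ⟨R, hR⟩ : (Polynomial.X : Polynomial 𝒪) ∣
          (Polynomial.X - Polynomial.C a) ^ n - Polynomial.C ((-a) ^ n) := by
        rw [Polynomial.X_dvd_iff]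
        simp [Polynomial.coeff_zero_eq_eval_zero]
      have h2 := LinearMap.congr_fun (congrArg (Polynomial.aeval T) hR) x
      rw [map_sub, map_mul, map_pow, map_sub, Polynomial.aeval_C, Polynomial.aeval_X,
        Polynomial.aeval_C, Algebra.algebraMap_eq_smul_one, Algebra.algebraMap_eq_smul_one,
        LinearMap.sub_apply, Module.End.mul_apply, LinearMap.smul_apply,
        Module.End.one_apply] at h2
      have h3 : (-a) ^ n • x ∈ LinearMap.range T ⊔ maximalIdeal 𝒪 • (⊤ : Submodule 𝒪 N) := by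
        have : (-a) ^ n • x = T (-(Polynomial.aeval T R) x) +
            ((T - a • (1 : Module.End 𝒪 N)) ^ n) x := by
          rw [map_neg, ← h2]; abel
        rw [this]
        exact Submodule.add_mem_sup ⟨_, rfl⟩ hn
      obtain ⟨u, hu⟩ := (ha.neg.pow n)
      have h4 : x = (↑u⁻¹ : 𝒪) • ((-a) ^ n • x) := by
        rw [← hu, smul_smul, Units.inv_mul, one_smul]
      rw [h4]
      exact Submodule.smul_mem _ _ h3
    have h2 : (⊤ : Submodule 𝒪 N) ≤ LinearMap.range T :=
      Submodule.le_of_le_smul_of_le_jacobson_bot Module.Finite.fg_top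
        (IsLocalRing.maximalIdeal_le_jacobson _) h1
    exact LinearMap.range_eq_top.mp (top_le_iff.mp h2)
  exact ⟨OrzechProperty.injective_of_surjective_endomorphism T hsurj, hsurj⟩

section part

variable {X : Type*} [AddCommGroup X] [Module 𝒪 X]

/-- On the part, every member of `F` is topologically nilpotent (as operator of the part). -/
theorem nilSub_restrict_part_eq_top {H : Submodule 𝒪 X} {F : Set (Module.End 𝒪 X)}
    (hP : Saturated (part H F)) {T : Module.End 𝒪 X} (hT : T ∈ F)
    (hst : ∀ x ∈ part H F, T x ∈ part H F) :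
    nilSub (T.restrict hst) = ⊤ :=
  top_le_iff.mp fun x _ => (mem_nilSub_restrict hP hst).mpr ((mem_part.mp x.2).2 T hT)

end part

end Fermat.Agent.RT.Loc
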