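import Fermat.Agent.RT.Dict
import Fermat.Agent.RT.LocUnit

/-!
# The dictionary for `Γ_H = ker (Γ₀(NQ) → (ℤ/Q)ˣ → Δ)` (team RT, helper59)
-/

set_option autoImplicit false
set_option linter.unusedSectionVars false

open Matrix Matrix.SpecialLinearGroup CongruenceSubgroup IsLocalRing
open scoped MatrixGroups OnePoint

noncomputable section

namespace Fermat.Agent.RT.Dict

open Fermat.Agent.LR Fermat.Agent.LR.PS Fermat.Agent.RT.Manin ModularCurve.Period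

local notation "S" => ModularGroup.S
local notation "T" => ModularGroup.T

/-- An element of `Γ₀(M)` with lower right entry congruent to `d` mod `M`. -/
theorem exists_Gamma0_entry (M : ℕ) (u : (ZMod M)ˣ) :
    ∃ γ : SL(2, ℤ), γ ∈ Gamma0 M ∧ ((γ 1 1 : ℤ) : ZMod M) = u := by
  obtain ⟨d, hd⟩ := ZMod.intCast_surjective (u : ZMod M)
  have h1 : IsCoprime (M : ℤ) d := by
    rw [← ZMod.coe_int_isUnit_iff_isCoprime, hd]
    exact u.isUnit
  obtain ⟨a, b, hab⟩ := h1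
  let γ : SL(2, ℤ) := ⟨!![b, -a; M, d], by rw [Matrix.det_fin_two_of]; linarith⟩
  have h10 : γ 1 0 = M := rfl
  refine ⟨γ, ?_, hd⟩
  rw [Gamma0_mem, h10]; simp

section data

variable {N Q : ℕ} {Δ : Type*} [CommGroup Δ] (ψ : (ZMod Q)ˣ →* Δ)

theorem dia_surjective [NeZero (N * Q)] (hψ : Function.Surjective ψ) :
    Function.Surjective (dia N Q ψ) := by
  intro δ
  obtain ⟨u, rfl⟩ := hψ δ
  obtain ⟨v, rfl⟩ := ZMod.unitsMap_surjective (dvd_mul_left Q N) u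
  obtain ⟨γ, h1, h2⟩ := exists_Gamma0_entry (N * Q) v
  refine ⟨⟨γ, h1⟩, ?_⟩
  refine dia_apply N Q ψ ⟨γ, h1⟩ _ ?_
  rw [ZMod.unitsMap_val, ← h2]
  simp

theorem dia_jConj (γ : SL(2, ℤ)) (h : γ ∈ Gamma0 (N * Q)) :
    dia N Q ψ ⟨jConjSL γ, jConjSL_mem_Gamma0 h⟩ = dia N Q ψ ⟨γ, h⟩ := by
  set u : (ZMod Q)ˣ := ZMod.unitsMap (dvd_mul_left Q N) ((Gamma0Map (N * Q)).toHomUnits ⟨γ, h⟩)
    with hu
  have h1 : (u : ZMod Q) = ((γ 1 1 : ℤ) : ZMod Q) := by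
    rw [hu, ZMod.unitsMap_val]
    simp [Gamma0Map]
  rw [dia_apply N Q ψ ⟨γ, h⟩ u h1, dia_apply N Q ψ ⟨jConjSL γ, jConjSL_mem_Gamma0 h⟩ u]
  rw [h1]
  have : ((jConjSL γ : SL(2, ℤ)) : Matrix (Fin 2) (Fin 2) ℤ) 1 1 = γ 1 1 := by
    rw [jConjSL_coe, jConjMat_apply_one_one]
  exact congrArg _ this.symm

theorem neg_one_mem_Gamma0 (M : ℕ) : (-1 : SL(2, ℤ)) ∈ Gamma0 M := by
  rw [Gamma0_mem]; simp

theorem dia_neg_one (hψ1 : ψ (-1) = 1) :
    dia N Q ψ ⟨-1, neg_one_mem_Gamma0 (N * Q)⟩ = 1 := by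
  rw [dia_apply N Q ψ ⟨-1, neg_one_mem_Gamma0 (N * Q)⟩ (-1)]
  · exact hψ1
  · simp

/-- `ψ(-1) = 1` if `Δ` has odd order. -/
theorem map_neg_one_of_isPGroup {p : ℕ} [Fact p.Prime] (hp2 : p ≠ 2) (hΔ : IsPGroup p Δ) :
    ψ (-1) = 1 := by
  obtain ⟨k, hk⟩ := hΔ (ψ (-1))
  have h2 : ψ (-1) ^ 2 = 1 := by rw [← map_pow]; simp
  have hodd : Odd (p ^ k) := ((Fact.out : p.Prime).odd_of_ne_two hp2).pow
  obtain ⟨m, hm⟩ := hodd
  rw [hm, pow_succ, pow_mul, h2, one_pow, one_mul] at hk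
  exact hk

/-- The diamond datum of `GammaH N Q ψ`. -/
def diaData (N Q : ℕ) [NeZero (N * Q)] {Δ : Type*} [CommGroup Δ] (ψ : (ZMod Q)ˣ →* Δ)
    (hψ : Function.Surjective ψ) (hψ1 : ψ (-1) = 1) : DiaData Δ where
  G₀ := Gamma0 (N * Q)
  d := dia N Q ψ
  surj := dia_surjective ψ hψ
  neg_mem := neg_one_mem_Gamma0 (N * Q)
  d_neg := dia_neg_one ψ hψ1
  conj_mem _ h := jConjSL_mem_Gamma0 h
  d_conj γ h := dia_jConj ψ γ h

theorem diaData_Γ [NeZero (N * Q)] (hψ : Function.Surjective ψ) (hψ1 : ψ (-1) = 1) :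
    (diaData N Q ψ hψ hψ1).Γ = GammaH N Q ψ := rfl

theorem finiteIndex_ker {Δ : Type*} [CommGroup Δ] [Finite Δ] (𝔇 : DiaData Δ)
    [h𝔇 : 𝔇.G₀.FiniteIndex] : 𝔇.Γ.FiniteIndex := by
  have h1 : 𝔇.d.ker.FiniteIndex := Subgroup.finiteIndex_ker 𝔇.d
  have h2 : 𝔇.Γ.relIndex 𝔇.G₀ ≠ 0 := by
    rw [Subgroup.relIndex]
    have : 𝔇.Γ.subgroupOf 𝔇.G₀ = 𝔇.d.ker := by
      rw [DiaData.Γ, Subgroup.subgroupOf]
      exact Subgroup.comap_map_eq_self_of_injective (Subgroup.subtype_injective _) _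
    rw [this]
    exact h1.index_ne_zero
  refine ⟨?_⟩
  rw [← Subgroup.relIndex_mul_index (DiaData.Γ_le (𝔇 := 𝔇))]
  exact mul_ne_zero h2 h𝔇.index_ne_zero

end data

/-! ### No elements of order `3` -/

theorem uGood_of_noFixed {A : Type*} [CommRing A] {X X₀ : Type*} {D : Data X} {Δ : Type*}
    [Group Δ] [MulAction Δ X] (π : X → X₀) (u₀ : X₀ → X₀) (hu : ∀ x, π (D.u x) = u₀ (π x))
    (hΔ : ∀ (δ : Δ) x, π (δ • x) = π x) (h3 : ∀ y, u₀ (u₀ (u₀ y)) = y) (hfix : ∀ y, u₀ y ≠ y) :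
    UGood A D Δ := by
  classical
  have hfix2 : ∀ y, u₀ (u₀ y) ≠ y := fun y h => hfix y (by
    have := h3 y
    rw [h] at this
    exact this)
  let r : Setoid X₀ := ⟨fun x y => y = x ∨ y = u₀ x ∨ y = u₀ (u₀ x), ⟨fun x => Or.inl rfl, by
    rintro x y (rfl | rfl | rfl)
    · exact Or.inl rfl
    · exact Or.inr (Or.inr (h3 x).symm)
    · exact Or.inr (Or.inl (h3 x).symm), by
    rintro x y z (rfl | rfl | rfl) (rfl | rfl | rfl)
    · exact Or.inl rfl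
    · exact Or.inr (Or.inl rfl)
    · exact Or.inr (Or.inr rfl)
    · exact Or.inr (Or.inl rfl)
    · exact Or.inr (Or.inr rfl)
    · exact Or.inl (h3 x)
    · exact Or.inr (Or.inr rfl)
    · exact Or.inl (h3 x)
    · exact Or.inr (Or.inl (by rw [h3]))⟩⟩
  refine Or.inr ⟨fun x => π x = Quotient.out (Quotient.mk r (π x)), fun δ x => by simp only [hΔ],
    fun x => ?_⟩
  have h1 : Quotient.mk r (u₀ (π x)) = Quotient.mk r (π x) :=
    Quotient.sound (Or.inr (Or.inr (h3 _).symm))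
  have h2 : Quotient.mk r (u₀ (u₀ (π x))) = Quotient.mk r (π x) :=
    Quotient.sound (Or.inr (Or.inl (h3 _).symm))
  have ho : Quotient.out (Quotient.mk r (π x)) = π x ∨ Quotient.out (Quotient.mk r (π x)) = u₀ (π x)
      ∨ Quotient.out (Quotient.mk r (π x)) = u₀ (u₀ (π x)) :=
    r.symm' (Quotient.mk_out (s := r) (π x))
  simp only [hu, h1, h2]
  rcases ho with ho | ho | ho
  · left
    rw [ho]
    exact ⟨rfl, hfix _, hfix2 _⟩
  · right; left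
    rw [ho]
    exact ⟨(hfix _).symm, rfl, hfix _⟩
  · right; right
    rw [ho]
    exact ⟨(hfix2 _).symm, (hfix _).symm, rfl⟩

theorem sq_sub_self_add_one_ne_zero {r : ℕ} (hr : r.Prime) (hr3 : r % 3 = 2) (a : ZMod r) :
    a ^ 2 - a + 1 ≠ 0 := by
  intro h
  have : Fact r.Prime := ⟨hr⟩
  have ha0 : a ≠ 0 := by
    rintro rfl
    simp at h
  have h3 : (-a) ^ 3 = 1 := by linear_combination (-(a + 1)) * h
  have hord : orderOf (-a) ∣ 3 := orderOf_dvd_of_pow_eq_one h3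
  have hord2 : orderOf (-a) ∣ r - 1 := ZMod.orderOf_dvd_card_sub_one (neg_ne_zero.mpr ha0)
  rcases (Nat.dvd_prime Nat.prime_three).mp hord with h1 | h1
  · rw [orderOf_eq_one_iff] at h1
    have h4 : (3 : ZMod r) = 0 := by
      have : a = -1 := by rw [← h1, neg_neg]
      rw [this] at h
      linear_combination h
    have h5 : r ∣ 3 := by
      have := (ZMod.natCast_eq_zero_iff 3 r).mp (by exact_mod_cast h4)
      exact this
    rcases (Nat.dvd_prime Nat.prime_three).mp h5 with h6 | h6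
    · exact hr.one_lt.ne' h6
    · omega
  · rw [h1] at hord2
    have := hr.two_le
    omega

/-- An element of `Γ₀(M)`, `r ∣ M`, `r ≡ 2 mod 3` prime, has trace `≠ 1`. -/
theorem trace_ne_one {M r : ℕ} (hr : r.Prime) (hr3 : r % 3 = 2) (hrM : r ∣ M) {γ : SL(2, ℤ)}
    (hγ : γ ∈ Gamma0 M) : γ 0 0 + γ 1 1 ≠ 1 := by
  intro h
  have h1 : ((γ 1 0 : ℤ) : ZMod r) = 0 := by
    have h2 := Gamma0_mem.mp hγ
    rw [ZMod.intCast_zmod_eq_zero_iff_dvd] at h2 ⊢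
    exact (Int.natCast_dvd_natCast.mpr hrM).trans h2
  have h2 : γ 0 0 * γ 1 1 - γ 0 1 * γ 1 0 = 1 := by
    have := γ.det_coe
    rwa [Matrix.det_fin_two] at this
  have h3 : ((γ 0 0 : ℤ) : ZMod r) * ((γ 1 1 : ℤ) : ZMod r) = 1 := by
    have := congrArg (Int.cast : ℤ → ZMod r) h2
    push_cast at this
    rw [h1, mul_zero, sub_zero] at this
    exact this
  have h4 : ((γ 0 0 : ℤ) : ZMod r) + ((γ 1 1 : ℤ) : ZMod r) = 1 := by
    have := congrArg (Int.cast : ℤ → ZMod r) h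
    push_cast at this
    exact this
  refine sq_sub_self_add_one_ne_zero hr hr3 ((γ 0 0 : ℤ) : ZMod r) ?_
  have h5 : ((γ 1 1 : ℤ) : ZMod r) = 1 - ((γ 0 0 : ℤ) : ZMod r) := by rw [← h4]; ring
  rw [h5] at h3
  linear_combination -h3

theorem trace_conj_U (g : SL(2, ℤ)) : (g⁻¹ * U * g) 0 0 + (g⁻¹ * U * g) 1 1 = 1 := by
  have h1 : ((g⁻¹ * U * g : SL(2, ℤ)) : Matrix (Fin 2) (Fin 2) ℤ).trace = 1 := by
    rw [Matrix.SpecialLinearGroup.coe_mul, Matrix.SpecialLinearGroup.coe_mul, Matrix.trace_mul_comm,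
      ← Matrix.mul_assoc, ← Matrix.SpecialLinearGroup.coe_mul, mul_inv_cancel,
      Matrix.SpecialLinearGroup.coe_one, Matrix.one_mul, coe_U, Matrix.trace_fin_two_of]
    norm_num
  rwa [Matrix.trace_fin_two] at h1

/-- `U` has no fixed points on `SL₂(ℤ)/G₀`, `G₀ ≤ Γ₀(r)`, `r ≡ 2 mod 3`. -/
theorem noFixed {r : ℕ} (hr : r.Prime) (hr3 : r % 3 = 2) {G₀ : Subgroup SL(2, ℤ)}
    (hG : G₀ ≤ Gamma0 r) (c : SL(2, ℤ) ⧸ G₀) : U⁻¹ • c ≠ c := by
  intro h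
  induction c using QuotientGroup.induction_on with
  | H g =>
    rw [MulAction.Quotient.smul_coe, smul_eq_mul, QuotientGroup.eq] at h
    have h2 : (U⁻¹ * g)⁻¹ * g = g⁻¹ * U * g := by group
    rw [h2] at h
    exact trace_ne_one hr hr3 dvd_rfl (hG h) (trace_conj_U g)

section

attribute [local instance] DiaData.instAct

theorem uGood_diaData (A : Type*) [CommRing A] {Δ : Type*} [CommGroup Δ] (𝔇 : DiaData Δ)
    {r : ℕ} (h𝔇 : 𝔇.G₀ ≤ Gamma0 r) (hr : r.Prime) (hr3 : r % 3 = 2) :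
    UGood A 𝔇.maninData Δ := by
  let π : 𝔇.X → SL(2, ℤ) ⧸ 𝔇.G₀ := Quotient.map' id fun a b h => by
    rw [QuotientGroup.leftRel_apply] at h ⊢
    exact DiaData.Γ_le h
  have hπ : ∀ g : SL(2, ℤ), π (g : SL(2, ℤ) ⧸ 𝔇.Γ) = (g : SL(2, ℤ) ⧸ 𝔇.G₀) := fun _ => rfl
  refine uGood_of_noFixed (X₀ := SL(2, ℤ) ⧸ 𝔇.G₀) π (fun c => U⁻¹ • c) (fun x => ?_)
    (fun δ x => ?_) (fun y => ?_) (fun y => ?_)
  · induction x using QuotientGroup.induction_on with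
    | H g => rfl
  · induction x using QuotientGroup.induction_on with
    | H g =>
      rw [DiaData.smul_mk (DiaData.d_rep 𝔇 δ), hπ, hπ]
      exact QuotientGroup.mk_mul_of_mem _ (𝔇.rep δ).2
  · have h : U⁻¹ * U⁻¹ * U⁻¹ = (-1 : SL(2, ℤ)) := by
      rw [← DiaData.neg_one_inv, ← U_pow_three]; group
    change U⁻¹ • U⁻¹ • U⁻¹ • y = y
    rw [← mul_smul, ← mul_smul, h]
    induction y using QuotientGroup.induction_on with
    | H g =>
      rw [MulAction.Quotient.smul_coe, smul_eq_mul, neg_one_mul, ← mul_neg_one]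
      exact QuotientGroup.mk_mul_of_mem _ 𝔇.neg_mem
  · exact noFixed hr hr3 h𝔇 y

end

end Fermat.Agent.RT.Dict
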