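import Fermat.Agent.RT.NormFree
import Fermat.Agent.RT.DictH

/-!
# Freeness of the localised part over `𝒪[Δ]` (team RT, helper59)
-/

set_option autoImplicit false
set_option linter.unusedSectionVars false
set_option linter.style.haveILetI false

open Matrix Matrix.SpecialLinearGroup CongruenceSubgroup IsLocalRing
open scoped MatrixGroups OnePoint

noncomputable section

namespace Fermat.Agent.RT.GR

open Fermat.Agent.RT.Loc Fermat.Agent.RT.Manin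

section abstractPart

variable {𝒪 : Type*} [CommRing 𝒪] [IsDomain 𝒪] [IsDiscreteValuationRing 𝒪]
  [IsAdicComplete (maximalIdeal 𝒪) 𝒪] [Finite (ResidueField 𝒪)]
variable {Δ : Type*} [CommGroup Δ] [Finite Δ]
variable {N P : Type*} [AddCommGroup N] [Module 𝒪 N] [Module.Finite 𝒪 N]
  [AddCommGroup P] [Module 𝒪 P]

theorem RepFree.of_npart {ρ : Δ →* Module.End 𝒪 N} {ρ' : Δ →* Module.End 𝒪 P}
    (h : RepFree ρ) (p : ℕ) [Fact p.Prime] (hΔ : IsPGroup p Δ) (hp : (p : 𝒪) ∈ maximalIdeal 𝒪)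
    (j : P →ₗ[𝒪] N) (hj : Function.Injective j) (hjρ : ∀ δ x, j (ρ' δ x) = ρ δ (j x))
    {ι : Type*} (t : ι → Module.End 𝒪 N) (ht : ∀ i k x, t i (t k x) = t k (t i x))
    (htρ : ∀ i δ x, t i (ρ δ x) = ρ δ (t i x))
    (hrange : ∀ x, x ∈ LinearMap.range j ↔ x ∈ npart t) : RepFree ρ' := by
  letI := repModule ρ
  letI := repModule ρ'
  have h1 := repModule_tower ρ
  have h2 := repModule_tower ρ'
  have h3 := h.1
  have h4 := h.2
  let J : P →ₗ[MonoidAlgebra 𝒪 Δ] N := toΛ (Δ := Δ) j fun δ m => by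
    rw [repModule_of_smul, repModule_of_smul, hjρ]
  have htB : ∀ i (b : MonoidAlgebra 𝒪 Δ) x, t i (b • x) = b • t i x := by
    intro i b x
    induction b using MonoidAlgebra.induction_on with
    | of g => rw [repModule_of_smul, repModule_of_smul, htρ]
    | add x y hx hy => rw [add_smul, map_add, hx, hy, add_smul]
    | smul r x hx => rw [smul_assoc, map_smul, hx, smul_assoc]
  have h5 : Module.Projective (MonoidAlgebra 𝒪 Δ) (LinearMap.range J) :=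
    projective_npart t ht htB (LinearMap.range J) fun x => hrange x
  let e : P ≃ₗ[MonoidAlgebra 𝒪 Δ] LinearMap.range J := LinearEquiv.ofInjective J hj
  have h6 : Module.Projective (MonoidAlgebra 𝒪 Δ) P := Module.Projective.of_equiv e.symm
  have h7 := GR.isLocalRing_monoidAlgebra (A := 𝒪) hΔ hp
  have h8 : IsNoetherianRing (MonoidAlgebra 𝒪 Δ) := IsNoetherianRing.of_finite 𝒪 _
  have h9 : Module.Finite (MonoidAlgebra 𝒪 Δ) P := Module.Finite.of_injective J hj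
  exact ⟨Module.free_of_flat_of_isLocalRing, h9⟩

end abstractPart

end Fermat.Agent.RT.GR

namespace Fermat.Agent.RT.Dict

open Fermat.Agent.LR Fermat.Agent.LR.PS Fermat.Agent.RT.Manin ModularCurve.Period Fermat.Agent.RT.GR
open Fermat.Agent.RT.Loc

section part

variable {Δ : Type*} [CommGroup Δ] (𝔇 : DiaData Δ)

/-- The diamond operators on a stable submodule of `MS Γ R`. -/
def dOn {R : Type*} [CommRing R] (P : Submodule R (Pairs R)) (hP : P ≤ MS 𝔇.Γ R)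
    (hst : ∀ δ, ∀ x ∈ P, slash (toQ (𝔇.rep δ)) x ∈ P) : Δ →* Module.End R P where
  toFun δ := (slash (toQ (𝔇.rep δ))).restrict (hst δ)
  map_one' := by
    refine LinearMap.ext fun x => Subtype.ext ?_
    have hx := hP x.2
    rw [LinearMap.coe_restrict_apply]
    rw [DiaData.slash_eq_of_d_eq hx (γ := 𝔇.rep 1) (γ' := 1) (by simp)]
    have h1 : toQ ((1 : 𝔇.G₀) : SL(2, ℤ)) = 1 := map_one _
    rw [h1, slash_one, Module.End.one_apply]
  map_mul' δ ε' := by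
    refine LinearMap.ext fun x => Subtype.ext ?_
    have hx := hP x.2
    rw [LinearMap.coe_restrict_apply, Module.End.mul_apply, LinearMap.coe_restrict_apply,
      LinearMap.coe_restrict_apply, ← slash_mul, ← toQ_mul']
    exact DiaData.slash_eq_of_d_eq hx (γ := 𝔇.rep (δ * ε')) (γ' := 𝔇.rep ε' * 𝔇.rep δ) (by
      rw [map_mul, DiaData.d_rep, DiaData.d_rep, DiaData.d_rep, mul_comm])

theorem dOn_apply {R : Type*} [CommRing R] {P : Submodule R (Pairs R)} {hP : P ≤ MS 𝔇.Γ R}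
    {hst : ∀ δ, ∀ x ∈ P, slash (toQ (𝔇.rep δ)) x ∈ P} (δ : Δ) (x : P) :
    ((dOn 𝔇 P hP hst δ x : P) : Pairs R) = slash (toQ (𝔇.rep δ)) x := rfl

theorem dOn_apply' {R : Type*} [CommRing R] {P : Submodule R (Pairs R)} {hP : P ≤ MS 𝔇.Γ R}
    {hst : ∀ δ, ∀ x ∈ P, slash (toQ (𝔇.rep δ)) x ∈ P} (x : P) (γ : 𝔇.G₀) :
    ((dOn 𝔇 P hP hst (𝔇.d γ) x : P) : Pairs R) = slash (toQ γ) x :=
  DiaData.slash_eq_of_d_eq (hP x.2) (DiaData.d_rep 𝔇 _)

variable {𝒪 : Type*} [CommRing 𝒪] [IsDomain 𝒪] [IsDiscreteValuationRing 𝒪]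
  [IsAdicComplete (maximalIdeal 𝒪) 𝒪] [Finite (ResidueField 𝒪)]

theorem smul_eq_zero_pairs (c : 𝒪) (y : Pairs 𝒪) (hc : c ≠ 0) (h : c • y = 0) : y = 0 := by
  funext a b
  have := congrFun (congrFun h a) b
  exact (mul_eq_zero.mp this).resolve_left hc

theorem saturated_MS (Γ : Subgroup SL(2, ℤ)) : Saturated (MS Γ 𝒪) := by
  intro c hc x hx
  refine ⟨fun a b d => ?_, fun γ hγ => ?_⟩
  · have := hx.1 a b d
    refine mul_left_cancel₀ hc ?_
    rw [mul_add]; exact this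
  · have := hx.2 γ hγ
    rw [map_smul] at this
    have h2 : c • (slash (toQ γ) x - x) = 0 := by rw [smul_sub, this, sub_self]
    exact sub_eq_zero.mp (smul_eq_zero_pairs c _ hc h2)

theorem saturated_sgnMS (ε : ℤ) (Γ : Subgroup SL(2, ℤ)) : Saturated (sgnMS 𝒪 ε Γ) :=
  (saturated_MS Γ).inf (saturated_ker _ smul_eq_zero_pairs)

theorem finite_sgnMS (ε : ℤ) (Γ : Subgroup SL(2, ℤ)) [Γ.FiniteIndex] :
    Module.Finite 𝒪 (sgnMS 𝒪 ε Γ) := by
  have := finite_MS 𝒪 Γ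
  exact Module.Finite.of_injective (Submodule.inclusion (inf_le_left : sgnMS 𝒪 ε Γ ≤ MS Γ 𝒪))
    (Submodule.inclusion_injective _)

theorem repFree_sgnMS [Finite Δ] [𝔇.G₀.FiniteIndex] (h2 : IsUnit (2 : 𝒪)) (p : ℕ)
    [Fact p.Prime] (hΔ : IsPGroup p Δ) (hp : (p : 𝒪) ∈ maximalIdeal 𝒪)
    (hU : letI := 𝔇.instAct; UGood 𝒪 𝔇.maninData Δ) : RepFree (𝔇.dRep 𝒪 1) := by
  have := finiteIndex_ker 𝔇
  exact DiaData.free_sgnMS h2 p hΔ hp hU

/-- **Freeness of the localised plus part.** -/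
theorem repFree_part [Finite Δ] [𝔇.G₀.FiniteIndex] (h2 : IsUnit (2 : 𝒪)) (p : ℕ)
    [Fact p.Prime] (hΔ : IsPGroup p Δ) (hp : (p : 𝒪) ∈ maximalIdeal 𝒪)
    (hU : letI := 𝔇.instAct; UGood 𝒪 𝔇.maninData Δ)
    {ι : Type*} (t : ι → Module.End 𝒪 (Pairs 𝒪))
    (ht : ∀ i, ∀ x ∈ sgnMS 𝒪 1 𝔇.Γ, t i x ∈ sgnMS 𝒪 1 𝔇.Γ)
    (hc : ∀ i j, ∀ x ∈ sgnMS 𝒪 1 𝔇.Γ, t i (t j x) = t j (t i x))
    (hd : ∀ i δ, ∀ x ∈ sgnMS 𝒪 1 𝔇.Γ,
      t i (slash (toQ (𝔇.rep δ)) x) = slash (toQ (𝔇.rep δ)) (t i x))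
    {P : Submodule 𝒪 (Pairs 𝒪)} (hPdef : P = part (sgnMS 𝒪 1 𝔇.Γ) (Set.range t))
    (hP : P ≤ MS 𝔇.Γ 𝒪) (hst : ∀ δ, ∀ x ∈ P, slash (toQ (𝔇.rep δ)) x ∈ P) :
    RepFree (dOn 𝔇 P hP hst) := by
  have hfi := finiteIndex_ker 𝔇
  have hfin := finite_sgnMS (𝒪 := 𝒪) 1 𝔇.Γ
  subst hPdef
  refine (repFree_sgnMS (𝒪 := 𝒪) 𝔇 h2 p hΔ hp hU).of_npart p hΔ hp
    (Submodule.inclusion part_le) (Submodule.inclusion_injective _) (fun δ x => rfl)
    (rfam ht) (fun i k x => Subtype.ext (hc i k x x.2)) (fun i δ x => Subtype.ext (hd i δ x x.2))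
    fun x => ?_
  rw [mem_npart_rfam (saturated_sgnMS 1 𝔇.Γ) ht, Submodule.range_inclusion]
  rfl

end part

end Fermat.Agent.RT.Dict
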