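import Fermat.Agent.RT.TwistHTw
import Fermat.Agent.RT.GroupAlg
import Fermat.Agent.RT.PartFree

/-!
# Taylor–Wiles levels: common set-up (team RT, helper59)

* `TWP p N r` : `r` distinct primes `q i`, `∤ N`, `≠ p`, `p^{a i} ∥ q i - 1`, `a i ≥ 1`;
* `W.Q = ∏ q i`, `W.Δ = Grp (p^{a i}) = ∏ ℤ/p^{a i}`, `W.ψ : (ℤ/Q)ˣ →* Δ` surjective (product of
  the characters `ψ_i : (ℤ/q_i)ˣ → ℤ/p^{a i}`);
* `W.hyp : TwHyp N W.Q W.ψ` (helper80's standing hypothesis), `W.dd : DiaData W.Δ`;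
* `W.ops S t I α` : the localising family `{TH ℓ - t ℓ | ℓ ∉ S, ℓ ∤ Q} ∪ {U_s - α s | s ∈ I}`;
* `W.M' ε S t I α = part (sgnMS 𝒪 ε (GammaH N Q ψ)) ops`.
-/

set_option autoImplicit false
set_option linter.unusedSectionVars false

open Matrix Matrix.SpecialLinearGroup CongruenceSubgroup IsLocalRing
open scoped MatrixGroups OnePoint

noncomputable section

namespace Fermat.Agent.RT.TWS

open Fermat.Agent.LR Fermat.Agent.LR.PS Fermat.Agent.RT Fermat.Agent.RT.TwistH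
  Fermat.Agent.RT.GroupAlg Fermat.Agent.RT.Dict Fermat.Agent.RT.Loc Fermat.Agent.RT.GR

/-- `r` Taylor–Wiles primes for the level `N`. -/
structure TWP (p N r : ℕ) where
  q : Fin r → ℕ
  inj : Function.Injective q
  prime : ∀ i, (q i).Prime
  ndvd : ∀ i, ¬ q i ∣ N
  ne : ∀ i, q i ≠ p
  a : Fin r → ℕ
  apos : ∀ i, a i ≠ 0
  ha : ∀ i, p ^ a i ∣ q i - 1
  ha' : ∀ i, ¬ p ^ (a i + 1) ∣ q i - 1

section psi

/-- a surjective character `(ℤ/q)ˣ → ℤ/m`, `m ∣ q - 1`. -/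
theorem exists_psi {q m : ℕ} (hq : q.Prime) (hm : m ∣ q - 1) :
    ∃ ψ : (ZMod q)ˣ →* Multiplicative (ZMod m), Function.Surjective ψ := by
  have : Fact q.Prime := ⟨hq⟩
  have hc : Nat.card (ZMod q)ˣ = q - 1 := by
    rw [Nat.card_eq_fintype_card, ZMod.card_units_eq_totient, Nat.totient_prime hq]
  have hcyc : IsCyclic (ZMod q)ˣ := inferInstance
  let e : (ZMod q)ˣ ≃* Multiplicative (ZMod (Nat.card (ZMod q)ˣ)) := (zmodCyclicMulEquiv hcyc).symm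
  have hdvd : m ∣ Nat.card (ZMod q)ˣ := by rw [hc]; exact hm
  let f : ZMod (Nat.card (ZMod q)ˣ) →+ ZMod m := (ZMod.castHom hdvd (ZMod m)).toAddMonoidHom
  refine ⟨(AddMonoidHom.toMultiplicative f).comp e.toMonoidHom, ?_⟩
  refine Function.Surjective.comp (g := AddMonoidHom.toMultiplicative f) ?_ e.surjective
  exact ZMod.castHom_surjective hdvd

/-- a chosen surjective character -/
def psiAt (q m : ℕ) : (ZMod q)ˣ →* Multiplicative (ZMod m) :=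
  open Classical in
  if h : ∃ ψ : (ZMod q)ˣ →* Multiplicative (ZMod m), Function.Surjective ψ then h.choose else 1

theorem psiAt_surjective {q m : ℕ} (hq : q.Prime) (hm : m ∣ q - 1) :
    Function.Surjective (psiAt q m) := by
  rw [psiAt, dif_pos (exists_psi hq hm)]
  exact (exists_psi hq hm).choose_spec

end psi

namespace TWP

variable {p N r : ℕ} (W : TWP p N r)

/-- `Q = ∏ q i` -/
def Q : ℕ := ∏ i, W.q i

/-- `Δ = ∏ ℤ/p^{a i}` -/
abbrev Δ : Type := Grp fun i => p ^ W.a i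

theorem dvd_Q (i : Fin r) : W.q i ∣ W.Q := Finset.dvd_prod_of_mem W.q (Finset.mem_univ i)

theorem coprime_pair : Pairwise (Function.onFun Nat.Coprime W.q) := fun i j hij =>
  (Nat.coprime_primes (W.prime i) (W.prime j)).mpr fun h => hij (W.inj h)

theorem Q_ne_zero : W.Q ≠ 0 := Finset.prod_ne_zero_iff.mpr fun i _ => (W.prime i).ne_zero

theorem squarefree_Q : Squarefree W.Q := by
  rw [Q]
  exact Finset.squarefree_prod_of_pairwise_isCoprime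
    (fun i _ j _ hij => Nat.coprime_iff_isRelPrime.mp (W.coprime_pair hij))
    fun i _ => (W.prime i).squarefree

theorem prime_dvd_Q_iff {ℓ : ℕ} (hℓ : ℓ.Prime) : ℓ ∣ W.Q ↔ ∃ i, ℓ = W.q i := by
  rw [Q, Prime.dvd_finsetProd_iff hℓ.prime]
  constructor
  · rintro ⟨i, -, h⟩
    exact ⟨i, (Nat.prime_dvd_prime_iff_eq hℓ (W.prime i)).mp h⟩
  · rintro ⟨i, rfl⟩
    exact ⟨i, Finset.mem_univ i, dvd_rfl⟩

theorem coprime_N : N.Coprime W.Q :=
  Nat.Coprime.prod_right fun i _ =>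
    ((Nat.Prime.coprime_iff_not_dvd (W.prime i)).mpr (W.ndvd i)).symm

/-- `ψ = ∏ ψ_i` -/
def ψ : (ZMod W.Q)ˣ →* W.Δ :=
  MonoidHom.pi fun i => (psiAt (W.q i) (p ^ W.a i)).comp (ZMod.unitsMap (W.dvd_Q i))

theorem ψ_apply (u : (ZMod W.Q)ˣ) (i : Fin r) :
    W.ψ u i = psiAt (W.q i) (p ^ W.a i) (ZMod.unitsMap (W.dvd_Q i) u) := rfl

/-- Chinese remainder theorem for units of `ℤ/Q`. -/
theorem exists_unit (v : ∀ i, (ZMod (W.q i))ˣ) :
    ∃ u : (ZMod W.Q)ˣ, ∀ i, ZMod.unitsMap (W.dvd_Q i) u = v i := by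
  let e : ZMod W.Q ≃+* (∀ i, ZMod (W.q i)) := ZMod.prodEquivPi W.q W.coprime_pair
  let w : (∀ i, ZMod (W.q i))ˣ := MulEquiv.piUnits.symm v
  let u : (ZMod W.Q)ˣ := Units.map (e.symm : (∀ i, ZMod (W.q i)) →* ZMod W.Q) w
  refine ⟨u, fun i => ?_⟩
  apply Units.ext
  rw [ZMod.unitsMap_val]
  have h1 : e (e.symm (w : ∀ i, ZMod (W.q i))) i = _ :=
    ZMod.prodEquivPi_apply W.q W.coprime_pair (e.symm (w : ∀ i, ZMod (W.q i))) i
  have h2 : e (e.symm (w : ∀ i, ZMod (W.q i))) = w := e.apply_symm_apply _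
  rw [h2] at h1
  exact h1.symm

theorem ψ_surjective : Function.Surjective W.ψ := by
  intro δ
  choose v hv using fun i => psiAt_surjective (W.prime i) (W.ha i) (δ i)
  obtain ⟨u, hu⟩ := W.exists_unit v
  exact ⟨u, funext fun i => by rw [ψ_apply, hu, hv]⟩

section prime

variable [hp : Fact p.Prime]

instance instNeZero (i : Fin r) : NeZero (p ^ W.a i) := ⟨pow_ne_zero _ hp.out.ne_zero⟩

instance instFinite : Finite W.Δ := by
  have : ∀ i, Finite (Multiplicative (ZMod (p ^ W.a i))) := fun i =>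
    inferInstanceAs (Finite (ZMod (p ^ W.a i)))
  infer_instance

theorem card_Δ : Nat.card W.Δ = ∏ i, p ^ W.a i := by
  rw [Nat.card_pi]
  exact Finset.prod_congr rfl fun i _ => Nat.card_zmod _

theorem isPGroup : IsPGroup p W.Δ :=
  IsPGroup.of_card (n := ∑ i, W.a i) (by rw [card_Δ, Finset.prod_pow_eq_pow_sum])

theorem odd_card (hp2 : p ≠ 2) : Odd (Nat.card W.Δ) := by
  rw [card_Δ, Finset.prod_pow_eq_pow_sum]
  exact (hp.out.odd_of_ne_two hp2).pow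

theorem hyp (hN : N ≠ 0) (hp2 : p ≠ 2) : TwHyp N W.Q W.ψ :=
  ⟨hN, W.coprime_N, W.squarefree_Q, W.ψ_surjective, W.odd_card hp2⟩

/-- The diamond datum. -/
def dd [NeZero N] (hp2 : p ≠ 2) : DiaData W.Δ :=
  haveI : NeZero (N * W.Q) := ⟨mul_ne_zero (NeZero.ne N) W.Q_ne_zero⟩
  diaData N W.Q W.ψ W.ψ_surjective (map_neg_one_of_isPGroup W.ψ hp2 W.isPGroup)

end prime

/-! ### The Hecke module -/

variable {𝒪 : Type*} [CommRing 𝒪]

/-- The localising family. -/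
def ops (S : Set ℕ) (t : ℕ → 𝒪) (I : Set ℕ) (α : ℕ → 𝒪) : Set (Module.End 𝒪 (Pairs 𝒪)) :=
  {T | ∃ ℓ : ℕ, ℓ.Prime ∧ ℓ ∉ S ∧ ¬ ℓ ∣ W.Q ∧
    T = (TH N W.Q W.ψ ℓ : Pairs 𝒪 →ₗ[𝒪] Pairs 𝒪) - t ℓ • LinearMap.id} ∪
  {T | ∃ s ∈ I, T = heckeU s - α s • LinearMap.id}

/-- The group `Γ_H`. -/
abbrev ΓH : Subgroup SL(2, ℤ) := GammaH N W.Q W.ψ

/-- The Hecke module at the Taylor–Wiles level. -/
def M' (ε : ℤ) (S : Set ℕ) (t : ℕ → 𝒪) (I : Set ℕ) (α : ℕ → 𝒪) : Submodule 𝒪 (Pairs 𝒪) :=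
  part (sgnMS 𝒪 ε W.ΓH) (W.ops S t I α)

end TWP

end Fermat.Agent.RT.TWS
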