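import Fermat.Agent.RT.Defs
import Fermat.Agent.LR.Level

/-!
# `U_q`, degeneracy maps, traces and signs between levels `M` and `Mq` (RT-CTRL)

* `heckeT_heckeT_of_degen` (C1): if `x + x'|V_q = 0` then `T_q² x = (q+1)² x`;
* `heckeU_degen_self`: `U_q (x|V_q) = q x`;
* `tr1_heckeU`, `tr2_heckeU`: the traces intertwine `U_q` with `(a, b) ↦ (q b, T_q b - a)`;
* compatibility with `slash jMat`.
-/

set_option autoImplicit false

open Matrix Matrix.SpecialLinearGroup CongruenceSubgroup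
open scoped MatrixGroups OnePoint

namespace Fermat.Agent.RT.Control

open Fermat.Agent.LR Fermat.Agent.LR.PS

variable {R : Type*} [CommRing R] {M q : ℕ}

theorem level_le : MS (Gamma0 M) R ≤ MS (Gamma0 (M * q)) R :=
  MS_mono (Gamma0_mono (Dvd.intro q rfl))

/-- **(C1)** `T_q² = (q+1)²` on symbols `x` of level `M` with `x ∈ V_q(level M)`. -/
theorem heckeT_heckeT_of_degen (hq : q.Prime) (hqM : ¬ q ∣ M) {x x' : Pairs R}
    (hx : x ∈ MS (Gamma0 M) R) (hx' : x' ∈ MS (Gamma0 M) R) (h : x + degen q x' = 0) :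
    heckeT q (heckeT q x) = ((q : R) + 1) ^ 2 • x := by
  have : NeZero q := ⟨hq.ne_zero⟩
  have hcop : Nat.Coprime q M := (Nat.Prime.coprime_iff_not_dvd hq).mpr hqM
  have h1 : ((q : R) + 1) • x + heckeT q x' = 0 := by
    rw [← tr1_of_mem hx, ← tr1_degen hcop hx', ← map_add, h, map_zero]
  have h2 : heckeT q x + ((q : R) + 1) • x' = 0 := by
    rw [← tr2_of_mem hcop hx, ← tr2_degen hcop hx', ← map_add, h, map_zero]
  rw [eq_neg_of_add_eq_zero_left h2, map_neg, map_smul, ← smul_neg,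
    ← eq_neg_of_add_eq_zero_left h1, smul_smul, sq]

theorem heckeU_degen_self (hq : q ≠ 0) {x : Pairs R} (hx : TInv x) :
    heckeU q (degen q x) = (q : R) • x := by
  have hq' : (q : ℚ) ≠ 0 := by exact_mod_cast hq
  rw [heckeU_apply]
  have : ∀ j ∈ Finset.range q, slash (heckeMat q (j : ℤ)) (degen q x) = x := by
    intro j _
    rw [degen_apply, ← slash_mul]
    refine (slash_congr (h := toQ (ModularGroup.T ^ (j : ℤ))) hq' ?_ x).trans (hx j)
    rw [val_mul', val_diagMat hq, val_heckeMat hq, val_toQ_T_zpow]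
    ext i k
    fin_cases i <;> fin_cases k <;> simp [Matrix.mul_apply, Fin.sum_univ_two]
  rw [Finset.sum_congr rfl this, Finset.sum_const, Finset.card_range, ← Nat.cast_smul_eq_nsmul R]

theorem heckeU_eq_sub (x : Pairs R) : heckeU q x = heckeT q x - degen q x := by
  rw [heckeT_apply]; abel

theorem heckeU_eq_tr2_sub (y : Pairs R) : heckeU q y = tr2 M q y - wOp M q y := by
  rw [tr2_apply]; abel

theorem tr1_heckeU (hq : q.Prime) (hqM : ¬ q ∣ M) {y : Pairs R}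
    (hy : y ∈ MS (Gamma0 (M * q)) R) : tr1 M q (heckeU q y) = (q : R) • tr2 M q y := by
  have : NeZero q := ⟨hq.ne_zero⟩
  have hcop : Nat.Coprime q M := (Nat.Prime.coprime_iff_not_dvd hq).mpr hqM
  rw [heckeU_eq_tr2_sub (M := M), map_sub, tr1_of_mem (tr2_mem hq hqM hy),
    ← tr2_eq hq.ne_zero hcop hy, add_smul, one_smul]
  abel

theorem tr2_heckeU (hq : q.Prime) (hqM : ¬ q ∣ M) {y : Pairs R}
    (hy : y ∈ MS (Gamma0 (M * q)) R) :
    tr2 M q (heckeU q y) = heckeT q (tr2 M q y) - tr1 M q y := by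
  have : NeZero q := ⟨hq.ne_zero⟩
  have hcop : Nat.Coprime q M := (Nat.Prime.coprime_iff_not_dvd hq).mpr hqM
  rw [heckeU_eq_tr2_sub (M := M), map_sub, tr2_of_mem hcop (tr2_mem hq hqM hy),
    tr2_eq hq.ne_zero hcop (wOp_mem hq.ne_zero hcop hy), wOp_wOp hq.ne_zero hcop hy]

/-! ### signs -/

theorem degen_slash_jMat (hq : q ≠ 0) (x : Pairs R) :
    degen q (slash jMat x) = slash jMat (degen q x) := by
  rw [degen_apply, degen_apply, ← slash_mul, ← slash_mul, jMat_mul_diagMat hq]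

theorem wOp_slash_jMat (hq : q.Prime) (hqM : ¬ q ∣ M) {y : Pairs R}
    (hy : y ∈ MS (Gamma0 (M * q)) R) : wOp M q (slash jMat y) = slash jMat (wOp M q y) := by
  have hcop : Nat.Coprime q M := (Nat.Prime.coprime_iff_not_dvd hq).mpr hqM
  obtain ⟨a, c, hac, hw⟩ := val_wMat hq.ne_zero hcop
  let g : SL(2, ℤ) := mkSL (a * q + M * c) (-(2 * a)) (M * q * (-(2 * c))) (M * c + a * q)
    (by linear_combination (a * q - M * c + 1) * hac)
  have hg : g ∈ Gamma0 (M * q) := by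
    rw [mem_Gamma0_iff]; simp [g, mkSL]
  have e : jMat * wMat M q = toQ g * (wMat M q * jMat) := by
    apply Units.ext
    have hg' : (toQ g : Matrix (Fin 2) (Fin 2) ℚ) = _ := val_toQ_mkSL _ _ _ _ _
    rw [val_mul', val_mul', val_mul', hg', hw, val_jMat]
    have hac' : (a : ℚ) * q - M * c = 1 := by exact_mod_cast hac
    ext i k
    fin_cases i <;> fin_cases k <;> simp [Matrix.mul_apply, Fin.sum_univ_two]
    · linear_combination (a * q : ℚ) * hac'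
    · linear_combination (1 : ℚ) * hac'
    · linear_combination (-(M * c * q) : ℚ) * hac'
    · linear_combination (-q : ℚ) * hac'
  rw [wOp_apply, wOp_apply, ← slash_mul, ← slash_mul, e, slash_toQ_mul_of_mem hy hg]

theorem tr1_slash_jMat (hq : q.Prime) (hqM : ¬ q ∣ M) {y : Pairs R}
    (hy : y ∈ MS (Gamma0 (M * q)) R) : tr1 M q (slash jMat y) = slash jMat (tr1 M q y) := by
  have hcop : Nat.Coprime q M := (Nat.Prime.coprime_iff_not_dvd hq).mpr hqM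
  rw [tr1_apply, tr1_apply, wOp_slash_jMat hq hqM hy,
    heckeU_slash_jMat (wOp_mem hq.ne_zero hcop hy) hq.ne_zero, map_add]

theorem tr2_slash_jMat (hq : q.Prime) (hqM : ¬ q ∣ M) {y : Pairs R}
    (hy : y ∈ MS (Gamma0 (M * q)) R) : tr2 M q (slash jMat y) = slash jMat (tr2 M q y) := by
  rw [tr2_apply, tr2_apply, wOp_slash_jMat hq hqM hy, heckeU_slash_jMat hy hq.ne_zero, map_add]

theorem tr1_mem_sgnMS (hq : q.Prime) (hqM : ¬ q ∣ M) {ε : ℤ} {y : Pairs R}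
    (hy : y ∈ sgnMS R ε (Gamma0 (M * q))) : tr1 M q y ∈ sgnMS R ε (Gamma0 M) := by
  obtain ⟨h1, h2⟩ := mem_sgnMS.mp hy
  refine mem_sgnMS.mpr ⟨tr1_mem hq hqM h1, ?_⟩
  rw [← tr1_slash_jMat hq hqM h1, h2, map_smul]

theorem tr2_mem_sgnMS (hq : q.Prime) (hqM : ¬ q ∣ M) {ε : ℤ} {y : Pairs R}
    (hy : y ∈ sgnMS R ε (Gamma0 (M * q))) : tr2 M q y ∈ sgnMS R ε (Gamma0 M) := by
  obtain ⟨h1, h2⟩ := mem_sgnMS.mp hy
  refine mem_sgnMS.mpr ⟨tr2_mem hq hqM h1, ?_⟩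
  rw [← tr2_slash_jMat hq hqM h1, h2, map_smul]

theorem degen_mem_sgnMS (hq : q ≠ 0) {ε : ℤ} {x : Pairs R}
    (hx : x ∈ sgnMS R ε (Gamma0 M)) : degen q x ∈ sgnMS R ε (Gamma0 (M * q)) := by
  obtain ⟨h1, h2⟩ := mem_sgnMS.mp hx
  refine mem_sgnMS.mpr ⟨degen_mem hq h1, ?_⟩
  rw [← degen_slash_jMat hq, h2, map_smul]

theorem level_le_sgnMS {ε : ℤ} : sgnMS R ε (Gamma0 M) ≤ sgnMS R ε (Gamma0 (M * q)) := fun _ hx =>
  mem_sgnMS.mpr ⟨level_le (mem_sgnMS.mp hx).1, (mem_sgnMS.mp hx).2⟩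

theorem heckeT_mem_sgnMS {ℓ : ℕ} (hℓ : ℓ.Prime) (hℓM : ¬ ℓ ∣ M) {ε : ℤ} {x : Pairs R}
    (hx : x ∈ sgnMS R ε (Gamma0 M)) : heckeT ℓ x ∈ sgnMS R ε (Gamma0 M) := by
  obtain ⟨h1, h2⟩ := mem_sgnMS.mp hx
  refine mem_sgnMS.mpr ⟨PS.heckeT_mem hℓ hℓM h1, ?_⟩
  rw [← heckeT_slash_jMat h1 hℓ.ne_zero, h2, map_smul]

theorem heckeU_mem_sgnMS {r : ℕ} (hr : r.Prime) (hrM : r ∣ M) {ε : ℤ} {x : Pairs R}
    (hx : x ∈ sgnMS R ε (Gamma0 M)) : heckeU r x ∈ sgnMS R ε (Gamma0 M) := by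
  obtain ⟨h1, h2⟩ := mem_sgnMS.mp hx
  refine mem_sgnMS.mpr ⟨PS.heckeU_mem hr.ne_zero hrM h1, ?_⟩
  rw [← heckeU_slash_jMat h1 hr.ne_zero, h2, map_smul]

theorem slash_jMat_mem_sgnMS {ε : ℤ} {x : Pairs R} (hx : x ∈ sgnMS R ε (Gamma0 M)) :
    slash jMat x ∈ sgnMS R ε (Gamma0 M) := by
  rw [(mem_sgnMS.mp hx).2]
  exact Submodule.smul_mem _ _ hx

end Fermat.Agent.RT.Control
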