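import Fermat.Agent.RT.ControlAlg
import Fermat.Agent.RT.ControlLevel
import Fermat.Agent.LR.Manin

/-!
# Control at an auxiliary prime `q ∤ M` with `T_q² ≢ (q+1)²` (RT-CTRL)

* `Good M q g`: `g` preserves the levels `M`, `Mq` and commutes with `U_q`, `w_q` (hence with
  `T_q`, `V_q`, the traces) and with `slash jMat`.  `T_ℓ` (`ℓ ∤ Mq`), `U_r` (`r ∣ M`),
  `slash jMat`, scalars are good; good operators are closed under sums and products.
* `exists_control`: for any set `F` of good operators, the part of level `M` cut out by `F` and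
  `T_q - t_q` is isomorphic to the part of level `Mq` cut out by `F` and `U_q - α`, by
  `x ↦ A x - x|V_q`, `A` the root of `u² - T_q u + q` congruent to `α`, provided the new part
  vanishes.
-/

set_option autoImplicit false

open Matrix Matrix.SpecialLinearGroup CongruenceSubgroup IsLocalRing
open scoped MatrixGroups OnePoint

namespace Fermat.Agent.RT.Control

open Fermat.Agent.LR Fermat.Agent.LR.PS

section General

variable {𝒪 : Type*} [CommRing 𝒪] {X : Type*} [AddCommGroup X] [Module 𝒪 X]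

/-- an operator commuting with all `T ∈ F` on `H` preserves `part H F`. -/
theorem part_stable {H : Submodule 𝒪 X} {F : Set (Module.End 𝒪 X)} (g : Module.End 𝒪 X)
    (hg : ∀ x ∈ H, g x ∈ H) (hF : ∀ T ∈ F, ∀ x ∈ H, T x ∈ H)
    (hc : ∀ T ∈ F, ∀ x ∈ H, g (T x) = T (g x)) {x : X} (hx : x ∈ part H F) : g x ∈ part H F := by
  obtain ⟨h1, h2⟩ := mem_part.mp hx
  exact mem_part.mpr ⟨hg x h1, fun T hT => nilSub_of_map H (hF T hT) g (hc T hT) h1 (h2 T hT)⟩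

theorem part_of_smul [IsDomain 𝒪] [Module.IsTorsionFree 𝒪 X] {H : Submodule 𝒪 X}
    {F : Set (Module.End 𝒪 X)} (hH : ∀ (c : 𝒪) (x : X), c ≠ 0 → c • x ∈ H → x ∈ H) {c : 𝒪}
    {x : X} (hc : c ≠ 0) (h : c • x ∈ part H F) : x ∈ part H F := by
  obtain ⟨h1, h2⟩ := mem_part.mp h
  exact mem_part.mpr ⟨hH c x hc h1, fun T hT => mem_nilSub_of_smul hc (h2 T hT)⟩

theorem nilSub_of_subtype {W : Submodule 𝒪 X} {f' : Module.End 𝒪 W} {f : Module.End 𝒪 X}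
    (h : ∀ w, (f' w : X) = f w) (hsat : ∀ (c : 𝒪) (x : X), c ≠ 0 → c • x ∈ W → x ∈ W) {w : W}
    (hw : (w : X) ∈ nilSub f) : w ∈ nilSub f' := by
  intro c hc
  obtain ⟨n, z, hz⟩ := hw c hc
  have h1 : ∀ n : ℕ, (((f' ^ n) w : W) : X) = (f ^ n) w := by
    intro n
    induction n with
    | zero => simp
    | succ n ih => rw [pow_succ', pow_succ', Module.End.mul_apply, Module.End.mul_apply, h, ih]
  have h2 : c • z ∈ W := by rw [← hz, ← h1]; exact ((f' ^ n) w).2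
  exact ⟨n, ⟨z, hsat c z hc h2⟩, Subtype.ext ((h1 n).trans hz)⟩

end General

section Good

variable {R : Type*} [CommRing R]

/-- Operators compatible with everything in sight at the levels `M` and `Mq`. -/
structure Good (M q : ℕ) (g : Module.End R (Pairs R)) : Prop where
  low : ∀ x ∈ MS (Gamma0 M) R, g x ∈ MS (Gamma0 M) R
  high : ∀ y ∈ MS (Gamma0 (M * q)) R, g y ∈ MS (Gamma0 (M * q)) R
  jmat : ∀ y ∈ MS (Gamma0 (M * q)) R, g (slash jMat y) = slash jMat (g y)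
  uq : ∀ y ∈ MS (Gamma0 (M * q)) R, g (heckeU q y) = heckeU q (g y)
  wq : ∀ y ∈ MS (Gamma0 (M * q)) R, g (wOp M q y) = wOp M q (g y)

variable {M q : ℕ} {g g' : Module.End R (Pairs R)}

theorem good_heckeT (hq : q.Prime) (hqM : ¬ q ∣ M) {ℓ : ℕ} (hℓ : ℓ.Prime) (hℓM : ¬ ℓ ∣ M)
    (hℓq : ℓ ≠ q) : Good M q (heckeT ℓ : Module.End R (Pairs R)) where
  low x hx := PS.heckeT_mem hℓ hℓM hx
  high y hy := PS.heckeT_mem hℓ (fun h => (hℓ.dvd_mul.mp h).elim hℓM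
    fun h => hℓq ((Nat.prime_dvd_prime_iff_eq hℓ hq).mp h)) hy
  jmat y hy := heckeT_slash_jMat hy hℓ.ne_zero
  uq y hy := heckeT_heckeU hℓ.ne_zero hq.ne_zero ((Nat.coprime_primes hℓ hq).mpr hℓq)
    (TInv_of_mem hy)
  wq y hy := heckeT_wOp hq hqM hℓ hℓM hℓq hy

theorem good_heckeU (hq : q.Prime) (hqM : ¬ q ∣ M) {r : ℕ} (hr : r.Prime) (hrM : r ∣ M) :
    Good M q (heckeU r : Module.End R (Pairs R)) where
  low x hx := PS.heckeU_mem hr.ne_zero hrM hx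
  high y hy := PS.heckeU_mem hr.ne_zero (hrM.mul_right q) hy
  jmat y hy := heckeU_slash_jMat hy hr.ne_zero
  uq y hy := heckeU_comm r q hr.ne_zero hq.ne_zero y
  wq y hy := heckeU_wOp hq hqM hr hrM hy

theorem good_jMat (hq : q.Prime) (hqM : ¬ q ∣ M) :
    Good M q (slash jMat : Module.End R (Pairs R)) where
  low x hx := slash_jMat_mem hx
  high y hy := slash_jMat_mem hy
  jmat y hy := rfl
  uq y hy := (heckeU_slash_jMat hy hq.ne_zero).symm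
  wq y hy := (wOp_slash_jMat hq hqM hy).symm

theorem good_const (c : R) : Good M q (algebraMap R (Module.End R (Pairs R)) c) where
  low x hx := by rw [Module.algebraMap_end_apply]; exact Submodule.smul_mem _ c hx
  high y hy := by rw [Module.algebraMap_end_apply]; exact Submodule.smul_mem _ c hy
  jmat y hy := by rw [Module.algebraMap_end_apply, Module.algebraMap_end_apply, map_smul]
  uq y hy := by rw [Module.algebraMap_end_apply, Module.algebraMap_end_apply, map_smul]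
  wq y hy := by rw [Module.algebraMap_end_apply, Module.algebraMap_end_apply, map_smul]

theorem Good.add (h : Good M q g) (h' : Good M q g') : Good M q (g + g') where
  low x hx := Submodule.add_mem _ (h.low x hx) (h'.low x hx)
  high y hy := Submodule.add_mem _ (h.high y hy) (h'.high y hy)
  jmat y hy := by
    rw [LinearMap.add_apply, LinearMap.add_apply, h.jmat y hy, h'.jmat y hy, map_add]
  uq y hy := by rw [LinearMap.add_apply, LinearMap.add_apply, h.uq y hy, h'.uq y hy, map_add]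
  wq y hy := by rw [LinearMap.add_apply, LinearMap.add_apply, h.wq y hy, h'.wq y hy, map_add]

theorem Good.sub (h : Good M q g) (h' : Good M q g') : Good M q (g - g') where
  low x hx := Submodule.sub_mem _ (h.low x hx) (h'.low x hx)
  high y hy := Submodule.sub_mem _ (h.high y hy) (h'.high y hy)
  jmat y hy := by
    rw [LinearMap.sub_apply, LinearMap.sub_apply, h.jmat y hy, h'.jmat y hy, map_sub]
  uq y hy := by rw [LinearMap.sub_apply, LinearMap.sub_apply, h.uq y hy, h'.uq y hy, map_sub]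
  wq y hy := by rw [LinearMap.sub_apply, LinearMap.sub_apply, h.wq y hy, h'.wq y hy, map_sub]

theorem Good.mul (hq : q.Prime) (hqM : ¬ q ∣ M) (h : Good M q g) (h' : Good M q g') :
    Good M q (g * g') where
  low x hx := h.low _ (h'.low x hx)
  high y hy := h.high _ (h'.high y hy)
  jmat y hy := by
    rw [Module.End.mul_apply, Module.End.mul_apply, h'.jmat y hy, h.jmat _ (h'.high y hy)]
  uq y hy := by
    rw [Module.End.mul_apply, Module.End.mul_apply, h'.uq y hy, h.uq _ (h'.high y hy)]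
  wq y hy := by
    rw [Module.End.mul_apply, Module.End.mul_apply, h'.wq y hy, h.wq _ (h'.high y hy)]

theorem Good.tr1 (hq : q.Prime) (hqM : ¬ q ∣ M) (h : Good M q g) {y : Pairs R}
    (hy : y ∈ MS (Gamma0 (M * q)) R) : LR.tr1 M q (g y) = g (LR.tr1 M q y) := by
  have hcop : Nat.Coprime q M := (Nat.Prime.coprime_iff_not_dvd hq).mpr hqM
  rw [tr1_apply, tr1_apply, map_add, h.uq _ (wOp_mem hq.ne_zero hcop hy), h.wq y hy]

theorem Good.tr2 (h : Good M q g) {y : Pairs R}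
    (hy : y ∈ MS (Gamma0 (M * q)) R) : LR.tr2 M q (g y) = g (LR.tr2 M q y) := by
  rw [tr2_apply, tr2_apply, map_add, h.uq _ hy, h.wq y hy]

theorem Good.deg (h : Good M q g) {x : Pairs R} (hx : x ∈ MS (Gamma0 M) R) :
    degen q (g x) = g (degen q x) := by
  rw [← wOp_eq_degen hx, h.wq x (level_le hx), wOp_eq_degen (h.low x hx)]

theorem Good.tq (hq : q.Prime) (hqM : ¬ q ∣ M) (h : Good M q g) {x : Pairs R}
    (hx : x ∈ MS (Gamma0 M) R) : heckeT q (g x) = g (heckeT q x) := by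
  have : NeZero q := ⟨hq.ne_zero⟩
  have hcop : Nat.Coprime q M := (Nat.Prime.coprime_iff_not_dvd hq).mpr hqM
  rw [← tr2_of_mem hcop hx, ← tr2_of_mem hcop (h.low x hx), h.tr2 (level_le hx)]

theorem Good.low_sgn {ε : ℤ} (h : Good M q g) {x : Pairs R} (hx : x ∈ sgnMS R ε (Gamma0 M)) :
    g x ∈ sgnMS R ε (Gamma0 M) := by
  obtain ⟨h1, h2⟩ := mem_sgnMS.mp hx
  exact mem_sgnMS.mpr ⟨h.low x h1, by rw [← h.jmat x (level_le h1), h2, map_smul]⟩

theorem Good.high_sgn {ε : ℤ} (h : Good M q g) {y : Pairs R}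
    (hy : y ∈ sgnMS R ε (Gamma0 (M * q))) : g y ∈ sgnMS R ε (Gamma0 (M * q)) := by
  obtain ⟨h1, h2⟩ := mem_sgnMS.mp hy
  exact mem_sgnMS.mpr ⟨h.high y h1, by rw [← h.jmat y h1, h2, map_smul]⟩

end Good

/-! ### saturation, finiteness -/

section Sat

variable {𝒪 : Type*} [CommRing 𝒪] [IsDomain 𝒪]

theorem MS_sat {Γ : Subgroup SL(2, ℤ)} (c : 𝒪) (x : Pairs 𝒪) (hc : c ≠ 0)
    (h : c • x ∈ MS Γ 𝒪) : x ∈ MS Γ 𝒪 := by
  refine ⟨fun a b d => ?_, fun γ hγ => ?_⟩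
  · have h1 := h.1 a b d
    simp only [Pi.smul_apply, smul_eq_mul] at h1
    exact mul_left_cancel₀ hc (by rw [mul_add]; exact h1)
  · have h1 := h.2 γ hγ
    rw [map_smul] at h1
    exact smul_right_injective (Pairs 𝒪) hc h1

theorem sgnMS_sat {ε : ℤ} {Γ : Subgroup SL(2, ℤ)} (c : 𝒪) (x : Pairs 𝒪) (hc : c ≠ 0)
    (h : c • x ∈ sgnMS 𝒪 ε Γ) : x ∈ sgnMS 𝒪 ε Γ := by
  obtain ⟨h1, h2⟩ := mem_sgnMS.mp h
  refine mem_sgnMS.mpr ⟨MS_sat c x hc h1, ?_⟩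
  rw [map_smul, smul_comm] at h2
  exact smul_right_injective (Pairs 𝒪) hc h2

theorem finite_part [IsNoetherianRing 𝒪] {M : ℕ} (hM : M ≠ 0) {ε : ℤ}
    {F : Set (Module.End 𝒪 (Pairs 𝒪))} : Module.Finite 𝒪 (part (sgnMS 𝒪 ε (Gamma0 M)) F) := by
  have : NeZero M := ⟨hM⟩
  have : Module.Finite 𝒪 (MS (Gamma0 M) 𝒪) := finite_MS 𝒪 (Gamma0 M)
  have hle : part (sgnMS 𝒪 ε (Gamma0 M)) F ≤ MS (Gamma0 M) 𝒪 := part_le.trans inf_le_left
  exact Module.Finite.of_injective (Submodule.inclusion hle) (Submodule.inclusion_injective hle)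

end Sat

section Main

variable {𝒪 : Type*} [CommRing 𝒪]

/-- the part of level `M` for `F` and `T_q - t_q`. -/
noncomputable abbrev lowPart (M q : ℕ) (ε : ℤ) (F : Set (Module.End 𝒪 (Pairs 𝒪))) (tq : 𝒪) :
    Submodule 𝒪 (Pairs 𝒪) :=
  part (sgnMS 𝒪 ε (Gamma0 M)) (insert (heckeT q - algebraMap 𝒪 (Module.End 𝒪 (Pairs 𝒪)) tq) F)

/-- the part of level `Mq` for `F` and `U_q - α`. -/
noncomputable abbrev highPart (M q : ℕ) (ε : ℤ) (F : Set (Module.End 𝒪 (Pairs 𝒪))) (α : 𝒪) :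
    Submodule 𝒪 (Pairs 𝒪) :=
  part (sgnMS 𝒪 ε (Gamma0 (M * q)))
    (insert (heckeU q - algebraMap 𝒪 (Module.End 𝒪 (Pairs 𝒪)) α) F)

variable {M q : ℕ} {ε : ℤ} {F : Set (Module.End 𝒪 (Pairs 𝒪))} {tq α : 𝒪}

theorem lowPart_stable (hq : q.Prime) (hqM : ¬ q ∣ M) (hF : ∀ T ∈ F, Good M q T)
    (g : Module.End 𝒪 (Pairs 𝒪)) (hg : ∀ x ∈ sgnMS 𝒪 ε (Gamma0 M), g x ∈ sgnMS 𝒪 ε (Gamma0 M))
    (hgq : ∀ x ∈ MS (Gamma0 M) 𝒪, g (heckeT q x) = heckeT q (g x))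
    (hgF : ∀ T ∈ F, ∀ x ∈ MS (Gamma0 M) 𝒪, g (T x) = T (g x)) {x : Pairs 𝒪}
    (hx : x ∈ lowPart M q ε F tq) : g x ∈ lowPart M q ε F tq := by
  refine part_stable g hg ?_ ?_ hx
  · intro T hT x hx
    rcases Set.mem_insert_iff.mp hT with rfl | hT
    · exact Submodule.sub_mem _ (heckeT_mem_sgnMS hq hqM hx) (Submodule.smul_mem _ tq hx)
    · exact (hF T hT).low_sgn hx
  · intro T hT x hx
    rcases Set.mem_insert_iff.mp hT with rfl | hT
    · rw [LinearMap.sub_apply, LinearMap.sub_apply, map_sub, hgq x (mem_sgnMS.mp hx).1,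
        Module.algebraMap_end_apply, Module.algebraMap_end_apply, map_smul]
    · exact hgF T hT x (mem_sgnMS.mp hx).1

theorem highPart_stable (hq : q.Prime) (hF : ∀ T ∈ F, Good M q T)
    (g : Module.End 𝒪 (Pairs 𝒪))
    (hg : ∀ x ∈ sgnMS 𝒪 ε (Gamma0 (M * q)), g x ∈ sgnMS 𝒪 ε (Gamma0 (M * q)))
    (hgq : ∀ x ∈ MS (Gamma0 (M * q)) 𝒪, g (heckeU q x) = heckeU q (g x))
    (hgF : ∀ T ∈ F, ∀ x ∈ MS (Gamma0 (M * q)) 𝒪, g (T x) = T (g x)) {x : Pairs 𝒪}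
    (hx : x ∈ highPart M q ε F α) : g x ∈ highPart M q ε F α := by
  refine part_stable g hg ?_ ?_ hx
  · intro T hT x hx
    rcases Set.mem_insert_iff.mp hT with rfl | hT
    · exact Submodule.sub_mem _ (heckeU_mem_sgnMS hq (dvd_mul_left q M) hx)
        (Submodule.smul_mem _ α hx)
    · exact (hF T hT).high_sgn hx
  · intro T hT x hx
    rcases Set.mem_insert_iff.mp hT with rfl | hT
    · rw [LinearMap.sub_apply, LinearMap.sub_apply, map_sub, hgq x (mem_sgnMS.mp hx).1,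
        Module.algebraMap_end_apply, Module.algebraMap_end_apply, map_smul]
    · exact hgF T hT x (mem_sgnMS.mp hx).1

theorem heckeT_mem_lowPart (hq : q.Prime) (hqM : ¬ q ∣ M) (hF : ∀ T ∈ F, Good M q T)
    {x : Pairs 𝒪} (hx : x ∈ lowPart M q ε F tq) : heckeT q x ∈ lowPart M q ε F tq :=
  lowPart_stable hq hqM hF (heckeT q) (fun _ hx => heckeT_mem_sgnMS hq hqM hx) (fun _ _ => rfl)
    (fun T hT x hx => ((hF T hT).tq hq hqM hx)) hx

theorem heckeU_mem_highPart (hq : q.Prime) (hF : ∀ T ∈ F, Good M q T)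
    {x : Pairs 𝒪} (hx : x ∈ highPart M q ε F α) : heckeU q x ∈ highPart M q ε F α :=
  highPart_stable hq hF (heckeU q) (fun _ hx => heckeU_mem_sgnMS hq (dvd_mul_left q M) hx)
    (fun _ _ => rfl) (fun T hT x hx => ((hF T hT).uq x hx).symm) hx

/-- The traces map the high part to the low part. -/
theorem tr_mem_lowPart (hq : q.Prime) (hqM : ¬ q ∣ M) (hF : ∀ T ∈ F, Good M q T)
    [IsDomain 𝒪] [IsDiscreteValuationRing 𝒪] (hα : IsUnit α)
    (hαq : α ^ 2 - tq * α + q ∈ maximalIdeal 𝒪) {y : Pairs 𝒪} (hy : y ∈ highPart M q ε F α) :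
    tr1 M q y ∈ lowPart M q ε F tq ∧ tr2 M q y ∈ lowPart M q ε F tq := by
  obtain ⟨h1, h2⟩ := mem_part.mp hy
  have hy1 : y ∈ MS (Gamma0 (M * q)) 𝒪 := (mem_sgnMS.mp h1).1
  -- the operators on pairs
  let U : Module.End 𝒪 (Pairs 𝒪 × Pairs 𝒪) :=
    LinearMap.prod ((q : 𝒪) • LinearMap.snd 𝒪 (Pairs 𝒪) (Pairs 𝒪))
      (heckeT q ∘ₗ LinearMap.snd 𝒪 (Pairs 𝒪) (Pairs 𝒪) - LinearMap.fst 𝒪 (Pairs 𝒪) (Pairs 𝒪))
  let T : Module.End 𝒪 (Pairs 𝒪 × Pairs 𝒪) := LinearMap.prodMap (heckeT q) (heckeT q)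
  have hU : ∀ a b, U (a, b) = ((q : 𝒪) • b, heckeT q b - a) := fun a b => rfl
  have hT : ∀ a b, T (a, b) = (heckeT q a, heckeT q b) := fun a b => rfl
  have hUT : Commute U T := by
    refine LinearMap.ext fun ⟨a, b⟩ => ?_
    rw [Module.End.mul_apply, Module.End.mul_apply, hT, hU, hU, hT, map_smul, map_sub]
  have hUU : U * U = T * U - algebraMap 𝒪 _ (q : 𝒪) := by
    refine LinearMap.ext fun ⟨a, b⟩ => ?_
    rw [LinearMap.sub_apply, Module.End.mul_apply, Module.End.mul_apply, hU, hU, hT,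
      Module.algebraMap_end_apply, Prod.smul_mk, Prod.mk_sub_mk, map_smul, smul_sub, map_sub]
  let Tr : Pairs 𝒪 →ₗ[𝒪] Pairs 𝒪 × Pairs 𝒪 := LinearMap.prod (tr1 M q) (tr2 M q)
  have h3 : Tr y ∈ nilSub (U - algebraMap 𝒪 _ α) := by
    refine nilSub_of_map (MS (Gamma0 (M * q)) 𝒪) (fun z hz => ?_) Tr (fun z hz => ?_) hy1
      (h2 _ (Set.mem_insert _ _))
    · exact Submodule.sub_mem _ (PS.heckeU_mem hq.ne_zero (dvd_mul_left q M) hz)
        (Submodule.smul_mem _ α hz)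
    · rw [LinearMap.sub_apply, LinearMap.sub_apply, map_sub, Module.algebraMap_end_apply,
        Module.algebraMap_end_apply, map_smul]
      congr 1
      change (tr1 M q (heckeU q z), tr2 M q (heckeU q z)) = U (tr1 M q z, tr2 M q z)
      rw [hU, tr1_heckeU hq hqM hz, tr2_heckeU hq hqM hz]
  have h4 : Tr y ∈ nilSub (T - algebraMap 𝒪 _ tq) := nilSub_trace hUT hUU hα hαq h3
  have h5 : tr1 M q y ∈ nilSub (heckeT q - algebraMap 𝒪 (Module.End 𝒪 (Pairs 𝒪)) tq) :=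
    nilSub_of_comm (LinearMap.fst 𝒪 (Pairs 𝒪) (Pairs 𝒪)) (fun _ => rfl) h4
  have h6 : tr2 M q y ∈ nilSub (heckeT q - algebraMap 𝒪 (Module.End 𝒪 (Pairs 𝒪)) tq) :=
    nilSub_of_comm (LinearMap.snd 𝒪 (Pairs 𝒪) (Pairs 𝒪)) (fun _ => rfl) h4
  refine ⟨mem_part.mpr ⟨tr1_mem_sgnMS hq hqM h1, fun S hS => ?_⟩,
    mem_part.mpr ⟨tr2_mem_sgnMS hq hqM h1, fun S hS => ?_⟩⟩
  · rcases Set.mem_insert_iff.mp hS with rfl | hS
    · exact h5
    · exact nilSub_of_map (MS (Gamma0 (M * q)) 𝒪) (fun z hz => (hF S hS).high z hz) (tr1 M q)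
        (fun z hz => (hF S hS).tr1 hq hqM hz) hy1 (h2 S (Set.mem_insert_of_mem _ hS))
  · rcases Set.mem_insert_iff.mp hS with rfl | hS
    · exact h6
    · exact nilSub_of_map (MS (Gamma0 (M * q)) 𝒪) (fun z hz => (hF S hS).high z hz) (tr2 M q)
        (fun z hz => (hF S hS).tr2 hz) hy1 (h2 S (Set.mem_insert_of_mem _ hS))

variable [IsDomain 𝒪]

theorem lowPart_sat (c : 𝒪) (x : Pairs 𝒪) (hc : c ≠ 0) (h : c • x ∈ lowPart M q ε F tq) :
    x ∈ lowPart M q ε F tq := part_of_smul (fun c x => sgnMS_sat c x) hc h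

theorem highPart_sat (c : 𝒪) (x : Pairs 𝒪) (hc : c ≠ 0) (h : c • x ∈ highPart M q ε F α) :
    x ∈ highPart M q ε F α := part_of_smul (fun c x => sgnMS_sat c x) hc h

variable [IsDiscreteValuationRing 𝒪] [IsAdicComplete (maximalIdeal 𝒪) 𝒪]

/-- **(C2) Control at an auxiliary prime.** -/
theorem exists_control (hq : q.Prime) (hqM : ¬ q ∣ M) (hF : ∀ T ∈ F, Good M q T)
    (hα : IsUnit α) (hαq : α ^ 2 - tq * α + q ∈ maximalIdeal 𝒪) (hα2 : IsUnit (2 * α - tq))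
    (hTW : IsUnit (tq ^ 2 - ((q : 𝒪) + 1) ^ 2))
    (hnew : part (newMS M q 𝒪 ⊓ sgnMS 𝒪 ε (Gamma0 (M * q)))
      (insert (heckeU q - algebraMap 𝒪 (Module.End 𝒪 (Pairs 𝒪)) α) F) = ⊥) :
    ∃ (T A : Module.End 𝒪 (lowPart M q ε F tq))
      (e : lowPart M q ε F tq ≃ₗ[𝒪] highPart M q ε F α),
      (∀ x, (T x : Pairs 𝒪) = heckeT q x) ∧ A ∈ Algebra.adjoin 𝒪 {T} ∧
      (∀ x, A (A x) = A (T x) - (q : 𝒪) • x) ∧
      (∀ x, x ∈ nilSub (A - algebraMap 𝒪 _ α)) ∧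
      (∀ x, (e x : Pairs 𝒪) = (A x : Pairs 𝒪) - degen q x) ∧
      (∀ x, heckeU q (e x : Pairs 𝒪) = e (A x)) ∧
      ∀ g : Module.End 𝒪 (Pairs 𝒪), Good M q g →
        (∀ x ∈ lowPart M q ε F tq, g x ∈ lowPart M q ε F tq) →
        ∀ x x' : lowPart M q ε F tq, (x' : Pairs 𝒪) = g x → (e x' : Pairs 𝒪) = g (e x) := by
  have hM : M ≠ 0 := by rintro rfl; exact hqM (dvd_zero q)
  have hNZ : NeZero q := ⟨hq.ne_zero⟩
  have hcop : Nat.Coprime q M := (Nat.Prime.coprime_iff_not_dvd hq).mpr hqM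
  have hlow : ∀ x : lowPart M q ε F tq, (x : Pairs 𝒪) ∈ MS (Gamma0 M) 𝒪 := fun x =>
    (mem_sgnMS.mp (mem_part.mp x.2).1).1
  have hfin : Module.Finite 𝒪 (lowPart M q ε F tq) := finite_part hM
  let T : Module.End 𝒪 (lowPart M q ε F tq) :=
    LinearMap.restrict (heckeT q) (fun _ hx => heckeT_mem_lowPart hq hqM hF hx)
  have hTx : ∀ x, (T x : Pairs 𝒪) = heckeT q x := fun x => rfl
  have hT : ∀ x, x ∈ nilSub (T - algebraMap 𝒪 _ tq) := fun x =>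
    nilSub_of_subtype (fun w => rfl) (fun c x => lowPart_sat c x)
      ((mem_part.mp x.2).2 _ (Set.mem_insert _ _))
  obtain ⟨A₀, B₀, hAB, hABq, hA1, hBα, hAnil⟩ := exists_roots T hT hαq hα2 hTW
  obtain ⟨C₀, hC₀⟩ := hA1.exists_left_inv
  obtain ⟨D₀, hD₀⟩ := hBα.exists_left_inv
  set A : Module.End 𝒪 (lowPart M q ε F tq) := A₀.1 with hA
  set B : Module.End 𝒪 (lowPart M q ε F tq) := B₀.1 with hB
  set C : Module.End 𝒪 (lowPart M q ε F tq) := C₀.1 with hC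
  set D : Module.End 𝒪 (lowPart M q ε F tq) := D₀.1 with hD
  have hTAB : ∀ x, T x = A x + B x := fun x => by rw [← hAB]; rfl
  have hBAq : ∀ x, B (A x) = (q : 𝒪) • x := fun x => by
    have h1 := congrArg (fun s : Algebra.adjoin 𝒪 {T} => (s : Module.End 𝒪 _) x)
      ((mul_comm B₀ A₀).trans hABq)
    exact h1
  have hABq' : ∀ x, A (B x) = (q : 𝒪) • x := fun x => by
    have h1 := congrArg (fun s : Algebra.adjoin 𝒪 {T} => (s : Module.End 𝒪 _) x) hABq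
    exact h1
  have hCA : ∀ x, C (A (A x) - x) = x := fun x => by
    have h1 := congrArg (fun s : Algebra.adjoin 𝒪 {T} => (s : Module.End 𝒪 _) x) hC₀
    rw [sq] at h1
    exact h1
  have hAC : ∀ x, A (A (C x)) - C x = x := fun x => by
    have h1 := congrArg (fun s : Algebra.adjoin 𝒪 {T} => (s : Module.End 𝒪 _) x)
      ((mul_comm _ _).trans hC₀)
    rw [sq] at h1
    exact h1
  have hDB : ∀ x, D (B x - α • x) = x := fun x => by
    have h1 := congrArg (fun s : Algebra.adjoin 𝒪 {T} => (s : Module.End 𝒪 _) x) hD₀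
    exact h1
  have hAT : Commute T A := Algebra.commute_of_mem_adjoin_self A₀.2
  have hDT : Commute T D := Algebra.commute_of_mem_adjoin_self D₀.2
  have hAA : ∀ x, A (A x) = A (T x) - (q : 𝒪) • x := fun x => by
    rw [hTAB, map_add, hABq']; abel
  -- the map
  let s : lowPart M q ε F tq →ₗ[𝒪] Pairs 𝒪 :=
    (lowPart M q ε F tq).subtype ∘ₗ A - degen q ∘ₗ (lowPart M q ε F tq).subtype
  have hs : ∀ x, s x = (A x : Pairs 𝒪) - degen q x := fun x => rfl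
  have hsU : ∀ x, heckeU q (s x) = s (A x) := fun x => by
    rw [hs, hs, map_sub, heckeU_degen_self hq.ne_zero (TInv_of_mem (hlow x)), heckeU_eq_sub,
      ← hTx, hTAB, hBAq]
    change (A (A x) : Pairs 𝒪) + (q : 𝒪) • (x : Pairs 𝒪) - _ - _ = _
    abel
  have hs_sgn : ∀ x, s x ∈ sgnMS 𝒪 ε (Gamma0 (M * q)) := fun x => by
    rw [hs]
    exact Submodule.sub_mem _ (level_le_sgnMS (mem_part.mp (A x).2).1)
      (degen_mem_sgnMS hq.ne_zero (mem_part.mp x.2).1)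
  have hsY : ∀ x, s x ∈ highPart M q ε F α := fun x => by
    refine mem_part.mpr ⟨hs_sgn x, fun S hS => ?_⟩
    rcases Set.mem_insert_iff.mp hS with rfl | hS
    · refine nilSub_of_comm (f := A - algebraMap 𝒪 _ α) s (fun z => ?_) (hAnil x)
      change s (A z - α • z) = heckeU q (s z) - α • s z
      rw [map_sub, map_smul, hsU]
    · rw [hs]
      refine Submodule.sub_mem _ ((mem_part.mp (A x).2).2 S (Set.mem_insert_of_mem _ hS)) ?_
      exact nilSub_of_map (MS (Gamma0 M) 𝒪) (fun z hz => (hF S hS).low z hz) (degen q)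
        (fun z hz => (hF S hS).deg hz) (hlow x)
        ((mem_part.mp x.2).2 S (Set.mem_insert_of_mem _ hS))
  have htr2 : ∀ x, tr2 M q (s x) = ((A (A x) - x : lowPart M q ε F tq) : Pairs 𝒪) := fun x => by
    rw [hs, map_sub, tr2_of_mem hcop (hlow _), tr2_degen hcop (hlow x), ← hTx, hTAB, hBAq,
      add_smul, one_smul]
    change (A (A x) : Pairs 𝒪) + (q : 𝒪) • (x : Pairs 𝒪) - _ = (A (A x) : Pairs 𝒪) - x
    abel
  have htr1 : ∀ x, tr1 M q (s x) = (B (A (A x) - x) : Pairs 𝒪) := fun x => by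
    rw [hs, map_sub, tr1_of_mem (hlow _), tr1_degen hcop (hlow x), ← hTx, hTAB, map_sub, hBAq,
      add_smul, one_smul]
    change (q : 𝒪) • (A x : Pairs 𝒪) + (A x : Pairs 𝒪) - ((A x : Pairs 𝒪) + (B x : Pairs 𝒪)) =
      (q : 𝒪) • (A x : Pairs 𝒪) - (B x : Pairs 𝒪)
    abel
  let e₀ : lowPart M q ε F tq →ₗ[𝒪] highPart M q ε F α := s.codRestrict _ hsY
  have he₀ : ∀ x, (e₀ x : Pairs 𝒪) = s x := fun x => rfl
  have hinj : Function.Injective e₀ := by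
    rw [injective_iff_map_eq_zero]
    intro x hx
    have h1 : s x = 0 := by rw [← he₀, hx]; rfl
    have h2 := htr2 x
    rw [h1, map_zero] at h2
    have h3 : A (A x) - x = 0 := Subtype.ext h2.symm
    rw [← hCA x, h3, map_zero]
  have hsurj : Function.Surjective e₀ := by
    intro y
    -- the traces
    let Tr : highPart M q ε F α →ₗ[𝒪] lowPart M q ε F tq × lowPart M q ε F tq :=
      LinearMap.prod
        ((tr1 M q ∘ₗ (highPart M q ε F α).subtype).codRestrict _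
          fun y => (tr_mem_lowPart hq hqM hF hα hαq y.2).1)
        ((tr2 M q ∘ₗ (highPart M q ε F α).subtype).codRestrict _
          fun y => (tr_mem_lowPart hq hqM hF hα hαq y.2).2)
    have hTr1 : ∀ y, ((Tr y).1 : Pairs 𝒪) = tr1 M q y := fun y => rfl
    have hTr2 : ∀ y, ((Tr y).2 : Pairs 𝒪) = tr2 M q y := fun y => rfl
    let UY : Module.End 𝒪 (highPart M q ε F α) :=
      LinearMap.restrict (heckeU q) (fun _ hx => heckeU_mem_highPart hq hF hx)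
    let U : Module.End 𝒪 (lowPart M q ε F tq × lowPart M q ε F tq) :=
      LinearMap.prod ((q : 𝒪) • LinearMap.snd 𝒪 _ _)
        (T ∘ₗ LinearMap.snd 𝒪 _ _ - LinearMap.fst 𝒪 _ _)
    have hU : ∀ z, U z = ((q : 𝒪) • z.2, T z.2 - z.1) := fun z => rfl
    have hnil : Tr y ∈ nilSub (U - algebraMap 𝒪 _ α) := by
      refine nilSub_of_comm (f := UY - algebraMap 𝒪 _ α) Tr (fun z => ?_)
        (nilSub_of_subtype (fun w => rfl) (fun c x => highPart_sat c x)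
          ((mem_part.mp y.2).2 _ (Set.mem_insert _ _)))
      rw [LinearMap.sub_apply, LinearMap.sub_apply, map_sub, Module.algebraMap_end_apply,
        Module.algebraMap_end_apply, map_smul]
      congr 1
      have hz : (z : Pairs 𝒪) ∈ MS (Gamma0 (M * q)) 𝒪 := (mem_sgnMS.mp (mem_part.mp z.2).1).1
      rw [hU]
      refine Prod.ext (Subtype.ext ?_) (Subtype.ext ?_)
      · exact tr1_heckeU hq hqM hz
      · exact tr2_heckeU hq hqM hz
    have hTA : ∀ x, T (A x) = A (T x) := fun x => LinearMap.congr_fun hAT.eq x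
    have hTD : ∀ x, T (D x) = D (T x) := fun x => LinearMap.congr_fun hDT.eq x
    have key : U (Tr y) - LinearMap.prodMap A A (Tr y) = 0 := by
      refine eq_zero_of_factor (𝒪 := 𝒪) (B := LinearMap.prodMap B B) (D := LinearMap.prodMap D D)
        ?_ ?_ ?_ ?_ hnil
      · refine LinearMap.ext fun z => ?_
        rw [Module.End.mul_apply, Module.End.mul_apply]
        refine Prod.ext ?_ ?_
        · change (q : 𝒪) • A z.2 = A ((q : 𝒪) • z.2)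
          rw [map_smul]
        · change T (A z.2) - A z.1 = A (T z.2 - z.1)
          rw [map_sub, hTA]
      · refine LinearMap.ext fun z => ?_
        rw [Module.End.mul_apply, Module.End.mul_apply]
        refine Prod.ext ?_ ?_
        · change (q : 𝒪) • D z.2 = D ((q : 𝒪) • z.2)
          rw [map_smul]
        · change T (D z.2) - D z.1 = D (T z.2 - z.1)
          rw [map_sub, hTD]
      · intro z
        refine Prod.ext ?_ ?_
        · change (q : 𝒪) • (T z.2 - z.1 - A z.2) = B ((q : 𝒪) • z.2 - A z.1)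
          have e1 : A z.2 + B z.2 - z.1 - A z.2 = B z.2 - z.1 := by abel
          rw [hTAB, map_sub, map_smul, hBAq, e1, smul_sub]
        · change T (T z.2 - z.1 - A z.2) - ((q : 𝒪) • z.2 - A z.1) = B (T z.2 - z.1 - A z.2)
          have e1 : T z.2 - z.1 - A z.2 = B z.2 - z.1 := by rw [hTAB]; abel
          rw [e1, hTAB (B z.2 - z.1), map_sub A, hABq']
          abel
      · intro z
        refine Prod.ext ?_ ?_
        · change D (B z.1 - α • z.1) = z.1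
          exact hDB _
        · change D (B z.2 - α • z.2) = z.2
          exact hDB _
    have key2 : (Tr y).1 = B (Tr y).2 := by
      have h1 : T (Tr y).2 - (Tr y).1 - A (Tr y).2 = 0 := congrArg Prod.snd key
      rw [hTAB] at h1
      rw [← sub_eq_zero, ← neg_eq_zero, ← h1]
      abel
    -- the preimage
    refine ⟨C (Tr y).2, Subtype.ext ?_⟩
    rw [he₀]
    have h2 : tr2 M q (s (C (Tr y).2)) = tr2 M q y := by rw [htr2, hAC, hTr2]
    have h1 : tr1 M q (s (C (Tr y).2)) = tr1 M q y := by rw [htr1, hAC, ← key2, hTr1]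
    have hdiff : (y : Pairs 𝒪) - s (C (Tr y).2) ∈ highPart M q ε F α :=
      Submodule.sub_mem _ y.2 (hsY _)
    have h3 : (y : Pairs 𝒪) - s (C (Tr y).2) ∈
        part (newMS M q 𝒪 ⊓ sgnMS 𝒪 ε (Gamma0 (M * q)))
          (insert (heckeU q - algebraMap 𝒪 (Module.End 𝒪 (Pairs 𝒪)) α) F) := by
      obtain ⟨h4, h5⟩ := mem_part.mp hdiff
      refine mem_part.mpr ⟨⟨mem_newMS.mpr ⟨(mem_sgnMS.mp h4).1, ?_, ?_⟩, h4⟩, h5⟩
      · rw [map_sub, h1, sub_self]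
      · rw [map_sub, h2, sub_self]
    rw [hnew, Submodule.mem_bot, sub_eq_zero] at h3
    exact h3.symm
  refine ⟨T, A, LinearEquiv.ofBijective e₀ ⟨hinj, hsurj⟩, hTx, A₀.2, hAA, hAnil, fun x => rfl,
    fun x => hsU x, fun g hg hgX x x' hx' => ?_⟩
  -- equivariance
  let G : Module.End 𝒪 (lowPart M q ε F tq) := LinearMap.restrict g hgX
  have hGT : Commute G T := by
    refine LinearMap.ext fun z => Subtype.ext ?_
    exact (hg.tq hq hqM (hlow z)).symm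
  have hGA : Commute G A := Algebra.commute_of_mem_adjoin_singleton_of_commute A₀.2 hGT
  have hx'' : x' = G x := Subtype.ext hx'
  have h1 : A x' = G (A x) := by
    rw [hx'']
    exact (LinearMap.congr_fun hGA.eq x).symm
  change s x' = g (s x)
  rw [hs, hs, h1, hx', hg.deg (hlow x), map_sub]
  rfl

end Main

/-! ### The concrete case -/

section Concrete

variable {𝒪 : Type*} [CommRing 𝒪]

/-- `{T_ℓ - t_ℓ | ℓ ∈ P} ∪ {U_r - u_r | r ∈ Q}`. -/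
def opF (P : Set ℕ) (t : ℕ → 𝒪) (Q : Set ℕ) (u : ℕ → 𝒪) : Set (Module.End 𝒪 (Pairs 𝒪)) :=
  {S | (∃ ℓ ∈ P, S = heckeT ℓ - algebraMap 𝒪 _ (t ℓ)) ∨
    ∃ r ∈ Q, S = heckeU r - algebraMap 𝒪 _ (u r)}

variable {M q : ℕ} {ε : ℤ} {P Q : Set ℕ} {t u : ℕ → 𝒪} {tq α : 𝒪}

theorem good_opF (hq : q.Prime) (hqM : ¬ q ∣ M) (hP : ∀ ℓ ∈ P, ℓ.Prime ∧ ¬ ℓ ∣ M ∧ ℓ ≠ q)
    (hQ : ∀ r ∈ Q, r.Prime ∧ r ∣ M) : ∀ S ∈ opF P t Q u, Good M q S := by
  rintro S (⟨ℓ, hℓ, rfl⟩ | ⟨r, hr, rfl⟩)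
  · exact (good_heckeT hq hqM (hP ℓ hℓ).1 (hP ℓ hℓ).2.1 (hP ℓ hℓ).2.2).sub (good_const _)
  · exact (good_heckeU hq hqM (hQ r hr).1 (hQ r hr).2).sub (good_const _)

theorem heckeT_comm_opF {N : ℕ} (hP : ∀ ℓ ∈ P, ℓ.Prime ∧ ¬ ℓ ∣ N) (hQ : ∀ r ∈ Q, r.Prime ∧ r ∣ N)
    {ℓ : ℕ} (hℓ : ℓ.Prime) (hℓN : ¬ ℓ ∣ N) : ∀ S ∈ opF P t Q u, ∀ x ∈ MS (Gamma0 N) 𝒪,
      heckeT ℓ (S x) = S (heckeT ℓ x) := by
  rintro S (⟨r, hr, rfl⟩ | ⟨r, hr, rfl⟩) x hx <;>
    rw [LinearMap.sub_apply, LinearMap.sub_apply, map_sub, Module.algebraMap_end_apply,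
      Module.algebraMap_end_apply, map_smul]
  · by_cases h : ℓ = r
    · rw [h]
    · rw [heckeT_comm hℓ.ne_zero (hP r hr).1.ne_zero ((Nat.coprime_primes hℓ (hP r hr).1).mpr h)
        (TInv_of_mem hx)]
  · have h : ℓ ≠ r := fun h => hℓN (h ▸ (hQ r hr).2)
    rw [heckeT_heckeU hℓ.ne_zero (hQ r hr).1.ne_zero ((Nat.coprime_primes hℓ (hQ r hr).1).mpr h)
      (TInv_of_mem hx)]

theorem heckeU_comm_opF {N : ℕ} (hP : ∀ ℓ ∈ P, ℓ.Prime ∧ ¬ ℓ ∣ N) (hQ : ∀ r ∈ Q, r.Prime ∧ r ∣ N)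
    {ℓ : ℕ} (hℓ : ℓ.Prime) (hℓN : ℓ ∣ N) : ∀ S ∈ opF P t Q u, ∀ x ∈ MS (Gamma0 N) 𝒪,
      heckeU ℓ (S x) = S (heckeU ℓ x) := by
  rintro S (⟨r, hr, rfl⟩ | ⟨r, hr, rfl⟩) x hx <;>
    rw [LinearMap.sub_apply, LinearMap.sub_apply, map_sub, Module.algebraMap_end_apply,
      Module.algebraMap_end_apply, map_smul]
  · have h : r ≠ ℓ := fun h => (hP r hr).2 (h ▸ hℓN)
    rw [heckeT_heckeU (hP r hr).1.ne_zero hℓ.ne_zero ((Nat.coprime_primes (hP r hr).1 hℓ).mpr h)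
      (TInv_of_mem hx)]
  · rw [heckeU_comm ℓ r hℓ.ne_zero (hQ r hr).1.ne_zero]

theorem slash_jMat_comm_opF {N : ℕ} (hP : ∀ ℓ ∈ P, ℓ.Prime ∧ ¬ ℓ ∣ N)
    (hQ : ∀ r ∈ Q, r.Prime ∧ r ∣ N) : ∀ S ∈ opF P t Q u, ∀ x ∈ MS (Gamma0 N) 𝒪,
      slash jMat (S x) = S (slash jMat x) := by
  rintro S (⟨r, hr, rfl⟩ | ⟨r, hr, rfl⟩) x hx <;>
    rw [LinearMap.sub_apply, LinearMap.sub_apply, map_sub, Module.algebraMap_end_apply,
      Module.algebraMap_end_apply, map_smul]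
  · rw [heckeT_slash_jMat hx (hP r hr).1.ne_zero]
  · rw [heckeU_slash_jMat hx (hQ r hr).1.ne_zero]

theorem heckeT_mem_low (hq : q.Prime) (hqM : ¬ q ∣ M) (hP : ∀ ℓ ∈ P, ℓ.Prime ∧ ¬ ℓ ∣ M ∧ ℓ ≠ q)
    (hQ : ∀ r ∈ Q, r.Prime ∧ r ∣ M) {ℓ : ℕ} (hℓ : ℓ.Prime) (hℓM : ¬ ℓ ∣ M) (x : Pairs 𝒪)
    (hx : x ∈ lowPart M q ε (opF P t Q u) tq) :
    heckeT ℓ x ∈ lowPart M q ε (opF P t Q u) tq := by
  refine lowPart_stable hq hqM (good_opF hq hqM hP hQ) (heckeT ℓ)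
    (fun _ hx => heckeT_mem_sgnMS hℓ hℓM hx) (fun x hx => ?_)
    (heckeT_comm_opF (fun ℓ h => ⟨(hP ℓ h).1, (hP ℓ h).2.1⟩) hQ hℓ hℓM) hx
  by_cases h : ℓ = q
  · rw [h]
  · exact heckeT_comm hℓ.ne_zero hq.ne_zero ((Nat.coprime_primes hℓ hq).mpr h) (TInv_of_mem hx)

theorem heckeU_mem_low (hq : q.Prime) (hqM : ¬ q ∣ M) (hP : ∀ ℓ ∈ P, ℓ.Prime ∧ ¬ ℓ ∣ M ∧ ℓ ≠ q)
    (hQ : ∀ r ∈ Q, r.Prime ∧ r ∣ M) {r : ℕ} (hr : r.Prime) (hrM : r ∣ M) (x : Pairs 𝒪)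
    (hx : x ∈ lowPart M q ε (opF P t Q u) tq) :
    heckeU r x ∈ lowPart M q ε (opF P t Q u) tq :=
  lowPart_stable hq hqM (good_opF hq hqM hP hQ) (heckeU r)
    (fun _ hx => heckeU_mem_sgnMS hr hrM hx) (fun _ hx => ((good_heckeU hq hqM hr hrM).tq hq hqM hx).symm)
    (heckeU_comm_opF (fun ℓ h => ⟨(hP ℓ h).1, (hP ℓ h).2.1⟩) hQ hr hrM) hx

theorem heckeT_mem_high (hq : q.Prime) (hqM : ¬ q ∣ M)
    (hP : ∀ ℓ ∈ P, ℓ.Prime ∧ ¬ ℓ ∣ M ∧ ℓ ≠ q)
    (hQ : ∀ r ∈ Q, r.Prime ∧ r ∣ M) {ℓ : ℕ} (hℓ : ℓ.Prime) (hℓM : ¬ ℓ ∣ M) (hℓq : ℓ ≠ q)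
    (x : Pairs 𝒪) (hx : x ∈ highPart M q ε (opF P t Q u) α) :
    heckeT ℓ x ∈ highPart M q ε (opF P t Q u) α := by
  have hℓMq : ¬ ℓ ∣ M * q := fun h => (hℓ.dvd_mul.mp h).elim hℓM
    fun h => hℓq ((Nat.prime_dvd_prime_iff_eq hℓ hq).mp h)
  have hP' : ∀ ℓ ∈ P, ℓ.Prime ∧ ¬ ℓ ∣ M * q := fun ℓ h => ⟨(hP ℓ h).1, fun h' =>
    ((hP ℓ h).1.dvd_mul.mp h').elim (hP ℓ h).2.1
      fun h' => (hP ℓ h).2.2 ((Nat.prime_dvd_prime_iff_eq (hP ℓ h).1 hq).mp h')⟩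
  exact highPart_stable hq (good_opF hq hqM hP hQ) (heckeT ℓ)
    (fun _ hx => heckeT_mem_sgnMS hℓ hℓMq hx)
    (fun x hx => (good_heckeT hq hqM hℓ hℓM hℓq).uq x hx)
    (heckeT_comm_opF hP' (fun r h => ⟨(hQ r h).1, (hQ r h).2.mul_right q⟩) hℓ hℓMq) hx

theorem heckeU_mem_high (hq : q.Prime) (hqM : ¬ q ∣ M)
    (hP : ∀ ℓ ∈ P, ℓ.Prime ∧ ¬ ℓ ∣ M ∧ ℓ ≠ q)
    (hQ : ∀ r ∈ Q, r.Prime ∧ r ∣ M) {r : ℕ} (hr : r.Prime) (hrM : r ∣ M * q)
    (x : Pairs 𝒪) (hx : x ∈ highPart M q ε (opF P t Q u) α) :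
    heckeU r x ∈ highPart M q ε (opF P t Q u) α := by
  have hP' : ∀ ℓ ∈ P, ℓ.Prime ∧ ¬ ℓ ∣ M * q := fun ℓ h => ⟨(hP ℓ h).1, fun h' =>
    ((hP ℓ h).1.dvd_mul.mp h').elim (hP ℓ h).2.1
      fun h' => (hP ℓ h).2.2 ((Nat.prime_dvd_prime_iff_eq (hP ℓ h).1 hq).mp h')⟩
  exact highPart_stable hq (good_opF hq hqM hP hQ) (heckeU r)
    (fun _ hx => heckeU_mem_sgnMS hr hrM hx)
    (fun x _ => heckeU_comm r q hr.ne_zero hq.ne_zero x)
    (heckeU_comm_opF hP' (fun r h => ⟨(hQ r h).1, (hQ r h).2.mul_right q⟩) hr hrM) hx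

variable [IsDomain 𝒪] [IsDiscreteValuationRing 𝒪] [IsAdicComplete (maximalIdeal 𝒪) 𝒪]

/-- **(C2), concrete form.** -/
theorem exists_control_hecke (hq : q.Prime) (hqM : ¬ q ∣ M)
    (hP : ∀ ℓ ∈ P, ℓ.Prime ∧ ¬ ℓ ∣ M ∧ ℓ ≠ q) (hQ : ∀ r ∈ Q, r.Prime ∧ r ∣ M)
    (hα : IsUnit α) (hαq : α ^ 2 - tq * α + q ∈ maximalIdeal 𝒪) (hα2 : IsUnit (2 * α - tq))
    (hTW : IsUnit (tq ^ 2 - ((q : 𝒪) + 1) ^ 2))
    (hnew : part (newMS M q 𝒪 ⊓ sgnMS 𝒪 ε (Gamma0 (M * q)))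
      (insert (heckeU q - algebraMap 𝒪 (Module.End 𝒪 (Pairs 𝒪)) α) (opF P t Q u)) = ⊥) :
    ∃ e : lowPart M q ε (opF P t Q u) tq ≃ₗ[𝒪] highPart M q ε (opF P t Q u) α,
      (∀ (ℓ : ℕ) (hℓ : ℓ.Prime) (hℓM : ¬ ℓ ∣ M), ℓ ≠ q → ∀ x : lowPart M q ε (opF P t Q u) tq,
        (e ⟨heckeT ℓ (x : Pairs 𝒪), heckeT_mem_low (t := t) (u := u) (ε := ε) (tq := tq) hq hqM
          hP hQ hℓ hℓM (x : Pairs 𝒪) x.2⟩ : Pairs 𝒪) = heckeT ℓ (e x)) ∧
      (∀ (r : ℕ) (hr : r.Prime) (hrM : r ∣ M), ∀ x : lowPart M q ε (opF P t Q u) tq,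
        (e ⟨heckeU r (x : Pairs 𝒪), heckeU_mem_low (t := t) (u := u) (ε := ε) (tq := tq) hq hqM
          hP hQ hr hrM (x : Pairs 𝒪) x.2⟩ : Pairs 𝒪) = heckeU r (e x)) := by
  obtain ⟨T, A, e, -, -, -, -, -, -, h⟩ :=
    exists_control hq hqM (good_opF hq hqM hP hQ) hα hαq hα2 hTW hnew
  exact ⟨e, fun ℓ hℓ hℓM hℓq x => h (heckeT ℓ) (good_heckeT hq hqM hℓ hℓM hℓq)
    (fun x hx => heckeT_mem_low hq hqM hP hQ hℓ hℓM x hx) x _ rfl,
    fun r hr hrM x => h (heckeU r) (good_heckeU hq hqM hr hrM)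
    (fun x hx => heckeU_mem_low hq hqM hP hQ hr hrM x hx) x _ rfl⟩

end Concrete

end Fermat.Agent.RT.Control
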