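import Fermat.Agent.RT.Num.Vec
import Fermat.Agent.RT.Num.Gen

/-!
# Descent of eigensymbols to `𝒪` (team RT, helper28)

`exists_prim_descent`: `y ≠ 0` a modular symbol with values in a field `K ⊇ 𝒪`. There is a primitive
modular symbol `x` with values in `𝒪` which satisfies all relations
`heckeT ℓ x = c x`, `heckeU r x = c x`, `x | g = c x` (`c ∈ 𝒪`) satisfied by `y`.
-/

set_option autoImplicit false
set_option linter.unusedSectionVars false

open Matrix Matrix.SpecialLinearGroup CongruenceSubgroup IsLocalRing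
open scoped MatrixGroups OnePoint

noncomputable section

namespace Fermat.Agent.RT.Descent

open Fermat.Agent.LR Fermat.Agent.LR.PS Fermat.Agent.RT Fermat.Agent.RT.Num

variable {𝒪 : Type*} [CommRing 𝒪] [IsDomain 𝒪] [IsDiscreteValuationRing 𝒪] {K : Type*} [Field K]

theorem exists_prim_descent {j : 𝒪 →+* K} (hj : Function.Injective j) {Γ : Subgroup SL(2, ℤ)}
    [Γ.FiniteIndex] {y : Pairs K} (hy : y ∈ MS Γ K) (hy0 : y ≠ 0) :
    ∃ x : Pairs 𝒪, x ∈ MS Γ 𝒪 ∧ Prim x ∧
      (∀ (g : GL (Fin 2) ℚ) (c : 𝒪), slash g y = j c • y → slash g x = c • x) ∧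
      (∀ (ℓ : ℕ) (c : 𝒪), heckeT ℓ y = j c • y → heckeT ℓ x = c • x) ∧
      ∀ (ℓ : ℕ) (c : 𝒪), heckeU ℓ y = j c • y → heckeU ℓ x = c • x := by
  have hfin := finite_quotient_of_index (Γ := Γ)
  letI : Algebra 𝒪 K := j.toAlgebra
  have hsm : ∀ (c : 𝒪) (z : K), c • z = j c * z := fun c z => rfl
  have htf : Module.IsTorsionFree 𝒪 K := by
    rw [Module.isTorsionFree_iff_algebraMap_injective]
    exact hj
  set L : Submodule 𝒪 K := Submodule.span 𝒪 (Set.range (manin Γ y)) with hL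
  have hmem : ∀ s t, y s t ∈ L := fun s t => by
    refine values_mem L.toAddSubgroup hy.1 (fun g => ?_) s t
    refine Submodule.subset_span ⟨((g⁻¹ : SL(2, ℤ)) : SL(2, ℤ) ⧸ Γ), ?_⟩
    rw [manin_mk hy, inv_inv]
  have hfinL : Module.Finite 𝒪 L := Module.Finite.span_of_finite 𝒪 (Set.finite_range _)
  have hfree : Module.Free 𝒪 L := Module.free_of_finite_type_torsion_free'
  let b := Module.finBasis 𝒪 L
  obtain ⟨i₀⟩ : Nonempty (Fin (Module.finrank 𝒪 L)) := by
    by_contra hemp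
    rw [not_nonempty_iff] at hemp
    apply hy0
    funext s t
    have h1 : (⟨y s t, hmem s t⟩ : L) = 0 := by
      rw [← b.sum_repr ⟨y s t, hmem s t⟩]
      exact Finset.sum_of_isEmpty _
    exact congrArg Subtype.val h1
  let φ : L →ₗ[𝒪] 𝒪 := b.coord i₀
  let Y : Cusp → Cusp → L := fun s t => ⟨y s t, hmem s t⟩
  let x : Pairs 𝒪 := fun s t => φ (Y s t)
  have hslash : ∀ (g : GL (Fin 2) ℚ) s t, slash g x s t = φ (Y (g • s) (g • t)) :=
    fun g s t => rfl
  refine ⟨x, ⟨fun s t u => ?_, fun γ hγ => ?_⟩, ?_, fun g c h => ?_, fun ℓ c h => ?_,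
    fun ℓ c h => ?_⟩
  · change φ _ + φ _ = φ _
    rw [← map_add]
    congr 1
    exact Subtype.ext (hy.1 s t u)
  · funext s t
    rw [hslash]
    have := congrFun (congrFun (hy.2 γ hγ) s) t
    exact congrArg φ (Subtype.ext this)
  · intro c hc z hz
    have h1 : ∀ v ∈ L, ∀ hv : v ∈ L, φ ⟨v, hv⟩ ∈ maximalIdeal 𝒪 := by
      intro v hv
      rw [hL] at hv
      induction hv using Submodule.span_induction with
      | mem v hv =>
        intro hv'
        obtain ⟨q, rfl⟩ := hv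
        have h2 : φ ⟨manin Γ y q, hv'⟩ = x (toQ q.out⁻¹ • ∞) (toQ q.out⁻¹ • ((0 : ℚ) : Cusp)) := rfl
        rw [h2, hz]
        exact Ideal.mul_mem_right _ _ hc
      | zero =>
        intro hv'
        have : (⟨0, hv'⟩ : L) = 0 := rfl
        rw [this, map_zero]
        exact Ideal.zero_mem _
      | add v w hv hw h1 h2 =>
        intro hv'
        have : (⟨v + w, hv'⟩ : L) = ⟨v, hv⟩ + ⟨w, hw⟩ := rfl
        rw [this, map_add]
        exact Ideal.add_mem _ (h1 hv) (h2 hw)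
      | smul c v hv h1 =>
        intro hv'
        have : (⟨c • v, hv'⟩ : L) = c • ⟨v, hv⟩ := rfl
        rw [this, map_smul]
        exact Ideal.mul_mem_left _ _ (h1 hv)
    have h2 := h1 (b i₀ : K) (b i₀).2 (b i₀).2
    have h3 : φ (b i₀) = 1 := by
      change b.coord i₀ (b i₀) = 1
      rw [Module.Basis.coord_apply, Module.Basis.repr_self, Finsupp.single_eq_same]
    rw [Subtype.coe_eta, h3] at h2
    exact (Ideal.ne_top_iff_one _).mp (maximalIdeal.isMaximal 𝒪).ne_top h2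
  · funext s t
    rw [hslash]
    have h1 := congrFun (congrFun h s) t
    have h2 : Y (g • s) (g • t) = c • Y s t := Subtype.ext h1
    rw [h2, map_smul]
    rfl
  · funext s t
    have h1 := congrFun (congrFun h s) t
    rw [heckeT_apply, heckeU_apply, degen_apply] at h1 ⊢
    have h2 : (∑ i ∈ Finset.range ℓ, Y (heckeMat ℓ i • s) (heckeMat ℓ i • t)) +
        Y (diagMat ℓ • s) (diagMat ℓ • t) = c • Y s t := by
      apply Subtype.ext
      rw [Submodule.coe_add, Submodule.coe_sum]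
      simp only [Pi.add_apply, Finset.sum_apply] at h1
      exact h1
    have h3 := congrArg φ h2
    rw [map_add, map_sum, map_smul] at h3
    simp only [Pi.add_apply, Finset.sum_apply, hslash]
    exact h3
  · funext s t
    have h1 := congrFun (congrFun h s) t
    rw [heckeU_apply] at h1 ⊢
    have h2 : (∑ i ∈ Finset.range ℓ, Y (heckeMat ℓ i • s) (heckeMat ℓ i • t)) = c • Y s t := by
      apply Subtype.ext
      rw [Submodule.coe_sum]
      simp only [Finset.sum_apply] at h1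
      exact h1
    have h3 := congrArg φ h2
    rw [map_sum, map_smul] at h3
    simp only [Finset.sum_apply, hslash]
    exact h3

/-- **Descent of eigensymbols.** -/
theorem exists_prim_of_CEig {j : 𝒪 →+* K} (hj : Function.Injective j) {a : ℕ → 𝒪} {S : Set ℕ}
    {M : ℕ} (hM : M ≠ 0) {ε : ℤ} {y : Pairs K} (hy : y ∈ CEig j a S M ε) (hy0 : y ≠ 0) :
    ∃ x : Pairs 𝒪, x ∈ sgnMS 𝒪 ε (Gamma0 M) ∧ Prim x ∧
      (∀ ℓ : ℕ, ℓ.Prime → ℓ ∉ S → heckeT ℓ x = a ℓ • x) ∧
      (∀ (ℓ : ℕ) (c : 𝒪), heckeT ℓ y = j c • y → heckeT ℓ x = c • x) ∧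
      ∀ (ℓ : ℕ) (c : 𝒪), heckeU ℓ y = j c • y → heckeU ℓ x = c • x := by
  have : NeZero M := ⟨hM⟩
  obtain ⟨x, h1, h2, h3, h4, h5⟩ := exists_prim_descent hj (CEig.mem_MS hy) hy0
  refine ⟨x, mem_sgnMS.mpr ⟨h1, h3 jMat (ε : 𝒪) ?_⟩, h2, fun ℓ hℓ hℓS => h4 ℓ _ ?_, h4, h5⟩
  · rw [CEig.sgn hy, map_intCast]
  · exact (mem_CEig.mp hy).2 ℓ hℓ hℓS

end Fermat.Agent.RT.Descent
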