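import Fermat.Agent.RT.Loc

/-!
# Localisation of finite saturated submodules (team RT, helper59)

Transport of `RT/Loc.lean` to `part H F` for a finite saturated submodule `H` of a torsion-free
(possibly infinite) module `X` (in the application `X = Pairs 𝒪`).
-/

set_option autoImplicit false
set_option linter.unusedSectionVars false

open IsLocalRing

noncomputable section

namespace Fermat.Agent.RT.Loc

open Fermat.Agent.RT

section basic

variable {𝒪 : Type*} [CommRing 𝒪] {X : Type*} [AddCommGroup X] [Module 𝒪 X]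

/-- `H` is saturated: `c x ∈ H ⟹ x ∈ H` for `c ≠ 0`. -/
def Saturated (H : Submodule 𝒪 X) : Prop := ∀ c : 𝒪, c ≠ 0 → ∀ x, c • x ∈ H → x ∈ H

theorem Saturated.inf {H H' : Submodule 𝒪 X} (h : Saturated H) (h' : Saturated H') :
    Saturated (H ⊓ H') := fun c hc x hx => ⟨h c hc x hx.1, h' c hc x hx.2⟩

theorem saturated_ker {Y : Type*} [AddCommGroup Y] [Module 𝒪 Y] (f : X →ₗ[𝒪] Y)
    (hY : ∀ (c : 𝒪) (y : Y), c ≠ 0 → c • y = 0 → y = 0) : Saturated (LinearMap.ker f) := by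
  intro c hc x hx
  rw [LinearMap.mem_ker] at hx ⊢
  rw [map_smul] at hx
  exact hY c _ hc hx

theorem saturated_nilSub [NoZeroDivisors 𝒪]
    (hX : ∀ (c : 𝒪) (y : X), c ≠ 0 → c • y = 0 → y = 0) (T : Module.End 𝒪 X) :
    Saturated (nilSub T) := by
  intro c hc x hx d hd
  obtain ⟨n, z, hz⟩ := hx (c * d) (mul_ne_zero hc hd)
  refine ⟨n, z, ?_⟩
  rw [map_smul, mul_smul] at hz
  have h2 : c • ((T ^ n) x - d • z) = 0 := by rw [smul_sub, hz, sub_self]
  exact sub_eq_zero.mp (hX c _ hc h2)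

theorem saturated_part [NoZeroDivisors 𝒪]
    (hX : ∀ (c : 𝒪) (y : X), c ≠ 0 → c • y = 0 → y = 0) {H : Submodule 𝒪 X} (hH : Saturated H)
    (F : Set (Module.End 𝒪 X)) : Saturated (part H F) := by
  intro c hc x hx
  rw [mem_part] at hx ⊢
  exact ⟨hH c hc x hx.1, fun T hT => saturated_nilSub hX T c hc x (hx.2 T hT)⟩

/-- Restriction of a family to a stable submodule. -/
def rfam {ι : Type*} {H : Submodule 𝒪 X} {t : ι → Module.End 𝒪 X} (ht : ∀ i, ∀ x ∈ H, t i x ∈ H)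
    (i : ι) : Module.End 𝒪 H := (t i).restrict (ht i)

@[simp] theorem rfam_coe {ι : Type*} {H : Submodule 𝒪 X} {t : ι → Module.End 𝒪 X}
    (ht : ∀ i, ∀ x ∈ H, t i x ∈ H) (i : ι) (x : H) : (rfam ht i x : X) = t i x := rfl

theorem restrict_pow_coe {H : Submodule 𝒪 X} {T : Module.End 𝒪 X} (hT : ∀ x ∈ H, T x ∈ H)
    (n : ℕ) (x : H) : (((T.restrict hT) ^ n) x : X) = (T ^ n) x := by
  induction n with
  | zero => rfl
  | succ n ih =>
    rw [pow_succ', Module.End.mul_apply, pow_succ', Module.End.mul_apply, ← ih]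
    rfl

theorem mem_nilSub_restrict {H : Submodule 𝒪 X} (hH : Saturated H) {T : Module.End 𝒪 X}
    (hT : ∀ x ∈ H, T x ∈ H) {x : H} : x ∈ nilSub (T.restrict hT) ↔ (x : X) ∈ nilSub T := by
  constructor
  · intro h c hc
    obtain ⟨n, z, hz⟩ := h c hc
    exact ⟨n, z, by rw [← restrict_pow_coe hT, hz]; rfl⟩
  · intro h c hc
    obtain ⟨n, z, hz⟩ := h c hc
    rw [← restrict_pow_coe hT] at hz
    have hzH : z ∈ H := hH c hc z (by rw [← hz]; exact Subtype.mem _)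
    exact ⟨n, ⟨z, hzH⟩, Subtype.ext hz⟩

end basic

section proj

variable {𝒪 : Type*} [CommRing 𝒪] [IsDomain 𝒪] [IsDiscreteValuationRing 𝒪]
  [IsAdicComplete (maximalIdeal 𝒪) 𝒪] [Finite (ResidueField 𝒪)]
variable {X : Type*} [AddCommGroup X] [Module 𝒪 X] {X' : Type*} [AddCommGroup X'] [Module 𝒪 X']
variable {ι : Type*}

theorem mem_npart_rfam {H : Submodule 𝒪 X} [Module.Finite 𝒪 H] (hH : Saturated H)
    {t : ι → Module.End 𝒪 X} (ht : ∀ i, ∀ x ∈ H, t i x ∈ H) {x : H} :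
    x ∈ npart (rfam ht) ↔ (x : X) ∈ part H (Set.range t) := by
  rw [mem_npart, mem_part]
  constructor
  · intro h
    refine ⟨x.2, ?_⟩
    rintro T ⟨i, rfl⟩
    exact (mem_nilSub_restrict hH (ht i)).mp (h i)
  · intro h i
    exact (mem_nilSub_restrict hH (ht i)).mpr (h.2 _ ⟨i, rfl⟩)

/-- **Projectors for `part H F`.** -/
theorem exists_projector (H : Submodule 𝒪 X) [Module.Finite 𝒪 H] (hH : Saturated H)
    (t : ι → Module.End 𝒪 X) (ht : ∀ i, ∀ x ∈ H, t i x ∈ H)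
    (hc : ∀ i j, ∀ x ∈ H, t i (t j x) = t j (t i x)) :
    ∃ P : Module.End 𝒪 H, (∀ x, (P x : X) ∈ part H (Set.range t)) ∧
      (∀ x : H, (x : X) ∈ part H (Set.range t) → P x = x) ∧
      ∀ s : Module.End 𝒪 H, (∀ i (x : H), (s ⟨t i x, ht i _ x.2⟩ : X) = t i (s x)) →
        ∀ x, P (s x) = s (P x) := by
  obtain ⟨P, hP⟩ := exists_isProj (rfam ht) (fun i j x => Subtype.ext (hc i j x x.2))
  exact ⟨P, fun x => (mem_npart_rfam hH ht).mp (hP.mem x),
    fun x hx => hP.eq x ((mem_npart_rfam hH ht).mpr hx),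
    fun s hs => hP.comm s fun i x => Subtype.ext (hs i x)⟩

/-- A surjection `H → H'` compatible with the families is surjective on parts. -/
theorem exists_part_of_surjective {H : Submodule 𝒪 X} {H' : Submodule 𝒪 X'}
    [Module.Finite 𝒪 H] [Module.Finite 𝒪 H'] (hH : Saturated H) (hH' : Saturated H')
    {t : ι → Module.End 𝒪 X} {t' : ι → Module.End 𝒪 X'}
    (ht : ∀ i, ∀ x ∈ H, t i x ∈ H) (ht' : ∀ i, ∀ x ∈ H', t' i x ∈ H')
    (hc : ∀ i j, ∀ x ∈ H, t i (t j x) = t j (t i x))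
    (hc' : ∀ i j, ∀ x ∈ H', t' i (t' j x) = t' j (t' i x))
    (f : X →ₗ[𝒪] X') (hf : ∀ x ∈ H, f x ∈ H') (hft : ∀ i, ∀ x ∈ H, f (t i x) = t' i (f x))
    (hsurj : ∀ y ∈ H', ∃ x ∈ H, f x = y) {y : X'} (hy : y ∈ part H' (Set.range t')) :
    ∃ x ∈ part H (Set.range t), f x = y := by
  obtain ⟨x, hx, hxy⟩ := exists_npart_of_surjective (t := rfam ht) (t' := rfam ht')
    (fun i j x => Subtype.ext (hc i j x x.2)) (fun i j x => Subtype.ext (hc' i j x x.2))
    (f := f.restrict hf) (fun i x => Subtype.ext (hft i x x.2))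
    (fun y => by
      obtain ⟨x, hx, hxy⟩ := hsurj y y.2
      exact ⟨⟨x, hx⟩, Subtype.ext hxy⟩)
    (y := ⟨y, part_le hy⟩) ((mem_npart_rfam hH' ht').mpr hy)
  exact ⟨x, (mem_npart_rfam hH ht).mp hx, congrArg Subtype.val hxy⟩

/-- maps compatible with the families preserve parts -/
theorem map_mem_part {H : Submodule 𝒪 X} {H' : Submodule 𝒪 X'} [Module.Finite 𝒪 H]
    [Module.Finite 𝒪 H'] (hH : Saturated H) (hH' : Saturated H')
    {t : ι → Module.End 𝒪 X} {t' : ι → Module.End 𝒪 X'}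
    (ht : ∀ i, ∀ x ∈ H, t i x ∈ H) (ht' : ∀ i, ∀ x ∈ H', t' i x ∈ H')
    (f : X →ₗ[𝒪] X') (hf : ∀ x ∈ H, f x ∈ H') (hft : ∀ i, ∀ x ∈ H, f (t i x) = t' i (f x))
    {x : X} (hx : x ∈ part H (Set.range t)) : f x ∈ part H' (Set.range t') := by
  have h1 : (⟨x, part_le hx⟩ : H) ∈ npart (rfam ht) := (mem_npart_rfam hH ht).mpr hx
  refine (mem_npart_rfam (x := ⟨f x, hf x (part_le hx)⟩) hH' ht').mp (mem_npart.mpr fun i => ?_)
  exact map_mem_nilSub (T := rfam ht i) (T' := rfam ht' i) (f := f.restrict hf)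
    (fun x => Subtype.ext (hft i x x.2)) (mem_npart.mp h1 i)

theorem mem_part_of_comm {H : Submodule 𝒪 X} [Module.Finite 𝒪 H] (hH : Saturated H)
    {t : ι → Module.End 𝒪 X} (ht : ∀ i, ∀ x ∈ H, t i x ∈ H) (s : Module.End 𝒪 X)
    (hs : ∀ x ∈ H, s x ∈ H) (hst : ∀ i, ∀ x ∈ H, s (t i x) = t i (s x))
    {x : X} (hx : x ∈ part H (Set.range t)) : s x ∈ part H (Set.range t) :=
  map_mem_part hH hH ht ht s hs hst hx

end proj

end Fermat.Agent.RT.Loc
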