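import Fermat.Agent.Newform.OldSpan
import Fermat.Agent.LR.BoundaryEis
import Fermat.Agent.LR.Level
import Fermat.Agent.S21
import Fermat.Agent.RT.Defs

/-!
# Hecke eigenspaces of modular symbols over `ℂ` (RT-PT, PT4 and PT5)

`g` is a newform of level `N` (prelude `IsNewform`), `c = qCoeff g`.

* `eigMS M S c`: the symbols of level `M` with `T_ℓ y = c_ℓ y` for all primes `ℓ ∉ S`.
* `eigMS_eq_bot`: it vanishes if `N ∤ M`.
* `exists_of_mem_eigMS`: the `q`-step.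
* `exists_of_mem_eigMS_level`, `exists_smul_of_mem_sgn`: level `N`, multiplicity one.
* `exists_iQ`, `exists_iP`: the spaces `U_q = 0` in level `M q²` and `U_p = α` in level `M p`.
-/

set_option autoImplicit false

noncomputable section

open UpperHalfPlane CongruenceSubgroup Matrix Matrix.SpecialLinearGroup ModularFormClass
open scoped MatrixGroups ModularForm OnePoint

namespace Fermat.Agent.RT.Point

open Fermat.Agent.LR Fermat.Agent.LR.PS Fermat.Agent.Newform Fermat.Agent.ES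

section perSym

variable {M N : ℕ} [NeZero M] [NeZero N]

theorem perSym_of_coe_eq {f : CuspForm (Gamma0 M) 2} {F : CuspForm (Gamma0 N) 2}
    (h : (⇑F : ℍ → ℂ) = ⇑f) : perSym N F = perSym M f := by
  funext a b
  rw [perSym_eq_of_isPrim F (F := prim M f) (by rw [h]; exact prim_isPrim f) (cuspVal_spec f) a b,
    perSym_apply]

theorem perSym_of_coe_eq_diag {q : ℕ} (hq : q ≠ 0) {f : CuspForm (Gamma0 M) 2}
    {F : CuspForm (Gamma0 N) 2}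
    (h : (⇑F : ℍ → ℂ) = ⇑f ∣[(2 : ℤ)] ModularForm.heckeDiagMatrix q) :
    perSym N F = degen q (perSym M f) := by
  have h1 : IsPrim (fun τ => prim M f (ModularForm.heckeDiagMatrix q • τ)) ⇑F := by
    rw [h]
    exact IsPrim_comp_smul_of_det_pos (prim_isPrim f) _ (ModularForm.det_heckeDiagMatrix_pos q)
  have h2 : HasCuspValues (fun τ => prim M f (ModularForm.heckeDiagMatrix q • τ))
      (fun c => cuspVal M f (diagMat q • c)) := by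
    have := (cuspVal_spec f).comp_smul (diagMat q)
    rwa [toR_diagMat hq] at this
  funext a b
  rw [perSym_eq_of_isPrim _ h1 h2, degen_apply, slash_apply, perSym_apply]

theorem heckeT_perSym_of_eig {S : Set ℕ} {c : ℕ → ℂ} {u : CuspForm (Gamma0 M) 2}
    (hu : Eig 2 S c ⇑u) {ℓ : ℕ} (hℓ : ℓ.Prime) (hℓM : ¬ ℓ ∣ M) (hℓS : ℓ ∉ S) :
    heckeT ℓ (perSym M u) = c ℓ • perSym M u := by
  have h : CuspForm.heckeTLin 2 hℓ hℓM u = c ℓ • u := DFunLike.coe_injective (hu ℓ hℓ hℓS)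
  rw [← perSym_heckeT hℓ hℓM, h, map_smul]

/-- uniqueness of the decomposition -/
theorem eq_of_decomp_eq {u v u' v' : CuspForm (Gamma0 M) 2}
    (h : perSym M u + slash jMat (perSym M v) = perSym M u' + slash jMat (perSym M v')) :
    u = u' ∧ v = v' := by
  have h0 : perSym M (u - u') + slash jMat (perSym M (v - v')) = 0 := by
    rw [map_sub, map_sub, map_sub, sub_add_sub_comm, h, sub_self]
  have h1 := eq_zero_of_isBoundary (N := M) (u - u') (v - v') (by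
    rw [h0]
    exact ⟨0, fun _ _ _ => rfl, fun a b => by simp⟩)
  exact ⟨sub_eq_zero.1 h1.1, sub_eq_zero.1 h1.2⟩

end perSym

/-! ### Eigenspaces of symbols -/

/-- The symbols of level `M` with `T_ℓ y = c_ℓ y` for all primes `ℓ ∉ S`. -/
def eigMS (M : ℕ) (S : Set ℕ) (c : ℕ → ℂ) : Submodule ℂ (Pairs ℂ) where
  carrier := {y | y ∈ MS (Gamma0 M) ℂ ∧ ∀ ℓ : ℕ, ℓ.Prime → ℓ ∉ S → heckeT ℓ y = c ℓ • y}
  add_mem' hx hy := ⟨Submodule.add_mem _ hx.1 hy.1, fun ℓ hℓ hS => by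
    rw [map_add, hx.2 ℓ hℓ hS, hy.2 ℓ hℓ hS, smul_add]⟩
  zero_mem' := ⟨Submodule.zero_mem _, fun ℓ _ _ => by rw [map_zero, smul_zero]⟩
  smul_mem' a _ hx := ⟨Submodule.smul_mem _ a hx.1, fun ℓ hℓ hS => by
    rw [map_smul, hx.2 ℓ hℓ hS, smul_comm]⟩

theorem mem_eigMS {M : ℕ} {S : Set ℕ} {c : ℕ → ℂ} {y : Pairs ℂ} :
    y ∈ eigMS M S c ↔ y ∈ MS (Gamma0 M) ℂ ∧ ∀ ℓ : ℕ, ℓ.Prime → ℓ ∉ S → heckeT ℓ y = c ℓ • y :=
  Iff.rfl

theorem eigMS_mono {M M' : ℕ} {S S' : Set ℕ} {c : ℕ → ℂ} (hM : M ∣ M')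
    (hS : ∀ p : ℕ, p.Prime → p ∈ S → p ∈ S') : eigMS M S c ≤ eigMS M' S' c :=
  fun _ hy => ⟨MS_mono (Gamma0_mono hM) hy.1, fun ℓ hℓ h => hy.2 ℓ hℓ fun h' => h (hS ℓ hℓ h')⟩

theorem eigMS_congr {M : ℕ} {S : Set ℕ} {c c' : ℕ → ℂ}
    (h : ∀ ℓ : ℕ, ℓ.Prime → ℓ ∉ S → c ℓ = c' ℓ) : eigMS M S c = eigMS M S c' := by
  ext y
  constructor
  · exact fun hy => ⟨hy.1, fun ℓ hℓ hS => by rw [hy.2 ℓ hℓ hS, h ℓ hℓ hS]⟩
  · exact fun hy => ⟨hy.1, fun ℓ hℓ hS => by rw [hy.2 ℓ hℓ hS, h ℓ hℓ hS]⟩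

theorem slash_jMat_mem_eigMS {M : ℕ} {S : Set ℕ} {c : ℕ → ℂ} {y : Pairs ℂ}
    (hy : y ∈ eigMS M S c) : slash jMat y ∈ eigMS M S c :=
  ⟨slash_jMat_mem hy.1, fun ℓ hℓ hS => by
    rw [heckeT_slash_jMat hy.1 hℓ.ne_zero, hy.2 ℓ hℓ hS, map_smul]⟩

theorem degen_mem_eigMS {M q : ℕ} {S : Set ℕ} {c : ℕ → ℂ} {y : Pairs ℂ} (hq : q.Prime)
    (hqS : q ∈ S) (hy : y ∈ eigMS M S c) : degen q y ∈ eigMS (M * q) S c :=
  ⟨degen_mem hq.ne_zero hy.1, fun ℓ hℓ hS => by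
    have hne : q ≠ ℓ := fun h => hS (h ▸ hqS)
    rw [heckeT_degen hℓ.ne_zero hq.ne_zero ((Nat.coprime_primes hq hℓ).2 hne) (TInv_of_mem hy.1),
      hy.2 ℓ hℓ hS, map_smul]⟩

/-- A prime `ℓ ≡ 1 mod M` showing that the system `c` is not Eisenstein. -/
def NonEis (M : ℕ) (S : Set ℕ) (c : ℕ → ℂ) : Prop :=
  ∃ ℓ : ℕ, ℓ.Prime ∧ ℓ ∉ S ∧ ((ℓ : ℕ) : ZMod M) = 1 ∧ c ℓ ≠ (ℓ : ℂ) + 1

theorem NonEis.mono {M M' : ℕ} {S S' : Set ℕ} {c : ℕ → ℂ} (h : NonEis M' S' c) (hM : M ∣ M')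
    (hS : ∀ p : ℕ, p.Prime → p ∈ S → p ∈ S') : NonEis M S c := by
  obtain ⟨ℓ, hℓ, hℓS, h1, h2⟩ := h
  refine ⟨ℓ, hℓ, fun h' => hℓS (hS ℓ hℓ h'), ?_, h2⟩
  have := congrArg (ZMod.castHom hM (ZMod M)) h1
  rwa [map_natCast, map_one] at this

section decomp

variable {M : ℕ} [NeZero M] {S : Set ℕ} {c : ℕ → ℂ}

/-- Eichler–Shimura for eigensymbols. -/
theorem exists_decomp_eig (hbad : ∀ p : ℕ, p.Prime → p ∣ M → p ∈ S) (hne : NonEis M S c)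
    {y : Pairs ℂ} (hy : y ∈ eigMS M S c) :
    ∃ u v : CuspForm (Gamma0 M) 2, y = perSym M u + slash jMat (perSym M v) ∧
      Eig 2 S c ⇑u ∧ Eig 2 S c ⇑v := by
  obtain ⟨u, v, huv⟩ := exists_decomp (S21.result M).2 hy.1
  set b := y - (perSym M u + slash jMat (perSym M v)) with hb
  have key : ∀ ℓ : ℕ, ∀ hℓ : ℓ.Prime, ℓ ∉ S → ∀ hℓM : ¬ ℓ ∣ M,
      CuspForm.heckeTLin 2 hℓ hℓM u = c ℓ • u ∧ CuspForm.heckeTLin 2 hℓ hℓM v = c ℓ • v ∧
        heckeT ℓ b = c ℓ • b := by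
    intro ℓ hℓ hℓS hℓM
    have e1 : heckeT ℓ b - c ℓ • b = -(perSym M (CuspForm.heckeTLin 2 hℓ hℓM u - c ℓ • u) +
        slash jMat (perSym M (CuspForm.heckeTLin 2 hℓ hℓM v - c ℓ • v))) := by
      have e2 := hy.2 ℓ hℓ hℓS
      rw [hb, map_sub, e2, map_add, heckeT_slash_jMat (perSym_mem v) hℓ.ne_zero,
        ← perSym_heckeT hℓ hℓM, ← perSym_heckeT hℓ hℓM]
      simp only [map_sub, map_smul, smul_sub, smul_add]
      abel
    have hbd : IsBoundary (Gamma0 M) (perSym M (CuspForm.heckeTLin 2 hℓ hℓM u - c ℓ • u) +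
        slash jMat (perSym M (CuspForm.heckeTLin 2 hℓ hℓM v - c ℓ • v))) := by
      have h1 := IsBoundary.smul (-1 : ℂ) ((huv.heckeT hℓ hℓM).sub (huv.smul (c ℓ)))
      rw [e1, neg_one_smul, neg_neg] at h1
      exact h1
    obtain ⟨h1, h2⟩ := eq_zero_of_isBoundary _ _ hbd
    refine ⟨sub_eq_zero.1 h1, sub_eq_zero.1 h2, ?_⟩
    rw [h1, h2, map_zero, map_zero, add_zero, neg_zero] at e1
    exact sub_eq_zero.1 e1
  have hb0 : b = 0 := by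
    obtain ⟨ℓ, hℓ, hℓS, h1, h2⟩ := hne
    have hℓM : ¬ ℓ ∣ M := fun h => hℓS (hbad ℓ hℓ h)
    by_contra hb0
    exact not_isBoundary_of_eigenvalue hℓ h1 hb0 (key ℓ hℓ hℓS hℓM).2.2 h2 huv
  refine ⟨u, v, sub_eq_zero.1 hb0, fun ℓ hℓ hℓS => ?_, fun ℓ hℓ hℓS => ?_⟩
  · have hℓM : ¬ ℓ ∣ M := fun h => hℓS (hbad ℓ hℓ h)
    exact congrArg (fun F : CuspForm (Gamma0 M) 2 => (⇑F : ℍ → ℂ)) (key ℓ hℓ hℓS hℓM).1
  · have hℓM : ¬ ℓ ∣ M := fun h => hℓS (hbad ℓ hℓ h)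
    exact congrArg (fun F : CuspForm (Gamma0 M) 2 => (⇑F : ℍ → ℂ)) (key ℓ hℓ hℓS hℓM).2.1

theorem perSym_mem_eigMS (hbad : ∀ p : ℕ, p.Prime → p ∣ M → p ∈ S) {u : CuspForm (Gamma0 M) 2}
    (hu : Eig 2 S c ⇑u) : perSym M u ∈ eigMS M S c :=
  ⟨perSym_mem u, fun _ hℓ hℓS => heckeT_perSym_of_eig hu hℓ (fun h => hℓS (hbad _ hℓ h)) hℓS⟩

/-- `a + b|V_q = 0` implies `a = b = 0` for eigensymbols `a` of level `M` prime to `q`, `b` of
level `M' ⊇ M`. -/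
theorem eq_zero_of_add_degen {M' : ℕ} [NeZero M'] (hMM' : M ∣ M')
    (hbad : ∀ p : ℕ, p.Prime → p ∣ M' → p ∈ S) (hne : NonEis M' S c)
    {q : ℕ} (hq : q.Prime) (hqM : ¬ q ∣ M) {a b : Pairs ℂ} (ha : a ∈ eigMS M S c)
    (hb : b ∈ eigMS M' S c) (h : a + degen q b = 0) : a = 0 ∧ b = 0 := by
  have hMq : NeZero (M' * q) := ⟨mul_ne_zero (NeZero.ne M') hq.ne_zero⟩
  obtain ⟨u, v, hauv, -, -⟩ := exists_decomp_eig (fun p hp hpM => hbad p hp (hpM.trans hMM'))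
    (hne.mono hMM' fun p _ h => h) ha
  obtain ⟨u', v', hbuv, -, -⟩ := exists_decomp_eig hbad hne hb
  obtain ⟨U, hU⟩ := (isCF_coe u).mono (hMM'.trans (Nat.dvd_mul_right M' q))
  obtain ⟨V, hV⟩ := (isCF_coe v).mono (hMM'.trans (Nat.dvd_mul_right M' q))
  obtain ⟨U', hU'⟩ := (isCF_coe u').diag (N := M' * q) hq.ne_zero dvd_rfl
  obtain ⟨V', hV'⟩ := (isCF_coe v').diag (N := M' * q) hq.ne_zero dvd_rfl
  have e : perSym (M' * q) (U + U') + slash jMat (perSym (M' * q) (V + V')) =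
      perSym (M' * q) 0 + slash jMat (perSym (M' * q) 0) := by
    rw [map_add, map_add, map_add, perSym_of_coe_eq hU, perSym_of_coe_eq hV,
      perSym_of_coe_eq_diag hq.ne_zero hU', perSym_of_coe_eq_diag hq.ne_zero hV', map_zero,
      map_zero, add_zero, ← h, hauv, hbuv, map_add, degen_apply, degen_apply, degen_apply,
      ← slash_mul jMat, jMat_mul_diagMat hq.ne_zero, slash_mul]
    abel
  obtain ⟨h1, h2⟩ := eq_of_decomp_eq e
  have key : ∀ {u : CuspForm (Gamma0 M) 2} {u' : CuspForm (Gamma0 M') 2}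
      {U U' : CuspForm (Gamma0 (M' * q)) 2},
      (⇑U : ℍ → ℂ) = ⇑u → (⇑U' : ℍ → ℂ) = ⇑u' ∣[(2 : ℤ)] ModularForm.heckeDiagMatrix q →
      U + U' = 0 → u = 0 ∧ u' = 0 := by
    intro u u' U U' hU hU' h1
    have h3 : (⇑u : ℍ → ℂ) + ⇑u' ∣[(2 : ℤ)] ModularForm.heckeDiagMatrix q = 0 := by
      rw [← hU, ← hU']
      exact congrArg (fun F : CuspForm (Gamma0 (M' * q)) 2 => (⇑F : ℍ → ℂ)) h1
    have h4 : (⇑u : ℍ → ℂ) = 0 := by
      refine (isCF_coe u).eq_zero_of_supported hq hqM fun n hn => ?_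
      have h5 : qCoeff ((⇑u : ℍ → ℂ) + ⇑u' ∣[(2 : ℤ)] ModularForm.heckeDiagMatrix q) n = 0 := by
        rw [h3]; exact HeckeDuality.qc_zero (N := M) (k := 2) n
      rw [(isCF_coe u).qCoeff_add ((isCF_coe u').diag (N := M' * q) hq.ne_zero dvd_rfl),
        (isCF_coe u').qCoeff_diag hq.ne_zero, if_neg hn, add_zero] at h5
      exact h5
    rw [h4, zero_add] at h3
    refine ⟨DFunLike.coe_injective h4, DFunLike.coe_injective ?_⟩
    refine slash_injective 2 (ModularForm.heckeDiagMatrix q) ?_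
    show (⇑u' : ℍ → ℂ) ∣[(2 : ℤ)] ModularForm.heckeDiagMatrix q =
      (0 : ℍ → ℂ) ∣[(2 : ℤ)] ModularForm.heckeDiagMatrix q
    rw [h3, SlashAction.zero_slash]
  obtain ⟨hu0, hu'0⟩ := key hU hU' h1
  obtain ⟨hv0, hv'0⟩ := key hV hV' h2
  rw [hauv, hbuv, hu0, hv0, hu'0, hv'0]
  simp

end decomp

/-! ### The eigenspace of a newform -/

section newform

variable {N : ℕ} [NeZero N] {g : CuspForm (Gamma0 N) 2}

/-- **PT4 (a).** -/
theorem eigMS_eq_bot (hg : g.IsNewform) {M : ℕ} [NeZero M] {S : Set ℕ} (hS : S.Finite)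
    (hbad : ∀ p : ℕ, p.Prime → p ∣ M → p ∈ S) (hne : NonEis M S (qCoeff ⇑g)) (hNM : ¬ N ∣ M) :
    eigMS M S (qCoeff ⇑g) = ⊥ := by
  rw [eq_bot_iff]
  intro y hy
  obtain ⟨u, v, huv, hu, hv⟩ := exists_decomp_eig hbad hne hy
  have h0 : ∀ u : CuspForm (Gamma0 M) 2, Eig 2 S (qCoeff ⇑g) ⇑u → u = 0 := by
    intro u hu
    have : (⇑u : ℍ → ℂ) ∈ eigSub 2 M S (qCoeff ⇑g) := ⟨isCF_coe u, hu⟩
    rw [eigSub_eq_bot hg hS hNM, Submodule.mem_bot] at this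
    exact DFunLike.coe_injective this
  rw [Submodule.mem_bot, huv, h0 u hu, h0 v hv]
  simp

/-- **PT4 (b), the `q`-step.** -/
theorem exists_of_mem_eigMS (hg : g.IsNewform) {M q : ℕ} [NeZero M] {S : Set ℕ} (hS : S.Finite)
    (hbad : ∀ p : ℕ, p.Prime → p ∣ M → p ∈ S) (hne : NonEis M S (qCoeff ⇑g)) (hq : q.Prime)
    (hqM : q ∣ M) (hNM : N ∣ M / q) {y : Pairs ℂ} (hy : y ∈ eigMS M S (qCoeff ⇑g)) :
    ∃ x ∈ eigMS (M / q) (badSet (M / q)) (qCoeff ⇑g),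
      ∃ x' ∈ eigMS (M / q) (badSet (M / q)) (qCoeff ⇑g), y = x + degen q x' := by
  have hMq : NeZero (M / q) :=
    ⟨(Nat.div_pos (Nat.le_of_dvd (NeZero.pos M) hqM) hq.pos).ne'⟩
  obtain ⟨u, v, huv, hu, hv⟩ := exists_decomp_eig hbad hne hy
  have hbad' : ∀ p : ℕ, p.Prime → p ∣ M / q → p ∈ badSet (M / q) := fun p _ h => h
  have key : ∀ u : CuspForm (Gamma0 M) 2, Eig 2 S (qCoeff ⇑g) ⇑u →
      ∃ x ∈ eigMS (M / q) (badSet (M / q)) (qCoeff ⇑g),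
        ∃ x' ∈ eigMS (M / q) (badSet (M / q)) (qCoeff ⇑g), perSym M u = x + degen q x' := by
    intro u hu
    obtain ⟨x, ⟨⟨X, rfl⟩, hx⟩, x', ⟨⟨X', rfl⟩, hx'⟩, e⟩ :=
      exists_of_mem_eigSub hg hS hq hqM hNM (f := ⇑u) ⟨isCF_coe u, hu⟩
    refine ⟨_, perSym_mem_eigMS hbad' hx, _, perSym_mem_eigMS hbad' hx', ?_⟩
    obtain ⟨Y, hY⟩ := (isCF_coe X).mono (Nat.div_dvd_of_dvd hqM)
    obtain ⟨Y', hY'⟩ := (isCF_coe X').diag (N := M) hq.ne_zero (by rw [Nat.div_mul_cancel hqM])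
    have e2 : u = Y + Y' := by
      refine DFunLike.coe_injective ?_
      show (⇑u : ℍ → ℂ) = ⇑Y + ⇑Y'
      rw [e, hY, hY']
    rw [e2, map_add, perSym_of_coe_eq hY, perSym_of_coe_eq_diag hq.ne_zero hY']
  obtain ⟨x, hx, x', hx', e⟩ := key u hu
  obtain ⟨z, hz, z', hz', e'⟩ := key v hv
  refine ⟨x + slash jMat z, Submodule.add_mem _ hx (slash_jMat_mem_eigMS hz),
    x' + slash jMat z', Submodule.add_mem _ hx' (slash_jMat_mem_eigMS hz'), ?_⟩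
  rw [huv, e, e', map_add, map_add, degen_apply, degen_apply, degen_apply, ← slash_mul (diagMat q),
    ← slash_mul, jMat_mul_diagMat hq.ne_zero]
  abel

/-- The symbol `∫ g + ε ι ∫ g`. -/
def newSym (g : CuspForm (Gamma0 N) 2) (ε : ℤ) : Pairs ℂ :=
  perSym N g + (ε : ℂ) • slash jMat (perSym N g)

theorem slash_jMat_jMat (x : Pairs ℂ) : slash jMat (slash jMat x) = x := by
  rw [← slash_mul]
  have : (jMat * jMat : GL (Fin 2) ℚ) = 1 := by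
    apply Units.ext
    rw [Units.val_mul, val_jMat]
    ext i j; fin_cases i <;> fin_cases j <;> simp
  rw [this, slash_one]

theorem newSym_mem (g : CuspForm (Gamma0 N) 2) {ε : ℤ} (hε : ε * ε = 1) :
    newSym g ε ∈ sgnMS ℂ ε (Gamma0 N) := by
  rw [mem_sgnMS]
  refine ⟨Submodule.add_mem _ (perSym_mem g) (Submodule.smul_mem _ _ (slash_jMat_mem (perSym_mem g))),
    ?_⟩
  rw [newSym, map_add, map_smul, slash_jMat_jMat, smul_add, smul_smul]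
  have : (ε : ℂ) * ε = 1 := by exact_mod_cast hε
  rw [this, one_smul, add_comm]

theorem newSym_ne_zero (hg : g.IsNewform) (ε : ℤ) : newSym g ε ≠ 0 := by
  intro h
  have h1 := eq_of_decomp_eq (M := N) (u := g) (v := (ε : ℂ) • g) (u' := 0) (v' := 0) (by
    rw [map_smul, map_smul, map_zero, map_zero, add_zero]
    exact h)
  have h2 := hg.1.qCoeff_one
  rw [h1.1] at h2
  have h3 : qCoeff (⇑(0 : CuspForm (Gamma0 N) 2) : ℍ → ℂ) 1 = 0 :=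
    HeckeDuality.qc_zero (N := N) (k := 2) 1
  rw [h3] at h2
  exact zero_ne_one h2

theorem newSym_mem_eigMS (hg : g.IsNewform) (ε : ℤ) :
    newSym g ε ∈ eigMS N (badSet N) (qCoeff ⇑g) := by
  have h : perSym N g ∈ eigMS N (badSet N) (qCoeff ⇑g) :=
    perSym_mem_eigMS (fun _ _ h => h) (eig_of_eigenform hg.1)
  exact Submodule.add_mem _ h (Submodule.smul_mem _ _ (slash_jMat_mem_eigMS h))

theorem heckeU_newSym (hg : g.IsNewform) (ε : ℤ) {q : ℕ} (hq : q.Prime) (hqN : q ∣ N) :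
    heckeU q (newSym g ε) = qCoeff ⇑g q • newSym g ε := by
  rw [newSym, map_add, map_smul, heckeU_slash_jMat (perSym_mem g) hq.ne_zero,
    heckeU_perSym_eigenform hg.1 hq hqN, map_smul, smul_add, smul_comm (ε : ℂ)]

/-- **PT4 (c).** Level `N`: the eigenspace is spanned by the two period symbols. -/
theorem exists_of_mem_eigMS_level (hg : g.IsNewform) {S : Set ℕ} (hS : S.Finite)
    (hbad : ∀ p : ℕ, p.Prime → p ∣ N → p ∈ S) (hne : NonEis N S (qCoeff ⇑g)) {y : Pairs ℂ}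
    (hy : y ∈ eigMS N S (qCoeff ⇑g)) :
    ∃ a b : ℂ, y = a • perSym N g + b • slash jMat (perSym N g) := by
  obtain ⟨u, v, huv, hu, hv⟩ := exists_decomp_eig hbad hne hy
  have h0 : ∀ u : CuspForm (Gamma0 N) 2, Eig 2 S (qCoeff ⇑g) ⇑u → ∃ a : ℂ, u = a • g :=
    fun u hu => ⟨qCoeff ⇑u 1, DFunLike.coe_injective (eq_smul_of_eig hg (isCF_coe u) hS hu)⟩
  obtain ⟨a, ha⟩ := h0 u hu
  obtain ⟨b, hb⟩ := h0 v hv
  exact ⟨a, b, by rw [huv, ha, hb, map_smul, map_smul, map_smul]⟩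

/-- **PT4 (c), multiplicity one.** -/
theorem exists_smul_of_mem_sgn (hg : g.IsNewform) {S : Set ℕ} (hS : S.Finite)
    (hbad : ∀ p : ℕ, p.Prime → p ∣ N → p ∈ S) (hne : NonEis N S (qCoeff ⇑g)) {ε : ℤ}
    {y : Pairs ℂ} (hy : y ∈ eigMS N S (qCoeff ⇑g)) (hyε : slash jMat y = (ε : ℂ) • y) :
    ∃ a : ℂ, y = a • newSym g ε := by
  obtain ⟨a, b, hab⟩ := exists_of_mem_eigMS_level hg hS hbad hne hy
  refine ⟨a, ?_⟩
  have h1 : perSym N (b • g) + slash jMat (perSym N (a • g)) =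
      perSym N (((ε : ℂ) * a) • g) + slash jMat (perSym N (((ε : ℂ) * b) • g)) := by
    simp only [map_smul]
    rw [hab, map_add, map_smul, map_smul, slash_jMat_jMat, smul_add, smul_smul, smul_smul] at hyε
    rw [add_comm]
    exact hyε
  have h2 := (eq_of_decomp_eq h1).1
  have h3 : b = ε * a := by
    have h4 := congrArg (fun F : CuspForm (Gamma0 N) 2 => qCoeff ⇑F 1) h2
    simp only [HeckeDuality.qc_smul, hg.1.qCoeff_one, mul_one] at h4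
    exact h4
  rw [hab, h3, newSym, smul_add, smul_smul, mul_comm]

end newform

end Fermat.Agent.RT.Point
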