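import Fermat.Agent.RT.Act
import Fermat.Agent.RT.Descent
import Fermat.Agent.RT.LocSub
import Fermat.Agent.RT.LocUnit
import Fermat.Agent.RT.PartFree
import Fermat.Agent.RT.Control
import Fermat.Agent.RT.NonEisenstein
import Fermat.Agent.RT.Wiring.HDatum
import Fermat.Agent.IntStr.Main
import Fermat.Agent.RT.Glue
import Fermat.Agent.RT.PointRep
import Fermat.Agent.RT.PointMS

/-!
# The base context for the Taylor–Wiles argument (team RT, helper28)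

* `chg` : `heckeAlgebra N k S' →+* heckeAlgebra M k S` for `M ∣ N`, `S ⊆ S'`;
* `Mb N ε S t` : the Hecke module `part (sgnMS 𝒪 ε (Γ₀ N)) {T_ℓ - t_ℓ | ℓ ∉ S}`;
* `exists_act_Mb` : `heckeLocal N S 𝒪 θ` acts on `Mb`;
* `exists_act_D` : the deformation ring acts on `Mb`.
-/

set_option autoImplicit false
set_option linter.unusedSectionVars false

open Matrix Matrix.SpecialLinearGroup CongruenceSubgroup IsLocalRing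
open scoped MatrixGroups OnePoint

noncomputable section

namespace Fermat.Agent.RT.TWBase

open Fermat.Agent.LR Fermat.Agent.LR.PS Fermat.Agent.RT Fermat.Agent.RT.MSHecke
  Fermat.Agent.RT.Wiring CuspForm

local notation "Γℚ" => (AlgebraicClosure ℚ ≃ₐ[ℚ] AlgebraicClosure ℚ)

/-! ### Change of level and of the set of primes -/

section chg

variable {N M : ℕ} [NeZero N] [NeZero M] {k : ℤ} {S S' : Set ℕ}

/-- `heckeAlgebra N k S' →+* heckeAlgebra N k S`, `S ⊆ S'`. -/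
def inclS (h : S ⊆ S') : heckeAlgebra N k S' →+* heckeAlgebra N k S :=
  (Subalgebra.inclusion (heckeAlgebra_mono (N := N) (k := k) h)).toRingHom

theorem inclS_T (h : S ⊆ S') {ℓ : ℕ} (hℓ : ℓ.Prime) (hℓN : ¬ ℓ ∣ N) (hℓS' : ℓ ∉ S')
    (hℓS : ℓ ∉ S) :
    inclS (k := k) h (heckeAlgebra.T hℓ hℓN hℓS') = heckeAlgebra.T hℓ hℓN hℓS := rfl

/-- `heckeAlgebra N k S' →+* heckeAlgebra M k S`, `M ∣ N`, `S ⊆ S'`. -/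
def chg (hMN : M ∣ N) (h : S ⊆ S') (hS : ∀ q : ℕ, q.Prime → q ∣ N → q ∈ S') :
    heckeAlgebra N k S' →+* heckeAlgebra M k S :=
  (inclS h).comp (restr hMN hS)

theorem chg_T (hMN : M ∣ N) (h : S ⊆ S') (hS : ∀ q : ℕ, q.Prime → q ∣ N → q ∈ S') {ℓ : ℕ}
    (hℓ : ℓ.Prime) (hℓN : ¬ ℓ ∣ N) (hℓS' : ℓ ∉ S') (hℓM : ¬ ℓ ∣ M) (hℓS : ℓ ∉ S) :
    chg (k := k) hMN h hS (heckeAlgebra.T hℓ hℓN hℓS') = heckeAlgebra.T hℓ hℓM hℓS := by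
  rw [chg, RingHom.comp_apply, restr_T hMN hS hℓ hℓN hℓM hℓS']
  rfl

end chg

/-! ### The Hecke module of the base level -/

section Mb

variable {𝒪 : Type*} [CommRing 𝒪]

/-- The localising family. -/
def fam (S : Set ℕ) (t : ℕ → 𝒪) : Set (Module.End 𝒪 (Pairs 𝒪)) :=
  {T | ∃ ℓ : ℕ, ℓ.Prime ∧ ℓ ∉ S ∧ T = heckeT ℓ - t ℓ • LinearMap.id}

theorem algebraMap_end_eq (c : 𝒪) :
    algebraMap 𝒪 (Module.End 𝒪 (Pairs 𝒪)) c = c • LinearMap.id := rfl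

theorem fam_eq_opF (S : Set ℕ) (t u : ℕ → 𝒪) :
    fam S t = Control.opF {ℓ | ℓ.Prime ∧ ℓ ∉ S} t ∅ u := by
  ext T
  simp only [fam, Control.opF, Set.mem_ofPred_eq, Set.mem_empty_iff_false, false_and, exists_false,
    or_false, and_assoc]
  rfl

/-- The Hecke module. -/
def Mb (N : ℕ) (ε : ℤ) (S : Set ℕ) (t : ℕ → 𝒪) : Submodule 𝒪 (Pairs 𝒪) :=
  part (sgnMS 𝒪 ε (Gamma0 N)) (fam S t)

variable {N : ℕ} {ε : ℤ} {S : Set ℕ} {t : ℕ → 𝒪}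

theorem mem_Mb {x : Pairs 𝒪} : x ∈ Mb N ε S t ↔ x ∈ sgnMS 𝒪 ε (Gamma0 N) ∧
    ∀ ℓ : ℕ, ℓ.Prime → ℓ ∉ S → x ∈ nilSub (heckeT ℓ - t ℓ • LinearMap.id :
      Module.End 𝒪 (Pairs 𝒪)) := by
  rw [Mb, mem_part]
  refine and_congr_right fun _ => ⟨fun h ℓ hℓ hℓS => h _ ⟨ℓ, hℓ, hℓS, rfl⟩, ?_⟩
  rintro h T ⟨ℓ, hℓ, hℓS, rfl⟩
  exact h ℓ hℓ hℓS

theorem Mb_le : Mb N ε S t ≤ MS (Gamma0 N) 𝒪 := part_le.trans inf_le_left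

theorem Mb_congr {t' : ℕ → 𝒪} (h : ∀ ℓ : ℕ, ℓ.Prime → ℓ ∉ S → t ℓ = t' ℓ) :
    Mb N ε S t = Mb N ε S t' := by
  ext x
  rw [mem_Mb, mem_Mb]
  exact and_congr_right fun _ => forall₃_congr fun ℓ hℓ hℓS => by rw [h ℓ hℓ hℓS]

/-- an eigensymbol lies in `Mb`. -/
theorem mem_Mb_of_eig [IsDomain 𝒪] {x : Pairs 𝒪} (hx : x ∈ sgnMS 𝒪 ε (Gamma0 N))
    (h : ∀ ℓ : ℕ, ℓ.Prime → ℓ ∉ S → heckeT ℓ x = t ℓ • x) : x ∈ Mb N ε S t :=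
  mem_Mb.mpr ⟨hx, fun ℓ hℓ hℓS c _ => ⟨1, 0, by
    rw [pow_one, LinearMap.sub_apply, h ℓ hℓ hℓS, LinearMap.smul_apply, LinearMap.id_apply,
      sub_self, smul_zero]⟩⟩

theorem fam_mem (hNS : ∀ q : ℕ, q.Prime → q ∣ N → q ∈ S) {T : Module.End 𝒪 (Pairs 𝒪)}
    (hT : T ∈ fam S t) {x : Pairs 𝒪} (hx : x ∈ sgnMS 𝒪 ε (Gamma0 N)) :
    T x ∈ sgnMS 𝒪 ε (Gamma0 N) := by
  obtain ⟨ℓ, hℓ, hℓS, rfl⟩ := hT
  have hℓN : ¬ ℓ ∣ N := fun h => hℓS (hNS ℓ hℓ h)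
  exact sub_mem (Control.heckeT_mem_sgnMS hℓ hℓN hx) (Submodule.smul_mem _ _ hx)

theorem hop_comm_fam {ℓ : ℕ} (hNS : ∀ q : ℕ, q.Prime → q ∣ N → q ∈ S) (hℓ : ℓ.Prime)
    {T : Module.End 𝒪 (Pairs 𝒪)} (hT : T ∈ fam S t) {x : Pairs 𝒪} (hx : x ∈ MS (Gamma0 N) 𝒪) :
    hop 𝒪 N ℓ (T x) = T (hop 𝒪 N ℓ x) := by
  obtain ⟨r, hr, hrS, rfl⟩ := hT
  have hrN : ¬ r ∣ N := fun h => hrS (hNS r hr h)
  have h1 : hop 𝒪 N ℓ (heckeT r x) = heckeT r (hop 𝒪 N ℓ x) := by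
    have h2 := hop_comm (R := 𝒪) hℓ hr hx
    rwa [hop_of_not_dvd hrN] at h2
  rw [LinearMap.sub_apply, LinearMap.sub_apply, map_sub, h1]
  simp

theorem hop_mem_sgnMS {ℓ : ℕ} (hℓ : ℓ.Prime) {x : Pairs 𝒪} (hx : x ∈ sgnMS 𝒪 ε (Gamma0 N)) :
    hop 𝒪 N ℓ x ∈ sgnMS 𝒪 ε (Gamma0 N) := by
  by_cases h : ℓ ∣ N
  · rw [hop_of_dvd h]; exact Control.heckeU_mem_sgnMS hℓ h hx
  · rw [hop_of_not_dvd h]; exact Control.heckeT_mem_sgnMS hℓ h hx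

theorem hop_mem_Mb (hNS : ∀ q : ℕ, q.Prime → q ∣ N → q ∈ S) {ℓ : ℕ} (hℓ : ℓ.Prime)
    {x : Pairs 𝒪} (hx : x ∈ Mb N ε S t) : hop 𝒪 N ℓ x ∈ Mb N ε S t :=
  Control.part_stable (H := sgnMS 𝒪 ε (Gamma0 N)) (F := fam S t) (hop 𝒪 N ℓ)
    (fun _ hx => hop_mem_sgnMS hℓ hx) (fun _ hT _ hx => fam_mem hNS hT hx)
    (fun _ hT _ hx => hop_comm_fam hNS hℓ hT (RT.mem_sgnMS.mp hx).1) hx

theorem heckeT_mem_Mb (hNS : ∀ q : ℕ, q.Prime → q ∣ N → q ∈ S) {ℓ : ℕ} (hℓ : ℓ.Prime)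
    (hℓN : ¬ ℓ ∣ N) {x : Pairs 𝒪} (hx : x ∈ Mb N ε S t) : heckeT ℓ x ∈ Mb N ε S t := by
  have := hop_mem_Mb hNS hℓ hx
  rwa [hop_of_not_dvd hℓN] at this

theorem heckeU_mem_Mb (hNS : ∀ q : ℕ, q.Prime → q ∣ N → q ∈ S) {ℓ : ℕ} (hℓ : ℓ.Prime)
    (hℓN : ℓ ∣ N) {x : Pairs 𝒪} (hx : x ∈ Mb N ε S t) : heckeU ℓ x ∈ Mb N ε S t := by
  have := hop_mem_Mb hNS hℓ hx
  rwa [hop_of_dvd hℓN] at this

section dvr

variable [IsDomain 𝒪] [IsDiscreteValuationRing 𝒪] [IsAdicComplete (maximalIdeal 𝒪) 𝒪]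
  [Finite (ResidueField 𝒪)]

theorem saturated_Mb : Loc.Saturated (Mb N ε S t) :=
  Loc.saturated_part Dict.smul_eq_zero_pairs (Dict.saturated_sgnMS ε (Gamma0 N)) _

theorem finite_Mb [NeZero N] : Module.Finite 𝒪 (Mb N ε S t) := by
  have h1 : Module.Finite 𝒪 (sgnMS 𝒪 ε (Gamma0 N)) := Dict.finite_sgnMS ε (Gamma0 N)
  exact Module.Finite.of_injective (Submodule.inclusion part_le)
    (Submodule.inclusion_injective _)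

theorem free_Mb [NeZero N] : Module.Free 𝒪 (Mb N ε S t) := by
  have := finite_Mb (𝒪 := 𝒪) (N := N) (ε := ε) (S := S) (t := t)
  have : Module.IsTorsionFree 𝒪 (Mb N ε S t) := inferInstance
  exact Module.free_of_finite_type_torsion_free'

end dvr

end Mb

/-! ### The action of the Hecke algebra -/

section act

variable {𝒪 : Type} [CommRing 𝒪] [IsDomain 𝒪] [IsDiscreteValuationRing 𝒪]
  [IsAdicComplete (maximalIdeal 𝒪) 𝒪] [Finite (ResidueField 𝒪)] [CharZero 𝒪]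
  {N : ℕ} [NeZero N] {ε : ℤ} {S : Set ℕ} {t : ℕ → 𝒪}

/-- **`heckeLocal` acts on `Mb`.** -/
theorem exists_act_Mb (hNS : ∀ q : ℕ, q.Prime → q ∣ N → q ∈ S)
    (θ : heckeAlgebra N 2 S →+* ResidueField 𝒪)
    (ht : ∀ (ℓ : ℕ) (hℓ : ℓ.Prime) (hℓN : ¬ ℓ ∣ N) (hℓS : ℓ ∉ S),
      residue 𝒪 (t ℓ) = θ (heckeAlgebra.T hℓ hℓN hℓS))
    (hE : ∃ ℓ₀ : ℕ, ℓ₀.Prime ∧ ℓ₀ ∉ S ∧ ((ℓ₀ : ℕ) : ZMod N) = 1 ∧
      residue 𝒪 (t ℓ₀) ≠ 1 + (ℓ₀ : ResidueField 𝒪)) :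
    ∃ Φ : heckeLocal N S 𝒪 θ →ₐ[𝒪] Module.End 𝒪 (Mb N ε S t),
      ∀ (ℓ : ℕ) (hℓ : ℓ.Prime) (hℓN : ¬ ℓ ∣ N) (hℓS : ℓ ∉ S) (x : Mb N ε S t),
        (Φ (heckeLocal.π N S 𝒪 θ (heckeAlgebra.T hℓ hℓN hℓS)) x : Pairs 𝒪) = heckeT ℓ x := by
  have hint : Fact (HasIntegralStructure N 2) := ⟨IntStr.hasIntegralStructure N 2⟩
  have hfin := finite_Mb (𝒪 := 𝒪) (N := N) (ε := ε) (S := S) (t := t)
  obtain ⟨ℓ₀, hℓ₀, hℓ₀S, h1, h2⟩ := hE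
  have hN : ∀ ℓ : Idx S, ¬ (ℓ.1 : ℕ) ∣ N := fun ℓ h => ℓ.2 (hNS _ ℓ.1.2 h)
  have hθ : ∀ ℓ : Idx S, residue 𝒪 (t (ℓ.1 : ℕ)) = θ (genS N S ℓ) := fun ℓ => by
    rw [genS_of_not_dvd N S ℓ (hN ℓ), ht]
  obtain ⟨Φ, hΦ⟩ := Act.exists_act_MS N S 𝒪 θ (Mb N ε S t) Mb_le
    (fun c z hc h => saturated_Mb c hc z h) (fun ℓ x hx => hop_mem_Mb hNS ℓ.1.2 hx)
    (fun ℓ => t (ℓ.1 : ℕ)) hθ
    (fun ℓ x hx => by
      rw [hop_of_not_dvd (hN ℓ)]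
      exact (mem_Mb.mp hx).2 _ ℓ.1.2 ℓ.2)
    ⟨⟨ℓ₀, hℓ₀⟩, hℓ₀S⟩ h1 (by rw [← hθ]; exact h2)
  refine ⟨Φ, fun ℓ hℓ hℓN hℓS x => ?_⟩
  have h3 := hΦ ⟨⟨ℓ, hℓ⟩, hℓS⟩ x
  rw [genS_of_not_dvd N S ⟨⟨ℓ, hℓ⟩, hℓS⟩ hℓN] at h3
  rw [h3, hop_of_not_dvd hℓN]

/-- **The deformation ring acts on `Mb`** through `D.R → heckeLocal`; the traces of the Frobenius
elements at `ℓ ∉ S` act as `T_ℓ`. -/
theorem exists_act_D {S : Finset ℕ} [Fact (HasIntegralStructure N 2)]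
    (hNS : ∀ q : ℕ, q.Prime → q ∣ N → q ∈ S)
    {θ : heckeAlgebra N 2 (↑S : Set ℕ) →+* ResidueField 𝒪}
    (ht : ∀ (ℓ : ℕ) (hℓ : ℓ.Prime) (hℓN : ¬ ℓ ∣ N) (hℓS : ℓ ∉ (↑S : Set ℕ)),
      residue 𝒪 (t ℓ) = θ (heckeAlgebra.T hℓ hℓN hℓS))
    (hE : ∃ ℓ₀ : ℕ, ℓ₀.Prime ∧ ℓ₀ ∉ (↑S : Set ℕ) ∧ ((ℓ₀ : ℕ) : ZMod N) = 1 ∧
      residue 𝒪 (t ℓ₀) ≠ 1 + (ℓ₀ : ResidueField 𝒪))
    {ρbar : ResidualGaloisRep (ResidueField 𝒪)}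
    {𝒟 : ∀ ⦃A : Type⦄ [CommRing A] [IsLocalRing A] [Algebra 𝒪 A], GaloisRepAdic A → Prop}
    (D : GaloisRep.DeformationRingData 𝒪 ρbar 𝒟)
    (H : HeckeGaloisRepDatum N (↑S : Set ℕ) 𝒪 θ (heckeLocal N (↑S : Set ℕ) 𝒪 θ))
    (hπ : H.π = heckeLocal.π N (↑S : Set ℕ) 𝒪 θ)
    (φ : D.R →ₐ[𝒪] heckeLocal N (↑S : Set ℕ) 𝒪 θ) (hφ : IsLocalHom (φ : D.R →+* heckeLocal N (↑S : Set ℕ) 𝒪 θ))
    (he : (D.ρ.baseChangeAlong (φ : D.R →+* heckeLocal N (↑S : Set ℕ) 𝒪 θ) hφ).IsEquiv H.ρ) :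
    ∃ Ψ : D.R →ₐ[𝒪] Module.End 𝒪 (Mb N ε (↑S : Set ℕ) t),
      (∀ r, φ r = 0 → Ψ r = 0) ∧
      ∀ ℓ : ℕ, ℓ.Prime → ℓ ∉ S → ∀ A : ValuationSubring (AlgebraicClosure ℚ),
        A.LiesOverPrime ℓ → ∀ σ : Γℚ, A.IsFrobeniusAt σ ℓ → ∀ x : Mb N ε (↑S : Set ℕ) t,
          (Ψ (D.ρ.trace σ) x : Pairs 𝒪) = heckeT ℓ x := by
  obtain ⟨Φ, hΦ⟩ := exists_act_Mb (ε := ε) (fun q hq h => Finset.mem_coe.mpr (hNS q hq h)) θ ht hE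
  refine ⟨Φ.comp φ, fun r hr => ?_, fun ℓ hℓ hℓS A hA σ hσ x => ?_⟩
  · rw [AlgHom.comp_apply, hr, map_zero]
  · have hℓN : ¬ ℓ ∣ N := fun h => hℓS (hNS ℓ hℓ h)
    have hℓS' : ℓ ∉ (↑S : Set ℕ) := fun h => hℓS (Finset.mem_coe.mp h)
    rw [AlgHom.comp_apply, map_trace_frob D H φ hφ he hℓ hℓN hℓS' hA hσ, hπ]
    exact hΦ ℓ hℓ hℓN hℓS' x

end act

/-! ### Non-Eisenstein primes -/

section nonEis

variable {k : Type} [Field k]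

/-- a prime `ℓ₀ ≡ 1 mod N` with `t_{ℓ₀} ≠ 1 + ℓ₀`. -/
theorem exists_nonEis {p : ℕ} [Fact p.Prime] (hp : (p : k) = 0) (ρ : ResidualGaloisRep k)
    (habs : ρ.IsAbsolutelyIrreducible) (S : Finset ℕ) (t : ℕ → k)
    (hF : ∀ ℓ : ℕ, ℓ.Prime → ℓ ∉ S → ∀ A : ValuationSubring (AlgebraicClosure ℚ),
      A.LiesOverPrime ℓ → ∀ σ : Γℚ, A.IsFrobeniusAt σ ℓ →
        LinearMap.charpoly (ρ.ρ σ) = Polynomial.X ^ 2 - Polynomial.C (t ℓ) * Polynomial.X +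
          Polynomial.C (ℓ : k))
    (N : ℕ) [NeZero N] (S' : Finset ℕ) :
    ∃ ℓ₀ : ℕ, ℓ₀.Prime ∧ ℓ₀ ∉ S' ∧ ((ℓ₀ : ℕ) : ZMod N) = 1 ∧ t ℓ₀ ≠ 1 + (ℓ₀ : k) := by
  obtain ⟨ℓ, h1, h2, h3, h4⟩ := NonEisenstein.exists_prime_trace_ne hp ρ habs S t
    (fun ℓ hℓ hℓS A hA σ hσ => by
      have h := hF ℓ hℓ hℓS A hA σ hσ
      exact Glue.trace_det_of_charpoly ρ.finrank_eq _ h) N (NeZero.pos N) S'
  refine ⟨ℓ, h1, h2, ?_, ?_⟩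
  · have h5 : ℓ ≡ 1 [MOD N] := h3.of_mul_right p
    have := (ZMod.natCast_eq_natCast_iff ℓ 1 N).mpr h5
    rwa [Nat.cast_one] at this
  · have h5 : ℓ ≡ 1 [MOD p] := h3.of_mul_left N
    have h6 : (ℓ : k) = 1 := by
      obtain ⟨c, hc⟩ := (Nat.modEq_iff_dvd' h1.one_le).mp h5.symm
      have : ℓ = p * c + 1 := by have := h1.one_le; omega
      rw [this, Nat.cast_add, Nat.cast_mul, hp, zero_mul, zero_add, Nat.cast_one]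
    rw [h6, one_add_one_eq_two]
    exact h4

end nonEis

/-! ### Lifting the eigenvalues of Frobenius -/

section lift

variable {𝒪 : Type*} [CommRing 𝒪] [IsLocalRing 𝒪]

theorem isUnit_of_residue_ne {x : 𝒪} (h : residue 𝒪 x ≠ 0) : IsUnit x := by
  by_contra hx
  exact h ((residue_eq_zero_iff x).mpr hx)

/-- lifting the residual eigenvalue `α`. -/
theorem exists_lift {t q : 𝒪} {α β : ResidueField 𝒪} (ht : residue 𝒪 t = α + β)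
    (hq : residue 𝒪 q = α * β) (hqu : IsUnit q) (hne : α ≠ β) :
    ∃ A : 𝒪, residue 𝒪 A = α ∧ IsUnit A ∧ A ^ 2 - t * A + q ∈ maximalIdeal 𝒪 ∧
      IsUnit (2 * A - t) := by
  obtain ⟨A, hA⟩ := residue_surjective α
  refine ⟨A, hA, isUnit_of_residue_ne fun h => ?_, ?_, isUnit_of_residue_ne fun h => ?_⟩
  · rw [hA] at h
    rw [h, zero_mul] at hq
    exact (hqu.map (residue 𝒪)).ne_zero hq
  · rw [← residue_eq_zero_iff, map_add, map_sub, map_pow, map_mul, hA, ht, hq]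
    ring
  · rw [map_sub, map_mul, hA, ht, map_ofNat] at h
    apply hne
    linear_combination h

/-- Taylor–Wiles primes: `t² - (q+1)²` is a unit. -/
theorem isUnit_TW {t q : 𝒪} {α β : ResidueField 𝒪} (ht : residue 𝒪 t = α + β)
    (hq : residue 𝒪 q = α * β) (hq1 : residue 𝒪 q = 1) (hne : α ≠ β) :
    IsUnit (t ^ 2 - (q + 1) ^ 2) := by
  refine isUnit_of_residue_ne fun h => ?_
  rw [map_sub, map_pow, map_pow, map_add, map_one, ht, hq1] at h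
  rw [hq1] at hq
  have h2 : (α - β) ^ 2 = 0 := by linear_combination h + 4 * hq
  exact hne (sub_eq_zero.mp (pow_eq_zero_iff two_ne_zero |>.mp h2))

/-- The auxiliary prime: `t² - (r+1)²` is a unit if `r = -1` and `t ≠ 0` residually. -/
theorem isUnit_aux {t r : 𝒪} (hr : residue 𝒪 r = -1) (ht : residue 𝒪 t ≠ 0) :
    IsUnit (t ^ 2 - (r + 1) ^ 2) := by
  refine isUnit_of_residue_ne fun h => ?_
  rw [map_sub, map_pow, map_pow, map_add, map_one, hr] at h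
  have h2 : (residue 𝒪 t) ^ 2 = 0 := by linear_combination h
  exact ht (pow_eq_zero_iff two_ne_zero |>.mp h2)

/-- from a factorisation of the characteristic polynomial -/
theorem add_mul_of_charpoly {k : Type*} [Field k] {a b α β : k}
    (h : (Polynomial.X ^ 2 - Polynomial.C a * Polynomial.X + Polynomial.C b : Polynomial k) =
      (Polynomial.X - Polynomial.C α) * (Polynomial.X - Polynomial.C β)) :
    a = α + β ∧ b = α * β := by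
  have h2 : (Polynomial.X - Polynomial.C α) * (Polynomial.X - Polynomial.C β) =
      (Polynomial.X ^ 2 - Polynomial.C (α + β) * Polynomial.X + Polynomial.C (α * β) :
        Polynomial k) := by
    rw [Polynomial.C_add, Polynomial.C_mul]; ring
  rw [h2] at h
  have h0 := congrArg (fun P => Polynomial.eval 0 P) h
  have h1 := congrArg (fun P => Polynomial.eval 1 P) h
  simp only [Polynomial.eval_add, Polynomial.eval_sub, Polynomial.eval_pow, Polynomial.eval_X,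
    Polynomial.eval_mul, Polynomial.eval_C] at h0 h1
  constructor
  · linear_combination h0 - h1
  · linear_combination h0

end lift

/-! ### Eigenvectors -/

section eigvec

variable {𝒪 : Type} [CommRing 𝒪] {N : ℕ} [NeZero N] {S : Set ℕ}

open Classical in
/-- The eigenvalues of a character. -/
def tOf (χ : heckeAlgebra N 2 S →+* 𝒪) (ℓ : ℕ) : 𝒪 :=
  if h : ℓ.Prime ∧ ¬ ℓ ∣ N ∧ ℓ ∉ S then χ (heckeAlgebra.T h.1 h.2.1 h.2.2) else 0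

theorem tOf_eq (χ : heckeAlgebra N 2 S →+* 𝒪) {ℓ : ℕ} (hℓ : ℓ.Prime) (hℓN : ¬ ℓ ∣ N)
    (hℓS : ℓ ∉ S) : tOf χ ℓ = χ (heckeAlgebra.T hℓ hℓN hℓS) := by
  rw [tOf, dif_pos ⟨hℓ, hℓN, hℓS⟩]

variable [IsDomain 𝒪] [IsDiscreteValuationRing 𝒪]
  [IsAdicComplete (maximalIdeal 𝒪) 𝒪] [Finite (ResidueField 𝒪)] [CharZero 𝒪]

/-- a character of the Hecke algebra has a primitive eigensymbol. -/
theorem exists_eigvec (hNS : ∀ q : ℕ, q.Prime → q ∣ N → q ∈ S)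
    (χ : heckeAlgebra N 2 S →+* 𝒪) {ε : ℤ} (hε : ε * ε = 1) :
    ∃ x : Pairs 𝒪, x ∈ sgnMS 𝒪 ε (Gamma0 N) ∧ Num.Prim x ∧
      ∀ ℓ : ℕ, ℓ.Prime → ℓ ∉ S → heckeT ℓ x = tOf χ ℓ • x := by
  obtain ⟨j, hj⟩ := Point.exists_embedding_complex 𝒪
  obtain ⟨N', hN', g, hNN', hg, hga⟩ := Point.exists_newform j χ
  have h1 : Point.newSym g ε ∈ Num.CEig j (tOf χ) S N ε := by
    obtain ⟨h2, h3⟩ := RT.mem_sgnMS.mp (Point.newSym_mem g hε)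
    refine Num.mem_CEig.mpr ⟨RT.mem_sgnMS.mpr ⟨MS_mono (Gamma0_mono hNN') h2, h3⟩,
      fun ℓ hℓ hℓS => ?_⟩
    have hℓN : ¬ ℓ ∣ N := fun h => hℓS (hNS ℓ hℓ h)
    rw [(Point.newSym_mem_eigMS hg ε).2 ℓ hℓ fun h => hℓN (h.trans hNN'), tOf_eq χ hℓ hℓN hℓS,
      hga ℓ hℓ hℓN hℓS]
  obtain ⟨x, hx1, hx2, hx3, -⟩ := Descent.exists_prim_of_CEig hj (NeZero.ne N) h1
    (Point.newSym_ne_zero hg ε)
  exact ⟨x, hx1, hx2, hx3⟩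

theorem nontrivial_Mb (hNS : ∀ q : ℕ, q.Prime → q ∣ N → q ∈ S)
    (χ : heckeAlgebra N 2 S →+* 𝒪) {ε : ℤ} (hε : ε * ε = 1) {t : ℕ → 𝒪}
    (ht : ∀ ℓ : ℕ, ℓ.Prime → ℓ ∉ S → t ℓ = tOf χ ℓ) : Nontrivial (Mb N ε S t) := by
  obtain ⟨x, hx1, hx2, hx3⟩ := exists_eigvec hNS χ hε
  have hx : x ∈ Mb N ε S t := mem_Mb_of_eig hx1 fun ℓ hℓ hℓS => by rw [ht ℓ hℓ hℓS, hx3 ℓ hℓ hℓS]
  exact ⟨⟨⟨x, hx⟩, 0, fun h => hx2.ne_zero (congrArg Subtype.val h)⟩⟩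

end eigvec

end Fermat.Agent.RT.TWBase
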