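import Fermat.Agent.RT.TypeMain
import Fermat.Agent.S30
import Fermat.Agent.S32
import Fermat.Agent.S33
import Fermat.Agent.S34
import Fermat.Agent.S35

/-!
# RT-TYPE: all inputs are theorems
-/

set_option autoImplicit false

namespace Fermat.Agent.RT.Typ

/-- S30 and S34 are proved; S32, S33 and S35 as hypotheses. -/
theorem inputs_of (h32 : S32Prop) (h33 : S33Prop) (h35 : CMP.S58Assembly.S35Prop) : Inputs where
  s30 := S30.result
  s32 := h32
  s33 := h33
  s34 := S34.result
  s35 := h35

/-- All inputs. -/
theorem inputs : Inputs := inputs_of S32.result S33.result S35.result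

end Fermat.Agent.RT.Typ
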