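import Fermat.Agent.RT.PointMore
import Fermat.Agent.RT.Num.Gen

/-!
# `PTData` from newforms (RT-PT)

The data of `Fermat.Agent.RT.Num.PTData` for the eigensystem of a newform `g` of level `N`.
The only input is `a_q(g)² ≠ (q+1)²` for `q ∤ N`.
-/

set_option autoImplicit false

noncomputable section

open UpperHalfPlane CongruenceSubgroup Matrix Matrix.SpecialLinearGroup ModularFormClass
open scoped MatrixGroups ModularForm OnePoint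

namespace Fermat.Agent.RT.Point

open Fermat.Agent.LR Fermat.Agent.LR.PS Fermat.Agent.Newform Fermat.Agent.ES Fermat.Agent.RT.Num

/-- the projection to the `ε`-part -/
def eps (ε : ℤ) : Pairs ℂ →ₗ[ℂ] Pairs ℂ :=
  (2⁻¹ : ℂ) • (LinearMap.id + (ε : ℂ) • slash jMat)

theorem eps_apply (ε : ℤ) (x : Pairs ℂ) :
    eps ε x = (2⁻¹ : ℂ) • (x + (ε : ℂ) • slash jMat x) := rfl

theorem eps_of_sgn {ε : ℤ} (hε : ε * ε = 1) {y : Pairs ℂ} (hy : slash jMat y = (ε : ℂ) • y) :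
    eps ε y = y := by
  have h : (ε : ℂ) * ε = 1 := by exact_mod_cast hε
  rw [eps_apply, hy, smul_smul, h, one_smul, ← two_smul ℂ y, smul_smul]
  norm_num

theorem slash_eps {ε : ℤ} (hε : ε * ε = 1) (y : Pairs ℂ) :
    slash jMat (eps ε y) = (ε : ℂ) • eps ε y := by
  have h : (ε : ℂ) * ε = 1 := by exact_mod_cast hε
  have h2 : (ε : ℂ) • ((2⁻¹ : ℂ) • (y + (ε : ℂ) • slash jMat y)) =
      (2⁻¹ : ℂ) • (slash jMat y + (ε : ℂ) • y) := by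
    rw [smul_comm (ε : ℂ) (2⁻¹ : ℂ), smul_add (ε : ℂ), smul_smul (ε : ℂ) (ε : ℂ), h, one_smul,
      add_comm]
  rw [eps_apply, h2, map_smul, map_add, map_smul, slash_jMat_jMat]

theorem eps_degen {ε : ℤ} {q : ℕ} (hq : q ≠ 0) (y : Pairs ℂ) :
    eps ε (degen q y) = degen q (eps ε y) := by
  rw [eps_apply, eps_apply, map_smul, map_add, map_smul, slash_jMat_degen hq]

theorem eps_mem_eigMS {ε : ℤ} {M : ℕ} {S : Set ℕ} {c : ℕ → ℂ} {y : Pairs ℂ}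
    (hy : y ∈ eigMS M S c) : eps ε y ∈ eigMS M S c :=
  Submodule.smul_mem _ _ (Submodule.add_mem _ hy
    (Submodule.smul_mem _ _ (slash_jMat_mem_eigMS hy)))

section

variable {𝒪 : Type*} [CommRing 𝒪] {j : 𝒪 →+* ℂ} {a : ℕ → 𝒪} {S : Set ℕ} {M : ℕ} {ε : ℤ}

theorem mem_CEig_iff {c : ℕ → ℂ} (hc : ∀ ℓ : ℕ, ℓ.Prime → ℓ ∉ S → j (a ℓ) = c ℓ) {y : Pairs ℂ} :
    y ∈ CEig j a S M ε ↔ y ∈ eigMS M S c ∧ slash jMat y = (ε : ℂ) • y := by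
  rw [mem_CEig, mem_sgnMS]
  constructor
  · rintro ⟨⟨h1, h2⟩, h3⟩
    exact ⟨⟨h1, fun ℓ hℓ hS => by rw [h3 ℓ hℓ hS, hc ℓ hℓ hS]⟩, h2⟩
  · rintro ⟨⟨h1, h3⟩, h2⟩
    exact ⟨⟨h1, h2⟩, fun ℓ hℓ hS => by rw [h3 ℓ hℓ hS, hc ℓ hℓ hS]⟩

/-- If `c_ℓ² ≠ (ℓ+1)²` then the system is non Eisenstein at all levels. -/
theorem nonEis_of_bound {c : ℕ → ℂ} (hS : S.Finite) (hM : M ≠ 0)
    (h : ∀ ℓ : ℕ, ℓ.Prime → ℓ ∉ S → c ℓ ^ 2 ≠ ((ℓ : ℂ) + 1) ^ 2) : NonEis M S c := by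
  obtain ⟨n, hn⟩ : ∃ n, ∀ x ∈ S, x ≤ n := hS.bddAbove
  obtain ⟨ℓ, hℓ, hlt, hmod⟩ := Nat.exists_prime_gt_modEq_one (k := M) n hM
  have hℓS : ℓ ∉ S := fun h' => absurd (hn ℓ h') (not_le.2 hlt)
  refine ⟨ℓ, hℓ, hℓS, ?_, fun h' => h ℓ hℓ hℓS (by rw [h'])⟩
  have := (ZMod.natCast_eq_natCast_iff _ _ _).2 hmod
  rwa [Nat.cast_one] at this

end

section newform

variable {N : ℕ} [NeZero N] {g : CuspForm (Gamma0 N) 2} {𝒪 : Type*} [CommRing 𝒪] {j : 𝒪 →+* ℂ}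
  {a : ℕ → 𝒪} {S : Set ℕ} {ε : ℤ}

/-- `PTData` for a newform. -/
theorem ptData_of_isNewform (hg : g.IsNewform) (hS : S.Finite)
    (hNS : ∀ p : ℕ, p.Prime → p ∣ N → p ∈ S)
    (ha : ∀ ℓ : ℕ, ℓ.Prime → ¬ ℓ ∣ N → j (a ℓ) = qCoeff ⇑g ℓ)
    (hne : ∀ ℓ : ℕ, ℓ.Prime → ¬ ℓ ∣ N → qCoeff ⇑g ℓ ^ 2 ≠ ((ℓ : ℂ) + 1) ^ 2)
    (hε : ε * ε = 1) : PTData j a S N ε := by
  have hc : ∀ ℓ : ℕ, ℓ.Prime → ℓ ∉ S → j (a ℓ) = qCoeff ⇑g ℓ :=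
    fun ℓ hℓ hS => ha ℓ hℓ fun h => hS (hNS ℓ hℓ h)
  have hNE : ∀ M : ℕ, M ≠ 0 → NonEis M S (qCoeff ⇑g) := fun M hM =>
    nonEis_of_bound hS hM fun ℓ hℓ hℓS => hne ℓ hℓ fun h => hℓS (hNS ℓ hℓ h)
  have hbS : ∀ {M M' : ℕ}, (∀ r : ℕ, r.Prime → r ∣ M → r ∈ S) →
      ∀ z ∈ eigMS M (badSet M) (qCoeff ⇑g), z ∈ eigMS M S (qCoeff ⇑g) := by
    intro M M' hM z hz
    exact eigMS_mono dvd_rfl (fun p hp h => hM p hp h) hz
  refine ⟨?_, ?_, ?_, ?_, ?_⟩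
  · refine ⟨newSym g ε, newSym_ne_zero hg ε, (mem_CEig_iff hc).2 ⟨?_, ?_⟩, fun y hy => ?_⟩
    · exact eigMS_mono dvd_rfl (fun p hp h => hNS p hp h) (newSym_mem_eigMS hg ε)
    · exact (mem_sgnMS.1 (newSym_mem g hε)).2
    · obtain ⟨hy1, hy2⟩ := (mem_CEig_iff hc).1 hy
      exact exists_smul_of_mem_sgn hg hS hNS (hNE N (NeZero.ne N)) hy1 hy2
  · intro y hy ℓ hℓ hℓN
    rw [ha ℓ hℓ hℓN]
    exact heckeT_eq_of_mem hg hS hNS (hNE N (NeZero.ne N)) ((mem_CEig_iff hc).1 hy).1 hℓ hℓN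
  · intro q hq hqN
    rw [ha q hq hqN]
    exact hne q hq hqN
  · intro M q hM hNM hq hqM hqS hMS y hy
    have iM : NeZero M := ⟨hM⟩
    have hMq : ∀ r : ℕ, r.Prime → r ∣ M * q ^ 2 → r ∈ S := by
      intro r hr hd
      rcases (Nat.Prime.dvd_mul hr).mp hd with h1 | h1
      · exact hMS r hr h1
      · rw [(Nat.prime_dvd_prime_iff_eq hr hq).mp (hr.dvd_of_dvd_pow h1)]; exact hqS
    obtain ⟨hy1, hy2⟩ := (mem_CEig_iff hc).1 hy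
    obtain ⟨x₀, h0, x₁, h1, x₂, h2, e⟩ := exists_three hg hS hMq
      (hNE _ (mul_ne_zero hM (pow_ne_zero _ hq.ne_zero))) hq hNM hy1
    have key : ∀ z ∈ eigMS M (badSet M) (qCoeff ⇑g), eps ε z ∈ CEig j a S M ε := fun z hz =>
      (mem_CEig_iff hc).2 ⟨eps_mem_eigMS (hbS (M' := M) hMS z hz), slash_eps hε z⟩
    refine ⟨_, key x₀ h0, _, key x₁ h1, _, key x₂ h2, ?_⟩
    rw [← eps_degen hq.ne_zero, ← eps_degen hq.ne_zero, ← eps_degen hq.ne_zero, ← map_add,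
      ← map_add, ← e, eps_of_sgn hε hy2]
  · intro M q hM hNM hq hqM hqS hMS y hy
    have iM : NeZero M := ⟨hM⟩
    have iMq : NeZero (M * q) := ⟨mul_ne_zero hM hq.ne_zero⟩
    have hMq : ∀ r : ℕ, r.Prime → r ∣ M * q → r ∈ S := by
      intro r hr hd
      rcases (Nat.Prime.dvd_mul hr).mp hd with h1 | h1
      · exact hMS r hr h1
      · rw [(Nat.prime_dvd_prime_iff_eq hr hq).mp h1]; exact hqS
    obtain ⟨hy1, hy2⟩ := (mem_CEig_iff hc).1 hy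
    have e2 : M * q / q = M := Nat.mul_div_cancel _ hq.pos
    obtain ⟨x₀, h0, x₁, h1, e⟩ := exists_of_mem_eigMS hg hS hMq
      (hNE _ (mul_ne_zero hM hq.ne_zero)) hq (Nat.dvd_mul_left q M) (by rw [e2]; exact hNM) hy1
    rw [e2] at h0 h1
    have key : ∀ z ∈ eigMS M (badSet M) (qCoeff ⇑g), eps ε z ∈ CEig j a S M ε := fun z hz =>
      (mem_CEig_iff hc).2 ⟨eps_mem_eigMS (hbS (M' := M) hMS z hz), slash_eps hε z⟩
    refine ⟨_, key x₀ h0, _, key x₁ h1, ?_⟩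
    rw [← eps_degen hq.ne_zero, ← map_add, ← e, eps_of_sgn hε hy2]

end newform

end Fermat.Agent.RT.Point
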