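import Fermat.Agent.RT.PointMore
import Fermat.Agent.RT.PointPT
import Fermat.Agent.RT.Wiring.EigBound

/-!
# PT7: `U_q² = 1` implies `q ∥ cond` (RT-PT / SC)

* `norm_qCoeff_lt`, `sq_qCoeff_ne`: `|a_q(g)| < q + 1` for a newform `g` of level prime to `q`.
* `dvd_of_mem_eigMS`: a nonzero eigensymbol of level `M` with the eigensystem of `g` forces
  `N ∣ M`.
* `dvd_of_heckeU_sq`: if moreover the level is `M q`, `q ∤ M`, and `U_q² = 1` then `q ∣ N`,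
  `q² ∤ N`.
* `ptData_of_isNewform'`: unconditional `PTData`.
-/

set_option autoImplicit false

noncomputable section

open UpperHalfPlane CongruenceSubgroup Matrix Matrix.SpecialLinearGroup ModularFormClass
open scoped MatrixGroups ModularForm OnePoint

namespace Fermat.Agent.RT.Point

open Fermat.Agent.LR Fermat.Agent.LR.PS Fermat.Agent.Newform Fermat.Agent.ES
open Fermat.Agent.RT.Wiring.EigBound

variable {N : ℕ} [NeZero N] {g : CuspForm (Gamma0 N) 2} {M : ℕ} {S : Set ℕ}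

/-- the trivial bound for newforms -/
theorem norm_qCoeff_lt (hg : g.IsNewform) {q : ℕ} (hq : q.Prime) (hqN : ¬ q ∣ N) :
    ‖qCoeff ⇑g q‖ < q + 1 :=
  norm_lt_of_heckeT_eq hg.ne_zero hq.ne_zero hq.ne_one (heckeT_eq hg.1 hq hqN)

/-- `a_q(g)² ≠ (q+1)²`. -/
theorem sq_qCoeff_ne (hg : g.IsNewform) {q : ℕ} (hq : q.Prime) (hqN : ¬ q ∣ N) :
    qCoeff ⇑g q ^ 2 ≠ ((q : ℂ) + 1) ^ 2 := fun h =>
  sq_ne_of_norm_lt (norm_qCoeff_lt hg hq hqN) (by rw [h, sub_self])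

/-- The eigensystem of a newform is not Eisenstein. -/
theorem nonEis_of_isNewform (hg : g.IsNewform) (hS : S.Finite) (hM : M ≠ 0)
    (hNS : ∀ p : ℕ, p.Prime → p ∣ N → p ∈ S) : NonEis M S (qCoeff ⇑g) := by
  obtain ⟨n, hn⟩ : ∃ n, ∀ x ∈ S, x ≤ n := hS.bddAbove
  obtain ⟨ℓ, hℓ, hlt, hmod⟩ := Nat.exists_prime_gt_modEq_one (k := M) n hM
  have hℓS : ℓ ∉ S := fun h' => absurd (hn ℓ h') (not_le.2 hlt)
  refine ⟨ℓ, hℓ, hℓS, ?_, fun h' => sq_qCoeff_ne hg hℓ (fun h => hℓS (hNS ℓ hℓ h)) (by rw [h'])⟩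
  have := (ZMod.natCast_eq_natCast_iff _ _ _).2 hmod
  rwa [Nat.cast_one] at this

/-- A nonzero eigensymbol of level `M` with the eigensystem of `g` forces `N ∣ M`. -/
theorem dvd_of_mem_eigMS [NeZero M] (hg : g.IsNewform) (hS : S.Finite)
    (hbad : ∀ r : ℕ, r.Prime → r ∣ M → r ∈ S) (hNS : ∀ p : ℕ, p.Prime → p ∣ N → p ∈ S)
    {y : Pairs ℂ} (hy : y ∈ eigMS M S (qCoeff ⇑g)) (hy0 : y ≠ 0) : N ∣ M := by
  by_contra h
  rw [eigMS_eq_bot hg hS hbad (nonEis_of_isNewform hg hS (NeZero.ne M) hNS) h,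
    Submodule.mem_bot] at hy
  exact hy0 hy

/-- **PT7.** -/
theorem dvd_of_heckeU_sq [NeZero M] (hg : g.IsNewform) (hS : S.Finite) {q : ℕ} (hq : q.Prime)
    (hqM : ¬ q ∣ M) (hbad : ∀ r : ℕ, r.Prime → r ∣ M * q → r ∈ S)
    (hNS : ∀ p : ℕ, p.Prime → p ∣ N → p ∈ S) {y : Pairs ℂ}
    (hy : y ∈ eigMS (M * q) S (qCoeff ⇑g)) (hy0 : y ≠ 0) (hU : heckeU q (heckeU q y) = y) :
    q ∣ N ∧ ¬ q ^ 2 ∣ N ∧ N ∣ M * q := by
  have iM : NeZero (M * q) := ⟨mul_ne_zero (NeZero.ne M) hq.ne_zero⟩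
  have hNM : N ∣ M * q := dvd_of_mem_eigMS hg hS hbad hNS hy hy0
  have hne := nonEis_of_isNewform hg hS (NeZero.ne (M * q)) hNS
  refine ⟨?_, fun h => hqM ?_, hNM⟩
  · by_contra hqN
    have hNM' : N ∣ M := ((Nat.Prime.coprime_iff_not_dvd hq).2 hqN).symm.dvd_of_dvd_mul_right hNM
    have e1 := heckeU_quadratic hg hS hbad hne hq hqM hNM' hy
    rw [hU] at e1
    have e2 : (1 + (q : ℂ)) • y = qCoeff ⇑g q • heckeU q y := by
      rw [add_smul, one_smul, ← sub_eq_zero, ← e1]; abel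
    have e3 : (1 + (q : ℂ)) • heckeU q y = qCoeff ⇑g q • y := by
      rw [← map_smul, e2, map_smul, hU]
    have e4 : (qCoeff ⇑g q ^ 2 - ((q : ℂ) + 1) ^ 2) • y = 0 := by
      have : (1 + (q : ℂ)) • (1 + (q : ℂ)) • y = qCoeff ⇑g q • qCoeff ⇑g q • y := by
        rw [e2, smul_comm, e3]
      rw [smul_smul, smul_smul] at this
      rw [sub_smul, sub_eq_zero, pow_two, pow_two, ← this, add_comm (1 : ℂ)]
    exact sq_qCoeff_ne hg hq hqN (sub_eq_zero.1 ((smul_eq_zero.1 e4).resolve_right hy0))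
  · obtain ⟨k, hk⟩ := h.trans hNM
    exact ⟨k, Nat.eq_of_mul_eq_mul_right hq.pos (by rw [hk]; ring)⟩

/-- Unconditional `PTData` for a newform. -/
theorem ptData_of_isNewform' (hg : g.IsNewform) {𝒪 : Type*} [CommRing 𝒪] {j : 𝒪 →+* ℂ}
    {a : ℕ → 𝒪} {ε : ℤ} (hS : S.Finite) (hNS : ∀ p : ℕ, p.Prime → p ∣ N → p ∈ S)
    (ha : ∀ ℓ : ℕ, ℓ.Prime → ¬ ℓ ∣ N → j (a ℓ) = qCoeff ⇑g ℓ)
    (hε : ε * ε = 1) : Fermat.Agent.RT.Num.PTData j a S N ε :=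
  ptData_of_isNewform hg hS hNS ha (fun _ hℓ hℓN => sq_qCoeff_ne hg hℓ hℓN) hε

end Fermat.Agent.RT.Point
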