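import Mathlib
import Fermat.Agent.RT.HTW.Core
import Fermat.Agent.RT.HTW.AtP
import Fermat.Agent.EllTate.Main
import Fermat.Agent.DefCond.InertiaCyc
import Fermat.Agent.RT.HTW.Split

/-!
# The hypotheses of S56 for `E[p] ⊗ k`

`W : WeierstrassCurve ℤ` semistable with `W.Δ ≠ 0`, `p` an odd prime, `W.ModRepIsIrreducible p`,
`ρbar : ResidualGaloisRep k` isomorphic to `E[p] ⊗ k` along `χ : ZMod p →+* k`. Then

* `isAbsolutelyIrreducible` : `ρbar` is absolutely irreducible (and `isIrreducible_baseChange`);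
* `detIsCyclotomic` : the determinant is the mod `p` cyclotomic character;
* `isOdd` : `ρbar` is odd;
* `exists_split` : all characteristic polynomials split over `k`, if `k` contains the roots of
  quadratic polynomials over `𝔽_p` (`exists_split_of_card` : e.g. if `#k = p ^ (2 m)`);
* `stable_eq_bot_or_top` : no proper line of `ρbar ⊗ K` is stable under a subgroup of index two.
-/

set_option autoImplicit false

open Polynomial IsLocalRing
open WeierstrassCurve WeierstrassCurve.Affine WeierstrassCurve.Affine.Point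
open scoped WeierstrassCurve.Affine TensorProduct

namespace Fermat.Agent.RT.HTW

open Fermat.Agent.EllTate

local notation "Γℚ" => (AlgebraicClosure ℚ ≃ₐ[ℚ] AlgebraicClosure ℚ)
local notation "Qb" => AlgebraicClosure ℚ

section transport

variable {k : Type} [Field k]

theorem isIrreducible_of_isEquiv {R R' : ResidualGaloisRep k} (e : R.IsEquiv R')
    (h : R'.IsIrreducible) : R.IsIrreducible := by
  obtain ⟨e⟩ := e
  intro U hU
  have hstab : ∀ σ : Γℚ, ∀ x ∈ U.map e.toLinearEquiv.toLinearMap,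
      R'.ρ σ x ∈ U.map e.toLinearEquiv.toLinearMap := by
    rintro σ _ ⟨u, hu, rfl⟩
    exact ⟨R.ρ σ u, hU σ u hu, e.map_apply σ u⟩
  rcases h _ hstab with h1 | h1
  · left
    exact (Submodule.map_eq_bot_iff (e := e.toLinearEquiv)).mp h1
  · right
    rw [eq_top_iff]
    intro x _
    have h2 : e.toLinearEquiv x ∈ U.map e.toLinearEquiv.toLinearMap := by
      rw [h1]; trivial
    obtain ⟨u, hu, hux⟩ := h2
    have : u = x := e.toLinearEquiv.injective hux
    rwa [← this]

theorem charpoly_eq_of_isEquiv {R R' : ResidualGaloisRep k} (e : R.IsEquiv R') (σ : Γℚ) :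
    LinearMap.charpoly (R.ρ σ) = LinearMap.charpoly (R'.ρ σ) := by
  obtain ⟨e⟩ := e
  have h : R'.ρ σ = e.toLinearEquiv.conj (R.ρ σ) := by
    ext x
    rw [LinearEquiv.conj_apply_apply, e.map_apply, LinearEquiv.apply_symm_apply]
  rw [h, LinearEquiv.charpoly_conj]

theorem quad_inj {R : Type*} [CommRing R] {a b a' b' : R}
    (h : (X ^ 2 - C a * X + C b : R[X]) = X ^ 2 - C a' * X + C b') : a = a' ∧ b = b' := by
  have h0 := congrArg (fun P => P.coeff 0) h
  have h1 := congrArg (fun P => P.coeff 1) h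
  simp only [coeff_add, coeff_sub, coeff_X_pow, coeff_C_mul, coeff_X_zero, coeff_X_one,
    coeff_C_zero, coeff_C_of_ne_zero one_ne_zero, mul_zero, mul_one, add_zero] at h0 h1
  norm_num at h0 h1
  exact ⟨h1, h0⟩

theorem trace_det_of_charpoly (R : ResidualGaloisRep k) {σ : Γℚ} {a b : k}
    (h : LinearMap.charpoly (R.ρ σ) = X ^ 2 - C a * X + C b) :
    LinearMap.trace k R.V (R.ρ σ) = a ∧ LinearMap.det (R.ρ σ) = b := by
  rw [BN2.charpoly_eq_of_finrank_two R.finrank_eq] at h
  exact quad_inj h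

theorem charpoly_baseChangeAlong {k' : Type} [Field k'] (χ : k →+* k') (R : ResidualGaloisRep k)
    (σ : Γℚ) : LinearMap.charpoly ((R.baseChangeAlong χ).ρ σ) =
      (LinearMap.charpoly (R.ρ σ)).map χ := by
  let _ : Algebra k k' := χ.toAlgebra
  exact LinearMap.charpoly_baseChange (R.ρ σ) k'

theorem charpoly_baseChange' {k' : Type} [Field k'] [Algebra k k'] (R : ResidualGaloisRep k)
    (σ : Γℚ) : LinearMap.charpoly ((R.baseChange k').ρ σ) =
      (LinearMap.charpoly (R.ρ σ)).map (algebraMap k k') :=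
  LinearMap.charpoly_baseChange (R.ρ σ) k'

end transport

section curve

variable {W : WeierstrassCurve ℤ} (hΔ : W.Δ ≠ 0) {p : ℕ} [hp : Fact p.Prime]
  {hcard : Nat.card (Submodule.torsionBy ℤ
      ((W.map (Int.castRingHom ℚ))⁄(AlgebraicClosure ℚ)).Point p) = p ^ 2}
  {hker : GaloisFactorsThroughFiniteLevel
      (galoisRepModuleEnd (K := AlgebraicClosure ℚ) ℚ (W.map (Int.castRingHom ℚ)) p)}


/-- the trace on `E[p]` -/
noncomputable def trE (W : WeierstrassCurve ℤ) (p : ℕ) (σ : Γℚ) : ZMod p :=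
  LinearMap.trace (ZMod p) _ (galoisRepModuleEnd (K := Qb) ℚ (W.map (Int.castRingHom ℚ)) p σ)

/-- the determinant on `E[p]` -/
noncomputable def detE (W : WeierstrassCurve ℤ) (p : ℕ) (σ : Γℚ) : ZMod p :=
  LinearMap.det (galoisRepModuleEnd (K := Qb) ℚ (W.map (Int.castRingHom ℚ)) p σ)

theorem charpoly_res (σ : Γℚ) : LinearMap.charpoly (((W.map (Int.castRingHom ℚ)).residualGaloisRepOf p hcard hker).ρ σ) =
    X ^ 2 - C (trE W p σ) * X + C (detE W p σ) :=
  BN2.charpoly_eq_of_finrank_two ((W.map (Int.castRingHom ℚ)).residualGaloisRepOf p hcard hker).finrank_eq _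

include hcard hker in
/-- comparison with the Tate module -/
theorem map_charpoly_eq (σ : Γℚ) (χ : ZMod p →+* ResidueField ℤ_[p]) :
    X ^ 2 - C (χ (trE W p σ)) * X + C (χ (detE W p σ)) =
      (LinearMap.charpoly ((tate W hΔ p).ρ σ)).map (residue ℤ_[p]) := by
  rw [← residual_charpoly, charpoly_eq_of_isEquiv (tate_residual_isEquiv hΔ hcard hker χ),
    charpoly_baseChangeAlong, charpoly_res]
  simp

/-- a ring homomorphism to the residue field of `ℤ_p` -/
noncomputable def chi0 (p : ℕ) [Fact p.Prime] : ZMod p →+* ResidueField ℤ_[p] :=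
  (PadicInt.residueField (p := p)).symm.toRingHom

include hcard hker hΔ in
/-- `det E[p]` is the cyclotomic character. -/
theorem detE_eq {σ : Γℚ} {a : ℕ} (ha : ∀ μ : Qb, μ ^ p = 1 → σ μ = μ ^ a) :
    detE W p σ = a := by
  have h1 := (tate_detIsCyclotomic hΔ (p := p)).2 1 σ a (by simpa using ha)
  have h2 := map_charpoly_eq hΔ (hcard := hcard) (hker := hker) σ (chi0 p)
  rw [BN2.charpoly_eq_of_finrank_two (tate W hΔ p).finrank_eq] at h2
  have h3 := congrArg (fun P => P.coeff 0) h2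
  simp [coeff_C] at h3
  apply (chi0 p).injective
  rw [map_natCast, h3]
  rw [Ideal.mem_span_singleton, pow_one] at h1
  obtain ⟨c, hc⟩ := h1
  have h4 : residue ℤ_[p] (p : ℤ_[p]) = 0 := by
    rw [residue_eq_zero_iff]
    exact (tate_detIsCyclotomic hΔ (p := p)).1
  have h5 := congrArg (residue ℤ_[p]) hc
  rw [map_sub, map_mul, h4, zero_mul, map_natCast, sub_eq_zero] at h5
  exact h5

include hcard hker hΔ in
/-- inertia at `q ≠ p` is unipotent on `E[p]` -/
theorem unipotent_q {q : ℕ} (hq : q.Prime) (hqp : q ≠ p)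
    (hss : (q : ℤ) ∣ W.Δ → ¬ (q : ℤ) ∣ W.c₄) (A : ValuationSubring Qb) (hA : A.LiesOverPrime q)
    {σ : Γℚ} (hσ : σ ∈ A.inertiaSubgroupIn ℚ) : trE W p σ = 2 ∧ detE W p σ = 1 := by
  have h1 := tate_isUnipotentOnInertiaAt hΔ (p := p) hq hqp hss A hA σ hσ
  have h2 := map_charpoly_eq hΔ (hcard := hcard) (hker := hker) σ (chi0 p)
  rw [h1] at h2
  have h3 : (X ^ 2 - C (chi0 p (trE W p σ)) * X + C (chi0 p (detE W p σ)) :
      (ResidueField ℤ_[p])[X]) = X ^ 2 - C 2 * X + C 1 := by
    rw [h2]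
    simp only [Polynomial.map_pow, Polynomial.map_sub, Polynomial.map_X, Polynomial.map_one,
      map_one, map_ofNat]
    ring
  obtain ⟨e1, e0⟩ := quad_inj h3
  refine ⟨(chi0 p).injective ?_, (chi0 p).injective ?_⟩
  · rw [map_ofNat]
    exact e1
  · rw [map_one]
    exact e0

include hcard hker hΔ in
/-- complex conjugation has determinant `-1` on `E[p]` -/
theorem detE_conj {c : Γℚ} (hc : c * c = 1) (hc1 : c ≠ 1) : detE W p c = -1 := by
  have h1 := tate_residual_isOdd hΔ (p := p) c hc hc1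
  have h2 := charpoly_eq_of_isEquiv (tate_residual_isEquiv hΔ hcard hker (chi0 p)) c
  rw [charpoly_baseChangeAlong, charpoly_res,
    BN2.charpoly_eq_of_finrank_two (tate W hΔ p).residual.finrank_eq, h1] at h2
  have h3 := congrArg (fun P => P.coeff 0) h2
  simp [coeff_C] at h3
  apply (chi0 p).injective
  rw [map_neg, map_one]
  exact h3.symm

include hcard hker hΔ in
/-- the determinant is surjective on the inertia groups at `p` -/
theorem exists_detE_eq (A : ValuationSubring Qb) (hA : A.LiesOverPrime p) (u : (ZMod p)ˣ) :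
    ∃ σ ∈ A.inertiaSubgroupIn ℚ, detE W p σ = u := by
  have hne : NeZero p := ⟨hp.out.ne_zero⟩
  obtain ⟨g, hg⟩ := DefCond.exists_cyc_eq p u
  obtain ⟨ζ, hζ⟩ := Cyclotomic.exists_primitiveRoot p
  have h1 := Cyclotomic.cyc_spec p g hζ.pow_eq_one
  obtain ⟨σ, hσ, hσζ⟩ := DefCond.exists_inertia_of_pow hp.out A hA 1 ζ
    (by rw [pow_one]; exact hζ) g _ h1
  refine ⟨σ, hσ, ?_⟩
  rw [detE_eq hΔ (hcard := hcard) (hker := hker) (a := ((Cyclotomic.cyc p g : ZMod p)).val)
    (fun μ hμ => ?_), ZMod.natCast_zmod_val, hg]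
  obtain ⟨i, -, rfl⟩ := hζ.eq_pow_of_pow_eq_one hμ
  rw [map_pow, hσζ, h1, ← pow_mul, ← pow_mul, mul_comm]

theorem isIrreducible_res (hirr : W.ModRepIsIrreducible p) : ((W.map (Int.castRingHom ℚ)).residualGaloisRepOf p hcard hker).IsIrreducible :=
  fun U hU => hirr.2 U fun σ x hx => hU σ x hx

/-- `E[p] ⊗ k` is irreducible. -/
theorem isIrreducible_baseChangeAlong (hΔ : W.Δ ≠ 0) (hp2 : p ≠ 2)
    (hirr : W.ModRepIsIrreducible p) {k : Type} [Field k]
    (χ : ZMod p →+* k) : (((W.map (Int.castRingHom ℚ)).residualGaloisRepOf p hcard hker).baseChangeAlong χ).IsIrreducible := by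
  let _ : Algebra (ZMod p) k := χ.toAlgebra
  obtain ⟨c, hc, hc1⟩ := exists_conj
  have h2 : (2 : ZMod p) ≠ 0 := by
    intro h
    have : ((2 : ℕ) : ZMod p) = 0 := by exact_mod_cast h
    rw [ZMod.natCast_eq_zero_iff] at this
    exact hp2 ((Nat.prime_dvd_prime_iff_eq hp.out Nat.prime_two).mp this)
  exact isIrreducible_baseChange ((W.map (Int.castRingHom ℚ)).residualGaloisRepOf p hcard hker) h2 (isIrreducible_res hirr) c
    (by rw [← map_mul, hc, map_one])
    (detE_conj hΔ (hcard := hcard) (hker := hker) hc hc1) k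

variable {k : Type} [Field k] {χ : ZMod p →+* k} {ρbar : ResidualGaloisRep k}
  (he : ρbar.IsEquiv (((W.map (Int.castRingHom ℚ)).residualGaloisRepOf p hcard hker).baseChangeAlong χ))

include he

theorem charpoly_bar (σ : Γℚ) : LinearMap.charpoly (ρbar.ρ σ) =
    X ^ 2 - C (χ (trE W p σ)) * X + C (χ (detE W p σ)) := by
  rw [charpoly_eq_of_isEquiv he, charpoly_baseChangeAlong, charpoly_res]
  simp

theorem trace_det_bar (σ : Γℚ) : LinearMap.trace k ρbar.V (ρbar.ρ σ) = χ (trE W p σ) ∧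
    LinearMap.det (ρbar.ρ σ) = χ (detE W p σ) :=
  trace_det_of_charpoly ρbar (charpoly_bar he σ)

/-- `ρbar = E[p] ⊗ k` is irreducible. -/
theorem isIrreducible_bar (hΔ : W.Δ ≠ 0) (hp2 : p ≠ 2)
    (hirr : W.ModRepIsIrreducible p) : ρbar.IsIrreducible :=
  isIrreducible_of_isEquiv he (isIrreducible_baseChangeAlong hΔ hp2 hirr χ)

/-- `ρbar = E[p] ⊗ k` is odd. -/
theorem isOdd_bar (hΔ : W.Δ ≠ 0) : ρbar.IsOdd := by
  intro c hc hc1
  rw [(trace_det_bar he c).2, detE_conj hΔ (hcard := hcard) (hker := hker) hc hc1, map_neg, map_one]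

omit he in
theorem two_ne_zero_of_hom (hp2 : p ≠ 2) (χ : ZMod p →+* k) : (2 : k) ≠ 0 := by
  intro h
  have h1 : χ ((2 : ℕ) : ZMod p) = 0 := by rw [map_natCast]; exact_mod_cast h
  have h2 : ((2 : ℕ) : ZMod p) = 0 := χ.injective (by rw [h1, _root_.map_zero])
  rw [ZMod.natCast_eq_zero_iff] at h2
  exact hp2 ((Nat.prime_dvd_prime_iff_eq hp.out Nat.prime_two).mp h2)

/-- `E[p] ⊗ K` is irreducible for all extensions `K / k`. -/
theorem isIrreducible_bar_baseChange (hΔ : W.Δ ≠ 0) (hp2 : p ≠ 2)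
    (hirr : W.ModRepIsIrreducible p) (K : Type) [Field K] [Algebra k K] :
    (ρbar.baseChange K).IsIrreducible := by
  obtain ⟨c, hc, hc1⟩ := exists_conj
  exact isIrreducible_baseChange ρbar (two_ne_zero_of_hom hp2 χ) (isIrreducible_bar he hΔ hp2 hirr) c
    (by rw [← map_mul, hc, map_one]) (isOdd_bar he hΔ c hc hc1) K

/-- **`habs`**: `ρbar = E[p] ⊗ k` is absolutely irreducible. -/
theorem isAbsolutelyIrreducible (hΔ : W.Δ ≠ 0) (hp2 : p ≠ 2)
    (hirr : W.ModRepIsIrreducible p) : ρbar.IsAbsolutelyIrreducible :=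
  isIrreducible_bar_baseChange he hΔ hp2 hirr (AlgebraicClosure k)

/-- **`hdet`**: the determinant of `ρbar = E[p] ⊗ k` is cyclotomic. -/
theorem detIsCyclotomic (hΔ : W.Δ ≠ 0) :
    (GaloisRepAdic.ofResidualGaloisRep ρbar).DetIsCyclotomic p := by
  have hp0 : (p : k) = 0 := by
    rw [← map_natCast χ, ZMod.natCast_self, _root_.map_zero]
  refine ⟨by rw [hp0]; exact zero_mem _, fun n σ a ha => ?_⟩
  change LinearMap.det (ρbar.ρ σ) - (a : k) ∈ _
  rcases Nat.eq_zero_or_pos n with rfl | hn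
  · rw [pow_zero, Nat.cast_one, Ideal.span_singleton_one]
    trivial
  · have h1 : detE W p σ = a := detE_eq hΔ (hcard := hcard) (hker := hker) fun μ hμ => by
      refine ha μ ?_
      obtain ⟨m, rfl⟩ : ∃ m, n = m + 1 := ⟨n - 1, by omega⟩
      rw [pow_succ', pow_mul, hμ, one_pow]
    rw [(trace_det_bar he σ).2, h1, map_natCast, sub_self]
    exact zero_mem _

/-- **`hsplit`**: the characteristic polynomials of `ρbar` split if all quadratic polynomials over
`𝔽_p` split over `k`. -/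
theorem exists_split (hk : ∀ a b : ZMod p, ∃ α β : k,
      X ^ 2 - C (χ a) * X + C (χ b) = (X - C α) * (X - C β)) (σ : Γℚ) :
    ∃ α β : k, LinearMap.charpoly (ρbar.ρ σ) = (X - C α) * (X - C β) := by
  rw [charpoly_bar he σ]
  exact hk _ _

/-- **`hsplit`**: the characteristic polynomials of `ρbar` split if `#k = p ^ (2 m)`. -/
theorem exists_split_of_card [Finite k] {m : ℕ} (hk : Nat.card k = p ^ (2 * m)) (σ : Γℚ) :
    ∃ α β : k, LinearMap.charpoly (ρbar.ρ σ) = (X - C α) * (X - C β) :=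
  exists_split he (exists_quadratic_split p χ hk) σ

/-- **`hTW`**: no proper line of `ρbar ⊗ K` is stable under a subgroup of index two. -/
theorem stable_eq_bot_or_top (hΔ : W.Δ ≠ 0) (hss : W.IsSemistableModel) (hp2 : p ≠ 2)
    (hirr : W.ModRepIsIrreducible p) (K : Type) [Field K] [Algebra k K] (G : Subgroup Γℚ)
    (hG : G.index = 2) (V : Submodule K (ρbar.baseChange K).V)
    (hV : ∀ σ ∈ G, ∀ x ∈ V, (ρbar.baseChange K).ρ σ x ∈ V) : V = ⊥ ∨ V = ⊤ := by
  have hT : ∀ σ, LinearMap.trace K (ρbar.baseChange K).V ((ρbar.baseChange K).ρ σ) =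
      ((algebraMap k K).comp χ) (trE W p σ) ∧
      LinearMap.det ((ρbar.baseChange K).ρ σ) = ((algebraMap k K).comp χ) (detE W p σ) := by
    intro σ
    refine trace_det_of_charpoly _ ?_
    rw [charpoly_baseChange', charpoly_bar he σ]
    simp
  exact htw_core (ρbar.baseChange K) p hp2 ((algebraMap k K).comp χ)
    (isIrreducible_bar_baseChange he hΔ hp2 hirr K) (trE W p) (detE W p)
    (fun σ => (hT σ).1) (fun σ => (hT σ).2)
    (fun q hq hqp A hA σ hσ => unipotent_q hΔ (hcard := hcard) (hker := hker) hq hqp (hss q hq)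
      A hA hσ)
    (fun A hA u => exists_detE_eq hΔ (hcard := hcard) (hker := hker) A hA u)
    (fun A hA => dichotomy W A hΔ hp2 (hss p hp.out) hA) G hG V hV

end curve

section cards

variable {W : WeierstrassCurve ℤ} (hΔ : W.Δ ≠ 0) {p : ℕ} [hp : Fact p.Prime]

include hΔ

/-- `#E[p] = p²` -/
theorem card_torsion : Nat.card (Submodule.torsionBy ℤ
      ((W.map (Int.castRingHom ℚ))⁄(AlgebraicClosure ℚ)).Point p) = p ^ 2 := by
  have := isElliptic_qb W hΔ
  exact EllTorsion.card_torsionBy _ (Nat.cast_ne_zero.mpr hp.out.ne_zero)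

/-- the Galois action on `E[p]` factors through a finite level -/
theorem factorsThroughFiniteLevel : GaloisFactorsThroughFiniteLevel
    (galoisRepModuleEnd (K := AlgebraicClosure ℚ) ℚ (W.map (Int.castRingHom ℚ)) p) := by
  have := isElliptic_of_Δ_ne_zero hΔ
  exact EllTorsion.galoisRepModuleEnd_factorsThroughFiniteLevel _ hp.out.ne_zero

end cards

section tate

variable {W : WeierstrassCurve ℤ} (hΔ : W.Δ ≠ 0) {p : ℕ} [hp : Fact p.Prime]
  {𝒪 : Type} [CommRing 𝒪] [IsLocalRing 𝒪] (ψ : ℤ_[p] →+* 𝒪) (hψ : IsLocalHom ψ)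

/-- The hypotheses of S56 for the residual representation of `T_p E ⊗ 𝒪`. -/
theorem tate_hyps (hss : W.IsSemistableModel) (hp2 : p ≠ 2) (hirr : W.ModRepIsIrreducible p)
    [Finite (ResidueField 𝒪)] {m : ℕ} (hk : Nat.card (ResidueField 𝒪) = p ^ (2 * m)) :
    (((tate W hΔ p).baseChangeAlong ψ hψ).residual).IsAbsolutelyIrreducible ∧
    (GaloisRepAdic.ofResidualGaloisRep
      ((tate W hΔ p).baseChangeAlong ψ hψ).residual).DetIsCyclotomic p ∧
    (∀ σ : Γℚ, ∃ α β : ResidueField 𝒪,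
      LinearMap.charpoly (((tate W hΔ p).baseChangeAlong ψ hψ).residual.ρ σ) =
        (X - C α) * (X - C β)) ∧
    (∀ (K : Type) [Field K] [Algebra (ResidueField 𝒪) K] (G : Subgroup Γℚ), G.index = 2 →
      ∀ V : Submodule K (((tate W hΔ p).baseChangeAlong ψ hψ).residual.baseChange K).V,
        (∀ σ ∈ G, ∀ x ∈ V,
          (((tate W hΔ p).baseChangeAlong ψ hψ).residual.baseChange K).ρ σ x ∈ V) →
        V = ⊥ ∨ V = ⊤) := by
  have he := tate_baseChange_residual_isEquiv hΔ (card_torsion hΔ) (factorsThroughFiniteLevel hΔ)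
    ψ hψ ((ResidueField.map ψ).comp (chi0 p))
  exact ⟨isAbsolutelyIrreducible he hΔ hp2 hirr, detIsCyclotomic he hΔ,
    exists_split_of_card he hk,
    fun K _ _ G hG V hV => stable_eq_bot_or_top he hΔ hss hp2 hirr K G hG V hV⟩

end tate

end Fermat.Agent.RT.HTW
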