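import Fermat.Agent.RT.Descent
import Fermat.Agent.RT.PointPT

/-!
# All Hecke eigenvalues of a newform lie in `𝒪` (team RT, helper28)

If `j : 𝒪 →+* ℂ` is injective and `a_ℓ(g) ∈ j(𝒪)` for almost all `ℓ` then `a_ℓ(g) ∈ j(𝒪)` for all
primes `ℓ`.
-/

set_option autoImplicit false
set_option linter.unusedSectionVars false

open Matrix Matrix.SpecialLinearGroup CongruenceSubgroup IsLocalRing ModularFormClass
open scoped MatrixGroups OnePoint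

noncomputable section

namespace Fermat.Agent.RT.CoeffMem

open Fermat.Agent.LR Fermat.Agent.LR.PS Fermat.Agent.RT Fermat.Agent.RT.Num
  Fermat.Agent.RT.Point

variable {𝒪 : Type*} [CommRing 𝒪] [IsDomain 𝒪] [IsDiscreteValuationRing 𝒪] {j : 𝒪 →+* ℂ}
  {N : ℕ} [NeZero N] {g : CuspForm (Gamma0 N) 2} {S : Set ℕ} {t : ℕ → 𝒪}

/-- an operator acting by a scalar `c ∈ ℂ` on `mapCoeff j x`, `x` primitive, commuting with
`mapCoeff`. -/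
theorem mem_range_of_eig {x x' : Pairs 𝒪} (hx : Prim x) {c : ℂ}
    (h : mapCoeff j x' = c • mapCoeff j x) : ∃ a : 𝒪, j a = c := by
  obtain ⟨s, u, hu⟩ := hx.exists_isUnit
  obtain ⟨v, hv⟩ := hu
  have h1 := congrFun (congrFun h s) u
  rw [mapCoeff_apply, Pi.smul_apply, Pi.smul_apply, mapCoeff_apply, smul_eq_mul, ← hv] at h1
  refine ⟨x' s u * ↑v⁻¹, ?_⟩
  rw [map_mul, h1, mul_assoc, ← map_mul, Units.mul_inv, map_one, mul_one]

/-- **Integrality of all eigenvalues.** -/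
theorem exists_coeff (hj : Function.Injective j) (hg : g.IsNewform) (hS : S.Finite)
    (hNS : ∀ q : ℕ, q.Prime → q ∣ N → q ∈ S)
    (ht : ∀ ℓ : ℕ, ℓ.Prime → ℓ ∉ S → j (t ℓ) = qCoeff ⇑g ℓ)
    (hne : NonEis N S (qCoeff ⇑g)) :
    ∃ a : ℕ → 𝒪, (∀ ℓ : ℕ, ℓ.Prime → j (a ℓ) = qCoeff ⇑g ℓ) ∧
      ∀ ℓ : ℕ, ℓ.Prime → ℓ ∉ S → a ℓ = t ℓ := by
  -- the symbol
  have h1 : newSym g 1 ∈ CEig j t S N 1 := by
    rw [mem_CEig_iff ht]
    exact ⟨eigMS_mono dvd_rfl (fun p hp h => hNS p hp h) (newSym_mem_eigMS hg 1),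
      (RT.mem_sgnMS.mp (newSym_mem g (by norm_num))).2⟩
  obtain ⟨x, hx1, hx2, hx3, -, -⟩ := Descent.exists_prim_of_CEig hj (NeZero.ne N) h1
    (newSym_ne_zero hg 1)
  have h2 : mapCoeff j x ∈ CEig j t S N 1 := by
    obtain ⟨h3, h4⟩ := RT.mem_sgnMS.mp hx1
    refine mem_CEig.mpr ⟨RT.mem_sgnMS.mpr ⟨mapCoeff_mem j h3, ?_⟩, fun ℓ hℓ hℓS => ?_⟩
    · rw [← mapCoeff_slash, h4, IharaInj.mapCoeff_smul, map_intCast]
    · rw [← mapCoeff_heckeT, hx3 ℓ hℓ hℓS, IharaInj.mapCoeff_smul]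
  obtain ⟨h5, h6⟩ := (mem_CEig_iff ht).mp h2
  obtain ⟨c, hc⟩ := exists_smul_of_mem_sgn hg hS hNS hne h5 h6
  have key : ∀ ℓ : ℕ, ℓ.Prime → ∃ a : 𝒪, j a = qCoeff ⇑g ℓ := by
    intro ℓ hℓ
    by_cases hℓN : ℓ ∣ N
    · refine mem_range_of_eig (x' := heckeU ℓ x) hx2 ?_
      rw [mapCoeff_heckeU, hc, map_smul, heckeU_newSym hg 1 hℓ hℓN, smul_comm]
    · refine mem_range_of_eig (x' := heckeT ℓ x) hx2 ?_
      rw [mapCoeff_heckeT, hc, map_smul, (newSym_mem_eigMS hg 1).2 ℓ hℓ hℓN, smul_comm]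
  classical
  refine ⟨fun ℓ => if h : ℓ.Prime then (key ℓ h).choose else 0, fun ℓ hℓ => ?_,
    fun ℓ hℓ hℓS => ?_⟩
  · simp only [dif_pos hℓ]
    exact (key ℓ hℓ).choose_spec
  · apply hj
    simp only [dif_pos hℓ]
    rw [(key ℓ hℓ).choose_spec, ht ℓ hℓ hℓS]

end Fermat.Agent.RT.CoeffMem
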