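import Mathlib
import Fermat.Agent.RT.SelUnram
import Fermat.Agent.RT.PStep.Main
import Fermat.Agent.FlatOrd.Cyc
import Fermat.Agent.DefCond.Main

/-!
# The Galois side of the numerical criterion, ready-made

For a finite set `Q` of primes `q ≠ p`, compare the cotangent spaces of
* `𝒞 S ∧ unipotent at Smin` and `𝒞 (S ∪ Q) ∧ unipotent at Smin`, `𝒞` strict ordinary, ordinary or
  flat;
* `flat S ∧ unipotent at Smin` and `ordinary (S ∪ Q) ∧ unipotent at Smin`.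
-/

set_option autoImplicit false
set_option linter.unusedSectionVars false

noncomputable section

open IsLocalRing Pointwise

namespace Fermat.Agent.RT.SelMain

open Fermat.Agent.RT.SelDer Fermat.Agent.RT.SelInertia Fermat.Agent.RT.SelStep
  Fermat.Agent.RT.SelUnram Fermat.Agent.RT.PStep Fermat.Agent.UDef Fermat.Agent.DefCond

local notation "Qb" => AlgebraicClosure ℚ

section Length

variable {R : Type*} [CommRing R] {M : Type*} [AddCommGroup M] [Module R M]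

theorem length_sup_le (N₁ N₂ : Submodule R M) :
    Module.length R ↥(N₁ ⊔ N₂) ≤ Module.length R N₁ + Module.length R N₂ := by
  rw [← Module.length_prod]
  let f : (N₁ × N₂) →ₗ[R] ↥(N₁ ⊔ N₂) :=
    (Submodule.inclusion le_sup_left).coprod (Submodule.inclusion le_sup_right)
  refine Module.length_le_of_surjective f ?_
  rintro ⟨x, hx⟩
  obtain ⟨a, ha, b, hb, rfl⟩ := Submodule.mem_sup.mp hx
  exact ⟨(⟨a, ha⟩, ⟨b, hb⟩), rfl⟩

theorem length_finset_sup_le {ι : Type*} (s : Finset ι) (N : ι → Submodule R M) :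
    Module.length R ↥(s.sup N) ≤ ∑ i ∈ s, Module.length R (N i) := by
  classical
  induction s using Finset.induction_on with
  | empty =>
    rw [Finset.sup_empty, Finset.sum_empty]
    exact (Module.length_eq_zero_iff.mpr inferInstance).le
  | insert i s hi ih =>
    rw [Finset.sup_insert, Finset.sum_insert hi]
    exact (length_sup_le _ _).trans (add_le_add le_rfl ih)

end Length

variable {𝒪 : Type} [CommRing 𝒪] [IsDomain 𝒪] [IsDiscreteValuationRing 𝒪]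
  [IsAdicComplete (maximalIdeal 𝒪) 𝒪] {ρbar : ResidualGaloisRep (ResidueField 𝒪)}
  {𝒟₁ 𝒟₂ : ∀ ⦃A : Type⦄ [CommRing A] [IsLocalRing A] [Algebra 𝒪 A], GaloisRepAdic A → Prop}

/-- **General comparison of cotangent spaces.** -/
theorem length_cot_le_general (D₁ : GaloisRep.DeformationRingData 𝒪 ρbar 𝒟₁)
    (D₂ : GaloisRep.DeformationRingData 𝒪 ρbar 𝒟₂) (hg₁ : Good 𝒪 𝒟₁) (hg₂ : Good 𝒪 𝒟₂)
    (π : D₂.R →ₐ[𝒪] D₁.R) (hπ : IsLocalHom (π : D₂.R →+* D₁.R))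
    (hπe : (D₂.ρ.baseChangeAlong (π : D₂.R →+* D₁.R) hπ).IsEquiv D₁.ρ)
    (lam : D₁.R →ₐ[𝒪] 𝒪) (J : Ideal D₂.R) (hJ : J ≤ maximalIdeal D₂.R)
    (h𝒟 : ∀ (_ : IsLocalRing (D₂.R ⧸ J))
      (hmk : IsLocalHom ((Ideal.Quotient.mkₐ 𝒪 J : D₂.R →ₐ[𝒪] D₂.R ⧸ J) : D₂.R →+* D₂.R ⧸ J)),
      IsCoeff 𝒪 (D₂.R ⧸ J) →
      𝒟₂ (D₂.ρ.baseChangeAlong ((Ideal.Quotient.mkₐ 𝒪 J : D₂.R →ₐ[𝒪] D₂.R ⧸ J) :
        D₂.R →+* D₂.R ⧸ J) hmk) →
      𝒟₁ (D₂.ρ.baseChangeAlong ((Ideal.Quotient.mkₐ 𝒪 J : D₂.R →ₐ[𝒪] D₂.R ⧸ J) :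
        D₂.R →+* D₂.R ⧸ J) hmk)) :
    Function.Surjective π ∧ RingHom.ker π ≤ J ∧
    Module.length 𝒪 (Cot (lam.comp π)) ≤ Module.length 𝒪 (Cot lam) +
      Module.length 𝒪 ((J.restrictScalars 𝒪).map (der (lam.comp π))) := by
  have hc₂ : IsCoeff 𝒪 D₂.R := ⟨inferInstance, D₂.residue_surjective, inferInstance⟩
  have hπs := surjective_of_canonical D₁ D₂ hg₁.baseChange π hπ hπe
  have hJtop : J ≠ ⊤ := fun h =>
    (maximalIdeal.isMaximal D₂.R).ne_top (top_le_iff.mp (h ▸ hJ))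
  obtain ⟨hl, hcomp, hloc, hsurj, hmk⟩ := quotient_facts (𝒪 := 𝒪) D₂.residue_surjective hJtop
  have hcq : IsCoeff 𝒪 (D₂.R ⧸ J) := ⟨hloc, hsurj, inferInstance⟩
  set mk : D₂.R →ₐ[𝒪] D₂.R ⧸ J := Ideal.Quotient.mkₐ 𝒪 J with hmkdef
  have h𝒟₂ : 𝒟₂ (D₂.ρ.baseChangeAlong (mk : D₂.R →+* D₂.R ⧸ J) hmk) :=
    hg₂.baseChange hc₂ hcq mk hmk D₂.isOfType
  have h𝒟₁ := h𝒟 hl hmk hcq h𝒟₂
  obtain ⟨h, ⟨hh, hhe⟩, -⟩ := D₁.universal (D₂.R ⧸ J) hsurj _ h𝒟₁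
    (residual_bc D₂.residual_isEquiv mk hmk)
  have hhπ_loc : IsLocalHom ((h.comp π : D₂.R →ₐ[𝒪] D₂.R ⧸ J) : D₂.R →+* D₂.R ⧸ J) :=
    RingHom.isLocalHom_comp (h : D₁.R →+* D₂.R ⧸ J) (π : D₂.R →+* D₁.R)
  have h1 : h.comp π = mk := by
    refine universal_unique D₂ hsurj hhπ_loc hmk ?_ h𝒟₂
    refine IsEquiv.trans' (IsEquiv.symm' (bc_comp D₂.ρ (π : D₂.R →+* D₁.R) hπ
      (h : D₁.R →+* D₂.R ⧸ J) hh _ hhπ_loc rfl)) ?_
    exact IsEquiv.trans' (IsEquiv.bc hπe _ hh) hhe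
  have hker : RingHom.ker π ≤ J := by
    intro x hx
    have h3 : h (π x) = mk x := DFunLike.congr_fun h1 x
    rw [(RingHom.mem_ker).mp hx, map_zero] at h3
    exact Ideal.Quotient.eq_zero_iff_mem.mp h3.symm
  refine ⟨hπs, hker, (length_cot_le π hπs lam).trans (add_le_add le_rfl ?_)⟩
  have hle : ((RingHom.ker π).restrictScalars 𝒪).map (der (lam.comp π)) ≤
      (J.restrictScalars 𝒪).map (der (lam.comp π)) := Submodule.map_mono hker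
  exact Module.length_le_of_injective (Submodule.inclusion hle) (Submodule.inclusion_injective _)

/-- The Euler factor at `q`. -/
def eul (q : ℕ) (t : 𝒪) : 𝒪 := ((q : 𝒪) - 1) * (((q : 𝒪) + 1) ^ 2 - t ^ 2)

/-- The local contribution at `q ≠ p`. -/
theorem length_inertiaIdeal_le {R : Type} [CommRing R] [IsLocalRing R] [IsNoetherianRing R]
    [Algebra 𝒪 R] (ρ : GaloisRepAdic R) {M : GalQ →* Matrix (Fin 2) (Fin 2) R}
    (hM : IsModel ρ M) {p q : ℕ} (hp : p.Prime) (hq : q.Prime) (hpq : q ≠ p)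
    (hdet : ρ.DetIsCyclotomic p) (lam : R →ₐ[𝒪] 𝒪) {P : ValuationSubring Qb}
    (hP : P.LiesOverPrime q) {φ : GalQ} (hφ : P.IsFrobeniusAt φ q)
    (hunr : ∀ σ ∈ P.inertiaSubgroupIn ℚ, (M σ).map lam = 1)
    (h0 : eul q (lam (ρ.trace φ)) ≠ 0) :
    Module.length 𝒪 (((inertiaIdeal M P).restrictScalars 𝒪).map (der lam)) ≤
      Ring.ord 𝒪 (eul q (lam (ρ.trace φ))) := by
  have hdetI : ∀ σ ∈ P.inertiaSubgroupIn ℚ, (M σ).det = 1 := by
    intro σ hσ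
    rw [IsModel.det hM, det_eq_natCast hdet (a := 1)
      (fun n μ hμ => inertia_root hp hq hpq.symm hP hσ n μ hμ), Nat.cast_one]
  have hdetφ : (M φ).det = (q : R) := by
    rw [IsModel.det hM, det_eq_natCast hdet (a := q)
      (fun n μ hμ => frobenius_root hp hq hpq.symm hP hφ n μ hμ)]
  set B := (M φ).map lam with hB
  have hBdet : B.det = (q : 𝒪) := by
    have h1 : B.det = lam (M φ).det := by
      rw [hB]
      exact (lam.map_det (M φ)).symm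
    rw [h1, hdetφ, map_natCast]
  have hBtr : B.trace = lam (ρ.trace φ) := by
    rw [hM.trace, Matrix.trace_fin_two, Matrix.trace_fin_two, map_add]
    rfl
  have hqu : IsUnit (q : 𝒪) := by
    by_contra h
    have h1 : (q : 𝒪) ∈ maximalIdeal 𝒪 := h
    have h2 : (p : 𝒪) ∈ maximalIdeal 𝒪 := by
      have := map_mem_maximalIdeal lam hdet.1
      rwa [map_natCast] at this
    obtain ⟨a, b, hab⟩ := Nat.isCoprime_iff_coprime.mpr
      ((Nat.coprime_primes hp hq).mpr hpq.symm)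
    have h3 : (a : 𝒪) * (p : 𝒪) + (b : 𝒪) * (q : 𝒪) = 1 := by
      have h5 := congrArg (Int.cast : ℤ → 𝒪) hab
      push_cast at h5
      exact h5
    have h4 : (1 : 𝒪) ∈ maximalIdeal 𝒪 := by
      rw [← h3]
      exact Ideal.add_mem _ (Ideal.mul_mem_left _ _ h2) (Ideal.mul_mem_left _ _ h1)
    exact (Ideal.ne_top_iff_one _).mp (maximalIdeal.isMaximal 𝒪).ne_top h4
  have hloc : locEl q B = (-(q : 𝒪) ^ 3) * eul q (lam (ρ.trace φ)) := by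
    rw [locEl, hBdet, hBtr, eul]
    ring
  have hu3 : IsUnit (-(q : 𝒪) ^ 3) := (hqu.pow 3).neg
  have hloc0 : locEl q B ≠ 0 := by
    rw [hloc]
    exact mul_ne_zero hu3.ne_zero h0
  have hlen := length_inertiaSpan_le lam hq ((Nat.coprime_primes hp hq).mpr hpq.symm) hdet.1 hP
    hφ hM.mcont hunr hdetI hloc0
  have hord : Ring.ord 𝒪 (locEl q B) = Ring.ord 𝒪 (eul q (lam (ρ.trace φ))) := by
    rw [hloc]
    exact Ring.ord_mul_of_isUnit_left hu3 _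
  rw [← hord]
  refine le_trans ?_ hlen
  have h5 := map_inertiaIdeal_le lam hunr
  exact Module.length_le_of_injective (Submodule.inclusion h5) (Submodule.inclusion_injective h5)

theorem restrictScalars_sup {R : Type} [CommRing R] [Algebra 𝒪 R] (I J : Ideal R) :
    (I ⊔ J).restrictScalars 𝒪 = I.restrictScalars 𝒪 ⊔ J.restrictScalars 𝒪 := by
  ext x
  simp only [Submodule.restrictScalars_mem, Submodule.mem_sup]

theorem restrictScalars_finset_sup {R : Type} [CommRing R] [Algebra 𝒪 R] {ι : Type} (s : Finset ι)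
    (I : ι → Ideal R) :
    (s.sup I).restrictScalars 𝒪 = s.sup fun i => (I i).restrictScalars 𝒪 := by
  classical
  induction s using Finset.induction_on with
  | empty => rw [Finset.sup_empty, Finset.sup_empty]; rfl
  | insert i s hi ih => rw [Finset.sup_insert, Finset.sup_insert, restrictScalars_sup, ih]

theorem map_finset_sup {M N : Type} [AddCommGroup M] [Module 𝒪 M] [AddCommGroup N] [Module 𝒪 N]
    (f : M →ₗ[𝒪] N) {ι : Type} (s : Finset ι) (I : ι → Submodule 𝒪 M) :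
    (s.sup I).map f = s.sup fun i => (I i).map f := by
  classical
  induction s using Finset.induction_on with
  | empty => rw [Finset.sup_empty, Finset.sup_empty, Submodule.map_bot]
  | insert i s hi ih => rw [Finset.sup_insert, Finset.sup_insert, Submodule.map_sup, ih]

/-- **Comparison, all primes at once.** `Jp` is an auxiliary ideal (for the prime `p`). -/
theorem length_cot_le_aux (D₁ : GaloisRep.DeformationRingData 𝒪 ρbar 𝒟₁)
    (D₂ : GaloisRep.DeformationRingData 𝒪 ρbar 𝒟₂) (hg₁ : Good 𝒪 𝒟₁) (hg₂ : Good 𝒪 𝒟₂)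
    {p : ℕ} (hp : p.Prime) (Q : Finset ℕ) (hQ : ∀ q ∈ Q, q.Prime ∧ q ≠ p)
    (hunr : ∀ q ∈ Q, D₁.ρ.IsUnramifiedAt q) (hdet : D₂.ρ.DetIsCyclotomic p)
    (π : D₂.R →ₐ[𝒪] D₁.R) (hπ : IsLocalHom (π : D₂.R →+* D₁.R))
    (hπe : (D₂.ρ.baseChangeAlong (π : D₂.R →+* D₁.R) hπ).IsEquiv D₁.ρ)
    (lam : D₁.R →ₐ[𝒪] 𝒪) (Jp : Ideal D₂.R) (hJp : Jp ≤ maximalIdeal D₂.R)
    (h𝒟 : ∀ (J : Ideal D₂.R) (_ : Jp ≤ J) (_ : IsLocalRing (D₂.R ⧸ J))
      (hmk : IsLocalHom ((Ideal.Quotient.mkₐ 𝒪 J : D₂.R →ₐ[𝒪] D₂.R ⧸ J) : D₂.R →+* D₂.R ⧸ J)),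
      IsCoeff 𝒪 (D₂.R ⧸ J) →
      (∀ q ∈ Q, (D₂.ρ.baseChangeAlong ((Ideal.Quotient.mkₐ 𝒪 J : D₂.R →ₐ[𝒪] D₂.R ⧸ J) :
        D₂.R →+* D₂.R ⧸ J) hmk).IsUnramifiedAt q) →
      𝒟₂ (D₂.ρ.baseChangeAlong ((Ideal.Quotient.mkₐ 𝒪 J : D₂.R →ₐ[𝒪] D₂.R ⧸ J) :
        D₂.R →+* D₂.R ⧸ J) hmk) →
      𝒟₁ (D₂.ρ.baseChangeAlong ((Ideal.Quotient.mkₐ 𝒪 J : D₂.R →ₐ[𝒪] D₂.R ⧸ J) :
        D₂.R →+* D₂.R ⧸ J) hmk))
    (P : ℕ → ValuationSubring Qb) (hP : ∀ q ∈ Q, (P q).LiesOverPrime q) (φ : ℕ → GalQ)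
    (hφ : ∀ q ∈ Q, (P q).IsFrobeniusAt (φ q) q)
    (h0 : ∀ q ∈ Q, eul q (lam (D₁.ρ.trace (φ q))) ≠ 0) :
    Module.length 𝒪 (Cot (lam.comp π)) ≤ Module.length 𝒪 (Cot lam) +
      (Module.length 𝒪 ((Jp.restrictScalars 𝒪).map (der (lam.comp π))) +
        ∑ q ∈ Q, Ring.ord 𝒪 (eul q (lam (D₁.ρ.trace (φ q))))) := by
  obtain ⟨M, hM⟩ := exists_model D₂.ρ
  have hM₁ : IsModel D₁.ρ (mapRep (π : D₂.R →+* D₁.R) M) :=
    (hM.baseChangeAlong _ hπ).of_isEquiv hπe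
  have hMπ : ∀ q ∈ Q, ∀ σ ∈ (P q).inertiaSubgroupIn ℚ, (M σ).map π = 1 := fun q hq σ hσ =>
    (IsModel.eq_one_iff hM₁ σ).mpr (hunr q hq (P q) (hP q hq) σ hσ)
  have htr : ∀ σ, (lam.comp π) (D₂.ρ.trace σ) = lam (D₁.ρ.trace σ) := by
    intro σ
    rw [hM₁.trace, hM.trace, Matrix.trace_fin_two, Matrix.trace_fin_two, map_add, map_add]
    rfl
  set Jq : ℕ → Ideal D₂.R := fun q => inertiaIdeal M (P q) with hJq
  set J : Ideal D₂.R := Jp ⊔ Q.sup Jq with hJ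
  have hJqle : ∀ q ∈ Q, Jq q ≤ J := fun q hq => (Finset.le_sup hq).trans le_sup_right
  have hJqker : ∀ q ∈ Q, Jq q ≤ RingHom.ker π := by
    intro q hq
    show inertiaIdeal M (P q) ≤ _
    rw [inertiaIdeal, Ideal.span_le]
    rintro _ ⟨σ, hσ, i, j, rfl⟩
    show (M σ - 1) i j ∈ RingHom.ker π
    rw [RingHom.mem_ker, Matrix.sub_apply, map_sub, sub_eq_zero]
    have h := congrFun (congrFun (hMπ q hq σ hσ) i) j
    rw [Matrix.map_apply] at h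
    rw [h, Matrix.one_apply, Matrix.one_apply]
    split_ifs <;> simp
  have hkerm : RingHom.ker π ≤ maximalIdeal D₂.R := le_maximalIdeal (RingHom.ker_ne_top π)
  have hJm : J ≤ maximalIdeal D₂.R :=
    sup_le hJp (Finset.sup_le fun q hq => (hJqker q hq).trans hkerm)
  obtain ⟨-, -, hlen⟩ := length_cot_le_general D₁ D₂ hg₁ hg₂ π hπ hπe lam J hJm (by
    intro hl hmk hc hb
    refine h𝒟 J le_sup_left hl hmk hc (fun q hq => ?_) hb
    refine isUnramifiedAt_of_place (hQ q hq).1 (hP q hq) fun σ hσ => ?_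
    refine (IsModel.eq_one_iff (hM.baseChangeAlong _ hmk) σ).mp ?_
    ext i j
    rw [mapRep_apply, Matrix.map_apply]
    have h1 : (M σ - 1) i j ∈ J := hJqle q hq (Ideal.subset_span ⟨σ, hσ, i, j, rfl⟩)
    have h2 : Ideal.Quotient.mk J ((M σ - 1) i j) = 0 := Ideal.Quotient.eq_zero_iff_mem.mpr h1
    rw [Matrix.sub_apply, map_sub, sub_eq_zero] at h2
    show Ideal.Quotient.mk J (M σ i j) = _
    rw [h2, Matrix.one_apply, Matrix.one_apply]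
    split_ifs <;> simp)
  refine hlen.trans (add_le_add le_rfl ?_)
  rw [hJ, restrictScalars_sup, Submodule.map_sup, restrictScalars_finset_sup, map_finset_sup]
  refine (length_sup_le _ _).trans (add_le_add le_rfl ?_)
  refine (length_finset_sup_le _ _).trans (Finset.sum_le_sum fun q hq => ?_)
  have hunr' : ∀ σ ∈ (P q).inertiaSubgroupIn ℚ, (M σ).map (lam.comp π) = 1 := by
    intro σ hσ
    have h1 := congrArg (fun X : Matrix (Fin 2) (Fin 2) D₁.R => X.map lam) (hMπ q hq σ hσ)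
    simp only [Matrix.map_map] at h1
    have h2 : (1 : Matrix (Fin 2) (Fin 2) D₁.R).map lam = 1 :=
      Matrix.map_one _ (map_zero lam) (map_one lam)
    rw [h2] at h1
    exact h1
  have h3 := length_inertiaIdeal_le D₂.ρ hM hp (hQ q hq).1 (hQ q hq).2 hdet (lam.comp π)
    (hP q hq) (hφ q hq) hunr' (by rw [htr]; exact h0 q hq)
  rw [htr] at h3
  exact h3

/-- **Comparison at a finite set of primes `q ≠ p`.** -/
theorem length_cot_le_primes (D₁ : GaloisRep.DeformationRingData 𝒪 ρbar 𝒟₁)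
    (D₂ : GaloisRep.DeformationRingData 𝒪 ρbar 𝒟₂) (hg₁ : Good 𝒪 𝒟₁) (hg₂ : Good 𝒪 𝒟₂)
    {p : ℕ} (hp : p.Prime) (Q : Finset ℕ) (hQ : ∀ q ∈ Q, q.Prime ∧ q ≠ p)
    (hunr : ∀ q ∈ Q, D₁.ρ.IsUnramifiedAt q) (hdet : D₂.ρ.DetIsCyclotomic p)
    (h𝒟 : ∀ ⦃A : Type⦄ [CommRing A] [IsLocalRing A] [Algebra 𝒪 A], IsCoeff 𝒪 A →
      ∀ (ρ : GaloisRepAdic A), 𝒟₂ ρ → (∀ q ∈ Q, ρ.IsUnramifiedAt q) → 𝒟₁ ρ)
    (π : D₂.R →ₐ[𝒪] D₁.R) (hπ : IsLocalHom (π : D₂.R →+* D₁.R))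
    (hπe : (D₂.ρ.baseChangeAlong (π : D₂.R →+* D₁.R) hπ).IsEquiv D₁.ρ)
    (lam : D₁.R →ₐ[𝒪] 𝒪)
    (P : ℕ → ValuationSubring Qb) (hP : ∀ q ∈ Q, (P q).LiesOverPrime q) (φ : ℕ → GalQ)
    (hφ : ∀ q ∈ Q, (P q).IsFrobeniusAt (φ q) q)
    (h0 : ∀ q ∈ Q, eul q (lam (D₁.ρ.trace (φ q))) ≠ 0) :
    Module.length 𝒪 (Cot (lam.comp π)) ≤ Module.length 𝒪 (Cot lam) +
        ∑ q ∈ Q, Ring.ord 𝒪 (eul q (lam (D₁.ρ.trace (φ q)))) := by
  have h := length_cot_le_aux D₁ D₂ hg₁ hg₂ hp Q hQ hunr hdet π hπ hπe lam ⊥ bot_le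
    (fun J _ hl hmk hc hu hb => h𝒟 hc _ hb hu) P hP φ hφ h0
  have h1 : ((⊥ : Ideal D₂.R).restrictScalars 𝒪).map (der (lam.comp π)) = ⊥ := by
    rw [show ((⊥ : Ideal D₂.R).restrictScalars 𝒪) = ⊥ from rfl, Submodule.map_bot]
  have h2 : Module.length 𝒪 (((⊥ : Ideal D₂.R).restrictScalars 𝒪).map (der (lam.comp π))) = 0 := by
    rw [h1]
    exact Module.length_eq_zero_iff.mpr inferInstance
  rwa [h2, zero_add] at h

end Fermat.Agent.RT.SelMain
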