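import Mathlib
import Fermat.Agent.RT.SelMain
import Fermat.Agent.DefCond.Rings

/-!
# The Galois side of the numerical criterion for the conditions of `S56`

`𝒟_S = 𝒞 S ∧ unipotent at Smin ∖ p` for `𝒞` = strict ordinary, ordinary, flat.
-/

set_option autoImplicit false
set_option linter.unusedSectionVars false

noncomputable section

open IsLocalRing Pointwise GaloisRep
open scoped TensorProduct

namespace Fermat.Agent.RT.SelMain

open Fermat.Agent.RT.SelDer Fermat.Agent.RT.SelInertia Fermat.Agent.RT.SelStep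
  Fermat.Agent.RT.SelUnram Fermat.Agent.RT.PStep Fermat.Agent.UDef Fermat.Agent.DefCond

local notation "Qb" => AlgebraicClosure ℚ

section Transfer

variable {A : Type} [CommRing A] [IsLocalRing A] {p : ℕ}

theorem isOrdinaryAt_of_ordData {ρ : GaloisRepAdic A}
    (h : ∀ P : ValuationSubring Qb, P.LiesOverPrime p → Nonempty (OrdData ρ P)) :
    ρ.IsOrdinaryAt p := by
  intro P hP
  obtain ⟨d⟩ := h P hP
  refine ⟨Submodule.span A {d.b 0}, ⟨d.b, rfl⟩, fun σ hσ v hv => ?_, fun σ hσ v => ?_⟩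
  · obtain ⟨c, rfl⟩ := Submodule.mem_span_singleton.mp hv
    rw [map_smul, d.h0 σ hσ]
    exact Submodule.smul_mem _ _ (Submodule.smul_mem _ _ (Submodule.mem_span_singleton_self _))
  · rw [← d.b.sum_repr v, Fin.sum_univ_two, map_add, map_smul, map_smul, d.h0σ hσ, d.hIσ hσ]
    refine Submodule.mem_span_singleton.mpr
      ⟨d.b.repr v 0 * (d.x σ - 1) + d.b.repr v 1 * d.y σ, ?_⟩
    simp only [smul_add, add_smul, mul_smul, sub_smul, smul_sub, one_smul]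
    abel

/-- Transport of ordinary data along an equivalence. -/
def ordDataOfEquiv {ρ ρ' : GaloisRepAdic A} {P : ValuationSubring Qb} (e : GaloisRepAdic.Equiv ρ ρ')
    (d : OrdData ρ P) : OrdData ρ' P where
  b := d.b.map e.toLinearEquiv
  x := d.x
  y := d.y
  z := d.z
  h0 := fun φ hφ => by
    rw [Module.Basis.map_apply, ← e.map_apply, d.h0 φ hφ, map_smul]
  h1 := fun φ hφ => by
    rw [Module.Basis.map_apply, Module.Basis.map_apply, ← e.map_apply, d.h1 φ hφ, map_add,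
      map_smul, map_smul]
  hI := d.hI

theorem isOrdinaryAt_of_isEquiv {ρ ρ' : GaloisRepAdic A} (h : ρ.IsEquiv ρ')
    (ho : ρ.IsOrdinaryAt p) : ρ'.IsOrdinaryAt p := by
  obtain ⟨e⟩ := h
  refine isOrdinaryAt_of_ordData fun P hP => ?_
  obtain ⟨d⟩ := exists_ordData ho hP
  exact ⟨ordDataOfEquiv e d⟩

theorem isOrdinaryAt_baseChange {B : Type} [CommRing B] [IsLocalRing B] (φ : A →+* B)
    (hφ : IsLocalHom φ) {ρ : GaloisRepAdic A} (ho : ρ.IsOrdinaryAt p) :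
    (ρ.baseChangeAlong φ hφ).IsOrdinaryAt p := by
  refine isOrdinaryAt_of_ordData fun P hP => ?_
  obtain ⟨d⟩ := exists_ordData ho hP
  exact ⟨d.baseChange φ hφ⟩

/-- The residual representation of a deformation of an ordinary `ρbar` is ordinary. -/
theorem isOrdinaryAt_residual {k : Type} [Field k] {ρbar : ResidualGaloisRep k}
    (ho : (GaloisRepAdic.ofResidualGaloisRep ρbar).IsOrdinaryAt p) {ρ : GaloisRepAdic A}
    (r : k →+* ResidueField A) (h : ρ.residual.IsEquiv (ρbar.baseChangeAlong r)) :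
    (GaloisRepAdic.ofResidualGaloisRep ρ.residual).IsOrdinaryAt p := by
  have hr : IsLocalHom r := ⟨fun a ha => by
    rcases eq_or_ne a 0 with rfl | h0
    · rw [map_zero] at ha
      exact absurd ha not_isUnit_zero
    · exact h0.isUnit⟩
  have h1 := isOrdinaryAt_baseChange r hr ho
  obtain ⟨e⟩ := h
  refine isOrdinaryAt_of_isEquiv (ρ := (GaloisRepAdic.ofResidualGaloisRep ρbar).baseChangeAlong r
    hr) ⟨⟨e.symm.toLinearEquiv, fun σ x => e.symm.map_apply σ x⟩⟩ h1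

end Transfer

variable {𝒪 : Type} [CommRing 𝒪] [IsDomain 𝒪] [IsDiscreteValuationRing 𝒪]
  [IsAdicComplete (maximalIdeal 𝒪) 𝒪] {ρbar : ResidualGaloisRep (ResidueField 𝒪)}

section General

variable {𝒟₁ 𝒟₂ : ∀ ⦃A : Type⦄ [CommRing A] [IsLocalRing A] [Algebra 𝒪 A], GaloisRepAdic A → Prop}

/-- **Comparison at a finite set of primes `q ≠ p` and from flat to ordinary at `p`.** -/
theorem length_cot_le_primes_p (D₁ : GaloisRep.DeformationRingData 𝒪 ρbar 𝒟₁)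
    (D₂ : GaloisRep.DeformationRingData 𝒪 ρbar 𝒟₂) (hg₁ : Good 𝒪 𝒟₁) (hg₂ : Good 𝒪 𝒟₂)
    {p : ℕ} (hp : p.Prime) (hp2 : p ≠ 2) (hfin : Finite (ResidueField 𝒪))
    (Q : Finset ℕ) (hQ : ∀ q ∈ Q, q.Prime ∧ q ≠ p)
    (hunr : ∀ q ∈ Q, D₁.ρ.IsUnramifiedAt q)
    (hdet₂ : ∀ ⦃A : Type⦄ [CommRing A] [IsLocalRing A] [Algebra 𝒪 A], IsCoeff 𝒪 A →
      ∀ (ρ : GaloisRepAdic A), 𝒟₂ ρ → ρ.DetIsCyclotomic p)
    (hord₂ : D₂.ρ.IsOrdinaryAt p)
    (h𝒟 : ∀ ⦃A : Type⦄ [CommRing A] [IsLocalRing A] [Algebra 𝒪 A], IsCoeff 𝒪 A →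
      ∀ (ρ : GaloisRepAdic A), 𝒟₂ ρ → ρ.IsFlatAt p → (∀ q ∈ Q, ρ.IsUnramifiedAt q) → 𝒟₁ ρ)
    (π : D₂.R →ₐ[𝒪] D₁.R) (hπ : IsLocalHom (π : D₂.R →+* D₁.R))
    (hπe : (D₂.ρ.baseChangeAlong (π : D₂.R →+* D₁.R) hπ).IsEquiv D₁.ρ)
    (lam : D₁.R →ₐ[𝒪] 𝒪) (hlam : IsLocalHom (lam : D₁.R →+* 𝒪)) {ρ' : GaloisRepAdic 𝒪}
    (hρ' : (D₁.ρ.baseChangeAlong (lam : D₁.R →+* 𝒪) hlam).IsEquiv ρ')
    {Pp : ValuationSubring Qb} (hPp : Pp.LiesOverPrime p) (d' : OrdData ρ' Pp) {φp : GalQ}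
    (hφp : φp ∈ Pp.decompositionSubgroup ℚ) (h0p : d'.z φp ^ 2 - 1 ≠ 0)
    (P : ℕ → ValuationSubring Qb) (hP : ∀ q ∈ Q, (P q).LiesOverPrime q) (φ : ℕ → GalQ)
    (hφ : ∀ q ∈ Q, (P q).IsFrobeniusAt (φ q) q)
    (h0 : ∀ q ∈ Q, eul q (lam (D₁.ρ.trace (φ q))) ≠ 0) :
    Module.length 𝒪 (Cot (lam.comp π)) ≤ Module.length 𝒪 (Cot lam) +
      (Ring.ord 𝒪 (d'.z φp ^ 2 - 1) +
        ∑ q ∈ Q, Ring.ord 𝒪 (eul q (lam (D₁.ρ.trace (φ q))))) := by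
  have hc₂ : IsCoeff 𝒪 D₂.R := ⟨inferInstance, D₂.residue_surjective, inferInstance⟩
  obtain ⟨τ, hτ⟩ := exists_isTau hp hp2 hPp
  obtain ⟨d⟩ := exists_ordData hord₂ hPp
  have hdet := hdet₂ hc₂ D₂.ρ D₂.isOfType
  have hfin₂ : Finite (ResidueField D₂.R) := by
    refine Finite.of_surjective (ResidueField.map (algebraMap 𝒪 D₂.R)) fun y => ?_
    obtain ⟨c, hc⟩ := D₂.residue_surjective y
    exact ⟨residue 𝒪 c, hc⟩
  set v := d.y τ with hv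
  have huv : (d.z φp ^ 2 - 1) * v = 0 := d.sq_sub_one_mul_eq_zero hfin₂ hdet hp hPp hτ hφp
  have hlamπ : IsLocalHom ((lam : D₁.R →+* 𝒪).comp (π : D₂.R →+* D₁.R)) :=
    RingHom.isLocalHom_comp _ _
  have hz : lam (π (d.z φp)) = d'.z φp := by
    have h1 : (D₂.ρ.baseChangeAlong ((lam : D₁.R →+* 𝒪).comp (π : D₂.R →+* D₁.R))
        hlamπ).IsEquiv ρ' := by
      refine IsEquiv.trans' (IsEquiv.symm' (bc_comp D₂.ρ (π : D₂.R →+* D₁.R) hπ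
        (lam : D₁.R →+* 𝒪) hlam _ hlamπ rfl)) ?_
      exact IsEquiv.trans' (IsEquiv.bc hπe _ hlam) hρ'
    have hcO : IsCoeff 𝒪 𝒪 := ⟨⟨fun a ha => ha⟩, residue_surjective, inferInstance⟩
    have hdetbc : (D₂.ρ.baseChangeAlong ((lam : D₁.R →+* 𝒪).comp (π : D₂.R →+* D₁.R))
        hlamπ).DetIsCyclotomic p :=
      hdet₂ hcO _ (hg₂.baseChange hc₂ hcO (lam.comp π) hlamπ D₂.isOfType)
    exact (d.baseChange _ hlamπ).z_eq d' h1 hdetbc hp hp2 hPp hφp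
  have hval : (lam.comp π) (d.z φp ^ 2 - 1) = d'.z φp ^ 2 - 1 := by
    rw [AlgHom.comp_apply, map_sub, map_sub, map_pow, map_pow, map_one, map_one, hz]
  have hvm : v ∈ maximalIdeal D₂.R := by
    by_contra hcon
    have h1 : IsUnit v := by
      by_contra h2
      exact hcon h2
    rw [h1.mul_left_eq_zero] at huv
    rw [huv, map_zero] at hval
    exact h0p hval.symm
  have hJp : Ideal.span {v} ≤ maximalIdeal D₂.R := by
    rwa [Ideal.span_singleton_le_iff_mem]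
  have h := length_cot_le_aux D₁ D₂ hg₁ hg₂ hp Q hQ hunr hdet π hπ hπe lam (Ideal.span {v}) hJp
    (fun J hJ hl hmk hc hu hb => h𝒟 hc _ hb (by
      refine (d.baseChange ((Ideal.Quotient.mkₐ 𝒪 J : D₂.R →ₐ[𝒪] D₂.R ⧸ J) :
        D₂.R →+* D₂.R ⧸ J) hmk).isFlatAt (hdet₂ hc _ hb) hp hPp hτ ?_ ?_
      · have := hc.isLocalHom
        refine Finite.of_surjective (ResidueField.map (algebraMap 𝒪 (D₂.R ⧸ J))) fun y => ?_
        obtain ⟨c, hc'⟩ := hc.residue_surjective y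
        exact ⟨residue 𝒪 c, hc'⟩
      · exact Ideal.Quotient.eq_zero_iff_mem.mpr (hJ (Ideal.mem_span_singleton_self v))) hu)
    P hP φ hφ h0
  refine h.trans (add_le_add le_rfl (add_le_add ?_ le_rfl))
  rw [← hval]
  exact length_map_span_singleton_le (lam.comp π) v (d.z φp ^ 2 - 1) huv (by rwa [hval])

end General

section Conditions

variable {p : ℕ} (Smin S Q : Finset ℕ)

/-- strict ordinary, unramified outside `S`, unipotent at `Smin ∖ p`. -/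
abbrev strictCond (𝒪 : Type) [CommRing 𝒪] (p : ℕ) (Smin S : Finset ℕ) :
    ∀ ⦃A : Type⦄ [CommRing A] [IsLocalRing A] [Algebra 𝒪 A], GaloisRepAdic A → Prop :=
  fun _A _ _ _ ρ => strictOrdinaryCondition 𝒪 p S ρ ∧
    ∀ q ∈ Smin, q.Prime → q ≠ p → ρ.IsUnipotentOnInertiaAt q

/-- ordinary, unramified outside `S`, unipotent at `Smin ∖ p`. -/
abbrev ordCond (𝒪 : Type) [CommRing 𝒪] (p : ℕ) (Smin S : Finset ℕ) :
    ∀ ⦃A : Type⦄ [CommRing A] [IsLocalRing A] [Algebra 𝒪 A], GaloisRepAdic A → Prop :=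
  fun _A _ _ _ ρ => ordinaryCondition 𝒪 p S ρ ∧
    ∀ q ∈ Smin, q.Prime → q ≠ p → ρ.IsUnipotentOnInertiaAt q

/-- flat, unramified outside `S`, unipotent at `Smin ∖ p`. -/
abbrev flatCond (𝒪 : Type) [CommRing 𝒪] (p : ℕ) (Smin S : Finset ℕ) :
    ∀ ⦃A : Type⦄ [CommRing A] [IsLocalRing A] [Algebra 𝒪 A], GaloisRepAdic A → Prop :=
  fun _A _ _ _ ρ => flatCondition 𝒪 p S ρ ∧
    ∀ q ∈ Smin, q.Prime → q ≠ p → ρ.IsUnipotentOnInertiaAt q

theorem good_strictCond (hp : p.Prime) (hp2 : p ≠ 2) : Good 𝒪 (strictCond 𝒪 p Smin S) :=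
  (good_strictOrdinaryCondition 𝒪 S hp hp2).and (good_unipotent 𝒪 p Smin)

theorem good_ordCond (hp : p.Prime) (hp2 : p ≠ 2) : Good 𝒪 (ordCond 𝒪 p Smin S) :=
  (good_ordinaryCondition 𝒪 S hp hp2).and (good_unipotent 𝒪 p Smin)

theorem good_flatCond (hp : p.Prime) : Good 𝒪 (flatCond 𝒪 p Smin S) :=
  (good_flatCondition 𝒪 S hp).and (good_unipotent 𝒪 p Smin)

variable {Smin S Q}

/-- The data of places and Frobenius elements at the primes of `Q`, and non-vanishing Euler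
factors. -/
structure FrobData (Q : Finset ℕ) {A : Type} [CommRing A] [IsLocalRing A] (ρ : GaloisRepAdic A)
    (lam : A →+* 𝒪) where
  P : ℕ → ValuationSubring Qb
  hP : ∀ q ∈ Q, (P q).LiesOverPrime q
  φ : ℕ → GalQ
  hφ : ∀ q ∈ Q, (P q).IsFrobeniusAt (φ q) q
  h0 : ∀ q ∈ Q, eul q (lam (ρ.trace (φ q))) ≠ 0

/-- The local factor at `q`. -/
def FrobData.c {Q : Finset ℕ} {A : Type} [CommRing A] [IsLocalRing A] {ρ : GaloisRepAdic A}
    {lam : A →+* 𝒪} (F : FrobData Q ρ lam) (q : ℕ) : 𝒪 := eul q (lam (ρ.trace (F.φ q)))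

/-- **RT6 (i), strict case.** -/
theorem sel_strict (hp : p.Prime) (hp2 : p ≠ 2) (hQ : ∀ q ∈ Q, q.Prime ∧ q ≠ p ∧ q ∉ S)
    (D₁ : GaloisRep.DeformationRingData 𝒪 ρbar (strictCond 𝒪 p Smin S))
    (D₂ : GaloisRep.DeformationRingData 𝒪 ρbar (strictCond 𝒪 p Smin (S ∪ Q))) :
    ∃ (π : D₂.R →ₐ[𝒪] D₁.R) (hπ : IsLocalHom (π : D₂.R →+* D₁.R)),
      (D₂.ρ.baseChangeAlong (π : D₂.R →+* D₁.R) hπ).IsEquiv D₁.ρ ∧ Function.Surjective π ∧
      ∀ (lam : D₁.R →ₐ[𝒪] 𝒪) (F : FrobData Q D₁.ρ (lam : D₁.R →+* 𝒪)),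
        Module.length 𝒪 (Cot (lam.comp π)) ≤ Module.length 𝒪 (Cot lam) +
          ∑ q ∈ Q, Ring.ord 𝒪 (F.c q) := by
  obtain ⟨π, hπ, hπe⟩ := exists_canonical D₁ D₂
    ⟨⟨D₁.isOfType.1.1, D₁.isOfType.1.2.1, fun q hq hqS => D₁.isOfType.1.2.2 q hq
      (fun h => hqS (Finset.mem_union_left _ h))⟩, D₁.isOfType.2⟩
  have hg₁ := good_strictCond (𝒪 := 𝒪) Smin S hp hp2
  refine ⟨π, hπ, hπe, surjective_of_canonical D₁ D₂ hg₁.baseChange π hπ hπe, fun lam F => ?_⟩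
  exact length_cot_le_primes D₁ D₂ hg₁ (good_strictCond Smin (S ∪ Q) hp hp2) hp Q
    (fun q hq => ⟨(hQ q hq).1, (hQ q hq).2.1⟩)
    (fun q hq => D₁.isOfType.1.2.2 q (hQ q hq).1 (hQ q hq).2.2) D₂.isOfType.1.1
    (fun A _ _ _ _ ρ h hu => ⟨⟨h.1.1, h.1.2.1, fun q hq hqS => by
      by_cases hqQ : q ∈ Q
      · exact hu q hqQ
      · exact h.1.2.2 q hq (fun hqU => (Finset.mem_union.mp hqU).elim hqS hqQ)⟩, h.2⟩)
    π hπ hπe lam F.P F.hP F.φ F.hφ F.h0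

/-- **RT6 (i), ordinary case.** -/
theorem sel_ord (hp : p.Prime) (hp2 : p ≠ 2) (hQ : ∀ q ∈ Q, q.Prime ∧ q ≠ p ∧ q ∉ S)
    (D₁ : GaloisRep.DeformationRingData 𝒪 ρbar (ordCond 𝒪 p Smin S))
    (D₂ : GaloisRep.DeformationRingData 𝒪 ρbar (ordCond 𝒪 p Smin (S ∪ Q))) :
    ∃ (π : D₂.R →ₐ[𝒪] D₁.R) (hπ : IsLocalHom (π : D₂.R →+* D₁.R)),
      (D₂.ρ.baseChangeAlong (π : D₂.R →+* D₁.R) hπ).IsEquiv D₁.ρ ∧ Function.Surjective π ∧
      ∀ (lam : D₁.R →ₐ[𝒪] 𝒪) (F : FrobData Q D₁.ρ (lam : D₁.R →+* 𝒪)),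
        Module.length 𝒪 (Cot (lam.comp π)) ≤ Module.length 𝒪 (Cot lam) +
          ∑ q ∈ Q, Ring.ord 𝒪 (F.c q) := by
  obtain ⟨π, hπ, hπe⟩ := exists_canonical D₁ D₂
    ⟨⟨D₁.isOfType.1.1, D₁.isOfType.1.2.1, fun q hq hqS => D₁.isOfType.1.2.2 q hq
      (fun h => hqS (Finset.mem_union_left _ h))⟩, D₁.isOfType.2⟩
  have hg₁ := good_ordCond (𝒪 := 𝒪) Smin S hp hp2
  refine ⟨π, hπ, hπe, surjective_of_canonical D₁ D₂ hg₁.baseChange π hπ hπe, fun lam F => ?_⟩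
  exact length_cot_le_primes D₁ D₂ hg₁ (good_ordCond Smin (S ∪ Q) hp hp2) hp Q
    (fun q hq => ⟨(hQ q hq).1, (hQ q hq).2.1⟩)
    (fun q hq => D₁.isOfType.1.2.2 q (hQ q hq).1 (hQ q hq).2.2) D₂.isOfType.1.1
    (fun A _ _ _ _ ρ h hu => ⟨⟨h.1.1, h.1.2.1, fun q hq hqS => by
      by_cases hqQ : q ∈ Q
      · exact hu q hqQ
      · exact h.1.2.2 q hq (fun hqU => (Finset.mem_union.mp hqU).elim hqS hqQ)⟩, h.2⟩)
    π hπ hπe lam F.P F.hP F.φ F.hφ F.h0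

/-- **RT6 (i), flat case.** -/
theorem sel_flat (hp : p.Prime) (hQ : ∀ q ∈ Q, q.Prime ∧ q ≠ p ∧ q ∉ S)
    (D₁ : GaloisRep.DeformationRingData 𝒪 ρbar (flatCond 𝒪 p Smin S))
    (D₂ : GaloisRep.DeformationRingData 𝒪 ρbar (flatCond 𝒪 p Smin (S ∪ Q))) :
    ∃ (π : D₂.R →ₐ[𝒪] D₁.R) (hπ : IsLocalHom (π : D₂.R →+* D₁.R)),
      (D₂.ρ.baseChangeAlong (π : D₂.R →+* D₁.R) hπ).IsEquiv D₁.ρ ∧ Function.Surjective π ∧
      ∀ (lam : D₁.R →ₐ[𝒪] 𝒪) (F : FrobData Q D₁.ρ (lam : D₁.R →+* 𝒪)),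
        Module.length 𝒪 (Cot (lam.comp π)) ≤ Module.length 𝒪 (Cot lam) +
          ∑ q ∈ Q, Ring.ord 𝒪 (F.c q) := by
  obtain ⟨π, hπ, hπe⟩ := exists_canonical D₁ D₂
    ⟨⟨D₁.isOfType.1.1, D₁.isOfType.1.2.1, fun q hq hqS => D₁.isOfType.1.2.2 q hq
      (fun h => hqS (Finset.mem_union_left _ h))⟩, D₁.isOfType.2⟩
  have hg₁ := good_flatCond (𝒪 := 𝒪) Smin S hp
  refine ⟨π, hπ, hπe, surjective_of_canonical D₁ D₂ hg₁.baseChange π hπ hπe, fun lam F => ?_⟩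
  exact length_cot_le_primes D₁ D₂ hg₁ (good_flatCond Smin (S ∪ Q) hp) hp Q
    (fun q hq => ⟨(hQ q hq).1, (hQ q hq).2.1⟩)
    (fun q hq => D₁.isOfType.1.2.2 q (hQ q hq).1 (hQ q hq).2.2) D₂.isOfType.1.1
    (fun A _ _ _ _ ρ h hu => ⟨⟨h.1.1, h.1.2.1, fun q hq hqS => by
      by_cases hqQ : q ∈ Q
      · exact hu q hqQ
      · exact h.1.2.2 q hq (fun hqU => (Finset.mem_union.mp hqU).elim hqS hqQ)⟩, h.2⟩)
    π hπ hπe lam F.P F.hP F.φ F.hφ F.h0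

/-- **RT6 (iii): from flat to ordinary, together with the primes of `Q`.** -/
theorem sel_flat_ord (hp : p.Prime) (hp2 : p ≠ 2) (hfin : Finite (ResidueField 𝒪))
    (hQ : ∀ q ∈ Q, q.Prime ∧ q ≠ p ∧ q ∉ S)
    (hord : (GaloisRepAdic.ofResidualGaloisRep ρbar).IsOrdinaryAt p)
    (D₁ : GaloisRep.DeformationRingData 𝒪 ρbar (flatCond 𝒪 p Smin S))
    (D₂ : GaloisRep.DeformationRingData 𝒪 ρbar (ordCond 𝒪 p Smin (S ∪ Q))) :
    ∃ (π : D₂.R →ₐ[𝒪] D₁.R) (hπ : IsLocalHom (π : D₂.R →+* D₁.R)),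
      (D₂.ρ.baseChangeAlong (π : D₂.R →+* D₁.R) hπ).IsEquiv D₁.ρ ∧ Function.Surjective π ∧
      ∀ (lam : D₁.R →ₐ[𝒪] 𝒪) (hlam : IsLocalHom (lam : D₁.R →+* 𝒪)) (ρ' : GaloisRepAdic 𝒪)
        (_ : (D₁.ρ.baseChangeAlong (lam : D₁.R →+* 𝒪) hlam).IsEquiv ρ')
        (Pp : ValuationSubring Qb) (_ : Pp.LiesOverPrime p) (d' : OrdData ρ' Pp) (φp : GalQ)
        (_ : φp ∈ Pp.decompositionSubgroup ℚ) (_ : d'.z φp ^ 2 - 1 ≠ 0)
        (F : FrobData Q D₁.ρ (lam : D₁.R →+* 𝒪)),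
        Module.length 𝒪 (Cot (lam.comp π)) ≤ Module.length 𝒪 (Cot lam) +
          (Ring.ord 𝒪 (d'.z φp ^ 2 - 1) + ∑ q ∈ Q, Ring.ord 𝒪 (F.c q)) := by
  have hord₁ : D₁.ρ.IsOrdinaryAt p :=
    FlatOrd.Cyc.isOrdinaryAt_of_isFlatAt_of_detIsCyclotomic D₁.ρ hp hp2 D₁.isOfType.1.2.1
      D₁.isOfType.1.1 (isOrdinaryAt_residual hord _ D₁.residual_isEquiv)
  obtain ⟨π, hπ, hπe⟩ := exists_canonical D₁ D₂
    ⟨⟨D₁.isOfType.1.1, hord₁, fun q hq hqS => D₁.isOfType.1.2.2 q hq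
      (fun h => hqS (Finset.mem_union_left _ h))⟩, D₁.isOfType.2⟩
  have hg₁ := good_flatCond (𝒪 := 𝒪) Smin S hp
  refine ⟨π, hπ, hπe, surjective_of_canonical D₁ D₂ hg₁.baseChange π hπ hπe,
    fun lam hlam ρ' hρ' Pp hPp d' φp hφp h0p F => ?_⟩
  exact length_cot_le_primes_p D₁ D₂ hg₁ (good_ordCond Smin (S ∪ Q) hp hp2) hp hp2 hfin Q
    (fun q hq => ⟨(hQ q hq).1, (hQ q hq).2.1⟩)
    (fun q hq => D₁.isOfType.1.2.2 q (hQ q hq).1 (hQ q hq).2.2)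
    (fun A _ _ _ _ ρ h => h.1.1) D₂.isOfType.1.2.1
    (fun A _ _ _ _ ρ h hf hu => ⟨⟨h.1.1, hf, fun q hq hqS => by
      by_cases hqQ : q ∈ Q
      · exact hu q hqQ
      · exact h.1.2.2 q hq (fun hqU => (Finset.mem_union.mp hqU).elim hqS hqQ)⟩, h.2⟩)
    π hπ hπe lam hlam hρ' hPp d' hφp h0p F.P F.hP F.φ F.hφ F.h0

/-- **RT6 (iv)** for deformations: if `ρbar` is not flat at `p` then ordinary deformations with
cyclotomic determinant are strictly ordinary. -/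
theorem isStrictOrdinaryAt_of_deformation {A : Type} [CommRing A] [IsLocalRing A]
    [IsNoetherianRing A] {k : Type} [Field k] {ρbar : ResidualGaloisRep k}
    (hp : p.Prime) (hp2 : p ≠ 2) (hk : Finite k) (hfin : Finite (ResidueField A))
    (hflat : ¬ (GaloisRepAdic.ofResidualGaloisRep ρbar).IsFlatAt p)
    {ρ : GaloisRepAdic A} (r : k →+* ResidueField A)
    (hres : ρ.residual.IsEquiv (ρbar.baseChangeAlong r)) (hord : ρ.IsOrdinaryAt p)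
    (hdet : ρ.DetIsCyclotomic p) : ρ.IsStrictOrdinaryAt p := by
  refine isStrictOrdinaryAt_of_not_flat hfin hp hp2 hord hdet fun h => hflat ?_
  have hr : IsLocalHom r := ⟨fun a ha => by
    rcases eq_or_ne a 0 with rfl | h0
    · rw [map_zero] at ha
      exact absurd ha not_isUnit_zero
    · exact h0.isUnit⟩
  obtain ⟨e⟩ := hres
  have h1 : ((GaloisRepAdic.ofResidualGaloisRep ρbar).baseChangeAlong r hr).IsFlatAt p :=
    isFlatAt_of_isEquiv (ρ := GaloisRepAdic.ofResidualGaloisRep ρ.residual)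
      (ρ' := (GaloisRepAdic.ofResidualGaloisRep ρbar).baseChangeAlong r hr)
      ⟨e.toLinearEquiv, fun σ x => e.map_apply σ x⟩ h
  exact isFlatAt_reflect hk hfin hfin r r hr hr
    (fun a ha _ => r.injective (by rw [ha, map_zero])) _ h1 h1

/-- **RT6 (iv)** for deformations, version with `τ`. -/
theorem isStrictOrdinaryAt_of_deformation_tau {A : Type} [CommRing A] [IsLocalRing A]
    [IsNoetherianRing A] {k : Type} [Field k] {ρbar : ResidualGaloisRep k}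
    (hp : p.Prime) (hfin : Finite (ResidueField A))
    (hτ : ∀ P : ValuationSubring Qb, P.LiesOverPrime p → ∃ τ : GalQ, IsTau P p τ ∧ ρbar.ρ τ ≠ 1)
    {ρ : GaloisRepAdic A} (r : k →+* ResidueField A)
    (hres : ρ.residual.IsEquiv (ρbar.baseChangeAlong r)) (hord : ρ.IsOrdinaryAt p)
    (hdet : ρ.DetIsCyclotomic p) : ρ.IsStrictOrdinaryAt p := by
  refine isStrictOrdinaryAt_of_tau hfin hp hord hdet fun P hP => ?_
  obtain ⟨τ, hτ', hne⟩ := hτ P hP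
  refine ⟨τ, hτ', fun h => hne ?_⟩
  obtain ⟨e⟩ := hres
  have h1 : (ρbar.baseChangeAlong r).ρ τ = 1 := by
    refine LinearMap.ext fun x => ?_
    have h2 := e.map_apply τ (e.toLinearEquiv.symm x)
    rw [h, LinearEquiv.apply_symm_apply] at h2
    rw [← h2]
    exact e.toLinearEquiv.apply_symm_apply x
  let _ : Algebra k (ResidueField A) := r.toAlgebra
  refine LinearMap.ext fun v => ?_
  have h3 := LinearMap.congr_fun h1 ((1 : ResidueField A) ⊗ₜ[k] v : ResidueField A ⊗[k] ρbar.V)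
  have h4 : ((1 : ResidueField A) ⊗ₜ[k] (ρbar.ρ τ v) : ResidueField A ⊗[k] ρbar.V) =
      (1 : ResidueField A) ⊗ₜ[k] v := h3
  have h5 : ((1 : ResidueField A) ⊗ₜ[k] (ρbar.ρ τ v - v) : ResidueField A ⊗[k] ρbar.V) = 0 := by
    rw [TensorProduct.tmul_sub, h4, sub_self]
  have h6 : ρbar.ρ τ v - v = 0 := by
    have hinj : Function.Injective (fun v : ρbar.V =>
        ((1 : ResidueField A) ⊗ₜ[k] v : ResidueField A ⊗[k] ρbar.V)) :=
      Module.FaithfullyFlat.tensorProduct_mk_injective (A := k) (B := ResidueField A) ρbar.V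
    exact hinj (h5.trans (TensorProduct.tmul_zero _ _).symm)
  exact sub_eq_zero.mp h6

end Conditions

end Fermat.Agent.RT.SelMain
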