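import Fermat.Agent.RT.ULimPS
import Mathlib.RingTheory.AdicCompletion.Topology
import Mathlib.RingTheory.AdicCompletion.Functoriality
import Mathlib.RingTheory.AdicCompletion.Noetherian
import Mathlib.RingTheory.AdicCompletion.Completeness
import Mathlib.RingTheory.MvPowerSeries.Evaluation
import Mathlib.RingTheory.LocalRing.ResidueField.Basic

/-!
# Evaluation of power series in complete local algebras
-/

set_option autoImplicit false
set_option linter.unusedSectionVars false
set_option linter.style.haveILetI false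

open IsLocalRing MvPowerSeries

namespace Fermat.Agent.RT.MvEval

open Fermat.Agent.RT.ULim

section eval

variable {𝒪 R : Type*} [CommRing 𝒪] [IsLocalRing 𝒪]
    [IsAdicComplete (maximalIdeal 𝒪) 𝒪] [CommRing R] [IsLocalRing R] [IsNoetherianRing R]
    [IsAdicComplete (maximalIdeal R) R] [Algebra 𝒪 R] [IsLocalHom (algebraMap 𝒪 R)]

/-- existence of the evaluation homomorphism -/
theorem exists_eval {r : ℕ} (x : Fin r → R) (hx : ∀ i, x i ∈ maximalIdeal R) :
    ∃ γ : MvPowerSeries (Fin r) 𝒪 →ₐ[𝒪] R, ∀ i, γ (X i) = x i := by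
  classical
  letI iR : WithIdeal R := ⟨maximalIdeal R⟩
  letI i𝒪 : WithIdeal 𝒪 := ⟨maximalIdeal 𝒪⟩
  have hadR : IsAdic (maximalIdeal R) := rfl
  have hcR : CompleteSpace R ∧ T2Space R := (IsAdic.isAdicComplete_iff hadR).mp ‹_›
  haveI := hcR.1
  haveI := hcR.2
  have hmap : (maximalIdeal 𝒪).map (algebraMap 𝒪 R) ≤ maximalIdeal R :=
    ((IsLocalRing.local_hom_TFAE (algebraMap 𝒪 R)).out 0 2).mp ‹_›
  have hcont : Continuous (algebraMap 𝒪 R) :=
    (WithIdeal.uniformContinuous_of_map_le (S := R) (f := algebraMap 𝒪 R) hmap).continuous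
  haveI : ContinuousSMul 𝒪 R := continuousSMul_of_algebraMap 𝒪 R hcont
  have hev : MvPowerSeries.HasEval x :=
    { hpow := fun i => WithIdeal.isTopologicallyNilpotent_of_mem (hx i)
      tendsto_zero := by
        simp }
  refine ⟨MvPowerSeries.aeval hev, ?_⟩
  intro i
  rw [MvPowerSeries.coe_aeval, MvPowerSeries.eval₂_X]

end eval

section unique

variable {𝒪 A : Type*} [CommRing 𝒪] [CommRing A] [Algebra 𝒪 A] {r : ℕ}

/-- two algebra homs from power series agree if they agree on the variables, with values in an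
ideal `J` with `⋂ J ^ n = 0`. -/
theorem hom_ext {J : Ideal A} (hJ : UHaus J) {γ γ' : MvPowerSeries (Fin r) 𝒪 →ₐ[𝒪] A}
    (hγ : ∀ i, γ (X i) ∈ J) (h : ∀ i, γ (X i) = γ' (X i)) : γ = γ' := by
  have key : ∀ k : ℕ, ∀ f, γ f - γ' f ∈ J ^ k := by
    intro k
    induction k with
    | zero => intro f; simp
    | succ k ih =>
      intro f
      have h1 : γ f - γ' f = ∑ i, γ (X i) * (γ (xquot f i) - γ' (xquot f i)) := by
        conv_lhs => rw [eq_C_add_sum f]
        have h2 : (C (constantCoeff f) : MvPowerSeries (Fin r) 𝒪) =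
          algebraMap 𝒪 (MvPowerSeries (Fin r) 𝒪) (constantCoeff f) := rfl
        rw [map_add, map_add, h2, AlgHom.commutes, AlgHom.commutes, map_sum, map_sum]
        simp only [map_mul, ← h, mul_sub, Finset.sum_sub_distrib]
        ring
      rw [h1]
      refine Ideal.sum_mem _ fun i _ => ?_
      rw [pow_succ']
      exact Ideal.mul_mem_mul (hγ i) (ih _)
  ext f
  rw [← sub_eq_zero]
  exact hJ _ fun k => key k f

end unique

section surj

/-- surjectivity criterion -/
theorem eval_surjective {𝒪 R : Type*} [CommRing 𝒪] [IsLocalRing 𝒪]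
    [IsAdicComplete (maximalIdeal 𝒪) 𝒪] [CommRing R] [IsLocalRing R] [IsNoetherianRing R]
    [Algebra 𝒪 R] [IsLocalHom (algebraMap 𝒪 R)]
    (hres : Function.Surjective (residue R ∘ algebraMap 𝒪 R)) {r : ℕ}
    (γ : MvPowerSeries (Fin r) 𝒪 →ₐ[𝒪] R) (hx : ∀ i, γ (X i) ∈ maximalIdeal R)
    (hspan : maximalIdeal R ≤ Ideal.span (Set.range fun i => γ (X i)) ⊔
      (maximalIdeal 𝒪).map (algebraMap 𝒪 R)) :
    Function.Surjective γ := by
  classical
  set x : Fin r → R := fun i => γ (X i) with hxdef
  have hmap : (maximalIdeal 𝒪).map (algebraMap 𝒪 R) ≤ maximalIdeal R :=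
    ((IsLocalRing.local_hom_TFAE (algebraMap 𝒪 R)).out 0 2).mp ‹_›
  have hγX : ∀ i, γ (X i) = x i := fun i => rfl
  have hmapX : (Ideal.span (Set.range (MvPowerSeries.X (R := 𝒪) (σ := Fin r)))).map
      (γ : MvPowerSeries (Fin r) 𝒪 →+* R) = Ideal.span (Set.range x) := by
    rw [Ideal.map_span, ← Set.range_comp]
    congr 1
  have hxle : Ideal.span (Set.range x) ≤ maximalIdeal R := by
    rw [Ideal.span_le]
    rintro _ ⟨i, rfl⟩
    exact hx i
  haveI hR : IsHausdorff (maximalIdeal R) R := inferInstance
  haveI h1 : IsHausdorff (Ideal.span (Set.range x)) R := by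
    refine ⟨fun y hy => hR.haus y fun n => (hy n).mono ?_⟩
    exact Submodule.smul_mono_left (Ideal.pow_right_mono hxle n)
  haveI h1' : IsHausdorff ((Ideal.span (Set.range (MvPowerSeries.X (R := 𝒪) (σ := Fin r)))).map
      (γ : MvPowerSeries (Fin r) 𝒪 →+* R)) R := by rw [hmapX]; exact h1
  suffices h : Function.Surjective ((Ideal.Quotient.mk (Ideal.span (Set.range x))).comp
      (algebraMap 𝒪 R)) by
    apply surjective_of_mk_map_comp_surjective (γ : MvPowerSeries (Fin r) 𝒪 →+* R)
      (I := Ideal.span (Set.range (MvPowerSeries.X (R := 𝒪) (σ := Fin r))))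
    intro y
    obtain ⟨y, rfl⟩ := Ideal.Quotient.mk_surjective y
    obtain ⟨a, ha⟩ := h (Ideal.Quotient.mk _ y)
    refine ⟨algebraMap 𝒪 _ a, ?_⟩
    simp only [RingHom.coe_comp, RingHom.coe_coe, Function.comp_apply, AlgHom.commutes]
    simp only [RingHom.coe_comp, Function.comp_apply] at ha
    rw [Ideal.Quotient.eq] at ha ⊢
    rw [hmapX]; exact ha
  -- now `𝒪 → R/(x)` is surjective
  have hle : ((maximalIdeal 𝒪).map ((Ideal.Quotient.mk (Ideal.span (Set.range x))).comp
      (algebraMap 𝒪 R))) = (maximalIdeal R).map (Ideal.Quotient.mk (Ideal.span (Set.range x))) := by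
    rw [← Ideal.map_map]
    apply le_antisymm
    · exact Ideal.map_mono hmap
    · refine (Ideal.map_mono hspan).trans ?_
      rw [Ideal.map_sup]
      simp [Ideal.map_quotient_self]
  have hx1 : Ideal.span (Set.range x) ≠ ⊤ := fun h =>
    (maximalIdeal.isMaximal R).ne_top (top_le_iff.mp (h ▸ hxle))
  haveI : Nontrivial (R ⧸ Ideal.span (Set.range x)) := Ideal.Quotient.nontrivial_iff.mpr hx1
  haveI : IsLocalRing (R ⧸ Ideal.span (Set.range x)) :=
    IsLocalRing.of_surjective' (Ideal.Quotient.mk _) Ideal.Quotient.mk_surjective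
  haveI h2 : IsHausdorff ((maximalIdeal 𝒪).map ((Ideal.Quotient.mk (Ideal.span (Set.range x))).comp
      (algebraMap 𝒪 R))) (R ⧸ Ideal.span (Set.range x)) := by
    rw [hle]
    have : (maximalIdeal R).map (Ideal.Quotient.mk (Ideal.span (Set.range x))) =
        maximalIdeal (R ⧸ Ideal.span (Set.range x)) := by
      apply IsLocalRing.map_maximalIdeal_of_surjective
      exact Ideal.Quotient.mk_surjective
    rw [this]
    haveI : IsNoetherianRing (R ⧸ Ideal.span (Set.range x)) :=
      isNoetherianRing_of_surjective _ _ (Ideal.Quotient.mk _) Ideal.Quotient.mk_surjective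
    infer_instance
  apply surjective_of_mk_map_comp_surjective ((Ideal.Quotient.mk (Ideal.span (Set.range x))).comp
      (algebraMap 𝒪 R)) (I := maximalIdeal 𝒪)
  intro y
  obtain ⟨y, rfl⟩ := Ideal.Quotient.mk_surjective y
  obtain ⟨y, rfl⟩ := Ideal.Quotient.mk_surjective y
  obtain ⟨a, ha⟩ := hres (residue R y)
  refine ⟨a, ?_⟩
  simp only [RingHom.coe_comp, Function.comp_apply]
  rw [Ideal.Quotient.eq, hle]
  rw [← map_sub]
  apply Ideal.mem_map_of_mem
  rw [← IsLocalRing.residue_eq_zero_iff, map_sub, sub_eq_zero]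
  exact ha

end surj

section complete

variable {𝒪 : Type*} [CommRing 𝒪] [IsLocalRing 𝒪] {r : ℕ}

/-- Power series over a complete noetherian local ring are complete. -/
theorem isAdicComplete_mvPowerSeries [IsNoetherianRing 𝒪] [IsAdicComplete (maximalIdeal 𝒪) 𝒪] :
    IsAdicComplete (maximalIdeal (MvPowerSeries (Fin r) 𝒪)) (MvPowerSeries (Fin r) 𝒪) := by
  have hH : IsHausdorff (maximalIdeal (MvPowerSeries (Fin r) 𝒪)) (MvPowerSeries (Fin r) 𝒪) :=
    inferInstance
  have hP : IsPrecomplete (maximalIdeal (MvPowerSeries (Fin r) 𝒪)) (MvPowerSeries (Fin r) 𝒪) := by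
    refine ⟨fun f hf => ?_⟩
    -- powers of the maximal ideal control coefficients
    have hcoef : ∀ (k : ℕ) (g : MvPowerSeries (Fin r) 𝒪),
        g ∈ maximalIdeal (MvPowerSeries (Fin r) 𝒪) ^ k → ∀ e : Fin r →₀ ℕ,
          coeff e g ∈ maximalIdeal 𝒪 ^ (k - e.degree) := by
      intro k
      induction k with
      | zero => intro g _ e; simp
      | succ k ih =>
        intro g hg e
        rw [pow_succ] at hg
        induction hg using Submodule.mul_induction_on' with
        | mem_mul_mem a ha b hb =>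
          classical
          rw [coeff_mul]
          refine Ideal.sum_mem _ fun p hp => ?_
          rw [Finset.mem_antidiagonal] at hp
          have h1 := ih a ha p.1
          by_cases h2 : p.2 = 0
          · have h3 : coeff p.2 b ∈ maximalIdeal 𝒪 := by
              rw [h2]; exact constantCoeff_mem_of_mem hb
            have h4 := Ideal.mul_mem_mul h1 h3
            rw [← pow_succ] at h4
            have h5 : p.1 = e := by rw [← hp, h2, add_zero]
            rw [h5] at h4
            rw [h5]
            refine Ideal.pow_le_pow_right ?_ h4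
            omega
          · have h3 : p.1.degree + p.2.degree = e.degree := by
              rw [← hp, map_add]
            have h4 : 1 ≤ p.2.degree := by
              rw [Nat.one_le_iff_ne_zero]
              intro h; exact h2 ((Finsupp.degree_eq_zero_iff _).mp h)
            refine Ideal.mul_mem_right _ _ (Ideal.pow_le_pow_right ?_ h1)
            omega
        | add x _ y _ hx hy => rw [map_add]; exact add_mem hx hy
    have hfe : ∀ e : Fin r →₀ ℕ, ∃ L : 𝒪, ∀ n, e.degree ≤ n →
        coeff e (f n) - L ∈ maximalIdeal 𝒪 ^ (n - e.degree) := by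
      intro e
      obtain ⟨L, hL⟩ := IsPrecomplete.prec (inferInstance : IsPrecomplete (maximalIdeal 𝒪) 𝒪)
        (f := fun n => coeff e (f (n + e.degree))) (by
        intro m n hmn
        have h1 := hf (show m + e.degree ≤ n + e.degree by omega)
        rw [SModEq.sub_mem] at h1 ⊢
        simp only [smul_eq_mul, Ideal.mul_top] at h1 ⊢
        have h2 := hcoef _ _ h1 e
        rw [map_sub] at h2
        simpa using h2)
      refine ⟨L, fun n hn => ?_⟩
      have h3 := hL (n - e.degree)
      rw [SModEq.sub_mem, Nat.sub_add_cancel hn] at h3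
      simpa only [smul_eq_mul, Ideal.mul_top] using h3
    choose L hL using hfe
    refine ⟨L, fun n => ?_⟩
    rw [SModEq.sub_mem]
    simp only [smul_eq_mul, Ideal.mul_top]
    apply mem_maximalIdeal_pow_of_coeff
    intro e he
    exact hL e n he.le
  exact { toIsHausdorff := hH, toIsPrecomplete := hP }

end complete

end Fermat.Agent.RT.MvEval
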