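import Fermat.Agent.RT.ULim

/-!
# Power series over a complete local ring: ultrafilter limits

`mem_maximalIdeal_pow` : criterion on coefficients to be in `m ^ k`.
`hasULim_mvPowerSeries`.
-/

set_option autoImplicit false

open Filter IsLocalRing MvPowerSeries

namespace Fermat.Agent.RT.ULim

section coeffs

variable {𝒪 : Type*} [CommRing 𝒪] {r : ℕ}

/-- the `i`-th partial quotient in the decomposition `f = C (f 0) + ∑ i, X i * quot f i` -/
noncomputable def xquot (f : MvPowerSeries (Fin r) 𝒪) (i : Fin r) : MvPowerSeries (Fin r) 𝒪 :=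
  open Classical in
  fun e => if ∀ j : Fin r, j < i → e j = 0 then coeff (e + Finsupp.single i 1) f else 0

theorem coeff_xquot (f : MvPowerSeries (Fin r) 𝒪) (i : Fin r) (e : Fin r →₀ ℕ) :
    coeff e (xquot f i) = open Classical in
      if ∀ j : Fin r, j < i → e j = 0 then coeff (e + Finsupp.single i 1) f else 0 := rfl

theorem coeff_X_mul_eq (g : MvPowerSeries (Fin r) 𝒪) (i : Fin r) (e : Fin r →₀ ℕ) :
    coeff e (X i * g) = if 1 ≤ e i then coeff (e - Finsupp.single i 1) g else 0 := by
  classical
  rw [X, coeff_monomial_mul, one_mul]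
  simp only [Finsupp.single_le_iff]

theorem eq_C_add_sum (f : MvPowerSeries (Fin r) 𝒪) :
    f = C (constantCoeff f) + ∑ i, X i * xquot f i := by
  classical
  ext e
  rw [map_add, map_sum]
  simp only [coeff_X_mul_eq, coeff_xquot]
  by_cases he : e = 0
  · subst he
    simp
  · rw [coeff_C, if_neg he, zero_add]
    -- the first index with nonzero exponent
    have hne : (Finset.univ.filter fun i : Fin r => 1 ≤ e i).Nonempty := by
      by_contra h
      rw [Finset.not_nonempty_iff_eq_empty] at h
      apply he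
      ext i
      have : i ∉ Finset.univ.filter fun i : Fin r => 1 ≤ e i := by rw [h]; simp
      simp only [Finset.mem_filter, Finset.mem_univ, true_and, not_le, Nat.lt_one_iff] at this
      simpa using this
    set i0 := (Finset.univ.filter fun i : Fin r => 1 ≤ e i).min' hne with hi0
    have h1 : 1 ≤ e i0 := by
      have := Finset.min'_mem _ hne
      rw [← hi0] at this
      simpa using this
    have h2 : ∀ j : Fin r, j < i0 → e j = 0 := by
      intro j hj
      by_contra h
      have : j ∈ Finset.univ.filter fun i : Fin r => 1 ≤ e i := by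
        simp; omega
      have := Finset.min'_le _ _ this
      rw [← hi0] at this
      exact absurd hj (not_lt.mpr this)
    rw [Finset.sum_eq_single i0]
    · rw [if_pos h1, if_pos]
      · congr 2
        ext j
        simp only [Finsupp.coe_add, Finsupp.coe_tsub, Pi.add_apply, Pi.sub_apply]
        by_cases hj : i0 = j
        · subst hj; simp; omega
        · simp [Finsupp.single_eq_of_ne' hj]
      · intro j hj
        simp [h2 j hj]
    · intro i _ hi
      by_cases h3 : 1 ≤ e i
      · rw [if_pos h3, if_neg]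
        intro h4
        have h5 : i0 < i := by
          rcases lt_trichotomy i0 i with h | h | h
          · exact h
          · exact absurd h.symm hi
          · have := h2 i h
            omega
        have h6 := h4 i0 h5
        simp only [Finsupp.coe_tsub, Pi.sub_apply] at h6
        rw [Finsupp.single_eq_of_ne (ne_of_lt h5)] at h6
        omega
      · rw [if_neg h3]
    · intro h; exact absurd (Finset.mem_univ _) h

/-- an ideal containing `C (I)` and all `X i`. -/
theorem mem_pow_of_coeff (I : Ideal 𝒪) (J : Ideal (MvPowerSeries (Fin r) 𝒪))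
    (hIJ : ∀ a ∈ I, C a ∈ J) (hX : ∀ i, (X i : MvPowerSeries (Fin r) 𝒪) ∈ J) (k : ℕ)
    (f : MvPowerSeries (Fin r) 𝒪)
    (hf : ∀ e : Fin r →₀ ℕ, e.degree < k → coeff e f ∈ I ^ (k - e.degree)) : f ∈ J ^ k := by
  induction k generalizing f with
  | zero => simp
  | succ k ih =>
    rw [eq_C_add_sum f]
    apply add_mem
    · have h0 := hf 0 (by simp)
      simp only [map_zero, Nat.sub_zero, coeff_zero_eq_constantCoeff_apply] at h0
      have h1 : C (constantCoeff f) ∈ (I ^ (k + 1)).map (C : 𝒪 →+* MvPowerSeries (Fin r) 𝒪) :=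
        Ideal.mem_map_of_mem _ h0
      rw [Ideal.map_pow] at h1
      refine Ideal.pow_right_mono ?_ _ h1
      rw [Ideal.map_le_iff_le_comap]
      exact hIJ
    · refine Ideal.sum_mem _ fun i _ => ?_
      rw [pow_succ']
      refine Ideal.mul_mem_mul (hX i) (ih _ ?_)
      intro e he
      rw [coeff_xquot]
      split_ifs with h
      · have := hf (e + Finsupp.single i 1) (by
          rw [map_add, Finsupp.degree_single]; omega)
        rw [map_add, Finsupp.degree_single] at this
        convert this using 2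
        omega
      · exact zero_mem _

end coeffs

section local_

variable {𝒪 : Type*} [CommRing 𝒪] [IsLocalRing 𝒪] {r : ℕ}

theorem C_mem_maximalIdeal {a : 𝒪} (ha : a ∈ maximalIdeal 𝒪) :
    (C a : MvPowerSeries (Fin r) 𝒪) ∈ maximalIdeal (MvPowerSeries (Fin r) 𝒪) := by
  rw [mem_maximalIdeal, mem_nonunits_iff, isUnit_iff_constantCoeff] at *
  simpa using ha

theorem X_mem_maximalIdeal (i : Fin r) :
    (X i : MvPowerSeries (Fin r) 𝒪) ∈ maximalIdeal (MvPowerSeries (Fin r) 𝒪) := by
  rw [mem_maximalIdeal, mem_nonunits_iff, isUnit_iff_constantCoeff]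
  simp

theorem constantCoeff_mem_of_mem {f : MvPowerSeries (Fin r) 𝒪}
    (hf : f ∈ maximalIdeal (MvPowerSeries (Fin r) 𝒪)) : constantCoeff f ∈ maximalIdeal 𝒪 := by
  rw [mem_maximalIdeal, mem_nonunits_iff, isUnit_iff_constantCoeff] at *
  simpa using hf

theorem map_constantCoeff_le : (maximalIdeal (MvPowerSeries (Fin r) 𝒪)).map
    (constantCoeff : MvPowerSeries (Fin r) 𝒪 →+* 𝒪) ≤ maximalIdeal 𝒪 := by
  rw [Ideal.map_le_iff_le_comap]
  intro f hf
  exact constantCoeff_mem_of_mem hf

theorem mem_maximalIdeal_pow_of_coeff (k : ℕ) (f : MvPowerSeries (Fin r) 𝒪)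
    (hf : ∀ e : Fin r →₀ ℕ, e.degree < k → coeff e f ∈ maximalIdeal 𝒪 ^ (k - e.degree)) :
    f ∈ maximalIdeal (MvPowerSeries (Fin r) 𝒪) ^ k :=
  mem_pow_of_coeff _ _ (fun _ ha => C_mem_maximalIdeal ha) X_mem_maximalIdeal k f hf

theorem hasULim_mvPowerSeries {𝓤 : Ultrafilter ℕ} (h : HasULim 𝓤 (maximalIdeal 𝒪)) :
    HasULim 𝓤 (maximalIdeal (MvPowerSeries (Fin r) 𝒪)) := by
  intro x
  choose L hL using fun e : Fin r →₀ ℕ => h (fun n => coeff e (x n))
  refine ⟨L, fun k => ?_⟩
  have hfin : {e : Fin r →₀ ℕ | e.degree < k}.Finite :=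
    (Finsupp.finite_of_degree_le (σ := Fin r) k).subset fun e he => by
      simp only [Set.mem_ofPred_eq] at he ⊢
      exact he.le
  have h1 : ∀ᶠ n in (𝓤 : Filter ℕ), ∀ e ∈ {e : Fin r →₀ ℕ | e.degree < k},
      coeff e (x n) - L e ∈ maximalIdeal 𝒪 ^ k :=
    (eventually_all_finite hfin).mpr fun e _ => hL e k
  filter_upwards [h1] with n hn
  apply mem_maximalIdeal_pow_of_coeff
  intro e he
  exact Ideal.pow_le_pow_right (Nat.sub_le _ _) (hn e he)

end local_

end Fermat.Agent.RT.ULim
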