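import Mathlib.RingTheory.AdicCompletion.Basic
import Mathlib.RingTheory.AdicCompletion.Noetherian
import Mathlib.RingTheory.Finiteness.Cardinality

/-!
# Finite modules over complete rings are (pre)complete
-/

set_option autoImplicit false

namespace Fermat.Agent.RT.FiniteComplete

variable {A : Type*} [CommRing A] {I : Ideal A}

theorem mem_smul_top_pi {ι : Type*} [Finite ι] (J : Ideal A) (v : ι → A) :
    v ∈ J • (⊤ : Submodule A (ι → A)) ↔ ∀ i, v i ∈ J := by
  classical
  have := Fintype.ofFinite ι
  constructor
  · intro h i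
    induction h using Submodule.smul_induction_on' with
    | smul a ha n _ => exact J.mul_mem_right _ ha
    | add x _ y _ hx hy => exact J.add_mem hx hy
  · intro h
    have h1 : v = ∑ i, v i • (Pi.single i 1 : ι → A) := by
      ext j
      simp [Pi.single_apply]
    rw [h1]
    exact Submodule.sum_mem _ fun i _ => Submodule.smul_mem_smul (h i) trivial

theorem isPrecomplete_pi {ι : Type*} [Finite ι] [IsPrecomplete I A] : IsPrecomplete I (ι → A) := by
  refine ⟨fun f hf => ?_⟩
  have h1 : ∀ i, ∃ L : A, ∀ n, f n i ≡ L [SMOD (I ^ n • ⊤ : Submodule A A)] := by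
    intro i
    refine IsPrecomplete.prec (inferInstance : IsPrecomplete I A) (f := fun n => f n i) ?_
    intro m n hmn
    have := hf hmn
    rw [SModEq.sub_mem] at this ⊢
    rw [mem_smul_top_pi] at this
    simpa using this i
  choose L hL using h1
  refine ⟨L, fun n => ?_⟩
  rw [SModEq.sub_mem, mem_smul_top_pi]
  intro i
  have := hL i n
  rw [SModEq.sub_mem] at this
  simpa using this

theorem isPrecomplete_of_surjective {P M : Type*} [AddCommGroup P] [Module A P] [AddCommGroup M]
    [Module A M] [IsPrecomplete I P] (g : P →ₗ[A] M) (hg : Function.Surjective g) :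
    IsPrecomplete I M := by
  refine ⟨fun f hf => ?_⟩
  have hmap : ∀ n, ∀ x ∈ (I ^ n • ⊤ : Submodule A M), ∃ y ∈ (I ^ n • ⊤ : Submodule A P), g y = x := by
    intro n x hx
    have : (I ^ n • ⊤ : Submodule A P).map g = (I ^ n • ⊤ : Submodule A M) := by
      rw [Submodule.map_smul'', Submodule.map_top, LinearMap.range_eq_top.mpr hg]
    rw [← this] at hx
    obtain ⟨y, hy, rfl⟩ := hx
    exact ⟨y, hy, rfl⟩
  -- successive differences
  have hd : ∀ n, f (n + 1) - f n ∈ (I ^ n • ⊤ : Submodule A M) := by
    intro n
    have := hf (Nat.le_succ n)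
    exact (SModEq.sub_mem.mp this.symm)
  choose y hy hy' using fun n => hmap n _ (hd n)
  obtain ⟨y0, hy0⟩ := hg (f 0)
  let F : ℕ → P := fun n => y0 + ∑ k ∈ Finset.range n, y k
  have hF : ∀ n, g (F n) = f n := by
    intro n
    induction n with
    | zero => simp [F, hy0]
    | succ n ih =>
      have : F (n + 1) = F n + y n := by simp only [F, Finset.sum_range_succ, add_assoc]
      rw [this, map_add, ih, hy']
      abel
  have hF2 : ∀ {m n}, m ≤ n → F m ≡ F n [SMOD (I ^ m • ⊤ : Submodule A P)] := by
    intro m n hmn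
    induction n, hmn using Nat.le_induction with
    | base => exact SModEq.rfl
    | succ n hmn ih =>
      refine ih.trans ?_
      rw [SModEq.sub_mem]
      have : F n - F (n + 1) = - y n := by simp [F, Finset.sum_range_succ]
      rw [this]
      exact neg_mem (Submodule.smul_mono_left (Ideal.pow_le_pow_right hmn) (hy n))
  obtain ⟨L, hL⟩ := IsPrecomplete.prec (inferInstance : IsPrecomplete I P) hF2
  refine ⟨g L, fun n => ?_⟩
  have := hL n
  rw [SModEq.sub_mem] at this ⊢
  rw [← hF, ← map_sub]
  have h2 : (I ^ n • ⊤ : Submodule A P).map g ≤ (I ^ n • ⊤ : Submodule A M) := by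
    rw [Submodule.map_smul'']
    exact smul_mono_right _ le_top
  exact h2 ⟨_, this, rfl⟩

theorem isPrecomplete_of_finite {M : Type*} [AddCommGroup M] [Module A M] [Module.Finite A M]
    [IsPrecomplete I A] : IsPrecomplete I M := by
  obtain ⟨n, f, hf⟩ := Module.Finite.exists_fin' A M
  have := isPrecomplete_pi (I := I) (ι := Fin n)
  exact isPrecomplete_of_surjective f hf

end Fermat.Agent.RT.FiniteComplete
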