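import Fermat.Agent.RT.GroupAlg

/-!
# Taylor–Wiles levels: patching levels out of modules over group algebras
-/

set_option autoImplicit false
set_option linter.unusedSectionVars false

open IsLocalRing MvPowerSeries

namespace Fermat.Agent.RT.TWLevel

open Fermat.Agent.RT.ULim Fermat.Agent.RT.MvEval Fermat.Agent.RT.Patch Fermat.Agent.RT.GroupAlg

variable {𝒪 : Type} [CommRing 𝒪] [IsLocalRing 𝒪] [IsNoetherianRing 𝒪]
    [IsAdicComplete (maximalIdeal 𝒪) 𝒪] {r : ℕ}

/-- **Patching level from Taylor–Wiles data**.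
`G = ∏ ℤ/p^{a_i}`, `R'` local quotient of `𝒪⟦X₁…X_r⟧` with a homomorphism `δ : G → R'ˣ` residually
trivial, `M'` an `R'`-module which is free of finite rank over `𝒪[G]` (acting through `δ`),
`R' ↠ R` killing `δ g - 1`, `M' ↠ M` with kernel `∑ (δ g - 1) M'`. -/
theorem exists_level {p : ℕ} [Fact p.Prime] (hp𝒪 : (p : 𝒪) ∈ maximalIdeal 𝒪) (a : Fin r → ℕ)
    {R' : Type} [CommRing R'] [IsLocalRing R'] [Algebra 𝒪 R'] [IsLocalHom (algebraMap 𝒪 R')]
    [IsAdicComplete (maximalIdeal R') R']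
    {R : Type} [CommRing R] [Algebra 𝒪 R]
    {M : Type} [AddCommGroup M] [Module R M]
    {M' : Type} [AddCommGroup M'] [Module R' M']
    [Module (MonoidAlgebra 𝒪 (Grp fun i => p ^ a i)) M']
    (γ : MvPowerSeries (Fin r) 𝒪 →ₐ[𝒪] R') (hγ : Function.Surjective γ)
    (δ : (Grp fun i => p ^ a i) →* R')
    (hδ : ∀ i, δ (gen _ i) - 1 ∈ maximalIdeal R')
    (hM'G : ∀ (g : Grp fun i => p ^ a i) (x : M'), MonoidAlgebra.of 𝒪 _ g • x = δ g • x)
    (hM'𝒪 : ∀ (c : 𝒪) (x : M'), algebraMap 𝒪 (MonoidAlgebra 𝒪 (Grp fun i => p ^ a i)) c • x =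
      algebraMap 𝒪 R' c • x)
    {d : ℕ} (b : Module.Basis (Fin d) (MonoidAlgebra 𝒪 (Grp fun i => p ^ a i)) M')
    (ρ : R' →ₐ[𝒪] R) (hρ : Function.Surjective ρ) (hρδ : ∀ i, ρ (δ (gen _ i)) = 1)
    (π : M' →+ M) (hπ : ∀ (f : R') (x : M'), π (f • x) = ρ f • π x)
    (hπs : Function.Surjective π)
    (hker : ∀ x, π x = 0 → x ∈ (Ideal.span (Set.range fun g : Grp fun i => p ^ a i => δ g - 1)) •
      (⊤ : Submodule R' M')) :
    Nonempty (Algebra.PatchingLevel 𝒪 r R M (idealJ 𝒪 p a)) := by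
  classical
  have hNoeth : IsNoetherianRing R' :=
    isNoetherianRing_of_surjective _ _ (γ : MvPowerSeries (Fin r) 𝒪 →+* R') hγ
  obtain ⟨β, hβ⟩ := exists_eval (𝒪 := 𝒪) (fun i => δ (gen _ i) - 1) hδ
  -- `β` kills `J`
  have hβJ : ∀ c ∈ idealJ 𝒪 p a, β c = 0 := by
    have h1 : idealJ 𝒪 p a ≤ RingHom.ker (β : MvPowerSeries (Fin r) 𝒪 →+* R') := by
      rw [idealJ, Ideal.span_le]
      rintro _ ⟨i, rfl⟩
      rw [SetLike.mem_coe, RingHom.mem_ker]
      change β ((1 + X i) ^ (p ^ a i) - 1) = 0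
      rw [map_sub, map_pow, map_add, map_one, hβ, add_sub_cancel, ← map_pow,
        gen_pow (q := fun i => p ^ a i), map_one, sub_self]
    exact fun c hc => h1 hc
  -- the lift of the group algebra to `R'`
  let Fδ : MonoidAlgebra 𝒪 (Grp fun i => p ^ a i) →ₐ[𝒪] R' := MonoidAlgebra.lift 𝒪 _ _ δ
  have hFδ : ∀ (l : MonoidAlgebra 𝒪 (Grp fun i => p ^ a i)) (x : M'), l • x = Fδ l • x := by
    intro l x
    induction l using MonoidAlgebra.induction_on with
    | of g => rw [hM'G]; simp [Fδ]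
    | add f g hf hg => rw [add_smul, hf, hg, map_add, add_smul]
    | smul c f hf =>
      rw [Algebra.smul_def, mul_smul, hM'𝒪, hf, map_mul, AlgHom.commutes, mul_smul]
  -- `β c` only depends on the class of `c`, and it is `Fδ l` if `F l = mk c`
  have hkey : ∀ (c : MvPowerSeries (Fin r) 𝒪) (l : MonoidAlgebra 𝒪 (Grp fun i => p ^ a i)),
      F a l = Ideal.Quotient.mk (idealJ 𝒪 p a) c → β c = Fδ l := by
    let βbar : (MvPowerSeries (Fin r) 𝒪 ⧸ idealJ 𝒪 p a) →ₐ[𝒪] R' :=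
      Ideal.Quotient.liftₐ (idealJ 𝒪 p a) β hβJ
    have h1 : βbar.comp (F a) = Fδ := by
      refine MonoidAlgebra.algHom_ext ?_ (Subsingleton.elim _ _)
      intro g
      have h2 : Fδ (MonoidAlgebra.single g 1) = δ g := by simp [Fδ]
      rw [h2, AlgHom.comp_apply]
      have h3 : F (𝒪 := 𝒪) (p := p) a (MonoidAlgebra.single g 1) =
          Ideal.Quotient.mk (idealJ 𝒪 p a) (∏ i, (1 + X i) ^ expo _ g i) := by
        rw [F, MonoidAlgebra.lift_single, one_smul, powHom_apply, map_prod]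
        simp only [map_pow]
      rw [h3]
      change β (∏ i, (1 + X i) ^ expo _ g i) = δ g
      rw [map_prod]
      conv_rhs => rw [eq_prod_gen g, map_prod]
      refine Finset.prod_congr rfl fun i _ => ?_
      rw [map_pow, map_pow, map_add, map_one, hβ, add_sub_cancel]
    intro c l hl
    rw [← h1, AlgHom.comp_apply, hl]
    rfl
  -- the kernel ideals agree
  have hspanδ : Ideal.span (Set.range fun g : Grp fun i => p ^ a i => δ g - 1) ≤
      Ideal.span (Set.range fun i : Fin r => β (X i)) := by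
    rw [Ideal.span_le]
    rintro _ ⟨g, rfl⟩
    rw [SetLike.mem_coe, ← Ideal.Quotient.eq]
    rw [eq_prod_gen g, map_prod, map_prod, map_one]
    refine Finset.prod_eq_one fun i _ => ?_
    rw [map_pow, map_pow]
    have h1 : Ideal.Quotient.mk (Ideal.span (Set.range fun i : Fin r => β (X i)))
        (δ (gen _ i)) = 1 := by
      rw [← map_one (Ideal.Quotient.mk _), Ideal.Quotient.eq, ← hβ i]
      exact Ideal.subset_span ⟨i, rfl⟩
    rw [h1, one_pow]
  refine LevelMk.exists_level γ hγ β (fun i => by rw [hβ]; exact hδ i) ρ hρ ?_ π hπ hπs ?_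
    (fun j => b j) ?_ ?_
  · intro i
    rw [hβ, map_sub, map_one, hρδ, sub_self]
  · intro x hx
    exact Submodule.smul_mono_left hspanδ (hker x hx)
  · intro x
    -- lifts of group algebra elements
    have h1 : ∀ l : MonoidAlgebra 𝒪 (Grp fun i => p ^ a i),
        ∃ c : MvPowerSeries (Fin r) 𝒪, F a l = Ideal.Quotient.mk (idealJ 𝒪 p a) c := fun l => by
      obtain ⟨c, hc⟩ := Ideal.Quotient.mk_surjective (F a l)
      exact ⟨c, hc.symm⟩
    choose lift hlift using h1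
    refine ⟨fun j => lift (b.repr x j), ?_⟩
    conv_lhs => rw [← b.sum_repr x]
    refine Finset.sum_congr rfl fun j _ => ?_
    rw [hFδ, hkey _ _ (hlift _)]
  · intro c
    constructor
    · intro h
      choose l hl using fun j => F_surjective (𝒪 := 𝒪) (p := p) a hp𝒪
        (Ideal.Quotient.mk (idealJ 𝒪 p a) (c j))
      have h2 : ∑ j, l j • b j = 0 := by
        rw [← h]
        refine Finset.sum_congr rfl fun j _ => ?_
        rw [hFδ, hkey _ _ (hl j)]
      have h3 := Fintype.linearIndependent_iff.mp b.linearIndependent l h2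
      intro j
      have h4 := hl j
      rw [h3 j, map_zero] at h4
      exact Ideal.Quotient.eq_zero_iff_mem.mp h4.symm
    · intro h
      refine Finset.sum_eq_zero fun j _ => ?_
      rw [hβJ _ (h j), zero_smul]

/-- properties of `idealJ` needed for patching -/
theorem constantCoeff_eq_zero_of_mem_idealJ {p : ℕ} {a : Fin r → ℕ}
    {f : MvPowerSeries (Fin r) 𝒪} (hf : f ∈ idealJ 𝒪 p a) : constantCoeff f = 0 := by
  have h1 : idealJ 𝒪 p a ≤ RingHom.ker (constantCoeff : MvPowerSeries (Fin r) 𝒪 →+* 𝒪) := by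
    rw [idealJ, Ideal.span_le]
    rintro _ ⟨j, rfl⟩
    simp [RingHom.mem_ker]
  exact h1 hf

theorem idealJ_le_pow {p : ℕ} (hp𝒪 : (p : 𝒪) ∈ maximalIdeal 𝒪) {a : Fin r → ℕ} {k : ℕ}
    (ha : ∀ i, k ≤ a i) : idealJ 𝒪 p a ≤ maximalIdeal (MvPowerSeries (Fin r) 𝒪) ^ k := by
  rw [idealJ, Ideal.span_le]
  rintro _ ⟨j, rfl⟩
  have h2 : ((p : ℕ) : MvPowerSeries (Fin r) 𝒪) ∈ maximalIdeal (MvPowerSeries (Fin r) 𝒪) := by
    have := C_mem_maximalIdeal (r := r) hp𝒪
    simpa using this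
  have h3 := one_add_pow_sub_one_mem (maximalIdeal (MvPowerSeries (Fin r) 𝒪)) p h2
    (X_mem_maximalIdeal j) (a j)
  exact Ideal.pow_le_pow_right (le_trans (ha j) (Nat.le_succ _)) h3

end Fermat.Agent.RT.TWLevel
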