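import Mathlib

/-!
# Group rings of finite `p`-groups over local rings; Higman's criterion (team RT, helper59)
-/

set_option autoImplicit false

open IsLocalRing

namespace Fermat.Agent.RT.GR

section Higman

variable {A Δ : Type*} [CommRing A] [Group Δ] [Fintype Δ]
variable {M : Type*} [AddCommGroup M] [Module A M] [Module (MonoidAlgebra A Δ) M]
  [IsScalarTower A (MonoidAlgebra A Δ) M]

/-- **Higman's criterion**. -/
theorem projective_of_theta [Module.Projective A M] (θ : M →ₗ[A] M)
    (h : ∀ m, ∑ δ : Δ, MonoidAlgebra.of A Δ δ • θ (MonoidAlgebra.of A Δ δ⁻¹ • m) = m) :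
    Module.Projective (MonoidAlgebra A Δ) M := by
  set f : (M →₀ MonoidAlgebra A Δ) →ₗ[MonoidAlgebra A Δ] M :=
    Finsupp.linearCombination (MonoidAlgebra A Δ) id with hf
  have hfs : Function.Surjective (f.restrictScalars A) := fun m =>
    ⟨Finsupp.single m 1, by simp [hf]⟩
  obtain ⟨σ, hσ⟩ := Module.projective_lifting_property (f.restrictScalars A) LinearMap.id hfs
  have hσ' : ∀ m, f (σ m) = m := fun m => LinearMap.congr_fun hσ m
  -- the averaged section
  let τ : M → (M →₀ MonoidAlgebra A Δ) := fun m =>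
    ∑ δ : Δ, MonoidAlgebra.of A Δ δ • σ (θ (MonoidAlgebra.of A Δ δ⁻¹ • m))
  have τ_add : ∀ a b, τ (a + b) = τ a + τ b := fun a b => by
    simp only [τ, smul_add, map_add, Finset.sum_add_distrib]
  have τ_of : ∀ (ε : Δ) (m : M), τ (MonoidAlgebra.of A Δ ε • m) =
      MonoidAlgebra.of A Δ ε • τ m := by
    intro ε m
    simp only [τ, Finset.smul_sum, smul_smul, ← map_mul]
    refine Fintype.sum_equiv (Equiv.mulLeft ε⁻¹) _ _ fun δ => ?_
    simp only [Equiv.coe_mulLeft, mul_inv_rev, inv_inv]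
    congr 2
    group
  have hcomm : ∀ (a : A) (δ : Δ) (m : M), MonoidAlgebra.of A Δ δ • (a • m) =
      a • (MonoidAlgebra.of A Δ δ • m) := fun a δ m => by
    rw [← algebraMap_smul (MonoidAlgebra A Δ) a m,
      ← algebraMap_smul (MonoidAlgebra A Δ) a (MonoidAlgebra.of A Δ δ • m), smul_smul, smul_smul,
      Algebra.commutes]
  have hcomm' : ∀ (a : A) (δ : Δ) (m : (M →₀ MonoidAlgebra A Δ)),
      MonoidAlgebra.of A Δ δ • (a • m) = a • (MonoidAlgebra.of A Δ δ • m) := fun a δ m => by
    rw [← algebraMap_smul (MonoidAlgebra A Δ) a m,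
      ← algebraMap_smul (MonoidAlgebra A Δ) a (MonoidAlgebra.of A Δ δ • m), smul_smul, smul_smul,
      Algebra.commutes]
  have τ_smul : ∀ (a : A) (m : M), τ (a • m) = a • τ m := fun a m => by
    simp only [τ, Finset.smul_sum, hcomm, map_smul, hcomm']
  refine ⟨⟨{ toFun := τ, map_add' := τ_add, map_smul' := ?_ }, ?_⟩⟩
  · intro x m
    rw [RingHom.id_apply]
    induction x using MonoidAlgebra.induction_on with
    | of g => exact τ_of g m
    | add x y hx hy => rw [add_smul, τ_add, hx, hy, add_smul]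
    | smul r x hx => rw [smul_assoc, τ_smul, hx, smul_assoc]
  · intro m
    change f (τ m) = m
    simp only [τ, map_sum, map_smul, hσ']
    exact h m

end Higman

section Local

variable (A Δ : Type*) [CommRing A] [IsLocalRing A] [CommGroup Δ] [Finite Δ] (p : ℕ)
  [Fact p.Prime]

/-- The residue augmentation `A[Δ] → k`. -/
noncomputable def resAug : MonoidAlgebra A Δ →+* ResidueField A :=
  (IsLocalRing.residue A).comp (MonoidAlgebra.lift A A Δ (1 : Δ →* A)).toRingHom

omit [Finite Δ] in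
theorem resAug_surjective : Function.Surjective (resAug A Δ) := by
  intro x
  obtain ⟨a, rfl⟩ := IsLocalRing.residue_surjective x
  exact ⟨algebraMap A _ a, by simp [resAug]⟩

variable {A Δ p}

theorem isLocalRing_monoidAlgebra (hΔ : IsPGroup p Δ) (hp : (p : A) ∈ maximalIdeal A) :
    IsLocalRing (MonoidAlgebra A Δ) := by
  have hfin : Module.Finite A (MonoidAlgebra A Δ) := inferInstance
  have hint : Algebra.IsIntegral A (MonoidAlgebra A Δ) := inferInstance
  have : Nontrivial (MonoidAlgebra A Δ) := by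
    refine ⟨⟨0, 1, fun h => ?_⟩⟩
    have := congrArg (resAug A Δ) h
    simp at this
  refine IsLocalRing.of_unique_max_ideal ⟨RingHom.ker (resAug A Δ),
    RingHom.ker_isMaximal_of_surjective _ (resAug_surjective A Δ), ?_⟩
  intro 𝔐 h𝔐
  have h1 : (𝔐.comap (algebraMap A (MonoidAlgebra A Δ))).IsMaximal :=
    Ideal.isMaximal_comap_of_isIntegral_of_isMaximal 𝔐
  have h2 : 𝔐.comap (algebraMap A (MonoidAlgebra A Δ)) = maximalIdeal A :=
    IsLocalRing.eq_maximalIdeal h1
  have hA : ∀ a ∈ maximalIdeal A, algebraMap A (MonoidAlgebra A Δ) a ∈ 𝔐 := fun a ha => by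
    rw [← h2] at ha; exact ha
  have hpM : ((p : ℕ) : MonoidAlgebra A Δ) ∈ 𝔐 := by
    have := hA _ hp
    rwa [map_natCast] at this
  have hδ : ∀ δ : Δ, MonoidAlgebra.of A Δ δ - 1 ∈ 𝔐 := by
    intro δ
    have : Field (MonoidAlgebra A Δ ⧸ 𝔐) := Ideal.Quotient.field 𝔐
    have hchar : CharP (MonoidAlgebra A Δ ⧸ 𝔐) p := by
      refine (CharP.charP_iff_prime_eq_zero Fact.out).mpr ?_
      have : ((p : ℕ) : MonoidAlgebra A Δ ⧸ 𝔐) = Ideal.Quotient.mk 𝔐 (p : MonoidAlgebra A Δ) := by
        simp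
      rw [this]
      exact Ideal.Quotient.eq_zero_iff_mem.mpr hpM
    obtain ⟨n, hn⟩ := hΔ δ
    have h3 : (Ideal.Quotient.mk 𝔐 (MonoidAlgebra.of A Δ δ - 1)) ^ p ^ n = 0 := by
      rw [map_sub, map_one, sub_pow_char_pow, one_pow, ← map_pow, ← map_pow, hn, map_one,
        map_one, sub_self]
    rw [← Ideal.Quotient.eq_zero_iff_mem]
    exact eq_zero_of_pow_eq_zero h3
  refine (Ideal.IsMaximal.eq_of_le (RingHom.ker_isMaximal_of_surjective _
    (resAug_surjective A Δ)) h𝔐.ne_top ?_).symm
  intro x hx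
  have hx' : MonoidAlgebra.lift A A Δ (1 : Δ →* A) x ∈ maximalIdeal A := by
    rw [RingHom.mem_ker] at hx
    exact (IsLocalRing.residue_eq_zero_iff _).mp hx
  have h4 : x - algebraMap A (MonoidAlgebra A Δ) (MonoidAlgebra.lift A A Δ (1 : Δ →* A) x) ∈ 𝔐 := by
    clear hx hx'
    induction x using MonoidAlgebra.induction_on with
    | of g =>
      rw [MonoidAlgebra.lift_of, MonoidHom.one_apply, map_one]
      exact hδ g
    | add x y hx hy =>
      have := 𝔐.add_mem hx hy
      rw [map_add, map_add]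
      convert this using 1
      ring
    | smul r x hx =>
      have := 𝔐.mul_mem_left (algebraMap A (MonoidAlgebra A Δ) r) hx
      rw [map_smul, smul_eq_mul, map_mul, Algebra.smul_def]
      convert this using 1
      ring
  have h5 := 𝔐.add_mem h4 (hA _ hx')
  simpa using h5

end Local

end Fermat.Agent.RT.GR
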