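import Fermat.Agent.RT.PatchAdapted
import Mathlib.Algebra.Module.LinearMap.End
import Mathlib.LinearAlgebra.Matrix.ToLin
import Mathlib.RingTheory.LocalRing.ResidueField.Basic

/-!
# The patching limit

From a sequence of patching levels with `J n → 0` we construct a patching level with `J = ⊥`.
-/

set_option autoImplicit false
set_option linter.unusedSectionVars false

open IsLocalRing MvPowerSeries Filter Fermat.Agent.RT.ULim

namespace Fermat.Agent.RT.Patch

variable {𝒪 : Type} [CommRing 𝒪] [IsLocalRing 𝒪] [IsNoetherianRing 𝒪]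
  [Finite (ResidueField 𝒪)] {r : ℕ} {R : Type} [CommRing R] [Algebra 𝒪 R]
  {M : Type} [AddCommGroup M] [Module R M] {J : ℕ → Ideal (MvPowerSeries (Fin r) 𝒪)}
  {d : ℕ} {e : Fin d → M}

/-- data needed for the limit -/
structure LimitData (𝓤 : Ultrafilter ℕ) (L : ∀ n, Algebra.PatchingLevel 𝒪 r R M (J n))
    (e : Fin d → M) where
  B : ∀ n, ABasis (L n) e
  oBasis : OBasis 𝒪 (R := R) e
  hS : HasULim 𝓤 (maximalIdeal (MvPowerSeries (Fin r) 𝒪))
  hJ : ∀ k, ∀ᶠ n in (𝓤 : Filter ℕ), J n ≤ maximalIdeal (MvPowerSeries (Fin r) 𝒪) ^ k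

instance finite_residueField_mvPowerSeries :
    Finite (ResidueField (MvPowerSeries (Fin r) 𝒪)) := by
  have hsurj : Function.Surjective
      ((residue (MvPowerSeries (Fin r) 𝒪)).comp (C : 𝒪 →+* MvPowerSeries (Fin r) 𝒪)) := by
    intro x
    obtain ⟨f, rfl⟩ := residue_surjective x
    refine ⟨constantCoeff f, ?_⟩
    rw [RingHom.comp_apply, ← sub_eq_zero, ← map_sub, residue_eq_zero_iff, mem_maximalIdeal,
      mem_nonunits_iff, isUnit_iff_constantCoeff]
    simp
  have hloc : IsLocalHom ((residue (MvPowerSeries (Fin r) 𝒪)).comp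
      (C : 𝒪 →+* MvPowerSeries (Fin r) 𝒪)) := hsurj.isLocalHom _
  have := Ideal.Quotient.lift_surjective_of_surjective (maximalIdeal 𝒪)
    (f := (residue (MvPowerSeries (Fin r) 𝒪)).comp (C : 𝒪 →+* MvPowerSeries (Fin r) 𝒪))
    (fun a ha => by
      rw [RingHom.comp_apply, residue_eq_zero_iff]
      exact C_mem_maximalIdeal ha) hsurj
  have h2 : Finite (𝒪 ⧸ maximalIdeal 𝒪) := inferInstanceAs (Finite (ResidueField 𝒪))
  exact Finite.of_surjective _ this

namespace LimitData

variable {𝓤 : Ultrafilter ℕ} {L : ∀ n, Algebra.PatchingLevel 𝒪 r R M (J n)}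
  (D : LimitData 𝓤 L e)

theorem uHausS : UHaus (maximalIdeal (MvPowerSeries (Fin r) 𝒪)) := uHaus_maximalIdeal

include D in
theorem tendsU_zero_of_mem {x : ℕ → MvPowerSeries (Fin r) 𝒪} (hx : ∀ n, x n ∈ J n) :
    TendsU 𝓤 (maximalIdeal (MvPowerSeries (Fin r) 𝒪)) x 0 := fun k => by
  filter_upwards [D.hJ k] with n hn
  rw [sub_zero]
  exact hn (hx n)

include D in
theorem tendsU_of_sub_mem {x y : ℕ → MvPowerSeries (Fin r) 𝒪} {a : MvPowerSeries (Fin r) 𝒪}
    (h : ∀ n, x n - y n ∈ J n)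
    (hy : TendsU 𝓤 (maximalIdeal (MvPowerSeries (Fin r) 𝒪)) y a) :
    TendsU 𝓤 (maximalIdeal (MvPowerSeries (Fin r) 𝒪)) x a := by
  have := (D.tendsU_zero_of_mem h).add hy
  simpa using this

/-- limit of `φ` -/
noncomputable def φfun (s : MvPowerSeries (Fin r) 𝒪) : MvPowerSeries (Fin r) 𝒪 :=
  (D.hS fun n => (L n).φ s).choose

theorem φfun_spec (s : MvPowerSeries (Fin r) 𝒪) :
    TendsU 𝓤 (maximalIdeal (MvPowerSeries (Fin r) 𝒪)) (fun n => (L n).φ s) (D.φfun s) :=
  (D.hS fun n => (L n).φ s).choose_spec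

/-- limit of `φ` as an algebra hom -/
noncomputable def φ : MvPowerSeries (Fin r) 𝒪 →ₐ[𝒪] MvPowerSeries (Fin r) 𝒪 where
  toFun := D.φfun
  map_one' := (D.φfun_spec 1).unique uHausS (by simpa using TendsU.const _)
  map_zero' := (D.φfun_spec 0).unique uHausS (by simpa using TendsU.const _)
  map_mul' s t := (D.φfun_spec (s * t)).unique uHausS (by
    simpa using (D.φfun_spec s).mul (D.φfun_spec t))
  map_add' s t := (D.φfun_spec (s + t)).unique uHausS (by
    simpa using (D.φfun_spec s).add (D.φfun_spec t))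
  commutes' a := (D.φfun_spec _).unique uHausS (by
    simpa using! TendsU.const (algebraMap 𝒪 (MvPowerSeries (Fin r) 𝒪) a))

theorem φ_spec (s : MvPowerSeries (Fin r) 𝒪) :
    TendsU 𝓤 (maximalIdeal (MvPowerSeries (Fin r) 𝒪)) (fun n => (L n).φ s) (D.φ s) :=
  D.φfun_spec s

/-- limit of the matrices -/
noncomputable def cfun (s : MvPowerSeries (Fin r) 𝒪) :
    Matrix (Fin d) (Fin d) (MvPowerSeries (Fin r) 𝒪) :=
  Matrix.of fun i j => (D.hS fun n => (D.B n).mat s i j).choose

theorem cfun_spec (s : MvPowerSeries (Fin r) 𝒪) (i j : Fin d) :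
    TendsU 𝓤 (maximalIdeal (MvPowerSeries (Fin r) 𝒪)) (fun n => (D.B n).mat s i j)
      (D.cfun s i j) :=
  (D.hS fun n => (D.B n).mat s i j).choose_spec

/-- limit of the matrices, as a ring hom -/
noncomputable def c : MvPowerSeries (Fin r) 𝒪 →+*
    Matrix (Fin d) (Fin d) (MvPowerSeries (Fin r) 𝒪) where
  toFun := D.cfun
  map_one' := by
    ext1 i j
    refine (D.cfun_spec 1 i j).unique uHausS ?_
    rw [Matrix.one_apply]
    exact D.tendsU_of_sub_mem (fun n => (D.B n).mat_one i j) (TendsU.const _)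
  map_zero' := by
    ext1 i j
    refine (D.cfun_spec 0 i j).unique uHausS ?_
    rw [Matrix.zero_apply]
    refine D.tendsU_zero_of_mem fun n => ?_
    have := (D.B n).mat_add 0 0 i j
    rw [add_zero] at this
    have h2 := (J n).neg_mem this
    simpa using h2
  map_mul' s t := by
    ext1 i j
    refine (D.cfun_spec (s * t) i j).unique uHausS ?_
    refine D.tendsU_of_sub_mem (fun n => (D.B n).mat_mul s t i j) ?_
    simp only [Matrix.mul_apply]
    exact TendsU.sum _ fun k _ => (D.cfun_spec s i k).mul (D.cfun_spec t k j)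
  map_add' s t := by
    ext1 i j
    refine (D.cfun_spec (s + t) i j).unique uHausS ?_
    refine D.tendsU_of_sub_mem (fun n => (D.B n).mat_add s t i j) ?_
    rw [Matrix.add_apply]
    exact (D.cfun_spec s i j).add (D.cfun_spec t i j)

theorem c_spec (s : MvPowerSeries (Fin r) 𝒪) (i j : Fin d) :
    TendsU 𝓤 (maximalIdeal (MvPowerSeries (Fin r) 𝒪)) (fun n => (D.B n).mat s i j)
      (D.c s i j) :=
  D.cfun_spec s i j

theorem c_φ (s : MvPowerSeries (Fin r) 𝒪) (i j : Fin d) :
    D.c (D.φ s) i j = if i = j then s else 0 := by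
  refine (D.c_spec (D.φ s) i j).unique uHausS ?_
  intro k
  have hfin : Finite (MvPowerSeries (Fin r) 𝒪 ⧸ maximalIdeal (MvPowerSeries (Fin r) 𝒪) ^ k) :=
    finite_quotient_pow k
  set K := Nat.card (MvPowerSeries (Fin r) 𝒪 ⧸ maximalIdeal (MvPowerSeries (Fin r) 𝒪) ^ k) ^ d
    with hK
  filter_upwards [D.hJ k, D.φ_spec s K] with n h1 h2
  have h3 := (D.B n).mat_mem _ h1 K Nat.lt_two_pow_self _ h2 i j
  have h4 := h1 ((D.B n).mat_φ s i j)
  have h5 := h1 ((D.B n).mat_add ((L n).φ s - D.φ s) (D.φ s) i j)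
  rw [sub_add_cancel] at h5
  have h6 := sub_mem h4 (add_mem h5 h3)
  have h7 : (D.B n).mat ((L n).φ s) i j - (if i = j then s else 0) -
    ((D.B n).mat ((L n).φ s) i j -
      ((D.B n).mat ((L n).φ s - D.φ s) i j + (D.B n).mat (D.φ s) i j) +
      (D.B n).mat ((L n).φ s - D.φ s) i j) =
      (D.B n).mat (D.φ s) i j - if i = j then s else 0 := by ring
  rwa [h7] at h6

section psi

variable [Nontrivial M]

include D in
theorem nontrivial_R : Nontrivial R := Module.nontrivial R M

include D in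
theorem isLocalRing_R : IsLocalRing R := by
  have := D.nontrivial_R
  exact IsLocalRing.of_surjective' ((L 0).ψ : MvPowerSeries (Fin r) 𝒪 →+* R) (L 0).ψ_surjective

include D in
theorem isNoetherianRing_R : IsNoetherianRing R :=
  isNoetherianRing_of_surjective _ _ ((L 0).ψ : MvPowerSeries (Fin r) 𝒪 →+* R)
    (L 0).ψ_surjective

include D in
theorem exists_ψ : ∃ ψ : MvPowerSeries (Fin r) 𝒪 →ₐ[𝒪] R, Function.Surjective ψ ∧
    (∀ i, ψ (D.φ (X i)) = 0) ∧
    ∀ (s : MvPowerSeries (Fin r) 𝒪) (j : Fin d), ψ s • e j =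
      ∑ i, algebraMap 𝒪 R (constantCoeff (D.c s i j)) • e i := by
  have := D.isLocalRing_R
  have := D.isNoetherianRing_R
  have hmap : ∀ n, (maximalIdeal (MvPowerSeries (Fin r) 𝒪)).map
      ((L n).ψ : MvPowerSeries (Fin r) 𝒪 →+* R) = maximalIdeal R := fun n =>
    IsLocalRing.map_maximalIdeal_of_surjective _ (L n).ψ_surjective
  have hmem : ∀ n k (s : MvPowerSeries (Fin r) 𝒪),
      s ∈ maximalIdeal (MvPowerSeries (Fin r) 𝒪) ^ k → (L n).ψ s ∈ maximalIdeal R ^ k := by
    intro n k s hs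
    rw [← hmap n, ← Ideal.map_pow]
    exact Ideal.mem_map_of_mem ((L n).ψ : MvPowerSeries (Fin r) 𝒪 →+* R) hs
  have hH : UHaus (maximalIdeal R) := uHaus_maximalIdeal
  have hU : HasULim 𝓤 (maximalIdeal R) :=
    D.hS.of_surjective ((L 0).ψ : MvPowerSeries (Fin r) 𝒪 →+* R) (L 0).ψ_surjective (hmap 0).le
  choose ψf hψf using fun s : MvPowerSeries (Fin r) 𝒪 => hU (fun n => (L n).ψ s)
  let ψ : MvPowerSeries (Fin r) 𝒪 →ₐ[𝒪] R :=
    { toFun := ψf
      map_one' := (hψf 1).unique hH (by simpa using TendsU.const _)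
      map_zero' := (hψf 0).unique hH (by simpa using TendsU.const _)
      map_mul' := fun s t => (hψf (s * t)).unique hH (by simpa using (hψf s).mul (hψf t))
      map_add' := fun s t => (hψf (s + t)).unique hH (by simpa using (hψf s).add (hψf t))
      commutes' := fun a => (hψf _).unique hH (by
        simpa using! TendsU.const (algebraMap 𝒪 R a)) }
  have hψ : ∀ s, TendsU 𝓤 (maximalIdeal R) (fun n => (L n).ψ s) (ψ s) := hψf
  refine ⟨ψ, ?_, ?_, ?_⟩
  · intro ρ
    choose s hs using fun n => (L n).ψ_surjective ρ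
    obtain ⟨t, ht⟩ := D.hS s
    refine ⟨t, (hψ t).unique hH ?_⟩
    intro k
    filter_upwards [ht k] with n hn
    have h1 := (maximalIdeal R ^ k).neg_mem (hmem n k _ hn)
    rw [map_sub, hs n, neg_sub] at h1
    exact h1
  · intro i
    refine (hψ _).unique hH ?_
    intro k
    filter_upwards [D.φ_spec (X i) k] with n hn
    have h1 := (maximalIdeal R ^ k).neg_mem (hmem n k _ hn)
    rw [map_sub, (L n).ψ_φ_X, zero_sub, neg_neg] at h1
    rwa [sub_zero]
  · intro s j
    -- separatedness of `M`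
    rw [← sub_eq_zero]
    obtain ⟨a, ha⟩ := D.oBasis.span (ψ s • e j -
      ∑ i, algebraMap 𝒪 R (constantCoeff (D.c s i j)) • e i)
    rw [ha]
    have hHO : UHaus (maximalIdeal 𝒪) := uHaus_maximalIdeal
    suffices h : ∀ i, a i = 0 by simp [h]
    intro i0
    apply hHO
    intro k
    -- the submodule `m^k M`
    let P : Submodule R M := Submodule.span R {x | ∃ a ∈ maximalIdeal 𝒪 ^ k, ∃ m : M,
      x = algebraMap 𝒪 R a • m}
    have hP : ∀ x, x ∈ P → ∃ y : Fin d → 𝒪, (∀ i, y i ∈ maximalIdeal 𝒪 ^ k) ∧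
        x = ∑ i, algebraMap 𝒪 R (y i) • e i := by
      intro x hx
      induction hx using Submodule.span_induction with
      | mem x hx =>
        obtain ⟨a, ha, m, rfl⟩ := hx
        obtain ⟨b, rfl⟩ := D.oBasis.span m
        refine ⟨fun i => a * b i, fun i => Ideal.mul_mem_right _ _ ha, ?_⟩
        simp only [Finset.smul_sum, map_mul, mul_smul]
      | zero => exact ⟨fun _ => 0, fun _ => zero_mem _, by simp⟩
      | add x y _ _ ihx ihy =>
        obtain ⟨y1, h1, rfl⟩ := ihx
        obtain ⟨y2, h2, rfl⟩ := ihy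
        refine ⟨fun i => y1 i + y2 i, fun i => add_mem (h1 i) (h2 i), ?_⟩
        simp only [map_add, add_smul, Finset.sum_add_distrib]
      | smul ρ x _ ih =>
        obtain ⟨y, h1, rfl⟩ := ih
        choose b hb using fun i => D.oBasis.span (ρ • e i)
        refine ⟨fun l => ∑ i, y i * b i l, fun l => Ideal.sum_mem _ fun i _ =>
          Ideal.mul_mem_right _ _ (h1 i), ?_⟩
        calc ρ • ∑ i, algebraMap 𝒪 R (y i) • e i
            = ∑ i, algebraMap 𝒪 R (y i) • ρ • e i := by
              rw [Finset.smul_sum]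
              exact Finset.sum_congr rfl fun i _ => smul_comm _ _ _
          _ = _ := by
              simp only [hb, map_sum, Finset.sum_smul, map_mul, mul_smul, Finset.smul_sum]
              rw [Finset.sum_comm]
    have hfin𝒪 : Finite (𝒪 ⧸ maximalIdeal 𝒪 ^ k) := finite_quotient_pow k
    have hfinQ : Finite (M ⧸ P) := by
      choose out hout using Ideal.Quotient.mk_surjective (I := maximalIdeal 𝒪 ^ k)
      refine Finite.of_surjective (α := Fin d → 𝒪 ⧸ maximalIdeal 𝒪 ^ k)
        (fun y => Submodule.Quotient.mk (∑ i, algebraMap 𝒪 R (out (y i)) • e i)) ?_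
      intro q
      obtain ⟨m, rfl⟩ := Submodule.Quotient.mk_surjective _ q
      obtain ⟨y, rfl⟩ := D.oBasis.span m
      refine ⟨fun i => Ideal.Quotient.mk _ (y i), ?_⟩
      dsimp only
      rw [Submodule.Quotient.eq, ← Finset.sum_sub_distrib]
      refine Submodule.sum_mem _ fun i _ => Submodule.subset_span
        ⟨out (Ideal.Quotient.mk _ (y i)) - y i, ?_, e i, by rw [map_sub, sub_smul]⟩
      rw [← Ideal.Quotient.eq, hout]
    set K := Nat.card (M ⧸ P) with hK
    have hkill := pow_smul_top_eq_bot (S := R) K (M ⧸ P) Nat.lt_two_pow_self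
    have hkill2 : ∀ ρ ∈ maximalIdeal R ^ K, ∀ m : M, ρ • m ∈ P := by
      intro ρ hρ m
      have h2 : ρ • (Submodule.Quotient.mk m : M ⧸ P) ∈
          maximalIdeal R ^ K • (⊤ : Submodule R (M ⧸ P)) :=
        Submodule.smul_mem_smul hρ trivial
      rwa [hkill, Submodule.mem_bot, ← Submodule.Quotient.mk_smul,
        Submodule.Quotient.mk_eq_zero] at h2
    have hc : ∀ᶠ n in (𝓤 : Filter ℕ), ∀ i, (D.B n).mat s i j - D.c s i j ∈
        maximalIdeal (MvPowerSeries (Fin r) 𝒪) ^ k := by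
      rw [eventually_all]
      exact fun i => D.c_spec s i j k
    obtain ⟨n, h1, h2⟩ := ((hψ s K).and hc).exists
    have h3 : ψ s • e j - ∑ i, algebraMap 𝒪 R (constantCoeff (D.c s i j)) • e i ∈ P := by
      have h4 : ψ s • e j - ∑ i, algebraMap 𝒪 R (constantCoeff (D.c s i j)) • e i =
          - (((L n).ψ s - ψ s) • e j) +
            ∑ i, algebraMap 𝒪 R (constantCoeff ((D.B n).mat s i j - D.c s i j)) • e i := by
        simp only [map_sub, sub_smul, Finset.sum_sub_distrib]
        rw [← (D.B n).π_mat s j]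
        abel
      rw [h4]
      refine add_mem (neg_mem (hkill2 _ h1 _)) (Submodule.sum_mem _ fun i _ =>
        Submodule.subset_span ⟨_, ?_, e i, rfl⟩)
      have h5 := Ideal.mem_map_of_mem (constantCoeff : MvPowerSeries (Fin r) 𝒪 →+* 𝒪) (h2 i)
      rw [Ideal.map_pow] at h5
      exact Ideal.pow_right_mono map_constantCoeff_le k h5
    obtain ⟨y, hy, h6⟩ := hP _ h3
    rw [ha] at h6
    have h7 : ∀ i, a i - y i = 0 := by
      apply D.oBasis.indep
      simp only [map_sub, sub_smul, Finset.sum_sub_distrib]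
      rw [h6, sub_self]
    rw [sub_eq_zero.mp (h7 i0)]
    exact hy i0

end psi

end LimitData

end Fermat.Agent.RT.Patch
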