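import Fermat.Agent.Density.Final
import Fermat.Agent.Lib.Cyclotomic
import Fermat.Agent.BrauerNesbittGalois
import Fermat.Agent.FrobExists

/-!
# The auxiliary prime for `p = 3` (RT-AUX)

If `ρbar` (characteristic `3`) is absolutely irreducible on the kernel of the mod `3` cyclotomic
character, there are infinitely many primes `r ≡ 2 mod 3` with `tr ρbar(Frob_r) ≠ 0`; then the
eigenvalues `α, β` of `Frob_r` (`α β = r = -1`) satisfy `α ≠ r β` and `β ≠ r α`, and also `α ≠ β`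
if the trace is in the prime field.
-/

set_option autoImplicit false

open Polynomial

namespace Fermat.Agent.RT.AuxPrime

open Fermat.Agent.Cyclotomic

local notation "Γℚ" => (AlgebraicClosure ℚ ≃ₐ[ℚ] AlgebraicClosure ℚ)

/-- the kernel of the mod `3` cyclotomic character has index `2`. -/
theorem index_ker_cyc_three : (cyc 3).ker.index = 2 := by
  obtain ⟨A, hA⟩ := FrobExists.exists_liesOverPrime (AlgebraicClosure ℚ) Nat.prime_two
  obtain ⟨φ, hφ⟩ := FrobExists.exists_isFrobeniusAt A Nat.prime_two hA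
  have h1 : (cyc 3 φ : ZMod 3) = (2 : ℕ) := cyc_frobenius Nat.prime_two (by norm_num) A hA hφ
  have hs : Function.Surjective (cyc 3) := by
    intro u
    have h2 : u = 1 ∨ u = cyc 3 φ := by
      have : ∀ u v : (ZMod 3)ˣ, (v : ZMod 3) = 2 → (u = 1 ∨ u = v) := by decide
      exact this u _ (by rw [h1]; norm_num)
    rcases h2 with rfl | rfl
    · exact ⟨1, map_one _⟩
    · exact ⟨φ, rfl⟩
  rw [Subgroup.index_ker, MonoidHom.range_eq_top.mpr hs]
  simp [Nat.card_eq_fintype_card, ZMod.card_units_eq_totient]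
  decide

variable {k : Type} [Field k]

/-- Under the Taylor--Wiles hypothesis the image of the kernel of `cyc 3` spans. -/
theorem span_ker (ρ : ResidualGaloisRep k)
    (hTW : ∀ (K : Type) [Field K] [Algebra k K] (G : Subgroup Γℚ), G.index = 2 →
      ∀ V : Submodule K (ρ.baseChange K).V,
        (∀ σ ∈ G, ∀ x ∈ V, (ρ.baseChange K).ρ σ x ∈ V) → V = ⊥ ∨ V = ⊤) :
    Submodule.span k (Set.range (ρ.ρ.comp (cyc 3).ker.subtype)) = ⊤ := by
  have := BN2.nontrivial_V ρ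
  refine BN2.span_eq_top_of_baseChange_irreducible (K := AlgebraicClosure k)
    (ρ.ρ.comp (cyc 3).ker.subtype) (fun W hW => ?_)
  exact hTW (AlgebraicClosure k) (cyc 3).ker index_ker_cyc_three W
    fun σ hσ x hx => hW ⟨σ, hσ⟩ x hx

/-- **RT-AUX** -/
theorem exists_aux_prime (ρ : ResidualGaloisRep k)
    (hTW : ∀ (K : Type) [Field K] [Algebra k K] (G : Subgroup Γℚ), G.index = 2 →
      ∀ V : Submodule K (ρ.baseChange K).V,
        (∀ σ ∈ G, ∀ x ∈ V, (ρ.baseChange K).ρ σ x ∈ V) → V = ⊥ ∨ V = ⊤)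
    (S : Finset ℕ) :
    ∃ r : ℕ, r.Prime ∧ r ∉ S ∧ r % 3 = 2 ∧ ∃ (A : ValuationSubring (AlgebraicClosure ℚ)) (σ : Γℚ),
      A.LiesOverPrime r ∧ A.IsFrobeniusAt σ r ∧ LinearMap.trace k ρ.V (ρ.ρ σ) ≠ 0 := by
  by_contra hcon
  push Not at hcon
  obtain ⟨L, hL, hLρ⟩ := ρ.factorsThroughFiniteLevel
  obtain ⟨ζ, hζ⟩ := exists_primitiveRoot 3
  have hfin' : FiniteDimensional ℚ (IntermediateField.adjoin ℚ ({ζ} : Set (AlgebraicClosure ℚ))) :=
    IntermediateField.adjoin.finiteDimensional (Algebra.IsIntegral.isIntegral ζ)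
  let L' : IntermediateField ℚ (AlgebraicClosure ℚ) := L ⊔ IntermediateField.adjoin ℚ {ζ}
  have hfinL' : FiniteDimensional ℚ L' := IntermediateField.finiteDimensional_sup _ _
  have hζL : ζ ∈ L' := (le_sup_right : _ ≤ L')
    (IntermediateField.subset_adjoin ℚ _ (Set.mem_singleton ζ))
  have hLL : L ≤ L' := le_sup_left
  -- all the traces outside the kernel are zero
  have key : ∀ g : Γℚ, cyc 3 g ≠ 1 → LinearMap.trace k ρ.V (ρ.ρ g) = 0 := by
    intro g hg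
    obtain ⟨ℓ, hℓ, hℓS, A, φ, hA, hφ, hφg⟩ :=
      Density.Final.exists_frobenius_eq L' (S ∪ {3}) g
    rw [Finset.mem_union, not_or, Finset.mem_singleton] at hℓS
    have e1 : cyc 3 (g⁻¹ * φ) = 1 := by
      refine cyc_eq_one_of_fixes 3 _ hζ ?_
      rw [AlgEquiv.mul_apply, hφg ζ hζL]
      change g.symm (g ζ) = ζ
      exact g.symm_apply_apply ζ
    have e2 : cyc 3 φ = cyc 3 g := by
      rw [map_mul, map_inv, inv_mul_eq_one] at e1
      exact e1.symm
    have e3 : ρ.ρ φ = ρ.ρ g := by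
      have h1 : ρ.ρ (g⁻¹ * φ) = 1 := hLρ _ fun x hx => by
        rw [AlgEquiv.mul_apply, hφg x (hLL hx)]
        change g.symm (g x) = x
        exact g.symm_apply_apply x
      have : φ = g * (g⁻¹ * φ) := by group
      rw [this, map_mul, h1, mul_one]
    have hℓ3 : ¬ ℓ ∣ 3 := fun h => hℓS.2 ((Nat.prime_dvd_prime_iff_eq hℓ Nat.prime_three).mp h)
    have h4 : (cyc 3 φ : ZMod 3) = (ℓ : ℕ) := cyc_frobenius hℓ hℓ3 A hA hφ
    have h5 : ℓ % 3 = 2 := by
      have h6 : ℓ % 3 = 0 ∨ ℓ % 3 = 1 ∨ ℓ % 3 = 2 := by omega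
      rcases h6 with h6 | h6 | h6
      · exfalso
        apply hℓS.2
        exact ((Nat.prime_dvd_prime_iff_eq Nat.prime_three hℓ).mp (Nat.dvd_of_mod_eq_zero h6)).symm
      · exfalso
        apply hg
        rw [← e2]
        apply Units.ext
        rw [h4, Units.val_one]
        have : ((ℓ : ℕ) : ZMod 3) = ((1 : ℕ) : ZMod 3) :=
          (ZMod.natCast_eq_natCast_iff _ _ _).mpr h6
        rw [this, Nat.cast_one]
      · exact h6
    rw [← e3]
    exact hcon ℓ hℓ hℓS.1 h5 A φ hA hφ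
  -- an element outside the kernel
  obtain ⟨g, hg⟩ : ∃ g, cyc 3 g ≠ 1 := by
    by_contra h
    push Not at h
    have : (cyc 3).ker = ⊤ := by
      ext x
      simp [MonoidHom.mem_ker, h x]
    have h2 := index_ker_cyc_three
    rw [this, Subgroup.index_top] at h2
    omega
  have hzero : ρ.ρ g = 0 := by
    refine BN2.eq_zero_of_trace_mul_eq_zero fun B => ?_
    have hB : B ∈ Submodule.span k (Set.range (ρ.ρ.comp (cyc 3).ker.subtype)) := by
      rw [span_ker ρ hTW]; trivial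
    induction hB using Submodule.span_induction with
    | mem B hB =>
      obtain ⟨h, rfl⟩ := hB
      change LinearMap.trace k ρ.V (ρ.ρ g * ρ.ρ (h : Γℚ)) = 0
      rw [← map_mul]
      refine key _ ?_
      rw [map_mul, (MonoidHom.mem_ker).mp h.2, mul_one]
      exact hg
    | zero => rw [mul_zero, map_zero]
    | add B C _ _ hB hC => rw [mul_add, map_add, hB, hC, add_zero]
    | smul c B _ hB => rw [mul_smul_comm, map_smul, hB, smul_zero]
  have hone : ρ.ρ g * ρ.ρ g⁻¹ = 1 := by rw [← map_mul, mul_inv_cancel, map_one]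
  rw [hzero, zero_mul] at hone
  have := BN2.nontrivial_V ρ
  exact zero_ne_one hone

/-- **RT-AUX**, version with the traces and determinants of all Frobenius elements. -/
theorem exists_aux_prime' (ρ : ResidualGaloisRep k)
    (hTW : ∀ (K : Type) [Field K] [Algebra k K] (G : Subgroup Γℚ), G.index = 2 →
      ∀ V : Submodule K (ρ.baseChange K).V,
        (∀ σ ∈ G, ∀ x ∈ V, (ρ.baseChange K).ρ σ x ∈ V) → V = ⊥ ∨ V = ⊤)
    (S : Finset ℕ) (t : ℕ → k)
    (hF : ∀ ℓ : ℕ, ℓ.Prime → ℓ ∉ S → ∀ A : ValuationSubring (AlgebraicClosure ℚ),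
      A.LiesOverPrime ℓ → ∀ σ : Γℚ, A.IsFrobeniusAt σ ℓ → LinearMap.trace k ρ.V (ρ.ρ σ) = t ℓ)
    (S' : Finset ℕ) :
    ∃ r : ℕ, r.Prime ∧ r ∉ S ∧ r ∉ S' ∧ r % 3 = 2 ∧ t r ≠ 0 := by
  obtain ⟨r, hr, hrS, hr3, A, σ, hA, hσ, ht⟩ := exists_aux_prime ρ hTW (S ∪ S')
  rw [Finset.mem_union, not_or] at hrS
  exact ⟨r, hr, hrS.1, hrS.2, hr3, by rwa [← hF r hr hrS.1 A hA σ hσ]⟩

/-- In characteristic `3`, if `r ≡ 2 mod 3`, `α + β ≠ 0` and `α β = r`, then `α ≠ r β` and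
`β ≠ r α`; if moreover `(α + β)² = 1` (e.g. the trace is in `𝔽₃`), `α ≠ β`. -/
theorem roots_of_trace_ne_zero (h3 : (3 : k) = 0) {r : ℕ} (hr : r % 3 = 2) {α β : k}
    (hdet : α * β = r) (ht : α + β ≠ 0) :
    α ≠ r * β ∧ β ≠ r * α ∧ ((α + β) ^ 2 = 1 → α ≠ β) := by
  have hr' : (r : k) = -1 := by
    have : r = 3 * (r / 3) + 2 := by omega
    rw [this]
    push_cast
    rw [h3]
    linear_combination h3
  rw [hr'] at hdet ⊢
  refine ⟨fun h => ht ?_, fun h => ht ?_, fun h1 h => ?_⟩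
  · rw [h]; ring
  · rw [h]; ring
  · subst h
    have h2 : (4 : k) * (α * α) = 1 := by linear_combination h1
    rw [hdet] at h2
    have h5 : (1 : k) = 0 := by linear_combination 2 * h3 + h2
    exact one_ne_zero h5

/-- Assembled version: `charpoly ρ(Frob_r) = (X - α)(X - β)` gives the conditions. -/
theorem exists_aux_prime_charpoly (h3 : (3 : k) = 0) (ρ : ResidualGaloisRep k)
    (hTW : ∀ (K : Type) [Field K] [Algebra k K] (G : Subgroup Γℚ), G.index = 2 →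
      ∀ V : Submodule K (ρ.baseChange K).V,
        (∀ σ ∈ G, ∀ x ∈ V, (ρ.baseChange K).ρ σ x ∈ V) → V = ⊥ ∨ V = ⊤)
    (S : Finset ℕ) (t : ℕ → k)
    (hF : ∀ ℓ : ℕ, ℓ.Prime → ℓ ∉ S → ∀ A : ValuationSubring (AlgebraicClosure ℚ),
      A.LiesOverPrime ℓ → ∀ σ : Γℚ, A.IsFrobeniusAt σ ℓ →
        LinearMap.charpoly (ρ.ρ σ) = X ^ 2 - C (t ℓ) * X + C (ℓ : k))
    (htF : ∀ ℓ : ℕ, ℓ.Prime → ℓ ∉ S → (t ℓ) ^ 3 = t ℓ)
    (S' : Finset ℕ) :
    ∃ r : ℕ, r.Prime ∧ r ∉ S ∧ r ∉ S' ∧ r % 3 = 2 ∧ t r ≠ 0 ∧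
      ∀ A : ValuationSubring (AlgebraicClosure ℚ),
      A.LiesOverPrime r → ∀ σ : Γℚ, A.IsFrobeniusAt σ r → ∀ α β : k,
        LinearMap.charpoly (ρ.ρ σ) = (X - C α) * (X - C β) →
          α + β = t r ∧ α * β = r ∧ α ≠ β ∧ α ≠ r * β ∧ β ≠ r * α := by
  have hF' : ∀ ℓ : ℕ, ℓ.Prime → ℓ ∉ S → ∀ A : ValuationSubring (AlgebraicClosure ℚ),
      A.LiesOverPrime ℓ → ∀ σ : Γℚ, A.IsFrobeniusAt σ ℓ →
        LinearMap.trace k ρ.V (ρ.ρ σ) = t ℓ := by
    intro ℓ hℓ hℓS A hA σ hσ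
    have h1 := BN2.charpoly_eq_of_finrank_two ρ.finrank_eq (ρ.ρ σ)
    rw [hF ℓ hℓ hℓS A hA σ hσ] at h1
    have h2 := congrArg (fun q : k[X] => q.coeff 1) h1
    simp [coeff_C, coeff_X_pow] at h2
    exact h2.symm
  obtain ⟨r, hr, hrS, hrS', hr3, ht⟩ := exists_aux_prime' ρ hTW S t hF' S'
  refine ⟨r, hr, hrS, hrS', hr3, ht, fun A hA σ hσ α β hαβ => ?_⟩
  rw [hF r hr hrS A hA σ hσ] at hαβ
  have e1 : α + β = t r := by
    have h2 := congrArg (fun q : k[X] => q.coeff 1) hαβ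
    have h4 : (X - C α) * (X - C β) = X ^ 2 - C (α + β) * X + C (α * β) := by
      rw [C_add, C_mul]; ring
    rw [h4] at h2
    simp [coeff_X, coeff_C, coeff_X_pow] at h2
    linear_combination h2
  have e2 : α * β = r := by
    have h2 := congrArg (fun q : k[X] => q.coeff 0) hαβ
    simp at h2
    exact h2.symm
  have h5 : (α + β) ^ 2 = 1 := by
    rw [e1]
    have h6 := htF r hr hrS
    have h7 : t r * ((t r) ^ 2 - 1) = 0 := by linear_combination h6
    rcases mul_eq_zero.mp h7 with h8 | h8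
    · exact absurd h8 ht
    · linear_combination h8
  obtain ⟨h6, h7, h8⟩ := roots_of_trace_ne_zero h3 hr3 e2 (by rw [e1]; exact ht)
  exact ⟨e1, e2, h8 h5, h6, h7⟩

end Fermat.Agent.RT.AuxPrime
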