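import Mathlib
import Fermat.Agent.RT.Defs
import Fermat.Prelude.Thm_IsLocalRing_isAdicComplete_of_module_finite

/-!
# Topologically nilpotent operators: sums, products, and roots of `u² - T u + q` (RT-CTRL)

* `nilSub_add`, `nilSub_mul`, `nilSub_const`, `nilSub_of_map`;
* `exists_roots`: for `T - t` topologically nilpotent on a finite module over a complete DVR,
  the polynomial `u² - T u + q` factors over `𝒪[T]` as soon as it does residually.
-/

set_option autoImplicit false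

open IsLocalRing Polynomial

namespace Fermat.Agent.RT.Control

section Nil

variable {𝒪 : Type*} [CommRing 𝒪] {X Y : Type*} [AddCommGroup X] [Module 𝒪 X]
  [AddCommGroup Y] [Module 𝒪 Y]

theorem nilSub_mul {f g : Module.End 𝒪 X} (h : Commute f g) {x : X} (hx : x ∈ nilSub f) :
    x ∈ nilSub (f * g) := by
  intro c hc
  obtain ⟨n, z, hz⟩ := hx c hc
  refine ⟨n, (g ^ n) z, ?_⟩
  rw [h.mul_pow, (h.pow_pow n n).eq, Module.End.mul_apply, hz, map_smul]

theorem nilSub_mul_left {f g : Module.End 𝒪 X} (h : Commute f g) {x : X} (hx : x ∈ nilSub g) :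
    x ∈ nilSub (f * g) := by
  rw [h.eq]
  exact nilSub_mul h.symm hx

theorem nilSub_add {f g : Module.End 𝒪 X} (h : Commute f g) {x : X} (hf : x ∈ nilSub f)
    (hg : x ∈ nilSub g) : x ∈ nilSub (f + g) := by
  intro c hc
  obtain ⟨n, z, hz⟩ := hf c hc
  obtain ⟨m, w, hw⟩ := hg c hc
  let L : Submodule 𝒪 X := LinearMap.range (c • (LinearMap.id : X →ₗ[𝒪] X))
  have hL : ∀ (k : Module.End 𝒪 X) (y : X), y ∈ L → k y ∈ L := by
    rintro k _ ⟨y, rfl⟩
    exact ⟨k y, by simp⟩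
  have h1 : ((f + g) ^ (n + m)) x ∈ L := by
    rw [h.add_pow, LinearMap.sum_apply]
    refine Submodule.sum_mem _ fun i _ => ?_
    rw [← nsmul_eq_mul', LinearMap.smul_apply]
    refine L.smul_of_tower_mem _ ?_
    rcases le_or_gt n i with hi | hi
    · obtain ⟨j, rfl⟩ := Nat.exists_eq_add_of_le hi
      rw [(h.pow_pow (n + j) _).eq, pow_add f n j, (Commute.refl f).pow_pow n j |>.eq,
        ← mul_assoc, Module.End.mul_apply, hz, map_smul]
      exact ⟨_, rfl⟩
    · obtain ⟨j, hj⟩ := Nat.exists_eq_add_of_le (show m ≤ n + m - i by omega)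
      rw [hj, pow_add g m j, (Commute.refl g).pow_pow m j |>.eq, ← mul_assoc,
        Module.End.mul_apply, hw, map_smul]
      exact ⟨_, rfl⟩
  obtain ⟨y, hy⟩ := h1
  exact ⟨n + m, y, hy.symm⟩

theorem nilSub_sub {f g : Module.End 𝒪 X} (h : Commute f g) {x : X} (hf : x ∈ nilSub f)
    (hg : x ∈ nilSub g) : x ∈ nilSub (f - g) := by
  rw [sub_eq_add_neg, ← mul_neg_one g]
  exact nilSub_add ((h.mul_right (Commute.neg_one_right f)))
    hf (nilSub_mul (Commute.neg_one_right g) hg)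

/-- transport along a map intertwining `f` and `g` on a submodule `W` stable under `f`. -/
theorem nilSub_of_map {f : Module.End 𝒪 X} {g : Module.End 𝒪 Y} (W : Submodule 𝒪 X)
    (hW : ∀ x ∈ W, f x ∈ W) (φ : X →ₗ[𝒪] Y) (hφ : ∀ x ∈ W, φ (f x) = g (φ x)) {x : X}
    (hx : x ∈ W) (h : x ∈ nilSub f) : φ x ∈ nilSub g := by
  intro c hc
  obtain ⟨n, z, hz⟩ := h c hc
  refine ⟨n, φ z, ?_⟩
  have h1 : ∀ n : ℕ, (f ^ n) x ∈ W ∧ φ ((f ^ n) x) = (g ^ n) (φ x) := by
    intro n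
    induction n with
    | zero => exact ⟨by simpa using hx, by simp⟩
    | succ n ih =>
      rw [pow_succ', Module.End.mul_apply]
      exact ⟨hW _ ih.1, by rw [hφ _ ih.1, ih.2, pow_succ', Module.End.mul_apply]⟩
  rw [← (h1 n).2, hz, map_smul]

theorem nilSub_of_comm {f : Module.End 𝒪 X} {g : Module.End 𝒪 Y} (φ : X →ₗ[𝒪] Y)
    (hφ : ∀ x, φ (f x) = g (φ x)) {x : X} (h : x ∈ nilSub f) : φ x ∈ nilSub g :=
  nilSub_of_map ⊤ (fun _ _ => trivial) φ (fun x _ => hφ x) trivial h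

/-- `nilSub` is saturated. -/
theorem mem_nilSub_of_smul [IsDomain 𝒪] [Module.IsTorsionFree 𝒪 X] {f : Module.End 𝒪 X} {c : 𝒪}
    (hc : c ≠ 0) {x : X} (h : c • x ∈ nilSub f) : x ∈ nilSub f := by
  intro d hd
  obtain ⟨n, z, hz⟩ := h (c * d) (mul_ne_zero hc hd)
  refine ⟨n, z, ?_⟩
  rw [map_smul, mul_smul] at hz
  exact smul_right_injective X hc hz

end Nil

section DVR

variable {𝒪 : Type*} [CommRing 𝒪] [IsDomain 𝒪] [IsDiscreteValuationRing 𝒪]
  {X : Type*} [AddCommGroup X] [Module 𝒪 X]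

theorem exists_pow_dvd {κ : 𝒪} (hκ : κ ∈ maximalIdeal 𝒪) {c : 𝒪} (hc : c ≠ 0) :
    ∃ n : ℕ, c ∣ κ ^ n := by
  obtain ⟨ϖ, hϖ⟩ := IsDiscreteValuationRing.exists_irreducible 𝒪
  obtain ⟨n, u, hu⟩ := IsDiscreteValuationRing.eq_unit_mul_pow_irreducible hc hϖ
  refine ⟨n, ?_⟩
  rw [hϖ.maximalIdeal_eq, Ideal.mem_span_singleton] at hκ
  rw [hu, Units.mul_left_dvd]
  exact pow_dvd_pow_of_dvd hκ n

theorem nilSub_const {κ : 𝒪} (hκ : κ ∈ maximalIdeal 𝒪) (x : X) :
    x ∈ nilSub (algebraMap 𝒪 (Module.End 𝒪 X) κ) := by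
  intro c hc
  obtain ⟨n, d, hd⟩ := exists_pow_dvd hκ hc
  refine ⟨n, d • x, ?_⟩
  rw [← map_pow, Module.algebraMap_end_apply, hd, mul_smul]

/-- If `U² - T U + q = 0`, `U - α` is topologically nilpotent at `z`, `α` is a unit and
`α² - tα + q ∈ 𝔪` then `T - t` is topologically nilpotent at `z`. -/
theorem nilSub_trace {U T : Module.End 𝒪 X} (hUT : Commute U T) {t α q : 𝒪}
    (h : U * U = T * U - algebraMap 𝒪 _ q) (hα : IsUnit α)
    (hαq : α ^ 2 - t * α + q ∈ maximalIdeal 𝒪) {z : X}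
    (hz : z ∈ nilSub (U - algebraMap 𝒪 _ α)) : z ∈ nilSub (T - algebraMap 𝒪 _ t) := by
  have cα : Commute (U - algebraMap 𝒪 _ α) (T - algebraMap 𝒪 _ t) :=
    (hUT.sub_right (Algebra.commute_algebraMap_right t U)).sub_left
      ((Algebra.commute_algebraMap_left α T).sub_right (Algebra.commute_algebraMap_left α _))
  -- `(T - t) U` is topologically nilpotent
  have h1 : z ∈ nilSub ((T - algebraMap 𝒪 _ t) * U) := by
    have e : (T - algebraMap 𝒪 (Module.End 𝒪 X) t) * U =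
        (U - algebraMap 𝒪 _ α) * (U + algebraMap 𝒪 _ (α - t)) +
          algebraMap 𝒪 _ (α ^ 2 - t * α + q) := by
      have e1 : T * U = U * U + algebraMap 𝒪 _ q := by rw [h]; abel
      have e2 : U * algebraMap 𝒪 (Module.End 𝒪 X) t = algebraMap 𝒪 _ t * U :=
        (Algebra.commutes t U).symm
      have e3 : U * algebraMap 𝒪 (Module.End 𝒪 X) α = algebraMap 𝒪 _ α * U :=
        (Algebra.commutes α U).symm
      simp only [map_add, map_sub, map_mul, map_pow]
      rw [sub_mul, e1, sub_mul, mul_add, mul_add, mul_sub, mul_sub, e2, e3,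
        ← map_mul, ← map_mul, ← map_mul, ← map_pow, mul_comm t α, sq]
      abel
    rw [e]
    refine nilSub_add ?_ (nilSub_mul ?_ hz) (nilSub_const hαq z)
    · exact (Algebra.commutes _ _).symm
    · exact ((Commute.refl U).add_right (Algebra.commutes _ U).symm).sub_left
        (Algebra.commutes α _)
  -- hence `(T - t) α`
  have h2 : z ∈ nilSub ((T - algebraMap 𝒪 _ t) * algebraMap 𝒪 _ α) := by
    have e : (T - algebraMap 𝒪 (Module.End 𝒪 X) t) * algebraMap 𝒪 _ α =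
        (T - algebraMap 𝒪 _ t) * U - (T - algebraMap 𝒪 _ t) * (U - algebraMap 𝒪 _ α) := by
      rw [mul_sub _ U]; abel
    rw [e]
    refine nilSub_sub ?_ h1 (nilSub_mul_left cα.symm hz)
    have c1 : Commute (T - algebraMap 𝒪 (Module.End 𝒪 X) t) U :=
      (hUT.symm).sub_left (Algebra.commutes t U)
    exact ((Commute.refl _).mul_right cα.symm).mul_left
      ((c1.symm).mul_right ((Commute.refl U).sub_right (Algebra.commutes α U).symm))
  obtain ⟨α', hα'⟩ := hα.exists_left_inv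
  have h3 := nilSub_mul (g := algebraMap 𝒪 _ α') ((Algebra.commutes _ _).symm) h2
  rwa [mul_assoc, ← map_mul, mul_comm α, hα', map_one, mul_one] at h3

theorem eq_zero_of_forall_smul [Module.Finite 𝒪 X] {x : X}
    (h : ∀ c : 𝒪, c ≠ 0 → ∃ z, x = c • z) : x = 0 := by
  obtain ⟨ϖ, hϖ⟩ := IsDiscreteValuationRing.exists_irreducible 𝒪
  have hH : IsHausdorff (maximalIdeal 𝒪) X := inferInstance
  refine hH.haus x fun n => ?_
  rw [SModEq.zero]
  obtain ⟨z, hz⟩ := h (ϖ ^ n) (pow_ne_zero _ hϖ.ne_zero)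
  rw [hz]
  refine Submodule.smul_mem_smul (Ideal.pow_mem_pow ?_ n) trivial
  rw [hϖ.maximalIdeal_eq]
  exact Ideal.mem_span_singleton_self ϖ

/-- If `(U - A)(U - B) = 0`, `U - α` is topologically nilpotent at `z` and `B - α` is invertible,
then `(U - A) z = 0`. -/
theorem eq_zero_of_factor [Module.Finite 𝒪 X] {U A B D : Module.End 𝒪 X} {α : 𝒪}
    (hUA : Commute U A) (hUD : Commute U D) (h : ∀ x, U (U x - A x) = B (U x - A x))
    (hD : ∀ x, D (B x - α • x) = x) {z : X} (hz : z ∈ nilSub (U - algebraMap 𝒪 _ α)) :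
    U z - A z = 0 := by
  have h1 : (U - A) z ∈ nilSub (U - algebraMap 𝒪 _ α) := by
    refine nilSub_of_comm (U - A) (fun x => ?_) hz
    have h2 : Commute (U - A) (U - algebraMap 𝒪 _ α) :=
      ((Commute.refl U).sub_right (Algebra.commute_algebraMap_right α U)).sub_left
        (hUA.symm.sub_right (Algebra.commute_algebraMap_right α A))
    exact LinearMap.congr_fun h2.eq x
  have h2 : (U - A) z ∈ nilSub (D * (U - algebraMap 𝒪 _ α)) :=
    nilSub_mul_left (hUD.symm.sub_right (Algebra.commute_algebraMap_right α D)) h1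
  have h3 : (D * (U - algebraMap 𝒪 _ α)) ((U - A) z) = (U - A) z := by
    rw [Module.End.mul_apply, LinearMap.sub_apply U (algebraMap 𝒪 _ α), Module.algebraMap_end_apply,
      LinearMap.sub_apply U A z, h z, hD]
  have h4 : ∀ n : ℕ, ((D * (U - algebraMap 𝒪 _ α)) ^ n) ((U - A) z) = (U - A) z := by
    intro n
    induction n with
    | zero => simp
    | succ n ih => rw [pow_succ, Module.End.mul_apply, h3, ih]
  change (U - A) z = 0
  refine eq_zero_of_forall_smul (𝒪 := 𝒪) fun c hc => ?_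
  obtain ⟨n, w, hw⟩ := h2 c hc
  exact ⟨w, by rw [← hw, h4]⟩

end DVR

section Root

variable {𝒪 : Type*} [CommRing 𝒪] [IsDomain 𝒪] [IsDiscreteValuationRing 𝒪]
  {X : Type*} [AddCommGroup X] [Module 𝒪 X] [Module.Finite 𝒪 X]

/-- A maximal ideal of `𝒪[T]` contains `𝔪` and `T - t`. -/
theorem mem_of_isMaximal (T : Module.End 𝒪 X) {t : 𝒪}
    (hT : ∀ x, x ∈ nilSub (T - algebraMap 𝒪 _ t))
    (P : Ideal (Algebra.adjoin 𝒪 {T})) [P.IsMaximal] :
    (∀ c ∈ maximalIdeal 𝒪, algebraMap 𝒪 (Algebra.adjoin 𝒪 {T}) c ∈ P) ∧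
      (⟨T, Algebra.self_mem_adjoin_singleton 𝒪 T⟩ - algebraMap 𝒪 (Algebra.adjoin 𝒪 {T}) t) ∈ P := by
  have hfin : Module.Finite 𝒪 (Algebra.adjoin 𝒪 {T}) :=
    Module.Finite.of_injective (Algebra.adjoin 𝒪 {T}).val.toLinearMap Subtype.val_injective
  have hint : Algebra.IsIntegral 𝒪 (Algebra.adjoin 𝒪 {T}) := Algebra.IsIntegral.of_finite _ _
  have h1 : P.comap (algebraMap 𝒪 (Algebra.adjoin 𝒪 {T})) = maximalIdeal 𝒪 :=
    IsLocalRing.eq_maximalIdeal (Ideal.isMaximal_comap_of_isIntegral_of_isMaximal P)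
  have h2 : ∀ c ∈ maximalIdeal 𝒪, algebraMap 𝒪 (Algebra.adjoin 𝒪 {T}) c ∈ P := by
    intro c hc
    rw [← h1] at hc
    exact hc
  refine ⟨h2, ?_⟩
  set τ : Algebra.adjoin 𝒪 {T} :=
    ⟨T, Algebra.self_mem_adjoin_singleton 𝒪 T⟩ - algebraMap 𝒪 (Algebra.adjoin 𝒪 {T}) t with hτ
  have hτ' : (τ : Module.End 𝒪 X) = T - algebraMap 𝒪 _ t := rfl
  by_contra hn
  -- Nakayama
  have h3 : ¬ (⊤ : Submodule (Algebra.adjoin 𝒪 {T}) X) ≤ P • ⊤ := by
    intro hle
    have hfg : (⊤ : Submodule (Algebra.adjoin 𝒪 {T}) X).FG := by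
      have : Module.Finite (Algebra.adjoin 𝒪 {T}) X :=
        Module.Finite.of_restrictScalars_finite 𝒪 _ X
      exact Module.Finite.fg_top
    obtain ⟨r, hr, hr'⟩ :=
      Submodule.exists_sub_one_mem_and_smul_eq_zero_of_fg_of_le_smul P ⊤ hfg hle
    have h0 : r = 0 := Subtype.ext (LinearMap.ext fun x => hr' x trivial)
    rw [h0, zero_sub] at hr
    exact (Ideal.ne_top_iff_one P).mp Ideal.IsPrime.ne_top' ((Submodule.neg_mem_iff _).mp hr)
  obtain ⟨x, -, hx⟩ := SetLike.not_le_iff_exists.mp h3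
  obtain ⟨ϖ, hϖ⟩ := IsDiscreteValuationRing.exists_irreducible 𝒪
  obtain ⟨n, z, hz⟩ := hT x ϖ hϖ.ne_zero
  have h4 : (τ ^ n) • x ∈ P • (⊤ : Submodule (Algebra.adjoin 𝒪 {T}) X) := by
    have e : (τ ^ n) • x = algebraMap 𝒪 (Algebra.adjoin 𝒪 {T}) ϖ • z := by
      rw [algebraMap_smul, ← hz]
      rfl
    rw [e]
    exact Submodule.smul_mem_smul (h2 ϖ (by rw [hϖ.maximalIdeal_eq];
                                            exact Ideal.mem_span_singleton_self ϖ)) trivial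
  obtain ⟨g, hg⟩ := Ideal.IsMaximal.exists_inv ‹P.IsMaximal› hn
  obtain ⟨g', hg', hgg⟩ := hg
  apply hx
  have h5 : (τ ^ n * g ^ n) - 1 ∈ P := by
    have h6 : Ideal.Quotient.mk P (g * τ) = 1 := by
      rw [← map_one (Ideal.Quotient.mk P), eq_comm, Ideal.Quotient.eq]
      have : (1 : Algebra.adjoin 𝒪 {T}) - g * τ = g' := by rw [← hgg]; ring
      rw [this]; exact hg'
    rw [← Ideal.Quotient.eq, map_one, ← mul_pow, mul_comm, map_pow, h6, one_pow]
  have h7 : x = g ^ n • (τ ^ n • x) - (τ ^ n * g ^ n - 1) • x := by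
    rw [sub_smul, smul_smul, one_smul, mul_comm]; abel
  rw [h7]
  exact Submodule.sub_mem _ (Submodule.smul_mem _ _ h4) (Submodule.smul_mem_smul h5 trivial)

theorem isLocalRing_adjoin [Nontrivial X] (T : Module.End 𝒪 X) {t : 𝒪}
    (hT : ∀ x, x ∈ nilSub (T - algebraMap 𝒪 _ t)) : IsLocalRing (Algebra.adjoin 𝒪 {T}) := by
  refine IsLocalRing.of_unique_max_ideal ?_
  obtain ⟨P, hP⟩ := Ideal.exists_maximal (Algebra.adjoin 𝒪 {T})
  have key : ∀ P' P'' : Ideal (Algebra.adjoin 𝒪 {T}), P'.IsMaximal → P''.IsMaximal → P' ≤ P'' := by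
    intro P' P'' hP' hP'' s hs
    obtain ⟨h1, h2⟩ := mem_of_isMaximal T hT P'
    obtain ⟨h1', h2'⟩ := mem_of_isMaximal T hT P''
    set τ : Algebra.adjoin 𝒪 {T} := ⟨T, Algebra.self_mem_adjoin_singleton 𝒪 T⟩ with hτ
    -- `s = p(T)`
    obtain ⟨p, hp⟩ : ∃ p : 𝒪[X], aeval τ p = s := by
      obtain ⟨s, hs'⟩ := s
      obtain ⟨p, rfl⟩ := (Algebra.adjoin_singleton_eq_range_aeval 𝒪 T ▸ hs' :
        s ∈ (aeval T).range)
      refine ⟨p, Subtype.ext ?_⟩
      exact (aeval_algHom_apply (Algebra.adjoin 𝒪 {T}).val τ p).symm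
    obtain ⟨r, hr⟩ : ∃ r, s = algebraMap 𝒪 _ (p.eval t) + (τ - algebraMap 𝒪 _ t) * r := by
      have h3 := sub_dvd_eval_sub τ (algebraMap 𝒪 (Algebra.adjoin 𝒪 {T}) t)
        (p.map (algebraMap 𝒪 (Algebra.adjoin 𝒪 {T})))
      obtain ⟨r, hr⟩ := h3
      refine ⟨r, ?_⟩
      rw [eval_map_algebraMap, hp, eval_map_algebraMap, aeval_algebraMap_apply_eq_algebraMap_eval]
        at hr
      rw [← hr]; abel
    have h3 : p.eval t ∈ maximalIdeal 𝒪 := by
      by_contra hn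
      rw [IsLocalRing.notMem_maximalIdeal] at hn
      have h4 : algebraMap 𝒪 (Algebra.adjoin 𝒪 {T}) (p.eval t) ∈ P' := by
        have : algebraMap 𝒪 (Algebra.adjoin 𝒪 {T}) (p.eval t) =
            s - (τ - algebraMap 𝒪 _ t) * r := by rw [hr]; abel
        rw [this]
        exact P'.sub_mem hs (P'.mul_mem_right _ h2)
      exact hP'.ne_top (Ideal.eq_top_of_isUnit_mem _ h4 (hn.map _))
    rw [hr]
    exact P''.add_mem (h1' _ h3) (P''.mul_mem_right _ h2')
  exact ⟨P, hP, fun P' hP' => le_antisymm (key _ _ hP' hP) (key _ _ hP hP')⟩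

/-- **Factorisation of `u² - T u + q`.** -/
theorem exists_roots [IsAdicComplete (maximalIdeal 𝒪) 𝒪] (T : Module.End 𝒪 X) {t α q : 𝒪}
    (hT : ∀ x, x ∈ nilSub (T - algebraMap 𝒪 _ t))
    (hαq : α ^ 2 - t * α + q ∈ maximalIdeal 𝒪) (hα2 : IsUnit (2 * α - t))
    (hq : IsUnit (t ^ 2 - (q + 1) ^ 2)) :
    ∃ A B : Algebra.adjoin 𝒪 {T}, (A : Module.End 𝒪 X) + B = T ∧
      A * B = algebraMap 𝒪 (Algebra.adjoin 𝒪 {T}) q ∧ IsUnit (A ^ 2 - 1) ∧
      IsUnit (B - algebraMap 𝒪 (Algebra.adjoin 𝒪 {T}) α) ∧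
      ∀ x, x ∈ nilSub ((A : Module.End 𝒪 X) - algebraMap 𝒪 _ α) := by
  rcases subsingleton_or_nontrivial X with hX | hX
  · have hS : Subsingleton (Module.End 𝒪 X) := inferInstance
    have hS' : Subsingleton (Algebra.adjoin 𝒪 {T}) := inferInstance
    refine ⟨0, 0, Subsingleton.elim _ _, Subsingleton.elim _ _, ?_, ?_, fun x => ?_⟩
    · rw [Subsingleton.elim ((0 : Algebra.adjoin 𝒪 {T}) ^ 2 - 1) 1]; exact isUnit_one
    · rw [Subsingleton.elim ((0 : Algebra.adjoin 𝒪 {T}) - algebraMap 𝒪 _ α) 1]; exact isUnit_one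
    · rw [Subsingleton.elim x 0]; exact Submodule.zero_mem _
  have hloc := isLocalRing_adjoin T hT
  have hfin : Module.Finite 𝒪 (Algebra.adjoin 𝒪 {T}) :=
    Module.Finite.of_injective (Algebra.adjoin 𝒪 {T}).val.toLinearMap Subtype.val_injective
  have hint : Algebra.IsIntegral 𝒪 (Algebra.adjoin 𝒪 {T}) := Algebra.IsIntegral.of_finite _ _
  obtain ⟨h𝔪, hτ⟩ := mem_of_isMaximal T hT (maximalIdeal (Algebra.adjoin 𝒪 {T}))
  have hlh : IsLocalHom (algebraMap 𝒪 (Algebra.adjoin 𝒪 {T})) :=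
    ((IsLocalRing.local_hom_TFAE (algebraMap 𝒪 (Algebra.adjoin 𝒪 {T}))).out 0 2).mpr
      (Ideal.map_le_iff_le_comap.mpr h𝔪)
  have hcomp : IsAdicComplete (maximalIdeal (Algebra.adjoin 𝒪 {T})) (Algebra.adjoin 𝒪 {T}) :=
    IsLocalRing.isAdicComplete_of_module_finite (𝒪 := 𝒪)
  set τ : Algebra.adjoin 𝒪 {T} := ⟨T, Algebra.self_mem_adjoin_singleton 𝒪 T⟩ with hτdef
  let a : 𝒪 →+* Algebra.adjoin 𝒪 {T} := algebraMap 𝒪 (Algebra.adjoin 𝒪 {T})
  -- a unit modulo the maximal ideal is a unit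
  have hunit : ∀ (s : Algebra.adjoin 𝒪 {T}) (c : 𝒪), IsUnit c →
      s - a c ∈ maximalIdeal (Algebra.adjoin 𝒪 {T}) → IsUnit s := by
    intro s c hc hs
    by_contra hn
    have h1 : a c ∈ maximalIdeal (Algebra.adjoin 𝒪 {T}) := by
      have : a c = s - (s - a c) := by ring
      rw [this]
      exact Ideal.sub_mem _ hn hs
    exact h1 (hc.map a)
  let f : (Algebra.adjoin 𝒪 {T})[X] := Polynomial.X ^ 2 - (C τ * Polynomial.X - C (a q))
  have hdeg : (C τ * Polynomial.X - C (a q) : (Algebra.adjoin 𝒪 {T})[X]).degree < 2 := by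
    refine lt_of_le_of_lt (degree_sub_le _ _) (max_lt ?_ ?_)
    · exact lt_of_le_of_lt (degree_C_mul_X_le τ) (by decide)
    · exact lt_of_le_of_lt degree_C_le (by decide)
  have hf : f.Monic := monic_X_pow_sub (by simpa using hdeg)
  have hfe : ∀ s, f.eval s = s ^ 2 - τ * s + a q := by
    intro s
    simp only [f, eval_sub, eval_pow, eval_X, eval_mul, eval_C]
    ring
  have hfd : ∀ s, f.derivative.eval s = 2 * s - τ := by
    intro s
    simp only [f, derivative_sub, derivative_pow, derivative_mul, derivative_X, derivative_C,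
      eval_sub, eval_pow, eval_X, eval_mul, eval_C, eval_zero, eval_one, eval_add]
    norm_num
  have h0 : f.eval (a α) ∈ maximalIdeal (Algebra.adjoin 𝒪 {T}) := by
    have e : f.eval (a α) = a (α ^ 2 - t * α + q) - (τ - a t) * a α := by
      rw [hfe]
      simp only [map_add, map_sub, map_mul, map_pow]
      ring
    rw [e]
    exact Ideal.sub_mem _ (h𝔪 _ hαq) (Ideal.mul_mem_right _ _ hτ)
  have h1 : IsUnit (f.derivative.eval (a α)) := by
    refine hunit _ (2 * α - t) hα2 ?_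
    have e : f.derivative.eval (a α) - a (2 * α - t) = -(τ - a t) := by
      rw [hfd]
      simp only [map_sub, map_mul, map_ofNat]
      ring
    rw [e]
    exact Ideal.neg_mem_iff _ |>.mpr hτ
  obtain ⟨A, hA, hAα⟩ := (IsAdicComplete.henselianRing (Algebra.adjoin 𝒪 {T})
    (maximalIdeal (Algebra.adjoin 𝒪 {T}))).is_henselian f hf (a α) h0 (h1.map _)
  have hA' : A ^ 2 - τ * A + a q = 0 := by rw [← hfe]; exact hA
  refine ⟨A, τ - A, ?_, ?_, ?_, ?_, ?_⟩
  · change (A : Module.End 𝒪 X) + (T - A) = T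
    abel
  · linear_combination -hA'
  · -- `A² - 1`
    have h2 : IsUnit ((A ^ 2 - 1) * (1 - (τ - A) ^ 2)) := by
      refine hunit _ _ hq ?_
      have e : (A ^ 2 - 1) * (1 - (τ - A) ^ 2) - a (t ^ 2 - (q + 1) ^ 2) =
          (τ - a t) * (τ + a t) := by
        simp only [map_add, map_sub, map_mul, map_pow, map_one]
        linear_combination (-(A * (τ - A)) - a q - 2) * (-1) * hA' * 1
      rw [e]
      exact Ideal.mul_mem_right _ _ hτ
    exact isUnit_of_mul_isUnit_left h2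
  · refine hunit _ (-(2 * α - t)) hα2.neg ?_
    have e : τ - A - a α - a (-(2 * α - t)) = (τ - a t) - (A - a α) := by
      simp only [map_sub, map_mul, map_ofNat, map_neg]
      ring
    exact e ▸ Ideal.sub_mem _ hτ hAα
  · intro x c hc
    -- `A - α` is nilpotent modulo `𝔪`
    have h2 : A - a α ∈ ((maximalIdeal 𝒪).map a).radical := by
      rw [Ideal.radical_eq_sInf, Ideal.mem_sInf]
      rintro J ⟨hJ, hJp⟩
      have h3 : J.comap a = maximalIdeal 𝒪 := by
        symm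
        refine (IsLocalRing.maximalIdeal.isMaximal 𝒪).eq_of_le ?_ (Ideal.map_le_iff_le_comap.mp hJ)
        exact Ideal.comap_ne_top _ hJp.ne_top
      have h4 : J.IsMaximal := by
        refine Ideal.isMaximal_of_isIntegral_of_isMaximal_comap (R := 𝒪) J ?_
        change (J.comap a).IsMaximal
        rw [h3]
        exact IsLocalRing.maximalIdeal.isMaximal 𝒪
      rw [IsLocalRing.eq_maximalIdeal h4]
      exact hAα
    obtain ⟨n, hn⟩ := h2
    obtain ⟨ϖ, hϖ⟩ := IsDiscreteValuationRing.exists_irreducible 𝒪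
    rw [hϖ.maximalIdeal_eq, Ideal.map_span, Set.image_singleton, Ideal.mem_span_singleton] at hn
    obtain ⟨g, hg⟩ := hn
    obtain ⟨m, d, hd⟩ := exists_pow_dvd (κ := ϖ) (by
      rw [hϖ.maximalIdeal_eq]; exact Ideal.mem_span_singleton_self ϖ) hc
    refine ⟨n * m, d • ((g ^ m : Algebra.adjoin 𝒪 {T}) : Module.End 𝒪 X) x, ?_⟩
    have h5 : (A - a α) ^ (n * m) = a c * (a d * g ^ m) := by
      rw [pow_mul, hg, mul_pow, ← map_pow, hd, map_mul]; ring
    have h6 : (((A - a α) ^ (n * m) : Algebra.adjoin 𝒪 {T}) : Module.End 𝒪 X) x =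
        ((a c * (a d * g ^ m) : Algebra.adjoin 𝒪 {T}) : Module.End 𝒪 X) x := by rw [h5]
    exact h6

end Root

end Fermat.Agent.RT.Control
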