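import Fermat.Agent.RT.TWSetup

/-!
# Taylor–Wiles levels: stability, freeness, norm (team RT, helper59)
-/

set_option autoImplicit false
set_option linter.unusedSectionVars false

open Matrix Matrix.SpecialLinearGroup CongruenceSubgroup IsLocalRing
open scoped MatrixGroups OnePoint

noncomputable section

namespace Fermat.Agent.RT.TWS

open Fermat.Agent.LR Fermat.Agent.LR.PS Fermat.Agent.RT Fermat.Agent.RT.TwistH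
  Fermat.Agent.RT.GroupAlg Fermat.Agent.RT.Dict Fermat.Agent.RT.Loc Fermat.Agent.RT.GR

namespace TWP

variable {p N r : ℕ} (W : TWP p N r)

/-- Standing hypotheses on the sets `S`, `I`. -/
structure Good (S I : Set ℕ) : Prop where
  hN : N ≠ 0
  hp2 : p ≠ 2
  hS : ∀ ℓ : ℕ, ℓ.Prime → ℓ ∣ N → ℓ ∈ S
  hI : ∀ s ∈ I, s.Prime ∧ s ∣ N * W.Q

variable [hp : Fact p.Prime] {𝒪 : Type*} [CommRing 𝒪]

variable {W} {S I : Set ℕ} (hG : W.Good S I)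

include hG in
theorem Good.hyp : TwHyp N W.Q W.ψ := W.hyp hG.hN hG.hp2

/-- An operator of one of the two kinds `TH ℓ` (`ℓ ∤ NQ`), `U_s` (`s ∣ NQ`). -/
def IsHop (W : TWP p N r) (A : Module.End 𝒪 (Pairs 𝒪)) : Prop :=
  (∃ ℓ : ℕ, ℓ.Prime ∧ ¬ ℓ ∣ N * W.Q ∧ A = TH N W.Q W.ψ ℓ) ∨
    (∃ s : ℕ, s.Prime ∧ s ∣ N * W.Q ∧ A = heckeU s)

theorem isHop_TH {ℓ : ℕ} (hℓ : ℓ.Prime) (h : ¬ ℓ ∣ N * W.Q) :
    IsHop W (TH N W.Q W.ψ ℓ : Module.End 𝒪 (Pairs 𝒪)) := Or.inl ⟨ℓ, hℓ, h, rfl⟩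

theorem isHop_heckeU {s : ℕ} (hs : s.Prime) (h : s ∣ N * W.Q) :
    IsHop W (heckeU s : Module.End 𝒪 (Pairs 𝒪)) := Or.inr ⟨s, hs, h, rfl⟩

include hG

theorem isHop_of_mem_ops {t α : ℕ → 𝒪} {T : Module.End 𝒪 (Pairs 𝒪)} (hT : T ∈ W.ops S t I α) :
    ∃ (A : Module.End 𝒪 (Pairs 𝒪)) (c : 𝒪), IsHop W A ∧ T = A - c • LinearMap.id := by
  rcases hT with ⟨ℓ, h1, h2, h3, rfl⟩ | ⟨s, hs, rfl⟩
  · refine ⟨_, _, isHop_TH h1 fun h => ?_, rfl⟩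
    rcases (Nat.Prime.dvd_mul h1).mp h with h | h
    · exact h2 (hG.hS ℓ h1 h)
    · exact h3 h
  · exact ⟨_, _, isHop_heckeU (hG.hI s hs).1 (hG.hI s hs).2, rfl⟩

theorem IsHop.mem_sgnMS {A : Module.End 𝒪 (Pairs 𝒪)} (hA : IsHop W A) {ε : ℤ} {x : Pairs 𝒪}
    (hx : x ∈ sgnMS 𝒪 ε W.ΓH) : A x ∈ sgnMS 𝒪 ε W.ΓH := by
  have H := hG.hyp
  obtain ⟨h1, h2⟩ := RT.mem_sgnMS.mp hx
  have h3 := hInv_of_mem h1
  rcases hA with ⟨ℓ, hℓ, hℓN, rfl⟩ | ⟨s, hs, hsN, rfl⟩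
  · refine RT.mem_sgnMS.mpr ⟨TH_mem H hℓ hℓN h1, ?_⟩
    rw [← TH_jMat H h3 hℓ.ne_zero, h2, map_smul]
  · refine RT.mem_sgnMS.mpr ⟨heckeU_mem_GammaH H hs.ne_zero hsN h1, ?_⟩
    rw [← TwistH.heckeU_jMat h3.tInv hs.ne_zero, h2, map_smul]

theorem IsHop.comm {A B : Module.End 𝒪 (Pairs 𝒪)} (hA : IsHop W A) (hB : IsHop W B)
    {x : Pairs 𝒪} (hx : x ∈ MS W.ΓH 𝒪) : A (B x) = B (A x) := by
  have H := hG.hyp
  have h3 := hInv_of_mem hx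
  rcases hA with ⟨ℓ, hℓ, hℓN, rfl⟩ | ⟨s, hs, hsN, rfl⟩ <;>
    rcases hB with ⟨m, hm, hmN, rfl⟩ | ⟨u, hu, huN, rfl⟩
  · exact TH_comm H hℓ hℓN hm hmN h3
  · refine TH_heckeU H hℓ hu.ne_zero huN ((Nat.coprime_primes hℓ hu).mpr ?_) h3
    rintro rfl; exact hℓN huN
  · refine (TH_heckeU H hm hs.ne_zero hsN ((Nat.coprime_primes hm hs).mpr ?_) h3).symm
    rintro rfl; exact hmN hsN
  · exact heckeU_comm s u hs.ne_zero hu.ne_zero x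

theorem IsHop.comm_D {A : Module.End 𝒪 (Pairs 𝒪)} (hA : IsHop W A) (δ : W.Δ)
    {x : Pairs 𝒪} (hx : x ∈ MS W.ΓH 𝒪) : A (D N W.Q W.ψ δ x) = D N W.Q W.ψ δ (A x) := by
  have H := hG.hyp
  have h3 := hInv_of_mem hx
  rcases hA with ⟨ℓ, hℓ, hℓN, rfl⟩ | ⟨s, hs, hsN, rfl⟩
  · exact (D_TH H hℓ hℓN h3 δ).symm
  · exact (D_heckeU H hs.ne_zero hsN h3 δ).symm

theorem D_mem_sgnMS {ε : ℤ} (δ : W.Δ) {x : Pairs 𝒪} (hx : x ∈ sgnMS 𝒪 ε W.ΓH) :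
    D N W.Q W.ψ δ x ∈ sgnMS 𝒪 ε W.ΓH := by
  have H := hG.hyp
  obtain ⟨h1, h2⟩ := RT.mem_sgnMS.mp hx
  refine RT.mem_sgnMS.mpr ⟨D_mem h1 δ, ?_⟩
  rw [← D_jMat H (hInv_of_mem h1), h2, map_smul]

theorem ops_mem {t α : ℕ → 𝒪} {T : Module.End 𝒪 (Pairs 𝒪)} (hT : T ∈ W.ops S t I α) {ε : ℤ}
    {x : Pairs 𝒪} (hx : x ∈ sgnMS 𝒪 ε W.ΓH) : T x ∈ sgnMS 𝒪 ε W.ΓH := by
  obtain ⟨A, c, hA, rfl⟩ := isHop_of_mem_ops hG hT
  exact sub_mem (hA.mem_sgnMS hG hx) (Submodule.smul_mem _ _ hx)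

theorem IsHop.comm_ops {t α : ℕ → 𝒪} {T : Module.End 𝒪 (Pairs 𝒪)} (hT : T ∈ W.ops S t I α)
    {A : Module.End 𝒪 (Pairs 𝒪)} (hA : IsHop W A) {x : Pairs 𝒪} (hx : x ∈ MS W.ΓH 𝒪) :
    A (T x) = T (A x) := by
  obtain ⟨B, c, hB, rfl⟩ := isHop_of_mem_ops hG hT
  simp only [LinearMap.sub_apply, LinearMap.smul_apply, LinearMap.id_apply, map_sub, map_smul]
  rw [hA.comm hG hB hx]

theorem ops_comm {t α : ℕ → 𝒪} {T T' : Module.End 𝒪 (Pairs 𝒪)} (hT : T ∈ W.ops S t I α)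
    (hT' : T' ∈ W.ops S t I α) {x : Pairs 𝒪} (hx : x ∈ MS W.ΓH 𝒪) : T (T' x) = T' (T x) := by
  obtain ⟨B, c, hB, rfl⟩ := isHop_of_mem_ops hG hT
  have := hB.comm_ops hG hT' hx
  simp only [LinearMap.sub_apply, LinearMap.smul_apply, LinearMap.id_apply, map_sub, map_smul]
  rw [this]

theorem D_comm_ops {t α : ℕ → 𝒪} {T : Module.End 𝒪 (Pairs 𝒪)} (hT : T ∈ W.ops S t I α)
    (δ : W.Δ) {x : Pairs 𝒪} (hx : x ∈ MS W.ΓH 𝒪) :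
    D N W.Q W.ψ δ (T x) = T (D N W.Q W.ψ δ x) := by
  obtain ⟨B, c, hB, rfl⟩ := isHop_of_mem_ops hG hT
  simp only [LinearMap.sub_apply, LinearMap.smul_apply, LinearMap.id_apply, map_sub, map_smul]
  rw [hB.comm_D hG δ hx]

omit hG

theorem M'_le {ε : ℤ} {t α : ℕ → 𝒪} : W.M' ε S t I α ≤ sgnMS 𝒪 ε W.ΓH := part_le

theorem M'_le_MS {ε : ℤ} {t α : ℕ → 𝒪} : W.M' ε S t I α ≤ MS W.ΓH 𝒪 :=
  part_le.trans inf_le_left

section dvr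

variable {𝒪 : Type*} [CommRing 𝒪] [IsDomain 𝒪] [IsDiscreteValuationRing 𝒪]
  [IsAdicComplete (maximalIdeal 𝒪) 𝒪] [Finite (ResidueField 𝒪)]
variable {ε : ℤ} {t α : ℕ → 𝒪}

theorem finiteIndex_ΓH (hG : W.Good S I) : W.ΓH.FiniteIndex := by
  have : NeZero N := ⟨hG.hN⟩
  have h1 : (W.dd hG.hp2).G₀.FiniteIndex := by
    have : NeZero (N * W.Q) := ⟨mul_ne_zero (NeZero.ne N) W.Q_ne_zero⟩
    exact (Gamma0_is_congruence (N * W.Q)).finiteIndex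
  exact finiteIndex_ker (W.dd hG.hp2)

theorem finite_sgn (hG : W.Good S I) (ε : ℤ) : Module.Finite 𝒪 (sgnMS 𝒪 ε W.ΓH) := by
  have := finiteIndex_ΓH hG
  exact finite_sgnMS ε W.ΓH

theorem finite_M' (hG : W.Good S I) : Module.Finite 𝒪 (W.M' ε S t I α) := by
  have := finite_sgn (𝒪 := 𝒪) hG ε
  exact Module.Finite.of_injective (Submodule.inclusion (M'_le (W := W)))
    (Submodule.inclusion_injective _)

theorem saturated_M' : Saturated (W.M' ε S t I α) :=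
  saturated_part smul_eq_zero_pairs (saturated_sgnMS ε W.ΓH) _

/-- operators commuting with the family preserve `M'`. -/
theorem mem_M'_of_comm (hG : W.Good S I) (A : Module.End 𝒪 (Pairs 𝒪))
    (h1 : ∀ x ∈ sgnMS 𝒪 ε W.ΓH, A x ∈ sgnMS 𝒪 ε W.ΓH)
    (h2 : ∀ T ∈ W.ops S t I α, ∀ x ∈ sgnMS 𝒪 ε W.ΓH, A (T x) = T (A x))
    {x : Pairs 𝒪} (hx : x ∈ W.M' ε S t I α) : A x ∈ W.M' ε S t I α := by
  have hfin := finite_sgn (𝒪 := 𝒪) hG ε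
  have h3 := mem_part_of_comm (t := (Subtype.val : W.ops S t I α → _))
    (saturated_sgnMS (𝒪 := 𝒪) ε W.ΓH) (fun i x hx => ops_mem hG i.2 hx) A h1
    (fun i x hx => h2 _ i.2 x hx) (x := x) (by rw [Subtype.range_coe]; exact hx)
  rw [Subtype.range_coe] at h3
  exact h3

theorem IsHop.mem_M' (hG : W.Good S I) {A : Module.End 𝒪 (Pairs 𝒪)} (hA : IsHop W A)
    {x : Pairs 𝒪} (hx : x ∈ W.M' ε S t I α) : A x ∈ W.M' ε S t I α :=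
  mem_M'_of_comm hG A (fun _ hx => hA.mem_sgnMS hG hx)
    (fun _ hT _ hx => hA.comm_ops hG hT (RT.mem_sgnMS.mp hx).1) hx

theorem D_mem_M' (hG : W.Good S I) (δ : W.Δ) {x : Pairs 𝒪} (hx : x ∈ W.M' ε S t I α) :
    D N W.Q W.ψ δ x ∈ W.M' ε S t I α :=
  mem_M'_of_comm hG _ (fun _ hx => D_mem_sgnMS hG δ hx)
    (fun _ hT _ hx => D_comm_ops hG hT δ (RT.mem_sgnMS.mp hx).1) hx

/-- The diamond representation on `M'`. -/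
def dia' (hG : W.Good S I) (ε : ℤ) (t α : ℕ → 𝒪) : W.Δ →* Module.End 𝒪 (W.M' ε S t I α) where
  toFun δ := (D N W.Q W.ψ δ : Module.End 𝒪 (Pairs 𝒪)).restrict fun _ hx => D_mem_M' hG δ hx
  map_one' := LinearMap.ext fun x => Subtype.ext (D_one hG.hyp (M'_le_MS x.2))
  map_mul' δ δ' := LinearMap.ext fun x => Subtype.ext
    (D_D hG.hyp (M'_le_MS x.2) δ δ').symm

@[simp] theorem dia'_coe (hG : W.Good S I) (δ : W.Δ) (x : W.M' ε S t I α) :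
    ((dia' hG ε t α δ x : W.M' ε S t I α) : Pairs 𝒪) = D N W.Q W.ψ δ x := rfl

theorem slash_rep_eq [NeZero N] (hp2 : p ≠ 2) {R : Type*} [CommRing R] {x : Pairs R}
    (hx : x ∈ MS W.ΓH R) (δ : W.Δ) :
    slash (toQ ((W.dd hp2).rep δ)) x = D N W.Q W.ψ δ x := by
  have h1 := (hInv_of_mem hx).slash_eq (W.hyp (NeZero.ne N) hp2) ((W.dd hp2).rep δ)
  exact h1.trans (congrArg (fun d => D N W.Q W.ψ d x) ((W.dd hp2).d_rep δ))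

/-- **`M'` is a free `𝒪[Δ]`-module** (plus part). -/
theorem repFree (hG : W.Good S I) (h2 : IsUnit (2 : 𝒪)) (hp𝒪 : (p : 𝒪) ∈ maximalIdeal 𝒪)
    (h3 : IsUnit (3 : 𝒪) ∨ ∃ s : ℕ, s.Prime ∧ s % 3 = 2 ∧ s ∣ N) :
    RepFree (dia' hG 1 t α) := by
  have : NeZero N := ⟨hG.hN⟩
  have hNQ : NeZero (N * W.Q) := ⟨mul_ne_zero (NeZero.ne N) W.Q_ne_zero⟩
  set 𝔇 := W.dd hG.hp2 with h𝔇
  have hfi : 𝔇.G₀.FiniteIndex := (Gamma0_is_congruence (N * W.Q)).finiteIndex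
  have hU : letI := 𝔇.instAct; Manin.UGood 𝒪 𝔇.maninData W.Δ := by
    rcases h3 with h3 | ⟨s, hs, hs3, hsN⟩
    · exact Or.inl h3
    · refine uGood_diaData 𝒪 𝔇 (r := s) ?_ hs hs3
      intro γ hγ
      have hγ' : γ ∈ Gamma0 (N * W.Q) := hγ
      rw [mem_Gamma0_iff] at hγ' ⊢
      exact (Int.natCast_dvd_natCast.mpr (hsN.mul_right _)).trans hγ'
  have hrep : ∀ (δ : W.Δ) (x : Pairs 𝒪), x ∈ MS W.ΓH 𝒪 →
      slash (toQ (𝔇.rep δ)) x = D N W.Q W.ψ δ x := fun δ x hx => slash_rep_eq hG.hp2 hx δ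
  have key := repFree_part (𝒪 := 𝒪) 𝔇 h2 p W.isPGroup hp𝒪 hU
    (Subtype.val : W.ops S t I α → Module.End 𝒪 (Pairs 𝒪))
    (fun i x hx => ops_mem hG i.2 hx)
    (fun i j x hx => ops_comm hG i.2 j.2 (RT.mem_sgnMS.mp hx).1)
    (fun i δ x hx => by
      have hx1 := (RT.mem_sgnMS.mp hx).1
      have hx2 := (RT.mem_sgnMS.mp (ops_mem hG i.2 hx)).1
      rw [hrep δ x hx1, hrep δ _ hx2, D_comm_ops hG i.2 δ hx1])
    (P := W.M' 1 S t I α) (by rw [Subtype.range_coe]; rfl) M'_le_MS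
    (fun δ x hx => by rw [hrep δ x (M'_le_MS hx)]; exact D_mem_M' hG δ hx)
  have heq : dOn 𝔇 (W.M' 1 S t I α) M'_le_MS
      (fun δ x hx => by rw [hrep δ x (M'_le_MS hx)]; exact D_mem_M' hG δ hx) =
      dia' hG 1 t α := by
    refine MonoidHom.ext fun δ => LinearMap.ext fun x => Subtype.ext ?_
    exact hrep δ x (M'_le_MS x.2)
  rw [← heq]
  exact key

/-! ### The norm to level `Γ₀(NQ)` -/

/-- The localising family at level `Γ₀(NQ)`. -/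
def ops0 (W : TWP p N r) (S : Set ℕ) (t : ℕ → 𝒪) (I : Set ℕ) (α : ℕ → 𝒪) :
    Set (Module.End 𝒪 (Pairs 𝒪)) :=
  {T | ∃ ℓ : ℕ, ℓ.Prime ∧ ℓ ∉ S ∧ ¬ ℓ ∣ W.Q ∧ T = heckeT ℓ - t ℓ • LinearMap.id} ∪
  {T | ∃ s ∈ I, T = heckeU s - α s • LinearMap.id}

/-- The Hecke module at level `Γ₀(NQ)`. -/
def M0 (W : TWP p N r) (ε : ℤ) (S : Set ℕ) (t : ℕ → 𝒪) (I : Set ℕ) (α : ℕ → 𝒪) :
    Submodule 𝒪 (Pairs 𝒪) :=
  part (sgnMS 𝒪 ε (Gamma0 (N * W.Q))) (W.ops0 S t I α)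

theorem pow_apply_congr {X : Type*} [AddCommGroup X] [Module 𝒪 X] {A B : Module.End 𝒪 X}
    {H : Submodule 𝒪 X} (hB : ∀ x ∈ H, B x ∈ H) (h : ∀ x ∈ H, A x = B x) (n : ℕ) {x : X}
    (hx : x ∈ H) : (A ^ n) x = (B ^ n) x ∧ (B ^ n) x ∈ H := by
  induction n with
  | zero => exact ⟨rfl, hx⟩
  | succ n ih =>
    rw [pow_succ', Module.End.mul_apply, pow_succ', Module.End.mul_apply, ih.1, h _ ih.2]
    exact ⟨rfl, hB _ ih.2⟩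

theorem nilSub_congr {X : Type*} [AddCommGroup X] [Module 𝒪 X] {A B : Module.End 𝒪 X}
    {H : Submodule 𝒪 X} (hB : ∀ x ∈ H, B x ∈ H) (h : ∀ x ∈ H, A x = B x) {x : X}
    (hx : x ∈ H) : x ∈ nilSub A ↔ x ∈ nilSub B := by
  simp only [mem_nilSub]
  refine forall_congr' fun c => forall_congr' fun _ => exists_congr fun n =>
    exists_congr fun z => ?_
  rw [(pow_apply_congr hB h n hx).1]

theorem heckeT_sub_mem (hG : W.Good S I) {ℓ : ℕ} (hℓ : ℓ.Prime) (hℓN : ¬ ℓ ∣ N * W.Q) (c : 𝒪)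
    {x : Pairs 𝒪} (hx : x ∈ MS (Gamma0 (N * W.Q)) 𝒪) :
    (heckeT ℓ - c • LinearMap.id : Module.End 𝒪 (Pairs 𝒪)) x ∈ MS (Gamma0 (N * W.Q)) 𝒪 := by
  have H := hG.hyp
  have h1 : TH N W.Q W.ψ ℓ x ∈ MS (Gamma0 (N * W.Q)) 𝒪 := by
    have h2 := MS_Gamma0_le (N := N) (Q := W.Q) (ψ := W.ψ) hx
    rw [mem_Gamma0_iff_D H (TH_mem H hℓ hℓN h2)]
    intro δ
    rw [D_TH H hℓ hℓN (hInv_of_mem h2), D_of_mem_Gamma0 hx]
  rw [TH_of_mem_Gamma0 hx] at h1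
  exact sub_mem h1 (Submodule.smul_mem _ _ hx)

theorem mem_M0_iff (hG : W.Good S I) {x : Pairs 𝒪} :
    x ∈ W.M0 ε S t I α ↔ x ∈ W.M' ε S t I α ∧ x ∈ MS (Gamma0 (N * W.Q)) 𝒪 := by
  have key : ∀ {ℓ : ℕ}, ℓ.Prime → ¬ ℓ ∣ N * W.Q → ∀ c : 𝒪, ∀ {x : Pairs 𝒪},
      x ∈ MS (Gamma0 (N * W.Q)) 𝒪 →
      (x ∈ nilSub (TH N W.Q W.ψ ℓ - c • LinearMap.id : Module.End 𝒪 (Pairs 𝒪)) ↔
        x ∈ nilSub (heckeT ℓ - c • LinearMap.id : Module.End 𝒪 (Pairs 𝒪))) := by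
    intro ℓ hℓ hℓN c x hx
    refine nilSub_congr (H := MS (Gamma0 (N * W.Q)) 𝒪)
      (fun x hx => heckeT_sub_mem hG hℓ hℓN c hx) (fun x hx => ?_) hx
    rw [LinearMap.sub_apply, LinearMap.sub_apply, TH_of_mem_Gamma0 hx]
  have hndvd : ∀ {ℓ : ℕ}, ℓ.Prime → ℓ ∉ S → ¬ ℓ ∣ W.Q → ¬ ℓ ∣ N * W.Q := by
    intro ℓ hℓ h1 h2 h
    rcases (Nat.Prime.dvd_mul hℓ).mp h with h | h
    · exact h1 (hG.hS ℓ hℓ h)
    · exact h2 h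
  constructor
  · intro h
    obtain ⟨h1, h2⟩ := mem_part.mp h
    obtain ⟨h3, h4⟩ := RT.mem_sgnMS.mp h1
    refine ⟨mem_part.mpr ⟨RT.mem_sgnMS.mpr ⟨MS_Gamma0_le h3, h4⟩, ?_⟩, h3⟩
    rintro T (⟨ℓ, hℓ, hℓS, hℓQ, rfl⟩ | ⟨s, hs, rfl⟩)
    · exact (key hℓ (hndvd hℓ hℓS hℓQ) _ h3).mpr (h2 _ (Or.inl ⟨ℓ, hℓ, hℓS, hℓQ, rfl⟩))
    · exact h2 _ (Or.inr ⟨s, hs, rfl⟩)
  · rintro ⟨h, h3⟩
    obtain ⟨h1, h2⟩ := mem_part.mp h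
    obtain ⟨-, h4⟩ := RT.mem_sgnMS.mp h1
    refine mem_part.mpr ⟨RT.mem_sgnMS.mpr ⟨h3, h4⟩, ?_⟩
    rintro T (⟨ℓ, hℓ, hℓS, hℓQ, rfl⟩ | ⟨s, hs, rfl⟩)
    · exact (key hℓ (hndvd hℓ hℓS hℓQ) _ h3).mp (h2 _ (Or.inl ⟨ℓ, hℓ, hℓS, hℓQ, rfl⟩))
    · exact h2 _ (Or.inr ⟨s, hs, rfl⟩)

theorem closure_gen : Subgroup.closure (Set.range (GroupAlg.gen fun i => p ^ W.a i)) = ⊤ := by
  classical
  refine top_le_iff.mp fun g _ => ?_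
  have h1 : g = ∏ i, GroupAlg.gen (fun i => p ^ W.a i) i ^ expo _ g i := by
    funext j
    rw [Finset.prod_apply, Finset.prod_eq_single j]
    · rw [Pi.pow_apply, GroupAlg.gen, Pi.mulSingle_eq_same, ← ofAdd_nsmul, expo, nsmul_eq_mul, mul_one]
      have := ZMod.natCast_zmod_val (Multiplicative.toAdd (g j))
      rw [this]; rfl
    · intro i _ hij
      rw [Pi.pow_apply, GroupAlg.gen, Pi.mulSingle_eq_of_ne (Ne.symm hij), one_pow]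
    · intro h; exact absurd (Finset.mem_univ _) h
  rw [h1]
  exact Subgroup.prod_mem _ fun i _ => Subgroup.pow_mem _ (Subgroup.subset_closure (Set.mem_range_self i)) _

theorem M0_le (hG : W.Good S I) : W.M0 ε S t I α ≤ W.M' ε S t I α :=
  fun _ hx => ((mem_M0_iff hG).mp hx).1

/-- **The norm map** `M' → M0`. -/
theorem exists_norm (hG : W.Good S I) (h2 : IsUnit (2 : 𝒪)) (hp𝒪 : (p : 𝒪) ∈ maximalIdeal 𝒪)
    (h3 : IsUnit (3 : 𝒪) ∨ ∃ s : ℕ, s.Prime ∧ s % 3 = 2 ∧ s ∣ N) [Fintype W.Δ] :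
    ∃ ν : W.M' 1 S t I α →ₗ[𝒪] W.M0 1 S t I α, Function.Surjective ν ∧
      (∀ x, Submodule.inclusion (M0_le hG) (ν x) = ∑ δ, dia' hG 1 t α δ x) ∧
      LinearMap.ker ν = ⨆ i, LinearMap.range (dia' hG 1 t α (GroupAlg.gen _ i) - 1) :=
  (repFree (t := t) (α := α) hG h2 hp𝒪 h3).exists_norm_map (GroupAlg.gen fun i => p ^ W.a i)
    closure_gen (Submodule.inclusion (M0_le hG)) (Submodule.inclusion_injective _)
    (fun y δ => Subtype.ext (D_of_mem_Gamma0 ((mem_M0_iff hG).mp y.2).2 δ))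
    (fun x hx => ⟨⟨x.1, (mem_M0_iff hG).mpr ⟨x.2, (mem_Gamma0_iff_D hG.hyp (M'_le_MS x.2)).mpr
      fun δ => congrArg Subtype.val (hx δ)⟩⟩, Subtype.ext rfl⟩)

/-- The restriction of a Hecke operator to `M'`. -/
def hopM' (hG : W.Good S I) (ε : ℤ) (t α : ℕ → 𝒪) {A : Module.End 𝒪 (Pairs 𝒪)}
    (hA : IsHop W A) : Module.End 𝒪 (W.M' ε S t I α) :=
  A.restrict fun _ hx => hA.mem_M' hG hx

@[simp] theorem hopM'_coe (hG : W.Good S I) {A : Module.End 𝒪 (Pairs 𝒪)}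
    (hA : IsHop W A) (x : W.M' ε S t I α) :
    ((hopM' hG ε t α hA x : W.M' ε S t I α) : Pairs 𝒪) = A x := rfl

theorem hopM'_comm (hG : W.Good S I) {A B : Module.End 𝒪 (Pairs 𝒪)}
    (hA : IsHop W A) (hB : IsHop W B) :
    Commute (hopM' hG ε t α hA) (hopM' hG ε t α hB) :=
  LinearMap.ext fun x => Subtype.ext (hA.comm hG hB (M'_le_MS x.2))

theorem hopM'_dia' (hG : W.Good S I) {A : Module.End 𝒪 (Pairs 𝒪)}
    (hA : IsHop W A) (δ : W.Δ) :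
    Commute (hopM' hG ε t α hA) (dia' hG ε t α δ) :=
  LinearMap.ext fun x => Subtype.ext (hA.comm_D hG δ (M'_le_MS x.2))

/-- Hecke operators preserve `M0`. -/
theorem IsHop.mem_M0 (hG : W.Good S I) {A : Module.End 𝒪 (Pairs 𝒪)} (hA : IsHop W A)
    {x : Pairs 𝒪} (hx : x ∈ W.M0 ε S t I α) : A x ∈ W.M0 ε S t I α := by
  rw [mem_M0_iff hG] at hx ⊢
  refine ⟨hA.mem_M' hG hx.1, ?_⟩
  have h1 := M'_le_MS (hA.mem_M' hG hx.1)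
  rw [mem_Gamma0_iff_D hG.hyp h1]
  intro δ
  rw [← hA.comm_D hG δ (M'_le_MS hx.1), D_of_mem_Gamma0 hx.2]

/-- Hecke-equivariance of the norm. -/
theorem norm_hop (hG : W.Good S I) [Fintype W.Δ] {ν : W.M' ε S t I α →ₗ[𝒪] W.M0 ε S t I α}
    (hν : ∀ x, Submodule.inclusion (M0_le hG) (ν x) = ∑ δ, dia' hG ε t α δ x)
    {A : Module.End 𝒪 (Pairs 𝒪)} (hA : IsHop W A) (x : W.M' ε S t I α) :
    (ν (hopM' hG ε t α hA x) : Pairs 𝒪) = A (ν x : Pairs 𝒪) := by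
  have hc : ∀ δ, dia' hG ε t α δ (hopM' hG ε t α hA x) =
      hopM' hG ε t α hA (dia' hG ε t α δ x) := by
    intro δ
    have h := (hopM'_dia' (t := t) (α := α) (ε := ε) hG hA δ).eq
    have h' := LinearMap.congr_fun h x
    rw [Module.End.mul_apply, Module.End.mul_apply] at h'
    exact h'.symm
  have h1 := hν (hopM' hG ε t α hA x)
  simp only [hc] at h1
  rw [← map_sum, ← hν] at h1
  have h2 := congrArg Subtype.val h1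
  rw [hopM'_coe, Submodule.coe_inclusion, Submodule.coe_inclusion] at h2
  exact h2

/-- `TH ℓ = T_ℓ` on `M0`. -/
theorem TH_eq_of_mem_M0 (hG : W.Good S I) {x : Pairs 𝒪} (hx : x ∈ W.M0 ε S t I α) (ℓ : ℕ) :
    TH N W.Q W.ψ ℓ x = heckeT ℓ x := TH_of_mem_Gamma0 ((mem_M0_iff hG).mp hx).2 ℓ

end dvr

end TWP

end Fermat.Agent.RT.TWS
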