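import Fermat.Agent.RT.Control
import Fermat.Agent.RT.TWBasic

/-!
# Iterated control (RT-CTRL, second part)

* `iterPart N₀ S₀ ε t α B`: the part of `sgnMS 𝒪 ε Γ₀(N₀ ∏ B)` cut out by `T_ℓ - t_ℓ`
  (`ℓ ∉ S₀ ∪ B`) and `U_q - α_q` (`q ∈ B`).
* `exists_controlIter`: `iterPart ∅ ≃ iterPart B`, compatible with `T_ℓ` and `U_r`.
* `exists_controlIter_M0`: the same with `W.M0` on the right.
-/

set_option autoImplicit false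

open Matrix Matrix.SpecialLinearGroup CongruenceSubgroup IsLocalRing
open scoped MatrixGroups OnePoint

noncomputable section

namespace Fermat.Agent.RT.Control

open Fermat.Agent.LR Fermat.Agent.LR.PS

section Iter

variable {𝒪 : Type*} [CommRing 𝒪]

theorem opF_mono {P P' Q Q' : Set ℕ} {t u : ℕ → 𝒪} (hP : P ⊆ P') (hQ : Q ⊆ Q') :
    opF P t Q u ⊆ opF P' t Q' u := by
  rintro S (⟨ℓ, hℓ, h⟩ | ⟨r, hr, h⟩)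
  · exact Or.inl ⟨ℓ, hP hℓ, h⟩
  · exact Or.inr ⟨r, hQ hr, h⟩

theorem part_anti {X : Type*} [AddCommGroup X] [Module 𝒪 X] {H H' : Submodule 𝒪 X}
    {F F' : Set (Module.End 𝒪 X)} (hH : H ≤ H') (hF : F' ⊆ F) : part H F ≤ part H' F' := by
  intro x hx
  obtain ⟨h1, h2⟩ := mem_part.mp hx
  exact mem_part.mpr ⟨hH h1, fun T hT => h2 T (hF hT)⟩

/-- primes outside `S₀ ∪ B` -/
def prS (S₀ : Set ℕ) (B : Finset ℕ) : Set ℕ := {ℓ | ℓ.Prime ∧ ℓ ∉ S₀ ∧ ℓ ∉ B}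

/-- The part of level `N₀ ∏ B` cut out by `T_ℓ - t_ℓ`, `ℓ ∉ S₀ ∪ B`, and `U_q - α_q`, `q ∈ B`. -/
abbrev iterPart (N₀ : ℕ) (S₀ : Set ℕ) (ε : ℤ) (t α : ℕ → 𝒪) (B : Finset ℕ) :
    Submodule 𝒪 (Pairs 𝒪) :=
  part (sgnMS 𝒪 ε (Gamma0 (N₀ * ∏ q ∈ B, q))) (opF (prS S₀ B) t (B : Set ℕ) α)

variable {N₀ : ℕ} {S₀ : Set ℕ} {ε : ℤ} {t α : ℕ → 𝒪}

theorem insert_opF_T {B : Finset ℕ} {q : ℕ} (hq : q.Prime) (hqS : q ∉ S₀) (hqB : q ∉ B) :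
    insert (heckeT q - algebraMap 𝒪 (Module.End 𝒪 (Pairs 𝒪)) (t q))
      (opF (prS S₀ (insert q B)) t (B : Set ℕ) α) = opF (prS S₀ B) t (B : Set ℕ) α := by
  ext S
  constructor
  · intro h
    rcases Set.mem_insert_iff.mp h with rfl | h
    · exact Or.inl ⟨q, ⟨hq, hqS, hqB⟩, rfl⟩
    · refine opF_mono (P := prS S₀ (insert q B)) ?_ subset_rfl h
      rintro ℓ ⟨h1, h2, h3⟩
      exact ⟨h1, h2, fun h => h3 (Finset.mem_insert_of_mem h)⟩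
  · rintro (⟨ℓ, hℓ, rfl⟩ | ⟨r, hr, rfl⟩)
    · by_cases h : ℓ = q
      · subst h; exact Set.mem_insert _ _
      · refine Set.mem_insert_of_mem _ (Or.inl ⟨ℓ, ⟨hℓ.1, hℓ.2.1, fun h' => ?_⟩, rfl⟩)
        rcases Finset.mem_insert.mp h' with h' | h'
        · exact h h'
        · exact hℓ.2.2 h'
    · exact Set.mem_insert_of_mem _ (Or.inr ⟨r, hr, rfl⟩)

theorem insert_opF_U {P : Set ℕ} {B : Finset ℕ} {q : ℕ} :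
    insert (heckeU q - algebraMap 𝒪 (Module.End 𝒪 (Pairs 𝒪)) (α q))
      (opF P t (B : Set ℕ) α) = opF P t ((insert q B : Finset ℕ) : Set ℕ) α := by
  ext S
  constructor
  · intro h
    rcases Set.mem_insert_iff.mp h with rfl | h
    · exact Or.inr ⟨q, by simp, rfl⟩
    · exact opF_mono subset_rfl (by simp) h
  · rintro (⟨ℓ, hℓ, rfl⟩ | ⟨r, hr, rfl⟩)
    · exact Set.mem_insert_of_mem _ (Or.inl ⟨ℓ, hℓ, rfl⟩)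
    · rcases Finset.mem_insert.mp (Finset.mem_coe.mp hr) with rfl | hr
      · exact Set.mem_insert _ _
      · exact Set.mem_insert_of_mem _ (Or.inr ⟨r, hr, rfl⟩)

theorem prime_dvd_mul_prod {B : Finset ℕ} (hB : ∀ q ∈ B, q.Prime) {ℓ : ℕ} (hℓ : ℓ.Prime) :
    ℓ ∣ N₀ * ∏ q ∈ B, q ↔ ℓ ∣ N₀ ∨ ℓ ∈ B := by
  rw [hℓ.dvd_mul, hℓ.prime.dvd_finsetProd_iff]
  refine or_congr Iff.rfl ⟨?_, fun h => ⟨ℓ, h, dvd_rfl⟩⟩
  rintro ⟨q, hq, hd⟩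
  rwa [(Nat.prime_dvd_prime_iff_eq hℓ (hB q hq)).mp hd]

theorem lowPart_eq_iterPart {B : Finset ℕ} {q : ℕ} (hq : q.Prime) (hqS : q ∉ S₀)
    (hqB : q ∉ B) : lowPart (N₀ * ∏ q ∈ B, q) q ε
      (opF (prS S₀ (insert q B)) t (B : Set ℕ) α) (t q) = iterPart N₀ S₀ ε t α B := by
  rw [lowPart, insert_opF_T hq hqS hqB]

theorem highPart_eq_iterPart {B : Finset ℕ} {q : ℕ} (hqB : q ∉ B) :
    highPart (N₀ * ∏ q ∈ B, q) q ε (opF (prS S₀ (insert q B)) t (B : Set ℕ) α) (α q) =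
      iterPart N₀ S₀ ε t α (insert q B) := by
  rw [highPart, insert_opF_U, iterPart, Finset.prod_insert hqB]
  congr 3
  ring

variable [IsDomain 𝒪] [IsDiscreteValuationRing 𝒪] [IsAdicComplete (maximalIdeal 𝒪) 𝒪]

omit [IsDomain 𝒪] [IsDiscreteValuationRing 𝒪] [IsAdicComplete (maximalIdeal 𝒪) 𝒪] in
theorem exists_transport {X : Type*} [AddCommGroup X] [Module 𝒪 X] {A A' B B' : Submodule 𝒪 X}
    (hA : A = A') (hB : B = B') (e : A ≃ₗ[𝒪] B) :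
    ∃ e' : A' ≃ₗ[𝒪] B', ∀ (x : X) (hx : x ∈ A) (hx' : x ∈ A'),
      (e' ⟨x, hx'⟩ : X) = e ⟨x, hx⟩ := by
  subst hA hB
  exact ⟨e, fun x _ _ => rfl⟩

omit [IsDomain 𝒪] [IsDiscreteValuationRing 𝒪] [IsAdicComplete (maximalIdeal 𝒪) 𝒪] in
theorem exists_ofEq {X : Type*} [AddCommGroup X] [Module 𝒪 X] {A A' : Submodule 𝒪 X}
    (hA : A = A') : ∃ e : A ≃ₗ[𝒪] A', ∀ x : A, (e x : X) = x := by
  subst hA
  exact ⟨LinearEquiv.refl 𝒪 _, fun x => rfl⟩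

/-- One step. -/
theorem exists_controlStep (hNS : ∀ ℓ : ℕ, ℓ.Prime → ℓ ∣ N₀ → ℓ ∈ S₀) {B : Finset ℕ} {q : ℕ}
    (hBp : ∀ q ∈ B, q.Prime) (hq : q.Prime) (hqS : q ∉ S₀) (hqB : q ∉ B)
    (hα : IsUnit (α q)) (hαq : α q ^ 2 - t q * α q + q ∈ maximalIdeal 𝒪)
    (hα2 : IsUnit (2 * α q - t q)) (hTW : IsUnit (t q ^ 2 - ((q : 𝒪) + 1) ^ 2))
    (hnew : part (newMS (N₀ * ∏ q ∈ B, q) q 𝒪 ⊓ sgnMS 𝒪 ε (Gamma0 (N₀ * (∏ q ∈ B, q) * q)))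
      (insert (heckeU q - algebraMap 𝒪 (Module.End 𝒪 (Pairs 𝒪)) (α q))
        (opF (prS S₀ (insert q B)) t (B : Set ℕ) α)) = ⊥) :
    ∃ e : iterPart N₀ S₀ ε t α B ≃ₗ[𝒪] iterPart N₀ S₀ ε t α (insert q B),
      (∀ ℓ : ℕ, ℓ.Prime → ℓ ∉ S₀ → ℓ ∉ B → ℓ ≠ q → ∀ x x' : iterPart N₀ S₀ ε t α B,
        (x' : Pairs 𝒪) = heckeT ℓ x → (e x' : Pairs 𝒪) = heckeT ℓ (e x)) ∧
      (∀ r : ℕ, r.Prime → r ∣ N₀ * ∏ q ∈ B, q → ∀ x x' : iterPart N₀ S₀ ε t α B,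
        (x' : Pairs 𝒪) = heckeU r x → (e x' : Pairs 𝒪) = heckeU r (e x)) := by
  have hdvd : ∀ ℓ : ℕ, ℓ.Prime → (ℓ ∣ N₀ * ∏ q ∈ B, q ↔ ℓ ∣ N₀ ∨ ℓ ∈ B) :=
    fun ℓ hℓ => prime_dvd_mul_prod hBp hℓ
  have hqM : ¬ q ∣ N₀ * ∏ q ∈ B, q := fun h => ((hdvd q hq).mp h).elim
    (fun h => hqS (hNS q hq h)) hqB
  have hP : ∀ ℓ ∈ prS S₀ (insert q B), ℓ.Prime ∧ ¬ ℓ ∣ N₀ * ∏ q ∈ B, q ∧ ℓ ≠ q := by
    rintro ℓ ⟨h1, h2, h3⟩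
    refine ⟨h1, fun h => ?_, fun h => h3 (by rw [h]; exact Finset.mem_insert_self _ _)⟩
    exact ((hdvd ℓ h1).mp h).elim (fun h => h2 (hNS ℓ h1 h))
      fun h => h3 (Finset.mem_insert_of_mem h)
  have hQ : ∀ r ∈ (B : Set ℕ), r.Prime ∧ r ∣ N₀ * ∏ q ∈ B, q := fun r hr =>
    ⟨hBp r hr, (hdvd r (hBp r hr)).mpr (Or.inr hr)⟩
  obtain ⟨e, he1, he2⟩ := exists_control_hecke (ε := ε) (t := t) (u := α) hq hqM hP hQ hα hαq hα2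
    hTW hnew
  have h1 := lowPart_eq_iterPart (N₀ := N₀) (ε := ε) (t := t) (α := α) hq hqS hqB
  have h2 := highPart_eq_iterPart (N₀ := N₀) (S₀ := S₀) (ε := ε) (t := t) (α := α) hqB
  obtain ⟨e', he'⟩ := exists_transport h1 h2 e
  have hmem : ∀ x : iterPart N₀ S₀ ε t α B, (x : Pairs 𝒪) ∈ lowPart (N₀ * ∏ q ∈ B, q) q ε
      (opF (prS S₀ (insert q B)) t (B : Set ℕ) α) (t q) := fun x => h1.ge x.2
  refine ⟨e', fun ℓ hℓ hℓS hℓB hℓq x x' hx => ?_, fun r hr hrN x x' hx => ?_⟩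
  · have h3 := he1 ℓ hℓ (fun h => ((hdvd ℓ hℓ).mp h).elim
      (fun h => hℓS (hNS ℓ hℓ h)) hℓB) hℓq ⟨x, hmem x⟩
    have h4 := he' (x' : Pairs 𝒪) (hmem x') x'.2
    have h5 := he' (x : Pairs 𝒪) (hmem x) x.2
    refine h4.trans (Eq.trans ?_ (h3.trans (congrArg (heckeT ℓ) h5.symm)))
    exact congrArg (fun z => ((e z : _) : Pairs 𝒪)) (Subtype.ext hx)
  · have h3 := he2 r hr hrN ⟨x, hmem x⟩
    have h4 := he' (x' : Pairs 𝒪) (hmem x') x'.2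
    have h5 := he' (x : Pairs 𝒪) (hmem x) x.2
    refine h4.trans (Eq.trans ?_ (h3.trans (congrArg (heckeU r) h5.symm)))
    exact congrArg (fun z => ((e z : _) : Pairs 𝒪)) (Subtype.ext hx)

/-- **Iterated control.** -/
theorem exists_controlIter (hNS : ∀ ℓ : ℕ, ℓ.Prime → ℓ ∣ N₀ → ℓ ∈ S₀) {B : Finset ℕ}
    (hBp : ∀ q ∈ B, q.Prime) (hBS : ∀ q ∈ B, q ∉ S₀)
    (hα : ∀ q ∈ B, IsUnit (α q)) (hαq : ∀ q ∈ B, α q ^ 2 - t q * α q + q ∈ maximalIdeal 𝒪)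
    (hα2 : ∀ q ∈ B, IsUnit (2 * α q - t q))
    (hTW : ∀ q ∈ B, IsUnit (t q ^ 2 - ((q : 𝒪) + 1) ^ 2))
    (hnew : ∀ B' ⊆ B, ∀ q ∈ B, q ∉ B' →
      part (newMS (N₀ * ∏ q ∈ B', q) q 𝒪 ⊓ sgnMS 𝒪 ε (Gamma0 (N₀ * (∏ q ∈ B', q) * q)))
      (insert (heckeU q - algebraMap 𝒪 (Module.End 𝒪 (Pairs 𝒪)) (α q))
        (opF (prS S₀ (insert q B')) t (B' : Set ℕ) α)) = ⊥) :
    ∃ e : part (sgnMS 𝒪 ε (Gamma0 N₀)) (opF {ℓ | ℓ.Prime ∧ ℓ ∉ S₀} t ∅ α) ≃ₗ[𝒪]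
        iterPart N₀ S₀ ε t α B,
      (∀ ℓ : ℕ, ℓ.Prime → ℓ ∉ S₀ → ℓ ∉ B →
        ∀ x x' : part (sgnMS 𝒪 ε (Gamma0 N₀)) (opF {ℓ | ℓ.Prime ∧ ℓ ∉ S₀} t ∅ α),
        (x' : Pairs 𝒪) = heckeT ℓ x → (e x' : Pairs 𝒪) = heckeT ℓ (e x)) ∧
      (∀ r : ℕ, r.Prime → r ∣ N₀ →
        ∀ x x' : part (sgnMS 𝒪 ε (Gamma0 N₀)) (opF {ℓ | ℓ.Prime ∧ ℓ ∉ S₀} t ∅ α),
        (x' : Pairs 𝒪) = heckeU r x → (e x' : Pairs 𝒪) = heckeU r (e x)) := by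
  induction B using Finset.induction_on with
  | empty =>
    have h : part (sgnMS 𝒪 ε (Gamma0 N₀)) (opF {ℓ | ℓ.Prime ∧ ℓ ∉ S₀} t ∅ α) =
        iterPart N₀ S₀ ε t α ∅ := by
      rw [iterPart, Finset.prod_empty, mul_one, Finset.coe_empty]
      congr 2
      ext ℓ
      simp [prS]
    obtain ⟨e, he'⟩ := exists_ofEq h
    refine ⟨e, fun ℓ _ _ _ x x' hx => ?_, fun r _ _ x x' hx => ?_⟩
    · rw [he', he', hx]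
    · rw [he', he', hx]
  | insert q B hqB ih =>
    obtain ⟨e, he1, he2⟩ := ih (fun q hq => hBp q (Finset.mem_insert_of_mem hq))
      (fun q hq => hBS q (Finset.mem_insert_of_mem hq))
      (fun q hq => hα q (Finset.mem_insert_of_mem hq))
      (fun q hq => hαq q (Finset.mem_insert_of_mem hq))
      (fun q hq => hα2 q (Finset.mem_insert_of_mem hq))
      (fun q hq => hTW q (Finset.mem_insert_of_mem hq))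
      (fun B' hB' q' hq' => hnew B' (hB'.trans (Finset.subset_insert _ _)) q'
        (Finset.mem_insert_of_mem hq'))
    have hqi := Finset.mem_insert_self q B
    obtain ⟨e', he1', he2'⟩ := exists_controlStep hNS
      (fun q hq => hBp q (Finset.mem_insert_of_mem hq)) (hBp q hqi) (hBS q hqi) hqB (hα q hqi)
      (hαq q hqi) (hα2 q hqi) (hTW q hqi) (hnew B (Finset.subset_insert _ _) q hqi hqB)
    refine ⟨e.trans e', fun ℓ hℓ hℓS hℓB x x' hx => ?_, fun r hr hrN x x' hx => ?_⟩ <;>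
      rw [LinearEquiv.trans_apply, LinearEquiv.trans_apply]
    · exact he1' ℓ hℓ hℓS (fun h => hℓB (Finset.mem_insert_of_mem h))
        (fun h => hℓB (by rw [h]; exact hqi)) (e x) (e x')
        (he1 ℓ hℓ hℓS (fun h => hℓB (Finset.mem_insert_of_mem h)) x x' hx)
    · exact he2' r hr (hrN.mul_right _) (e x) (e x') (he2 r hr hrN x x' hx)

omit [IsDomain 𝒪] [IsDiscreteValuationRing 𝒪] [IsAdicComplete (maximalIdeal 𝒪) 𝒪] in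
/-- The new parts vanish as soon as they vanish for the smallest family `ℓ ∉ S₀ ∪ B` of `T_ℓ`
and without `U_r`, `r ∈ B'`. -/
theorem hnew_of_hnew {B : Finset ℕ} (hnew : ∀ B' ⊆ B, ∀ q ∈ B, q ∉ B' →
      part (newMS (N₀ * ∏ q ∈ B', q) q 𝒪 ⊓ sgnMS 𝒪 ε (Gamma0 (N₀ * (∏ q ∈ B', q) * q)))
      (insert (heckeU q - algebraMap 𝒪 (Module.End 𝒪 (Pairs 𝒪)) (α q))
        (opF (prS S₀ B) t ∅ α)) = ⊥) :
    ∀ B' ⊆ B, ∀ q ∈ B, q ∉ B' →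
      part (newMS (N₀ * ∏ q ∈ B', q) q 𝒪 ⊓ sgnMS 𝒪 ε (Gamma0 (N₀ * (∏ q ∈ B', q) * q)))
      (insert (heckeU q - algebraMap 𝒪 (Module.End 𝒪 (Pairs 𝒪)) (α q))
        (opF (prS S₀ (insert q B')) t (B' : Set ℕ) α)) = ⊥ := by
  intro B' hB' q hq hqB
  refine le_bot_iff.mp (le_trans (part_anti le_rfl ?_) (hnew B' hB' q hq hqB).le)
  refine Set.insert_subset_insert (opF_mono ?_ (Set.empty_subset _))
  rintro ℓ ⟨h1, h2, h3⟩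
  refine ⟨h1, h2, fun h => h3 ?_⟩
  rcases Finset.mem_insert.mp h with rfl | h
  · exact hq
  · exact hB' h

omit [IsDomain 𝒪] [IsDiscreteValuationRing 𝒪] [IsAdicComplete (maximalIdeal 𝒪) 𝒪] in
/-- `W.M0` as an iterated part. -/
theorem M0_eq_iterPart {p N r : ℕ} (W : TWS.TWP p N r) {S I : Set ℕ} {R B : Finset ℕ}
    (hN : N = N₀ * ∏ q ∈ R, q) (hR : ∀ q ∈ R, q.Prime)
    (hS : ∀ ℓ : ℕ, ℓ ∈ S ↔ ℓ ∈ S₀ ∨ ℓ ∈ R) (hB : ∀ ℓ : ℕ, ℓ ∈ B ↔ ℓ ∈ R ∨ ∃ i, ℓ = W.q i)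
    (hI : I = (B : Set ℕ)) : W.M0 ε S t I α = iterPart N₀ S₀ ε t α B := by
  classical
  have hBp : ∀ q ∈ B, q.Prime := fun q hq => by
    rcases (hB q).mp hq with h | ⟨i, rfl⟩
    · exact hR q h
    · exact W.prime i
  have h1 : N * W.Q = N₀ * ∏ q ∈ B, q := by
    have hB' : B = R ∪ Finset.univ.image W.q := by
      ext ℓ
      rw [hB, Finset.mem_union, Finset.mem_image]
      refine or_congr Iff.rfl ⟨?_, ?_⟩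
      · rintro ⟨i, rfl⟩; exact ⟨i, Finset.mem_univ i, rfl⟩
      · rintro ⟨i, -, rfl⟩; exact ⟨i, rfl⟩
    have hdis : Disjoint R (Finset.univ.image W.q) := by
      rw [Finset.disjoint_left]
      intro ℓ hℓ hℓ'
      obtain ⟨i, -, rfl⟩ := Finset.mem_image.mp hℓ'
      exact W.ndvd i (((Finset.dvd_prod_of_mem (fun q => q) hℓ).mul_left _).trans hN.symm.dvd)
    rw [hB', Finset.prod_union hdis, Finset.prod_image (fun i _ j _ h => W.inj h), ← mul_assoc,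
      ← hN]
    rfl
  have h2 : W.ops0 S t I α = opF (prS S₀ B) t (B : Set ℕ) α := by
    ext T
    constructor
    · rintro (⟨ℓ, h1, h2, h3, h4⟩ | ⟨s, hs, h⟩)
      · refine Or.inl ⟨ℓ, ⟨h1, fun h => h2 ((hS ℓ).mpr (Or.inl h)), fun h => ?_⟩, h4⟩
        rcases (hB ℓ).mp h with h | ⟨i, rfl⟩
        · exact h2 ((hS ℓ).mpr (Or.inr h))
        · exact h3 (W.dvd_Q i)
      · exact Or.inr ⟨s, by rwa [← hI], h⟩
    · rintro (⟨ℓ, ⟨h1, h2, h3⟩, h4⟩ | ⟨s, hs, h⟩)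
      · refine Or.inl ⟨ℓ, h1, fun h => ?_, fun h => ?_, h4⟩
        · rcases (hS ℓ).mp h with h | h
          · exact h2 h
          · exact h3 ((hB ℓ).mpr (Or.inl h))
        · exact h3 ((hB ℓ).mpr (Or.inr ((W.prime_dvd_Q_iff h1).mp h)))
      · exact Or.inr ⟨s, by rwa [hI], h⟩
  rw [TWS.TWP.M0, h2, h1]

/-- **Iterated control, Taylor–Wiles form**: `N = N₀ ∏ R`, `I = R ∪ {q_i}`, `S = S₀ ∪ R`. -/
theorem exists_controlIter_M0 {p N r : ℕ} (W : TWS.TWP p N r)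
    (hNS : ∀ ℓ : ℕ, ℓ.Prime → ℓ ∣ N₀ → ℓ ∈ S₀) {S I : Set ℕ} {R B : Finset ℕ}
    (hN : N = N₀ * ∏ q ∈ R, q) (hR : ∀ q ∈ R, q.Prime)
    (hS : ∀ ℓ : ℕ, ℓ ∈ S ↔ ℓ ∈ S₀ ∨ ℓ ∈ R) (hB : ∀ ℓ : ℕ, ℓ ∈ B ↔ ℓ ∈ R ∨ ∃ i, ℓ = W.q i)
    (hI : I = (B : Set ℕ)) (hBS : ∀ q ∈ B, q ∉ S₀)
    (hα : ∀ q ∈ B, IsUnit (α q)) (hαq : ∀ q ∈ B, α q ^ 2 - t q * α q + q ∈ maximalIdeal 𝒪)
    (hα2 : ∀ q ∈ B, IsUnit (2 * α q - t q))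
    (hTW : ∀ q ∈ B, IsUnit (t q ^ 2 - ((q : 𝒪) + 1) ^ 2))
    (hnew : ∀ B' ⊆ B, ∀ q ∈ B, q ∉ B' →
      part (newMS (N₀ * ∏ q ∈ B', q) q 𝒪 ⊓ sgnMS 𝒪 ε (Gamma0 (N₀ * (∏ q ∈ B', q) * q)))
      (insert (heckeU q - algebraMap 𝒪 (Module.End 𝒪 (Pairs 𝒪)) (α q))
        (opF (prS S₀ (insert q B')) t (B' : Set ℕ) α)) = ⊥) :
    ∃ e : part (sgnMS 𝒪 ε (Gamma0 N₀)) (opF {ℓ | ℓ.Prime ∧ ℓ ∉ S₀} t ∅ α) ≃ₗ[𝒪]
        W.M0 ε S t I α,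
      (∀ ℓ : ℕ, ℓ.Prime → ℓ ∉ S₀ → ℓ ∉ B →
        ∀ x x' : part (sgnMS 𝒪 ε (Gamma0 N₀)) (opF {ℓ | ℓ.Prime ∧ ℓ ∉ S₀} t ∅ α),
        (x' : Pairs 𝒪) = heckeT ℓ x → (e x' : Pairs 𝒪) = heckeT ℓ (e x)) ∧
      (∀ r : ℕ, r.Prime → r ∣ N₀ →
        ∀ x x' : part (sgnMS 𝒪 ε (Gamma0 N₀)) (opF {ℓ | ℓ.Prime ∧ ℓ ∉ S₀} t ∅ α),
        (x' : Pairs 𝒪) = heckeU r x → (e x' : Pairs 𝒪) = heckeU r (e x)) := by
  have hBp : ∀ q ∈ B, q.Prime := fun q hq => by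
    rcases (hB q).mp hq with h | ⟨i, rfl⟩
    · exact hR q h
    · exact W.prime i
  rw [M0_eq_iterPart W hN hR hS hB hI]
  exact exists_controlIter hNS hBp hBS hα hαq hα2 hTW hnew

end Iter

end Fermat.Agent.RT.Control
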