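import Fermat.Agent.RT.ManinFree
import Fermat.Agent.RT.GroupRing

/-!
# The plus part of modular symbols is projective over the group ring, II (team RT, helper59)
-/

set_option autoImplicit false

open IsLocalRing

namespace Fermat.Agent.RT.Manin

/-- Functions `X → V`; `instModuleMA` is the `A[Δ]`-module structure `(δ m)(x) = m (δ⁻¹ x)`. -/
abbrev Fn (X V : Type*) := X → V

namespace Fn

variable {X V A Δ : Type*}

variable (A V X) in
/-- The translation representation. -/
def rep [CommRing A] [AddCommGroup V] [Module A V] [Group Δ] [MulAction Δ X] :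
    Δ →* Module.End A (Fn X V) where
  toFun δ :=
    { toFun := fun m x => m (δ⁻¹ • x)
      map_add' := fun _ _ => rfl
      map_smul' := fun _ _ => rfl }
  map_one' := by
    refine LinearMap.ext fun m => funext fun x => ?_
    change m ((1 : Δ)⁻¹ • x) = m x
    rw [inv_one, one_smul]
  map_mul' δ ε := by
    refine LinearMap.ext fun m => funext fun x => ?_
    change m ((δ * ε)⁻¹ • x) = m (ε⁻¹ • δ⁻¹ • x)
    rw [mul_inv_rev, mul_smul]

/-- The `A[Δ]`-module structure on functions (local instance). -/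
@[implicit_reducible] noncomputable def instModuleMA [CommRing A] [AddCommGroup V] [Module A V] [Group Δ]
    [MulAction Δ X] : Module (MonoidAlgebra A Δ) (Fn X V) :=
  Module.compHom (Fn X V) (MonoidAlgebra.lift A (Module.End A (Fn X V)) Δ (rep X V A)).toRingHom

attribute [local instance] instModuleMA

variable [CommRing A] [AddCommGroup V] [Module A V] [Group Δ] [MulAction Δ X]

theorem smul_def' (a : MonoidAlgebra A Δ) (m : Fn X V) :
    a • m = MonoidAlgebra.lift A (Module.End A (Fn X V)) Δ (rep X V A) a m := rfl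

theorem of_smul_apply (δ : Δ) (m : Fn X V) (x : X) :
    (MonoidAlgebra.of A Δ δ • m) x = m (δ⁻¹ • x) := by
  rw [smul_def', MonoidAlgebra.lift_of]; rfl

theorem instTower : IsScalarTower A (MonoidAlgebra A Δ) (Fn X V) where
  smul_assoc a b m := by
    rw [smul_def', smul_def', map_smul]; rfl

end Fn

section toΛ

variable {A Δ M N : Type*} [CommRing A] [Group Δ] [AddCommGroup M] [Module A M]
  [Module (MonoidAlgebra A Δ) M] [IsScalarTower A (MonoidAlgebra A Δ) M]
  [AddCommGroup N] [Module A N]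
  [Module (MonoidAlgebra A Δ) N] [IsScalarTower A (MonoidAlgebra A Δ) N]

/-- An `A`-linear map commuting with `Δ` is `A[Δ]`-linear. -/
def toΛ (f : M →ₗ[A] N) (h : ∀ (δ : Δ) (m : M), f (MonoidAlgebra.of A Δ δ • m) =
    MonoidAlgebra.of A Δ δ • f m) : M →ₗ[MonoidAlgebra A Δ] N :=
  { toFun := f
    map_add' := f.map_add
    map_smul' := fun x m => by
      rw [RingHom.id_apply]
      induction x using MonoidAlgebra.induction_on with
      | of g => exact h g m
      | add x y hx hy => rw [add_smul, map_add, hx, hy, add_smul]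
      | smul r x hx => rw [smul_assoc, map_smul, hx, smul_assoc] }

@[simp] theorem toΛ_apply (f : M →ₗ[A] N) (h) (m : M) : toΛ (Δ := Δ) f h m = f m := rfl

end toΛ

section Projective

attribute [local instance] Fn.instModuleMA Fn.instTower

variable {X A V Δ : Type*} [Finite X] [CommRing A] [AddCommGroup V] [Module A V] [Group Δ]
  [Finite Δ] [MulAction Δ X]

theorem projective_Fn [Module.Free A V] (hfree : ∀ (δ : Δ) (x : X), δ • x = x → δ = 1) :
    Module.Projective (MonoidAlgebra A Δ) (Fn X V) := by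
  classical
  have := Fintype.ofFinite Δ
  have := Fintype.ofFinite X
  have hfr : Module.Free A (Fn X V) := inferInstanceAs (Module.Free A (X → V))
  -- fundamental domain
  let Y : X → Prop := fun x => x = Quotient.out (Quotient.mk (MulAction.orbitRel Δ X) x)
  let θ : Fn X V →ₗ[A] Fn X V :=
    { toFun := fun m x => if Y x then m x else 0
      map_add' := fun m m' => by
        funext x
        change (if Y x then m x + m' x else 0) = (if Y x then m x else 0) + (if Y x then m' x else 0)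
        split_ifs <;> simp
      map_smul' := fun a m => by
        funext x
        change (if Y x then a • m x else 0) = a • (if Y x then m x else 0)
        split_ifs <;> simp }
  refine GR.projective_of_theta θ fun m => ?_
  funext x
  have h1 : (∑ δ : Δ, MonoidAlgebra.of A Δ δ • θ (MonoidAlgebra.of A Δ δ⁻¹ • m)) x =
      ∑ δ : Δ, (MonoidAlgebra.of A Δ δ • θ (MonoidAlgebra.of A Δ δ⁻¹ • m)) x :=
    Finset.sum_apply x _ _
  rw [h1]
  have h2 : ∀ δ : Δ, (MonoidAlgebra.of A Δ δ • θ (MonoidAlgebra.of A Δ δ⁻¹ • m)) x =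
      if Y (δ⁻¹ • x) then m x else 0 := by
    intro δ
    rw [Fn.of_smul_apply]
    change (if Y (δ⁻¹ • x) then (MonoidAlgebra.of A Δ δ⁻¹ • m : Fn X V) (δ⁻¹ • x) else 0) = _
    rw [Fn.of_smul_apply, inv_inv, smul_inv_smul]
  simp only [h2]
  obtain ⟨ε, hε⟩ : ∃ ε : Δ, ε • x = Quotient.out (Quotient.mk (MulAction.orbitRel Δ X) x) := by
    have := Quotient.mk_out (s := MulAction.orbitRel Δ X) x
    exact (MulAction.orbitRel_apply.mp this)
  rw [Finset.sum_eq_single ε⁻¹]
  · rw [if_pos]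
    change _ = Quotient.out (Quotient.mk (MulAction.orbitRel Δ X) (ε⁻¹⁻¹ • x))
    rw [inv_inv]
    have : Quotient.mk (MulAction.orbitRel Δ X) (ε • x) = Quotient.mk (MulAction.orbitRel Δ X) x :=
      Quotient.sound (MulAction.orbitRel_apply.mpr ⟨ε, rfl⟩)
    rw [this, hε]
  · intro δ _ hδ
    rw [if_neg]
    intro hY
    apply hδ
    change δ⁻¹ • x = Quotient.out (Quotient.mk (MulAction.orbitRel Δ X) (δ⁻¹ • x)) at hY
    have : Quotient.mk (MulAction.orbitRel Δ X) (δ⁻¹ • x) =
        Quotient.mk (MulAction.orbitRel Δ X) x :=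
      Quotient.sound (MulAction.orbitRel_apply.mpr ⟨δ⁻¹, rfl⟩)
    rw [this, ← hε] at hY
    have h3 := hfree (ε⁻¹ * δ⁻¹) x (by rw [mul_smul, hY, inv_smul_smul])
    have h4 : δ⁻¹ = ε := by
      have := congrArg (ε * ·) h3
      simpa using this
    rw [← h4, inv_inv]
  · intro h; exact absurd (Finset.mem_univ _) h

/-- Compatibility of `Δ` with the Manin data. -/
structure Compat (D : Data X) (Δ : Type*) [Group Δ] [MulAction Δ X] : Prop where
  s : ∀ (δ : Δ) x, D.s (δ • x) = δ • D.s x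
  κ : ∀ (δ : Δ) x, D.κ (δ • x) = δ • D.κ x
  u : ∀ (δ : Δ) x, D.u (δ • x) = δ • D.u x
  free : ∀ (δ : Δ) (x : X), δ • x = x → δ = 1

/-- `3` is invertible, or there is a `Δ`-stable fundamental domain for `u`. -/
def UGood (A : Type*) [CommRing A] (D : Data X) (Δ : Type*) [Group Δ] [MulAction Δ X] : Prop :=
  IsUnit (3 : A) ∨ ∃ Y : X → Prop, (∀ (δ : Δ) x, Y (δ • x) ↔ Y x) ∧
    ∀ x, (Y x ∧ ¬ Y (D.u x) ∧ ¬ Y (D.u (D.u x))) ∨ (¬ Y x ∧ Y (D.u x) ∧ ¬ Y (D.u (D.u x))) ∨
      (¬ Y x ∧ ¬ Y (D.u x) ∧ Y (D.u (D.u x)))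

variable (D : Data X)

/-- The plus part of modular symbols as an `A[Δ]`-submodule. -/
def MSpΛ (hc : Compat D Δ) (A V : Type*) [CommRing A] [AddCommGroup V] [Module A V] :
    Submodule (MonoidAlgebra A Δ) (Fn X V) where
  carrier := {m | (∀ x, m (D.s x) = - m x) ∧ (∀ x, m (D.κ x) = - m x) ∧
    ∀ x, m x + m (D.u x) + m (D.u (D.u x)) = 0}
  zero_mem' := (D.mem_MSp (A := A)).mp (D.MSp A V).zero_mem
  add_mem' {a b} ha hb :=
    (D.mem_MSp (A := A)).mp ((D.MSp A V).add_mem ((D.mem_MSp).mpr ha) ((D.mem_MSp).mpr hb))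
  smul_mem' c m hm := by
    induction c using MonoidAlgebra.induction_on with
    | of g =>
      refine ⟨fun x => ?_, fun x => ?_, fun x => ?_⟩
      · rw [Fn.of_smul_apply, Fn.of_smul_apply, ← hc.s, hm.1]
      · rw [Fn.of_smul_apply, Fn.of_smul_apply, ← hc.κ, hm.2.1]
      · rw [Fn.of_smul_apply, Fn.of_smul_apply, Fn.of_smul_apply, ← hc.u, ← hc.u, ← hc.u, hm.2.2]
    | add x y hx hy =>
      rw [add_smul]
      exact (D.mem_MSp (A := A)).mp
        ((D.MSp A V).add_mem ((D.mem_MSp).mpr hx) ((D.mem_MSp).mpr hy))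
    | smul r x hx =>
      rw [smul_assoc]
      exact (D.mem_MSp (A := A)).mp ((D.MSp A V).smul_mem r ((D.mem_MSp).mpr hx))

variable {D}

omit [Finite X] [Finite Δ] in
theorem mem_MSpΛ {hc : Compat D Δ} {m : Fn X V} : m ∈ MSpΛ D hc A V ↔
    (∀ x, m (D.s x) = - m x) ∧ (∀ x, m (D.κ x) = - m x) ∧
    ∀ x, m x + m (D.u x) + m (D.u (D.u x)) = 0 := Iff.rfl

/-- **Theorem.** The plus part of modular symbols is projective over `A[Δ]`. -/
theorem projective_MSpΛ [Invertible (2 : A)] [Module.Free A V] (hc : Compat D Δ)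
    (hU : UGood A D Δ) : Module.Projective (MonoidAlgebra A Δ) (MSpΛ D hc A V) := by
  classical
  have hC : Module.Projective (MonoidAlgebra A Δ) (Fn X V) := projective_Fn hc.free
  -- Λ-linear versions of the operators
  let cs : Fn X V →ₗ[MonoidAlgebra A Δ] Fn X V := toΛ (D.cs (A := A) (V := V)) (fun δ m => by
    funext x
    change (MonoidAlgebra.of A Δ δ • m) (D.s x) = (MonoidAlgebra.of A Δ δ • (D.cs (A := A) m : Fn X V)) x
    rw [Fn.of_smul_apply, Fn.of_smul_apply, ← hc.s]; rfl)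
  let cκ : Fn X V →ₗ[MonoidAlgebra A Δ] Fn X V := toΛ (D.cκ (A := A) (V := V)) (fun δ m => by
    funext x
    change (MonoidAlgebra.of A Δ δ • m) (D.κ x) = (MonoidAlgebra.of A Δ δ • (D.cκ (A := A) m : Fn X V)) x
    rw [Fn.of_smul_apply, Fn.of_smul_apply, ← hc.κ]; rfl)
  let cu : Fn X V →ₗ[MonoidAlgebra A Δ] Fn X V := toΛ (D.cu (A := A) (V := V)) (fun δ m => by
    funext x
    change (MonoidAlgebra.of A Δ δ • m) (D.u x) = (MonoidAlgebra.of A Δ δ • (D.cu (A := A) m : Fn X V)) x
    rw [Fn.of_smul_apply, Fn.of_smul_apply, ← hc.u]; rfl)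
  have cs_apply : ∀ (m : Fn X V) x, cs m x = m (D.s x) := fun _ _ => rfl
  have cκ_apply : ∀ (m : Fn X V) x, cκ m x = m (D.κ x) := fun _ _ => rfl
  have cu_apply : ∀ (m : Fn X V) x, cu m x = m (D.u x) := fun _ _ => rfl
  have hsc : SMulCommClass (MonoidAlgebra A Δ) A (Fn X V) := IsScalarTower.to_smulCommClass'
  -- E and F as Λ-submodules
  let EΛ : Submodule (MonoidAlgebra A Δ) (Fn X V) :=
    LinearMap.ker (cs + LinearMap.id) ⊓ LinearMap.ker (cκ + LinearMap.id)
  let FΛ : Submodule (MonoidAlgebra A Δ) (Fn X V) :=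
    LinearMap.ker (cu - LinearMap.id) ⊓ LinearMap.ker (cκ + LinearMap.id)
  have memE : ∀ m : Fn X V, m ∈ EΛ ↔ (∀ x, m (D.s x) = - m x) ∧ ∀ x, m (D.κ x) = - m x := by
    intro m
    simp only [EΛ, Submodule.mem_inf, LinearMap.mem_ker, LinearMap.add_apply, LinearMap.id_apply]
    constructor
    · rintro ⟨h1, h2⟩
      exact ⟨fun x => eq_neg_of_add_eq_zero_left (congrFun h1 x),
        fun x => eq_neg_of_add_eq_zero_left (congrFun h2 x)⟩
    · rintro ⟨h1, h2⟩
      exact ⟨funext fun x => by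
        change m (D.s x) + m x = 0
        rw [h1, neg_add_cancel], funext fun x => by
        change m (D.κ x) + m x = 0
        rw [h2, neg_add_cancel]⟩
  have memF : ∀ m : Fn X V, m ∈ FΛ ↔ (∀ x, m (D.u x) = m x) ∧ ∀ x, m (D.κ x) = - m x := by
    intro m
    simp only [FΛ, Submodule.mem_inf, LinearMap.mem_ker, LinearMap.add_apply,
      LinearMap.sub_apply, LinearMap.id_apply]
    constructor
    · rintro ⟨h1, h2⟩
      exact ⟨fun x => eq_of_sub_eq_zero (congrFun h1 x),
        fun x => eq_neg_of_add_eq_zero_left (congrFun h2 x)⟩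
    · rintro ⟨h1, h2⟩
      exact ⟨funext fun x => by
        change m (D.u x) - m x = 0
        rw [h1, sub_self], funext fun x => by
        change m (D.κ x) + m x = 0
        rw [h2, neg_add_cancel]⟩
  -- `E` is projective
  have hE : Module.Projective (MonoidAlgebra A Δ) EΛ := by
    let e : Fn X V →ₗ[MonoidAlgebra A Δ] Fn X V :=
      (⅟2 * ⅟2 : A) • (LinearMap.id - cs - cκ + cs ∘ₗ cκ)
    have e_apply : ∀ (m : Fn X V) x, e m x =
        (⅟2 * ⅟2 : A) • (m x - m (D.s x) - m (D.κ x) + m (D.κ (D.s x))) := by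
      intro m x
      rfl
    have he : ∀ m, e m ∈ EΛ := by
      intro m
      refine (memE _).mpr ⟨fun x => ?_, fun x => ?_⟩
      · rw [e_apply, e_apply, ← smul_neg, D.s_s]
        congr 1
        abel
      · rw [e_apply, e_apply, ← smul_neg, D.κ_κ, D.s_κ, D.κ_κ]
        congr 1
        abel
    refine Module.Projective.of_split EΛ.subtype (e.codRestrict EΛ he) ?_
    refine LinearMap.ext fun m => Subtype.ext (funext fun x => ?_)
    change e (m : Fn X V) x = (m : Fn X V) x
    have h1 := (memE _).mp m.2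
    rw [e_apply, h1.1, h1.2, h1.2, h1.1, neg_neg, sub_neg_eq_add, sub_neg_eq_add,
      ← two_smul A, add_assoc, ← two_smul A, ← two_smul A, smul_smul, smul_smul]
    have : (⅟2 * ⅟2 * 2 * 2 : A) = 1 := by
      rw [mul_assoc (⅟2), invOf_mul_self, mul_one, invOf_mul_self]
    rw [this, one_smul]
  -- a Λ-linear `θ` with `N_U θ n = n`
  obtain ⟨θ, hθ⟩ : ∃ θ : Fn X V →ₗ[MonoidAlgebra A Δ] Fn X V,
      ∀ n : Fn X V, (∀ x, n (D.u x) = n x) →
        ∀ x, θ n x + θ n (D.u x) + θ n (D.u (D.u x)) = n x := by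
    rcases hU with h3 | ⟨Y, hY, hYu⟩
    · obtain ⟨t, ht⟩ := h3
      refine ⟨(↑t⁻¹ : A) • LinearMap.id, fun n hn x => ?_⟩
      have : ∀ y, ((↑t⁻¹ : A) •
          (LinearMap.id : Fn X V →ₗ[MonoidAlgebra A Δ] Fn X V)) n y = (↑t⁻¹ : A) • n y := by
        intro y
        rfl
      rw [this, this, this, hn, hn, hn]
      have h4 : (n x : V) + n x + n x = (3 : A) • n x := by
        rw [show (3 : A) = 1 + 1 + 1 by norm_num, add_smul, add_smul, one_smul]
      rw [← smul_add, ← smul_add, h4, smul_smul, ← ht, Units.inv_mul, one_smul]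
    · let θ₀ : Fn X V →ₗ[A] Fn X V :=
        { toFun := fun m x => if Y x then m x else 0
          map_add' := fun m m' => by
            funext x
            change (if Y x then m x + m' x else 0) =
              (if Y x then m x else 0) + (if Y x then m' x else 0)
            split_ifs <;> simp
          map_smul' := fun a m => by
            funext x
            change (if Y x then a • m x else 0) = a • (if Y x then m x else 0)
            split_ifs <;> simp }
      refine ⟨toΛ θ₀ (fun δ m => ?_), fun n hn x => ?_⟩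
      · funext x
        rw [Fn.of_smul_apply]
        change (if Y x then (MonoidAlgebra.of A Δ δ • m) x else 0) =
          if Y (δ⁻¹ • x) then m (δ⁻¹ • x) else 0
        rw [Fn.of_smul_apply]
        simp only [hY]
      · change (if Y x then n x else 0) + (if Y (D.u x) then n (D.u x) else 0) +
          (if Y (D.u (D.u x)) then n (D.u (D.u x)) else 0) = n x
        rw [hn, hn]
        rcases hYu x with ⟨h1, h2, h3⟩ | ⟨h1, h2, h3⟩ | ⟨h1, h2, h3⟩ <;>
          simp [h1, h2, h3, hn]
  let nu : Fn X V →ₗ[MonoidAlgebra A Δ] Fn X V := LinearMap.id + cu + cu ∘ₗ cu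
  have nu_apply : ∀ (m : Fn X V) x, nu m x = m x + m (D.u x) + m (D.u (D.u x)) := fun _ _ => rfl
  have nuF : ∀ m ∈ EΛ, nu m ∈ FΛ := by
    intro m hm
    have hm' := (memE _).mp hm
    refine (memF _).mpr ⟨fun x => ?_, fun x => ?_⟩
    · rw [nu_apply, nu_apply, D.u_u_u]; abel
    · rw [nu_apply, nu_apply, D.uκ, D.uκ, D.u_u_u, hm'.2, hm'.2, hm'.2]; abel
  have hF : Module.Projective (MonoidAlgebra A Δ) FΛ := by
    let r : Fn X V →ₗ[MonoidAlgebra A Δ] Fn X V := (⅟2 : A) • ((LinearMap.id - cκ) ∘ₗ nu)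
    have r_apply : ∀ (m : Fn X V) x, r m x =
        (⅟2 : A) • (nu m x - nu m (D.κ x)) := by
      intro m x
      rfl
    have nuu : ∀ (m : Fn X V) x, nu m (D.u x) = nu m x := by
      intro m x
      rw [nu_apply, nu_apply, D.u_u_u]; abel
    have hr : ∀ m, r m ∈ FΛ := by
      intro m
      refine (memF _).mpr ⟨fun x => ?_, fun x => ?_⟩
      · rw [r_apply, r_apply, nuu, ← D.uuκ, nuu, nuu]
      · rw [r_apply, r_apply, D.κ_κ, ← smul_neg, neg_sub]
    refine Module.Projective.of_split (θ ∘ₗ FΛ.subtype) (r.codRestrict FΛ hr) ?_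
    refine LinearMap.ext fun n => Subtype.ext (funext fun x => ?_)
    change r (θ (n : Fn X V)) x = (n : Fn X V) x
    have hn := (memF _).mp n.2
    have h1 : ∀ y, nu (θ (n : Fn X V)) y = (n : Fn X V) y := fun y => hθ _ hn.1 y
    rw [r_apply, h1, h1, hn.2, sub_neg_eq_add, ← two_smul A, smul_smul, invOf_mul_self, one_smul]
  let N : EΛ →ₗ[MonoidAlgebra A Δ] FΛ := nu.restrict nuF
  have hN : Function.Surjective N := by
    intro n
    have hn := (memF _).mp n.2
    have h1 : D.nu (A := A) (θ (n : Fn X V)) = (n : Fn X V) := funext fun x => hθ _ hn.1 x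
    obtain ⟨m, hm, hmn⟩ := D.exists_mem_E_nu_eq (A := A) (θ (n : Fn X V))
      (by rw [h1]; exact hn)
    refine ⟨⟨m, (memE _).mpr hm⟩, Subtype.ext (funext fun x => ?_)⟩
    rw [h1] at hmn
    exact congrFun hmn x
  obtain ⟨σ, hσ⟩ := Module.projective_lifting_property N LinearMap.id hN
  have hσ' : ∀ n, N (σ n) = n := fun n => LinearMap.congr_fun hσ n
  have hmem : ∀ m : EΛ, ((m - σ (N m) : EΛ) : Fn X V) ∈ MSpΛ D hc A V := by
    intro m
    have h1 := (memE _).mp (m - σ (N m)).2
    have h2 : N (m - σ (N m)) = 0 := by rw [map_sub, hσ', sub_self]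
    exact ⟨h1.1, h1.2, fun x => congrFun (congrArg Subtype.val h2) x⟩
  have hincl : ∀ m : MSpΛ D hc A V, (m : Fn X V) ∈ EΛ := fun m => (memE _).mpr ⟨m.2.1, m.2.2.1⟩
  refine Module.Projective.of_split
    ((MSpΛ D hc A V).subtype.codRestrict EΛ hincl)
    ((EΛ.subtype ∘ₗ (LinearMap.id - σ ∘ₗ N)).codRestrict (MSpΛ D hc A V) hmem) ?_
  refine LinearMap.ext fun m => Subtype.ext ?_
  have h0 : N ⟨(m : Fn X V), hincl m⟩ = 0 := Subtype.ext (funext fun x => m.2.2.2 x)
  have h1 : ((⟨(m : Fn X V), hincl m⟩ : EΛ) - σ (N ⟨(m : Fn X V), hincl m⟩) : EΛ) =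
      ⟨(m : Fn X V), hincl m⟩ := by
    rw [h0, map_zero, sub_zero]
  have h2 : (((⟨(m : Fn X V), hincl m⟩ : EΛ) - σ (N ⟨(m : Fn X V), hincl m⟩) : EΛ) : Fn X V) =
      (m : Fn X V) := by rw [h1]
  exact h2

/-- Over a local ring with residue characteristic `p` and a commutative `p`-group `Δ`,
projective = free. -/
theorem free_MSpΛ {Δ : Type*} [CommGroup Δ] [Finite Δ] [MulAction Δ X] [IsLocalRing A]
    [Invertible (2 : A)] [Module.Free A V] [Module.Finite A V] [IsNoetherianRing A]
    (p : ℕ) [Fact p.Prime] (hΔ : IsPGroup p Δ)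
    (hp : (p : A) ∈ maximalIdeal A) (hc : Compat D Δ) (hU : UGood A D Δ) :
    Module.Free (MonoidAlgebra A Δ) (MSpΛ D hc A V) ∧
      Module.Finite (MonoidAlgebra A Δ) (MSpΛ D hc A V) := by
  have := Fintype.ofFinite X
  have h1 := projective_MSpΛ (V := V) hc hU
  have h2 := GR.isLocalRing_monoidAlgebra (A := A) hΔ hp
  have h3 : Module.Finite A (Fn X V) := inferInstanceAs (Module.Finite A (X → V))
  have h4 : Module.Finite (MonoidAlgebra A Δ) (Fn X V) :=
    Module.Finite.of_restrictScalars_finite A (MonoidAlgebra A Δ) (Fn X V)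
  have h5 : Module.Finite A (MonoidAlgebra A Δ) := inferInstance
  have h6 : IsNoetherianRing (MonoidAlgebra A Δ) := IsNoetherianRing.of_finite A _
  have h7 : Module.Finite (MonoidAlgebra A Δ) (MSpΛ D hc A V) :=
    Module.IsNoetherian.finite _ _
  exact ⟨Module.free_of_flat_of_isLocalRing, h7⟩

end Projective

end Fermat.Agent.RT.Manin
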