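import Fermat.Agent.RT.Defs
import Fermat.Agent.RT.ManinProj
import Fermat.Agent.LR.Manin

/-!
# Dictionary: the plus part of modular symbols for `Γ = ker (d : G₀ → Δ)` is projective over
`A[Δ]` (team RT, helper59)
-/

set_option autoImplicit false
set_option linter.unusedSectionVars false

open Matrix Matrix.SpecialLinearGroup CongruenceSubgroup IsLocalRing
open scoped MatrixGroups OnePoint

noncomputable section

namespace Fermat.Agent.RT.Dict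

open Fermat.Agent.LR Fermat.Agent.LR.PS Fermat.Agent.RT.Manin ModularCurve.Period

local notation "S" => ModularGroup.S
local notation "T" => ModularGroup.T

theorem toQ_mul' (g h : SL(2, ℤ)) : toQ (g * h) = toQ g * toQ h := map_mul _ _ _

/-- A diamond datum: `Γ ⊲ G₀`, `G₀ / Γ = Δ`. -/
structure DiaData (Δ : Type*) [CommGroup Δ] where
  /-- the big group -/
  G₀ : Subgroup SL(2, ℤ)
  /-- the diamond character -/
  d : G₀ →* Δ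
  surj : Function.Surjective d
  neg_mem : (-1 : SL(2, ℤ)) ∈ G₀
  d_neg : d ⟨-1, neg_mem⟩ = 1
  conj_mem : ∀ γ ∈ G₀, jConjSL γ ∈ G₀
  d_conj : ∀ (γ : SL(2, ℤ)) (h : γ ∈ G₀), d ⟨jConjSL γ, conj_mem γ h⟩ = d ⟨γ, h⟩

variable {Δ : Type*} [CommGroup Δ] (𝔇 : DiaData Δ)

namespace DiaData

/-- `Γ = ker d`. -/
def Γ : Subgroup SL(2, ℤ) := 𝔇.d.ker.map 𝔇.G₀.subtype

variable {𝔇}

theorem mem_Γ {γ : SL(2, ℤ)} : γ ∈ 𝔇.Γ ↔ ∃ h : γ ∈ 𝔇.G₀, 𝔇.d ⟨γ, h⟩ = 1 := by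
  constructor
  · rintro ⟨γ', h1, rfl⟩
    exact ⟨γ'.2, h1⟩
  · rintro ⟨h, h1⟩
    exact ⟨⟨γ, h⟩, h1, rfl⟩

theorem Γ_le : 𝔇.Γ ≤ 𝔇.G₀ := fun _ h => (mem_Γ.mp h).1

theorem neg_mem_Γ : (-1 : SL(2, ℤ)) ∈ 𝔇.Γ := mem_Γ.mpr ⟨𝔇.neg_mem, 𝔇.d_neg⟩

theorem conj_mem_Γ {γ : SL(2, ℤ)} (h : γ ∈ 𝔇.Γ) : jConjSL γ ∈ 𝔇.Γ := by
  obtain ⟨h1, h2⟩ := mem_Γ.mp h
  exact mem_Γ.mpr ⟨𝔇.conj_mem γ h1, by rw [𝔇.d_conj γ h1, h2]⟩

variable (𝔇)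

/-- a representative of `δ ∈ Δ` in `G₀` -/
def rep (δ : Δ) : 𝔇.G₀ := Function.surjInv 𝔇.surj δ

@[simp] theorem d_rep (δ : Δ) : 𝔇.d (𝔇.rep δ) = δ := Function.surjInv_eq 𝔇.surj δ

variable {𝔇}

theorem mul_inv_mem_of_d_eq {γ γ' : 𝔇.G₀} (h : 𝔇.d γ = 𝔇.d γ') :
    (γ : SL(2, ℤ)) * (γ' : SL(2, ℤ))⁻¹ ∈ 𝔇.Γ :=
  mem_Γ.mpr ⟨mul_mem γ.2 (inv_mem γ'.2), by
    have : (⟨(γ : SL(2, ℤ)) * (γ' : SL(2, ℤ))⁻¹, mul_mem γ.2 (inv_mem γ'.2)⟩ : 𝔇.G₀) = γ * γ'⁻¹ :=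
      rfl
    rw [this, map_mul, map_inv, h, mul_inv_cancel]⟩

theorem inv_mul_mem_of_d_eq {γ γ' : 𝔇.G₀} (h : 𝔇.d γ = 𝔇.d γ') :
    (γ : SL(2, ℤ))⁻¹ * (γ' : SL(2, ℤ)) ∈ 𝔇.Γ :=
  mem_Γ.mpr ⟨mul_mem (inv_mem γ.2) γ'.2, by
    have : (⟨(γ : SL(2, ℤ))⁻¹ * (γ' : SL(2, ℤ)), mul_mem (inv_mem γ.2) γ'.2⟩ : 𝔇.G₀) = γ⁻¹ * γ' :=
      rfl
    rw [this, map_mul, map_inv, h, inv_mul_cancel]⟩

theorem slash_eq_of_d_eq {R : Type*} [CommRing R] {x : Pairs R} (hx : x ∈ MS 𝔇.Γ R)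
    {γ γ' : 𝔇.G₀} (h : 𝔇.d γ = 𝔇.d γ') : slash (toQ γ) x = slash (toQ γ') x := by
  have h1 := mul_inv_mem_of_d_eq h
  have h2 : toQ (γ : SL(2, ℤ)) = toQ ((γ : SL(2, ℤ)) * (γ' : SL(2, ℤ))⁻¹) * toQ γ' := by
    rw [← toQ_mul', inv_mul_cancel_right]
  rw [h2, slash_mul, hx.2 _ h1]

theorem slash_mem {R : Type*} [CommRing R] {x : Pairs R} (hx : x ∈ MS 𝔇.Γ R) (γ : 𝔇.G₀) :
    slash (toQ γ) x ∈ MS 𝔇.Γ R := by
  refine ⟨fun a b c => hx.1 _ _ _, fun γ' hγ' => ?_⟩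
  obtain ⟨h1, h2⟩ := mem_Γ.mp hγ'
  have h3 : 𝔇.d (γ * ⟨γ', h1⟩) = 𝔇.d γ := by rw [map_mul, h2, mul_one]
  have h4 := slash_eq_of_d_eq hx h3
  have h5 : toQ ((γ * ⟨γ', h1⟩ : 𝔇.G₀) : SL(2, ℤ)) = toQ (γ : SL(2, ℤ)) * toQ γ' := toQ_mul' _ _
  rw [h5, slash_mul] at h4
  exact h4

/-- The symbols fixed by all diamond operators are the symbols for `G₀`. -/
theorem mem_MS_G₀ {R : Type*} [CommRing R] {x : Pairs R} :
    x ∈ MS 𝔇.G₀ R ↔ x ∈ MS 𝔇.Γ R ∧ ∀ δ, slash (toQ (𝔇.rep δ)) x = x := by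
  constructor
  · intro h
    exact ⟨MS_mono Γ_le h, fun δ => h.2 _ (𝔇.rep δ).2⟩
  · rintro ⟨h1, h2⟩
    refine ⟨h1.1, fun γ hγ => ?_⟩
    rw [show γ = ((⟨γ, hγ⟩ : 𝔇.G₀) : SL(2, ℤ)) from rfl,
      slash_eq_of_d_eq h1 (γ' := 𝔇.rep (𝔇.d ⟨γ, hγ⟩)) (by simp)]
    exact h2 _

theorem slash_jMat_mem {R : Type*} [CommRing R] {x : Pairs R} (hx : x ∈ MS 𝔇.Γ R) :
    slash jMat x ∈ MS 𝔇.Γ R := by
  refine ⟨fun a b c => hx.1 _ _ _, fun γ hγ => ?_⟩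
  rw [← slash_mul, jMat_mul_toQ, slash_mul, hx.2 _ (conj_mem_Γ hγ)]

theorem slash_jMat_comm {R : Type*} [CommRing R] {x : Pairs R} (hx : x ∈ MS 𝔇.Γ R) (γ : 𝔇.G₀) :
    slash jMat (slash (toQ γ) x) = slash (toQ γ) (slash jMat x) := by
  rw [← slash_mul, ← slash_mul, jMat_mul_toQ, slash_mul, slash_mul]
  congr 1
  exact slash_eq_of_d_eq hx (γ := γ) (γ' := ⟨jConjSL γ, 𝔇.conj_mem _ γ.2⟩) (𝔇.d_conj _ γ.2).symm

variable (𝔇) in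
/-- The diamond operators on `sgnMS`. -/
def dRep (R : Type*) [CommRing R] (ε : ℤ) : Δ →* Module.End R (sgnMS R ε 𝔇.Γ) where
  toFun δ := (slash (toQ (𝔇.rep δ))).restrict fun x hx => by
    rw [mem_sgnMS] at hx ⊢
    exact ⟨slash_mem hx.1 _, by rw [slash_jMat_comm hx.1, hx.2, map_smul]⟩
  map_one' := by
    refine LinearMap.ext fun x => Subtype.ext ?_
    have hx := (mem_sgnMS.mp x.2).1
    rw [LinearMap.coe_restrict_apply]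
    rw [slash_eq_of_d_eq hx (γ := 𝔇.rep 1) (γ' := 1) (by simp)]
    have h1 : toQ ((1 : 𝔇.G₀) : SL(2, ℤ)) = 1 := map_one _
    rw [h1, slash_one, Module.End.one_apply]
  map_mul' δ ε' := by
    refine LinearMap.ext fun x => Subtype.ext ?_
    have hx := (mem_sgnMS.mp x.2).1
    rw [LinearMap.coe_restrict_apply, Module.End.mul_apply, LinearMap.coe_restrict_apply,
      LinearMap.coe_restrict_apply, ← slash_mul, ← toQ_mul']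
    exact slash_eq_of_d_eq hx (γ := 𝔇.rep (δ * ε')) (γ' := 𝔇.rep ε' * 𝔇.rep δ) (by
      rw [map_mul, d_rep, d_rep, d_rep, mul_comm])

theorem dRep_apply {R : Type*} [CommRing R] {ε : ℤ} (δ : Δ) (x : sgnMS R ε 𝔇.Γ) {γ : 𝔇.G₀}
    (h : 𝔇.d γ = δ) : ((𝔇.dRep R ε δ x : sgnMS R ε 𝔇.Γ) : Pairs R) = slash (toQ γ) x :=
  slash_eq_of_d_eq (mem_sgnMS.mp x.2).1 (by rw [d_rep, h])

/-! ### The Manin data -/

theorem S_inv : (S⁻¹ : SL(2, ℤ)) = -S := by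
  have h := S_sq
  rw [inv_eq_iff_mul_eq_one, mul_neg, ← pow_two, h, neg_neg]

theorem jConjSL_S : jConjSL S = S⁻¹ := by
  rw [S_inv]
  apply Subtype.ext
  rw [jConjSL_coe, Matrix.SpecialLinearGroup.coe_neg, ModularGroup.coe_S]
  ext i j
  fin_cases i <;> fin_cases j <;> simp [jConjMat]

theorem jConjSL_U : jConjSL U * (S * U * S) = -1 := by
  apply Subtype.ext
  rw [Matrix.SpecialLinearGroup.coe_mul, jConjSL_coe, Matrix.SpecialLinearGroup.coe_mul,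
    Matrix.SpecialLinearGroup.coe_mul, Matrix.SpecialLinearGroup.coe_neg,
    Matrix.SpecialLinearGroup.coe_one, ModularGroup.coe_S, coe_U]
  ext i j
  fin_cases i <;> fin_cases j <;>
    simp [jConjMat, Matrix.mul_apply, Fin.sum_univ_two]

theorem neg_one_inv : (-1 : SL(2, ℤ))⁻¹ = -1 := by rw [inv_eq_iff_mul_eq_one]; simp

theorem U_S_jU : U⁻¹ * S⁻¹ * (jConjSL U)⁻¹ = -S := by
  have h : (jConjSL U)⁻¹ = -(S * U * S) := by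
    rw [inv_eq_iff_mul_eq_one, mul_neg, jConjSL_U, neg_neg]
  rw [h, mul_neg]
  congr 1
  group

variable (𝔇) in
/-- `X = SL₂(ℤ)/Γ`. -/
abbrev X : Type := SL(2, ℤ) ⧸ 𝔇.Γ

theorem neg_smul (c : 𝔇.X) : (-1 : SL(2, ℤ)) • c = c := by
  induction c using QuotientGroup.induction_on with
  | H g =>
    rw [MulAction.Quotient.smul_coe, smul_eq_mul, neg_one_mul, ← mul_neg_one]
    exact QuotientGroup.mk_mul_of_mem _ neg_mem_Γ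

variable (𝔇) in
/-- The map `gΓ ↦ j(g)Γ`. -/
def jX : 𝔇.X → 𝔇.X := Quotient.map' jConjSL fun a b h => by
  rw [QuotientGroup.leftRel_apply] at h ⊢
  rw [← map_inv, ← map_mul]
  exact conj_mem_Γ h

@[simp] theorem jX_mk (g : SL(2, ℤ)) : 𝔇.jX (g : SL(2, ℤ) ⧸ 𝔇.Γ) = (jConjSL g : SL(2, ℤ)) := rfl

theorem jX_jX (c : 𝔇.X) : 𝔇.jX (𝔇.jX c) = c := by
  induction c using QuotientGroup.induction_on with
  | H g => rw [jX_mk, jX_mk, jConjSL_jConjSL]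

theorem jX_smul (k : SL(2, ℤ)) (c : 𝔇.X) : 𝔇.jX (k • c) = jConjSL k • 𝔇.jX c := by
  induction c using QuotientGroup.induction_on with
  | H g => rw [MulAction.Quotient.smul_coe, jX_mk, smul_eq_mul, map_mul]; rfl

theorem S_inv_S_inv (c : 𝔇.X) : S⁻¹ • S⁻¹ • c = c := by
  rw [← mul_smul, ← _root_.mul_inv_rev, ← pow_two, S_sq, neg_one_inv]
  exact neg_smul c

theorem κ_aux (c : 𝔇.X) : S⁻¹ • 𝔇.jX (S⁻¹ • 𝔇.jX c) = c := by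
  rw [jX_smul, jX_jX, map_inv, jConjSL_S, inv_inv, inv_smul_smul]

variable (𝔇) in
/-- The Manin data of `Γ`. -/
def maninData : Data 𝔇.X where
  s := ⟨fun c => S⁻¹ • c, fun c => S • c, fun c => by simp, fun c => by simp⟩
  κ := ⟨fun c => S⁻¹ • 𝔇.jX c, fun c => S⁻¹ • 𝔇.jX c, κ_aux, κ_aux⟩
  u := ⟨fun c => U⁻¹ • c, fun c => U • c, fun c => by simp, fun c => by simp⟩
  s_s := S_inv_S_inv
  κ_κ := κ_aux
  s_κ := fun c => by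
    show S⁻¹ • S⁻¹ • 𝔇.jX c = S⁻¹ • 𝔇.jX (S⁻¹ • c)
    rw [jX_smul, map_inv, jConjSL_S, inv_inv, inv_smul_smul, S_inv_S_inv]
  u_u_u := fun c => by
    show U⁻¹ • U⁻¹ • U⁻¹ • c = c
    have h : U⁻¹ * U⁻¹ * U⁻¹ = (-1 : SL(2, ℤ)) := by
      rw [← neg_one_inv, ← U_pow_three]; group
    rw [← mul_smul, ← mul_smul, h, neg_smul]
  κ_u := fun c => by
    show U⁻¹ • S⁻¹ • 𝔇.jX (U⁻¹ • c) = S⁻¹ • 𝔇.jX c
    rw [jX_smul, map_inv, ← mul_smul, ← mul_smul, U_S_jU, S_inv]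
  trans := fun f hs hu x y => by
    induction x using QuotientGroup.induction_on with
    | H g =>
      induction y using QuotientGroup.induction_on with
      | H h =>
        have hs' : ∀ c : 𝔇.X, f (S⁻¹ • c) = f c := hs
        have hu' : ∀ c : 𝔇.X, f (U⁻¹ • c) = f c := hu
        have key := const_of_S_U (f := fun g : SL(2, ℤ) => f ((g⁻¹ : SL(2, ℤ)) : SL(2, ℤ) ⧸ 𝔇.Γ))
          (fun g => by
            have := hs' ((g⁻¹ : SL(2, ℤ)) : SL(2, ℤ) ⧸ 𝔇.Γ)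
            rw [MulAction.Quotient.smul_coe, smul_eq_mul, ← _root_.mul_inv_rev] at this
            exact this)
          (fun g => by
            have := hu' ((g⁻¹ : SL(2, ℤ)) : SL(2, ℤ) ⧸ 𝔇.Γ)
            rw [MulAction.Quotient.smul_coe, smul_eq_mul, ← _root_.mul_inv_rev] at this
            exact this)
        have h1 := key g⁻¹
        have h2 := key h⁻¹
        simp only [inv_inv] at h1 h2
        rw [h1, h2]

/-! ### The action of `Δ` on `X` -/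

theorem conj_mem_Γ' {γ γ' : SL(2, ℤ)} (h : γ ∈ 𝔇.Γ) (h' : γ' ∈ 𝔇.G₀) : γ'⁻¹ * γ * γ' ∈ 𝔇.Γ := by
  obtain ⟨h1, h2⟩ := mem_Γ.mp h
  refine mem_Γ.mpr ⟨mul_mem (mul_mem (inv_mem h') h1) h', ?_⟩
  have h3 : (⟨γ'⁻¹ * γ * γ', mul_mem (mul_mem (inv_mem h') h1) h'⟩ : 𝔇.G₀) =
      (⟨γ', h'⟩ : 𝔇.G₀)⁻¹ * ⟨γ, h1⟩ * ⟨γ', h'⟩ := rfl
  rw [h3, map_mul, map_mul, map_inv, h2, mul_one, inv_mul_cancel]

variable (𝔇) in
/-- `δ • gΓ = g γ_δ Γ` -/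
def actX (δ : Δ) : 𝔇.X → 𝔇.X := Quotient.map' (fun g => g * (𝔇.rep δ : SL(2, ℤ))) fun a b h => by
  rw [QuotientGroup.leftRel_apply] at h ⊢
  have h1 := conj_mem_Γ' h (𝔇.rep δ).2
  have h2 : (a * (𝔇.rep δ : SL(2, ℤ)))⁻¹ * (b * (𝔇.rep δ : SL(2, ℤ))) =
      (𝔇.rep δ : SL(2, ℤ))⁻¹ * (a⁻¹ * b) * (𝔇.rep δ : SL(2, ℤ)) := by group
  rw [h2]; exact h1

theorem actX_mk {δ : Δ} {γ : 𝔇.G₀} (h : 𝔇.d γ = δ) (g : SL(2, ℤ)) :
    𝔇.actX δ (g : SL(2, ℤ) ⧸ 𝔇.Γ) = ((g * γ : SL(2, ℤ)) : SL(2, ℤ) ⧸ 𝔇.Γ) := by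
  have h1 : 𝔇.actX δ (g : SL(2, ℤ) ⧸ 𝔇.Γ) =
    ((g * 𝔇.rep δ : SL(2, ℤ)) : SL(2, ℤ) ⧸ 𝔇.Γ) := rfl
  rw [h1, QuotientGroup.eq]
  have h2 := inv_mul_mem_of_d_eq (γ := 𝔇.rep δ) (γ' := γ) (by rw [d_rep, h])
  have h3 : (g * (𝔇.rep δ : SL(2, ℤ)))⁻¹ * (g * (γ : SL(2, ℤ))) =
      (𝔇.rep δ : SL(2, ℤ))⁻¹ * (γ : SL(2, ℤ)) := by group
  rw [h3]; exact h2

variable (𝔇) in
/-- The action of `Δ` on `X` (local instance). -/
@[implicit_reducible] def instAct : MulAction Δ 𝔇.X where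
  smul := 𝔇.actX
  one_smul c := by
    induction c using QuotientGroup.induction_on with
    | H g =>
      have h := actX_mk (𝔇 := 𝔇) (δ := 1) (γ := 1) (map_one _) g
      change 𝔇.actX 1 _ = _
      rw [h]
      simp
  mul_smul δ ε c := by
    induction c using QuotientGroup.induction_on with
    | H g =>
      change 𝔇.actX (δ * ε) _ = 𝔇.actX δ (𝔇.actX ε _)
      rw [actX_mk (δ := ε) (d_rep 𝔇 ε), actX_mk (δ := δ) (d_rep 𝔇 δ),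
        actX_mk (δ := δ * ε) (γ := 𝔇.rep ε * 𝔇.rep δ) (by
          rw [map_mul, d_rep, d_rep, mul_comm])]
      rw [Subgroup.coe_mul, mul_assoc]

attribute [local instance] instAct

theorem smul_mk {δ : Δ} {γ : 𝔇.G₀} (h : 𝔇.d γ = δ) (g : SL(2, ℤ)) :
    δ • ((g : SL(2, ℤ) ⧸ 𝔇.Γ) : 𝔇.X) = ((g * γ : SL(2, ℤ)) : SL(2, ℤ) ⧸ 𝔇.Γ) := actX_mk h g

theorem smul_smul_comm (δ : Δ) (k : SL(2, ℤ)) (c : 𝔇.X) : δ • (k • c) = k • (δ • c) := by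
  induction c using QuotientGroup.induction_on with
  | H g =>
    rw [smul_mk (d_rep 𝔇 δ), MulAction.Quotient.smul_coe, smul_mk (d_rep 𝔇 δ),
      MulAction.Quotient.smul_coe, smul_eq_mul, smul_eq_mul, mul_assoc]

theorem jX_smul_Δ (δ : Δ) (c : 𝔇.X) : 𝔇.jX (δ • c) = δ • 𝔇.jX c := by
  induction c using QuotientGroup.induction_on with
  | H g =>
    rw [smul_mk (d_rep 𝔇 δ), jX_mk, jX_mk, map_mul]
    exact (smul_mk (γ := ⟨jConjSL (𝔇.rep δ), 𝔇.conj_mem _ (𝔇.rep δ).2⟩)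
      ((𝔇.d_conj _ (𝔇.rep δ).2).trans (d_rep 𝔇 δ)) _).symm

theorem compat : Compat 𝔇.maninData Δ where
  s δ x := (smul_smul_comm δ S⁻¹ x).symm
  κ δ x := by
    change S⁻¹ • 𝔇.jX (δ • x) = δ • (S⁻¹ • 𝔇.jX x)
    rw [jX_smul_Δ, smul_smul_comm]
  u δ x := (smul_smul_comm δ U⁻¹ x).symm
  free δ x h := by
    induction x using QuotientGroup.induction_on with
    | H g =>
      rw [smul_mk (d_rep 𝔇 δ), eq_comm, QuotientGroup.eq, inv_mul_cancel_left] at h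
      obtain ⟨h1, h2⟩ := mem_Γ.mp h
      have h3 : (⟨𝔇.rep δ, h1⟩ : 𝔇.G₀) = 𝔇.rep δ := rfl
      rwa [h3, d_rep] at h2

/-! ### The isomorphism with the abstract module -/

theorem jMat_smul_zero : jMat • ((0 : ℚ) : Cusp) = ((0 : ℚ) : Cusp) := by
  rw [← toQ_S_infty, ← mul_smul, jMat_mul_toQ, mul_smul, jMat_smul_infty, jConjSL_S, S_inv,
    toQ_neg_smul]

theorem maninFun_slash_jMat {R : Type*} [CommRing R] (x : Pairs R) (g : SL(2, ℤ)) :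
    maninFun (slash jMat x) g = maninFun x (jConjSL g) := by
  rw [maninFun, maninFun, slash_apply, ← mul_smul, ← mul_smul, jMat_mul_toQ, mul_smul, mul_smul,
    jMat_smul_infty, jMat_smul_zero]

theorem manin_slash_jMat {R : Type*} [CommRing R] {x : Pairs R} (hx : x ∈ MS 𝔇.Γ R) (c : 𝔇.X) :
    manin 𝔇.Γ (slash jMat x) c = manin 𝔇.Γ x (𝔇.jX c) := by
  induction c using QuotientGroup.induction_on with
  | H g => rw [jX_mk, manin_mk hx, manin_mk (slash_jMat_mem hx), maninFun_slash_jMat, map_inv]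

theorem manin_slash {R : Type*} [CommRing R] {x : Pairs R} (hx : x ∈ MS 𝔇.Γ R) {δ : Δ}
    {γ : 𝔇.G₀} (h : 𝔇.d γ = δ) (c : 𝔇.X) :
    manin 𝔇.Γ (slash (toQ γ) x) c = manin 𝔇.Γ x (δ⁻¹ • c) := by
  induction c using QuotientGroup.induction_on with
  | H g =>
    rw [smul_mk (γ := γ⁻¹) (by rw [map_inv, h]), manin_mk hx, manin_mk (slash_mem hx γ)]
    rw [maninFun, maninFun, slash_apply, ← mul_smul, ← mul_smul, ← toQ_mul']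
    rw [_root_.mul_inv_rev, InvMemClass.coe_inv, inv_inv]

variable (𝔇) in
/-- `A[Δ]`-module structure on `sgnMS` (local instance). -/
@[implicit_reducible] def instMod (R : Type*) [CommRing R] (ε : ℤ) :
    Module (MonoidAlgebra R Δ) (sgnMS R ε 𝔇.Γ) :=
  Module.compHom _
    (MonoidAlgebra.lift R (Module.End R (sgnMS R ε 𝔇.Γ)) Δ (𝔇.dRep R ε)).toRingHom

attribute [local instance] instMod Fn.instModuleMA Fn.instTower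

theorem smul_def' {R : Type*} [CommRing R] {ε : ℤ} (a : MonoidAlgebra R Δ) (x : sgnMS R ε 𝔇.Γ) :
    a • x = MonoidAlgebra.lift R (Module.End R (sgnMS R ε 𝔇.Γ)) Δ (𝔇.dRep R ε) a x := rfl

theorem of_smul {R : Type*} [CommRing R] {ε : ℤ} (δ : Δ) (x : sgnMS R ε 𝔇.Γ) :
    MonoidAlgebra.of R Δ δ • x = 𝔇.dRep R ε δ x := by
  rw [smul_def', MonoidAlgebra.lift_of]

variable (𝔇) in
theorem instTower (R : Type*) [CommRing R] (ε : ℤ) :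
    IsScalarTower R (MonoidAlgebra R Δ) (sgnMS R ε 𝔇.Γ) where
  smul_assoc a b m := by
    rw [smul_def', smul_def', map_smul]; rfl

attribute [local instance] instTower

theorem manin_mem {R : Type*} [CommRing R] {x : Pairs R} (hx : x ∈ sgnMS R 1 𝔇.Γ) :
    (manin 𝔇.Γ x : Fn 𝔇.X R) ∈ MSpΛ 𝔇.maninData (compat (𝔇 := 𝔇)) R R := by
  obtain ⟨h1, h2⟩ := mem_sgnMS.mp hx
  have hM := isManin_manin h1
  have hS : ∀ c : 𝔇.X, manin 𝔇.Γ x (S⁻¹ • c) = - manin 𝔇.Γ x c := fun c =>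
    eq_neg_of_add_eq_zero_right (hM.rS c)
  refine mem_MSpΛ.mpr ⟨hS, fun c => ?_, hM.rU⟩
  change manin 𝔇.Γ x (S⁻¹ • 𝔇.jX c) = _
  rw [hS, ← manin_slash_jMat h1, h2]
  simp

theorem exists_of_mem {R : Type*} [CommRing R] {m : Fn 𝔇.X R}
    (hm : m ∈ MSpΛ 𝔇.maninData (compat (𝔇 := 𝔇)) R R) :
    ∃ x ∈ sgnMS R 1 𝔇.Γ, (manin 𝔇.Γ x : Fn 𝔇.X R) = m := by
  obtain ⟨h1, h2, h3⟩ := mem_MSpΛ.mp hm
  have h1' : ∀ c : 𝔇.X, m (S⁻¹ • c) = - m c := h1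
  have h2' : ∀ c : 𝔇.X, m (S⁻¹ • 𝔇.jX c) = - m c := h2
  obtain ⟨x, hx, hxm⟩ := exists_of_isManin (F := m) (Γ := 𝔇.Γ)
    ⟨fun c => by rw [neg_smul], fun c => by rw [h1', add_neg_cancel], h3⟩
  refine ⟨x, mem_sgnMS.mpr ⟨hx, ?_⟩, hxm⟩
  have h4 := maninL_injective R 𝔇.Γ (a₁ := ⟨slash jMat x, slash_jMat_mem hx⟩) (a₂ := ⟨x, hx⟩) (by
    funext c
    rw [maninL_apply, maninL_apply]
    change manin 𝔇.Γ (slash jMat x) c = manin 𝔇.Γ x c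
    rw [manin_slash_jMat hx, hxm]
    have := h2' c
    rw [h1'] at this
    exact neg_injective this)
  have h5 := congrArg Subtype.val h4
  simpa using h5

variable (𝔇) in
/-- The Manin isomorphism, `A[Δ]`-linear. -/
def maninEquiv (R : Type*) [CommRing R] : sgnMS R 1 𝔇.Γ ≃ₗ[MonoidAlgebra R Δ]
    MSpΛ 𝔇.maninData (compat (𝔇 := 𝔇)) R R :=
  LinearEquiv.ofBijective
    (LinearMap.codRestrict _ (toΛ (Δ := Δ)
      ({ toFun := fun x => (manin 𝔇.Γ x.1 : Fn 𝔇.X R)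
         map_add' := fun _ _ => rfl
         map_smul' := fun _ _ => rfl } : sgnMS R 1 𝔇.Γ →ₗ[R] Fn 𝔇.X R) (fun δ x => by
      funext c
      rw [of_smul, Fn.of_smul_apply]
      exact manin_slash (mem_sgnMS.mp x.2).1 (d_rep 𝔇 δ) c)) (fun x => manin_mem x.2))
    ⟨fun x y h => by
      have h1 : manin 𝔇.Γ x.1 = manin 𝔇.Γ y.1 := congrArg Subtype.val h
      have h2 := maninL_injective R 𝔇.Γ (a₁ := ⟨x.1, (mem_sgnMS.mp x.2).1⟩)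
        (a₂ := ⟨y.1, (mem_sgnMS.mp y.2).1⟩) h1
      have h3 := Subtype.ext_iff.mp h2
      exact Subtype.ext h3,
    fun m => by
      obtain ⟨x, hx, hxm⟩ := exists_of_mem m.2
      exact ⟨⟨x, hx⟩, Subtype.ext hxm⟩⟩

theorem free_sgnMS {𝒪 : Type*} [CommRing 𝒪] [IsLocalRing 𝒪] [IsNoetherianRing 𝒪] [Finite Δ]
    [𝔇.Γ.FiniteIndex] (h2 : IsUnit (2 : 𝒪)) (p : ℕ) [Fact p.Prime] (hΔ : IsPGroup p Δ)
    (hp : (p : 𝒪) ∈ maximalIdeal 𝒪) (hU : UGood 𝒪 𝔇.maninData Δ) :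
    Module.Free (MonoidAlgebra 𝒪 Δ) (sgnMS 𝒪 1 𝔇.Γ) ∧
      Module.Finite (MonoidAlgebra 𝒪 Δ) (sgnMS 𝒪 1 𝔇.Γ) := by
  have := finite_quotient_of_index (Γ := 𝔇.Γ)
  have : Invertible (2 : 𝒪) := h2.invertible
  obtain ⟨h3, h4⟩ := free_MSpΛ (V := 𝒪) p hΔ hp (compat (𝔇 := 𝔇)) hU
  exact ⟨Module.Free.of_equiv (𝔇.maninEquiv 𝒪).symm, Module.Finite.equiv (𝔇.maninEquiv 𝒪).symm⟩

end DiaData

end Fermat.Agent.RT.Dict
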