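import Fermat.Agent.RT.Components
import Fermat.Agent.RT.PointEmb
import Fermat.Agent.RT.Act
import Fermat.Agent.DR.SC.Points

/-!
# Extraction of complex eigensymbols (team RT, helper86)

`exists_eig`: `A` a commutative finite `𝒪`-algebra acting on a non zero submodule `X` of `Pairs 𝒪`.
There are a complete DVR `𝒪'` finite over `𝒪`, a character `φ : A → 𝒪'`, an embedding
`j' : 𝒪' → ℂ` extending `j` and a non zero eigenvector `y` in the `ℂ`-span of `j(X)`.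
-/

set_option autoImplicit false

noncomputable section

open IsLocalRing
open scoped TensorProduct

namespace Fermat.Agent.RT.Eig

open Fermat.Agent.LR

section toP

variable {𝒪 : Type*} [CommRing 𝒪] [Algebra 𝒪 ℂ] (X : Submodule 𝒪 (Pairs 𝒪))

/-- `x ↦ j ∘ x` -/
def mapL : X →ₗ[𝒪] Pairs ℂ where
  toFun x := mapCoeff (algebraMap 𝒪 ℂ) x.1
  map_add' x y := by rw [Submodule.coe_add, map_add]
  map_smul' c x := by
    funext a b
    change algebraMap 𝒪 ℂ (c * x.1 a b) = c • algebraMap 𝒪 ℂ (x.1 a b)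
    rw [map_mul, Algebra.smul_def]

/-- `ℂ ⊗ X → Pairs ℂ` -/
def toP : ℂ ⊗[𝒪] X →ₗ[ℂ] Pairs ℂ := LinearMap.liftBaseChange ℂ (mapL X)

theorem toP_tmul (c : ℂ) (x : X) :
    toP X (c ⊗ₜ x) = c • mapCoeff (algebraMap 𝒪 ℂ) (x : Pairs 𝒪) := rfl

theorem toP_mem {X : Submodule 𝒪 (Pairs 𝒪)} (W : Submodule ℂ (Pairs ℂ))
    (h : ∀ x ∈ X, mapCoeff (algebraMap 𝒪 ℂ) x ∈ W) (u : ℂ ⊗[𝒪] X) : toP X u ∈ W := by
  induction u using TensorProduct.induction_on with
  | zero => rw [map_zero]; exact W.zero_mem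
  | tmul c y => rw [toP_tmul]; exact W.smul_mem c (h y.1 y.2)
  | add u v hu hv => rw [map_add]; exact W.add_mem hu hv

theorem toP_injective [IsDomain 𝒪] [IsPrincipalIdealRing 𝒪] [FaithfulSMul 𝒪 ℂ] :
    Function.Injective (toP X) := by
  let ι : X →ₗ[𝒪] (Cusp × Cusp → 𝒪) :=
    { toFun := fun x s => x.1 s.1 s.2
      map_add' := fun x y => rfl
      map_smul' := fun c x => rfl }
  have hι : Function.Injective ι := by
    intro x y h
    refine Subtype.ext (funext fun a => funext fun b => ?_)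
    exact congrFun h (a, b)
  have h := DR.SC.extFun_injective (K := ℂ) ι hι
  have key : ∀ (u : ℂ ⊗[𝒪] X) (s : Cusp × Cusp), DR.SC.extFun (K := ℂ) ι u s = toP X u s.1 s.2 := by
    intro u s
    induction u using TensorProduct.induction_on with
    | zero => simp
    | tmul c y => rw [DR.SC.extFun_tmul, toP_tmul]; rfl
    | add u v hu hv => rw [map_add, map_add, Pi.add_apply, hu, hv]; rfl
  intro u v huv
  apply h
  funext s
  rw [key, key, huv]

theorem toP_lTensor {X : Submodule 𝒪 (Pairs 𝒪)} (t : Module.End 𝒪 X) (T : Pairs ℂ →ₗ[ℂ] Pairs ℂ)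
    (h : ∀ x : X, T (mapCoeff (algebraMap 𝒪 ℂ) (x : Pairs 𝒪)) =
      mapCoeff (algebraMap 𝒪 ℂ) (t x : Pairs 𝒪))
    (u : ℂ ⊗[𝒪] X) : T (toP X u) = toP X (t.lTensor ℂ u) := by
  induction u using TensorProduct.induction_on with
  | zero => simp only [map_zero]
  | tmul c y => rw [LinearMap.lTensor_tmul, toP_tmul, toP_tmul, map_smul, h]
  | add u v hu hv => simp only [map_add, hu, hv]

end toP

section main

variable {𝒪 : Type} [CommRing 𝒪] [IsDomain 𝒪] [IsDiscreteValuationRing 𝒪]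
  [IsAdicComplete (maximalIdeal 𝒪) 𝒪] [Finite (ResidueField 𝒪)] [CharZero 𝒪]

/-- **Extraction of an eigensymbol.** -/
theorem exists_eig (A : Type) [CommRing A] [Algebra 𝒪 A] [Module.Finite 𝒪 A]
    (X : Submodule 𝒪 (Pairs 𝒪)) (Φ : A →ₐ[𝒪] Module.End 𝒪 X) (x₀ : X) (hx₀ : x₀ ≠ 0)
    (j : 𝒪 →+* ℂ) (hj : Function.Injective j) :
    ∃ (𝒪' : Type) (_ : CommRing 𝒪') (_ : IsDomain 𝒪') (_ : IsDiscreteValuationRing 𝒪')
      (_ : IsAdicComplete (maximalIdeal 𝒪') 𝒪') (_ : Finite (ResidueField 𝒪'))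
      (_ : CharZero 𝒪') (_ : Algebra 𝒪 𝒪') (_ : Module.Finite 𝒪 𝒪')
      (_ : IsLocalHom (algebraMap 𝒪 𝒪')), Function.Injective (algebraMap 𝒪 𝒪') ∧
      ∃ (φ : A →ₐ[𝒪] 𝒪') (j' : 𝒪' →+* ℂ), Function.Injective j' ∧
        j'.comp (algebraMap 𝒪 𝒪') = j ∧
        ∃ y : Pairs ℂ, y ≠ 0 ∧
          (∀ (a : A) (T' : Pairs ℂ →ₗ[ℂ] Pairs ℂ),
            (∀ x : X, T' (mapCoeff j (x : Pairs 𝒪)) = mapCoeff j (Φ a x : Pairs 𝒪)) →
            T' y = j' (φ a) • y) ∧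
          (∀ W : Submodule ℂ (Pairs ℂ), (∀ x ∈ X, mapCoeff j x ∈ W) → y ∈ W) := by
  let _ : Algebra 𝒪 ℂ := j.toAlgebra
  have hf : FaithfulSMul 𝒪 ℂ := (faithfulSMul_iff_algebraMap_injective 𝒪 ℂ).mpr hj
  let _ : Module A X := Module.compHom X (Φ : A →+* Module.End 𝒪 X)
  have hsm : ∀ (a : A) (x : X), a • x = Φ a x := fun _ _ => rfl
  have hst : IsScalarTower 𝒪 A X := ⟨fun c a x => by
    rw [hsm, hsm, map_smul, LinearMap.smul_apply]⟩
  have hAn : IsNoetherianRing A := IsNoetherianRing.of_finite 𝒪 A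
  obtain ⟨P, hP, -⟩ := exists_le_isAssociatedPrime_of_isNoetherianRing A x₀ hx₀
  have hPa : P ∈ associatedPrimes A X := hP
  have hPp : P.IsPrime := hP.1
  obtain ⟨𝒪', i1, i2, i3, i4, i5, i6, i7, i8, i9, i10, hinj, φ, hφ⟩ :=
    Components.exists_dvr_of_isPrime 𝒪 A P (DR.SC.comap_eq_bot_of_associated (𝒪 := 𝒪) hPa)
  have hint : Algebra.IsIntegral 𝒪 𝒪' := Algebra.IsIntegral.of_finite 𝒪 𝒪'
  obtain ⟨j', hj', hjj⟩ := Point.exists_embedding_extend (A := 𝒪) (B := 𝒪') (K := ℂ) hinj j hj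
  have hcomm : ∀ c : 𝒪, j' (algebraMap 𝒪 𝒪' c) = j c := fun c => RingHom.congr_fun hjj c
  let χ : A →ₐ[𝒪] ℂ := { (j'.comp (φ : A →+* 𝒪')) with
    commutes' := fun c => by
      change j' (φ (algebraMap 𝒪 A c)) = j c
      rw [φ.commutes, hcomm] }
  have hχ : ∀ a, χ a = j' (φ a) := fun _ => rfl
  have hker : RingHom.ker (χ : A →+* ℂ) = P := by
    rw [← hφ]
    ext a
    rw [RingHom.mem_ker, RingHom.mem_ker]
    change j' (φ a) = 0 ↔ φ a = 0
    constructor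
    · intro h; exact hj' (h.trans (map_zero _).symm)
    · intro h; rw [h, map_zero]
  obtain ⟨y₀, hy₀, hyeig⟩ := DR.SC.exists_eigenvector (M := X) (K := ℂ) χ (by rw [hker]; exact hPa)
  refine ⟨𝒪', i1, i2, i3, i4, i5, i6, i7, i8, i10, hinj, φ, j', hj', hjj, toP X y₀, ?_, ?_, ?_⟩
  · intro h
    exact hy₀ (toP_injective X (h.trans (map_zero _).symm))
  · intro a T' hT'
    rw [toP_lTensor (Φ a) T' hT', ← hχ, ← map_smul, ← hyeig a]
    rfl
  · intro W hW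
    exact toP_mem W hW y₀

omit [IsDomain 𝒪] [IsDiscreteValuationRing 𝒪] [IsAdicComplete (maximalIdeal 𝒪) 𝒪]
  [Finite (ResidueField 𝒪)] [CharZero 𝒪] in
/-- A map from a local algebra to a finite local algebra maps the maximal ideal into the maximal
ideal. -/
theorem map_mem_maximalIdeal {A : Type} [CommRing A] [IsLocalRing A] [Algebra 𝒪 A]
    {𝒪' : Type} [CommRing 𝒪'] [IsLocalRing 𝒪'] [Algebra 𝒪 𝒪'] [Module.Finite 𝒪 𝒪']
    (φ : A →ₐ[𝒪] 𝒪') {a : A} (ha : a ∈ maximalIdeal A) : φ a ∈ maximalIdeal 𝒪' := by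
  let _ : Algebra A 𝒪' := (φ : A →+* 𝒪').toAlgebra
  have hst : IsScalarTower 𝒪 A 𝒪' := IsScalarTower.of_algebraMap_eq' φ.comp_algebraMap.symm
  have hfin : Module.Finite A 𝒪' := Module.Finite.of_restrictScalars_finite 𝒪 A 𝒪'
  have hint : Algebra.IsIntegral A 𝒪' := Algebra.IsIntegral.of_finite A 𝒪'
  have hm : ((maximalIdeal 𝒪').comap (algebraMap A 𝒪')).IsMaximal :=
    Ideal.isMaximal_comap_of_isIntegral_of_isMaximal (maximalIdeal 𝒪')
  have h2 := IsLocalRing.eq_maximalIdeal hm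
  rw [← h2] at ha
  exact ha

end main

end Fermat.Agent.RT.Eig
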