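import Fermat.Agent.RT.Defs
import Fermat.Agent.DR.SC.Points

/-!
# Extension of scalars for modules of modular symbols (helper30)

`ι : Y → Pairs 𝒪` injective and `𝒪`-linear, `K` a field containing `𝒪`:
`extP ι : K ⊗ Y → Pairs K`, `k ⊗ y ↦ k • mapCoeff (ι y)`, is injective, and operators extend.
-/

set_option autoImplicit false

open TensorProduct
open scoped MatrixGroups OnePoint

noncomputable section

namespace Fermat.Agent.RT.ExtPairs

open Fermat.Agent.LR Fermat.Agent.LR.PS Fermat.Agent.RT Fermat.Agent.DR.SC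

variable {𝒪 Y K : Type*} [CommRing 𝒪] [AddCommGroup Y] [Module 𝒪 Y] [Field K] [Algebra 𝒪 K]

/-- `Pairs 𝒪` as functions on pairs. -/
def uncur (𝒪 : Type*) [CommRing 𝒪] : Pairs 𝒪 →ₗ[𝒪] (Cusp × Cusp → 𝒪) where
  toFun x s := x s.1 s.2
  map_add' _ _ := rfl
  map_smul' _ _ := rfl

/-- functions on pairs as `Pairs` -/
def cur (K : Type*) [CommRing K] : (Cusp × Cusp → K) →ₗ[K] Pairs K where
  toFun x a b := x (a, b)
  map_add' _ _ := rfl
  map_smul' _ _ := rfl

theorem uncur_injective : Function.Injective (uncur 𝒪) := by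
  intro x y h
  funext a b
  exact congrFun h (a, b)

theorem cur_injective : Function.Injective (cur K) := by
  intro x y h
  funext s
  exact congrFun (congrFun h s.1) s.2

variable (ι : Y →ₗ[𝒪] Pairs 𝒪)

/-- extension of scalars -/
def extP (K : Type*) [Field K] [Algebra 𝒪 K] : K ⊗[𝒪] Y →ₗ[K] Pairs K :=
  cur K ∘ₗ extFun (K := K) (uncur 𝒪 ∘ₗ ι)

theorem extP_tmul (k : K) (y : Y) :
    extP ι K (k ⊗ₜ[𝒪] y) = k • mapCoeff (algebraMap 𝒪 K) (ι y) := rfl

theorem extP_injective [IsDomain 𝒪] [IsPrincipalIdealRing 𝒪] [FaithfulSMul 𝒪 K]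
    (hι : Function.Injective ι) : Function.Injective (extP ι K) :=
  cur_injective.comp (extFun_injective _ (uncur_injective.comp hι))

/-- linear conditions extend -/
theorem extP_mem (Z : Submodule K (Pairs K)) (h : ∀ y, mapCoeff (algebraMap 𝒪 K) (ι y) ∈ Z)
    (z : K ⊗[𝒪] Y) : extP ι K z ∈ Z := by
  induction z using TensorProduct.induction_on with
  | zero => rw [map_zero]; exact Z.zero_mem
  | tmul k y => rw [extP_tmul]; exact Z.smul_mem _ (h y)
  | add a b ha hb => rw [map_add]; exact Z.add_mem ha hb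

/-- operators extend -/
theorem extP_lTensor {T : Y →ₗ[𝒪] Y} {U : Pairs K →ₗ[K] Pairs K}
    (h : ∀ y, mapCoeff (algebraMap 𝒪 K) (ι (T y)) = U (mapCoeff (algebraMap 𝒪 K) (ι y)))
    (z : K ⊗[𝒪] Y) : extP ι K (T.lTensor K z) = U (extP ι K z) := by
  induction z using TensorProduct.induction_on with
  | zero => simp
  | tmul k y => rw [LinearMap.lTensor_tmul, extP_tmul, extP_tmul, h, map_smul]
  | add a b ha hb => rw [map_add, map_add, map_add, map_add, ha, hb]

/-- **Points of a Hecke module.** `T` acts on `Y ⊂ Pairs 𝒪`; for every `χ : T → K` whose kernel is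
an associated prime of `Y` there is a nonzero `x : Pairs K` in every submodule `Z` containing the
image of `Y`, with `U x = χ t • x` whenever `U` induces `t` on `Y`. -/
theorem exists_eigenPairs [IsDomain 𝒪] [IsPrincipalIdealRing 𝒪] [FaithfulSMul 𝒪 K]
    {T : Type*} [CommRing T] [IsNoetherianRing T] [Algebra 𝒪 T] [Module.Finite 𝒪 T]
    [Module T Y] [IsScalarTower 𝒪 T Y] (hι : Function.Injective ι) (χ : T →ₐ[𝒪] K)
    (hP : RingHom.ker (χ : T →+* K) ∈ associatedPrimes T Y) :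
    ∃ x : Pairs K, x ≠ 0 ∧
      (∀ Z : Submodule K (Pairs K), (∀ y, mapCoeff (algebraMap 𝒪 K) (ι y) ∈ Z) → x ∈ Z) ∧
      ∀ (t : T) (U : Pairs K →ₗ[K] Pairs K),
        (∀ y, mapCoeff (algebraMap 𝒪 K) (ι (t • y)) = U (mapCoeff (algebraMap 𝒪 K) (ι y))) →
        U x = χ t • x := by
  obtain ⟨z, hz, hzt⟩ := exists_eigenvector (M := Y) χ hP
  refine ⟨extP ι K z, fun h => hz (extP_injective ι hι (by rw [h, map_zero])),
    fun Z hZ => extP_mem ι Z hZ z, fun t U hU => ?_⟩
  rw [← extP_lTensor ι (T := Algebra.lsmul 𝒪 𝒪 Y t) hU z, hzt t, map_smul]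

end Fermat.Agent.RT.ExtPairs
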