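import Fermat.Agent.RT.FormNorm

/-!
# Atkin–Lehner involution `wN`, adjointness of Hecke operators for the normalised form
(team RT, helper30)
-/

set_option autoImplicit false

open Matrix Matrix.SpecialLinearGroup CongruenceSubgroup
open scoped MatrixGroups OnePoint

noncomputable section

namespace Fermat.Agent.RT.Form

open Fermat.Agent.LR Fermat.Agent.LR.PS

local notation "S" => ModularGroup.S

section wN

variable {R : Type*} [CommRing R]

/-- `!![0, -1; M, 0]`. -/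
def wnMat (M : ℕ) : GL (Fin 2) ℚ := toQ S * diagMat M

theorem val_wnMat {M : ℕ} (hM : M ≠ 0) :
    (wnMat M : Matrix (Fin 2) (Fin 2) ℚ) = !![0, -1; (M : ℚ), 0] := by
  rw [wnMat, val_mul', val_toQ, val_diagMat hM]
  ext i j
  fin_cases i <;> fin_cases j <;> simp [Matrix.mul_apply, Fin.sum_univ_two, ModularGroup.S]

theorem det_wnMat {M : ℕ} (hM : M ≠ 0) : 0 < (wnMat M : Matrix (Fin 2) (Fin 2) ℚ).det := by
  rw [val_wnMat hM, Matrix.det_fin_two_of]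
  have : (0 : ℚ) < M := by exact_mod_cast Nat.pos_of_ne_zero hM
  linarith

theorem det_diagMat {q : ℕ} (hq : q ≠ 0) : 0 < (diagMat q : Matrix (Fin 2) (Fin 2) ℚ).det := by
  rw [val_diagMat hq, Matrix.det_fin_two_of]
  have : (0 : ℚ) < q := by exact_mod_cast Nat.pos_of_ne_zero hq
  linarith

theorem det_heckeMat {q : ℕ} (hq : q ≠ 0) (j : ℤ) :
    0 < (heckeMat q j : Matrix (Fin 2) (Fin 2) ℚ).det := by
  rw [val_heckeMat hq, Matrix.det_fin_two_of]
  have : (0 : ℚ) < q := by exact_mod_cast Nat.pos_of_ne_zero hq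
  linarith

theorem det_toQ_pos (γ : SL(2, ℤ)) : 0 < (toQ γ : Matrix (Fin 2) (Fin 2) ℚ).det := by
  rw [det_toQ]; exact one_pos

theorem det_inv_pos {α : GL (Fin 2) ℚ} (hα : 0 < (α : Matrix (Fin 2) (Fin 2) ℚ).det) :
    0 < ((α⁻¹ : GL (Fin 2) ℚ) : Matrix (Fin 2) (Fin 2) ℚ).det := by
  have h : (α : Matrix (Fin 2) (Fin 2) ℚ).det * ((α⁻¹ : GL (Fin 2) ℚ) : Matrix (Fin 2) (Fin 2) ℚ).det
      = 1 := by
    rw [← Matrix.det_mul, ← val_mul', mul_inv_cancel]; simp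
  exact (pos_iff_pos_of_mul_pos (by rw [h]; exact one_pos)).mp hα

/-- `x ↦ x|w_M`, `w_M = !![0, -1; M, 0]`. -/
def wN (M : ℕ) : Pairs R →ₗ[R] Pairs R := slash (wnMat M)

theorem wN_apply (M : ℕ) (x : Pairs R) : wN M x = slash (wnMat M) x := rfl

theorem mapCoeff_wN {R' : Type*} [CommRing R'] (f : R →+* R') (M : ℕ) (x : Pairs R) :
    mapCoeff f (wN M x) = wN M (mapCoeff f x) := rfl

theorem mapCoeff_degen {R' : Type*} [CommRing R'] (f : R →+* R') (M : ℕ) (x : Pairs R) :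
    mapCoeff f (degen M x) = degen M (mapCoeff f x) := rfl

theorem wN_wN {M : ℕ} (hM : M ≠ 0) (x : Pairs R) : wN M (wN M x) = x := by
  rw [wN_apply, wN_apply, ← slash_mul]
  have hc : (-(M : ℚ)) ≠ 0 := by simpa using hM
  rw [slash_congr (h := 1) hc ?_ x, slash_one]
  rw [val_mul', val_wnMat hM]
  ext i j
  fin_cases i <;> fin_cases j <;> simp [Matrix.mul_apply, Fin.sum_univ_two]

theorem degen_degen {d e : ℕ} (hd : d ≠ 0) (he : e ≠ 0) (x : Pairs R) :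
    degen d (degen e x) = degen (e * d) x := by
  rw [degen_apply, degen_apply, degen_apply, ← slash_mul, triMat_mul _ _ (by simpa using he)
    (by simpa using hd)]
  simp [diagMat]

/-- `(x|w_M)|V_e = x|w_{Me}`. -/
theorem degen_wN {M e : ℕ} (hM : M ≠ 0) (he : e ≠ 0) (x : Pairs R) :
    degen e (wN M x) = wN (M * e) x := by
  rw [degen_apply, wN_apply, wN_apply, ← slash_mul]
  refine slash_congr (c := 1) one_ne_zero ?_ x
  rw [val_mul', val_wnMat hM, val_diagMat he, val_wnMat (mul_ne_zero hM he)]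
  ext i j
  fin_cases i <;> fin_cases j <;> simp [Matrix.mul_apply, Fin.sum_univ_two]

/-- `(x|V_d)|w_{Mde} = (x|w_M)|V_e`. -/
theorem wN_degen {M d e : ℕ} (hM : M ≠ 0) (hd : d ≠ 0) (he : e ≠ 0) (x : Pairs R) :
    wN (M * (d * e)) (degen d x) = degen e (wN M x) := by
  rw [degen_apply, degen_apply, wN_apply, wN_apply, ← slash_mul, ← slash_mul]
  refine slash_congr (c := (d : ℚ)) (by exact_mod_cast hd) ?_ x
  rw [val_mul', val_mul', val_wnMat hM, val_wnMat (mul_ne_zero hM (mul_ne_zero hd he)),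
    val_diagMat hd, val_diagMat he]
  ext i j
  fin_cases i <;> fin_cases j <;> simp [Matrix.mul_apply, Fin.sum_univ_two]
  ring

/-- `w_M` normalises `Γ₀(M)`. -/
theorem wnMat_mul {M : ℕ} (hM : M ≠ 0) {γ : SL(2, ℤ)} (hγ : γ ∈ Gamma0 M) :
    ∃ γ' ∈ Gamma0 M, wnMat M * toQ γ = toQ γ' * wnMat M := by
  obtain ⟨e, he⟩ := mem_Gamma0_iff.mp hγ
  have hdet := det_eq' γ
  rw [he] at hdet
  refine ⟨mkSL (γ 1 1) (-e) (-(M * γ 0 1)) (γ 0 0) (by linear_combination hdet), ?_, ?_⟩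
  · rw [mem_Gamma0_iff]; simp [mkSL]
  · apply Units.ext
    rw [val_mul', val_mul', val_toQ, val_toQ_mkSL, val_wnMat hM, he]
    ext i j
    fin_cases i <;> fin_cases j <;> simp [Matrix.mul_apply, Fin.sum_univ_two]
    all_goals ring

theorem wN_mem {M : ℕ} (hM : M ≠ 0) {x : Pairs R} (hx : x ∈ MS (Gamma0 M) R) :
    wN M x ∈ MS (Gamma0 M) R := by
  refine ⟨slash_add_of_add hx.1 _, fun γ hγ => ?_⟩
  obtain ⟨γ', h1, h2⟩ := wnMat_mul hM hγ
  rw [wN_apply, ← slash_mul, h2, slash_toQ_mul_of_mem hx h1]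

/-- `w_M` commutes with `ι`. -/
theorem wN_slash_jMat {M : ℕ} (hM : M ≠ 0) (x : Pairs R) :
    wN M (slash jMat x) = slash jMat (wN M x) := by
  rw [wN_apply, wN_apply, ← slash_mul, ← slash_mul]
  refine slash_congr (c := -1) (by norm_num) ?_ x
  rw [val_mul', val_mul', val_wnMat hM, val_jMat]
  ext i j
  fin_cases i <;> fin_cases j <;> simp [Matrix.mul_apply, Fin.sum_univ_two]

theorem slash_heckeMat_wnMat {M ℓ : ℕ} (hM : M ≠ 0) (hℓ : ℓ ≠ 0) {x : Pairs R}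
    (hx : x ∈ MS (Gamma0 M) R) {j j' : ℤ} (h : (ℓ : ℤ) ∣ j * j' * M + 1) :
    slash (wnMat M) (slash (heckeMat ℓ j) x) = slash (heckeMat ℓ j') (slash (wnMat M) x) := by
  obtain ⟨e, he⟩ := h
  rw [← slash_mul, ← slash_mul]
  have key : ((heckeMat ℓ j * wnMat M : GL (Fin 2) ℚ) : Matrix (Fin 2) (Fin 2) ℚ) =
      ((toQ (mkSL e j (M * j') ℓ (by linear_combination -he)) * (wnMat M * heckeMat ℓ j') :
        GL (Fin 2) ℚ) : Matrix (Fin 2) (Fin 2) ℚ) := by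
    have heQ : (j : ℚ) * j' * M + 1 = ℓ * e := by exact_mod_cast he
    rw [val_mul', val_mul', val_mul', val_toQ_mkSL, val_wnMat hM, val_heckeMat hℓ, val_heckeMat hℓ]
    ext i k
    fin_cases i <;> fin_cases k <;> simp [Matrix.mul_apply, Fin.sum_univ_two]
    · linear_combination -heQ
    · ring
  rw [Units.ext key, slash_toQ_mul_of_mem hx]
  rw [mem_Gamma0_iff]; simp [mkSL]

/-- `T_ℓ` commutes with `w_M`. -/
theorem heckeT_wN {M ℓ : ℕ} (hM : M ≠ 0) (hℓ : ℓ.Prime) (hℓM : ¬ ℓ ∣ M) {x : Pairs R}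
    (hx : x ∈ MS (Gamma0 M) R) : heckeT ℓ (wN M x) = wN M (heckeT ℓ x) := by
  have hF : Fact ℓ.Prime := ⟨hℓ⟩
  have hℓ0 : ℓ ≠ 0 := hℓ.ne_zero
  have hu : IsUnit ((M : ℕ) : ZMod ℓ) := (ZMod.isUnit_iff_coprime M ℓ).mpr
    ((Nat.Prime.coprime_iff_not_dvd hℓ).mpr hℓM).symm
  obtain ⟨u, hu⟩ := hu
  have hwx := TInv_of_mem (wN_mem hM hx)
  have e1 : degen ℓ (wN M x) = wN M (slash (heckeMat ℓ 0) x) := by
    rw [degen_apply, wN_apply, wN_apply, ← slash_mul, ← slash_mul]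
    refine slash_congr (c := 1) one_ne_zero ?_ x
    rw [val_mul', val_mul', val_wnMat hM, val_heckeMat hℓ0, val_diagMat hℓ0]
    ext i k
    fin_cases i <;> fin_cases k <;> simp [Matrix.mul_apply, Fin.sum_univ_two]
    ring
  have e2 : slash (heckeMat ℓ 0) (wN M x) = wN M (degen ℓ x) := by
    rw [degen_apply, wN_apply, wN_apply, ← slash_mul, ← slash_mul]
    refine slash_congr (c := 1) one_ne_zero ?_ x
    rw [val_mul', val_mul', val_wnMat hM, val_heckeMat hℓ0, val_diagMat hℓ0]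
    ext i k
    fin_cases i <;> fin_cases k <;> simp [Matrix.mul_apply, Fin.sum_univ_two]
  rw [heckeT_apply, heckeT_apply, map_add, heckeU_eq_sum_zmod, heckeU_eq_sum_zmod, map_sum,
    sum_eq_add_sum_units (fun j : ZMod ℓ => slash (heckeMat ℓ ((j.val : ℕ) : ℤ)) (wN M x)),
    sum_eq_add_sum_units (fun j : ZMod ℓ => wN M (slash (heckeMat ℓ ((j.val : ℕ) : ℤ)) x)),
    ZMod.val_zero, Nat.cast_zero, e1, e2]
  have e3 : ∑ j : (ZMod ℓ)ˣ, slash (heckeMat ℓ (((j : ZMod ℓ).val : ℕ) : ℤ)) (wN M x) =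
      ∑ j : (ZMod ℓ)ˣ, wN M (slash (heckeMat ℓ (((j : ZMod ℓ).val : ℕ) : ℤ)) x) := by
    rw [← Equiv.sum_comp ((Equiv.inv (ZMod ℓ)ˣ).trans (Equiv.mulLeft (-u⁻¹)))
      (fun j : (ZMod ℓ)ˣ => slash (heckeMat ℓ (((j : ZMod ℓ).val : ℕ) : ℤ)) (wN M x))]
    refine Finset.sum_congr rfl fun j _ => ?_
    rw [wN_apply, wN_apply, slash_heckeMat_wnMat hM hℓ0 hx]
    rw [← ZMod.intCast_zmod_eq_zero_iff_dvd]
    push_cast
    rw [ZMod.natCast_zmod_val, ZMod.natCast_zmod_val]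
    simp only [Equiv.trans_apply, Equiv.inv_apply, Equiv.coe_mulLeft, Units.val_mul, Units.val_neg,
      ← hu]
    have h1 : ((j : (ZMod ℓ)ˣ) : ZMod ℓ) * ((j⁻¹ : (ZMod ℓ)ˣ) : ZMod ℓ) = 1 := by
      rw [← Units.val_mul, mul_inv_cancel, Units.val_one]
    have h2 : ((u : (ZMod ℓ)ˣ) : ZMod ℓ) * ((u⁻¹ : (ZMod ℓ)ˣ) : ZMod ℓ) = 1 := by
      rw [← Units.val_mul, mul_inv_cancel, Units.val_one]
    linear_combination -((u : (ZMod ℓ)ˣ) : ZMod ℓ) * ((u⁻¹ : (ZMod ℓ)ˣ) : ZMod ℓ) * h1 - h2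
  rw [e3]
  abel

end wN

end Fermat.Agent.RT.Form
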