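import Fermat.Agent.RT.FormSign

/-!
# Non-degeneracy modulo the maximal ideal up to boundary symbols (team RT, helper30)
-/

set_option autoImplicit false
set_option linter.unusedSectionVars false

open Matrix Matrix.SpecialLinearGroup CongruenceSubgroup IsLocalRing
open scoped MatrixGroups OnePoint

noncomputable section

namespace Fermat.Agent.RT.Form

open Fermat.Agent.LR Fermat.Agent.LR.PS

universe u

variable {𝒪 : Type u} [CommRing 𝒪] [IsDomain 𝒪] [CharZero 𝒪]

/-- the integral structure on the form: `formO(x, c(y))` for `x = ∑ a_i c(b_i)`. -/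
theorem formO_sum {Γ : Subgroup SL(2, ℤ)} [Γ.FiniteIndex] (hneg : (-1 : SL(2, ℤ)) ∈ Γ)
    {ι : Type*} [Fintype ι] (a : ι → 𝒪) (b : ι → MS Γ ℤ) (y : MS Γ ℤ) :
    formO Γ (∑ i, a i • mapCoeff (Int.castRingHom 𝒪) (b i).1) (mapCoeff (Int.castRingHom 𝒪) y.1) =
      ∑ i, a i * ((form Γ (b i).1 y.1 : ℤ) : 𝒪) := by
  have hx : (∑ i, a i • mapCoeff (Int.castRingHom 𝒪) (b i).1) ∈ MS Γ 𝒪 :=
    Submodule.sum_mem _ fun i _ => Submodule.smul_mem _ _ (mapCoeff_mem _ (b i).2)
  refine mul_left_cancel₀ (three_ne_zero' (𝒪 := 𝒪)) ?_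
  rw [three_mul_formO hneg hx (mapCoeff_mem _ y.2)]
  have h := formSum_sum_sum Γ Finset.univ (Finset.univ : Finset (Fin 1)) a (fun _ => (1 : 𝒪))
    (fun i => mapCoeff (Int.castRingHom 𝒪) (b i).1) (fun _ => mapCoeff (Int.castRingHom 𝒪) y.1)
  simp only [one_smul, Finset.univ_unique, Finset.sum_singleton, mul_one] at h
  rw [h, Finset.mul_sum]
  refine Finset.sum_congr rfl fun i _ => ?_
  rw [formSum_mapCoeff, ← three_mul_form hneg (b i).2 y.2]
  simp only [eq_intCast, Int.cast_mul, Int.cast_ofNat]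
  ring

/-- If `[x, y] ∈ 𝔪` for all `y` then `x` is a boundary symbol modulo `𝔪` (value form). -/
theorem residue_eq_zero_of_brk {k : Type*} [Field k] (π : 𝒪 →+* k) {p : ℕ} [Fact p.Prime]
    [CharP k p] (hp : Odd p) {M : ℕ} (hM : M ≠ 0) {x : Pairs 𝒪} (hx : x ∈ MS (Gamma0 M) 𝒪)
    (h : ∀ y ∈ MS (Gamma0 M) 𝒪, π (brk M x y) = 0) {γ : SL(2, ℤ)} (hγ : γ ∈ Gamma0 M) :
    π (x ∞ (toQ γ • ∞)) = 0 := by
  have : NeZero M := ⟨hM⟩
  have hneg := neg_one_mem_Gamma0 M
  set Γ := Gamma0 M with hΓ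
  let b := Module.finBasis ℤ (MS Γ ℤ)
  let B := basisMap b 𝒪
  obtain ⟨a, hxB⟩ : ∃ a : Fin (Module.finrank ℤ (MS Γ ℤ)) → 𝒪,
      x = ∑ i, a i • mapCoeff (Int.castRingHom 𝒪) (b i).1 := by
    refine ⟨fun i => B.repr ⟨x, hx⟩ i, ?_⟩
    have h1 := B.sum_repr ⟨x, hx⟩
    have h2 := congrArg (Submodule.subtype (MS Γ 𝒪)) h1
    rw [map_sum] at h2
    simp only [Submodule.subtype_apply, Submodule.coe_smul] at h2
    refine h2.symm.trans ?_
    exact Finset.sum_congr rfl fun i _ => by rw [basisMap_apply]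
  -- the linear relations modulo `𝔪`
  have hrel : ∀ y : MS Γ ℤ, ∑ i, π (a i) * ((form Γ (b i).1 y.1 : ℤ) : k) = 0 := by
    intro y
    have h1 := h (wN M (mapCoeff (Int.castRingHom 𝒪) y.1)) (wN_mem hM (mapCoeff_mem _ y.2))
    rw [brk, wN_wN hM] at h1
    rw [hxB, formO_sum hneg a b y, map_sum] at h1
    simp only [map_mul, map_intCast] at h1
    exact h1
  let := ZMod.algebra k p
  by_contra hne
  obtain ⟨lam, hlam⟩ : ∃ lam : k →ₗ[ZMod p] ZMod p, lam (π (x ∞ (toQ γ • ∞))) ≠ 0 := by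
    by_contra hall
    push Not at hall
    exact hne ((Module.forall_dual_apply_eq_zero_iff (ZMod p) _).mp hall)
  apply hlam
  -- the integral symbol attached to `lam`
  choose n hn using fun i => ZMod.intCast_surjective (lam (π (a i)))
  let z : MS Γ ℤ := ∑ i, n i • b i
  have hlamint : ∀ (c : k) (m : ℤ), lam (c * (m : k)) = lam c * (m : ZMod p) := by
    intro c m
    have : c * (m : k) = (m : ZMod p) • c := by
      rw [Algebra.smul_def, map_intCast, mul_comm]
    rw [this, map_smul, smul_eq_mul, mul_comm]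
  have hform : ∀ y ∈ MS Γ ℤ, (p : ℤ) ∣ form Γ z.1 y := by
    intro y hy
    have h1 := congrArg lam (hrel ⟨y, hy⟩)
    rw [map_sum, map_zero] at h1
    simp only [hlamint] at h1
    have h2 : form Γ z.1 y = ∑ i, n i * form Γ (b i).1 y := by
      have := congrArg (fun f => f ⟨y, hy⟩) (map_sum (formB hneg) (fun i => n i • b i) Finset.univ)
      simp only [LinearMap.sum_apply, map_smul, LinearMap.smul_apply, formB_apply, smul_eq_mul]
        at this
      exact this
    rw [← ZMod.intCast_zmod_eq_zero_iff_dvd, h2]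
    push_cast
    rw [← h1]
    exact Finset.sum_congr rfl fun i _ => by rw [hn i]
  have h3 := dvd_of_dvd_form hneg hp z.2 hform hγ
  have h4 : π (x ∞ (toQ γ • ∞)) = ∑ i, π (a i) * (((b i).1 ∞ (toQ γ • ∞) : ℤ) : k) := by
    rw [hxB]
    simp only [Finset.sum_apply, Pi.smul_apply, mapCoeff_apply, smul_eq_mul, map_sum, map_mul,
      eq_intCast, map_intCast]
  have h5 : z.1 ∞ (toQ γ • ∞) = ∑ i, n i * (b i).1 ∞ (toQ γ • ∞) := by
    have : z.1 = ∑ i, n i • (b i).1 := by
      simp only [z, Submodule.coe_sum, Submodule.coe_smul]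
    rw [this]
    simp only [Finset.sum_apply, Pi.smul_apply, smul_eq_mul]
  rw [h4, map_sum]
  simp only [hlamint]
  rw [← ZMod.intCast_zmod_eq_zero_iff_dvd, h5] at h3
  push_cast at h3
  rw [← h3]
  exact Finset.sum_congr rfl fun i _ => by rw [hn i]

end Fermat.Agent.RT.Form
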