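import Fermat.Agent.RT.FormPerfect

/-!
# Perfect pairing `MS⁺_𝔪 × MS⁻_𝔪 → 𝒪` (team RT, helper30)
-/

set_option autoImplicit false
set_option linter.unusedSectionVars false

open Matrix Matrix.SpecialLinearGroup CongruenceSubgroup IsLocalRing
open scoped MatrixGroups OnePoint

noncomputable section

namespace Fermat.Agent.RT.Form

open Fermat.Agent.LR Fermat.Agent.LR.PS Fermat.Agent.RT.Loc

universe u

section sat

variable {𝒪 : Type*} [CommRing 𝒪] [IsDomain 𝒪]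

theorem pairs_smul_eq_zero {c : 𝒪} {y : Pairs 𝒪} (hc : c ≠ 0) (h : c • y = 0) : y = 0 :=
  (smul_eq_zero.mp h).resolve_left hc

theorem pairs_smul_inj {c : 𝒪} (hc : c ≠ 0) {x y : Pairs 𝒪} (h : c • x = c • y) : x = y :=
  smul_right_injective _ hc h

theorem saturated_MS (Γ : Subgroup SL(2, ℤ)) : Saturated (MS Γ 𝒪) := by
  intro c hc x hx
  refine ⟨fun a b d => ?_, fun γ hγ => ?_⟩
  · have := hx.1 a b d
    simp only [Pi.smul_apply, smul_eq_mul] at this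
    exact mul_left_cancel₀ hc (by rw [mul_add, this])
  · have := hx.2 γ hγ
    rw [map_smul] at this
    exact pairs_smul_inj hc this

theorem saturated_sgnMS (ε : ℤ) (Γ : Subgroup SL(2, ℤ)) : Saturated (sgnMS 𝒪 ε Γ) := by
  intro c hc x hx
  rw [mem_sgnMS] at hx ⊢
  refine ⟨saturated_MS Γ c hc x hx.1, ?_⟩
  have := hx.2
  rw [map_smul, smul_comm] at this
  exact pairs_smul_inj hc this

theorem saturated_partMS (H : Submodule 𝒪 (Pairs 𝒪)) (hH : Saturated H)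
    (F : Set (Module.End 𝒪 (Pairs 𝒪))) : Saturated (part H F) :=
  saturated_part (fun _ _ hc h => pairs_smul_eq_zero hc h) hH F

variable [IsNoetherianRing 𝒪]

instance finite_MS_inst (M : ℕ) [NeZero M] : Module.Finite 𝒪 (MS (Gamma0 M) 𝒪) :=
  finite_MS 𝒪 (Gamma0 M)

theorem finite_of_le_MS {M : ℕ} (hM : M ≠ 0) {H : Submodule 𝒪 (Pairs 𝒪)}
    (h : H ≤ MS (Gamma0 M) 𝒪) : Module.Finite 𝒪 H := by
  have : NeZero M := ⟨hM⟩
  exact Module.Finite.of_injective (Submodule.inclusion h) (Submodule.inclusion_injective h)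

theorem free_of_le_MS [IsPrincipalIdealRing 𝒪] {M : ℕ} (hM : M ≠ 0) {H : Submodule 𝒪 (Pairs 𝒪)}
    (h : H ≤ MS (Gamma0 M) 𝒪) : Module.Free 𝒪 H := by
  have := finite_of_le_MS hM h
  have : Module.IsTorsionFree 𝒪 H := by infer_instance
  exact Module.free_of_finite_type_torsion_free'

end sat

section main

variable {𝒪 : Type u} [CommRing 𝒪] [IsDomain 𝒪] [CharZero 𝒪] [IsDiscreteValuationRing 𝒪]
  [IsAdicComplete (maximalIdeal 𝒪) 𝒪] [Finite (ResidueField 𝒪)]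

theorem sgnMS_le {R : Type*} [CommRing R] (ε : ℤ) (Γ : Subgroup SL(2, ℤ)) :
    sgnMS R ε Γ ≤ MS Γ R := fun _ hx => (mem_sgnMS.mp hx).1

/-- elements of the part are orthogonal to the complement. -/
theorem exists_part_congr {M : ℕ} (hM : M ≠ 0) {ι : Type*} {t : ι → Module.End 𝒪 (Pairs 𝒪)}
    (D : FamData M t) {y : Pairs 𝒪} (hy : y ∈ MS (Gamma0 M) 𝒪) :
    ∃ y₀ ∈ part (MS (Gamma0 M) 𝒪) (Set.range t),
      ∀ x ∈ part (MS (Gamma0 M) 𝒪) (Set.range t), brk M x y = brk M x y₀ := by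
  have : NeZero M := ⟨hM⟩
  set H := MS (Gamma0 M) 𝒪 with hH
  have hcomm : ∀ i j (x : H), rfam D.mem i (rfam D.mem j x) = rfam D.mem j (rfam D.mem i x) :=
    fun i j x => Subtype.ext (D.comm i j x x.2)
  obtain ⟨P, hP⟩ := exists_isProj (rfam D.mem) hcomm
  refine ⟨(P ⟨y, hy⟩ : H), (mem_npart_rfam (saturated_MS _) D.mem).mp (hP.mem _), fun x hx => ?_⟩
  have hxH : x ∈ H := part_le hx
  have h0 : brkL 𝒪 M ⟨x, hxH⟩ (⟨y, hy⟩ - P ⟨y, hy⟩) = 0 := by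
    refine PerfectAlg.orth_npart (brkL 𝒪 M) hcomm hcomm (fun i a b => ?_) hP
      ((mem_npart_rfam (saturated_MS _) D.mem).mpr hx) ?_
    · exact D.adj i a.1 a.2 b.1 b.2
    · rw [map_sub, hP.eq _ (hP.mem _), sub_self]
  rw [map_sub, sub_eq_zero] at h0
  exact h0

/-- **Non-degeneracy modulo `𝔪`** of the pairing of the `ε`-part with the `-ε`-part. -/
theorem exists_smul_of_brk {M : ℕ} (hM : M ≠ 0) {ι : Type*} {t : ι → Module.End 𝒪 (Pairs 𝒪)}
    (D : FamData M t) {p : ℕ} [Fact p.Prime] (hp : Odd p) (hp𝒪 : (p : 𝒪) ∈ maximalIdeal 𝒪)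
    {ℓ : ℕ} (hℓ : ℓ.Prime) (hℓM : ((ℓ : ℕ) : ZMod M) = 1) {a : 𝒪}
    (ha : IsUnit (a - (1 + ℓ))) (hmem : (heckeT ℓ - a • LinearMap.id : Module.End 𝒪 (Pairs 𝒪)) ∈
      Set.range t) {ε : ℤ} (hε : ε * ε = 1) {ϖ : 𝒪} (hϖ : Irreducible ϖ)
    {x : Pairs 𝒪} (hx : x ∈ part (sgnMS 𝒪 ε (Gamma0 M)) (Set.range t))
    (h : ∀ y ∈ part (sgnMS 𝒪 (-ε) (Gamma0 M)) (Set.range t), brk M x y ∈ maximalIdeal 𝒪) :
    ∃ z ∈ part (sgnMS 𝒪 ε (Gamma0 M)) (Set.range t), x = ϖ • z := by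
  have hxS := (mem_part.mp hx).1
  have hxM := sgnMS_le _ _ hxS
  have hx0 : x ∈ part (MS (Gamma0 M) 𝒪) (Set.range t) := part_mono (sgnMS_le _ _) le_rfl hx
  -- `2` is a unit
  have h2 : IsUnit (2 : 𝒪) := by
    by_contra hne
    have h2m : (2 : 𝒪) ∈ maximalIdeal 𝒪 := (mem_maximalIdeal _).mpr hne
    obtain ⟨m, hm⟩ := hp
    have : (1 : 𝒪) ∈ maximalIdeal 𝒪 := by
      have h1 : (1 : 𝒪) = p - 2 * m := by rw [hm]; push_cast; ring
      rw [h1]
      exact sub_mem hp𝒪 (Ideal.mul_mem_right _ _ h2m)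
    exact (Ideal.ne_top_iff_one _).mp (Ideal.IsPrime.ne_top inferInstance) this
  -- all of `MS`
  have hall : ∀ y ∈ MS (Gamma0 M) 𝒪, residue 𝒪 (brk M x y) = 0 := by
    intro y hy
    obtain ⟨y₀, hy₀, hxy⟩ := exists_part_congr hM D hy
    rw [hxy x hx0, residue_eq_zero_iff]
    have hy₀M := (mem_part.mp hy₀).1
    -- signed decomposition
    obtain ⟨u, hu⟩ := h2
    have hjj : slash jMat (slash jMat y₀) = y₀ := by
      rw [← slash_mul]
      refine (slash_congr (h := 1) (c := 1) one_ne_zero ?_ y₀).trans (slash_one y₀)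
      rw [val_mul', val_jMat]
      ext i j
      fin_cases i <;> fin_cases j <;> simp [Matrix.mul_apply, Fin.sum_univ_two]
    have hjmem : slash jMat y₀ ∈ part (MS (Gamma0 M) 𝒪) (Set.range t) := by
      have : NeZero M := ⟨hM⟩
      exact mem_part_of_comm (saturated_MS _) D.mem (slash jMat) (fun z hz => slash_jMat_mem hz)
        (fun i z hz => D.sgn i z hz) hy₀
    have hpart : ∀ (δ : ℤ), δ * δ = 1 →
        y₀ + (δ : 𝒪) • slash jMat y₀ ∈ part (sgnMS 𝒪 δ (Gamma0 M)) (Set.range t) := by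
      intro δ hδ
      have h1 : y₀ + (δ : 𝒪) • slash jMat y₀ ∈ part (MS (Gamma0 M) 𝒪) (Set.range t) :=
        Submodule.add_mem _ hy₀ (Submodule.smul_mem _ _ hjmem)
      refine mem_part.mpr ⟨mem_sgnMS.mpr ⟨(mem_part.mp h1).1, ?_⟩, (mem_part.mp h1).2⟩
      rw [map_add, map_smul, hjj, smul_add, smul_smul, ← Int.cast_mul, hδ, Int.cast_one, one_smul,
        add_comm]
    have e1 := hpart ε hε
    have e2 := hpart (-ε) (by rw [neg_mul_neg, hε])
    have e1M := sgnMS_le _ _ (mem_part.mp e1).1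
    have e2M := sgnMS_le _ _ (mem_part.mp e2).1
    have hsum : (2 : 𝒪) * brk M x y₀ = brk M x (y₀ + ((ε : ℤ) : 𝒪) • slash jMat y₀) +
        brk M x (y₀ + ((-ε : ℤ) : 𝒪) • slash jMat y₀) := by
      rw [← brk_add_right hM hxM e1M e2M, ← brk_smul_right hM _ hxM hy₀M]
      congr 1
      rw [Int.cast_neg]
      module
    rw [brk_eq_zero_of_sgn hM hε hxS (mem_part.mp e1).1, zero_add] at hsum
    have h3 : (2 : 𝒪) * brk M x y₀ ∈ maximalIdeal 𝒪 := hsum ▸ h _ e2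
    rcases (inferInstance : (maximalIdeal 𝒪).IsPrime).mem_or_mem h3 with h4 | h4
    · exact absurd (hu ▸ u.isUnit) ((mem_maximalIdeal _).mp h4)
    · exact h4
  -- characteristic of the residue field
  have hchar : CharP (ResidueField 𝒪) p := by
    have h1 : (p : ResidueField 𝒪) = 0 := by
      rw [← map_natCast (residue 𝒪), residue_eq_zero_iff]; exact hp𝒪
    exact (CharP.charP_iff_prime_eq_zero (Fact.out : p.Prime)).mpr h1
  have hb : ∀ γ ∈ Gamma0 M, residue 𝒪 (x ∞ (toQ γ • ∞)) = 0 := fun γ hγ =>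
    residue_eq_zero_of_brk (residue 𝒪) hp hM hxM hall hγ
  have hπϖ : residue 𝒪 ϖ = 0 := by
    rw [residue_eq_zero_iff, mem_maximalIdeal]; exact hϖ.not_isUnit
  have hane : residue 𝒪 a ≠ 1 + ℓ := by
    intro he
    have h1 : residue 𝒪 (a - (1 + ℓ)) = 0 := by
      rw [map_sub, he, map_add, map_one, map_natCast, sub_self]
    rw [residue_eq_zero_iff, mem_maximalIdeal] at h1
    exact h1 ha
  have hzero := mapCoeff_eq_zero_of_bdry (residue 𝒪) hℓ hℓM hane hϖ.ne_zero hπϖ hxM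
    ((mem_part.mp hx).2 _ hmem) hb
  have hdvd : ∀ s r, ∃ c, x s r = ϖ * c := by
    intro s r
    have h1 : residue 𝒪 (x s r) = 0 := congrFun (congrFun hzero s) r
    rw [residue_eq_zero_iff, hϖ.maximalIdeal_eq, Ideal.mem_span_singleton] at h1
    exact h1
  choose z hz using hdvd
  have hxz : x = ϖ • (fun s r => z s r : Pairs 𝒪) := by
    funext s r
    rw [hz]; rfl
  refine ⟨_, ?_, hxz⟩
  rw [hxz] at hx
  exact saturated_partMS _ (saturated_sgnMS _ _) _ ϖ hϖ.ne_zero _ hx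

/-- the pairing restricted to submodules of `MS (Γ₀(M))`. -/
def brkRes (M : ℕ) [NeZero M] {X Y : Submodule 𝒪 (Pairs 𝒪)} (hX : X ≤ MS (Gamma0 M) 𝒪)
    (hY : Y ≤ MS (Gamma0 M) 𝒪) : X →ₗ[𝒪] Y →ₗ[𝒪] 𝒪 :=
  (brkL 𝒪 M).compl₁₂ (Submodule.inclusion hX) (Submodule.inclusion hY)

theorem brkRes_apply (M : ℕ) [NeZero M] {X Y : Submodule 𝒪 (Pairs 𝒪)} (hX : X ≤ MS (Gamma0 M) 𝒪)
    (hY : Y ≤ MS (Gamma0 M) 𝒪) (x : X) (y : Y) : brkRes M hX hY x y = brk M x.1 y.1 := rfl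

theorem part_sgn_le {M : ℕ} (ε : ℤ) (F : Set (Module.End 𝒪 (Pairs 𝒪))) :
    part (sgnMS 𝒪 ε (Gamma0 M)) F ≤ MS (Gamma0 M) 𝒪 := part_le.trans (sgnMS_le _ _)

/-- **(F2) Perfectness.** The pairing between the `ε`-part and the `-ε`-part of
`MS (Γ₀(M))_F` is perfect at a non-Eisenstein `F`. -/
theorem brkRes_bijective {M : ℕ} [NeZero M] {ι : Type*} {t : ι → Module.End 𝒪 (Pairs 𝒪)}
    (D : FamData M t) {p : ℕ} [Fact p.Prime] (hp : Odd p) (hp𝒪 : (p : 𝒪) ∈ maximalIdeal 𝒪)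
    {ℓ : ℕ} (hℓ : ℓ.Prime) (hℓM : ((ℓ : ℕ) : ZMod M) = 1) {a : 𝒪}
    (ha : IsUnit (a - (1 + ℓ))) (hmem : (heckeT ℓ - a • LinearMap.id : Module.End 𝒪 (Pairs 𝒪)) ∈
      Set.range t) {ε : ℤ} (hε : ε * ε = 1) :
    Function.Bijective (brkRes (𝒪 := 𝒪) M (part_sgn_le ε (Set.range t))
      (part_sgn_le (-ε) (Set.range t))) := by
  have hM := NeZero.ne M
  obtain ⟨ϖ, hϖ⟩ := IsDiscreteValuationRing.exists_irreducible 𝒪
  have i1 := finite_of_le_MS (𝒪 := 𝒪) hM (part_sgn_le (M := M) ε (Set.range t))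
  have i2 := finite_of_le_MS (𝒪 := 𝒪) hM (part_sgn_le (M := M) (-ε) (Set.range t))
  have i3 := free_of_le_MS (𝒪 := 𝒪) hM (part_sgn_le (M := M) ε (Set.range t))
  have i4 := free_of_le_MS (𝒪 := 𝒪) hM (part_sgn_le (M := M) (-ε) (Set.range t))
  have hϖm : ϖ ∈ maximalIdeal 𝒪 := (mem_maximalIdeal _).mpr hϖ.not_isUnit
  refine PerfectAlg.bijective_of_nondegenerate _ (fun x hx => ?_) (fun y hy => ?_)
  · obtain ⟨z, hz, hxz⟩ := exists_smul_of_brk hM D hp hp𝒪 hℓ hℓM ha hmem hε hϖ x.2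
      (fun y hy => hx ⟨y, hy⟩)
    have : x = ϖ • (⟨z, hz⟩ : part (sgnMS 𝒪 ε (Gamma0 M)) (Set.range t)) := Subtype.ext hxz
    rw [this]
    exact Submodule.smul_mem_smul hϖm trivial
  · have hε' : (-ε) * (-ε) = 1 := by rw [neg_mul_neg, hε]
    obtain ⟨z, hz, hyz⟩ := exists_smul_of_brk hM D hp hp𝒪 hℓ hℓM ha hmem hε' hϖ y.2
      (fun x hx => by
        rw [neg_neg] at hx
        have h1 := hy ⟨x, hx⟩
        rw [brkRes_apply] at h1
        rw [brk_swap hM (part_sgn_le _ _ hx) (part_sgn_le _ _ y.2)]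
        exact (Submodule.neg_mem_iff _).mpr h1)
    have : y = ϖ • (⟨z, hz⟩ : part (sgnMS 𝒪 (-ε) (Gamma0 M)) (Set.range t)) := Subtype.ext hyz
    rw [this]
    exact Submodule.smul_mem_smul hϖm trivial

end main

end Fermat.Agent.RT.Form
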