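import Fermat.Agent.RT.Defs
import Fermat.Agent.LR.Duality
import Fermat.Agent.Gamma0Count

/-!
# The normalised intersection form on modular symbols of finite level (team RT, helper30)

`K` a field of characteristic zero.  For modular symbols `x, y` with values in `K`, invariant under
some principal congruence subgroup, `nf x y = formSum Γ x y / [SL₂(ℤ):Γ]` for any `Γ ∋ -1` of finite
index fixing `x` and `y` (and containing some `Γ(N)`).  It is bilinear, alternating and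
`GL₂⁺(ℚ)`-invariant.  All adjointness formulas follow formally.
-/

set_option autoImplicit false

open Matrix Matrix.SpecialLinearGroup CongruenceSubgroup
open scoped MatrixGroups OnePoint

noncomputable section

namespace Fermat.Agent.RT.Form

open Fermat.Agent.LR Fermat.Agent.LR.PS

/-! ### `formSum` over a domain of characteristic zero -/

section Transfer

variable {K : Type*} [CommRing K] [IsDomain K] [CharZero K]

theorem formSum_sum_sum {R : Type*} [CommRing R] (Γ : Subgroup SL(2, ℤ)) [Γ.FiniteIndex]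
    {ι κ : Type*} (s : Finset ι) (t : Finset κ) (w : ι → R) (v : κ → R) (x : ι → Pairs R)
    (y : κ → Pairs R) :
    formSum Γ (∑ i ∈ s, w i • x i) (∑ j ∈ t, v j • y j) =
      ∑ i ∈ s, ∑ j ∈ t, w i * v j * formSum Γ (x i) (y j) := by
  classical
  have h1 : ∀ z : Pairs R, formSum Γ (∑ i ∈ s, w i • x i) z = ∑ i ∈ s, w i * formSum Γ (x i) z := by
    intro z
    induction s using Finset.induction_on with
    | empty =>
      simp only [Finset.sum_empty]
      have := formSum_smul_left Γ (0 : R) (0 : Pairs R) z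
      rwa [zero_smul, zero_mul] at this
    | insert a s ha ih => rw [Finset.sum_insert ha, Finset.sum_insert ha, formSum_add_left, ih,
        formSum_smul_left]
  have h2 : ∀ z : Pairs R, formSum Γ z (∑ j ∈ t, v j • y j) = ∑ j ∈ t, v j * formSum Γ z (y j) := by
    intro z
    induction t using Finset.induction_on with
    | empty =>
      simp only [Finset.sum_empty]
      have := formSum_smul_right Γ (0 : R) z (0 : Pairs R)
      rwa [zero_smul, zero_mul] at this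
    | insert a s ha ih => rw [Finset.sum_insert ha, Finset.sum_insert ha, formSum_add_right, ih,
        formSum_smul_right]
  rw [h1]
  refine Finset.sum_congr rfl fun i _ => ?_
  rw [h2, Finset.mul_sum]
  exact Finset.sum_congr rfl fun j _ => by ring

/-- **Conjugation invariance** over any domain of characteristic zero. -/
theorem formSum_conjK {Γ Γ' : Subgroup SL(2, ℤ)} [Γ.FiniteIndex] [Γ'.FiniteIndex]
    (hneg : (-1 : SL(2, ℤ)) ∈ Γ) (α : GL (Fin 2) ℚ)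
    (hα : 0 < (α : Matrix (Fin 2) (Fin 2) ℚ).det)
    (hconj : ∀ γ' ∈ Γ', ∃ γ ∈ Γ, α * toQ γ' = toQ γ * α) {x y : Pairs K}
    (hx : x ∈ MS Γ K) (hy : y ∈ MS Γ K) :
    (Γ.index : K) * formSum Γ' (slash α x) (slash α y) = Γ'.index * formSum Γ x y := by
  have hZ : ∀ x₀ ∈ MS Γ ℤ, ∀ y₀ ∈ MS Γ ℤ,
      (Γ.index : ℤ) * formSum Γ' (slash α x₀) (slash α y₀) = Γ'.index * formSum Γ x₀ y₀ := by
    intro x₀ hx₀ y₀ hy₀
    have h1 := formSum_conj hneg α hα hconj (mapCoeff_mem (Int.castRingHom ℚ) hx₀)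
      (mapCoeff_mem (Int.castRingHom ℚ) hy₀)
    rw [← mapCoeff_slash, ← mapCoeff_slash, formSum_mapCoeff, formSum_mapCoeff] at h1
    simp only [eq_intCast] at h1
    exact_mod_cast h1
  obtain ⟨n, w, x', -, hx', rfl⟩ := exists_int_decomp hx
  obtain ⟨m, v, y', -, hy', rfl⟩ := exists_int_decomp hy
  simp only [map_sum, map_smul]
  rw [formSum_sum_sum, formSum_sum_sum, Finset.mul_sum, Finset.mul_sum]
  refine Finset.sum_congr rfl fun i _ => ?_
  rw [Finset.mul_sum, Finset.mul_sum]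
  refine Finset.sum_congr rfl fun j _ => ?_
  rw [← mapCoeff_slash, ← mapCoeff_slash, formSum_mapCoeff, formSum_mapCoeff]
  have := congrArg (Int.cast : ℤ → K) (hZ _ (hx' i) _ (hy' j))
  push_cast at this
  simp only [eq_intCast]
  linear_combination (w i * v j) * this

theorem three_dvd_formSumK {Γ : Subgroup SL(2, ℤ)} [Γ.FiniteIndex] (hneg : (-1 : SL(2, ℤ)) ∈ Γ)
    {x y : Pairs K} (hx : x ∈ MS Γ K) (hy : y ∈ MS Γ K) : (3 : K) ∣ formSum Γ x y := by
  obtain ⟨n, w, x', -, hx', rfl⟩ := exists_int_decomp hx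
  obtain ⟨m, v, y', -, hy', rfl⟩ := exists_int_decomp hy
  rw [formSum_sum_sum]
  refine Finset.dvd_sum fun i _ => Finset.dvd_sum fun j _ => ?_
  rw [formSum_mapCoeff]
  refine Dvd.dvd.mul_left ?_ _
  have := map_dvd (Int.castRingHom K) (three_dvd_formSum hneg (hx' i) (hy' j))
  simpa using this

end Transfer

/-! ### groups of finite level containing `-1` -/

/-- `±Γ(N)`. -/
def Lev (N : ℕ) : Subgroup SL(2, ℤ) := Gamma N ⊔ Subgroup.zpowers (-1)

theorem Gamma_le_Lev (N : ℕ) : Gamma N ≤ Lev N := le_sup_left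

theorem neg_one_mem_Lev (N : ℕ) : (-1 : SL(2, ℤ)) ∈ Lev N :=
  (le_sup_right : _ ≤ Lev N) (Subgroup.mem_zpowers _)

instance instFiniteIndexLev (N : ℕ) [NeZero N] : (Lev N).FiniteIndex :=
  Subgroup.finiteIndex_of_le (Gamma_le_Lev N)

theorem Lev_le {N : ℕ} {Γ : Subgroup SL(2, ℤ)} (hneg : (-1 : SL(2, ℤ)) ∈ Γ) (h : Gamma N ≤ Γ) :
    Lev N ≤ Γ := sup_le h (by rwa [Subgroup.zpowers_le])

theorem Lev_le_Gamma0 {M N : ℕ} (h : M ∣ N) : Lev N ≤ Gamma0 M :=
  Lev_le (neg_one_mem_Gamma0 M) ((Gamma_le_Gamma0 N).trans (Gamma0_mono h))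

theorem Gamma_anti {M N : ℕ} (h : M ∣ N) : Gamma N ≤ Gamma M := by
  intro γ hγ
  rw [Gamma_mem] at hγ ⊢
  have key : ∀ a b : ℤ, (a : ZMod N) = (b : ZMod N) → (a : ZMod M) = (b : ZMod M) := by
    intro a b hab
    rw [← sub_eq_zero, ← Int.cast_sub, ZMod.intCast_zmod_eq_zero_iff_dvd] at hab ⊢
    exact (Int.natCast_dvd_natCast.mpr h).trans hab
  refine ⟨?_, ?_, ?_, ?_⟩
  · have := key (γ 0 0) 1 (by simpa using hγ.1); simpa using this
  · have := key (γ 0 1) 0 (by simpa using hγ.2.1); simpa using this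
  · have := key (γ 1 0) 0 (by simpa using hγ.2.2.1); simpa using this
  · have := key (γ 1 1) 1 (by simpa using hγ.2.2.2); simpa using this

theorem Lev_anti {M N : ℕ} (h : M ∣ N) : Lev N ≤ Lev M :=
  Lev_le (neg_one_mem_Lev M) ((Gamma_anti h).trans (Gamma_le_Lev M))

theorem toQ_one' : toQ (1 : SL(2, ℤ)) = 1 := map_one _

theorem slash_toQ_neg_one {R : Type*} [CommRing R] (x : Pairs R) :
    slash (toQ (-1)) x = x := by
  funext a b
  have h : ∀ c : Cusp, toQ (-1 : SL(2, ℤ)) • c = c := fun c => by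
    rw [toQ_neg_smul, toQ_one', one_smul]
  rw [slash_apply, h, h]

/-- the stabiliser of `x` in `SL(2,ℤ)`. -/
def stab {R : Type*} [CommRing R] (x : Pairs R) : Subgroup SL(2, ℤ) where
  carrier := {γ | slash (toQ γ) x = x}
  mul_mem' := by
    intro a b ha hb
    change slash (toQ (a * b)) x = x
    rw [toQ_mul, slash_mul, ha, hb]
  one_mem' := by
    change slash (toQ 1) x = x
    rw [toQ_one', slash_one]
  inv_mem' := by
    intro a ha
    change slash (toQ a⁻¹) x = x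
    have ha' : slash (toQ a) x = x := ha
    conv_lhs => rw [← ha']
    rw [← slash_mul, ← toQ_mul, mul_inv_cancel, toQ_one', slash_one]

theorem mem_stab {R : Type*} [CommRing R] {x : Pairs R} {γ : SL(2, ℤ)} :
    γ ∈ stab x ↔ slash (toQ γ) x = x := Iff.rfl

theorem mem_MS_Lev {R : Type*} [CommRing R] {N : ℕ} {x : Pairs R} :
    x ∈ MS (Lev N) R ↔ x ∈ MS (Gamma N) R := by
  refine ⟨fun h => MS_mono (Gamma_le_Lev N) h, fun h => ⟨h.1, fun γ hγ => ?_⟩⟩
  have : Lev N ≤ stab x := Lev_le (slash_toQ_neg_one x) fun γ hγ => h.2 γ hγ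
  exact this hγ

/-! ### the normalised form -/

section Norm

variable {K : Type*} [Field K] [CharZero K]

/-- normalised form at a given level. -/
def nfLev (N : ℕ) (x y : Pairs K) : K := formSum (Lev N) x y / (Lev N).index

theorem index_ne_zero (Γ : Subgroup SL(2, ℤ)) [Γ.FiniteIndex] : ((Γ.index : ℕ) : K) ≠ 0 :=
  Nat.cast_ne_zero.mpr Subgroup.FiniteIndex.index_ne_zero

/-- the normalised form is independent of the level and `GL₂⁺(ℚ)`-invariant. -/
theorem formSum_div {Γ Γ' : Subgroup SL(2, ℤ)} [Γ.FiniteIndex] [Γ'.FiniteIndex]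
    (hneg : (-1 : SL(2, ℤ)) ∈ Γ) (α : GL (Fin 2) ℚ)
    (hα : 0 < (α : Matrix (Fin 2) (Fin 2) ℚ).det)
    (hconj : ∀ γ' ∈ Γ', ∃ γ ∈ Γ, α * toQ γ' = toQ γ * α) {x y : Pairs K}
    (hx : x ∈ MS Γ K) (hy : y ∈ MS Γ K) :
    formSum Γ' (slash α x) (slash α y) / Γ'.index = formSum Γ x y / Γ.index := by
  have h := formSum_conjK hneg α hα hconj hx hy
  rw [div_eq_div_iff (index_ne_zero Γ') (index_ne_zero Γ)]
  linear_combination h

theorem formSum_div_of_le {Γ Γ' : Subgroup SL(2, ℤ)} [Γ.FiniteIndex] [Γ'.FiniteIndex]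
    (hneg : (-1 : SL(2, ℤ)) ∈ Γ) (hle : Γ' ≤ Γ) {x y : Pairs K}
    (hx : x ∈ MS Γ K) (hy : y ∈ MS Γ K) :
    formSum Γ' x y / Γ'.index = formSum Γ x y / Γ.index := by
  have h := formSum_div (Γ' := Γ') hneg 1 (by simp) (fun γ' hγ' => ⟨γ', hle hγ', by simp⟩) hx hy
  rwa [slash_one, slash_one] at h

open Classical in
/-- the normalised intersection form. -/
def nf (x y : Pairs K) : K :=
  if h : ∃ N : ℕ, N ≠ 0 ∧ x ∈ MS (Lev N) K ∧ y ∈ MS (Lev N) K then nfLev h.choose x y else 0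

theorem nf_eq_nfLev {N : ℕ} (hN : N ≠ 0) {x y : Pairs K} (hx : x ∈ MS (Lev N) K)
    (hy : y ∈ MS (Lev N) K) : nf x y = nfLev N x y := by
  have h : ∃ N : ℕ, N ≠ 0 ∧ x ∈ MS (Lev N) K ∧ y ∈ MS (Lev N) K := ⟨N, hN, hx, hy⟩
  rw [nf, dif_pos h]
  obtain ⟨hM, hx', hy'⟩ := h.choose_spec
  set M := h.choose
  have : NeZero N := ⟨hN⟩
  have : NeZero M := ⟨hM⟩
  have : NeZero (N * M) := ⟨mul_ne_zero hN hM⟩
  have h1 := formSum_div_of_le (neg_one_mem_Lev N) (Lev_anti (Dvd.intro M rfl : N ∣ N * M)) hx hy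
  have h2 := formSum_div_of_le (neg_one_mem_Lev M) (Lev_anti (Dvd.intro_left N rfl : M ∣ N * M))
    hx' hy'
  rw [nfLev, nfLev, ← h1, ← h2]

theorem nf_eq {Γ : Subgroup SL(2, ℤ)} [Γ.FiniteIndex] (hneg : (-1 : SL(2, ℤ)) ∈ Γ) {N : ℕ}
    (hN : N ≠ 0) (hle : Gamma N ≤ Γ) {x y : Pairs K} (hx : x ∈ MS Γ K) (hy : y ∈ MS Γ K) :
    nf x y = formSum Γ x y / Γ.index := by
  have : NeZero N := ⟨hN⟩
  have h := Lev_le hneg hle
  rw [nf_eq_nfLev hN (MS_mono h hx) (MS_mono h hy), nfLev, formSum_div_of_le hneg h hx hy]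

theorem nf_eq_Gamma0 {N : ℕ} (hN : N ≠ 0) {x y : Pairs K} (hx : x ∈ MS (Gamma0 N) K)
    (hy : y ∈ MS (Gamma0 N) K) : nf x y = formSum (Gamma0 N) x y / (Gamma0 N).index := by
  have : NeZero N := ⟨hN⟩
  exact nf_eq (neg_one_mem_Gamma0 N) hN (Gamma_le_Gamma0 N) hx hy

theorem formSum_eq_nf {N : ℕ} (hN : N ≠ 0) {x y : Pairs K} (hx : x ∈ MS (Gamma0 N) K)
    (hy : y ∈ MS (Gamma0 N) K) : formSum (Gamma0 N) x y = (Gamma0 N).index * nf x y := by
  have : NeZero N := ⟨hN⟩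
  rw [nf_eq_Gamma0 hN hx hy, mul_div_cancel₀ _ (index_ne_zero _)]

/-- modular symbols of finite (congruence) level. -/
def FL (K : Type*) [CommRing K] : Submodule K (Pairs K) where
  carrier := {x | ∃ N : ℕ, N ≠ 0 ∧ x ∈ MS (Lev N) K}
  zero_mem' := ⟨1, one_ne_zero, Submodule.zero_mem _⟩
  add_mem' := by
    rintro x y ⟨N, hN, hx⟩ ⟨M, hM, hy⟩
    exact ⟨N * M, mul_ne_zero hN hM, Submodule.add_mem _
      (MS_mono (Lev_anti (Dvd.intro M rfl)) hx) (MS_mono (Lev_anti (Dvd.intro_left N rfl)) hy)⟩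
  smul_mem' := by
    rintro c x ⟨N, hN, hx⟩
    exact ⟨N, hN, Submodule.smul_mem _ c hx⟩

theorem mem_FL {R : Type*} [CommRing R] {x : Pairs R} :
    x ∈ FL R ↔ ∃ N : ℕ, N ≠ 0 ∧ x ∈ MS (Lev N) R := Iff.rfl

theorem mem_FL_of_Gamma0 {R : Type*} [CommRing R] {N : ℕ} (hN : N ≠ 0) {x : Pairs R}
    (hx : x ∈ MS (Gamma0 N) R) : x ∈ FL R :=
  ⟨N, hN, MS_mono (Lev_le_Gamma0 dvd_rfl) hx⟩

theorem exists_common₂ {R : Type*} [CommRing R] {x y : Pairs R} (hx : x ∈ FL R) (hy : y ∈ FL R) :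
    ∃ N : ℕ, N ≠ 0 ∧ x ∈ MS (Lev N) R ∧ y ∈ MS (Lev N) R := by
  obtain ⟨N, hN, hx⟩ := hx
  obtain ⟨M, hM, hy⟩ := hy
  exact ⟨N * M, mul_ne_zero hN hM, MS_mono (Lev_anti (Dvd.intro M rfl)) hx,
    MS_mono (Lev_anti (Dvd.intro_left N rfl)) hy⟩

theorem exists_common₃ {R : Type*} [CommRing R] {x y z : Pairs R} (hx : x ∈ FL R) (hy : y ∈ FL R)
    (hz : z ∈ FL R) :
    ∃ N : ℕ, N ≠ 0 ∧ x ∈ MS (Lev N) R ∧ y ∈ MS (Lev N) R ∧ z ∈ MS (Lev N) R := by
  obtain ⟨N, hN, hx, hy⟩ := exists_common₂ hx hy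
  obtain ⟨M, hM, hz⟩ := hz
  exact ⟨N * M, mul_ne_zero hN hM, MS_mono (Lev_anti (Dvd.intro M rfl)) hx,
    MS_mono (Lev_anti (Dvd.intro M rfl)) hy, MS_mono (Lev_anti (Dvd.intro_left N rfl)) hz⟩

theorem nf_add_left {x x' y : Pairs K} (hx : x ∈ FL K) (hx' : x' ∈ FL K) (hy : y ∈ FL K) :
    nf (x + x') y = nf x y + nf x' y := by
  obtain ⟨N, hN, hx, hx', hy⟩ := exists_common₃ hx hx' hy
  have : NeZero N := ⟨hN⟩
  rw [nf_eq_nfLev hN (Submodule.add_mem _ hx hx') hy, nf_eq_nfLev hN hx hy,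
    nf_eq_nfLev hN hx' hy, nfLev, nfLev, nfLev, formSum_add_left, add_div]

theorem nf_smul_left (c : K) {x y : Pairs K} (hx : x ∈ FL K) (hy : y ∈ FL K) :
    nf (c • x) y = c * nf x y := by
  obtain ⟨N, hN, hx, hy⟩ := exists_common₂ hx hy
  have : NeZero N := ⟨hN⟩
  rw [nf_eq_nfLev hN (Submodule.smul_mem _ c hx) hy, nf_eq_nfLev hN hx hy, nfLev, nfLev,
    formSum_smul_left, mul_div_assoc]

theorem nf_swap {x y : Pairs K} (hx : x ∈ FL K) (hy : y ∈ FL K) : nf y x = - nf x y := by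
  obtain ⟨N, hN, hx, hy⟩ := exists_common₂ hx hy
  have : NeZero N := ⟨hN⟩
  rw [nf_eq_nfLev hN hy hx, nf_eq_nfLev hN hx hy, nfLev, nfLev, formSum_swap, neg_div]

theorem nf_add_right {x y y' : Pairs K} (hx : x ∈ FL K) (hy : y ∈ FL K) (hy' : y' ∈ FL K) :
    nf x (y + y') = nf x y + nf x y' := by
  rw [nf_swap (Submodule.add_mem _ hy hy') hx, nf_add_left hy hy' hx, nf_swap hx hy,
    nf_swap hx hy']
  ring

theorem nf_smul_right (c : K) {x y : Pairs K} (hx : x ∈ FL K) (hy : y ∈ FL K) :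
    nf x (c • y) = c * nf x y := by
  rw [nf_swap (Submodule.smul_mem _ c hy) hx, nf_smul_left c hy hx, nf_swap hx hy]
  ring

theorem nf_sub_left {x x' y : Pairs K} (hx : x ∈ FL K) (hx' : x' ∈ FL K) (hy : y ∈ FL K) :
    nf (x - x') y = nf x y - nf x' y := by
  have h := nf_smul_left (-1 : K) hx' hy
  rw [neg_one_smul] at h
  rw [sub_eq_add_neg, nf_add_left hx (Submodule.neg_mem _ hx') hy, h]
  ring

theorem nf_sub_right {x y y' : Pairs K} (hx : x ∈ FL K) (hy : y ∈ FL K) (hy' : y' ∈ FL K) :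
    nf x (y - y') = nf x y - nf x y' := by
  rw [nf_swap (Submodule.sub_mem _ hy hy') hx, nf_sub_left hy hy' hx, nf_swap hx hy,
    nf_swap hx hy']
  ring

theorem nf_zero_left {y : Pairs K} (hy : y ∈ FL K) : nf 0 y = 0 := by
  have h := nf_smul_left (0 : K) (Submodule.zero_mem (FL K)) hy
  rwa [zero_smul, zero_mul] at h

theorem nf_sum_left {ι : Type*} (s : Finset ι) (f : ι → Pairs K) (hf : ∀ i, f i ∈ FL K)
    {y : Pairs K} (hy : y ∈ FL K) : nf (∑ i ∈ s, f i) y = ∑ i ∈ s, nf (f i) y := by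
  classical
  induction s using Finset.induction_on with
  | empty => rw [Finset.sum_empty, Finset.sum_empty, nf_zero_left hy]
  | insert a s ha ih =>
    rw [Finset.sum_insert ha, Finset.sum_insert ha,
      nf_add_left (hf a) (Submodule.sum_mem _ fun i _ => hf i) hy, ih]

theorem exists_conj_level (α : GL (Fin 2) ℚ) {N : ℕ} (hN : N ≠ 0) : ∃ N' : ℕ, N' ≠ 0 ∧
    ∀ γ' ∈ Lev N', ∃ γ ∈ Lev N, α * toQ γ' = toQ γ * α := by
  have : NeZero N := ⟨hN⟩
  obtain ⟨N', hN', h⟩ := exists_Gamma_le_conj α N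
  refine ⟨N', hN', ?_⟩
  let H : Subgroup SL(2, ℤ) :=
    { carrier := {γ' | ∃ γ ∈ Lev N, α * toQ γ' = toQ γ * α}
      mul_mem' := by
        rintro a b ⟨γ, h1, e1⟩ ⟨δ, h2, e2⟩
        refine ⟨γ * δ, mul_mem h1 h2, ?_⟩
        rw [toQ_mul, ← mul_assoc, e1, mul_assoc, e2, ← mul_assoc, toQ_mul]
      one_mem' := ⟨1, one_mem _, by simp⟩
      inv_mem' := by
        rintro a ⟨γ, h1, e1⟩
        refine ⟨γ⁻¹, inv_mem h1, ?_⟩
        rw [toQ, toQ, map_inv, map_inv]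
        rw [eq_inv_mul_iff_mul_eq, ← mul_assoc, ← e1]
        group }
  have hH : Lev N' ≤ H := by
    refine Lev_le ⟨-1, neg_one_mem_Lev N, ?_⟩ fun γ' hγ' => ?_
    · apply Units.ext
      have h1 : (toQ (-1) : Matrix (Fin 2) (Fin 2) ℚ) = -1 := by
        ext i j
        rw [toQ_entry]
        fin_cases i <;> fin_cases j <;> simp
      rw [Units.val_mul, Units.val_mul, h1]
      simp
    · obtain ⟨γ, hγ, e⟩ := h γ' hγ'
      refine ⟨γ, Gamma_le_Lev N hγ, ?_⟩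
      have e' : toQ γ = α * toQ γ' * α⁻¹ := e
      rw [e', inv_mul_cancel_right]
  exact fun γ' hγ' => hH hγ'

theorem slash_mem_MS_of_conj {R : Type*} [CommRing R] {Γ Γ' : Subgroup SL(2, ℤ)} {α : GL (Fin 2) ℚ}
    (hconj : ∀ γ' ∈ Γ', ∃ γ ∈ Γ, α * toQ γ' = toQ γ * α) {x : Pairs R} (hx : x ∈ MS Γ R) :
    slash α x ∈ MS Γ' R := by
  refine ⟨slash_add_of_add hx.1 _, fun γ' hγ' => ?_⟩
  obtain ⟨γ, hγ, e⟩ := hconj γ' hγ'
  rw [← slash_mul, e, slash_toQ_mul_of_mem hx hγ]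

theorem slash_mem_FL {R : Type*} [CommRing R] (α : GL (Fin 2) ℚ) {x : Pairs R} (hx : x ∈ FL R) :
    slash α x ∈ FL R := by
  obtain ⟨N, hN, hx⟩ := hx
  obtain ⟨N', hN', h⟩ := exists_conj_level α hN
  exact ⟨N', hN', slash_mem_MS_of_conj h hx⟩

/-- **`GL₂⁺(ℚ)`-invariance of the normalised form.** -/
theorem nf_slash (α : GL (Fin 2) ℚ) (hα : 0 < (α : Matrix (Fin 2) (Fin 2) ℚ).det) {x y : Pairs K}
    (hx : x ∈ FL K) (hy : y ∈ FL K) : nf (slash α x) (slash α y) = nf x y := by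
  obtain ⟨N, hN, hx, hy⟩ := exists_common₂ hx hy
  obtain ⟨N', hN', h⟩ := exists_conj_level α hN
  have : NeZero N := ⟨hN⟩
  have : NeZero N' := ⟨hN'⟩
  rw [nf_eq_nfLev hN hx hy, nf_eq_nfLev hN' (slash_mem_MS_of_conj h hx)
    (slash_mem_MS_of_conj h hy), nfLev, nfLev, formSum_div (neg_one_mem_Lev N) α hα h hx hy]

end Norm

end Fermat.Agent.RT.Form
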