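import Fermat.Agent.RT.FormRaise

/-!
# The `w_M`-twisted intersection form over a domain of characteristic zero (team RT, helper30)

`brk M x y = form(x, y|w_M)`:
* `brk_heckeT`, `brk_heckeU`: Hecke operators are self-adjoint;
* `brk_raise`: `[i_q x, i_q y]_{Mq²} = (q-1) [((q+1)²-T_q²) x, y]_M`;
* `brk_raiseP`: `[i_p x, i_p y]_{Mp} = [(A²-1)(2A-T_p) x, y]_M`, `i_p x = A x - x|V_p`.
-/

set_option autoImplicit false
set_option linter.unusedSectionVars false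

open Matrix Matrix.SpecialLinearGroup CongruenceSubgroup
open scoped MatrixGroups OnePoint

noncomputable section

namespace Fermat.Agent.RT.Form

open Fermat.Agent.LR Fermat.Agent.LR.PS Fermat.Agent.Gamma0Count

section P

variable {K : Type*} [Field K] [CharZero K]

theorem wN_degen' {R : Type*} [CommRing R] {M q : ℕ} (hM : M ≠ 0) (hq : q ≠ 0) (x : Pairs R) :
    wN (M * q) (degen q x) = wN M x := by
  have := wN_degen (R := R) hM hq one_ne_zero x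
  rw [mul_one] at this
  rw [this, degen_wN hM one_ne_zero, mul_one]

/-- Level raising formula at level `Mq` (normalised form). -/
theorem nf_raiseP {M q : ℕ} (hM : M ≠ 0) (hq : q.Prime) (hqM : ¬ q ∣ M) {x y x' y' : Pairs K}
    (hx : x ∈ MS (Gamma0 M) K) (hy : y ∈ MS (Gamma0 M) K) (hx' : x' ∈ MS (Gamma0 M) K)
    (hy' : y' ∈ MS (Gamma0 M) K) :
    (q + 1 : K) * nf (x' - degen q x) (wN (M * q) (y' - degen q y)) =
      nf (heckeT q x') (wN M y') - (q + 1) * nf x' (wN M y) - (q + 1) * nf x (wN M y') +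
        nf (heckeT q x) (wN M y) := by
  have hq0 := hq.ne_zero
  rw [map_sub, wN_degen' hM hq0, ← degen_wN hM hq0 y']
  have hz := wN_mem hM hy
  have hz' := wN_mem hM hy'
  have hxF := mem_FL_of_Gamma0 hM hx
  have hxF' := mem_FL_of_Gamma0 hM hx'
  have hzF := mem_FL_of_Gamma0 hM hz
  have hzF' := mem_FL_of_Gamma0 hM hz'
  have v1 : nf (degen q x) (degen q (wN M y')) = nf x (wN M y') :=
    nf_slash _ (det_diagMat hq0) hxF hzF'
  have v2 := nf_heckeT_degen hM hq hqM hx' hz'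
  have v3 := nf_heckeT_degen hM hq hqM hx hz
  rw [nf_degen_comm hM hq hqM hx' hz'] at v2
  rw [nf_sub_left hxF' (degen_mem_FL hxF) (Submodule.sub_mem _ (degen_mem_FL hzF') hzF),
    nf_sub_right hxF' (degen_mem_FL hzF') hzF,
    nf_sub_right (degen_mem_FL hxF) (degen_mem_FL hzF') hzF, v1]
  linear_combination -v2 - v3

end P

/-! ### the involution `ι` -/

section iota

variable {R : Type*} [CommRing R]

theorem jMat_smul_coe (r : ℚ) : jMat • ((r : ℚ) : Cusp) = ((-r : ℚ) : Cusp) := by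
  rw [OnePoint.smul_some_eq_ite, val_jMat]
  simp

end iota

/-! ### formO -/

section formO

universe u

variable {𝒪 : Type u} [CommRing 𝒪] [IsDomain 𝒪] [CharZero 𝒪]

open Classical in
/-- the intersection form `formSum / 3`. -/
def formO (Γ : Subgroup SL(2, ℤ)) (x y : Pairs 𝒪) : 𝒪 :=
  if h : (3 : 𝒪) ∣ formSum Γ x y then h.choose else 0

theorem three_mul_formO {Γ : Subgroup SL(2, ℤ)} [Γ.FiniteIndex] (hneg : (-1 : SL(2, ℤ)) ∈ Γ)
    {x y : Pairs 𝒪} (hx : x ∈ MS Γ 𝒪) (hy : y ∈ MS Γ 𝒪) : 3 * formO Γ x y = formSum Γ x y := by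
  have h := three_dvd_formSumK hneg hx hy
  rw [formO, dif_pos h]
  exact h.choose_spec.symm

/-- the twisted form `[x, y]_M = form(x, y|w_M)`. -/
def brk (M : ℕ) (x y : Pairs 𝒪) : 𝒪 := formO (Gamma0 M) x (wN M y)

theorem three_mul_brk {M : ℕ} (hM : M ≠ 0) {x y : Pairs 𝒪} (hx : x ∈ MS (Gamma0 M) 𝒪)
    (hy : y ∈ MS (Gamma0 M) 𝒪) : 3 * brk M x y = formSum (Gamma0 M) x (wN M y) := by
  have : NeZero M := ⟨hM⟩
  exact three_mul_formO (neg_one_mem_Gamma0 M) hx (wN_mem hM hy)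

theorem three_ne_zero' : (3 : 𝒪) ≠ 0 := by exact_mod_cast (by norm_num : (3 : ℕ) ≠ 0)

theorem brk_ext {M : ℕ} (hM : M ≠ 0) {x y : Pairs 𝒪} (hx : x ∈ MS (Gamma0 M) 𝒪)
    (hy : y ∈ MS (Gamma0 M) 𝒪) {c : 𝒪} (h : formSum (Gamma0 M) x (wN M y) = 3 * c) :
    brk M x y = c :=
  mul_left_cancel₀ three_ne_zero' ((three_mul_brk hM hx hy).trans h)

theorem brk_add_left {M : ℕ} (hM : M ≠ 0) {x x' y : Pairs 𝒪} (hx : x ∈ MS (Gamma0 M) 𝒪)
    (hx' : x' ∈ MS (Gamma0 M) 𝒪) (hy : y ∈ MS (Gamma0 M) 𝒪) :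
    brk M (x + x') y = brk M x y + brk M x' y := by
  have : NeZero M := ⟨hM⟩
  refine brk_ext hM (Submodule.add_mem _ hx hx') hy ?_
  rw [formSum_add_left, mul_add, three_mul_brk hM hx hy, three_mul_brk hM hx' hy]

theorem brk_smul_left {M : ℕ} (hM : M ≠ 0) (c : 𝒪) {x y : Pairs 𝒪} (hx : x ∈ MS (Gamma0 M) 𝒪)
    (hy : y ∈ MS (Gamma0 M) 𝒪) : brk M (c • x) y = c * brk M x y := by
  have : NeZero M := ⟨hM⟩
  refine brk_ext hM (Submodule.smul_mem _ c hx) hy ?_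
  rw [formSum_smul_left, ← three_mul_brk hM hx hy]
  ring

theorem brk_add_right {M : ℕ} (hM : M ≠ 0) {x y y' : Pairs 𝒪} (hx : x ∈ MS (Gamma0 M) 𝒪)
    (hy : y ∈ MS (Gamma0 M) 𝒪) (hy' : y' ∈ MS (Gamma0 M) 𝒪) :
    brk M x (y + y') = brk M x y + brk M x y' := by
  have : NeZero M := ⟨hM⟩
  refine brk_ext hM hx (Submodule.add_mem _ hy hy') ?_
  rw [map_add, formSum_add_right, mul_add, three_mul_brk hM hx hy, three_mul_brk hM hx hy']

theorem brk_smul_right {M : ℕ} (hM : M ≠ 0) (c : 𝒪) {x y : Pairs 𝒪} (hx : x ∈ MS (Gamma0 M) 𝒪)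
    (hy : y ∈ MS (Gamma0 M) 𝒪) : brk M x (c • y) = c * brk M x y := by
  have : NeZero M := ⟨hM⟩
  refine brk_ext hM hx (Submodule.smul_mem _ c hy) ?_
  rw [map_smul, formSum_smul_right, ← three_mul_brk hM hx hy]
  ring

theorem brk_sub_right {M : ℕ} (hM : M ≠ 0) {x y y' : Pairs 𝒪} (hx : x ∈ MS (Gamma0 M) 𝒪)
    (hy : y ∈ MS (Gamma0 M) 𝒪) (hy' : y' ∈ MS (Gamma0 M) 𝒪) :
    brk M x (y - y') = brk M x y - brk M x y' := by
  have h := brk_smul_right hM (-1 : 𝒪) hx hy'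
  rw [neg_one_smul] at h
  rw [sub_eq_add_neg, brk_add_right hM hx hy (Submodule.neg_mem _ hy'), h]
  ring

theorem brk_sub_left {M : ℕ} (hM : M ≠ 0) {x x' y : Pairs 𝒪} (hx : x ∈ MS (Gamma0 M) 𝒪)
    (hx' : x' ∈ MS (Gamma0 M) 𝒪) (hy : y ∈ MS (Gamma0 M) 𝒪) :
    brk M (x - x') y = brk M x y - brk M x' y := by
  have h := brk_smul_left hM (-1 : 𝒪) hx' hy
  rw [neg_one_smul] at h
  rw [sub_eq_add_neg, brk_add_left hM hx (Submodule.neg_mem _ hx') hy, h]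
  ring

/-- The bracket as a bilinear map on `MS (Γ₀(M))`. -/
def brkL (𝒪 : Type u) [CommRing 𝒪] [IsDomain 𝒪] [CharZero 𝒪] (M : ℕ) [NeZero M] :
    MS (Gamma0 M) 𝒪 →ₗ[𝒪] MS (Gamma0 M) 𝒪 →ₗ[𝒪] 𝒪 :=
  LinearMap.mk₂ 𝒪 (fun x y => brk M x.1 y.1)
    (fun x x' y => brk_add_left (NeZero.ne M) x.2 x'.2 y.2)
    (fun c x y => brk_smul_left (NeZero.ne M) c x.2 y.2)
    (fun x y y' => brk_add_right (NeZero.ne M) x.2 y.2 y'.2)
    (fun c x y => brk_smul_right (NeZero.ne M) c x.2 y.2)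

theorem brkL_apply (M : ℕ) [NeZero M] (x y : MS (Gamma0 M) 𝒪) :
    brkL 𝒪 M x y = brk M x.1 y.1 := rfl

/-! #### comparison with the normalised form -/

theorem mapCoeff_smul' {K : Type*} [CommRing K] (f : 𝒪 →+* K) (c : 𝒪) (x : Pairs 𝒪) :
    mapCoeff f (c • x) = f c • mapCoeff f x := by
  funext a b
  simp [mapCoeff_apply]

theorem mapCoeff_raise {K : Type*} [CommRing K] (f : 𝒪 →+* K) (q : ℕ) (x : Pairs 𝒪) :
    mapCoeff f (raise q x) = raise q (mapCoeff f x) := by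
  rw [raise_apply, raise_apply, map_add, map_sub, mapCoeff_smul', mapCoeff_degen, mapCoeff_degen,
    mapCoeff_degen, mapCoeff_heckeT, map_natCast]

theorem three_mul_brk_eq_nf {K : Type*} [Field K] [CharZero K] (f : 𝒪 →+* K) {M : ℕ} (hM : M ≠ 0)
    {x y : Pairs 𝒪} (hx : x ∈ MS (Gamma0 M) 𝒪) (hy : y ∈ MS (Gamma0 M) 𝒪) :
    f (3 * brk M x y) = (Gamma0 M).index * nf (mapCoeff f x) (wN M (mapCoeff f y)) := by
  have : NeZero M := ⟨hM⟩
  rw [three_mul_brk hM hx hy, ← formSum_mapCoeff, mapCoeff_wN,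
    formSum_eq_nf hM (mapCoeff_mem f hx) (wN_mem hM (mapCoeff_mem f hy))]

theorem charZero_fractionRing : CharZero (FractionRing 𝒪) :=
  charZero_of_injective_algebraMap (IsFractionRing.injective 𝒪 (FractionRing 𝒪))

theorem brk_eq_of_nf {M M' : ℕ} (hM : M ≠ 0) (hM' : M' ≠ 0) {x y x' y' : Pairs 𝒪}
    (hx : x ∈ MS (Gamma0 M) 𝒪) (hy : y ∈ MS (Gamma0 M) 𝒪) (hx' : x' ∈ MS (Gamma0 M') 𝒪)
    (hy' : y' ∈ MS (Gamma0 M') 𝒪)
    (h : ∀ (K : Type u) [Field K] [CharZero K] (f : 𝒪 →+* K),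
      ((Gamma0 M).index : K) * nf (mapCoeff f x) (wN M (mapCoeff f y)) =
      (Gamma0 M').index * nf (mapCoeff f x') (wN M' (mapCoeff f y'))) :
    brk M x y = brk M' x' y' := by
  have : CharZero (FractionRing 𝒪) := charZero_fractionRing
  have h1 := h (FractionRing 𝒪) (algebraMap 𝒪 (FractionRing 𝒪))
  rw [← three_mul_brk_eq_nf _ hM hx hy, ← three_mul_brk_eq_nf _ hM' hx' hy'] at h1
  exact mul_left_cancel₀ three_ne_zero' (IsFractionRing.injective 𝒪 (FractionRing 𝒪) h1)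

/-- `T_ℓ` is self-adjoint. -/
theorem brk_heckeT {M ℓ : ℕ} (hM : M ≠ 0) (hℓ : ℓ.Prime) (hℓM : ¬ ℓ ∣ M) {x y : Pairs 𝒪}
    (hx : x ∈ MS (Gamma0 M) 𝒪) (hy : y ∈ MS (Gamma0 M) 𝒪) :
    brk M (heckeT ℓ x) y = brk M x (heckeT ℓ y) := by
  refine brk_eq_of_nf hM hM (heckeT_mem_MS hℓ hℓM hx) hy hx (heckeT_mem_MS hℓ hℓM hy) ?_
  intro K _ _ f
  rw [mapCoeff_heckeT, mapCoeff_heckeT,
    nf_heckeT_wN_comm hM hℓ hℓM (mapCoeff_mem f hx) (mapCoeff_mem f hy)]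

/-- `U_r` is self-adjoint, `r ∣ M`. -/
theorem brk_heckeU {M r : ℕ} (hM : M ≠ 0) (hr : r ≠ 0) (hrM : r ∣ M) {x y : Pairs 𝒪}
    (hx : x ∈ MS (Gamma0 M) 𝒪) (hy : y ∈ MS (Gamma0 M) 𝒪) :
    brk M (heckeU r x) y = brk M x (heckeU r y) := by
  have : NeZero r := ⟨hr⟩
  refine brk_eq_of_nf hM hM (heckeU_mem_MS hrM hx) hy hx (heckeU_mem_MS hrM hy) ?_
  intro K _ _ f
  rw [mapCoeff_heckeU, mapCoeff_heckeU, nf_heckeU_comm hM hr (mapCoeff_mem f hx)
    (mapCoeff_mem f hy)]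

/-- the bracket is alternating. -/
theorem brk_swap {M : ℕ} (hM : M ≠ 0) {x y : Pairs 𝒪}
    (hx : x ∈ MS (Gamma0 M) 𝒪) (hy : y ∈ MS (Gamma0 M) 𝒪) : brk M y x = - brk M x y := by
  have h0 : brk M y x = brk M ((-1 : 𝒪) • x) y := by
    refine brk_eq_of_nf hM hM hy hx (Submodule.smul_mem _ _ hx) hy ?_
    intro K _ _ f
    have hxF := mem_FL_of_Gamma0 hM (mapCoeff_mem f hx)
    have hyF := mem_FL_of_Gamma0 hM (mapCoeff_mem f hy)
    rw [← nf_wN_left hM hyF hxF, nf_swap hxF (wN_mem_FL hyF), mapCoeff_smul',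
      nf_smul_left _ hxF (wN_mem_FL hyF), map_neg, map_one]
    ring
  rw [h0, brk_smul_left hM _ hx hy]
  ring

theorem index_Gamma0_mul {M q : ℕ} (hM : M ≠ 0) (hq : q.Prime) (hqM : ¬ q ∣ M) :
    (Gamma0 (M * q)).index = (q + 1) * (Gamma0 M).index := by
  have : NeZero M := ⟨hM⟩
  have : NeZero (M * q) := ⟨mul_ne_zero hM hq.ne_zero⟩
  have hcop : Nat.Coprime M q := ((Nat.Prime.coprime_iff_not_dvd hq).mpr hqM).symm
  have h := dedekindPsi_prime_pow (p := q) (k := 0) hq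
  rw [zero_add, pow_one, pow_zero] at h
  rw [index_Gamma0, index_Gamma0, dedekindPsi_mul hcop, h, mul_comm]

theorem index_Gamma0_mul_sq {M q : ℕ} (hM : M ≠ 0) (hq : q.Prime) (hqM : ¬ q ∣ M) :
    (Gamma0 (M * q ^ 2)).index = q * (q + 1) * (Gamma0 M).index := by
  have : NeZero M := ⟨hM⟩
  have : NeZero (M * q ^ 2) := ⟨mul_ne_zero hM (pow_ne_zero 2 hq.ne_zero)⟩
  have hcop : Nat.Coprime M (q ^ 2) :=
    (((Nat.Prime.coprime_iff_not_dvd hq).mpr hqM).symm).pow_right 2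
  have h := dedekindPsi_prime_pow (p := q) (k := 1) hq
  rw [one_add_one_eq_two, pow_one] at h
  rw [index_Gamma0, index_Gamma0, dedekindPsi_mul hcop, h]
  ring

/-- **Level raising formula**: `[i_q x, i_q y]_{Mq²} = (q-1) [((q+1)²-T_q²) x, y]_M`. -/
theorem brk_raise {M q : ℕ} (hM : M ≠ 0) (hq : q.Prime) (hqM : ¬ q ∣ M) {x y : Pairs 𝒪}
    (hx : x ∈ MS (Gamma0 M) 𝒪) (hy : y ∈ MS (Gamma0 M) 𝒪) :
    brk (M * q ^ 2) (raise q x) (raise q y) =
      ((q : 𝒪) - 1) * brk M (((q : 𝒪) + 1) ^ 2 • x - heckeT q (heckeT q x)) y := by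
  have hTx := heckeT_mem_MS hq hqM hx
  have hTTx := heckeT_mem_MS hq hqM hTx
  have hmem := Submodule.sub_mem _ (Submodule.smul_mem _ (((q : 𝒪) + 1) ^ 2) hx) hTTx
  rw [← brk_smul_left hM _ hmem hy]
  refine brk_eq_of_nf (mul_ne_zero hM (pow_ne_zero 2 hq.ne_zero)) hM (raise_mem hq hqM hx)
    (raise_mem hq hqM hy) (Submodule.smul_mem _ _ hmem) hy ?_
  intro K _ _ f
  have hcx := mapCoeff_mem f hx
  have hcy := mapCoeff_mem f hy
  have hcT := heckeT_mem_MS hq hqM hcx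
  have hcTT := heckeT_mem_MS hq hqM hcT
  have hcm := Submodule.sub_mem _
    (Submodule.smul_mem _ (((q : K) + 1) ^ 2) hcx) hcTT
  have key := nf_raise hM hq hqM hcx hcy
  rw [mapCoeff_raise, mapCoeff_raise, mapCoeff_smul', map_sub (mapCoeff f), mapCoeff_smul',
    mapCoeff_heckeT, mapCoeff_heckeT, index_Gamma0_mul_sq hM hq hqM]
  simp only [map_sub, map_pow, map_add, map_natCast, map_one]
  rw [nf_smul_left _ (mem_FL_of_Gamma0 hM hcm) (mem_FL_of_Gamma0 hM (wN_mem hM hcy))]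
  push_cast
  linear_combination ((Gamma0 M).index : K) * key

/-- **Level raising formula at level `Mp`**, element form: `x' = A x`, `y' = A y`. -/
theorem brk_raiseP {M q : ℕ} (hM : M ≠ 0) (hq : q.Prime) (hqM : ¬ q ∣ M) {x y x' y' : Pairs 𝒪}
    (hx : x ∈ MS (Gamma0 M) 𝒪) (hy : y ∈ MS (Gamma0 M) 𝒪) (hx' : x' ∈ MS (Gamma0 M) 𝒪)
    (hy' : y' ∈ MS (Gamma0 M) 𝒪) :
    brk (M * q) (x' - degen q x) (y' - degen q y) =
      brk M (heckeT q x') y' - (q + 1) * brk M x' y - (q + 1) * brk M x y' +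
        brk M (heckeT q x) y := by
  have hM' : M * q ≠ 0 := mul_ne_zero hM hq.ne_zero
  have h1 : ∀ {z : Pairs 𝒪}, z ∈ MS (Gamma0 M) 𝒪 → z ∈ MS (Gamma0 (M * q)) 𝒪 :=
    fun h => MS_mono (Gamma0_mono (dvd_mul_right M q)) h
  have hl := Submodule.sub_mem _ (h1 hx') (degen_mem hq.ne_zero hx)
  have hr := Submodule.sub_mem _ (h1 hy') (degen_mem hq.ne_zero hy)
  have : CharZero (FractionRing 𝒪) := charZero_fractionRing
  refine mul_left_cancel₀ three_ne_zero' (IsFractionRing.injective 𝒪 (FractionRing 𝒪) ?_)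
  have key : ∀ (K : Type u) [Field K] [CharZero K] (f : 𝒪 →+* K),
      f (3 * brk (M * q) (x' - degen q x) (y' - degen q y)) =
      f (3 * (brk M (heckeT q x') y' - (q + 1) * brk M x' y - (q + 1) * brk M x y' +
        brk M (heckeT q x) y)) := by
    intro K _ _ f
    have e0 : (3 * (brk M (heckeT q x') y' - (q + 1) * brk M x' y - (q + 1) * brk M x y' +
        brk M (heckeT q x) y)) = 3 * brk M (heckeT q x') y' - (q + 1) * (3 * brk M x' y) -
          (q + 1) * (3 * brk M x y') + 3 * brk M (heckeT q x) y := by ring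
    rw [e0, map_add f, map_sub f, map_sub f, map_mul f _ (3 * brk M x' y),
      map_mul f _ (3 * brk M x y'), map_add f, map_natCast, map_one,
      three_mul_brk_eq_nf f hM' hl hr, three_mul_brk_eq_nf f hM (heckeT_mem_MS hq hqM hx') hy',
      three_mul_brk_eq_nf f hM hx' hy, three_mul_brk_eq_nf f hM hx hy',
      three_mul_brk_eq_nf f hM (heckeT_mem_MS hq hqM hx) hy, index_Gamma0_mul hM hq hqM,
      map_sub (mapCoeff f), map_sub (mapCoeff f), mapCoeff_degen, mapCoeff_degen,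
      mapCoeff_heckeT, mapCoeff_heckeT]
    have := nf_raiseP hM hq hqM (mapCoeff_mem f hx) (mapCoeff_mem f hy) (mapCoeff_mem f hx')
      (mapCoeff_mem f hy')
    push_cast
    linear_combination ((Gamma0 M).index : K) * this
  exact key (FractionRing 𝒪) (algebraMap 𝒪 (FractionRing 𝒪))

end formO

end Fermat.Agent.RT.Form
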