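import Fermat.Agent.RT.Defs
import Fermat.Agent.RT.FiniteComplete

/-!
# Fitting decompositions over a complete discrete valuation ring (team RT, helper59)

For a commuting family `t : ι → End 𝒪 N` on a finite module over a complete DVR with finite
residue field we construct the projector onto `npart t = ⨅ i, nilSub (t i)`, which commutes with
everything commuting with the family.
-/

set_option autoImplicit false
set_option linter.unusedSectionVars false

open IsLocalRing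

noncomputable section

namespace Fermat.Agent.RT.Loc

open Fermat.Agent.RT

section Fitting

variable {𝒪 : Type*} [CommRing 𝒪] [IsDomain 𝒪] [IsDiscreteValuationRing 𝒪]
  [IsAdicComplete (maximalIdeal 𝒪) 𝒪] [Finite (ResidueField 𝒪)]
variable {N : Type*} [AddCommGroup N] [Module 𝒪 N]

/-- `𝔪^k N`. -/
abbrev mN (𝒪 : Type*) [CommRing 𝒪] [IsLocalRing 𝒪] (N : Type*) [AddCommGroup N] [Module 𝒪 N]
    (k : ℕ) : Submodule 𝒪 N := maximalIdeal 𝒪 ^ k • (⊤ : Submodule 𝒪 N)

theorem exists_mem_mN {c : 𝒪} (hc : c ≠ 0) :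
    ∃ k, ∀ x ∈ mN 𝒪 N k, ∃ z, x = c • z := by
  obtain ⟨ϖ, hϖ⟩ := IsDiscreteValuationRing.exists_irreducible 𝒪
  obtain ⟨n, u, rfl⟩ := IsDiscreteValuationRing.eq_unit_mul_pow_irreducible hc hϖ
  refine ⟨n, fun x hx => ?_⟩
  rw [mN, hϖ.maximalIdeal_eq, Ideal.span_singleton_pow, Submodule.ideal_span_singleton_smul] at hx
  obtain ⟨z, -, rfl⟩ := Submodule.mem_smul_pointwise_iff_exists _ _ _ |>.mp hx
  refine ⟨(↑u⁻¹ : 𝒪) • z, ?_⟩
  rw [smul_smul, mul_right_comm, Units.mul_inv, one_mul]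

theorem exists_smul_mem_mN (k : ℕ) : ∃ c : 𝒪, c ≠ 0 ∧ ∀ z : N, c • z ∈ mN 𝒪 N k := by
  obtain ⟨ϖ, hϖ⟩ := IsDiscreteValuationRing.exists_irreducible 𝒪
  refine ⟨ϖ ^ k, pow_ne_zero _ hϖ.ne_zero, fun z => Submodule.smul_mem_smul ?_ trivial⟩
  rw [hϖ.maximalIdeal_eq]
  exact Ideal.pow_mem_pow (Ideal.mem_span_singleton_self ϖ) k

theorem mem_nilSub_iff {T : Module.End 𝒪 N} {x : N} :
    x ∈ nilSub T ↔ ∀ k, ∃ n, (T ^ n) x ∈ mN 𝒪 N k := by
  constructor
  · intro h k
    obtain ⟨c, hc, h1⟩ := exists_smul_mem_mN (N := N) (𝒪 := 𝒪) k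
    obtain ⟨n, z, hz⟩ := h c hc
    exact ⟨n, hz ▸ h1 z⟩
  · intro h c hc
    obtain ⟨k, hk⟩ := exists_mem_mN (N := N) hc
    obtain ⟨n, hn⟩ := h k
    obtain ⟨z, hz⟩ := hk _ hn
    exact ⟨n, z, hz⟩

theorem map_mem_mN {N' : Type*} [AddCommGroup N'] [Module 𝒪 N'] (f : N →ₗ[𝒪] N')
    {k : ℕ} {x : N} (hx : x ∈ mN 𝒪 N k) : f x ∈ mN 𝒪 N' k := by
  have h : (mN 𝒪 N k).map f ≤ mN 𝒪 N' k := by
    rw [mN, Submodule.map_smul'']
    exact smul_mono_right _ le_top
  exact h ⟨x, hx, rfl⟩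

/-- The "unit part" of `T`. -/
def unitSub (T : Module.End 𝒪 N) : Submodule 𝒪 N where
  carrier := {x | ∀ k n : ℕ, ∃ y, x - (T ^ n) y ∈ mN 𝒪 N k}
  zero_mem' := fun k n => ⟨0, by simp⟩
  add_mem' := by
    intro x y hx hy k n
    obtain ⟨a, ha⟩ := hx k n
    obtain ⟨b, hb⟩ := hy k n
    refine ⟨a + b, ?_⟩
    have := add_mem ha hb
    rwa [← add_sub_add_comm, ← map_add] at this
  smul_mem' := by
    intro c x hx k n
    obtain ⟨a, ha⟩ := hx k n
    refine ⟨c • a, ?_⟩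
    rw [map_smul, ← smul_sub]
    exact Submodule.smul_mem _ c ha

theorem mem_unitSub {T : Module.End 𝒪 N} {x : N} :
    x ∈ unitSub T ↔ ∀ k n : ℕ, ∃ y, x - (T ^ n) y ∈ mN 𝒪 N k := Iff.rfl

section mod

variable [Module.Finite 𝒪 N] (T : Module.End 𝒪 N) (k : ℕ)

theorem finite_quot : Finite (N ⧸ mN 𝒪 N k) := by
  have h1 : Finite (𝒪 ⧸ maximalIdeal 𝒪) := ‹Finite (ResidueField 𝒪)›
  have h2 : Finite (𝒪 ⧸ maximalIdeal 𝒪 ^ k) :=
    Ideal.finite_quotient_pow (maximalIdeal 𝒪).fg_of_isNoetherianRing k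
  have h3 : Module.Finite (𝒪 ⧸ maximalIdeal 𝒪 ^ k) (N ⧸ mN 𝒪 N k) :=
    Module.Finite.of_restrictScalars_finite 𝒪 _ _
  exact Module.finite_of_finite (𝒪 ⧸ maximalIdeal 𝒪 ^ k)

/-- `T` modulo `𝔪^k`. -/
def modT (T : Module.End 𝒪 N) (k : ℕ) : Module.End 𝒪 (N ⧸ mN 𝒪 N k) :=
  (mN 𝒪 N k).mapQ (mN 𝒪 N k) T fun _ hx => map_mem_mN T hx

theorem modT_pow_mk (n : ℕ) (x : N) :
    (modT T k ^ n) (Submodule.Quotient.mk x) = Submodule.Quotient.mk ((T ^ n) x) := by
  induction n with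
  | zero => rfl
  | succ n ih =>
    rw [pow_succ', Module.End.mul_apply, ih, pow_succ', Module.End.mul_apply]
    rfl

theorem isCompl_mod : IsCompl (⨆ n, ((modT T k) ^ n).ker) (⨅ n, ((modT T k) ^ n).range) := by
  have := finite_quot (𝒪 := 𝒪) (N := N) k
  have h1 : IsArtinian 𝒪 (N ⧸ mN 𝒪 N k) := isArtinian_of_finite
  exact LinearMap.isCompl_iSup_ker_pow_iInf_range_pow (modT T k)

theorem mem_iSup_ker {x : N} :
    (Submodule.Quotient.mk x : N ⧸ mN 𝒪 N k) ∈ ⨆ n, ((modT T k) ^ n).ker ↔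
      ∃ n, (T ^ n) x ∈ mN 𝒪 N k := by
  have hd : Directed (· ≤ ·) fun n => ((modT T k) ^ n).ker := by
    refine Monotone.directed_le fun a b hab y hy => ?_
    obtain ⟨c, rfl⟩ := Nat.exists_eq_add_of_le hab
    rw [LinearMap.mem_ker] at hy ⊢
    rw [add_comm, pow_add, Module.End.mul_apply, hy, map_zero]
  rw [Submodule.mem_iSup_of_directed _ hd]
  refine exists_congr fun n => ?_
  rw [LinearMap.mem_ker, modT_pow_mk, Submodule.Quotient.mk_eq_zero]

theorem mem_iInf_range {x : N} :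
    (Submodule.Quotient.mk x : N ⧸ mN 𝒪 N k) ∈ ⨅ n, ((modT T k) ^ n).range ↔
      ∀ n, ∃ y, x - (T ^ n) y ∈ mN 𝒪 N k := by
  rw [Submodule.mem_iInf]
  refine forall_congr' fun n => ?_
  constructor
  · rintro ⟨y, hy⟩
    obtain ⟨y, rfl⟩ := Submodule.Quotient.mk_surjective _ y
    refine ⟨y, ?_⟩
    rw [modT_pow_mk] at hy
    exact (Submodule.Quotient.eq _).mp hy.symm
  · rintro ⟨y, hy⟩
    refine ⟨Submodule.Quotient.mk y, ?_⟩
    rw [modT_pow_mk]
    exact ((Submodule.Quotient.eq _).mpr hy).symm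

end mod

variable [Module.Finite 𝒪 N]

theorem isHausdorff_of_finite :
    IsHausdorff (maximalIdeal 𝒪) N := by
  refine ⟨fun x hx => ?_⟩
  have h := Ideal.iInf_pow_smul_eq_bot_of_isLocalRing (R := 𝒪) (M := N) (maximalIdeal 𝒪)
    (Ideal.IsPrime.ne_top inferInstance)
  have hx' : x ∈ (⨅ i : ℕ, maximalIdeal 𝒪 ^ i • (⊤ : Submodule 𝒪 N)) := by
    rw [Submodule.mem_iInf]
    intro i
    have := hx i
    rwa [SModEq.zero] at this
  rw [h] at hx'
  exact (Submodule.mem_bot _).mp hx'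

theorem disjoint_nil_unit (T : Module.End 𝒪 N) : Disjoint (nilSub T) (unitSub T) := by
  rw [Submodule.disjoint_def]
  intro x h1 h2
  have hH : IsHausdorff (maximalIdeal 𝒪) N := isHausdorff_of_finite
  refine hH.haus x fun k => ?_
  rw [SModEq.zero]
  have h3 := (Submodule.disjoint_def.mp (isCompl_mod T k).disjoint) (Submodule.Quotient.mk x)
    ((mem_iSup_ker T k).mpr (mem_nilSub_iff.mp h1 k)) ((mem_iInf_range T k).mpr (h2 k))
  exact (Submodule.Quotient.mk_eq_zero _).mp h3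

theorem codisjoint_nil_unit (T : Module.End 𝒪 N) (x : N) :
    ∃ y ∈ nilSub T, x - y ∈ unitSub T := by
  have hP : IsPrecomplete (maximalIdeal 𝒪) N := FiniteComplete.isPrecomplete_of_finite
  -- decomposition at each level
  have hdec : ∀ k, ∃ y : N, (∃ n, (T ^ n) y ∈ mN 𝒪 N k) ∧
      ∀ n, ∃ w, (x - y) - (T ^ n) w ∈ mN 𝒪 N k := by
    intro k
    have h1 : (Submodule.Quotient.mk x : N ⧸ mN 𝒪 N k) ∈
        (⨆ n, ((modT T k) ^ n).ker) ⊔ (⨅ n, ((modT T k) ^ n).range) := by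
      rw [(isCompl_mod T k).sup_eq_top]; trivial
    obtain ⟨a, ha, b, hb, hab⟩ := Submodule.mem_sup.mp h1
    obtain ⟨a, rfl⟩ := Submodule.Quotient.mk_surjective _ a
    refine ⟨a, (mem_iSup_ker T k).mp ha, (mem_iInf_range T k).mp ?_⟩
    rw [Submodule.Quotient.mk_sub, ← hab, add_sub_cancel_left]
    exact hb
  choose y hy1 hy2 using hdec
  have hmono : ∀ {m n : ℕ}, m ≤ n → mN 𝒪 N n ≤ mN 𝒪 N m := fun {m n} h =>
    Submodule.smul_mono_left (Ideal.pow_le_pow_right h)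
  obtain ⟨L, hL⟩ := hP.prec (f := y) (by
    intro m n hmn
    have h1 : (Submodule.Quotient.mk (y m - y n) : N ⧸ mN 𝒪 N m) = 0 := by
      refine (Submodule.disjoint_def.mp (isCompl_mod T m).disjoint) _ ?_ ?_
      · rw [Submodule.Quotient.mk_sub]
        refine Submodule.sub_mem _ ((mem_iSup_ker T m).mpr (hy1 m)) ((mem_iSup_ker T m).mpr ?_)
        obtain ⟨j, hj⟩ := hy1 n
        exact ⟨j, hmono hmn hj⟩
      · have : y m - y n = (x - y n) - (x - y m) := by abel
        rw [this, Submodule.Quotient.mk_sub]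
        refine Submodule.sub_mem _ ((mem_iInf_range T m).mpr fun j => ?_)
          ((mem_iInf_range T m).mpr (hy2 m))
        obtain ⟨w, hw⟩ := hy2 n j
        exact ⟨w, hmono hmn hw⟩
    rw [SModEq.sub_mem]
    exact (Submodule.Quotient.mk_eq_zero _).mp h1)
  refine ⟨L, mem_nilSub_iff.mpr fun k => ?_, fun k n => ?_⟩
  · obtain ⟨n, hn⟩ := hy1 k
    refine ⟨n, ?_⟩
    have h2 := SModEq.sub_mem.mp (hL k)
    have h3 := map_mem_mN (T ^ n) h2
    rw [map_sub] at h3
    have := sub_mem hn h3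
    rwa [sub_sub_cancel] at this
  · obtain ⟨w, hw⟩ := hy2 k n
    refine ⟨w, ?_⟩
    have h2 := SModEq.sub_mem.mp (hL k)
    have : x - L - (T ^ n) w = (x - y k - (T ^ n) w) + (y k - L) := by abel
    rw [this]
    exact add_mem hw h2

theorem isCompl_nil_unit (T : Module.End 𝒪 N) : IsCompl (nilSub T) (unitSub T) := by
  refine ⟨disjoint_nil_unit T, codisjoint_iff.mpr (top_le_iff.mp fun x _ => ?_)⟩
  obtain ⟨y, hy, hxy⟩ := codisjoint_nil_unit T x
  rw [← add_sub_cancel y x]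
  exact Submodule.add_mem_sup hy hxy

end Fitting

section intertwine

variable {𝒪 : Type*} [CommRing 𝒪] [IsDomain 𝒪] [IsDiscreteValuationRing 𝒪]
  [IsAdicComplete (maximalIdeal 𝒪) 𝒪] [Finite (ResidueField 𝒪)]
variable {N : Type*} [AddCommGroup N] [Module 𝒪 N] {N' : Type*} [AddCommGroup N'] [Module 𝒪 N']

theorem pow_comm_apply {T : Module.End 𝒪 N} {T' : Module.End 𝒪 N'} {f : N →ₗ[𝒪] N'}
    (hf : ∀ x, f (T x) = T' (f x)) (n : ℕ) (x : N) : f ((T ^ n) x) = (T' ^ n) (f x) := by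
  induction n generalizing x with
  | zero => rfl
  | succ n ih => rw [pow_succ, Module.End.mul_apply, ih, hf, pow_succ, Module.End.mul_apply]

theorem map_mem_nilSub {T : Module.End 𝒪 N} {T' : Module.End 𝒪 N'} {f : N →ₗ[𝒪] N'}
    (hf : ∀ x, f (T x) = T' (f x)) {x : N} (hx : x ∈ nilSub T) : f x ∈ nilSub T' := by
  intro c hc
  obtain ⟨n, z, hz⟩ := hx c hc
  exact ⟨n, f z, by rw [← pow_comm_apply hf, hz, map_smul]⟩

theorem map_mem_unitSub {T : Module.End 𝒪 N} {T' : Module.End 𝒪 N'} {f : N →ₗ[𝒪] N'}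
    (hf : ∀ x, f (T x) = T' (f x)) {x : N} (hx : x ∈ unitSub T) : f x ∈ unitSub T' := by
  intro k n
  obtain ⟨y, hy⟩ := hx k n
  refine ⟨f y, ?_⟩
  rw [← pow_comm_apply hf, ← map_sub]
  exact map_mem_mN f hy

end intertwine

section proj

variable {𝒪 : Type*} [CommRing 𝒪] [IsDomain 𝒪] [IsDiscreteValuationRing 𝒪]
  [IsAdicComplete (maximalIdeal 𝒪) 𝒪] [Finite (ResidueField 𝒪)]
variable {N : Type*} [AddCommGroup N] [Module 𝒪 N] [Module.Finite 𝒪 N]
variable {N' : Type*} [AddCommGroup N'] [Module 𝒪 N'] [Module.Finite 𝒪 N']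

/-- The Fitting projector of a single operator. -/
theorem exists_fitting (T : Module.End 𝒪 N) : ∃ P : Module.End 𝒪 N,
    (∀ x, P x ∈ nilSub T) ∧ (∀ x ∈ nilSub T, P x = x) ∧ (∀ x, P x = 0 ↔ x ∈ unitSub T) ∧
    ∀ s : Module.End 𝒪 N, (∀ x, s (T x) = T (s x)) → ∀ x, P (s x) = s (P x) := by
  have hc := isCompl_nil_unit T
  have key : ∀ x y z : N, y ∈ nilSub T → z ∈ nilSub T → x - y ∈ unitSub T → x - z ∈ unitSub T →
      y = z := by
    intro x y z hy hz h1 h2
    have h3 : y - z ∈ unitSub T := by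
      have := sub_mem h2 h1
      rwa [sub_sub_sub_cancel_left] at this
    exact sub_eq_zero.mp ((Submodule.disjoint_def.mp hc.disjoint) _ (sub_mem hy hz) h3)
  choose P hP1 hP2 using codisjoint_nil_unit (𝒪 := 𝒪) T
  let P' : Module.End 𝒪 N :=
    { toFun := P
      map_add' := fun x y => key (x + y) _ _ (hP1 _) (add_mem (hP1 x) (hP1 y)) (hP2 _) (by
        rw [add_sub_add_comm]; exact add_mem (hP2 x) (hP2 y))
      map_smul' := fun c x => key (c • x) _ _ (hP1 _) (Submodule.smul_mem _ c (hP1 x)) (hP2 _) (by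
        rw [RingHom.id_apply, ← smul_sub]; exact Submodule.smul_mem _ c (hP2 x)) }
  refine ⟨P', hP1, fun x hx => key x _ _ (hP1 x) hx (hP2 x) (by rw [sub_self]; exact zero_mem _),
    fun x => ⟨fun h => ?_, fun h => ?_⟩, fun s hs x => ?_⟩
  · have := hP2 x
    rwa [show P x = 0 from h, sub_zero] at this
  · exact key x _ _ (hP1 x) (zero_mem _) (hP2 x) (by rwa [sub_zero])
  · refine key (s x) _ _ (hP1 _) (map_mem_nilSub hs (hP1 x)) (hP2 _) ?_
    rw [← map_sub]
    exact map_mem_unitSub hs (hP2 x)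

/-- `T` is bijective on the unit part. -/
theorem exists_unique_unit (T : Module.End 𝒪 N) {x : N} (hx : x ∈ unitSub T) :
    ∃ y ∈ unitSub T, T y = x := by
  -- surjectivity of `T` on `unitSub T` by Nakayama / completeness
  have h1 : unitSub T ≤ (unitSub T).map T ⊔ maximalIdeal 𝒪 • unitSub T := by
    intro z hz
    obtain ⟨y, hy⟩ := hz 1 1
    rw [pow_one] at hy
    obtain ⟨a, ha, hya⟩ := codisjoint_nil_unit T y
    -- z - T (y - a) = (z - T y) + T a
    have h2 : z - T (y - a) ∈ unitSub T := sub_mem hz (map_mem_unitSub (fun _ => rfl) hya)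
    have h3 : T a ∈ nilSub T := map_mem_nilSub (fun _ => rfl) ha
    have h4 : z - T (y - a) - T a ∈ mN 𝒪 N 1 := by
      have : z - T (y - a) - T a = z - T y := by rw [map_sub]; abel
      rwa [this]
    obtain ⟨P, hP1, hP2, hP3, -⟩ := exists_fitting T
    have h5 : z - T (y - a) = (z - T (y - a) - T a) - P (z - T (y - a) - T a) := by
      rw [map_sub P, (hP3 _).mpr h2, hP2 _ h3, zero_sub, sub_neg_eq_add, sub_add_cancel]
    have h6 : z - T (y - a) ∈ maximalIdeal 𝒪 • unitSub T := by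
      rw [h5]
      have h7 : ∀ w ∈ mN 𝒪 N 1, w - P w ∈ maximalIdeal 𝒪 • unitSub T := by
        intro w hw
        rw [mN, pow_one] at hw
        refine Submodule.smul_induction_on hw (fun r hr n _ => ?_) (fun u v hu hv => ?_)
        · rw [map_smul, ← smul_sub]
          refine Submodule.smul_mem_smul hr ((hP3 _).mp ?_)
          rw [map_sub, hP2 _ (hP1 n), sub_self]
        · rw [map_add, add_sub_add_comm]
          exact add_mem hu hv
      exact h7 _ h4
    have : z = T (y - a) + (z - T (y - a)) := by abel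
    rw [this]
    exact Submodule.add_mem_sup ⟨_, hya, rfl⟩ h6
  have h2 : unitSub T ≤ (unitSub T).map T :=
    Submodule.le_of_le_smul_of_le_jacobson_bot (IsNoetherian.noetherian _)
      (IsLocalRing.maximalIdeal_le_jacobson _) h1
  obtain ⟨y, hy, rfl⟩ := h2 hx
  exact ⟨y, hy, rfl⟩

variable {ι : Type*}

/-- The part on which all `t i` are topologically nilpotent. -/
def npart (t : ι → Module.End 𝒪 N) : Submodule 𝒪 N := ⨅ i, nilSub (t i)

theorem mem_npart {t : ι → Module.End 𝒪 N} {x : N} : x ∈ npart t ↔ ∀ i, x ∈ nilSub (t i) :=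
  Submodule.mem_iInf _

/-- `P` is the projector of the family `t`. -/
structure IsProj (t : ι → Module.End 𝒪 N) (P : Module.End 𝒪 N) : Prop where
  mem : ∀ x, P x ∈ npart t
  eq : ∀ x ∈ npart t, P x = x
  comm : ∀ s : Module.End 𝒪 N, (∀ i x, s (t i x) = t i (s x)) → ∀ x, P (s x) = s (P x)

/-- **Projectors exist.** -/
theorem exists_isProj (t : ι → Module.End 𝒪 N) (ht : ∀ i j x, t i (t j x) = t j (t i x)) :
    ∃ P, IsProj t P := by
  let Good : Module.End 𝒪 N → Prop := fun P => (∀ x, P (P x) = P x) ∧ (∀ x ∈ npart t, P x = x) ∧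
    ∀ s : Module.End 𝒪 N, (∀ i x, s (t i x) = t i (s x)) → ∀ x, P (s x) = s (P x)
  obtain ⟨K, ⟨P, hP, rfl⟩, hmax⟩ := set_has_maximal_iff_noetherian.mpr
    (inferInstance : IsNoetherian 𝒪 N) {K | ∃ P, Good P ∧ K = LinearMap.ker P}
    ⟨_, 1, ⟨fun _ => rfl, fun _ _ => rfl, fun _ _ _ => rfl⟩, rfl⟩
  refine ⟨P, ⟨fun x => mem_npart.mpr fun i => ?_, hP.2.1, hP.2.2⟩⟩
  obtain ⟨F, hF1, hF2, -, hF4⟩ := exists_fitting (t i)
  have hPF : ∀ x, P (F x) = F (P x) := hP.2.2 F fun j x => hF4 (t j) (fun x => ht j i x) x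
  have hgood : Good (F * P) := by
    refine ⟨fun x => ?_, fun x hx => ?_, fun s hs x => ?_⟩
    · rw [Module.End.mul_apply, Module.End.mul_apply, hPF, hP.1, hF2 _ (hF1 _)]
    · rw [Module.End.mul_apply, hP.2.1 x hx, hF2 x (mem_npart.mp hx i)]
    · rw [Module.End.mul_apply, Module.End.mul_apply, hP.2.2 s hs,
        hF4 s (fun x => hs i x)]
  have hker : ¬ (LinearMap.ker P < LinearMap.ker (F * P)) := fun h =>
    hmax _ ⟨_, hgood, rfl⟩ h
  have hle : LinearMap.ker P ≤ LinearMap.ker (F * P) := fun x hx => by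
    rw [LinearMap.mem_ker] at hx ⊢
    rw [Module.End.mul_apply, hx, map_zero]
  have heq : LinearMap.ker (F * P) = LinearMap.ker P :=
    (eq_of_le_of_not_lt hle hker).symm
  have h1 : P x - F (P x) ∈ LinearMap.ker (F * P) := by
    rw [LinearMap.mem_ker, Module.End.mul_apply, map_sub, hP.1, hPF, hP.1, map_sub,
      hF2 _ (hF1 _), sub_self]
  rw [heq, LinearMap.mem_ker, map_sub, hP.1, hPF, hP.1, sub_eq_zero] at h1
  rw [h1]
  exact hF1 _

theorem IsProj.unique {t : ι → Module.End 𝒪 N} (ht : ∀ i j x, t i (t j x) = t j (t i x))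
    {P P' : Module.End 𝒪 N} (hP : IsProj t P) (hP' : IsProj t P') : P = P' := by
  refine LinearMap.ext fun x => ?_
  have h1 : P (P' x) = P' (P x) := hP.comm P' (fun i x => hP'.comm (t i) (fun j x => ht i j x) x) x
  rw [hP.eq _ (hP'.mem x), hP'.eq _ (hP.mem x)] at h1
  exact h1.symm

/-- Projectors are functorial. -/
theorem IsProj.map {t : ι → Module.End 𝒪 N} {t' : ι → Module.End 𝒪 N'}
    (ht : ∀ i j x, t i (t j x) = t j (t i x)) (ht' : ∀ i j x, t' i (t' j x) = t' j (t' i x))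
    {P : Module.End 𝒪 N} {P' : Module.End 𝒪 N'} (hP : IsProj t P) (hP' : IsProj t' P')
    {f : N →ₗ[𝒪] N'} (hf : ∀ i x, f (t i x) = t' i (f x)) (x : N) : f (P x) = P' (f x) := by
  -- work in `N × N'`
  let τ : ι → Module.End 𝒪 (N × N') := fun i => (t i).prodMap (t' i)
  have hτ : ∀ i j x, τ i (τ j x) = τ j (τ i x) := fun i j x => by
    simp only [τ, LinearMap.prodMap_apply, ht i j, ht' i j]
  obtain ⟨Q, hQ⟩ := exists_isProj τ hτ
  let s : Module.End 𝒪 (N × N') := (LinearMap.inr 𝒪 N N').comp (f.comp (LinearMap.fst 𝒪 N N'))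
  have hs : ∀ z, Q (s z) = s (Q z) := hQ.comm s fun i z => by
    simp only [s, τ, LinearMap.prodMap_apply, LinearMap.comp_apply, LinearMap.fst_apply,
      LinearMap.inr_apply, map_zero, hf]
  -- `Q (x, 0) = (P x, 0)`
  let p1 : Module.End 𝒪 (N × N') := (LinearMap.inl 𝒪 N N').comp (LinearMap.fst 𝒪 N N')
  let p2 : Module.End 𝒪 (N × N') := (LinearMap.inr 𝒪 N N').comp (LinearMap.snd 𝒪 N N')
  have hp1 : ∀ z, Q (p1 z) = p1 (Q z) := hQ.comm p1 fun i z => by
    simp [p1, τ]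
  have hp2 : ∀ z, Q (p2 z) = p2 (Q z) := hQ.comm p2 fun i z => by
    simp [p2, τ]
  have h1 : ∀ x, (Q (x, 0)).1 = P x := by
    have hP1 : IsProj t ((LinearMap.fst 𝒪 N N').comp (Q.comp (LinearMap.inl 𝒪 N N'))) := by
      refine ⟨fun x => ?_, fun x hx => ?_, fun s hs x => ?_⟩
      · refine mem_npart.mpr fun i => ?_
        exact map_mem_nilSub (T := τ i) (f := LinearMap.fst 𝒪 N N') (fun _ => rfl)
          (mem_npart.mp (hQ.mem _) i)
      · have : LinearMap.inl 𝒪 N N' x ∈ npart τ := mem_npart.mpr fun i =>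
          map_mem_nilSub (f := LinearMap.inl 𝒪 N N') (fun x => by simp [τ]) (mem_npart.mp hx i)
        rw [LinearMap.comp_apply, LinearMap.comp_apply, hQ.eq _ this]
        rfl
      · have h := hQ.comm (s.prodMap (0 : Module.End 𝒪 N')) (fun i z => by
          simp [τ, hs]) (x, 0)
        simp only [LinearMap.comp_apply, LinearMap.inl_apply, LinearMap.fst_apply]
        have h2 : (s.prodMap (0 : Module.End 𝒪 N')) (x, 0) = (s x, 0) := by simp
        rw [h2] at h
        rw [h]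
        rfl
    intro x
    exact LinearMap.congr_fun (hP1.unique ht hP) x
  have h2 : ∀ x, (Q (0, x)).2 = P' x := by
    have hP1 : IsProj t' ((LinearMap.snd 𝒪 N N').comp (Q.comp (LinearMap.inr 𝒪 N N'))) := by
      refine ⟨fun x => ?_, fun x hx => ?_, fun s hs x => ?_⟩
      · refine mem_npart.mpr fun i => ?_
        exact map_mem_nilSub (T := τ i) (f := LinearMap.snd 𝒪 N N') (fun _ => rfl)
          (mem_npart.mp (hQ.mem _) i)
      · have : LinearMap.inr 𝒪 N N' x ∈ npart τ := mem_npart.mpr fun i =>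
          map_mem_nilSub (f := LinearMap.inr 𝒪 N N') (fun x => by simp [τ]) (mem_npart.mp hx i)
        rw [LinearMap.comp_apply, LinearMap.comp_apply, hQ.eq _ this]
        rfl
      · have h := hQ.comm ((0 : Module.End 𝒪 N).prodMap s) (fun i z => by
          simp [τ, hs]) (0, x)
        simp only [LinearMap.comp_apply, LinearMap.inr_apply, LinearMap.snd_apply]
        have h2 : ((0 : Module.End 𝒪 N).prodMap s) (0, x) = (0, s x) := by simp
        rw [h2] at h
        rw [h]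
        rfl
    intro x
    exact LinearMap.congr_fun (hP1.unique ht' hP') x
  have h3 := hs (x, 0)
  have h4 : s (x, 0) = (0, f x) := rfl
  have h5 : s (Q (x, 0)) = (0, f (Q (x, 0)).1) := rfl
  rw [h4, h5, h1] at h3
  have h6 := congrArg Prod.snd h3
  rw [h2] at h6
  exact h6.symm

/-- Surjections remain surjective on parts. -/
theorem exists_npart_of_surjective {t : ι → Module.End 𝒪 N} {t' : ι → Module.End 𝒪 N'}
    (ht : ∀ i j x, t i (t j x) = t j (t i x)) (ht' : ∀ i j x, t' i (t' j x) = t' j (t' i x))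
    {f : N →ₗ[𝒪] N'} (hf : ∀ i x, f (t i x) = t' i (f x)) (hsurj : Function.Surjective f)
    {y : N'} (hy : y ∈ npart t') : ∃ x ∈ npart t, f x = y := by
  obtain ⟨P, hP⟩ := exists_isProj t ht
  obtain ⟨P', hP'⟩ := exists_isProj t' ht'
  obtain ⟨x, rfl⟩ := hsurj y
  exact ⟨P x, hP.mem x, by rw [hP.map ht ht' hP' hf, hP'.eq _ hy]⟩

/-- The part is a direct summand of a projective module. -/
theorem projective_npart {B : Type*} [CommRing B] [Algebra 𝒪 B] [Module B N]
    [IsScalarTower 𝒪 B N] [Module.Projective B N] (t : ι → Module.End 𝒪 N)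
    (ht : ∀ i j x, t i (t j x) = t j (t i x)) (htB : ∀ i (b : B) x, t i (b • x) = b • t i x)
    (H : Submodule B N) (hH : ∀ x, x ∈ H ↔ x ∈ npart t) : Module.Projective B H := by
  obtain ⟨P, hP⟩ := exists_isProj t ht
  have hPB : ∀ (b : B) x, P (b • x) = b • P x := fun b x =>
    hP.comm (Module.toModuleEnd 𝒪 (S := B) N b) (fun i x => (htB i b x).symm) x
  let π : N →ₗ[B] H :=
    { toFun := fun x => ⟨P x, (hH _).mpr (hP.mem x)⟩
      map_add' := fun x y => Subtype.ext (map_add P x y)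
      map_smul' := fun b x => Subtype.ext (hPB b x) }
  exact Module.Projective.of_split H.subtype π (LinearMap.ext fun x =>
    Subtype.ext (hP.eq _ ((hH _).mp x.2)))

end proj

end Fermat.Agent.RT.Loc
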