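import Mathlib
import Fermat.Agent.RT.Loc

/-!
# Linear algebra for perfect pairings over a local ring; orthogonality of Fitting parts
(team RT, helper30)
-/

set_option autoImplicit false
set_option linter.unusedSectionVars false

open IsLocalRing Matrix

noncomputable section

namespace Fermat.Agent.RT.PerfectAlg

section perfect

variable {𝒪 : Type*} [CommRing 𝒪] [IsLocalRing 𝒪] {X Y : Type*} [AddCommGroup X] [Module 𝒪 X]
  [AddCommGroup Y] [Module 𝒪 Y] [Module.Free 𝒪 X] [Module.Finite 𝒪 X] [Module.Free 𝒪 Y]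
  [Module.Finite 𝒪 Y]

theorem repr_mem {ι : Type*} (b : Module.Basis ι 𝒪 X) {x : X}
    (hx : x ∈ maximalIdeal 𝒪 • (⊤ : Submodule 𝒪 X)) (i : ι) : b.repr x i ∈ maximalIdeal 𝒪 := by
  refine Submodule.smul_induction_on hx (fun r hr n _ => ?_) (fun u v hu hv => ?_)
  · rw [map_smul, Finsupp.smul_apply, smul_eq_mul]
    exact Ideal.mul_mem_right _ _ hr
  · rw [map_add, Finsupp.add_apply]
    exact add_mem hu hv

variable (B : X →ₗ[𝒪] Y →ₗ[𝒪] 𝒪)

theorem vecMul_injective {ι κ : Type*} [Fintype ι] [Fintype κ] (b : Module.Basis ι 𝒪 X)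
    (c : Module.Basis κ 𝒪 Y)
    (h : ∀ x, (∀ y, B x y ∈ maximalIdeal 𝒪) → x ∈ maximalIdeal 𝒪 • (⊤ : Submodule 𝒪 X))
    (v : ι → ResidueField 𝒪)
    (hv : v ᵥ* ((Matrix.of fun i j => B (b i) (c j)).map (residue 𝒪)) = 0) : v = 0 := by
  choose a ha using fun i => residue_surjective (v i)
  set x : X := ∑ i, a i • b i with hx
  have hxc : ∀ j, B x (c j) ∈ maximalIdeal 𝒪 := by
    intro j
    rw [← residue_eq_zero_iff]
    have h1 := congrFun hv j
    rw [Matrix.vecMul, dotProduct] at h1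
    simp only [Matrix.map_apply, Matrix.of_apply, Pi.zero_apply] at h1
    rw [← h1, hx, map_sum, LinearMap.sum_apply, map_sum]
    refine Finset.sum_congr rfl fun i _ => ?_
    rw [map_smul, LinearMap.smul_apply, smul_eq_mul, map_mul, ha]
  have hxy : ∀ y, B x y ∈ maximalIdeal 𝒪 := by
    intro y
    rw [← c.sum_repr y, map_sum]
    refine Submodule.sum_mem _ fun j _ => ?_
    rw [map_smul, smul_eq_mul]
    exact Ideal.mul_mem_left _ _ (hxc j)
  have hmem := h x hxy
  funext i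
  have h2 := repr_mem b hmem i
  rw [hx, map_sum, Finsupp.finsetSum_apply] at h2
  simp only [map_smul, b.repr_self, Finsupp.smul_apply, smul_eq_mul] at h2
  classical
  simp only [Finsupp.single_apply, mul_ite, mul_one, mul_zero, Finset.sum_ite_eq',
    Finset.mem_univ, if_true] at h2
  rw [Pi.zero_apply, ← ha i, residue_eq_zero_iff]
  exact h2

theorem finrank_le (h : ∀ x, (∀ y, B x y ∈ maximalIdeal 𝒪) →
    x ∈ maximalIdeal 𝒪 • (⊤ : Submodule 𝒪 X)) : Module.finrank 𝒪 X ≤ Module.finrank 𝒪 Y := by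
  let b := Module.finBasis 𝒪 X
  let c := Module.finBasis 𝒪 Y
  let G : Matrix (Fin (Module.finrank 𝒪 X)) (Fin (Module.finrank 𝒪 Y)) (ResidueField 𝒪) :=
    (Matrix.of fun i j => B (b i) (c j)).map (residue 𝒪)
  have hinj : Function.Injective (Matrix.vecMulLinear G) := by
    rw [injective_iff_map_eq_zero]
    intro v hv
    exact vecMul_injective B b c h v hv
  have := LinearMap.finrank_le_finrank_of_injective hinj
  simpa using this

/-- A pairing of finite free modules which is non-degenerate modulo the maximal ideal on both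
sides is perfect. -/
theorem bijective_of_nondegenerate
    (h : ∀ x, (∀ y, B x y ∈ maximalIdeal 𝒪) → x ∈ maximalIdeal 𝒪 • (⊤ : Submodule 𝒪 X))
    (h' : ∀ y, (∀ x, B x y ∈ maximalIdeal 𝒪) → y ∈ maximalIdeal 𝒪 • (⊤ : Submodule 𝒪 Y)) :
    Function.Bijective B := by
  classical
  have hrk : Module.finrank 𝒪 X = Module.finrank 𝒪 Y :=
    le_antisymm (finrank_le B h) (finrank_le B.flip h')
  let b := Module.finBasis 𝒪 X
  let c := (Module.finBasis 𝒪 Y).reindex (finCongr hrk.symm)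
  let G : Matrix (Fin (Module.finrank 𝒪 X)) (Fin (Module.finrank 𝒪 X)) 𝒪 :=
    Matrix.of fun i j => B (b i) (c j)
  have hGk : IsUnit (G.map (residue 𝒪)) := by
    rw [← Matrix.vecMul_injective_iff_isUnit]
    intro v w hvw
    have h1 : (v - w) ᵥ* (G.map (residue 𝒪)) = 0 := by
      rw [Matrix.sub_vecMul, sub_eq_zero]; exact hvw
    exact sub_eq_zero.mp (vecMul_injective B b c h _ h1)
  have hG : IsUnit G := by
    rw [Matrix.isUnit_iff_isUnit_det]
    have h1 := (Matrix.isUnit_iff_isUnit_det _).mp hGk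
    have h2 : (G.map (residue 𝒪)).det = residue 𝒪 G.det := (RingHom.map_det (residue 𝒪) G).symm
    rw [h2] at h1
    by_contra hne
    have : G.det ∈ maximalIdeal 𝒪 := (mem_maximalIdeal _).mpr hne
    rw [(residue_eq_zero_iff _).mpr this] at h1
    exact not_isUnit_zero h1
  obtain ⟨Gi, hGi1, hGi2⟩ : ∃ Gi : Matrix (Fin (Module.finrank 𝒪 X)) (Fin (Module.finrank 𝒪 X)) 𝒪,
      G * Gi = 1 ∧ Gi * G = 1 := by
    obtain ⟨Gu, hGu⟩ := hG
    exact ⟨(Gu⁻¹).val, by rw [← hGu, Units.mul_inv], by rw [← hGu, Units.inv_mul]⟩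
  have hBx : ∀ (a : Fin (Module.finrank 𝒪 X) → 𝒪) j, B (∑ i, a i • b i) (c j) = (a ᵥ* G) j := by
    intro a j
    rw [map_sum, LinearMap.sum_apply, Matrix.vecMul, dotProduct]
    refine Finset.sum_congr rfl fun i _ => ?_
    rw [map_smul, LinearMap.smul_apply, smul_eq_mul]
    rfl
  constructor
  · rw [injective_iff_map_eq_zero]
    intro x hx
    have h1 : (fun i => b.repr x i) ᵥ* G = 0 := by
      funext j
      rw [← hBx, b.sum_repr, hx]; rfl
    have h2 : (fun i => b.repr x i) = 0 := by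
      have h3 := congrArg (fun v => v ᵥ* Gi) h1
      simp only [Matrix.vecMul_vecMul, Matrix.zero_vecMul] at h3
      rw [hGi1, Matrix.vecMul_one] at h3
      exact h3
    rw [← b.sum_repr x]
    refine Finset.sum_eq_zero fun i _ => ?_
    have := congrFun h2 i
    simp only [Pi.zero_apply] at this
    rw [this, zero_smul]
  · intro φ
    refine ⟨∑ i, ((fun j => φ (c j)) ᵥ* Gi) i • b i, ?_⟩
    refine c.ext fun j => ?_
    rw [hBx, Matrix.vecMul_vecMul, hGi2, Matrix.vecMul_one]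

end perfect

/-! ### orthogonality of Fitting parts -/

section orth

open Fermat.Agent.RT.Loc

variable {𝒪 : Type*} [CommRing 𝒪] [IsDomain 𝒪] [IsDiscreteValuationRing 𝒪]
  [IsAdicComplete (maximalIdeal 𝒪) 𝒪] [Finite (ResidueField 𝒪)]
variable {N : Type*} [AddCommGroup N] [Module 𝒪 N] [Module.Finite 𝒪 N]
variable {N' : Type*} [AddCommGroup N'] [Module 𝒪 N'] [Module.Finite 𝒪 N']

theorem eq_zero_of_forall_mem_pow {a : 𝒪} (h : ∀ k, a ∈ maximalIdeal 𝒪 ^ k) : a = 0 := by
  have h1 := Ideal.iInf_pow_eq_bot_of_isLocalRing (maximalIdeal 𝒪) (Ideal.IsPrime.ne_top inferInstance)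
  have h2 : a ∈ (⨅ i, maximalIdeal 𝒪 ^ i) := by
    rw [Ideal.mem_iInf]; exact h
  rw [h1] at h2
  exact (Submodule.mem_bot _).mp h2

theorem map_mN_mem (f : N →ₗ[𝒪] 𝒪) {k : ℕ} {x : N} (hx : x ∈ mN 𝒪 N k) :
    f x ∈ maximalIdeal 𝒪 ^ k := by
  have := map_mem_mN f hx
  rwa [mN, smul_eq_mul, Ideal.mul_top] at this

/-- the nilpotent part is orthogonal to the unit part. -/
theorem orth_nil_unit (B : N →ₗ[𝒪] N' →ₗ[𝒪] 𝒪) {T : Module.End 𝒪 N} {T' : Module.End 𝒪 N'}
    (hB : ∀ x y, B (T x) y = B x (T' y)) {x : N} (hx : x ∈ nilSub T) {y : N'}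
    (hy : y ∈ unitSub T') : B x y = 0 := by
  refine eq_zero_of_forall_mem_pow fun k => ?_
  have hpow : ∀ n, ∀ x y, B ((T ^ n) x) y = B x ((T' ^ n) y) := by
    intro n
    induction n with
    | zero => intro x y; rfl
    | succ n ih =>
      intro x y
      rw [pow_succ, Module.End.mul_apply, ih, hB, pow_succ', Module.End.mul_apply]
  obtain ⟨n, hn⟩ := mem_nilSub_iff.mp hx k
  obtain ⟨w, hw⟩ := hy k n
  have h1 : B x y = B ((T ^ n) x) w + B x (y - (T' ^ n) w) := by
    rw [hpow, map_sub]; ring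
  rw [h1]
  refine add_mem ?_ (map_mN_mem (B x) hw)
  exact map_mN_mem (B.flip w) hn

variable {ι : Type*}

/-- `npart t` is orthogonal to the kernel of the projector onto `npart t'`. -/
theorem orth_npart (B : N →ₗ[𝒪] N' →ₗ[𝒪] 𝒪) {t : ι → Module.End 𝒪 N} {t' : ι → Module.End 𝒪 N'}
    (ht : ∀ i j x, t i (t j x) = t j (t i x)) (ht' : ∀ i j x, t' i (t' j x) = t' j (t' i x))
    (hB : ∀ i x y, B (t i x) y = B x (t' i y)) {P' : Module.End 𝒪 N'} (hP' : IsProj t' P')
    {x : N} (hx : x ∈ npart t) {y : N'} (hy : P' y = 0) : B x y = 0 := by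
  -- the orthogonal of `npart t`
  let K : Submodule 𝒪 N' :=
    { carrier := {y | ∀ x ∈ npart t, B x y = 0}
      zero_mem' := fun x _ => map_zero _
      add_mem' := fun {a b} ha hb x hx => by rw [map_add, ha x hx, hb x hx, add_zero]
      smul_mem' := fun c a ha x hx => by rw [map_smul, ha x hx, smul_zero] }
  have hKmem : ∀ y, y ∈ K ↔ ∀ x ∈ npart t, B x y = 0 := fun y => Iff.rfl
  have hKt : ∀ i, K ≤ K.comap (t' i) := by
    intro i y hy x hx
    rw [← hB]
    refine hy _ ?_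
    rw [mem_npart] at hx ⊢
    intro j
    exact map_mem_nilSub (T := t j) (T' := t j) (f := t i) (fun z => ht i j z) (hx j)
  let τ : ι → Module.End 𝒪 (N' ⧸ K) := fun i => K.mapQ K (t' i) (hKt i)
  have hτ : ∀ i j z, τ i (τ j z) = τ j (τ i z) := by
    intro i j z
    obtain ⟨z, rfl⟩ := Submodule.Quotient.mk_surjective _ z
    change Submodule.Quotient.mk (t' i (t' j z)) = Submodule.Quotient.mk (t' j (t' i z))
    rw [ht']
  obtain ⟨Q, hQ⟩ := exists_isProj τ hτ
  have hall : ∀ z : N' ⧸ K, z ∈ npart τ := by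
    intro z
    obtain ⟨z, rfl⟩ := Submodule.Quotient.mk_surjective _ z
    refine mem_npart.mpr fun i => ?_
    obtain ⟨a, ha, hza⟩ := codisjoint_nil_unit (t' i) z
    have h1 : z - a ∈ K := fun x hx => orth_nil_unit B (hB i) (mem_npart.mp hx i) hza
    have h2 : (Submodule.Quotient.mk z : N' ⧸ K) = Submodule.Quotient.mk a :=
      (Submodule.Quotient.eq K).mpr h1
    rw [h2]
    exact map_mem_nilSub (T := t' i) (T' := τ i) (f := K.mkQ) (fun _ => rfl) ha
  have h3 := hP'.map ht' hτ hQ (f := K.mkQ) (fun i z => rfl) y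
  rw [hy, map_zero, hQ.eq _ (hall _)] at h3
  have h4 : y ∈ K := (Submodule.Quotient.mk_eq_zero K).mp h3.symm
  exact h4 x hx

end orth

end Fermat.Agent.RT.PerfectAlg
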