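import Fermat.Agent.RT.FormBdry
import Fermat.Agent.RT.PerfectAlg
import Fermat.Agent.RT.LocSub

/-!
# Perfectness of the pairing on non-Eisenstein parts (team RT, helper30)
-/

set_option autoImplicit false
set_option linter.unusedSectionVars false

open Matrix Matrix.SpecialLinearGroup CongruenceSubgroup IsLocalRing
open scoped MatrixGroups OnePoint

noncomputable section

namespace Fermat.Agent.RT.Form

open Fermat.Agent.LR Fermat.Agent.LR.PS Fermat.Agent.RT.Loc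

/-! ### killing the boundary -/

section bdry

variable {𝒪 : Type*} [CommRing 𝒪] {k : Type*} [Field k]

theorem mapCoeff_smul'' (f : 𝒪 →+* k) (c : 𝒪) (x : Pairs 𝒪) :
    mapCoeff f (c • x) = f c • mapCoeff f x := by
  funext a b
  simp [mapCoeff_apply]

theorem mapCoeff_pow_eigen (π : 𝒪 →+* k) {ℓ : ℕ} {a : 𝒪} {x : Pairs 𝒪} {c : k}
    (h : heckeT ℓ (mapCoeff π x) = c • mapCoeff π x) (n : ℕ) :
    mapCoeff π (((heckeT ℓ - a • LinearMap.id : Module.End 𝒪 (Pairs 𝒪)) ^ n) x) =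
      (c - π a) ^ n • mapCoeff π x := by
  induction n with
  | zero => simp
  | succ n ih =>
    have h1 : ∀ y : Pairs 𝒪, mapCoeff π ((heckeT ℓ - a • LinearMap.id : Module.End 𝒪 (Pairs 𝒪)) y) =
        heckeT ℓ (mapCoeff π y) - π a • mapCoeff π y := by
      intro y
      rw [LinearMap.sub_apply, map_sub, mapCoeff_heckeT]
      congr 1
      exact mapCoeff_smul'' π a y
    rw [pow_succ', Module.End.mul_apply, h1, ih, map_smul, h, pow_succ']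
    module

/-- if `x` is a generalised eigenvector of `T_ℓ` for `a`, and `x mod 𝔪` is a boundary symbol, then
`x ≡ 0 mod 𝔪` (`a - 1 - ℓ` a unit mod 𝔪, `ℓ ≡ 1 mod M`). -/
theorem mapCoeff_eq_zero_of_bdry (π : 𝒪 →+* k) {M ℓ : ℕ} (hℓ : ℓ.Prime)
    (hℓM : ((ℓ : ℕ) : ZMod M) = 1) {a : 𝒪} (ha : π a ≠ 1 + ℓ) {ϖ : 𝒪} (hϖ : ϖ ≠ 0) (hπ : π ϖ = 0)
    {x : Pairs 𝒪} (hx : x ∈ MS (Gamma0 M) 𝒪)
    (hx0 : x ∈ nilSub (heckeT ℓ - a • LinearMap.id : Module.End 𝒪 (Pairs 𝒪)))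
    (hb : ∀ γ ∈ Gamma0 M, π (x ∞ (toQ γ • ∞)) = 0) : mapCoeff π x = 0 := by
  have hx' := mapCoeff_mem π hx
  have hψ : ∀ γ ∈ Gamma1 M, ∀ c : Cusp, (fun s => mapCoeff π x ∞ s) (toQ γ • c) =
      (fun s => mapCoeff π x ∞ s) c := by
    intro γ hγ c
    have hγ0 := Gamma1_in_Gamma0 M hγ
    change mapCoeff π x ∞ (toQ γ • c) = mapCoeff π x ∞ c
    rw [← hx'.1 ∞ (toQ γ • ∞) (toQ γ • c)]
    have h1 : mapCoeff π x ∞ (toQ γ • ∞) = 0 := hb γ hγ0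
    have h2 : mapCoeff π x (toQ γ • ∞) (toQ γ • c) = mapCoeff π x ∞ c :=
      congrFun (congrFun (hx'.2 γ hγ0) ∞) c
    rw [h1, h2, zero_add]
  have hbd : mapCoeff π x = bdry (fun s => mapCoeff π x ∞ s) := by
    funext s t
    rw [bdry_apply, ← hx'.1 ∞ s t]; ring
  have heig : heckeT ℓ (mapCoeff π x) = ((1 : k) + ℓ) • mapCoeff π x := by
    conv_lhs => rw [hbd]
    rw [heckeT_bdry hℓ hℓM hψ, ← hbd]
    push_cast
    rfl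
  obtain ⟨n, z, hz⟩ := hx0 ϖ hϖ
  have h3 := mapCoeff_pow_eigen π (a := a) heig n
  rw [hz, mapCoeff_smul'', hπ, zero_smul] at h3
  exact (smul_eq_zero.mp h3.symm).resolve_left (pow_ne_zero n (sub_ne_zero.mpr (Ne.symm ha)))

end bdry

/-! ### families of Hecke operators -/

universe u

section fam

variable {𝒪 : Type u} [CommRing 𝒪] [IsDomain 𝒪] [CharZero 𝒪]

/-- a commuting family of self-adjoint operators on `MS (Γ₀(M))` commuting with `ι`. -/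
structure FamData (M : ℕ) {ι : Type*} (t : ι → Module.End 𝒪 (Pairs 𝒪)) : Prop where
  mem : ∀ i, ∀ x ∈ MS (Gamma0 M) 𝒪, t i x ∈ MS (Gamma0 M) 𝒪
  comm : ∀ i j, ∀ x ∈ MS (Gamma0 M) 𝒪, t i (t j x) = t j (t i x)
  adj : ∀ i, ∀ x ∈ MS (Gamma0 M) 𝒪, ∀ y ∈ MS (Gamma0 M) 𝒪, brk M (t i x) y = brk M x (t i y)
  sgn : ∀ i, ∀ x ∈ MS (Gamma0 M) 𝒪, slash jMat (t i x) = t i (slash jMat x)

/-- `T = T_ℓ - a` (`ℓ ∤ M`) or `T = U_ℓ - a` (`ℓ ∣ M`), `ℓ` prime. -/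
def IsHeckeOp (M : ℕ) (T : Module.End 𝒪 (Pairs 𝒪)) : Prop :=
  (∃ ℓ : ℕ, ℓ.Prime ∧ ¬ ℓ ∣ M ∧ ∃ a : 𝒪, T = heckeT ℓ - a • LinearMap.id) ∨
  (∃ ℓ : ℕ, ℓ.Prime ∧ ℓ ∣ M ∧ ∃ a : 𝒪, T = heckeU ℓ - a • LinearMap.id)

theorem hop_comm' {R : Type*} [CommRing R] {M : ℕ} {x : Pairs R} (hx : x ∈ MS (Gamma0 M) R)
    {ℓ r : ℕ} (hℓ : ℓ.Prime) (hr : r.Prime) :
    (heckeT ℓ (heckeT r x) = heckeT r (heckeT ℓ x)) ∧
    (ℓ ≠ r → heckeT ℓ (heckeU r x) = heckeU r (heckeT ℓ x)) ∧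
    heckeU ℓ (heckeU r x) = heckeU r (heckeU ℓ x) := by
  refine ⟨?_, fun h => ?_, heckeU_comm ℓ r hℓ.ne_zero hr.ne_zero x⟩
  · by_cases h : ℓ = r
    · rw [h]
    · exact heckeT_comm hℓ.ne_zero hr.ne_zero ((Nat.coprime_primes hℓ hr).mpr h) (TInv_of_mem hx)
  · exact heckeT_heckeU hℓ.ne_zero hr.ne_zero ((Nat.coprime_primes hℓ hr).mpr h) (TInv_of_mem hx)

theorem IsHeckeOp.mem {M : ℕ} {T : Module.End 𝒪 (Pairs 𝒪)} (h : IsHeckeOp M T) {x : Pairs 𝒪}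
    (hx : x ∈ MS (Gamma0 M) 𝒪) : T x ∈ MS (Gamma0 M) 𝒪 := by
  rcases h with ⟨ℓ, hℓ, hℓM, a, rfl⟩ | ⟨ℓ, hℓ, hℓM, a, rfl⟩
  · exact Submodule.sub_mem _ (heckeT_mem_MS hℓ hℓM hx) (Submodule.smul_mem _ _ hx)
  · have : NeZero ℓ := ⟨hℓ.ne_zero⟩
    exact Submodule.sub_mem _ (heckeU_mem_MS hℓM hx) (Submodule.smul_mem _ _ hx)

theorem IsHeckeOp.comm {M : ℕ} {T T' : Module.End 𝒪 (Pairs 𝒪)} (h : IsHeckeOp M T)
    (h' : IsHeckeOp M T') {x : Pairs 𝒪} (hx : x ∈ MS (Gamma0 M) 𝒪) : T (T' x) = T' (T x) := by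
  have key : ∀ (A B : Module.End 𝒪 (Pairs 𝒪)) (a b : 𝒪), A (B x) = B (A x) →
      (A - a • LinearMap.id : Module.End 𝒪 (Pairs 𝒪))
        ((B - b • LinearMap.id : Module.End 𝒪 (Pairs 𝒪)) x) =
      (B - b • LinearMap.id : Module.End 𝒪 (Pairs 𝒪))
        ((A - a • LinearMap.id : Module.End 𝒪 (Pairs 𝒪)) x) := by
    intro A B a b h
    simp only [LinearMap.sub_apply, LinearMap.smul_apply, LinearMap.id_apply, map_sub, map_smul, h]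
    module
  rcases h with ⟨ℓ, hℓ, hℓM, a, rfl⟩ | ⟨ℓ, hℓ, hℓM, a, rfl⟩ <;>
  rcases h' with ⟨r, hr, hrM, b, rfl⟩ | ⟨r, hr, hrM, b, rfl⟩
  · exact key _ _ _ _ (hop_comm' hx hℓ hr).1
  · exact key _ _ _ _ ((hop_comm' hx hℓ hr).2.1 (fun h => hℓM (h ▸ hrM)))
  · exact key _ _ _ _ ((hop_comm' hx hr hℓ).2.1 (fun h => hrM (h ▸ hℓM))).symm
  · exact key _ _ _ _ (hop_comm' hx hℓ hr).2.2

theorem IsHeckeOp.adj {M : ℕ} (hM : M ≠ 0) {T : Module.End 𝒪 (Pairs 𝒪)} (h : IsHeckeOp M T)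
    {x y : Pairs 𝒪} (hx : x ∈ MS (Gamma0 M) 𝒪) (hy : y ∈ MS (Gamma0 M) 𝒪) :
    brk M (T x) y = brk M x (T y) := by
  rcases h with ⟨ℓ, hℓ, hℓM, a, rfl⟩ | ⟨ℓ, hℓ, hℓM, a, rfl⟩
  · simp only [LinearMap.sub_apply, LinearMap.smul_apply, LinearMap.id_apply]
    rw [brk_sub_left hM (heckeT_mem_MS hℓ hℓM hx) (Submodule.smul_mem _ _ hx) hy,
      brk_sub_right hM hx (heckeT_mem_MS hℓ hℓM hy) (Submodule.smul_mem _ _ hy),
      brk_smul_left hM _ hx hy, brk_smul_right hM _ hx hy, brk_heckeT hM hℓ hℓM hx hy]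
  · have : NeZero ℓ := ⟨hℓ.ne_zero⟩
    simp only [LinearMap.sub_apply, LinearMap.smul_apply, LinearMap.id_apply]
    rw [brk_sub_left hM (heckeU_mem_MS hℓM hx) (Submodule.smul_mem _ _ hx) hy,
      brk_sub_right hM hx (heckeU_mem_MS hℓM hy) (Submodule.smul_mem _ _ hy),
      brk_smul_left hM _ hx hy, brk_smul_right hM _ hx hy, brk_heckeU hM hℓ.ne_zero hℓM hx hy]

theorem IsHeckeOp.sgn {M : ℕ} {T : Module.End 𝒪 (Pairs 𝒪)} (h : IsHeckeOp M T) {x : Pairs 𝒪}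
    (hx : x ∈ MS (Gamma0 M) 𝒪) : slash jMat (T x) = T (slash jMat x) := by
  rcases h with ⟨ℓ, hℓ, hℓM, a, rfl⟩ | ⟨ℓ, hℓ, hℓM, a, rfl⟩
  · simp only [LinearMap.sub_apply, LinearMap.smul_apply, LinearMap.id_apply, map_sub, map_smul,
      heckeT_slash_jMat hx hℓ.ne_zero]
  · simp only [LinearMap.sub_apply, LinearMap.smul_apply, LinearMap.id_apply, map_sub, map_smul,
      heckeU_slash_jMat hx hℓ.ne_zero]

theorem FamData.of_isHeckeOp {M : ℕ} (hM : M ≠ 0) {ι : Type*} {t : ι → Module.End 𝒪 (Pairs 𝒪)}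
    (h : ∀ i, IsHeckeOp M (t i)) : FamData M t where
  mem i _ hx := (h i).mem hx
  comm i j _ hx := (h i).comm (h j) hx
  adj i _ hx _ hy := (h i).adj hM hx hy
  sgn i _ hx := (h i).sgn hx

end fam

end Fermat.Agent.RT.Form
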