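import Fermat.Agent.RT.FormAdj

/-!
# Adjointness of Hecke operators and level raising formulas for the normalised form
(team RT, helper30)
-/

set_option autoImplicit false

open Matrix Matrix.SpecialLinearGroup CongruenceSubgroup
open scoped MatrixGroups OnePoint

noncomputable section

namespace Fermat.Agent.RT.Form

open Fermat.Agent.LR Fermat.Agent.LR.PS

section mem

variable {R : Type*} [CommRing R]

theorem slash_heckeMat_degen {r : ℕ} (hr : r ≠ 0) {b : Pairs R} (hT : TInv b) (j : ℤ) :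
    slash (heckeMat r j) (degen r b) = b := by
  rw [degen_apply, ← slash_mul]
  have : slash (diagMat r * heckeMat r j) b = slash (toQ (ModularGroup.T ^ j)) b := by
    refine slash_congr (c := (r : ℚ)) (by exact_mod_cast hr) ?_ b
    rw [val_mul', val_diagMat hr, val_heckeMat hr, val_toQ_T_zpow]
    ext i k
    fin_cases i <;> fin_cases k <;> simp [Matrix.mul_apply, Fin.sum_univ_two]
  rw [this, hT j]

/-- `U_r (x|V_r) = r x`. -/
theorem heckeU_degen_self {r : ℕ} (hr : r ≠ 0) {b : Pairs R} (hT : TInv b) :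
    heckeU r (degen r b) = (r : R) • b := by
  rw [heckeU_apply]
  simp only [slash_heckeMat_degen hr hT, Finset.sum_const, Finset.card_range]
  rw [Nat.cast_smul_eq_nsmul]

/-- `U_q` lowers the level. -/
theorem heckeU_lower {N q : ℕ} [NeZero q] (hN : q ∣ N) {x : Pairs R}
    (hx : x ∈ MS (Gamma0 (N * q)) R) : heckeU q x ∈ MS (Gamma0 N) R := by
  have h1 := heckeU_mem_MS (N := N * q) (q := q) (dvd_mul_left q N) hx
  refine ⟨h1.1, fun γ hγ => ?_⟩
  have hc : (q : ℤ) ∣ γ 1 0 := (Int.natCast_dvd_natCast.mpr hN).trans (mem_Gamma0_iff.mp hγ)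
  obtain ⟨π, hπ⟩ := heckeMat_mul_of_dvd γ hc
  rw [heckeU_eq_sum_zmod, map_sum, ← Equiv.sum_comp π
    (fun s : ZMod q => slash (heckeMat q ((s.val : ℕ) : ℤ)) x)]
  refine Finset.sum_congr rfl fun s _ => ?_
  obtain ⟨g', hg', e⟩ := hπ s
  rw [← slash_mul, e, slash_toQ_mul_of_mem hx]
  rw [mem_Gamma0_iff, hg', Nat.cast_mul, mul_comm]
  exact mul_dvd_mul_left _ (mem_Gamma0_iff.mp hγ)

theorem heckeU_mem_FL {r : ℕ} {x : Pairs R} (hx : x ∈ FL R) : heckeU r x ∈ FL R := by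
  rw [heckeU_apply]
  exact Submodule.sum_mem _ fun i _ => slash_mem_FL _ hx

theorem degen_mem_FL {r : ℕ} {x : Pairs R} (hx : x ∈ FL R) : degen r x ∈ FL R :=
  slash_mem_FL _ hx

theorem heckeT_mem_FL {r : ℕ} {x : Pairs R} (hx : x ∈ FL R) : heckeT r x ∈ FL R := by
  rw [heckeT_apply]
  exact Submodule.add_mem _ (heckeU_mem_FL hx) (degen_mem_FL hx)

theorem wN_mem_FL {M : ℕ} {x : Pairs R} (hx : x ∈ FL R) : wN M x ∈ FL R := slash_mem_FL _ hx

/-- level raising `x ↦ q x - T_q x|V_q + x|V_q²`. -/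
def raise (q : ℕ) : Pairs R →ₗ[R] Pairs R :=
  (q : R) • LinearMap.id - degen q ∘ₗ heckeT q + degen q ∘ₗ degen q

theorem raise_apply (q : ℕ) (x : Pairs R) :
    raise q x = (q : R) • x - degen q (heckeT q x) + degen q (degen q x) := rfl

theorem degen_mem' {N q : ℕ} (hq : q ≠ 0) {x : Pairs R} (hx : x ∈ MS (Gamma0 N) R) :
    degen q x ∈ MS (Gamma0 (N * q)) R := degen_mem hq hx

theorem raise_mem {M q : ℕ} (hq : q.Prime) (hqM : ¬ q ∣ M) {x : Pairs R}
    (hx : x ∈ MS (Gamma0 M) R) : raise q x ∈ MS (Gamma0 (M * q ^ 2)) R := by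
  rw [raise_apply]
  have h1 : ∀ {y : Pairs R}, y ∈ MS (Gamma0 (M * q)) R → y ∈ MS (Gamma0 (M * q ^ 2)) R :=
    fun hy => MS_mono (Gamma0_mono ⟨q, by ring⟩) hy
  refine Submodule.add_mem _ (Submodule.sub_mem _ (Submodule.smul_mem _ _ ?_) ?_) ?_
  · exact MS_mono (Gamma0_mono (dvd_mul_right M _)) hx
  · exact h1 (degen_mem hq.ne_zero (heckeT_mem_MS hq hqM hx))
  · have := degen_mem hq.ne_zero (degen_mem hq.ne_zero hx)
    rwa [mul_assoc, ← pow_two] at this

/-- `U_q (raise q x) = 0`. -/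
theorem heckeU_raise {M q : ℕ} (hq : q.Prime) (hqM : ¬ q ∣ M) {x : Pairs R}
    (hx : x ∈ MS (Gamma0 M) R) : heckeU q (raise q x) = 0 := by
  have hT := TInv_of_mem hx
  have hTT := TInv_of_mem (heckeT_mem_MS hq hqM hx)
  have hTV := TInv_of_mem (degen_mem hq.ne_zero hx)
  rw [raise_apply, map_add, map_sub, map_smul, heckeU_degen_self hq.ne_zero hTT,
    heckeU_degen_self hq.ne_zero hTV, heckeT_apply]
  module

/-- `raise` commutes with `T_ℓ`. -/
theorem heckeT_raise {M q ℓ : ℕ} (hq : q.Prime) (hqM : ¬ q ∣ M) (hℓ : ℓ.Prime)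
    (hℓq : ℓ ≠ q) {x : Pairs R} (hx : x ∈ MS (Gamma0 M) R) :
    heckeT ℓ (raise q x) = raise q (heckeT ℓ x) := by
  have hcop : Nat.Coprime q ℓ := (Nat.coprime_primes hq hℓ).mpr (Ne.symm hℓq)
  have hT := TInv_of_mem hx
  have hTT := TInv_of_mem (heckeT_mem_MS hq hqM hx)
  have hTV := TInv_of_mem (degen_mem hq.ne_zero hx)
  rw [raise_apply, raise_apply, map_add, map_sub, map_smul,
    heckeT_degen hℓ.ne_zero hq.ne_zero hcop hTT, heckeT_degen hℓ.ne_zero hq.ne_zero hcop hTV,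
    heckeT_degen hℓ.ne_zero hq.ne_zero hcop hT,
    heckeT_comm hℓ.ne_zero hq.ne_zero hcop.symm hT]

/-- `raise` commutes with `U_r`. -/
theorem heckeU_raise_comm {M q r : ℕ} (hq : q.Prime) (hqM : ¬ q ∣ M) (hr : r.Prime)
    (hrq : r ≠ q) {x : Pairs R} (hx : x ∈ MS (Gamma0 M) R) :
    heckeU r (raise q x) = raise q (heckeU r x) := by
  have hcop : Nat.Coprime q r := (Nat.coprime_primes hq hr).mpr (Ne.symm hrq)
  have hT := TInv_of_mem hx
  have hTT := TInv_of_mem (heckeT_mem_MS hq hqM hx)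
  have hTV := TInv_of_mem (degen_mem hq.ne_zero hx)
  rw [raise_apply, raise_apply, map_add, map_sub, map_smul,
    heckeU_degen hr.ne_zero hq.ne_zero hcop hTT, heckeU_degen hr.ne_zero hq.ne_zero hcop hTV,
    heckeU_degen hr.ne_zero hq.ne_zero hcop hT,
    heckeT_heckeU hq.ne_zero hr.ne_zero hcop hT]

theorem degen_slash_jMat {q : ℕ} (hq : q ≠ 0) (x : Pairs R) :
    degen q (slash jMat x) = slash jMat (degen q x) := by
  rw [degen_apply, degen_apply, ← slash_mul, ← slash_mul, jMat_mul_diagMat hq]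

/-- `raise` commutes with `ι`. -/
theorem raise_slash_jMat {M q : ℕ} (hq : q.Prime) {x : Pairs R}
    (hx : x ∈ MS (Gamma0 M) R) : raise q (slash jMat x) = slash jMat (raise q x) := by
  rw [raise_apply, raise_apply, map_add, map_sub, map_smul, heckeT_slash_jMat hx hq.ne_zero,
    degen_slash_jMat hq.ne_zero, degen_slash_jMat hq.ne_zero, degen_slash_jMat hq.ne_zero]

/-- `(raise q y)|w_{Mq²}`. -/
theorem wN_raise {M q : ℕ} (hM : M ≠ 0) (hq : q.Prime) (hqM : ¬ q ∣ M) {y : Pairs R}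
    (hy : y ∈ MS (Gamma0 M) R) : wN (M * q ^ 2) (raise q y) =
      (q : R) • degen q (degen q (wN M y)) - degen q (heckeT q (wN M y)) + wN M y := by
  have hq0 := hq.ne_zero
  have h1 : wN (M * q ^ 2) y = degen q (degen q (wN M y)) := by
    rw [degen_degen hq0 hq0, degen_wN hM (mul_ne_zero hq0 hq0), pow_two]
  have h2 : wN (M * q ^ 2) (degen q (heckeT q y)) = degen q (heckeT q (wN M y)) := by
    rw [pow_two, wN_degen hM hq0 hq0, heckeT_wN hM hq hqM hy]
  have h3 : wN (M * q ^ 2) (degen q (degen q y)) = wN M y := by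
    have := wN_degen (R := R) hM (mul_ne_zero hq0 hq0) one_ne_zero y
    rw [degen_degen hq0 hq0, pow_two]
    rw [mul_one] at this
    rw [this, degen_wN hM one_ne_zero, mul_one]
  rw [raise_apply, map_add, map_sub, map_smul, h1, h2, h3]

end mem

section adj

variable {K : Type*} [Field K] [CharZero K]

/-- `nf(U_r a, b) = r nf(a, b|V_r)`. -/
theorem nf_heckeU {r : ℕ} (hr : r ≠ 0) {a b : Pairs K} (ha : a ∈ FL K) (hb : b ∈ FL K)
    (hT : TInv b) : nf (heckeU r a) b = r * nf a (degen r b) := by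
  rw [heckeU_apply, nf_sum_left _ _ (fun i => slash_mem_FL _ ha) hb]
  have : ∀ j : ℕ, nf (slash (heckeMat r j) a) b = nf a (degen r b) := by
    intro j
    conv_lhs => rw [← slash_heckeMat_degen hr hT j]
    exact nf_slash _ (det_heckeMat hr j) ha (degen_mem_FL hb)
  simp only [this, Finset.sum_const, Finset.card_range, nsmul_eq_mul]

theorem nf_heckeT_degen {M ℓ : ℕ} (hM : M ≠ 0) (hℓ : ℓ.Prime) (hℓM : ¬ ℓ ∣ M) {a b : Pairs K}
    (ha : a ∈ MS (Gamma0 M) K) (hb : b ∈ MS (Gamma0 M) K) :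
    nf (heckeT ℓ a) b = (ℓ + 1) * nf (degen ℓ a) b := by
  have : NeZero ℓ := ⟨hℓ.ne_zero⟩
  have hcop : Nat.Coprime ℓ M := (Nat.Prime.coprime_iff_not_dvd hℓ).mpr hℓM
  have haF := mem_FL_of_Gamma0 hM ha
  have hbF := mem_FL_of_Gamma0 hM hb
  rw [heckeT_eq_sum, nf_sum_left _ _ (fun i => slash_mem_FL _ haF) hbF]
  have key : ∀ s, nf (slash (heckeRepQ ℓ s) a) b = nf (degen ℓ a) b := by
    intro s
    obtain ⟨k, hk, e⟩ := diagMat_mul_repSL (NeZero.ne ℓ) hcop s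
    have h1 : slash (heckeRepQ ℓ s) a = slash (toQ (repSL M ℓ s)) (degen ℓ a) := by
      rw [degen_apply, ← slash_mul, e, slash_toQ_mul_of_mem ha hk]
    have h2 : slash (toQ (repSL M ℓ s)) b = b := hb.2 _ (repSL_mem M ℓ s)
    rw [h1]
    conv_lhs => rw [← h2]
    exact nf_slash _ (det_toQ_pos _) (degen_mem_FL haF) hbF
  simp only [key, Finset.sum_const, Finset.card_univ, nsmul_eq_mul]
  have hc : Fintype.card (OnePoint (ZMod ℓ)) = ℓ + 1 := by
    have := Fintype.card_option (α := ZMod ℓ)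
    rw [ZMod.card] at this
    exact this
  rw [hc]
  push_cast
  ring

theorem nf_degen_comm {M ℓ : ℕ} (hM : M ≠ 0) (hℓ : ℓ.Prime) (hℓM : ¬ ℓ ∣ M) {a b : Pairs K}
    (ha : a ∈ MS (Gamma0 M) K) (hb : b ∈ MS (Gamma0 M) K) :
    nf (degen ℓ a) b = nf a (degen ℓ b) := by
  have haF := mem_FL_of_Gamma0 hM ha
  have hbF := mem_FL_of_Gamma0 hM hb
  have h1 := nf_heckeT_degen hM hℓ hℓM ha hb
  rw [heckeT_apply, nf_add_left (heckeU_mem_FL haF) (degen_mem_FL haF) hbF,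
    nf_heckeU hℓ.ne_zero haF hbF (TInv_of_mem hb)] at h1
  have h0 : (ℓ : K) ≠ 0 := Nat.cast_ne_zero.mpr hℓ.ne_zero
  have h2 : (ℓ : K) * nf (degen ℓ a) b = ℓ * nf a (degen ℓ b) := by linear_combination -h1
  exact mul_left_cancel₀ h0 h2

/-- `T_ℓ` is self-adjoint. -/
theorem nf_heckeT_comm {M ℓ : ℕ} (hM : M ≠ 0) (hℓ : ℓ.Prime) (hℓM : ¬ ℓ ∣ M) {a b : Pairs K}
    (ha : a ∈ MS (Gamma0 M) K) (hb : b ∈ MS (Gamma0 M) K) :
    nf (heckeT ℓ a) b = nf a (heckeT ℓ b) := by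
  have haF := mem_FL_of_Gamma0 hM ha
  have hbF := mem_FL_of_Gamma0 hM hb
  rw [nf_swap (heckeT_mem_FL hbF) haF, nf_heckeT_degen hM hℓ hℓM ha hb,
    nf_heckeT_degen hM hℓ hℓM hb ha, nf_degen_comm hM hℓ hℓM ha hb,
    nf_swap haF (degen_mem_FL hbF)]
  ring

theorem nf_wN_left {M : ℕ} (hM : M ≠ 0) {a b : Pairs K} (ha : a ∈ FL K) (hb : b ∈ FL K) :
    nf (wN M a) b = nf a (wN M b) := by
  conv_lhs => rw [← wN_wN hM b]
  exact nf_slash _ (det_wnMat hM) ha (wN_mem_FL hb)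

/-- `U_r` is self-adjoint for the `w_M`-twisted form. -/
theorem nf_heckeU_comm {M r : ℕ} (hM : M ≠ 0) (hr : r ≠ 0) {x y : Pairs K}
    (hx : x ∈ MS (Gamma0 M) K) (hy : y ∈ MS (Gamma0 M) K) :
    nf (heckeU r x) (wN M y) = nf x (wN M (heckeU r y)) := by
  have hxF := mem_FL_of_Gamma0 hM hx
  have hyF := mem_FL_of_Gamma0 hM hy
  rw [nf_heckeU hr hxF (wN_mem_FL hyF) (TInv_of_mem (wN_mem hM hy)), degen_wN hM hr,
    ← nf_wN_left hM hxF (heckeU_mem_FL hyF), nf_swap (heckeU_mem_FL hyF) (wN_mem_FL hxF),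
    nf_heckeU hr hyF (wN_mem_FL hxF) (TInv_of_mem (wN_mem hM hx)), degen_wN hM hr,
    nf_swap (wN_mem_FL hxF) hyF, nf_wN_left (mul_ne_zero hM hr) hxF hyF]
  ring

/-- `T_ℓ` is self-adjoint for the `w_M`-twisted form. -/
theorem nf_heckeT_wN_comm {M ℓ : ℕ} (hM : M ≠ 0) (hℓ : ℓ.Prime) (hℓM : ¬ ℓ ∣ M) {x y : Pairs K}
    (hx : x ∈ MS (Gamma0 M) K) (hy : y ∈ MS (Gamma0 M) K) :
    nf (heckeT ℓ x) (wN M y) = nf x (wN M (heckeT ℓ y)) := by
  rw [nf_heckeT_comm hM hℓ hℓM hx (wN_mem hM hy), heckeT_wN hM hℓ hℓM hy]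

/-- the value `nf(x, z|V_q²)`. -/
theorem nf_degen_sq {M q : ℕ} (hM : M ≠ 0) (hq : q.Prime) (hqM : ¬ q ∣ M) {x z : Pairs K}
    (hx : x ∈ MS (Gamma0 M) K) (hz : z ∈ MS (Gamma0 M) K) :
    (q * (q + 1) : K) * nf x (degen q (degen q z)) =
      nf (heckeT q (heckeT q x)) z - (q + 1) * nf x z := by
  have hxF := mem_FL_of_Gamma0 hM hx
  have hzF := mem_FL_of_Gamma0 hM hz
  have hTx := heckeT_mem_MS hq hqM hx
  have hTxF := mem_FL_of_Gamma0 hM hTx
  have h1 := nf_heckeU hq.ne_zero hxF (degen_mem_FL (r := q) hzF)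
    (TInv_of_mem (degen_mem hq.ne_zero hz))
  have h2 : heckeU q x = heckeT q x - degen q x := by rw [heckeT_apply]; abel
  have h3 : nf (degen q x) (degen q z) = nf x z := nf_slash _ (det_diagMat hq.ne_zero) hxF hzF
  rw [h2, nf_sub_left hTxF (degen_mem_FL hxF) (degen_mem_FL hzF), h3,
    ← nf_degen_comm hM hq hqM hTx hz] at h1
  have h4 := nf_heckeT_degen hM hq hqM hTx hz
  linear_combination -((q : K) + 1) * h1 - h4

/-- **Level raising formula** for `q ∤ M` (normalised form). -/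
theorem nf_raise {M q : ℕ} (hM : M ≠ 0) (hq : q.Prime) (hqM : ¬ q ∣ M) {x y : Pairs K}
    (hx : x ∈ MS (Gamma0 M) K) (hy : y ∈ MS (Gamma0 M) K) :
    (q * (q + 1) : K) * nf (raise q x) (wN (M * q ^ 2) (raise q y)) =
      (q - 1) * nf ((((q : K) + 1) ^ 2) • x - heckeT q (heckeT q x)) (wN M y) := by
  have hq0 := hq.ne_zero
  rw [wN_raise hM hq hqM hy]
  set z := wN M y with hzdef
  have hz : z ∈ MS (Gamma0 M) K := wN_mem hM hy
  have hTx := heckeT_mem_MS hq hqM hx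
  have hTz := heckeT_mem_MS hq hqM hz
  have hTTx := heckeT_mem_MS hq hqM hTx
  have hxF := mem_FL_of_Gamma0 hM hx
  have hzF := mem_FL_of_Gamma0 hM hz
  have hTxF := mem_FL_of_Gamma0 hM hTx
  have hTzF := mem_FL_of_Gamma0 hM hTz
  have hTTxF := mem_FL_of_Gamma0 hM hTTx
  have hV : ∀ {u : Pairs K}, u ∈ FL K → degen q u ∈ FL K := fun h => degen_mem_FL h
  have hVV : ∀ {u v : Pairs K}, u ∈ FL K → v ∈ FL K → nf (degen q u) (degen q v) = nf u v :=
    fun hu hv => nf_slash _ (det_diagMat hq0) hu hv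
  have hTT : nf (heckeT q x) (heckeT q z) = nf (heckeT q (heckeT q x)) z :=
    (nf_heckeT_comm hM hq hqM hTx hz).symm
  -- the nine values
  have v1 := nf_degen_sq hM hq hqM hx hz
  have v2 : ((q : K) + 1) * nf x (degen q (heckeT q z)) = nf (heckeT q (heckeT q x)) z := by
    rw [← nf_degen_comm hM hq hqM hx hTz, ← nf_heckeT_degen hM hq hqM hx hTz, hTT]
  have v3 : ((q : K) + 1) * nf (degen q (heckeT q x)) (degen q (degen q z)) =
      nf (heckeT q (heckeT q x)) z := by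
    rw [hVV hTxF (hV hzF), ← nf_degen_comm hM hq hqM hTx hz, ← nf_heckeT_degen hM hq hqM hTx hz]
  have v4 : nf (degen q (heckeT q x)) (degen q (heckeT q z)) = nf (heckeT q (heckeT q x)) z := by
    rw [hVV hTxF hTzF, hTT]
  have v5 : ((q : K) + 1) * nf (degen q (heckeT q x)) z = nf (heckeT q (heckeT q x)) z := by
    rw [← nf_heckeT_degen hM hq hqM hTx hz]
  have v6 : nf (degen q (degen q x)) (degen q (degen q z)) = nf x z := by
    rw [hVV (hV hxF) (hV hzF), hVV hxF hzF]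
  have v7 : ((q : K) + 1) * nf (degen q (degen q x)) (degen q (heckeT q z)) =
      nf (heckeT q (heckeT q x)) z := by
    rw [hVV (hV hxF) hTzF, ← nf_heckeT_degen hM hq hqM hx hTz, hTT]
  have v8 : ((q : K) * (q + 1)) * nf (degen q (degen q x)) z =
      nf (heckeT q (heckeT q x)) z - (q + 1) * nf x z := by
    have h1 := nf_degen_sq hM hq hqM hz hx
    rw [nf_swap (hV (hV hxF)) hzF, nf_heckeT_comm hM hq hqM hTz hx,
      nf_heckeT_comm hM hq hqM hz hTx, nf_swap hTTxF hzF, nf_swap hxF hzF] at h1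
    linear_combination -h1
  have m1 : (q : K) • x ∈ FL K := Submodule.smul_mem _ _ hxF
  have m2 := Submodule.sub_mem _ m1 (hV hTxF)
  have n1 : (q : K) • degen q (degen q z) ∈ FL K := Submodule.smul_mem _ _ (hV (hV hzF))
  have n2 := Submodule.sub_mem _ n1 (hV hTzF)
  have nT := Submodule.add_mem _ n2 hzF
  rw [raise_apply, nf_add_left m2 (hV (hV hxF)) nT, nf_sub_left m1 (hV hTxF) nT,
    nf_smul_left _ hxF nT, nf_add_right hxF n2 hzF, nf_add_right (hV hTxF) n2 hzF,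
    nf_add_right (hV (hV hxF)) n2 hzF, nf_sub_right hxF n1 (hV hTzF),
    nf_sub_right (hV hTxF) n1 (hV hTzF), nf_sub_right (hV (hV hxF)) n1 (hV hTzF),
    nf_smul_right _ hxF (hV (hV hzF)), nf_smul_right _ (hV hTxF) (hV (hV hzF)),
    nf_smul_right _ (hV (hV hxF)) (hV (hV hzF)),
    nf_sub_left (Submodule.smul_mem _ _ hxF) hTTxF hzF, nf_smul_left _ hxF hzF]
  linear_combination (q : K) ^ 2 * v1 - (q : K) ^ 2 * v2 - (q : K) ^ 2 * v3
    + (q : K) * (q + 1) * v4 - (q : K) * v5 + (q : K) ^ 2 * (q + 1) * v6 - (q : K) * v7 + v8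

end adj

end Fermat.Agent.RT.Form
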