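import Fermat.Agent.RT.FormO

/-!
# The intersection form and the involution `ι = diag(-1,1)` (team RT, helper30)

`form(x|ι, y|ι) = - form(x, y)`, hence `[x|ι, y|ι]_M = - [x, y]_M`.
-/

set_option autoImplicit false
set_option linter.unusedSectionVars false

open Matrix Matrix.SpecialLinearGroup CongruenceSubgroup
open scoped MatrixGroups OnePoint

noncomputable section

namespace Fermat.Agent.RT.Form

open Fermat.Agent.LR Fermat.Agent.LR.PS ModularCurve.Period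

local notation "T" => ModularGroup.T

theorem csum_jConj {A : Type*} [AddCommGroup A] {Γ : Subgroup SL(2, ℤ)}
    (hΓ : ∀ γ ∈ Γ, jConjSL γ ∈ Γ) {f : SL(2, ℤ) → A} (hf : ∀ γ ∈ Γ, ∀ g, f (γ * g) = f g) :
    csum Γ (fun g => f (jConjSL g)) = csum Γ f := by
  let φ : SL(2, ℤ) ⧸ Γ → SL(2, ℤ) ⧸ Γ := fun c => ((jConjSL c.out : SL(2, ℤ)) : _)
  have hφ : ∀ g : SL(2, ℤ), φ (g : SL(2, ℤ) ⧸ Γ) = ((jConjSL g : SL(2, ℤ)) : SL(2, ℤ) ⧸ Γ) := by
    intro g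
    obtain ⟨γ, hγ⟩ := QuotientGroup.mk_out_eq_mul Γ g
    change ((jConjSL _ : SL(2, ℤ)) : SL(2, ℤ) ⧸ Γ) = _
    rw [hγ, map_mul]
    exact QuotientGroup.mk_mul_of_mem _ (hΓ _ γ.2)
  have hφφ : ∀ c, φ (φ c) = c := by
    intro c
    change φ ((jConjSL c.out : SL(2, ℤ)) : SL(2, ℤ) ⧸ Γ) = c
    rw [hφ, jConjSL_jConjSL, QuotientGroup.out_eq']
  let e : (SL(2, ℤ) ⧸ Γ) ≃ (SL(2, ℤ) ⧸ Γ) := ⟨φ, φ, hφφ, hφφ⟩
  rw [csum, csum, ← finsum_comp_equiv e (f := fun c : SL(2, ℤ) ⧸ Γ => f c.out⁻¹)]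
  refine finsum_congr fun c => ?_
  change f (jConjSL c.out⁻¹) = f ((jConjSL c.out : SL(2, ℤ)) : SL(2, ℤ) ⧸ Γ).out⁻¹
  rw [out_inv_eq hf, map_inv]

section

variable {R : Type*} [CommRing R]

theorem toQ_T_inv_infty : toQ T⁻¹ • (∞ : Cusp) = ∞ := by
  have := toQ_T_zpow_smul_infty (-1)
  rwa [_root_.zpow_neg_one] at this

theorem toQ_T_inv_coe (k : ℚ) : toQ T⁻¹ • (k : Cusp) = ((k - 1 : ℚ) : Cusp) := by
  have := toQ_T_zpow_smul_coe (-1) k
  rw [_root_.zpow_neg_one] at this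
  rw [this, sub_eq_add_neg, Int.cast_neg, Int.cast_one]

theorem cupFun_jMat {x y : Pairs R} (hx : ∀ a b c, x a b + x b c = x a c)
    (hy : ∀ a b c, y a b + y b c = y a c) (g : SL(2, ℤ)) :
    cupFun (slash jMat x) (slash jMat y) g = - cupFun x y (jConjSL g * T⁻¹) := by
  have e1 : ∀ c : Cusp, jMat • (toQ g • c) = toQ (jConjSL g) • (jMat • c) := by
    intro c
    rw [← mul_smul, jMat_mul_toQ, mul_smul]
  have h0 : jMat • ((0 : ℚ) : Cusp) = ((0 : ℚ) : Cusp) := by rw [jMat_smul_coe, neg_zero]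
  have h1 : jMat • ((1 : ℚ) : Cusp) = ((-1 : ℚ) : Cusp) := jMat_smul_coe 1
  set h := jConjSL g * T⁻¹ with hh
  have k1 : toQ h • (∞ : Cusp) = toQ (jConjSL g) • ∞ := by
    rw [hh, toQ_mul_smul, toQ_T_inv_infty]
  have k2 : toQ h • ((0 : ℚ) : Cusp) = toQ (jConjSL g) • ((-1 : ℚ) : Cusp) := by
    rw [hh, toQ_mul_smul, toQ_T_inv_coe]; norm_num
  have k3 : toQ h • ((1 : ℚ) : Cusp) = toQ (jConjSL g) • ((0 : ℚ) : Cusp) := by
    rw [hh, toQ_mul_smul, toQ_T_inv_coe]; norm_num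
  have m1 : ∀ z : Pairs R, maninFun (slash jMat z) g = z (toQ h • ∞) (toQ h • ((1 : ℚ) : Cusp)) := by
    intro z
    rw [maninFun, slash_apply, e1, e1, jMat_smul_infty, h0, k1, k3]
  have m2 : ∀ z : Pairs R, maninFun (slash jMat z) (g * U) =
      z (toQ h • ((1 : ℚ) : Cusp)) (toQ h • ((0 : ℚ) : Cusp)) := by
    intro z
    rw [maninFun_mul_U, slash_apply, e1, e1, h0, h1, k2, k3]
  have m3 : ∀ z : Pairs R, maninFun z h = z (toQ h • ∞) (toQ h • ((0 : ℚ) : Cusp)) := fun z => rfl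
  have m4 : ∀ z : Pairs R, maninFun z (h * U) =
      z (toQ h • ((0 : ℚ) : Cusp)) (toQ h • ((1 : ℚ) : Cusp)) := fun z => maninFun_mul_U h
  rw [cupFun, cupFun, m1, m1, m2, m2, m3, m3, m4, m4,
    ← hx (toQ h • ∞) (toQ h • ((0 : ℚ) : Cusp)) (toQ h • ((1 : ℚ) : Cusp)),
    ← hy (toQ h • ∞) (toQ h • ((0 : ℚ) : Cusp)) (toQ h • ((1 : ℚ) : Cusp)),
    neg_swap hx (toQ h • ((0 : ℚ) : Cusp)) (toQ h • ((1 : ℚ) : Cusp)),
    neg_swap hy (toQ h • ((0 : ℚ) : Cusp)) (toQ h • ((1 : ℚ) : Cusp))]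
  ring

/-- **`form(x|ι, y|ι) = - form(x, y)`.** -/
theorem formSum_jMat {M : ℕ} {x y : Pairs R} (hx : x ∈ MS (Gamma0 M) R)
    (hy : y ∈ MS (Gamma0 M) R) :
    formSum (Gamma0 M) (slash jMat x) (slash jMat y) = - formSum (Gamma0 M) x y := by
  rw [formSum_eq_csum (slash_jMat_mem hx) (slash_jMat_mem hy), formSum_eq_csum hx hy]
  have hf := cupFun_inv hx hy
  have h1 : (cupFun (slash jMat x) (slash jMat y)) =
      fun g => - (fun g => cupFun x y (g * T⁻¹)) (jConjSL g) := by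
    funext g
    exact cupFun_jMat hx.1 hy.1 g
  rw [h1, csum_neg, csum_jConj (fun γ hγ => jConjSL_mem_Gamma0 hγ)
    (f := fun g => cupFun x y (g * T⁻¹)) (fun γ hγ g => by rw [mul_assoc]; exact hf γ hγ _),
    csum_mul_right hf]

end

section

universe u

variable {𝒪 : Type u} [CommRing 𝒪] [IsDomain 𝒪] [CharZero 𝒪]

theorem brk_jMat {M : ℕ} (hM : M ≠ 0) {x y : Pairs 𝒪} (hx : x ∈ MS (Gamma0 M) 𝒪)
    (hy : y ∈ MS (Gamma0 M) 𝒪) : brk M (slash jMat x) (slash jMat y) = - brk M x y := by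
  refine brk_ext hM (slash_jMat_mem hx) (slash_jMat_mem hy) ?_
  rw [wN_slash_jMat hM, formSum_jMat hx (wN_mem hM hy), ← three_mul_brk hM hx hy]
  ring

/-- symbols of the same sign are orthogonal. -/
theorem brk_eq_zero_of_sgn {M : ℕ} (hM : M ≠ 0) {x y : Pairs 𝒪} {ε : ℤ} (hε : ε * ε = 1)
    (hx : x ∈ sgnMS 𝒪 ε (Gamma0 M)) (hy : y ∈ sgnMS 𝒪 ε (Gamma0 M)) : brk M x y = 0 := by
  obtain ⟨hx, hx'⟩ := mem_sgnMS.mp hx
  obtain ⟨hy, hy'⟩ := mem_sgnMS.mp hy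
  have h := brk_jMat hM hx hy
  rw [hx', hy', brk_smul_left hM _ hx (Submodule.smul_mem _ _ hy), brk_smul_right hM _ hx hy,
    ← mul_assoc, ← Int.cast_mul, hε, Int.cast_one, one_mul] at h
  have h2 : (2 : 𝒪) * brk M x y = 0 := by linear_combination h
  exact (mul_eq_zero.mp h2).resolve_left two_ne_zero

/-- decomposition into signed parts when `2` is invertible. -/
theorem exists_sgn_decomp {R : Type*} [CommRing R] (h2 : IsUnit (2 : R)) {M : ℕ} {y : Pairs R}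
    (hy : y ∈ MS (Gamma0 M) R) : ∃ y₁ ∈ sgnMS R 1 (Gamma0 M), ∃ y₂ ∈ sgnMS R (-1) (Gamma0 M),
      y = y₁ + y₂ := by
  obtain ⟨u, hu⟩ := h2
  have hjj : slash jMat (slash jMat y) = y := by
    rw [← slash_mul]
    refine (slash_congr (h := 1) (c := 1) one_ne_zero ?_ y).trans (slash_one y)
    rw [val_mul', val_jMat]
    ext i j
    fin_cases i <;> fin_cases j <;> simp [Matrix.mul_apply, Fin.sum_univ_two]
  refine ⟨(↑u⁻¹ : R) • (y + slash jMat y), ?_, (↑u⁻¹ : R) • (y - slash jMat y), ?_, ?_⟩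
  · rw [mem_sgnMS]
    refine ⟨Submodule.smul_mem _ _ (Submodule.add_mem _ hy (slash_jMat_mem hy)), ?_⟩
    rw [map_smul, map_add, hjj, Int.cast_one, one_smul, add_comm]
  · rw [mem_sgnMS]
    refine ⟨Submodule.smul_mem _ _ (Submodule.sub_mem _ hy (slash_jMat_mem hy)), ?_⟩
    rw [map_smul, map_sub, hjj, Int.cast_neg, Int.cast_one, neg_smul, one_smul, ← smul_neg,
      neg_sub]
  · rw [← smul_add]
    have : y + slash jMat y + (y - slash jMat y) = (2 : R) • y := by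
      rw [two_smul]; abel
    rw [this, ← hu, smul_smul, Units.inv_mul, one_smul]

end

end Fermat.Agent.RT.Form
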