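import Fermat.Agent.RT.FormMain

/-!
# `U_q` at levels `Mq`, `Mq²` (`q ∤ M` a unit), eigenvector forms of the level raising formulas
(team RT, helper30)
-/

set_option autoImplicit false
set_option linter.unusedSectionVars false

open Matrix Matrix.SpecialLinearGroup CongruenceSubgroup IsLocalRing
open scoped MatrixGroups OnePoint

noncomputable section

namespace Fermat.Agent.RT.Form

open Fermat.Agent.LR Fermat.Agent.LR.PS Fermat.Agent.RT.Loc

section U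

variable {R : Type*} [CommRing R]

/-- `U_q` is injective on `MS (Γ₀(Mq))`, `q ∤ M`, `q` a non zero divisor. -/
theorem heckeU_injOn {M q : ℕ} (hq : q.Prime) (hqM : ¬ q ∣ M)
    (hqR : ∀ x : Pairs R, (q : R) • x = 0 → x = 0) {y : Pairs R} (hy : y ∈ MS (Gamma0 (M * q)) R)
    (h : heckeU q y = 0) : y = 0 := by
  have hcop : Nat.Coprime q M := (Nat.Prime.coprime_iff_not_dvd hq).mpr hqM
  have h1 := tr2_mem hq hqM hy
  rw [tr2_apply, h, add_zero] at h1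
  have h2 : y = degen q (wOp M q y) := by
    conv_lhs => rw [← wOp_wOp hq.ne_zero hcop hy]
    exact wOp_eq_degen h1
  have h3 := heckeU_degen_self hq.ne_zero (TInv_of_mem h1)
  rw [← h2, h] at h3
  rw [h2, hqR _ h3.symm, map_zero]

/-- the inverse of `U_q` on `MS (Γ₀(Mq))`. -/
theorem exists_heckeU_eq {M q : ℕ} (hq : q.Prime) (hqM : ¬ q ∣ M) (hqR : IsUnit (q : R))
    {y : Pairs R} (hy : y ∈ MS (Gamma0 (M * q)) R) :
    ∃ z ∈ MS (Gamma0 (M * q)) R, heckeU q z = y := by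
  obtain ⟨u, hu⟩ := hqR
  have hcop : Nat.Coprime q M := (Nat.Prime.coprime_iff_not_dvd hq).mpr hqM
  have h1 := tr1_mem hq hqM hy
  refine ⟨(↑u⁻¹ : R) • degen q (tr1 M q y) - wOp M q y, Submodule.sub_mem _
    (Submodule.smul_mem _ _ (degen_mem hq.ne_zero h1)) (wOp_mem hq.ne_zero hcop hy), ?_⟩
  rw [map_sub, map_smul, heckeU_degen_self hq.ne_zero (TInv_of_mem h1), smul_smul, ← hu,
    Units.inv_mul, one_smul, tr1_apply]
  abel

/-- the same with powers. -/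
theorem exists_heckeU_pow_eq {M q : ℕ} (hq : q.Prime) (hqM : ¬ q ∣ M) (hqR : IsUnit (q : R))
    (n : ℕ) {y : Pairs R} (hy : y ∈ MS (Gamma0 (M * q)) R) :
    ∃ z ∈ MS (Gamma0 (M * q)) R, ((heckeU q : Module.End R (Pairs R)) ^ n) z = y := by
  induction n generalizing y with
  | zero => exact ⟨y, hy, rfl⟩
  | succ n ih =>
    obtain ⟨w, hw, rfl⟩ := exists_heckeU_eq hq hqM hqR hy
    obtain ⟨z, hz, rfl⟩ := ih hw
    exact ⟨z, hz, by rw [pow_succ', Module.End.mul_apply]⟩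

theorem heckeU_pow_injOn {M q : ℕ} (hq : q.Prime) (hqM : ¬ q ∣ M)
    (hqR : ∀ x : Pairs R, (q : R) • x = 0 → x = 0) (n : ℕ) {y : Pairs R}
    (hy : y ∈ MS (Gamma0 (M * q)) R)
    (h : ((heckeU q : Module.End R (Pairs R)) ^ n) y = 0) : y = 0 := by
  have : NeZero q := ⟨hq.ne_zero⟩
  induction n generalizing y with
  | zero => exact h
  | succ n ih =>
    rw [pow_succ, Module.End.mul_apply] at h
    exact heckeU_injOn hq hqM hqR hy (ih (heckeU_mem_MS (dvd_mul_left q M) hy) h)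

end U

section nil

variable {𝒪 : Type*} [CommRing 𝒪] [IsDomain 𝒪] [IsDiscreteValuationRing 𝒪]

theorem eq_zero_of_forall_smul {y : Pairs 𝒪} (h : ∀ c : 𝒪, c ≠ 0 → ∃ z : Pairs 𝒪, y = c • z) :
    y = 0 := by
  obtain ⟨ϖ, hϖ⟩ := IsDiscreteValuationRing.exists_irreducible 𝒪
  funext s t
  have h1 : y s t ∈ (⨅ i : ℕ, maximalIdeal 𝒪 ^ i) := by
    rw [Ideal.mem_iInf]
    intro i
    obtain ⟨z, hz⟩ := h (ϖ ^ i) (pow_ne_zero i hϖ.ne_zero)
    rw [hz, hϖ.maximalIdeal_eq, Ideal.span_singleton_pow, Ideal.mem_span_singleton]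
    exact ⟨z s t, rfl⟩
  rw [Ideal.iInf_pow_eq_bot_of_isLocalRing (maximalIdeal 𝒪)
    (Ideal.IsPrime.ne_top inferInstance)] at h1
  exact (Submodule.mem_bot _).mp h1

/-- `U_q` has no topologically nilpotent part at level `Mq`. -/
theorem eq_zero_of_mem_nilSub {M q : ℕ} (hq : q.Prime) (hqM : ¬ q ∣ M) (hq𝒪 : IsUnit (q : 𝒪))
    {y : Pairs 𝒪} (hy : y ∈ MS (Gamma0 (M * q)) 𝒪)
    (h : y ∈ nilSub (heckeU q : Module.End 𝒪 (Pairs 𝒪))) : y = 0 := by
  have hqR : ∀ x : Pairs 𝒪, (q : 𝒪) • x = 0 → x = 0 := fun x hx =>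
    pairs_smul_eq_zero hq𝒪.ne_zero hx
  refine eq_zero_of_forall_smul fun c hc => ?_
  have : NeZero q := ⟨hq.ne_zero⟩
  obtain ⟨n, z, hz⟩ := h c hc
  have hpow : ((heckeU q : Module.End 𝒪 (Pairs 𝒪)) ^ n) y ∈ MS (Gamma0 (M * q)) 𝒪 := by
    clear hz
    induction n with
    | zero => exact hy
    | succ n ih =>
      rw [pow_succ', Module.End.mul_apply]
      exact heckeU_mem_MS (dvd_mul_left q M) ih
  have hzL : z ∈ MS (Gamma0 (M * q)) 𝒪 := saturated_MS _ c hc z (hz ▸ hpow)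
  obtain ⟨w, hw, rfl⟩ := exists_heckeU_pow_eq hq hqM hq𝒪 n hzL
  refine ⟨w, ?_⟩
  have h1 : ((heckeU q : Module.End 𝒪 (Pairs 𝒪)) ^ n) (y - c • w) = 0 := by
    rw [map_sub, hz, map_smul, sub_self]
  exact sub_eq_zero.mp (heckeU_pow_injOn hq hqM hqR n
    (Submodule.sub_mem _ hy (Submodule.smul_mem _ _ hw)) h1)

/-- **(F5)** at level `Mq²`: topologically nilpotent for `U_q` implies `U_q x = 0`. -/
theorem heckeU_eq_zero_of_mem_nilSub {M q : ℕ} (hq : q.Prime) (hqM : ¬ q ∣ M)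
    (hq𝒪 : IsUnit (q : 𝒪)) {x : Pairs 𝒪} (hx : x ∈ MS (Gamma0 (M * q ^ 2)) 𝒪)
    (h : x ∈ nilSub (heckeU q : Module.End 𝒪 (Pairs 𝒪))) : heckeU q x = 0 := by
  have : NeZero q := ⟨hq.ne_zero⟩
  rw [pow_two, ← mul_assoc] at hx
  refine eq_zero_of_mem_nilSub hq hqM hq𝒪 (heckeU_lower (dvd_mul_left q M) hx) ?_
  intro c hc
  obtain ⟨n, z, hz⟩ := h c hc
  refine ⟨n, heckeU q z, ?_⟩
  have h1 : ((heckeU q : Module.End 𝒪 (Pairs 𝒪)) ^ n) (heckeU q x) =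
      heckeU q (((heckeU q : Module.End 𝒪 (Pairs 𝒪)) ^ n) x) := by
    rw [← Module.End.mul_apply, ← pow_succ, pow_succ', Module.End.mul_apply]
  rw [h1, hz, map_smul]

theorem mem_nilSub_of_eq_zero {T : Module.End 𝒪 (Pairs 𝒪)} {x : Pairs 𝒪} (h : T x = 0) :
    x ∈ nilSub T := fun c _ => ⟨1, 0, by rw [pow_one, h, smul_zero]⟩

/-- `nilSub U_q = ker U_q` on `MS (Γ₀(Mq²))`. -/
theorem mem_nilSub_heckeU_iff {M q : ℕ} (hq : q.Prime) (hqM : ¬ q ∣ M)
    (hq𝒪 : IsUnit (q : 𝒪)) {x : Pairs 𝒪} (hx : x ∈ MS (Gamma0 (M * q ^ 2)) 𝒪) :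
    x ∈ nilSub (heckeU q : Module.End 𝒪 (Pairs 𝒪)) ↔ heckeU q x = 0 :=
  ⟨heckeU_eq_zero_of_mem_nilSub hq hqM hq𝒪 hx, mem_nilSub_of_eq_zero⟩

end nil

section raiseP

variable {R : Type*} [CommRing R]

/-- `x ↦ a x - x|V_q`. -/
def raiseP (a : R) (q : ℕ) : Pairs R →ₗ[R] Pairs R := a • LinearMap.id - degen q

theorem raiseP_apply (a : R) (q : ℕ) (x : Pairs R) : raiseP a q x = a • x - degen q x := rfl

theorem raiseP_mem {M q : ℕ} (hq : q ≠ 0) (a : R) {x : Pairs R} (hx : x ∈ MS (Gamma0 M) R) :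
    raiseP a q x ∈ MS (Gamma0 (M * q)) R :=
  Submodule.sub_mem _ (Submodule.smul_mem _ _ (MS_mono (Gamma0_mono (dvd_mul_right M q)) hx))
    (degen_mem hq hx)

/-- `U_q (a x - x|V_q) = a (a x - x|V_q)` if `T_q x = t x`, `a² - t a + q = 0`. -/
theorem heckeU_raiseP {M q : ℕ} (hq : q ≠ 0) {x : Pairs R}
    (hx : x ∈ MS (Gamma0 M) R) {t a : R} (ht : heckeT q x = t • x) (ha : a ^ 2 - t * a + q = 0) :
    heckeU q (raiseP a q x) = a • raiseP a q x := by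
  have h1 : heckeU q x = t • x - degen q x := by
    rw [← ht, heckeT_apply]; abel
  rw [raiseP_apply, map_sub, map_smul, heckeU_degen_self hq (TInv_of_mem hx), h1]
  have h2 : (a ^ 2) • x = (t * a - q) • x := by
    congr 1
    linear_combination ha
  rw [smul_sub a (a • x), smul_smul a a, ← pow_two, h2]
  module

theorem heckeT_raiseP {M q ℓ : ℕ} (hq : q.Prime) (hℓ : ℓ.Prime) (hℓq : ℓ ≠ q) (a : R)
    {x : Pairs R} (hx : x ∈ MS (Gamma0 M) R) :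
    heckeT ℓ (raiseP a q x) = raiseP a q (heckeT ℓ x) := by
  have hcop : Nat.Coprime q ℓ := (Nat.coprime_primes hq hℓ).mpr (Ne.symm hℓq)
  rw [raiseP_apply, raiseP_apply, map_sub, map_smul,
    heckeT_degen hℓ.ne_zero hq.ne_zero hcop (TInv_of_mem hx)]

theorem heckeU_raiseP_comm {M q r : ℕ} (hq : q.Prime) (hr : r.Prime) (hrq : r ≠ q) (a : R)
    {x : Pairs R} (hx : x ∈ MS (Gamma0 M) R) :
    heckeU r (raiseP a q x) = raiseP a q (heckeU r x) := by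
  have hcop : Nat.Coprime q r := (Nat.coprime_primes hq hr).mpr (Ne.symm hrq)
  rw [raiseP_apply, raiseP_apply, map_sub, map_smul,
    heckeU_degen hr.ne_zero hq.ne_zero hcop (TInv_of_mem hx)]

theorem raiseP_slash_jMat {q : ℕ} (hq : q ≠ 0) (a : R) (x : Pairs R) :
    raiseP a q (slash jMat x) = slash jMat (raiseP a q x) := by
  rw [raiseP_apply, raiseP_apply, map_sub, map_smul, degen_slash_jMat hq]

theorem raiseP_mem_sgnMS {M q : ℕ} (hq : q ≠ 0) (a : R) {ε : ℤ} {x : Pairs R}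
    (hx : x ∈ sgnMS R ε (Gamma0 M)) : raiseP a q x ∈ sgnMS R ε (Gamma0 (M * q)) := by
  obtain ⟨h1, h2⟩ := mem_sgnMS.mp hx
  refine mem_sgnMS.mpr ⟨raiseP_mem hq a h1, ?_⟩
  rw [← raiseP_slash_jMat hq, h2, map_smul]

theorem raise_mem_sgnMS {M q : ℕ} (hq : q.Prime) (hqM : ¬ q ∣ M) {ε : ℤ} {x : Pairs R}
    (hx : x ∈ sgnMS R ε (Gamma0 M)) : raise q x ∈ sgnMS R ε (Gamma0 (M * q ^ 2)) := by
  obtain ⟨h1, h2⟩ := mem_sgnMS.mp hx
  refine mem_sgnMS.mpr ⟨raise_mem hq hqM h1, ?_⟩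
  rw [← raise_slash_jMat hq h1, h2, map_smul]

end raiseP

section eigen

universe u

variable {𝒪 : Type u} [CommRing 𝒪] [IsDomain 𝒪] [CharZero 𝒪]

/-- level raising formula on eigenvectors. -/
theorem brk_raise_eigen {M q : ℕ} (hM : M ≠ 0) (hq : q.Prime) (hqM : ¬ q ∣ M) {x y : Pairs 𝒪}
    (hx : x ∈ MS (Gamma0 M) 𝒪) (hy : y ∈ MS (Gamma0 M) 𝒪) {t : 𝒪} (ht : heckeT q x = t • x) :
    brk (M * q ^ 2) (raise q x) (raise q y) =
      ((q : 𝒪) - 1) * (((q : 𝒪) + 1) ^ 2 - t ^ 2) * brk M x y := by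
  rw [brk_raise hM hq hqM hx hy, ht, map_smul, ht, smul_smul, ← sub_smul,
    brk_smul_left hM _ hx hy]
  ring

/-- level raising formula at level `Mp` on eigenvectors. -/
theorem brk_raiseP_eigen {M q : ℕ} (hM : M ≠ 0) (hq : q.Prime) (hqM : ¬ q ∣ M) {x y : Pairs 𝒪}
    (hx : x ∈ MS (Gamma0 M) 𝒪) (hy : y ∈ MS (Gamma0 M) 𝒪) {t a : 𝒪} (ht : heckeT q x = t • x)
    (ha : a ^ 2 - t * a + q = 0) :
    brk (M * q) (a • x - degen q x) (a • y - degen q y) =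
      (a ^ 2 - 1) * (2 * a - t) * brk M x y := by
  have hax := Submodule.smul_mem _ a hx
  have hay := Submodule.smul_mem _ a hy
  rw [brk_raiseP hM hq hqM hx hy hax hay, map_smul, ht, brk_smul_left hM _
    (Submodule.smul_mem _ _ hx) hay, brk_smul_left hM _ hx hay, brk_smul_left hM _ hx hy,
    brk_smul_left hM _ hx hy, brk_smul_right hM _ hx hy]
  linear_combination (-2 * a * brk M x y) * ha

end eigen

end Fermat.Agent.RT.Form
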