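import Fermat.Agent.LR.Ihara
import Fermat.Agent.LR.FrobInput
import Fermat.Agent.LR.Ops
import Fermat.Agent.RT.Defs

/-!
# Injectivity mod `𝔪` of the level raising maps (RT-IHARA)

* `raise q x = q x - (T_q x)|V_q + x|V_q²` (level `Γ₀(M) → Γ₀(M q²)`), `q ∤ M`;
* `mem_of_degen_mem`: `Γ₀(Mq)` and `Γ₀(M) ∩ Γ⁰(q)` generate `Γ₀(M)`;
* `degen_of_raise_eq_zero`: `raise q x = 0 ⇒ x = x''|V_q` with `x''` of level `M`, if `q` is a unit;
* `heckeT_of_raise_eq_zero`, `heckeT_of_degen_eq`: then `T_ℓ x = 2 x` for suitable `ℓ`;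
* `exists_prime_raise`: existence of such `ℓ` with `a_ℓ ≢ 2 mod p`;
* `raise_injective_mod`, `degen_injective_mod`: the statements over `𝒪`.
-/

set_option autoImplicit false

open Matrix Matrix.SpecialLinearGroup CongruenceSubgroup IsLocalRing
open scoped MatrixGroups OnePoint

namespace Fermat.Agent.RT.IharaInj

open Fermat.Agent.LR

variable {R : Type*} [CommRing R]

/-- `x ↦ q x - (T_q x)|V_q + x|V_q²`. -/
noncomputable def raise (R : Type*) [CommRing R] (q : ℕ) : Pairs R →ₗ[R] Pairs R :=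
  (q : R) • LinearMap.id - degen q ∘ₗ heckeT q + degen q ∘ₗ degen q

theorem raise_apply (q : ℕ) (x : Pairs R) :
    raise R q x = (q : R) • x - degen q (heckeT q x) + degen q (degen q x) := rfl

theorem mapCoeff_smul {S : Type*} [CommRing S] (f : R →+* S) (r : R) (x : Pairs R) :
    mapCoeff f (r • x) = f r • mapCoeff f x := by
  funext a b
  simp [mapCoeff_apply]

theorem mapCoeff_degen {S : Type*} [CommRing S] (f : R →+* S) (q : ℕ) (x : Pairs R) :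
    mapCoeff f (degen q x) = degen q (mapCoeff f x) := mapCoeff_slash f _ x

theorem mapCoeff_raise {S : Type*} [CommRing S] (f : R →+* S) (q : ℕ) (x : Pairs R) :
    mapCoeff f (raise R q x) = raise S q (mapCoeff f x) := by
  rw [raise_apply, raise_apply, map_add, map_sub, mapCoeff_smul, mapCoeff_degen, mapCoeff_degen,
    mapCoeff_degen, mapCoeff_heckeT, map_natCast]

theorem slash_injective (g : GL (Fin 2) ℚ) :
    Function.Injective (slash (R := R) g) := by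
  intro x y h
  have h1 := congrArg (slash g⁻¹) h
  rwa [← slash_mul, ← slash_mul, mul_inv_cancel, slash_one, slash_one] at h1

theorem degen_injective (q : ℕ) : Function.Injective (degen (R := R) q) := slash_injective _

/-- `raise` maps level `M` to level `M q²`. -/
theorem raise_mem {M q : ℕ} (hq : q.Prime) (hqM : ¬ q ∣ M) {x : Pairs R}
    (hx : x ∈ MS (Gamma0 M) R) : raise R q x ∈ MS (Gamma0 (M * q ^ 2)) R := by
  have h1 : Gamma0 (M * q ^ 2) ≤ Gamma0 M := Gamma0_mono (Dvd.intro _ rfl)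
  have h2 : Gamma0 (M * q ^ 2) ≤ Gamma0 (M * q) := Gamma0_mono ⟨q, by ring⟩
  rw [raise_apply]
  refine add_mem (sub_mem (Submodule.smul_mem _ _ (MS_mono h1 hx))
    (MS_mono h2 (degen_mem hq.ne_zero (heckeT_mem_MS hq hqM hx)))) ?_
  have h3 := degen_mem hq.ne_zero (degen_mem hq.ne_zero hx)
  rwa [mul_assoc, ← pow_two] at h3

/-- `Γ₀(Mq)` and `Γ₀(M) ∩ Γ⁰(q)` generate `Γ₀(M)`: a symbol `x` of level `Mq` such that `x|V_q` is
of level `M` is itself of level `M`. -/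
theorem mem_of_degen_mem {M q : ℕ} (hq : q.Prime) (hqM : ¬ q ∣ M) {x : Pairs R}
    (hx : x ∈ MS (Gamma0 (M * q)) R) (hd : degen q x ∈ MS (Gamma0 M) R) : x ∈ MS (Gamma0 M) R := by
  have : Fact q.Prime := ⟨hq⟩
  have hq0 : q ≠ 0 := hq.ne_zero
  have hqQ : (q : ℚ) ≠ 0 := by exact_mod_cast hq0
  have hcop : Nat.Coprime M q := ((Nat.Prime.coprime_iff_not_dvd hq).mpr hqM).symm
  have hT := TInv_of_mem hx
  -- invariance under `Γ₀(M) ∩ Γ⁰(q)`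
  have key : ∀ γ ∈ Gamma0 M, (q : ℤ) ∣ γ 0 1 → slash (toQ γ) x = x := by
    intro γ hγ hb
    obtain ⟨b, hb⟩ := hb
    have hdet := det_eq' γ
    rw [hb] at hdet
    obtain ⟨e, he⟩ := mem_Gamma0_iff.mp hγ
    let γ' : SL(2, ℤ) := mkSL (γ 0 0) b (q * γ 1 0) (γ 1 1) (by linear_combination hdet)
    have hγ' : γ' ∈ Gamma0 M := by
      rw [mem_Gamma0_iff]
      exact Dvd.dvd.mul_left (mem_Gamma0_iff.mp hγ) _
    have h1 : diagMat q * toQ γ' = toQ γ * diagMat q := by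
      apply Units.ext
      have hk : (toQ γ' : Matrix (Fin 2) (Fin 2) ℚ) = _ := val_toQ_mkSL _ _ _ _ _
      rw [val_mul', val_mul', hk, val_toQ, val_diagMat hq0, hb]
      ext i j
      fin_cases i <;> fin_cases j <;> simp [Matrix.mul_apply, Fin.sum_univ_two] <;> ring
    refine slash_injective (diagMat q) ?_
    rw [← slash_mul, ← h1, slash_mul, ← degen_apply, hd.2 γ' hγ']
  refine ⟨hx.1, fun γ hγ => ?_⟩
  by_cases hc : (q : ℤ) ∣ γ 1 0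
  · refine hx.2 γ ?_
    rw [mem_Gamma0_iff]
    push_cast
    exact IsCoprime.mul_dvd (Nat.isCoprime_iff_coprime.mpr hcop) (mem_Gamma0_iff.mp hγ) hc
  · -- `T^j γ T^i ∈ Γ⁰(q)`
    have hc0 : ((γ 1 0 : ℤ) : ZMod q) ≠ 0 := fun h =>
      hc ((ZMod.intCast_zmod_eq_zero_iff_dvd _ _).mp h)
    obtain ⟨j, hj⟩ : ∃ j : ℤ, ((γ 0 0 + j * γ 1 0 : ℤ) : ZMod q) = 1 := by
      refine ⟨((((1 : ZMod q) - (γ 0 0 : ℤ)) * ((γ 1 0 : ℤ) : ZMod q)⁻¹).val : ℤ), ?_⟩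
      push_cast
      rw [ZMod.natCast_zmod_val, mul_assoc, inv_mul_cancel₀ hc0]
      ring
    set i : ℤ := -(γ 0 1 + j * γ 1 1) with hi
    set g : SL(2, ℤ) := ModularGroup.T ^ j * γ * ModularGroup.T ^ i with hg
    have hgM : g ∈ Gamma0 M :=
      mul_mem (mul_mem (T_zpow_mem_Gamma0 M j) hγ) (T_zpow_mem_Gamma0 M i)
    have hg01 : (q : ℤ) ∣ g 0 1 := by
      have e : g 0 1 = (γ 0 0 + j * γ 1 0) * i + (γ 0 1 + j * γ 1 1) := by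
        simp only [hg, Matrix.SpecialLinearGroup.coe_mul, Matrix.mul_apply, Fin.sum_univ_two,
          ModularGroup.coe_T_zpow, Matrix.of_apply, Matrix.cons_val_zero, Matrix.cons_val_one,
          Matrix.cons_val']
        ring
      rw [← ZMod.intCast_zmod_eq_zero_iff_dvd, e]
      rw [Int.cast_add, Int.cast_mul, hj, one_mul, hi]
      push_cast
      ring
    have h2 := key g hgM hg01
    rw [hg, toQ_mul, toQ_mul, slash_mul, slash_mul, hT j] at h2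
    refine slash_injective (toQ (ModularGroup.T ^ i)) ?_
    rw [h2, hT i]

/-- If `raise q x = 0` and `q` is a unit in `R` then `x` is in the image of `V_q`. -/
theorem degen_of_raise_eq_zero {M q : ℕ} (hq : q.Prime) (hqM : ¬ q ∣ M) (hqR : IsUnit (q : R))
    {x : Pairs R} (hx : x ∈ MS (Gamma0 M) R) (h : raise R q x = 0) :
    ∃ x' ∈ MS (Gamma0 M) R, x = degen q x' := by
  obtain ⟨u, hu⟩ := hqR
  have h1 : x = degen q ((↑u⁻¹ : R) • (heckeT q x - degen q x)) := by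
    have h2 : (q : R) • x = degen q (heckeT q x - degen q x) := by
      rw [raise_apply] at h
      rw [map_sub, ← sub_eq_zero, ← h]
      abel
    rw [map_smul, ← h2, smul_smul, ← hu, Units.inv_mul, one_smul]
  refine ⟨_, mem_of_degen_mem hq hqM ?_ (h1 ▸ hx), h1⟩
  exact Submodule.smul_mem _ _ (sub_mem
    (MS_mono (Gamma0_mono (Dvd.intro _ rfl)) (heckeT_mem_MS hq hqM hx)) (degen_mem hq.ne_zero hx))

/-- The condition on `ℓ` used below. -/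
def Good (M q p ℓ : ℕ) : Prop :=
  ℓ.Prime ∧ ℓ ≡ 1 [MOD M * (p * (2 * M.totient))] ∧ ∀ t : ZMod ℓ, t ^ p ≠ q

/-- **(I1)** -/
theorem heckeT_of_raise_eq_zero {M q p ℓ : ℕ} (hM : M ≠ 0) (hq : q.Prime) (hqM : ¬ q ∣ M)
    (hp : p.Prime) (hpR : (p : R) = 0) (hqR : IsUnit (q : R)) {x : Pairs R}
    (hx : x ∈ MS (Gamma0 M) R) (h : raise R q x = 0) (hℓ : Good M q p ℓ) :
    heckeT ℓ x = (2 : R) • x := by
  obtain ⟨x', hx', h1⟩ := degen_of_raise_eq_zero hq hqM hqR hx h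
  exact heckeT_eq_two_smul_of_degen hM hq hqM hp hpR (MS_Gamma1 hx) (MS_Gamma1 hx') h1 hℓ.1 hℓ.2.1
    hℓ.2.2

theorem Good.coprime {M q p ℓ : ℕ} (hp : p.Prime) (h : Good M q p ℓ) (hq : q.Prime) :
    Nat.Coprime q ℓ := by
  refine (Nat.coprime_primes hq h.1).mpr ?_
  rintro rfl
  exact h.2.2 0 (by rw [zero_pow hp.ne_zero, ZMod.natCast_self])

/-- **(I2)** (no hypothesis on `q` and `p`): if `x` and `x|V_q` both have level `M` then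
`T_ℓ x = 2 x`. -/
theorem heckeT_of_degen_mem {M q p ℓ : ℕ} (hM : M ≠ 0) (hq : q.Prime) (hqM : ¬ q ∣ M)
    (hp : p.Prime) (hpR : (p : R) = 0) {x : Pairs R}
    (hx : x ∈ MS (Gamma0 M) R) (h : degen q x ∈ MS (Gamma0 M) R) (hℓ : Good M q p ℓ) :
    heckeT ℓ x = (2 : R) • x := by
  have h1 := heckeT_eq_two_smul_of_degen hM hq hqM hp hpR (MS_Gamma1 h) (MS_Gamma1 hx) rfl hℓ.1
    hℓ.2.1 hℓ.2.2
  refine degen_injective q ?_
  rw [← heckeT_degen hℓ.1.ne_zero hq.ne_zero (hℓ.coprime hp hq) (TInv_of_mem hx), h1, map_smul]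

/-! ### (I3): existence of good primes -/

/-- **(I3)** -/
theorem exists_good {W : WeierstrassCurve ℤ} (hΔ : W.Δ ≠ 0) {p : ℕ}
    (hp : p.Prime) (hp2 : p ≠ 2) (hirr : W.ModRepIsIrreducible p)
    {M q : ℕ} (hM : M ≠ 0) (hq : q.Prime) (D : ℕ) (hD : 0 < D) (S : Finset ℕ) :
    ∃ ℓ : ℕ, Good M q p ℓ ∧ ℓ ∉ S ∧ ℓ ≡ 1 [MOD D] ∧ ¬ ℓ ∣ M ∧ W.IsGoodPrimeFor ℓ ∧
      ¬ (p : ℤ) ∣ (W.apOfModel ℓ - 2) := by
  have hM' : 0 < M * (p * (2 * M.totient)) :=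
    Nat.mul_pos (Nat.pos_of_ne_zero hM) (Nat.mul_pos hp.pos
      (Nat.mul_pos two_pos (Nat.totient_pos.mpr (Nat.pos_of_ne_zero hM))))
  obtain ⟨ℓ, hℓ, hℓS, hℓD, hgood, hpow, ht⟩ :=
    LR.GaloisInput.exists_prime_of_modRepIsIrreducible hΔ hp hp2
      (LR.GaloisInput.frobTraceInput W hp) hirr hq (D * (M * (p * (2 * M.totient))))
      (Nat.mul_pos hD hM') (S ∪ M.primeFactors)
  rw [Finset.mem_union, not_or] at hℓS
  exact ⟨ℓ, ⟨hℓ, hℓD.of_mul_left _, hpow⟩, hℓS.1, hℓD.of_mul_right _,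
    fun h => hℓS.2 (Nat.mem_primeFactors.mpr ⟨hℓ, h, hM⟩), hgood, ht⟩

/-! ### (I4): the statements over `𝒪` -/

section O

variable {𝒪 k : Type*} [CommRing 𝒪] [CommRing k]

/-- reduction of the statement `x ∈ nilSub T`. -/
theorem pow_smul_eq_zero_of_mem_nilSub {π : 𝒪 →+* k} {ϖ : 𝒪} (hϖ : ϖ ≠ 0) (hπϖ : π ϖ = 0)
    {ℓ : ℕ} {t : 𝒪} {x : Pairs 𝒪}
    (hx : x ∈ nilSub (heckeT ℓ - t • LinearMap.id : Module.End 𝒪 (Pairs 𝒪)))
    (h2 : heckeT ℓ (mapCoeff π x) = (2 : k) • mapCoeff π x) :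
    ∃ n : ℕ, (2 - π t) ^ n • mapCoeff π x = 0 := by
  obtain ⟨n, z, hz⟩ := hx ϖ hϖ
  refine ⟨n, ?_⟩
  have h3 : ∀ m : ℕ, mapCoeff π (((heckeT ℓ - t • LinearMap.id : Module.End 𝒪 (Pairs 𝒪)) ^ m) x) =
      (2 - π t) ^ m • mapCoeff π x := by
    intro m
    induction m with
    | zero => simp
    | succ m ih =>
      rw [pow_succ', Module.End.mul_apply, LinearMap.sub_apply, LinearMap.smul_apply,
        LinearMap.id_apply, map_sub, mapCoeff_heckeT, mapCoeff_smul, ih, map_smul, h2, smul_smul,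
        smul_smul, ← sub_smul, pow_succ]
      congr 1
      ring
  rw [← h3, hz, mapCoeff_smul, hπϖ, zero_smul]

/-- if `T_ℓ x̄ = 2 x̄` and `x` lies in a part containing `T_ℓ - t`, `t ≢ 2`, then `x̄ = 0`. -/
theorem mapCoeff_eq_zero_of_mem_nilSub {π : 𝒪 →+* k} {ϖ : 𝒪} (hϖ : ϖ ≠ 0) (hπϖ : π ϖ = 0)
    {ℓ : ℕ} {t : 𝒪} (ht : IsUnit (2 - π t)) {x : Pairs 𝒪}
    (hx : x ∈ nilSub (heckeT ℓ - t • LinearMap.id : Module.End 𝒪 (Pairs 𝒪)))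
    (h2 : heckeT ℓ (mapCoeff π x) = (2 : k) • mapCoeff π x) : mapCoeff π x = 0 := by
  obtain ⟨n, hn⟩ := pow_smul_eq_zero_of_mem_nilSub hϖ hπϖ hx h2
  obtain ⟨u, hu⟩ := ht.pow n
  rw [← hu] at hn
  have := congrArg (fun y => (↑u⁻¹ : k) • y) hn
  simpa [smul_smul] using this

theorem exists_smul_iff {π : 𝒪 →+* k} {ϖ : 𝒪} (hπ : ∀ a : 𝒪, π a = 0 ↔ ϖ ∣ a) {x : Pairs 𝒪} :
    (∃ z : Pairs 𝒪, x = ϖ • z) ↔ mapCoeff π x = 0 := by
  constructor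
  · rintro ⟨z, rfl⟩
    rw [mapCoeff_smul, (hπ ϖ).mpr dvd_rfl, zero_smul]
  · intro h
    have h1 : ∀ a b, ∃ z, x a b = ϖ * z := fun a b =>
      (hπ _).mp (congrFun (congrFun h a) b)
    choose z hz using h1
    exact ⟨z, by funext a b; exact hz a b⟩

/-- division by `ϖ` stays in `MS Γ`. -/
theorem mem_MS_of_smul [IsDomain 𝒪] {ϖ : 𝒪} (hϖ : ϖ ≠ 0) {Γ : Subgroup SL(2, ℤ)} {z : Pairs 𝒪}
    (h : ϖ • z ∈ MS Γ 𝒪) : z ∈ MS Γ 𝒪 := by
  refine ⟨fun a b c => ?_, fun γ hγ => ?_⟩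
  · have h1 := h.1 a b c
    simp only [Pi.smul_apply, smul_eq_mul, ← mul_add] at h1
    exact mul_left_cancel₀ hϖ h1
  · have h1 := h.2 γ hγ
    rw [map_smul] at h1
    funext a b
    exact mul_left_cancel₀ hϖ (congrFun (congrFun h1 a) b)

theorem mem_nilSub_of_smul [IsDomain 𝒪] {ϖ : 𝒪} (hϖ : ϖ ≠ 0) {T : Module.End 𝒪 (Pairs 𝒪)}
    {z : Pairs 𝒪} (h : ϖ • z ∈ nilSub T) : z ∈ nilSub T := by
  intro c hc
  obtain ⟨n, w, hw⟩ := h (ϖ * c) (mul_ne_zero hϖ hc)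
  refine ⟨n, w, ?_⟩
  rw [map_smul, mul_smul] at hw
  funext a b
  exact mul_left_cancel₀ hϖ (congrFun (congrFun hw a) b)

/-- `part (MS Γ) F` is saturated. -/
theorem mem_part_of_smul [IsDomain 𝒪] {ϖ : 𝒪} (hϖ : ϖ ≠ 0) {Γ : Subgroup SL(2, ℤ)}
    {F : Set (Module.End 𝒪 (Pairs 𝒪))} {z : Pairs 𝒪} (h : ϖ • z ∈ part (MS Γ 𝒪) F) :
    z ∈ part (MS Γ 𝒪) F :=
  mem_part.mpr ⟨mem_MS_of_smul hϖ (mem_part.mp h).1,
    fun T hT => mem_nilSub_of_smul hϖ ((mem_part.mp h).2 T hT)⟩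

/-- **(I4), `q ≠ p`.** `raise q` is injective mod `ϖ` on a non-Eisenstein part. -/
theorem raise_injective_mod {π : 𝒪 →+* k} {ϖ : 𝒪} (hϖ : ϖ ≠ 0) (hπ : ∀ a : 𝒪, π a = 0 ↔ ϖ ∣ a)
    {M q p ℓ : ℕ} (hM : M ≠ 0) (hq : q.Prime) (hqM : ¬ q ∣ M) (hp : p.Prime) (hpk : (p : k) = 0)
    (hqk : IsUnit (q : k)) (hℓ : Good M q p ℓ) {F : Set (Module.End 𝒪 (Pairs 𝒪))} {t : 𝒪}
    (hF : (heckeT ℓ - t • LinearMap.id : Module.End 𝒪 (Pairs 𝒪)) ∈ F) (ht : IsUnit (2 - π t))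
    {x : Pairs 𝒪} (hx : x ∈ part (MS (Gamma0 M) 𝒪) F)
    (h : ∃ z : Pairs 𝒪, raise 𝒪 q x = ϖ • z) : ∃ z : Pairs 𝒪, x = ϖ • z := by
  rw [exists_smul_iff hπ] at h ⊢
  rw [mapCoeff_raise] at h
  exact mapCoeff_eq_zero_of_mem_nilSub hϖ ((hπ ϖ).mpr dvd_rfl) ht ((mem_part.mp hx).2 _ hF)
    (heckeT_of_raise_eq_zero hM hq hqM hp hpk hqk (mapCoeff_mem π (mem_part.mp hx).1) h hℓ)

/-- **(I4), `V_q`.** If `x|V_q ≡ y mod ϖ` with `x, y` of level `M`, then `x ≡ 0 mod ϖ`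
on a non-Eisenstein part. -/
theorem degen_injective_mod {π : 𝒪 →+* k} {ϖ : 𝒪} (hϖ : ϖ ≠ 0) (hπ : ∀ a : 𝒪, π a = 0 ↔ ϖ ∣ a)
    {M q p ℓ : ℕ} (hM : M ≠ 0) (hq : q.Prime) (hqM : ¬ q ∣ M) (hp : p.Prime) (hpk : (p : k) = 0)
    (hℓ : Good M q p ℓ) {F : Set (Module.End 𝒪 (Pairs 𝒪))} {t : 𝒪}
    (hF : (heckeT ℓ - t • LinearMap.id : Module.End 𝒪 (Pairs 𝒪)) ∈ F) (ht : IsUnit (2 - π t))
    {x y : Pairs 𝒪} (hx : x ∈ part (MS (Gamma0 M) 𝒪) F) (hy : y ∈ MS (Gamma0 M) 𝒪)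
    (h : ∃ z : Pairs 𝒪, y - degen q x = ϖ • z) : ∃ z : Pairs 𝒪, x = ϖ • z := by
  rw [exists_smul_iff hπ] at h ⊢
  rw [map_sub, mapCoeff_degen, sub_eq_zero] at h
  refine mapCoeff_eq_zero_of_mem_nilSub hϖ ((hπ ϖ).mpr dvd_rfl) ht ((mem_part.mp hx).2 _ hF)
    (heckeT_of_degen_mem hM hq hqM hp hpk (mapCoeff_mem π (mem_part.mp hx).1) ?_ hℓ)
  rw [← h]
  exact mapCoeff_mem π hy

/-- `(I4)` with the quotient in the same part. -/
theorem exists_mem_part [IsDomain 𝒪] {ϖ : 𝒪} (hϖ : ϖ ≠ 0) {Γ : Subgroup SL(2, ℤ)}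
    {F : Set (Module.End 𝒪 (Pairs 𝒪))} {x : Pairs 𝒪} (hx : x ∈ part (MS Γ 𝒪) F)
    (h : ∃ z : Pairs 𝒪, x = ϖ • z) : ∃ z ∈ part (MS Γ 𝒪) F, x = ϖ • z := by
  obtain ⟨z, rfl⟩ := h
  exact ⟨z, mem_part_of_smul hϖ hx, rfl⟩

end O

end Fermat.Agent.RT.IharaInj
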