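import Fermat.Agent.RT.PatchingLimit
import Mathlib.NumberTheory.Padics.PadicVal.Basic
import Mathlib.RingTheory.DiscreteValuationRing.Basic

/-!
# Patching: `PatchingDatum` gives a patching level with `J = ⊥`
-/

set_option autoImplicit false
set_option linter.unusedSectionVars false

open IsLocalRing MvPowerSeries Filter Fermat.Agent.RT.ULim

namespace Fermat.Agent.RT.Patch

section assemble

variable {𝒪 : Type} [CommRing 𝒪] [IsLocalRing 𝒪] [IsNoetherianRing 𝒪]
  [Finite (ResidueField 𝒪)] {r : ℕ} {R : Type} [CommRing R] [Algebra 𝒪 R]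
  {M : Type} [AddCommGroup M] [Module R M] {J : ℕ → Ideal (MvPowerSeries (Fin r) 𝒪)}
  {d : ℕ} {e : Fin d → M} {𝓤 : Ultrafilter ℕ} {L : ∀ n, Algebra.PatchingLevel 𝒪 r R M (J n)}

namespace LimitData

/-- the limit module -/
def N (_D : LimitData 𝓤 L e) : Type := Fin d → MvPowerSeries (Fin r) 𝒪

variable (D : LimitData 𝓤 L e)

noncomputable instance : AddCommGroup D.N :=
  inferInstanceAs (AddCommGroup (Fin d → MvPowerSeries (Fin r) 𝒪))

/-- the action on the limit module -/
noncomputable def toEnd : MvPowerSeries (Fin r) 𝒪 →+*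
    Module.End (MvPowerSeries (Fin r) 𝒪) (Fin d → MvPowerSeries (Fin r) 𝒪) :=
  (Matrix.toLinAlgEquiv' (n := Fin d) (R := MvPowerSeries (Fin r) 𝒪) : _ →+* _).comp D.c

noncomputable instance : Module (MvPowerSeries (Fin r) 𝒪) D.N :=
  Module.compHom (Fin d → MvPowerSeries (Fin r) 𝒪) D.toEnd

/-- coordinates on the limit module -/
def coord (v : D.N) (i : Fin d) : MvPowerSeries (Fin r) 𝒪 :=
  (show Fin d → MvPowerSeries (Fin r) 𝒪 from v) i

/-- elements of the limit module from coordinates -/
def of (v : Fin d → MvPowerSeries (Fin r) 𝒪) : D.N := v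

@[simp] theorem coord_of (v : Fin d → MvPowerSeries (Fin r) 𝒪) (i : Fin d) :
    D.coord (D.of v) i = v i := rfl

theorem coord_ext {v w : D.N} (h : ∀ i, D.coord v i = D.coord w i) : v = w := funext h

theorem coord_smul (s : MvPowerSeries (Fin r) 𝒪) (v : D.N) (i : Fin d) :
    D.coord (s • v) i = ∑ j, D.c s i j * D.coord v j := by
  change (D.toEnd s) v i = _
  rw [toEnd, RingHom.comp_apply]
  change Matrix.toLinAlgEquiv' (D.c s) v i = _
  rw [Matrix.toLinAlgEquiv'_apply]
  rfl

theorem coord_φ_smul (s : MvPowerSeries (Fin r) 𝒪) (v : D.N) (i : Fin d) :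
    D.coord (D.φ s • v) i = s * D.coord v i := by
  rw [coord_smul]
  simp [D.c_φ]

theorem coord_add (v w : D.N) (i : Fin d) : D.coord (v + w) i = D.coord v i + D.coord w i := rfl

theorem coord_zero (i : Fin d) : D.coord 0 i = 0 := rfl

theorem coord_sum {ι : Type*} (s : Finset ι) (v : ι → D.N) (i : Fin d) :
    D.coord (∑ k ∈ s, v k) i = ∑ k ∈ s, D.coord (v k) i := by
  classical
  induction s using Finset.induction_on with
  | empty => simp [coord_zero]
  | insert a s ha ih => rw [Finset.sum_insert ha, Finset.sum_insert ha, coord_add, ih]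

/-- the limit projection -/
noncomputable def π : D.N →+ M where
  toFun v := ∑ i, algebraMap 𝒪 R (constantCoeff (D.coord v i)) • e i
  map_zero' := by simp [coord_zero]
  map_add' v w := by simp only [coord_add, map_add, add_smul, Finset.sum_add_distrib]

theorem π_apply (v : D.N) :
    D.π v = ∑ i, algebraMap 𝒪 R (constantCoeff (D.coord v i)) • e i := rfl

include D in
theorem exists_level [Nontrivial M] : Nonempty (Algebra.PatchingLevel 𝒪 r R M ⊥) := by
  obtain ⟨ψ, hsurj, hψφ, hψ⟩ := D.exists_ψ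
  have hπ_smul : ∀ (f : MvPowerSeries (Fin r) 𝒪) (x : D.N), D.π (f • x) = ψ f • D.π x := by
    intro f x
    rw [D.π_apply, D.π_apply, Finset.smul_sum]
    calc ∑ i, algebraMap 𝒪 R (constantCoeff (D.coord (f • x) i)) • e i
        = ∑ i, ∑ j, algebraMap 𝒪 R (constantCoeff (D.c f i j) *
            constantCoeff (D.coord x j)) • e i := by
          refine Finset.sum_congr rfl fun i _ => ?_
          rw [D.coord_smul]
          simp only [map_sum, map_mul, Finset.sum_smul]
      _ = ∑ j, algebraMap 𝒪 R (constantCoeff (D.coord x j)) •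
            ∑ i, algebraMap 𝒪 R (constantCoeff (D.c f i j)) • e i := by
          rw [Finset.sum_comm]
          refine Finset.sum_congr rfl fun j _ => ?_
          rw [Finset.smul_sum]
          refine Finset.sum_congr rfl fun i _ => ?_
          rw [smul_smul]
          simp only [map_mul]
          congr 1
          ring
      _ = _ := by
          refine Finset.sum_congr rfl fun j _ => ?_
          rw [← hψ f j, smul_comm]
  refine ⟨{
    N := D.N
    φ := D.φ
    ψ := ψ
    ψ_surjective := hsurj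
    ψ_φ_X := hψφ
    π := D.π
    π_smul := hπ_smul
    π_surjective := ?_
    ker_π := ?_
    d := d
    b := fun i => D.of (Pi.single i 1)
    b_span := ?_
    b_rel := ?_ }⟩
  · intro m
    obtain ⟨a, rfl⟩ := D.oBasis.span m
    refine ⟨D.of (fun i => C (a i)), ?_⟩
    rw [D.π_apply]
    simp
  · intro x
    constructor
    · intro hx
      have h0 : ∀ i, constantCoeff (D.coord x i) = 0 := by
        rw [D.π_apply] at hx
        exact D.oBasis.indep _ hx
      have h1 : x = ∑ j, D.φ (X j) • D.of (fun i => xquot (D.coord x i) j) := by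
        apply D.coord_ext
        intro i
        rw [D.coord_sum]
        simp only [D.coord_φ_smul, coord_of]
        conv_lhs => rw [eq_C_add_sum (D.coord x i), h0 i, map_zero, zero_add]
      rw [h1]
      exact Submodule.sum_mem _ fun j _ =>
        Submodule.smul_mem_smul (Ideal.subset_span (Set.mem_range_self j)) trivial
    · intro hx
      have hspan : ∀ a ∈ Ideal.span (Set.range fun i : Fin r => D.φ (X i)), ψ a = 0 := by
        have : Ideal.span (Set.range fun i : Fin r => D.φ (X i)) ≤ RingHom.ker ψ := by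
          rw [Ideal.span_le]
          rintro _ ⟨i, rfl⟩
          exact hψφ i
        exact fun a ha => this ha
      induction hx using Submodule.smul_induction_on' with
      | smul a ha n _ => rw [hπ_smul, hspan a ha, zero_smul]
      | add x _ y _ hx hy => rw [map_add, hx, hy, add_zero]
  · intro x
    refine ⟨D.coord x, ?_⟩
    apply D.coord_ext
    intro i
    rw [D.coord_sum]
    simp only [D.coord_φ_smul, coord_of]
    simp [Pi.single_apply]
  · intro c
    have h1 : ∀ i, D.coord (∑ j, D.φ (c j) • D.of (Pi.single j 1)) i = c i := by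
      intro i
      rw [D.coord_sum]
      simp only [D.coord_φ_smul, coord_of]
      simp [Pi.single_apply]
    constructor
    · intro h i
      have h2 := h1 i
      rw [h, D.coord_zero] at h2
      rw [← h2]
      exact zero_mem _
    · intro h
      apply D.coord_ext
      intro i
      rw [h1 i, D.coord_zero]
      simpa using h i

end LimitData

end assemble

/-- the trivial level when `M = 0`. -/
theorem exists_level_of_subsingleton {𝒪 : Type} [CommRing 𝒪] {r : ℕ} {R : Type} [CommRing R]
    [Algebra 𝒪 R] {M : Type} [AddCommGroup M] [Module R M] [Subsingleton M]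
    {J : Ideal (MvPowerSeries (Fin r) 𝒪)} (L : Algebra.PatchingLevel 𝒪 r R M J) :
    Nonempty (Algebra.PatchingLevel 𝒪 r R M ⊥) := by
  refine ⟨{
    N := PUnit
    φ := L.φ
    ψ := L.ψ
    ψ_surjective := L.ψ_surjective
    ψ_φ_X := L.ψ_φ_X
    π := 0
    π_smul := fun _ _ => Subsingleton.elim _ _
    π_surjective := fun m => ⟨0, Subsingleton.elim _ _⟩
    ker_π := fun x => by
      have : x = 0 := rfl
      subst this
      exact ⟨fun _ => zero_mem _, fun _ => rfl⟩
    d := 0
    b := fun i => i.elim0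
    b_span := fun x => ⟨fun i => i.elim0, rfl⟩
    b_rel := fun c => ⟨fun _ i => i.elim0, fun _ => rfl⟩ }⟩

section main

variable {𝒪 : Type} [CommRing 𝒪] [IsLocalRing 𝒪] [IsNoetherianRing 𝒪]
  [Finite (ResidueField 𝒪)] [IsAdicComplete (maximalIdeal 𝒪) 𝒪]
  {r : ℕ} {R : Type} [CommRing R] [Algebra 𝒪 R]
  {M : Type} [AddCommGroup M] [Module R M]

/-- **Patching**, general form: a sequence of patching levels for ideals `J n → 0`. -/
theorem exists_level_bot_of_tendsto {J : ℕ → Ideal (MvPowerSeries (Fin r) 𝒪)}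
    (L : ∀ n, Algebra.PatchingLevel 𝒪 r R M (J n))
    (hJ0 : ∀ n, ∀ f ∈ J n, constantCoeff f = 0)
    (hJ : ∀ k, ∀ᶠ n in (atTop : Filter ℕ), J n ≤ maximalIdeal (MvPowerSeries (Fin r) 𝒪) ^ k) :
    Nonempty (Algebra.PatchingLevel 𝒪 r R M ⊥) := by
  rcases subsingleton_or_nontrivial M with hM | hM
  · exact exists_level_of_subsingleton (L 0)
  · have hB : ∀ n, Nonempty (ABasis (L n) (fun i => (L 0).π ((L 0).b i))) := fun n =>
      (ABasis.self (L n)).exists_of_oBasis ((ABasis.self (L n)).oBasis (hJ0 n))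
        ((ABasis.self (L 0)).oBasis (hJ0 0))
    let 𝓤 : Ultrafilter ℕ := Filter.hyperfilter ℕ
    let D : LimitData 𝓤 L (fun i => (L 0).π ((L 0).b i)) :=
      { B := fun n => (hB n).some
        oBasis := (ABasis.self (L 0)).oBasis (hJ0 0)
        hS := hasULim_mvPowerSeries hasULim_maximalIdeal
        hJ := fun k => (Nat.hyperfilter_le_atTop) (hJ k) }
    exact D.exists_level

/-- `(1 + x) ^ (ℓ ^ n) - 1 ∈ m ^ (n + 1)` if `x, ℓ ∈ m`. -/
theorem one_add_pow_sub_one_mem {A : Type*} [CommRing A] (I : Ideal A) (ℓ : ℕ) (hℓ : (ℓ : A) ∈ I)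
    {x : A} (hx : x ∈ I) (n : ℕ) : (1 + x) ^ (ℓ ^ n) - 1 ∈ I ^ (n + 1) := by
  induction n with
  | zero => simpa using hx
  | succ n ih =>
    set y := (1 + x) ^ (ℓ ^ n) - 1 with hy
    have h1 : (1 + x) ^ (ℓ ^ (n + 1)) - 1 = (1 + y) ^ ℓ - 1 := by
      rw [hy, pow_succ, pow_mul]; ring
    have h2 : (1 + y) ^ ℓ - 1 = ∑ j ∈ Finset.range ℓ, y * (1 + y) ^ j := by
      have := mul_geom_sum (1 + y) ℓ
      rw [← this, Finset.mul_sum]
      simp
    have h3 : ∑ j ∈ Finset.range ℓ, y * (1 + y) ^ j =
        y * ℓ + ∑ j ∈ Finset.range ℓ, y * ((1 + y) ^ j - 1) := by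
      simp only [mul_sub, Finset.sum_sub_distrib, mul_one, Finset.sum_const, Finset.card_range,
        nsmul_eq_mul]
      ring
    rw [h1, h2, h3]
    refine add_mem ?_ (Ideal.sum_mem _ fun j _ => ?_)
    · rw [pow_succ I (n + 1)]
      exact Ideal.mul_mem_mul ih hℓ
    · rw [pow_succ I (n + 1)]
      refine Ideal.mul_mem_mul ih ?_
      have h4 : y ∣ (1 + y) ^ j - 1 := by
        simpa using sub_dvd_pow_sub_pow (1 + y) 1 j
      have h5 : y ∈ I := Ideal.pow_le_self (Nat.succ_ne_zero n) ih
      exact Ideal.mem_of_dvd _ h4 h5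

/-- **Patching**: a patching datum in the sense of the prelude gives a patching level with `J = ⊥`. -/
theorem exists_patchingLevel_bot {ℓ : ℕ} (hℓ : (ℓ : 𝒪) ∈ maximalIdeal 𝒪)
    (D : Algebra.PatchingDatum 𝒪 ℓ r R M) : Nonempty (Algebra.PatchingLevel 𝒪 r R M ⊥) := by
  refine exists_level_bot_of_tendsto D.level ?_ ?_
  · intro n f hf
    have h1 : Ideal.span (Set.range fun j : Fin r =>
      ((1 + MvPowerSeries.X j) ^ (ℓ ^ n) - 1 : MvPowerSeries (Fin r) 𝒪)) ≤
        RingHom.ker (constantCoeff : MvPowerSeries (Fin r) 𝒪 →+* 𝒪) := by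
      rw [Ideal.span_le]
      rintro _ ⟨j, rfl⟩
      simp [RingHom.mem_ker]
    exact h1 hf
  · intro k
    filter_upwards [eventually_ge_atTop k] with n hn
    rw [Ideal.span_le]
    rintro _ ⟨j, rfl⟩
    have h2 : ((ℓ : ℕ) : MvPowerSeries (Fin r) 𝒪) ∈ maximalIdeal (MvPowerSeries (Fin r) 𝒪) := by
      have := C_mem_maximalIdeal (r := r) hℓ
      simpa using this
    have h3 := one_add_pow_sub_one_mem (maximalIdeal (MvPowerSeries (Fin r) 𝒪)) ℓ h2
      (X_mem_maximalIdeal j) n
    exact Ideal.pow_le_pow_right (by omega) h3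

end main

end Fermat.Agent.RT.Patch
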