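import Fermat.Prelude.Def_Algebra_PatchingDatum
import Fermat.Agent.RT.MvEval
import Fermat.Agent.RT.FiniteComplete
import Fermat.Agent.RT.Patching
import Mathlib.Algebra.MonoidAlgebra.Basic
import Mathlib.Data.ZMod.Basic

/-!
# Constructing patching levels
-/

set_option autoImplicit false
set_option linter.unusedSectionVars false

open IsLocalRing MvPowerSeries

namespace Fermat.Agent.RT.LevelMk

open Fermat.Agent.RT.ULim Fermat.Agent.RT.MvEval

/-- Construction of a patching level out of a complete local ring `R'` which is a quotient of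
`𝒪⟦X⟧` (via `γ`), an `R'`-module `M'` which is free modulo `J` over `𝒪⟦S⟧` (via `β`). -/
theorem exists_level {𝒪 : Type} [CommRing 𝒪] [IsLocalRing 𝒪] [IsNoetherianRing 𝒪]
    [IsAdicComplete (maximalIdeal 𝒪) 𝒪] {r : ℕ}
    {R' : Type} [CommRing R'] [IsLocalRing R'] [Algebra 𝒪 R']
    {R : Type} [CommRing R] [Algebra 𝒪 R]
    {M : Type} [AddCommGroup M] [Module R M]
    {M' : Type} [AddCommGroup M'] [Module R' M']
    {J : Ideal (MvPowerSeries (Fin r) 𝒪)}
    (γ : MvPowerSeries (Fin r) 𝒪 →ₐ[𝒪] R') (hγ : Function.Surjective γ)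
    (β : MvPowerSeries (Fin r) 𝒪 →ₐ[𝒪] R') (hβ : ∀ i, β (X i) ∈ maximalIdeal R')
    (ρ : R' →ₐ[𝒪] R) (hρ : Function.Surjective ρ) (hρβ : ∀ i, ρ (β (X i)) = 0)
    (π : M' →+ M) (hπ : ∀ (f : R') (x : M'), π (f • x) = ρ f • π x)
    (hπs : Function.Surjective π)
    (hker : ∀ x, π x = 0 → x ∈ (Ideal.span (Set.range fun i : Fin r => β (X i))) •
      (⊤ : Submodule R' M'))
    {d : ℕ} (b : Fin d → M')
    (hspan : ∀ x : M', ∃ c : Fin d → MvPowerSeries (Fin r) 𝒪, x = ∑ i, β (c i) • b i)
    (hrel : ∀ c : Fin d → MvPowerSeries (Fin r) 𝒪, ∑ i, β (c i) • b i = 0 ↔ ∀ i, c i ∈ J) :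
    Nonempty (Algebra.PatchingLevel 𝒪 r R M J) := by
  have hcomp : IsAdicComplete (maximalIdeal (MvPowerSeries (Fin r) 𝒪))
    (MvPowerSeries (Fin r) 𝒪) := isAdicComplete_mvPowerSeries
  have hmapγ : (maximalIdeal (MvPowerSeries (Fin r) 𝒪)).map
      (γ : MvPowerSeries (Fin r) 𝒪 →+* R') = maximalIdeal R' :=
    IsLocalRing.map_maximalIdeal_of_surjective _ hγ
  have hloc : IsLocalHom (γ : MvPowerSeries (Fin r) 𝒪 →+* R') :=
    Function.Surjective.isLocalHom _ hγ
  have hNoeth : IsNoetherianRing R' :=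
    isNoetherianRing_of_surjective _ _ (γ : MvPowerSeries (Fin r) 𝒪 →+* R') hγ
  -- lifts
  have hlift : ∀ i, ∃ s ∈ maximalIdeal (MvPowerSeries (Fin r) 𝒪), γ s = β (X i) := by
    intro i
    obtain ⟨s, hs⟩ := hγ (β (X i))
    refine ⟨s, ?_, hs⟩
    have := hβ i
    rw [← hs] at this
    have h2 : s ∈ (maximalIdeal R').comap (γ : MvPowerSeries (Fin r) 𝒪 →+* R') := this
    rwa [IsLocalRing.maximalIdeal_comap] at h2
  choose s hs hsβ using hlift
  have hlocC : IsLocalHom (algebraMap 𝒪 (MvPowerSeries (Fin r) 𝒪)) := by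
    refine ⟨fun a ha => ?_⟩
    change IsUnit (C a) at ha
    rw [isUnit_iff_constantCoeff] at ha
    simpa using ha
  obtain ⟨φ, hφ⟩ := exists_eval (𝒪 := 𝒪) s hs
  have hγφ : ∀ f, γ (φ f) = β f := by
    have : γ.comp φ = β := by
      refine hom_ext (J := maximalIdeal R') uHaus_maximalIdeal ?_ ?_
      · intro i
        rw [AlgHom.comp_apply, hφ, hsβ]
        exact hβ i
      · intro i
        rw [AlgHom.comp_apply, hφ, hsβ]
    intro f
    rw [← this]; rfl
  let inst : Module (MvPowerSeries (Fin r) 𝒪) M' :=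
    Module.compHom M' (γ : MvPowerSeries (Fin r) 𝒪 →+* R')
  have hsmul : ∀ (f : MvPowerSeries (Fin r) 𝒪) (x : M'), f • x = γ f • x := fun _ _ => rfl
  have hsmulφ : ∀ (f : MvPowerSeries (Fin r) 𝒪) (x : M'), φ f • x = β f • x := by
    intro f x
    rw [hsmul, hγφ]
  have hincl : ∀ x : M', x ∈ (Ideal.span (Set.range fun i : Fin r => β (X i))) •
      (⊤ : Submodule R' M') → x ∈ (Ideal.span (Set.range fun i : Fin r => φ (X i))) •
      (⊤ : Submodule (MvPowerSeries (Fin r) 𝒪) M') := by
    intro x h1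
    induction h1 using Submodule.smul_induction_on' with
    | smul a ha n _ =>
      induction ha using Submodule.span_induction with
      | mem a ha =>
        obtain ⟨i, rfl⟩ := ha
        have : β (X i) • n = φ (X i) • n := (hsmulφ _ _).symm
        dsimp only
        rw [this]
        exact Submodule.smul_mem_smul (Ideal.subset_span (Set.mem_range_self i)) trivial
      | zero => rw [zero_smul]; exact zero_mem _
      | add a b _ _ iha ihb => rw [add_smul]; exact add_mem iha ihb
      | smul t a _ ih =>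
        obtain ⟨t, rfl⟩ := hγ t
        rw [smul_eq_mul, mul_smul, ← hsmul]
        exact Submodule.smul_mem _ _ ih
    | add x _ y _ hx' hy' => exact add_mem hx' hy'
  refine ⟨{
    N := M'
    φ := φ
    ψ := ρ.comp γ
    ψ_surjective := hρ.comp hγ
    ψ_φ_X := fun i => by rw [AlgHom.comp_apply, hγφ, hρβ]
    π := π
    π_smul := fun f x => by rw [hsmul, hπ]; rfl
    π_surjective := hπs
    ker_π := ?_
    d := d
    b := b
    b_span := ?_
    b_rel := ?_ }⟩
  · intro x
    constructor
    · intro hx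
      exact hincl x (hker x hx)
    · intro hx
      induction hx using Submodule.smul_induction_on' with
      | smul a ha n _ =>
        rw [hsmul, hπ]
        have : ρ (γ a) = 0 := by
          have h2 : Ideal.span (Set.range fun i : Fin r => φ (X i)) ≤
              RingHom.ker ((ρ.comp γ : MvPowerSeries (Fin r) 𝒪 →ₐ[𝒪] R) :
                MvPowerSeries (Fin r) 𝒪 →+* R) := by
            rw [Ideal.span_le]
            rintro _ ⟨i, rfl⟩
            change ρ (γ (φ (X i))) = 0
            rw [hγφ, hρβ]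
          exact h2 ha
        rw [this, zero_smul]
      | add x _ y _ hx hy => rw [map_add, hx, hy, add_zero]
  · intro x
    obtain ⟨c, hc⟩ := hspan x
    refine ⟨c, ?_⟩
    rw [hc]
    exact Finset.sum_congr rfl fun i _ => (hsmulφ _ _).symm
  · intro c
    rw [← hrel c]
    simp only [hsmulφ]

end Fermat.Agent.RT.LevelMk
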