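import Mathlib

/-!
# The plus part of modular symbols is projective over the group ring (team RT, helper59)

Abstract finite combinatorics: `X` a finite set (in the application `±Γ\SL(2,ℤ)`) with
permutations `s, κ, u` (`s` = right multiplication by `S`, `u` = right multiplication by `U`,
`κ = s ∘ ι`, `ι = conjugation by diag(-1,1)`) such that
`s² = κ² = 1`, `sκ = κs`, `u³ = 1`, `κ u κ = u⁻¹` and `⟨s,u⟩` is transitive.
-/

set_option autoImplicit false

open scoped Pointwise

namespace Fermat.Agent.RT.Manin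

/-- Combinatorial data underlying Manin symbols. -/
structure Data (X : Type*) where
  s : Equiv.Perm X
  κ : Equiv.Perm X
  u : Equiv.Perm X
  s_s : ∀ x, s (s x) = x
  κ_κ : ∀ x, κ (κ x) = x
  s_κ : ∀ x, s (κ x) = κ (s x)
  u_u_u : ∀ x, u (u (u x)) = x
  κ_u : ∀ x, u (κ (u x)) = κ x
  trans : ∀ f : X → Prop, (∀ x, f (s x) = f x) → (∀ x, f (u x) = f x) → ∀ x y, f x = f y

namespace Data

variable {X : Type*} (D : Data X)

theorem const {α : Type*} (f : X → α) (hs : ∀ x, f (D.s x) = f x) (hu : ∀ x, f (D.u x) = f x)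
    (x y : X) : f x = f y := by
  have := D.trans (fun z => f z = f x) (fun z => by simp only [hs]) (fun z => by simp only [hu]) x y
  simpa [eq_comm] using this

section Functions

variable {A : Type*} [CommRing A] {V : Type*} [AddCommGroup V] [Module A V]

/-- precomposition with `s` -/
def cs : (X → V) →ₗ[A] (X → V) := LinearMap.funLeft A V D.s
def cκ : (X → V) →ₗ[A] (X → V) := LinearMap.funLeft A V D.κ
def cu : (X → V) →ₗ[A] (X → V) := LinearMap.funLeft A V D.u

@[simp] theorem cs_apply (m : X → V) (x : X) :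
    D.cs (A := A) m x = m (D.s x) := rfl
@[simp] theorem cκ_apply (m : X → V) (x : X) :
    D.cκ (A := A) m x = m (D.κ x) := rfl
@[simp] theorem cu_apply (m : X → V) (x : X) :
    D.cu (A := A) m x = m (D.u x) := rfl

/-- `N_U m (x) = m x + m (u x) + m (u² x)` -/
def nu : (X → V) →ₗ[A] (X → V) := LinearMap.id + D.cu + D.cu ∘ₗ D.cu

@[simp] theorem nu_apply (m : X → V) (x : X) :
    D.nu (A := A) m x = m x + m (D.u x) + m (D.u (D.u x)) := rfl

variable (A V)

/-- `E = {m | m ∘ s = -m, m ∘ κ = -m}` -/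
def E : Submodule A (X → V) where
  carrier := {m | (∀ x, m (D.s x) = - m x) ∧ ∀ x, m (D.κ x) = - m x}
  zero_mem' := by simp
  add_mem' := by
    rintro a b ⟨h1, h2⟩ ⟨h3, h4⟩
    exact ⟨fun x => by simp [h1, h3, add_comm], fun x => by simp [h2, h4, add_comm]⟩
  smul_mem' := by
    rintro c a ⟨h1, h2⟩
    exact ⟨fun x => by simp [h1], fun x => by simp [h2]⟩

/-- `F = {n | n ∘ u = n, n ∘ κ = -n}` -/
def F : Submodule A (X → V) where
  carrier := {m | (∀ x, m (D.u x) = m x) ∧ ∀ x, m (D.κ x) = - m x}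
  zero_mem' := by simp
  add_mem' := by
    rintro a b ⟨h1, h2⟩ ⟨h3, h4⟩
    exact ⟨fun x => by simp [h1, h3], fun x => by simp [h2, h4, add_comm]⟩
  smul_mem' := by
    rintro c a ⟨h1, h2⟩
    exact ⟨fun x => by simp [h1], fun x => by simp [h2]⟩

/-- `K = {m | m ∘ κ = -m, N_U m = 0}` -/
def K : Submodule A (X → V) where
  carrier := {m | (∀ x, m x + m (D.u x) + m (D.u (D.u x)) = 0) ∧ ∀ x, m (D.κ x) = - m x}
  zero_mem' := by simp
  add_mem' := by
    rintro a b ⟨h1, h2⟩ ⟨h3, h4⟩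
    refine ⟨fun x => ?_, fun x => by simp [h2, h4, add_comm]⟩
    have := h1 x
    have h' := h3 x
    simp only [Pi.add_apply]
    calc _ = (a x + a (D.u x) + a (D.u (D.u x))) + (b x + b (D.u x) + b (D.u (D.u x))) := by abel
      _ = 0 := by rw [this, h', add_zero]
  smul_mem' := by
    rintro c a ⟨h1, h2⟩
    refine ⟨fun x => ?_, fun x => by simp [h2]⟩
    simp only [Pi.smul_apply, ← smul_add, h1 x, smul_zero]

/-- The plus part of modular symbols: `m ∘ s = -m`, `m ∘ κ = -m` and `N_U m = 0`. -/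
def MSp : Submodule A (X → V) := D.E A V ⊓ D.K A V

variable {A V}

theorem mem_E {m : X → V} : m ∈ D.E A V ↔ (∀ x, m (D.s x) = - m x) ∧ ∀ x, m (D.κ x) = - m x :=
  Iff.rfl
theorem mem_F {m : X → V} : m ∈ D.F A V ↔ (∀ x, m (D.u x) = m x) ∧ ∀ x, m (D.κ x) = - m x :=
  Iff.rfl
theorem mem_K {m : X → V} : m ∈ D.K A V ↔
    (∀ x, m x + m (D.u x) + m (D.u (D.u x)) = 0) ∧ ∀ x, m (D.κ x) = - m x := Iff.rfl

theorem mem_MSp {m : X → V} : m ∈ D.MSp A V ↔ (∀ x, m (D.s x) = - m x) ∧
    (∀ x, m (D.κ x) = - m x) ∧ ∀ x, m x + m (D.u x) + m (D.u (D.u x)) = 0 := by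
  rw [MSp, Submodule.mem_inf, mem_E, mem_K]
  tauto

theorem uκ (x : X) : D.u (D.κ x) = D.κ (D.u (D.u x)) := by
  have h := D.κ_u (D.u (D.u x))
  rw [D.u_u_u] at h
  exact h

theorem uuκ (x : X) : D.u (D.u (D.κ x)) = D.κ (D.u x) := by
  rw [D.uκ, D.uκ, D.u_u_u]

section half

variable [Invertible (2 : A)]

/-- `P m = (m - m ∘ κ)/2`. -/
def P : (X → V) →ₗ[A] (X → V) := (⅟2 : A) • (LinearMap.id - D.cκ)

theorem P_apply (m : X → V) (x : X) : D.P (A := A) m x = (⅟2 : A) • (m x - m (D.κ x)) := rfl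

theorem P_κ (m : X → V) (x : X) : D.P (A := A) m (D.κ x) = - D.P (A := A) m x := by
  rw [P_apply, P_apply, D.κ_κ, ← smul_neg, neg_sub]

theorem P_eq_self {m : X → V} (hm : ∀ x, m (D.κ x) = - m x) : D.P (A := A) m = m := by
  funext x
  rw [P_apply, hm, sub_neg_eq_add, ← two_smul A, smul_smul, invOf_mul_self, one_smul]

theorem P_sub_cs_mem (m : X → V) : D.P (A := A) (m - D.cs (A := A) m) ∈ D.E A V := by
  refine ⟨fun x => ?_, fun x => D.P_κ _ x⟩
  simp only [P_apply, Pi.sub_apply, cs_apply, ← smul_neg, D.s_s]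
  congr 1
  rw [← D.s_κ x, D.s_s]
  abel

theorem P_sub_cu_mem (m : X → V) : D.P (A := A) (m - D.cu (A := A) m) ∈ D.K A V := by
  refine ⟨fun x => ?_, fun x => D.P_κ _ x⟩
  simp only [P_apply, Pi.sub_apply, cu_apply, ← smul_add]
  have h1 : D.κ (D.u x) = D.u (D.u (D.κ x)) := (D.uuκ x).symm
  have h2 : D.κ (D.u (D.u x)) = D.u (D.κ x) := (D.uκ x).symm
  rw [h1, h2, D.u_u_u, D.u_u_u]
  have : ∀ a b c d e f : V, a - b - (d - e) + (b - c - (f - d)) + (c - a - (e - f)) = 0 := by
    intros; abel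
  rw [this, smul_zero]

theorem P_comp_κ (m : X → V) : D.P (A := A) (D.cκ (A := A) m) = - D.P (A := A) m := by
  funext x
  simp only [P_apply, cκ_apply, D.κ_κ, Pi.neg_apply, ← smul_neg, neg_sub]

variable [Finite X]

theorem P_mem (m : X → V) : D.P (A := A) m ∈ D.E A V ⊔ D.K A V := by
  classical
  have := Fintype.ofFinite X
  have key : ∀ (v : V) (x : X), D.P (A := A) (Pi.single x v) ∈ D.E A V ⊔ D.K A V := by
    intro v
    set W := D.E A V ⊔ D.K A V with hW
    have hsingle : ∀ (e : Equiv.Perm X) (x : X), (fun y => (Pi.single (e x) v : X → V) (e y))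
        = Pi.single x v := by
      intro e x
      funext y
      by_cases h : y = x
      · subst h; simp
      · rw [Pi.single_eq_of_ne h, Pi.single_eq_of_ne (fun h' => h (e.injective h'))]
    set f : X → ((X → V) ⧸ W) := fun x => W.mkQ (D.P (A := A) (Pi.single x v)) with hf
    have hs : ∀ x, f (D.s x) = f x := by
      intro x
      have h1 : D.P (A := A) (Pi.single (D.s x) v - D.cs (A := A) (Pi.single (D.s x) v)) ∈ W :=
        Submodule.mem_sup_left (D.P_sub_cs_mem _)
      have h2 : D.cs (A := A) (Pi.single (D.s x) v : X → V) = Pi.single x v := hsingle D.s x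
      rw [h2, map_sub] at h1
      simp only [hf, Submodule.mkQ_apply]
      exact (Submodule.Quotient.eq W).mpr h1
    have hu : ∀ x, f (D.u x) = f x := by
      intro x
      have h1 : D.P (A := A) (Pi.single (D.u x) v - D.cu (A := A) (Pi.single (D.u x) v)) ∈ W :=
        Submodule.mem_sup_right (D.P_sub_cu_mem _)
      have h2 : D.cu (A := A) (Pi.single (D.u x) v : X → V) = Pi.single x v := hsingle D.u x
      rw [h2, map_sub] at h1
      simp only [hf, Submodule.mkQ_apply]
      exact (Submodule.Quotient.eq W).mpr h1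
    intro x
    have h3 : f (D.κ x) = - f x := by
      have h2 : D.cκ (A := A) (Pi.single (D.κ x) v : X → V) = Pi.single x v := hsingle D.κ x
      have h4 := D.P_comp_κ (A := A) (Pi.single (D.κ x) v)
      rw [h2] at h4
      simp only [hf, h4, map_neg, neg_neg]
    have h5 : f (D.κ x) = f x := D.const f hs hu _ _
    rw [h5] at h3
    have h6 : (2 : A) • f x = 0 := by
      rw [two_smul]; nth_rewrite 2 [h3]; exact add_neg_cancel _
    have h7 : f x = 0 := by
      have := congrArg ((⅟2 : A) • ·) h6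
      simpa [smul_smul] using this
    exact (Submodule.Quotient.mk_eq_zero W).mp h7
  have hm : m = ∑ x, Pi.single x (m x) := (Finset.univ_sum_single m).symm
  rw [hm, map_sum]
  exact Submodule.sum_mem _ fun x _ => key _ x

/-- **Exactness of the plus part.** -/
theorem exists_mem_E_nu_eq (m₀ : X → V) (h : D.nu (A := A) m₀ ∈ D.F A V) :
    ∃ m ∈ D.E A V, D.nu (A := A) m = D.nu (A := A) m₀ := by
  have hB := D.P_mem (A := A) m₀
  obtain ⟨e, he, k, hk, hek⟩ := Submodule.mem_sup.mp hB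
  refine ⟨e, he, ?_⟩
  have h1 : D.nu (A := A) (D.P (A := A) m₀) = D.nu (A := A) m₀ := by
    funext x
    have h2 := h.2 x
    rw [nu_apply, nu_apply, D.uuκ, D.uκ] at h2
    rw [nu_apply, nu_apply, P_apply, P_apply, P_apply, ← smul_add, ← smul_add]
    have h3 : m₀ x - m₀ (D.κ x) + (m₀ (D.u x) - m₀ (D.κ (D.u x))) +
        (m₀ (D.u (D.u x)) - m₀ (D.κ (D.u (D.u x)))) =
        (2 : A) • (m₀ x + m₀ (D.u x) + m₀ (D.u (D.u x))) := by
      have h4 : m₀ (D.κ x) + m₀ (D.κ (D.u (D.u x))) + m₀ (D.κ (D.u x)) =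
        -(m₀ x + m₀ (D.u x) + m₀ (D.u (D.u x))) := h2
      calc _ = (m₀ x + m₀ (D.u x) + m₀ (D.u (D.u x))) -
            (m₀ (D.κ x) + m₀ (D.κ (D.u (D.u x))) + m₀ (D.κ (D.u x))) := by abel
        _ = _ := by rw [h4, two_smul, sub_neg_eq_add]
    rw [h3, smul_smul, invOf_mul_self, one_smul]
  have h5 : D.nu (A := A) k = 0 := by
    funext x
    exact hk.1 x
  rw [← h1, ← hek, map_add, h5, add_zero]

end half

end Functions

end Data

end Fermat.Agent.RT.Manin
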