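import Mathlib
import Fermat.Agent.LR.Ops

/-!
# Modular symbols with nebentypus

For a commutative ring `Λ` and a Dirichlet character `ψ` mod `L` with values in `Λ`:
* `MSψ ψ` : additive functions on pairs of cusps with `x|γ = ψ(d) x` for `γ ∈ Γ₀(L)`;
* `hopψ ψ ℓ = U_ℓ + ψ(ℓ) B_ℓ` : the Hecke operator (`= U_ℓ` if `ℓ ∣ L`), stability, commutation,
  compatibility with the involution `ι` and with change of coefficients.
-/

set_option autoImplicit false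
set_option linter.unusedSectionVars false

noncomputable section

open Matrix Matrix.SpecialLinearGroup CongruenceSubgroup
open scoped MatrixGroups OnePoint

namespace Fermat.Agent.RT.Neben

open Fermat.Agent.LR Fermat.Agent.LR.PS Fermat.Agent.ES ModularCurve.Period

variable {Λ : Type*} [CommRing Λ] {L : ℕ}

/-- Modular symbols of level `Γ₀(L)` and nebentypus `ψ`. -/
def MSψ (ψ : DirichletCharacter Λ L) : Submodule Λ (Pairs Λ) where
  carrier := {x | (∀ a b c, x a b + x b c = x a c) ∧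
    ∀ γ ∈ Gamma0 L, slash (toQ γ) x = ψ ((γ 1 1 : ℤ) : ZMod L) • x}
  zero_mem' := ⟨by simp, by simp⟩
  add_mem' := by
    rintro x y ⟨hx, hx'⟩ ⟨hy, hy'⟩
    refine ⟨fun a b c => ?_, fun γ hγ => ?_⟩
    · have h1 := hx a b c
      have h2 := hy a b c
      simp only [Pi.add_apply]
      rw [← h1, ← h2]; ring
    · rw [map_add, hx' γ hγ, hy' γ hγ, smul_add]
  smul_mem' := by
    rintro r x ⟨hx, hx'⟩
    refine ⟨fun a b c => ?_, fun γ hγ => ?_⟩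
    · simp only [Pi.smul_apply, smul_eq_mul]
      rw [← hx a b c]; ring
    · rw [map_smul, hx' γ hγ, smul_comm]

theorem mem_MSψ {ψ : DirichletCharacter Λ L} {x : Pairs Λ} :
    x ∈ MSψ ψ ↔ (∀ a b c, x a b + x b c = x a c) ∧
      ∀ γ ∈ Gamma0 L, slash (toQ γ) x = ψ ((γ 1 1 : ℤ) : ZMod L) • x := Iff.rfl

theorem isUnit_of_mem {γ : SL(2, ℤ)} (hγ : γ ∈ Gamma0 L) : IsUnit ((γ 1 1 : ℤ) : ZMod L) := by
  have h1 := det_eq' γ
  have h2 : ((γ 1 0 : ℤ) : ZMod L) = 0 :=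
    (ZMod.intCast_zmod_eq_zero_iff_dvd _ _).mpr (mem_Gamma0_iff.mp hγ)
  have h3 := congrArg (fun n : ℤ => (n : ZMod L)) h1
  push_cast at h3
  rw [h2, mul_zero, sub_zero, mul_comm] at h3
  exact IsUnit.of_mul_eq_one _ h3

theorem MSψ_one : MSψ (1 : DirichletCharacter Λ L) = MS (Gamma0 L) Λ := by
  ext x
  rw [mem_MSψ, mem_MS]
  refine and_congr_right fun _ => forall₂_congr fun γ hγ => ?_
  rw [MulChar.one_apply (isUnit_of_mem hγ), one_smul]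

theorem TInv_of_memψ {ψ : DirichletCharacter Λ L} {x : Pairs Λ} (hx : x ∈ MSψ ψ) : TInv x := by
  intro k
  rw [hx.2 _ (T_zpow_mem_Gamma0 L k), ModularGroup.coe_T_zpow]
  simp

/-- On the subgroup where the nebentypus is trivial we get invariant symbols. -/
theorem MSψ_le_MS {ψ : DirichletCharacter Λ L} {Γ : Subgroup SL(2, ℤ)}
    (h : ∀ γ ∈ Γ, γ ∈ Gamma0 L ∧ ψ ((γ 1 1 : ℤ) : ZMod L) = 1) : MSψ ψ ≤ MS Γ Λ :=
  fun x hx => ⟨hx.1, fun γ hγ => by rw [hx.2 γ (h γ hγ).1, (h γ hγ).2, one_smul]⟩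

/-! ### Hecke operators -/

/-- `T_ℓ = U_ℓ + ψ(ℓ) B_ℓ` (this is `U_ℓ` when `ℓ ∣ L`). -/
def hopψ (ψ : DirichletCharacter Λ L) (ℓ : ℕ) : Pairs Λ →ₗ[Λ] Pairs Λ :=
  heckeU ℓ + ψ (ℓ : ZMod L) • degen ℓ

theorem hopψ_apply (ψ : DirichletCharacter Λ L) (ℓ : ℕ) (x : Pairs Λ) :
    hopψ ψ ℓ x = heckeU ℓ x + ψ (ℓ : ZMod L) • degen ℓ x := rfl

theorem not_isUnit_of_dvd {ℓ : ℕ} (hℓ : ℓ.Prime) (h : ℓ ∣ L) : ¬ IsUnit ((ℓ : ℕ) : ZMod L) := by
  rw [ZMod.isUnit_iff_coprime]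
  intro hc
  exact hℓ.one_lt.ne' (Nat.dvd_one.mp (hc ▸ Nat.dvd_gcd dvd_rfl h))

theorem isUnit_of_not_dvd {ℓ : ℕ} (hℓ : ℓ.Prime) (h : ¬ ℓ ∣ L) : IsUnit ((ℓ : ℕ) : ZMod L) := by
  rw [ZMod.isUnit_iff_coprime]
  exact (Nat.Prime.coprime_iff_not_dvd hℓ).mpr h

theorem hopψ_of_dvd (ψ : DirichletCharacter Λ L) {ℓ : ℕ} (hℓ : ℓ.Prime) (h : ℓ ∣ L) :
    hopψ ψ ℓ = heckeU ℓ := by
  rw [hopψ, ψ.map_nonunit (not_isUnit_of_dvd hℓ h), zero_smul, add_zero]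

theorem hopψ_one {ℓ : ℕ} (hℓ : ℓ.Prime) :
    hopψ (1 : DirichletCharacter Λ L) ℓ = hop Λ L ℓ := by
  by_cases h : ℓ ∣ L
  · rw [hopψ_of_dvd _ hℓ h, hop_of_dvd h]
  · rw [hopψ, MulChar.one_apply (isUnit_of_not_dvd hℓ h), one_smul, hop_of_not_dvd h, heckeT]

/-- weights of the coset representatives -/
def wt (ψ : DirichletCharacter Λ L) (ℓ : ℕ) (s : OnePoint (ZMod ℓ)) : Λ :=
  s.elim (ψ (ℓ : ZMod L)) (fun _ => 1)

theorem hopψ_eq_sum (ψ : DirichletCharacter Λ L) (ℓ : ℕ) [NeZero ℓ] (x : Pairs Λ) :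
    hopψ ψ ℓ x = ∑ s : OnePoint (ZMod ℓ), wt ψ ℓ s • slash (heckeRepQ ℓ s) x := by
  rw [hopψ_apply, heckeU_eq_sum_zmod, add_comm, degen_apply]
  refine Eq.trans ?_ (Fintype.sum_option
    (fun s : OnePoint (ZMod ℓ) => wt ψ ℓ s • slash (heckeRepQ ℓ s) x)).symm
  refine congrArg₂ (· + ·) rfl (Finset.sum_congr rfl fun j _ => ?_)
  exact (one_smul Λ _).symm

theorem wt_mul {ψ : DirichletCharacter Λ L} {ℓ : ℕ} (hℓ : ℓ.Prime) (hL : ¬ ℓ ∣ L)
    {g g' : SL(2, ℤ)} (hg : (L : ℤ) ∣ g 1 0) (hg' : (L : ℤ) ∣ g' 1 0) {s s' : OnePoint (ZMod ℓ)}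
    (h : heckeRepQ ℓ s * toQ g = toQ g' * heckeRepQ ℓ s') :
    wt ψ ℓ s * ψ ((g' 1 1 : ℤ) : ZMod L) = ψ ((g 1 1 : ℤ) : ZMod L) * wt ψ ℓ s' := by
  have h1 := congrArg (fun m : GL (Fin 2) ℚ => (m : Matrix (Fin 2) (Fin 2) ℚ)) h
  have hc : ((g 1 0 : ℤ) : ZMod L) = 0 := (ZMod.intCast_zmod_eq_zero_iff_dvd _ _).mpr hg
  have hc' : ((g' 1 0 : ℤ) : ZMod L) = 0 := (ZMod.intCast_zmod_eq_zero_iff_dvd _ _).mpr hg'
  simp only [val_mul'] at h1
  rw [val_toQ, val_toQ] at h1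
  have e := congrFun (congrFun h1 1) 1
  induction s using OnePoint.rec with
  | infty =>
    rw [heckeRepQ_infty, val_diagMat hℓ.ne_zero] at e
    induction s' using OnePoint.rec with
    | infty =>
      rw [heckeRepQ_infty, val_diagMat hℓ.ne_zero] at e
      simp [Matrix.mul_apply, Fin.sum_univ_two, -ZMod.natCast_val] at e
      have e' : g 1 1 = g' 1 1 := by exact_mod_cast e
      rw [e', mul_comm]
    | coe j =>
      rw [heckeRepQ_coe, val_heckeMat hℓ.ne_zero] at e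
      simp [Matrix.mul_apply, Fin.sum_univ_two, -ZMod.natCast_val] at e
      have e' : g 1 1 = g' 1 0 * (j.val : ℤ) + g' 1 1 * (ℓ : ℤ) := by
        exact_mod_cast e
      have e2 : ((g 1 1 : ℤ) : ZMod L) = ((g' 1 1 : ℤ) : ZMod L) * (ℓ : ZMod L) := by
        rw [e']; push_cast; rw [hc']; ring
      rw [e2, map_mul]
      change ψ (ℓ : ZMod L) * _ = _ * 1
      ring
  | coe i =>
    rw [heckeRepQ_coe, val_heckeMat hℓ.ne_zero] at e
    induction s' using OnePoint.rec with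
    | infty =>
      rw [heckeRepQ_infty, val_diagMat hℓ.ne_zero] at e
      simp [Matrix.mul_apply, Fin.sum_univ_two, -ZMod.natCast_val] at e
      have e' : (ℓ : ℤ) * g 1 1 = g' 1 1 := by exact_mod_cast e
      have e2 : ((g' 1 1 : ℤ) : ZMod L) = (ℓ : ZMod L) * ((g 1 1 : ℤ) : ZMod L) := by
        rw [← e']; push_cast; ring
      rw [e2, map_mul]
      change 1 * _ = _ * ψ (ℓ : ZMod L)
      ring
    | coe j =>
      rw [heckeRepQ_coe, val_heckeMat hℓ.ne_zero] at e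
      simp [Matrix.mul_apply, Fin.sum_univ_two, -ZMod.natCast_val] at e
      have e' : (ℓ : ℤ) * g 1 1 = g' 1 0 * (j.val : ℤ) + g' 1 1 * (ℓ : ℤ) := by
        exact_mod_cast e
      have hu := isUnit_of_not_dvd hℓ hL
      have e2 : ((g 1 1 : ℤ) : ZMod L) = ((g' 1 1 : ℤ) : ZMod L) := by
        have e3 := congrArg (fun n : ℤ => (n : ZMod L)) e'
        push_cast at e3
        rw [hc', zero_mul, zero_add, mul_comm] at e3
        exact hu.mul_right_cancel e3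
      rw [e2]
      change 1 * _ = _ * 1
      ring

theorem hopψ_mem {ψ : DirichletCharacter Λ L} {ℓ : ℕ} (hℓ : ℓ.Prime) {x : Pairs Λ}
    (hx : x ∈ MSψ ψ) : hopψ ψ ℓ x ∈ MSψ ψ := by
  have : Fact ℓ.Prime := ⟨hℓ⟩
  by_cases hL : ℓ ∣ L
  · rw [hopψ_of_dvd ψ hℓ hL]
    refine ⟨fun a b c => ?_, fun γ hγ => ?_⟩
    · rw [heckeU_apply]
      simp only [Finset.sum_apply]
      rw [← Finset.sum_add_distrib]
      exact Finset.sum_congr rfl fun s _ => hx.1 _ _ _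
    · have hγN := mem_Gamma0_iff.mp hγ
      obtain ⟨π, hπ⟩ := heckeMat_mul_of_dvd (q := ℓ) γ ((Int.natCast_dvd_natCast.mpr hL).trans hγN)
      rw [heckeU_eq_sum_zmod, map_sum, Finset.smul_sum]
      rw [← Equiv.sum_comp π (fun s : ZMod ℓ => ψ ((γ 1 1 : ℤ) : ZMod L) •
        slash (heckeMat ℓ (s.val : ℤ)) x)]
      refine Finset.sum_congr rfl fun s _ => ?_
      obtain ⟨g', h1, h2⟩ := hπ s
      have hg' : g' ∈ Gamma0 L := mem_Gamma0_iff.mpr (h1 ▸ Dvd.dvd.mul_left hγN _)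
      rw [← slash_mul, h2, slash_mul, hx.2 g' hg', map_smul]
      have h3 := congrArg (fun m : GL (Fin 2) ℚ => (m : Matrix (Fin 2) (Fin 2) ℚ) 1 1) h2
      simp only [val_mul'] at h3
      rw [val_toQ, val_toQ, val_heckeMat hℓ.ne_zero, val_heckeMat hℓ.ne_zero] at h3
      simp [Matrix.mul_apply, Fin.sum_univ_two, -ZMod.natCast_val] at h3
      have h4 : (ℓ : ℤ) * γ 1 1 = g' 1 0 * ((π s).val : ℤ) + g' 1 1 * (ℓ : ℤ) := by
        exact_mod_cast h3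
      have h5 : γ 1 1 = γ 1 0 * ((π s).val : ℤ) + g' 1 1 := by
        have h6 : (ℓ : ℤ) ≠ 0 := by exact_mod_cast hℓ.ne_zero
        apply mul_left_cancel₀ h6
        rw [h4, h1]; ring
      have hc : ((γ 1 0 : ℤ) : ZMod L) = 0 := (ZMod.intCast_zmod_eq_zero_iff_dvd _ _).mpr hγN
      have h7 : ((γ 1 1 : ℤ) : ZMod L) = ((g' 1 1 : ℤ) : ZMod L) := by
        rw [h5]; push_cast; rw [hc]; ring
      rw [h7]
  · refine ⟨fun a b c => ?_, fun γ hγ => ?_⟩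
    · rw [hopψ_eq_sum]
      simp only [Finset.sum_apply]
      rw [← Finset.sum_add_distrib]
      refine Finset.sum_congr rfl fun s _ => ?_
      simp only [Pi.smul_apply]
      rw [← smul_add]
      exact congrArg _ (hx.1 _ _ _)
    · rw [hopψ_eq_sum, map_sum, Finset.smul_sum]
      rw [← Equiv.sum_comp (MulAction.toPerm (redMat ℓ γ)) (fun s =>
        ψ ((γ 1 1 : ℤ) : ZMod L) • wt ψ ℓ s • slash (heckeRepQ ℓ s) x)]
      refine Finset.sum_congr rfl fun s _ => ?_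
      obtain ⟨g', h1, h2⟩ := heckeRepQ_mul hL γ (mem_Gamma0_iff.mp hγ) s
      rw [map_smul, ← slash_mul, h2, slash_mul, hx.2 g' (mem_Gamma0_iff.mpr h1), map_smul,
        smul_smul, wt_mul hℓ hL (mem_Gamma0_iff.mp hγ) h1 h2, smul_smul]
      rfl

theorem hopψ_comm {ψ : DirichletCharacter Λ L} {ℓ r : ℕ} (hℓ : ℓ.Prime) (hr : r.Prime)
    {x : Pairs Λ} (hx : x ∈ MSψ ψ) : hopψ ψ ℓ (hopψ ψ r x) = hopψ ψ r (hopψ ψ ℓ x) := by
  by_cases hlr : ℓ = r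
  · rw [hlr]
  have hcop : Nat.Coprime ℓ r := (Nat.coprime_primes hℓ hr).mpr hlr
  have hT := TInv_of_memψ hx
  simp only [hopψ_apply, map_add, map_smul]
  rw [heckeU_degen hℓ.ne_zero hr.ne_zero hcop.symm hT,
    heckeU_degen hr.ne_zero hℓ.ne_zero hcop hT, heckeU_comm ℓ r hℓ.ne_zero hr.ne_zero,
    degen_comm ℓ r hℓ.ne_zero hr.ne_zero, smul_add, smul_add, smul_comm (ψ (ℓ : ZMod L))]
  abel

/-! ### The involution -/

theorem TInv.heckeU_slash_jMat {x : Pairs Λ} (hx : TInv x) {ℓ : ℕ} (hℓ : ℓ ≠ 0) :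
    heckeU ℓ (slash jMat x) = slash jMat (heckeU ℓ x) := by
  rw [heckeU_apply, heckeU_apply, map_sum]
  simp only [← slash_mul, jMat_mul_heckeMat hℓ]
  simp only [slash_mul]
  have h1 : ∀ j : ℤ, slash (heckeMat ℓ (j + ℓ)) x = slash (heckeMat ℓ j) x := fun j =>
    slash_triMat_congr hx (by simpa using hℓ) (by simp [Int.ModEq])
  exact sum_range_neg_of_periodic ℓ (fun j => slash jMat (slash (heckeMat ℓ j) x))
    (fun j => by simp only [h1])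

theorem hopψ_slash_jMat {ψ : DirichletCharacter Λ L} {x : Pairs Λ} (hx : x ∈ MSψ ψ) {ℓ : ℕ}
    (hℓ : ℓ ≠ 0) : hopψ ψ ℓ (slash jMat x) = slash jMat (hopψ ψ ℓ x) := by
  rw [hopψ_apply, hopψ_apply, map_add, map_smul, TInv.heckeU_slash_jMat (TInv_of_memψ hx) hℓ,
    degen_apply, degen_apply, ← slash_mul, jMat_mul_diagMat hℓ, slash_mul]

theorem jConjSL_one_one (γ : SL(2, ℤ)) : (jConjSL γ) 1 1 = γ 1 1 := by
  simp

theorem slash_jMat_memψ {ψ : DirichletCharacter Λ L} {x : Pairs Λ} (hx : x ∈ MSψ ψ) :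
    slash jMat x ∈ MSψ ψ := by
  refine ⟨fun a b c => hx.1 _ _ _, fun γ hγ => ?_⟩
  rw [← slash_mul, jMat_mul_toQ, slash_mul, hx.2 _ (jConjSL_mem_Gamma0 hγ), map_smul,
    jConjSL_one_one]

/-! ### Change of coefficients -/

section MapCoeff

variable {Λ' : Type*} [CommRing Λ'] (f : Λ →+* Λ')

theorem mapCoeff_smul (c : Λ) (x : Pairs Λ) : mapCoeff f (c • x) = f c • mapCoeff f x := by
  funext a b
  simp [mapCoeff_apply]

theorem mapCoeff_memψ {ψ : DirichletCharacter Λ L} {x : Pairs Λ} (hx : x ∈ MSψ ψ) :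
    mapCoeff f x ∈ MSψ (ψ.ringHomComp f) := by
  refine ⟨fun a b c => ?_, fun γ hγ => ?_⟩
  · simp only [mapCoeff_apply]; rw [← map_add, hx.1]
  · rw [← mapCoeff_slash, hx.2 γ hγ, mapCoeff_smul]
    rfl

theorem mapCoeff_hopψ (ψ : DirichletCharacter Λ L) (ℓ : ℕ) (x : Pairs Λ) :
    mapCoeff f (hopψ ψ ℓ x) = hopψ (ψ.ringHomComp f) ℓ (mapCoeff f x) := by
  rw [hopψ_apply, hopψ_apply, map_add, mapCoeff_heckeU, mapCoeff_smul]
  rfl

end MapCoeff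

end Fermat.Agent.RT.Neben
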