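import Fermat.Agent.RT.EigExtract
import Fermat.Agent.RT.PointRep
import Fermat.Agent.RT.PointMore
import Fermat.Agent.RT.Control
import Fermat.Agent.RT.NonEisenstein

/-!
# RT-TW-EIG (E3): the `q`-new part vanishes after localisation (helper86)

`part_newMS_eq_bot`: `ρbar` absolutely irreducible with `charpoly ρbar(Frob_ℓ) = X² - t_ℓ X + ℓ`;
`q ∤ M` a prime, `q ≠ p`, `t_q² - (q+1)²` a unit.  Then the `q`-new modular symbols of level `Mq`,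
localised at (almost all) `T_ℓ - t_ℓ`, vanish.
-/

set_option autoImplicit false
set_option linter.unusedSectionVars false

noncomputable section

open Polynomial IsLocalRing CongruenceSubgroup ModularFormClass

namespace Fermat.Agent.RT.Eig

open Fermat.Agent.LR Fermat.Agent.LR.PS Fermat.Agent.RT Fermat.Agent.RT.Point Fermat.Agent.Newform
  Fermat.Agent.CMP.S58Assembly Fermat.Agent.CMP.Density

local notation "Qbar" => AlgebraicClosure ℚ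
local notation "Γℚ" => (AlgebraicClosure ℚ ≃ₐ[ℚ] AlgebraicClosure ℚ)

/-! ### over `ℂ` -/

section complex

/-- The newform behind a non zero eigensymbol. -/
theorem exists_newform_of_mem {M : ℕ} [NeZero M] {S : Set ℕ} {c : ℕ → ℂ}
    (hbad : ∀ p : ℕ, p.Prime → p ∣ M → p ∈ S) (hne : NonEis M S c) {y : Pairs ℂ}
    (hy : y ∈ eigMS M S c) (hy0 : y ≠ 0) :
    ∃ (C : ℕ) (_ : NeZero C) (g : CuspForm (Gamma0 C) 2), C ∣ M ∧ g.IsNewform ∧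
      ∀ ℓ : ℕ, ℓ.Prime → ℓ ∉ S → qCoeff ⇑g ℓ = c ℓ := by
  obtain ⟨u, v, huv, hu, hv⟩ := exists_decomp_eig hbad hne hy
  have key : ∀ u : CuspForm (Gamma0 M) 2, u ≠ 0 → Eig 2 S c ⇑u →
      ∃ (C : ℕ) (_ : NeZero C) (g : CuspForm (Gamma0 C) 2), C ∣ M ∧ g.IsNewform ∧
      ∀ ℓ : ℕ, ℓ.Prime → ℓ ∉ S → qCoeff ⇑g ℓ = c ℓ := by
    intro u hu0 hu
    obtain ⟨f, hf, hfc⟩ := exists_eigenform_of_eig (isCF_coe u)
      (fun h => hu0 (DFunLike.coe_injective h)) hu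
    obtain ⟨m, hm0, g, hm, hg, hgf, -⟩ := exists_unique_newform hf
    refine ⟨m, hm0, g, hm, hg, fun ℓ hℓ hℓS => ?_⟩
    have hℓM : ¬ ℓ ∣ M := fun h => hℓS (hbad ℓ hℓ h)
    rw [hgf ℓ hℓ hℓM, hfc ℓ hℓ hℓM hℓS]
  by_cases hu0 : u = 0
  · by_cases hv0 : v = 0
    · exact absurd (by rw [huv, hu0, hv0]; simp) hy0
    · exact key v hv0 hv
  · exact key u hu0 hu

/-- A `q`-new eigensymbol whose newform has level prime to `q` vanishes. -/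
theorem eq_zero_of_mem_newMS {C : ℕ} [NeZero C] {g : CuspForm (Gamma0 C) 2} (hg : g.IsNewform)
    {M q : ℕ} [NeZero M] (hq : q.Prime) (hqM : ¬ q ∣ M) (hCM : C ∣ M) {S : Set ℕ} (hS : S.Finite)
    (hbad : ∀ p : ℕ, p.Prime → p ∣ M * q → p ∈ S) (hne : NonEis (M * q) S (qCoeff ⇑g))
    (ha : qCoeff ⇑g q ^ 2 ≠ ((q : ℂ) + 1) ^ 2) {y : Pairs ℂ}
    (hy : y ∈ eigMS (M * q) S (qCoeff ⇑g)) (hynew : y ∈ newMS M q ℂ) : y = 0 := by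
  have i1 : NeZero (M * q) := ⟨mul_ne_zero (NeZero.ne M) hq.ne_zero⟩
  have i2 : NeZero q := ⟨hq.ne_zero⟩
  have hcop : Nat.Coprime q M := (Nat.Prime.coprime_iff_not_dvd hq).mpr hqM
  have e2 : M * q / q = M := Nat.mul_div_cancel _ hq.pos
  obtain ⟨x₀, h0, x₁, h1, e⟩ := exists_of_mem_eigMS hg hS hbad hne hq (Nat.dvd_mul_left q M)
    (by rw [e2]; exact hCM) hy
  rw [e2] at h0 h1
  obtain ⟨-, ht1, ht2⟩ := mem_newMS.mp hynew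
  rw [e, map_add, tr1_of_mem h0.1, tr1_degen hcop h1.1, h1.2 q hq hqM] at ht1
  rw [e, map_add, tr2_of_mem hcop h0.1, tr2_degen hcop h1.1, h0.2 q hq hqM] at ht2
  set a := qCoeff ⇑g q with hadef
  have hd : ((q : ℂ) + 1) ^ 2 - a ^ 2 ≠ 0 := sub_ne_zero.mpr (Ne.symm ha)
  have k0 : (((q : ℂ) + 1) ^ 2 - a ^ 2) • x₀ = 0 := by
    have : (((q : ℂ) + 1) ^ 2 - a ^ 2) • x₀ =
        ((q : ℂ) + 1) • (((q : ℂ) + 1) • x₀ + a • x₁) - a • (a • x₀ + ((q : ℂ) + 1) • x₁) := by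
      module
    rw [this, ht1, ht2]; simp
  have k1 : (((q : ℂ) + 1) ^ 2 - a ^ 2) • x₁ = 0 := by
    have : (((q : ℂ) + 1) ^ 2 - a ^ 2) • x₁ =
        ((q : ℂ) + 1) • (a • x₀ + ((q : ℂ) + 1) • x₁) - a • (((q : ℂ) + 1) • x₀ + a • x₁) := by
      module
    rw [this, ht1, ht2]; simp
  have z0 : x₀ = 0 := (smul_eq_zero.1 k0).resolve_left hd
  have z1 : x₁ = 0 := (smul_eq_zero.1 k1).resolve_left hd
  rw [e, z0, z1]; simp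

theorem mapCoeff_mem_newMS' {R R' : Type*} [CommRing R] [CommRing R'] (f : R →+* R') {N q : ℕ}
    {y : Pairs R} (hy : y ∈ newMS N q R) : mapCoeff f y ∈ newMS N q R' := by
  obtain ⟨h1, h2, h3⟩ := mem_newMS.mp hy
  have hw : ∀ x : Pairs R, mapCoeff f (wOp N q x) = wOp N q (mapCoeff f x) := fun x =>
    mapCoeff_slash f _ x
  refine mem_newMS.mpr ⟨mapCoeff_mem f h1, ?_, ?_⟩
  · rw [tr1_apply, ← hw, ← mapCoeff_heckeU, ← map_add, ← tr1_apply, h2, map_zero]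
  · rw [tr2_apply, ← hw, ← mapCoeff_heckeU, ← map_add, ← tr2_apply, h3, map_zero]

end complex

/-! ### Residual comparison -/

section residual

variable {𝒪 : Type} [CommRing 𝒪] [IsLocalRing 𝒪] {𝒪'' : Type} [CommRing 𝒪''] [IsLocalRing 𝒪'']

/-- If `ρ` over `𝒪''` is attached to `c` and `c ≡ t`, its residual representation has the
characteristic polynomials of `ρbar`. -/
theorem residual_charpoly_eq (i : ResidueField 𝒪 →+* ResidueField 𝒪'')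
    (ρbar : ResidualGaloisRep (ResidueField 𝒪)) (S : Finset ℕ) (t : ℕ → 𝒪)
    (hρt : ∀ ℓ : ℕ, ℓ.Prime → ℓ ∉ S → ∀ A : ValuationSubring Qbar, A.LiesOverPrime ℓ →
      ∀ σ : Γℚ, A.IsFrobeniusAt σ ℓ → LinearMap.charpoly (ρbar.ρ σ) =
        X ^ 2 - C (residue 𝒪 (t ℓ)) * X + C ((ℓ : ℕ) : ResidueField 𝒪))
    {S' : Finset ℕ} {c : ℕ → 𝒪''} {ρ : GaloisRepAdic 𝒪''} (hρ : Attached S' c ρ)
    (hc : ∀ ℓ : ℕ, ℓ.Prime → ℓ ∉ S' → residue 𝒪'' (c ℓ) = i (residue 𝒪 (t ℓ))) (σ : Γℚ) :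
    (LinearMap.charpoly (ρ.ρ σ)).map (residue 𝒪'') = (LinearMap.charpoly (ρbar.ρ σ)).map i := by
  classical
  rw [← charpoly_residual]
  have := FrobCompare.residual_charpoly_map_eq frobDensity (RingHom.id _) i ρ.residual ρbar
    (S ∪ S') (fun ℓ hℓ hℓS A hA σ hσ => by
      rw [Finset.mem_union, not_or] at hℓS
      rw [charpoly_residual, hρ ℓ hℓ hℓS.2 A hA σ hσ, hρt ℓ hℓ hℓS.1 A hA σ hσ]
      simp [hc ℓ hℓ hℓS.2]) σ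
  rwa [Polynomial.map_id] at this

/-- the trace -/
theorem residual_trace_eq {i : ResidueField 𝒪 →+* ResidueField 𝒪''}
    {ρbar : ResidualGaloisRep (ResidueField 𝒪)} {ρ : GaloisRepAdic 𝒪''} {σ : Γℚ}
    (h : (LinearMap.charpoly (ρ.ρ σ)).map (residue 𝒪'') = (LinearMap.charpoly (ρbar.ρ σ)).map i) :
    residue 𝒪'' (LinearMap.trace 𝒪'' ρ.V (ρ.ρ σ)) = i (LinearMap.trace _ ρbar.V (ρbar.ρ σ)) :=
  BN2.trace_eq_of_charpoly_map_eq ρ.finrank_eq ρbar.finrank_eq (residue 𝒪'') i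
    (ρ.ρ σ) (ρbar.ρ σ) h

theorem trace_of_charpoly {ρ : GaloisRepAdic 𝒪''} {σ : Γℚ} {a b : 𝒪''}
    (h : LinearMap.charpoly (ρ.ρ σ) = X ^ 2 - C a * X + C b) :
    LinearMap.trace 𝒪'' ρ.V (ρ.ρ σ) = a := by
  rw [BN2.charpoly_eq_of_finrank_two ρ.finrank_eq] at h
  have h1 := congrArg (fun P => P.coeff 1) h
  simpa [coeff_X, coeff_C] using h1

end residual

/-! ### The main theorem -/

section main

variable {𝒪 : Type} [CommRing 𝒪] [IsDomain 𝒪] [IsDiscreteValuationRing 𝒪]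
  [IsAdicComplete (maximalIdeal 𝒪) 𝒪] [Finite (ResidueField 𝒪)] [CharZero 𝒪]

theorem newMS_sat {M q : ℕ} (c : 𝒪) (x : Pairs 𝒪) (hc : c ≠ 0) (h : c • x ∈ newMS M q 𝒪) :
    x ∈ newMS M q 𝒪 := by
  obtain ⟨h1, h2, h3⟩ := mem_newMS.mp h
  rw [map_smul] at h2 h3
  exact mem_newMS.mpr ⟨Control.MS_sat c x hc h1, (smul_eq_zero.1 h2).resolve_left hc,
    (smul_eq_zero.1 h3).resolve_left hc⟩

/-- **Points of a localised Hecke module.** `X` a saturated finite submodule of `MS (Γ₀(M))`,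
stable under the `T_ℓ` (`ℓ ∉ S`, commuting), on which the `T_ℓ - t_ℓ` are topologically nilpotent:
if `X ≠ 0` there is an eigensymbol over a finite extension, residually equal to `t`. -/
theorem exists_point {M : ℕ} (S : Finset ℕ) (t : ℕ → 𝒪) (X : Submodule 𝒪 (Pairs 𝒪))
    [Module.Finite 𝒪 X]
    (hX : X ≤ MS (Gamma0 M) 𝒪)
    (hsat : ∀ (c : 𝒪) (z : Pairs 𝒪), c ≠ 0 → c • z ∈ X → z ∈ X)
    (hst : ∀ ℓ : ℕ, ℓ.Prime → ℓ ∉ S → ∀ x ∈ X, heckeT ℓ x ∈ X)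
    (hnil : ∀ ℓ : ℕ, ℓ.Prime → ℓ ∉ S → ∀ x ∈ X,
      x ∈ nilSub (heckeT ℓ - algebraMap 𝒪 (Module.End 𝒪 (Pairs 𝒪)) (t ℓ)))
    (x₀ : Pairs 𝒪) (hx₀ : x₀ ∈ X) (hx₀0 : x₀ ≠ 0) (j : 𝒪 →+* ℂ) (hj : Function.Injective j) :
    ∃ (𝒪' : Type) (_ : CommRing 𝒪') (_ : IsDomain 𝒪') (_ : IsDiscreteValuationRing 𝒪')
      (_ : IsAdicComplete (maximalIdeal 𝒪') 𝒪') (_ : Finite (ResidueField 𝒪'))
      (_ : CharZero 𝒪') (_ : Algebra 𝒪 𝒪') (_ : Module.Finite 𝒪 𝒪')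
      (_ : IsLocalHom (algebraMap 𝒪 𝒪')), Function.Injective (algebraMap 𝒪 𝒪') ∧
      ∃ (c : ℕ → 𝒪') (j' : 𝒪' →+* ℂ), Function.Injective j' ∧
        j'.comp (algebraMap 𝒪 𝒪') = j ∧
        (∀ ℓ : ℕ, ℓ.Prime → ℓ ∉ S →
          residue 𝒪' (c ℓ) = ResidueField.map (algebraMap 𝒪 𝒪') (residue 𝒪 (t ℓ))) ∧
        ∃ y : Pairs ℂ, y ≠ 0 ∧ y ∈ eigMS M (↑S : Set ℕ) (fun ℓ => j' (c ℓ)) ∧
          (∀ W : Submodule ℂ (Pairs ℂ), (∀ x ∈ X, mapCoeff j x ∈ W) → y ∈ W) := by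
  classical
  let I := {ℓ : ℕ // ℓ.Prime ∧ ℓ ∉ S}
  let a : I → Module.End 𝒪 X := fun ℓ => (heckeT ℓ.1).restrict (hst ℓ.1 ℓ.2.1 ℓ.2.2)
  have hcomm : ∀ i i' : I, Commute (a i) (a i') := by
    intro i i'
    refine LinearMap.ext fun x => Subtype.ext ?_
    by_cases h : i.1 = i'.1
    · have : i = i' := Subtype.ext h
      rw [this]
    · exact heckeT_comm i.2.1.ne_zero i'.2.1.ne_zero ((Nat.coprime_primes i.2.1 i'.2.1).mpr h)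
        (TInv_of_mem (hX x.2))
  have hnil' : ∀ i (x : X), ∃ n : ℕ, ((a i - algebraMap 𝒪 _ (t i.1)) ^ n) x ∈
      maximalIdeal 𝒪 • (⊤ : Submodule 𝒪 X) := fun i x =>
    Act.mem_smul_top_of_nilSub X hsat
      (T := heckeT i.1 - algebraMap 𝒪 (Module.End 𝒪 (Pairs 𝒪)) (t i.1))
      (fun x => rfl) x (hnil i.1 i.2.1 i.2.2 x x.2)
  have hnt : Nontrivial X := ⟨⟨x₀, hx₀⟩, 0, fun h => hx₀0 (congrArg Subtype.val h)⟩
  have hloc := Act.isLocalRing_GRing a hcomm (fun i => t i.1) hnil'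
  have hfin := Act.finite_GRing a hcomm
  obtain ⟨𝒪', i1, i2, i3, i4, i5, i6, i7, i8, i9, hinj, φ, j', hj', hjj, y, hy0, hyeig, hyW⟩ :=
    exists_eig (Act.GRing a hcomm) X (Act.gAct a hcomm) ⟨x₀, hx₀⟩
      (fun h => hx₀0 (congrArg Subtype.val h)) j hj
  let c : ℕ → 𝒪' := fun ℓ => if h : ℓ.Prime ∧ ℓ ∉ S then
    φ (Ideal.Quotient.mk _ (MvPolynomial.X ⟨ℓ, h⟩)) else 0
  have hc : ∀ i : I, c i.1 = φ (Ideal.Quotient.mk _ (MvPolynomial.X i)) := fun i => dif_pos i.2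
  refine ⟨𝒪', i1, i2, i3, i4, i5, i6, i7, i8, i9, hinj, c, j', hj', hjj, ?_, y, hy0, ⟨?_, ?_⟩, hyW⟩
  · intro ℓ hℓ hℓS
    let i : I := ⟨ℓ, hℓ, hℓS⟩
    have h1 := (Act.mk_mem_maximalIdeal_iff a hcomm (fun i => t i.1) hnil'
      (MvPolynomial.X i - MvPolynomial.C (t ℓ))).mpr (by
        rw [map_sub, MvPolynomial.eval_X, MvPolynomial.eval_C, sub_self]
        exact Ideal.zero_mem _)
    have h2 := map_mem_maximalIdeal φ h1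
    have e1 : φ (Ideal.Quotient.mk _ (MvPolynomial.C (t ℓ))) = algebraMap 𝒪 𝒪' (t ℓ) :=
      φ.commutes (t ℓ)
    rw [map_sub, map_sub, ← hc i, e1, ← residue_eq_zero_iff, map_sub, sub_eq_zero] at h2
    rw [h2, ResidueField.map_residue]
  · exact hyW (MS (Gamma0 M) ℂ) fun x hx => mapCoeff_mem j (hX hx)
  · intro ℓ hℓ hℓS
    have hℓS' : ℓ ∉ S := fun h => hℓS (Finset.mem_coe.2 h)
    let i : I := ⟨ℓ, hℓ, hℓS'⟩
    have h1 := hyeig (Ideal.Quotient.mk _ (MvPolynomial.X i)) (heckeT ℓ) (fun x => by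
      rw [Act.gAct_mk, MSHecke.commAct_X, ← mapCoeff_heckeT]
      rfl)
    rw [h1, ← hc i]

variable {p : ℕ} [Fact p.Prime]

/-- Non-Eisenstein. -/
theorem nonEis_of_absIrr (hp𝒪 : (p : 𝒪) ∈ maximalIdeal 𝒪)
    (ρbar : ResidualGaloisRep (ResidueField 𝒪)) (habs : ρbar.IsAbsolutelyIrreducible)
    (S : Finset ℕ) (t : ℕ → 𝒪)
    (hρt : ∀ ℓ : ℕ, ℓ.Prime → ℓ ∉ S → ∀ A : ValuationSubring Qbar, A.LiesOverPrime ℓ →
      ∀ σ : Γℚ, A.IsFrobeniusAt σ ℓ → LinearMap.charpoly (ρbar.ρ σ) =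
        X ^ 2 - C (residue 𝒪 (t ℓ)) * X + C ((ℓ : ℕ) : ResidueField 𝒪))
    {𝒪' : Type} [CommRing 𝒪'] [IsLocalRing 𝒪'] [Algebra 𝒪 𝒪'] [IsLocalHom (algebraMap 𝒪 𝒪')]
    {S' : Finset ℕ} {c : ℕ → 𝒪'} (j' : 𝒪' →+* ℂ) (hj' : Function.Injective j')
    (hc : ∀ ℓ : ℕ, ℓ.Prime → ℓ ∉ S' →
      residue 𝒪' (c ℓ) = ResidueField.map (algebraMap 𝒪 𝒪') (residue 𝒪 (t ℓ)))
    (M : ℕ) (hM : 0 < M) : NonEis M (↑S' : Set ℕ) (fun ℓ => j' (c ℓ)) := by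
  have hp0 : ((p : ℕ) : ResidueField 𝒪) = 0 := by
    rw [← map_natCast (residue 𝒪) p]; exact (residue_eq_zero_iff _).2 hp𝒪
  obtain ⟨ℓ, hℓ, hℓS, hmod, hne⟩ := NonEisenstein.exists_prime_trace_ne hp0 ρbar habs S
    (fun ℓ => residue 𝒪 (t ℓ)) (fun ℓ hℓ hℓS A hA σ hσ => by
      have h := hρt ℓ hℓ hℓS A hA σ hσ
      rw [BN2.charpoly_eq_of_finrank_two ρbar.finrank_eq] at h
      have h1 := congrArg (fun P => P.coeff 1) h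
      have h2 := congrArg (fun P => P.coeff 0) h
      constructor
      · simpa [coeff_X, coeff_C] using h1
      · simpa [coeff_X, coeff_C] using h2) M hM S'
  refine ⟨ℓ, hℓ, fun h => hℓS (Finset.mem_coe.1 h), ?_, fun h => hne ?_⟩
  · have h1 : ℓ ≡ 1 [MOD M] := hmod.of_mul_right p
    have := (ZMod.natCast_eq_natCast_iff ℓ 1 M).mpr h1
    rwa [Nat.cast_one] at this
  · have h' : j' (c ℓ) = (ℓ : ℂ) + 1 := h
    have h1 : c ℓ = (ℓ : 𝒪') + 1 := hj' (by rw [h', map_add, map_natCast, map_one])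
    have h2 : (ℓ : ResidueField 𝒪) = 1 := by
      have h3 : ℓ ≡ 1 [MOD p] := hmod.of_mul_left M
      have hcp : CharP (ResidueField 𝒪) p := (CharP.charP_iff_prime_eq_zero Fact.out).2 hp0
      have := (CharP.natCast_eq_natCast (ResidueField 𝒪) p (a := ℓ) (b := 1)).mpr h3
      rwa [Nat.cast_one] at this
    have h4 := hc ℓ hℓ hℓS
    apply (ResidueField.map (algebraMap 𝒪 𝒪')).injective
    rw [← h4, h1, map_add, map_natCast, map_one]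
    have h5 := congrArg (ResidueField.map (algebraMap 𝒪 𝒪')) h2
    rw [map_natCast, map_one] at h5
    rw [h5, map_ofNat]
    norm_num

/-- **(E3).** The `q`-new part vanishes. -/
theorem part_newMS_eq_bot (h30 : Datum.S30Statement) (h35 : S35Prop)
    (hp𝒪 : (p : 𝒪) ∈ maximalIdeal 𝒪)
    (ρbar : ResidualGaloisRep (ResidueField 𝒪)) (habs : ρbar.IsAbsolutelyIrreducible)
    (S : Finset ℕ) (t : ℕ → 𝒪)
    (hρt : ∀ ℓ : ℕ, ℓ.Prime → ℓ ∉ S → ∀ A : ValuationSubring Qbar, A.LiesOverPrime ℓ →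
      ∀ σ : Γℚ, A.IsFrobeniusAt σ ℓ → LinearMap.charpoly (ρbar.ρ σ) =
        X ^ 2 - C (residue 𝒪 (t ℓ)) * X + C ((ℓ : ℕ) : ResidueField 𝒪))
    {M q : ℕ} (hq : q.Prime) (hqM : ¬ q ∣ M) (hqp : q ≠ p) {tq : 𝒪}
    (htq : ∃ P : ValuationSubring Qbar, P.LiesOverPrime q ∧ ∃ φ : Γℚ, P.IsFrobeniusAt φ q ∧
      LinearMap.trace _ ρbar.V (ρbar.ρ φ) = residue 𝒪 tq)
    (hTW : IsUnit (tq ^ 2 - ((q : 𝒪) + 1) ^ 2)) {F : Set (Module.End 𝒪 (Pairs 𝒪))} (S' : Finset ℕ)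
    (hF : ∀ ℓ : ℕ, ℓ.Prime → ℓ ∉ S' →
      heckeT ℓ - algebraMap 𝒪 (Module.End 𝒪 (Pairs 𝒪)) (t ℓ) ∈ F) :
    part (newMS M q 𝒪) F = ⊥ := by
  classical
  have hM : M ≠ 0 := by rintro rfl; exact hqM (dvd_zero q)
  have hM0 : NeZero M := ⟨hM⟩
  have hMq : M * q ≠ 0 := mul_ne_zero hM hq.ne_zero
  have hMq0 : NeZero (M * q) := ⟨hMq⟩
  set S₁ : Finset ℕ := S' ∪ insert p (M * q).primeFactors with hS₁
  have hpS₁ : p ∈ S₁ := Finset.mem_union_right _ (Finset.mem_insert_self _ _)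
  have hbad : ∀ r : ℕ, r.Prime → r ∣ M * q → r ∈ S₁ := fun r hr hrM =>
    Finset.mem_union_right _ (Finset.mem_insert_of_mem (Nat.mem_primeFactors.2 ⟨hr, hrM, hMq⟩))
  have hbad' : ∀ r : ℕ, r.Prime → r ∣ M * q → r ∈ (↑S₁ : Set ℕ) := fun r hr hrM =>
    Finset.mem_coe.2 (hbad r hr hrM)
  by_contra hcon
  obtain ⟨x₀, hx₀, hx₀0⟩ := Submodule.exists_mem_ne_zero_of_ne_bot hcon
  -- the module
  set F₁ : Set (Module.End 𝒪 (Pairs 𝒪)) := {T | ∃ ℓ : ℕ, ℓ.Prime ∧ ℓ ∉ S₁ ∧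
    T = heckeT ℓ - algebraMap 𝒪 (Module.End 𝒪 (Pairs 𝒪)) (t ℓ)} with hF₁
  set X : Submodule 𝒪 (Pairs 𝒪) := part (newMS M q 𝒪) F₁ with hXdef
  have hx₀X : x₀ ∈ X := part_mono le_rfl (by
    rintro T ⟨ℓ, hℓ, hℓS, rfl⟩
    exact hF ℓ hℓ fun h => hℓS (Finset.mem_union_left _ h)) hx₀
  have hnewMS : newMS M q 𝒪 ≤ MS (Gamma0 (M * q)) 𝒪 := fun x hx => (mem_newMS.mp hx).1
  have hXnew : X ≤ newMS M q 𝒪 := part_le
  have hX : X ≤ MS (Gamma0 (M * q)) 𝒪 := hXnew.trans hnewMS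
  have hfinMS : Module.Finite 𝒪 (MS (Gamma0 (M * q)) 𝒪) := finite_MS 𝒪 (Gamma0 (M * q))
  have hfin : Module.Finite 𝒪 X := Module.Finite.of_injective (Submodule.inclusion hX)
    (Submodule.inclusion_injective hX)
  have hℓ1 : ∀ ℓ : ℕ, ℓ.Prime → ℓ ∉ S₁ → ¬ ℓ ∣ M ∧ ℓ ≠ q := fun ℓ hℓ hℓS =>
    ⟨fun h => hℓS (hbad ℓ hℓ (h.mul_right q)), fun h => hℓS (hbad ℓ hℓ (h ▸ dvd_mul_left q M))⟩
  have hcomm : ∀ ℓ : ℕ, ℓ.Prime → ℓ ∉ S₁ → ∀ ℓ' : ℕ, ℓ'.Prime → ℓ' ∉ S₁ →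
      ∀ x ∈ newMS M q 𝒪, heckeT ℓ (heckeT ℓ' x) = heckeT ℓ' (heckeT ℓ x) := by
    intro ℓ hℓ _ ℓ' hℓ' _ x hx
    by_cases h : ℓ = ℓ'
    · rw [h]
    · exact heckeT_comm hℓ.ne_zero hℓ'.ne_zero ((Nat.coprime_primes hℓ hℓ').mpr h)
        (TInv_of_mem (hnewMS hx))
  obtain ⟨j, hj⟩ := exists_embedding_complex 𝒪
  obtain ⟨𝒪', i1, i2, i3, i4, i5, i6, i7, i8, i9, hinj, c, j', hj', hjj, hc, y, hy0, hy, hyW⟩ :=
    exists_point (M := M * q) S₁ t X hX (fun c z hc h => Act.part_saturated 𝒪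
        (fun c z hc h => newMS_sat c z hc h) F₁ c z hc h)
      (fun ℓ hℓ hℓS x hx => by
        refine Control.part_stable (heckeT ℓ)
          (fun x hx => heckeT_mem_new hq hqM hℓ (hℓ1 ℓ hℓ hℓS).1 (hℓ1 ℓ hℓ hℓS).2 hx) ?_ ?_ hx
        · rintro T ⟨ℓ', hℓ', hℓ'S, rfl⟩ x hx
          exact Submodule.sub_mem _ (heckeT_mem_new hq hqM hℓ' (hℓ1 ℓ' hℓ' hℓ'S).1
            (hℓ1 ℓ' hℓ' hℓ'S).2 hx) (Submodule.smul_mem _ _ hx)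
        · rintro T ⟨ℓ', hℓ', hℓ'S, rfl⟩ x hx
          rw [LinearMap.sub_apply, LinearMap.sub_apply, map_sub, Module.algebraMap_end_apply,
            Module.algebraMap_end_apply, map_smul, hcomm ℓ hℓ hℓS ℓ' hℓ' hℓ'S x hx])
      (fun ℓ hℓ hℓS x hx => (mem_part.mp hx).2 _ ⟨ℓ, hℓ, hℓS, rfl⟩) x₀ hx₀X hx₀0 j hj
  have hynew : y ∈ newMS M q ℂ := hyW _ fun x hx => mapCoeff_mem_newMS' j (hXnew hx)
  have hne : NonEis (M * q) (↑S₁ : Set ℕ) (fun ℓ => j' (c ℓ)) :=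
    nonEis_of_absIrr hp𝒪 ρbar habs S t hρt j' hj' hc (M * q) (Nat.pos_of_ne_zero hMq)
  obtain ⟨Cg, hCg0, g, hCM, hg, hgc⟩ := exists_newform_of_mem hbad' hne hy hy0
  have hgc' : ∀ ℓ : ℕ, ℓ.Prime → ℓ ∉ S₁ → qCoeff ⇑g ℓ = j' (c ℓ) := fun ℓ hℓ hℓS =>
    hgc ℓ hℓ fun h => hℓS (Finset.mem_coe.1 h)
  have hp𝒪' : (p : 𝒪') ∈ maximalIdeal 𝒪' := by
    have h1 := map_nonunit (algebraMap 𝒪 𝒪') (p : 𝒪) hp𝒪
    rwa [map_natCast] at h1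
  have hCS : ∀ r : ℕ, r.Prime → r ∣ Cg → r ∈ S₁ := fun r hr hrC => hbad r hr (hrC.trans hCM)
  obtain ⟨𝒪'', k1, k2, k3, k4, k5, k6, k7, k8, k9, hinj'', ρ'', hρ'', -⟩ :=
    exists_rep h30 hp𝒪' hg hpS₁ hCS hj' hgc'
  have hint : Algebra.IsIntegral 𝒪' 𝒪'' := Algebra.IsIntegral.of_finite 𝒪' 𝒪''
  obtain ⟨j'', hj'', hjj''⟩ := exists_embedding_extend (A := 𝒪') (B := 𝒪'') (K := ℂ) hinj'' j' hj'
  have hp𝒪'' : (p : 𝒪'') ∈ maximalIdeal 𝒪'' := by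
    have h1 := map_nonunit (algebraMap 𝒪' 𝒪'') (p : 𝒪') hp𝒪'
    rwa [map_natCast] at h1
  have htg'' : ∀ ℓ : ℕ, ℓ.Prime → ℓ ∉ S₁ → qCoeff ⇑g ℓ = j'' (algebraMap 𝒪' 𝒪'' (c ℓ)) := by
    intro ℓ hℓ hℓS
    rw [hgc' ℓ hℓ hℓS, ← hjj'']
    rfl
  -- the residual comparison
  let i : ResidueField 𝒪 →+* ResidueField 𝒪'' :=
    (ResidueField.map (algebraMap 𝒪' 𝒪'')).comp (ResidueField.map (algebraMap 𝒪 𝒪'))
  have hchar := residual_charpoly_eq i ρbar S t hρt hρ'' (fun ℓ hℓ hℓS => by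
    rw [← ResidueField.map_residue, hc ℓ hℓ hℓS]
    rfl)
  obtain ⟨P, hP, φ, hφ, htr⟩ := htq
  have h1 := residual_trace_eq (hchar φ)
  rw [htr] at h1
  have hu : IsUnit ((i (residue 𝒪 tq)) ^ 2 - ((q : ResidueField 𝒪'') + 1) ^ 2) := by
    have := (hTW.map (residue 𝒪)).map i
    simpa using this
  by_cases hqC : q ∣ Cg
  · have hqC2 : ¬ q ^ 2 ∣ Cg := by
      intro h
      have h2 : q * q ∣ M * q := by rw [← pow_two]; exact h.trans hCM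
      exact hqM (Nat.dvd_of_mul_dvd_mul_right hq.pos h2)
    have hst := charpoly_steinberg h35 hp𝒪'' hg hpS₁ hCS hj'' htg'' hρ'' hq hqC hqC2 hqp hP hφ
    have h2 : (LinearMap.trace 𝒪'' ρ''.V (ρ''.ρ φ)) ^ 2 = ((q : 𝒪'') + 1) ^ 2 := by
      rcases hst with h | h
      · rw [trace_of_charpoly h]
      · have h' : LinearMap.charpoly (ρ''.ρ φ) =
            Polynomial.X ^ 2 - C (-((q : 𝒪'') + 1)) * Polynomial.X + C (q : 𝒪'') := by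
          rw [h, C_neg]; ring
        rw [trace_of_charpoly h']; ring
    rw [← h1] at hu
    have h3 := congrArg (residue 𝒪'') h2
    simp only [map_pow, map_add, map_natCast, map_one] at h3
    rw [h3, sub_self] at hu
    exact not_isUnit_zero hu
  · obtain ⟨a, ha, hach⟩ := exists_trace_eq h30 hp𝒪'' hg hpS₁ hCS hj'' htg'' hρ'' hq hqC hqp
    have hCM' : Cg ∣ M := by
      have : Nat.Coprime Cg q := Nat.Coprime.symm ((Nat.Prime.coprime_iff_not_dvd hq).mpr hqC)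
      exact this.dvd_of_dvd_mul_right hCM
    have h2 : residue 𝒪'' a = i (residue 𝒪 tq) := by
      rw [← h1, trace_of_charpoly (hach P hP φ hφ)]
    have h3 : qCoeff ⇑g q ^ 2 ≠ ((q : ℂ) + 1) ^ 2 := by
      intro h
      have h4 : a ^ 2 = ((q : 𝒪'') + 1) ^ 2 := hj'' (by
        rw [map_pow, ha, h, map_pow, map_add, map_natCast, map_one])
      rw [← h2] at hu
      have h5 := congrArg (residue 𝒪'') h4
      simp only [map_pow, map_add, map_natCast, map_one] at h5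
      rw [h5, sub_self] at hu
      exact not_isUnit_zero hu
    have hcong : ∀ ℓ : ℕ, ℓ.Prime → ℓ ∉ (↑S₁ : Set ℕ) → j' (c ℓ) = qCoeff ⇑g ℓ := fun ℓ hℓ hℓS =>
      (hgc ℓ hℓ hℓS).symm
    have hy' : y ∈ eigMS (M * q) (↑S₁ : Set ℕ) (qCoeff ⇑g) := by
      rw [← eigMS_congr hcong]; exact hy
    have hne' : NonEis (M * q) (↑S₁ : Set ℕ) (qCoeff ⇑g) := by
      obtain ⟨ℓ, hℓ, hℓS, hmod, hl⟩ := hne
      exact ⟨ℓ, hℓ, hℓS, hmod, by rw [← hcong ℓ hℓ hℓS]; exact hl⟩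
    exact hy0 (eq_zero_of_mem_newMS hg hq hqM hCM' (Finset.finite_toSet S₁) hbad' hne' h3 hy' hynew)

/-- **(E3)**, in the form needed by `Control.exists_control_hecke` (hypothesis `hnew`):
`charpoly ρbar(Frob_ℓ) = X² - t_ℓ X + ℓ` for all primes `ℓ ∉ S` (including `q`), the family contains
`T_ℓ - t_ℓ` for all primes `ℓ ∉ S'`. -/
theorem hnew (h30 : Datum.S30Statement) (h35 : S35Prop)
    (hp𝒪 : (p : 𝒪) ∈ maximalIdeal 𝒪)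
    (ρbar : ResidualGaloisRep (ResidueField 𝒪)) (habs : ρbar.IsAbsolutelyIrreducible)
    (S : Finset ℕ) (t : ℕ → 𝒪)
    (hρt : ∀ ℓ : ℕ, ℓ.Prime → ℓ ∉ S → ∀ A : ValuationSubring Qbar, A.LiesOverPrime ℓ →
      ∀ σ : Γℚ, A.IsFrobeniusAt σ ℓ → LinearMap.charpoly (ρbar.ρ σ) =
        X ^ 2 - C (residue 𝒪 (t ℓ)) * X + C ((ℓ : ℕ) : ResidueField 𝒪))
    {M q : ℕ} (hq : q.Prime) (hqM : ¬ q ∣ M) (hqp : q ≠ p) (hqS : q ∉ S)
    (hTW : IsUnit ((t q) ^ 2 - ((q : 𝒪) + 1) ^ 2)) {F : Set (Module.End 𝒪 (Pairs 𝒪))}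
    (S' : Finset ℕ)
    (hF : ∀ ℓ : ℕ, ℓ.Prime → ℓ ∉ S' →
      heckeT ℓ - algebraMap 𝒪 (Module.End 𝒪 (Pairs 𝒪)) (t ℓ) ∈ F) (ε : ℤ) :
    part (newMS M q 𝒪 ⊓ sgnMS 𝒪 ε (Gamma0 (M * q))) F = ⊥ := by
  rw [eq_bot_iff, ← part_newMS_eq_bot h30 h35 hp𝒪 ρbar habs S t hρt hq hqM hqp (tq := t q) (F := F)
    ?_ hTW S' hF]
  · exact part_mono inf_le_left le_rfl
  · obtain ⟨P, hP⟩ := FrobExists.exists_liesOverPrime Qbar hq
    obtain ⟨φ, hφ⟩ := FrobExists.exists_isFrobeniusAt P hq hP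
    refine ⟨P, hP, φ, hφ, ?_⟩
    have h := hρt q hq hqS P hP φ hφ
    rw [BN2.charpoly_eq_of_finrank_two ρbar.finrank_eq] at h
    have h1 := congrArg (fun P => P.coeff 1) h
    simpa [coeff_X, coeff_C] using h1

/-- The same with the family of `exists_control_hecke`. -/
theorem hnew_opF (h30 : Datum.S30Statement) (h35 : S35Prop)
    (hp𝒪 : (p : 𝒪) ∈ maximalIdeal 𝒪)
    (ρbar : ResidualGaloisRep (ResidueField 𝒪)) (habs : ρbar.IsAbsolutelyIrreducible)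
    (S : Finset ℕ) (t : ℕ → 𝒪)
    (hρt : ∀ ℓ : ℕ, ℓ.Prime → ℓ ∉ S → ∀ A : ValuationSubring Qbar, A.LiesOverPrime ℓ →
      ∀ σ : Γℚ, A.IsFrobeniusAt σ ℓ → LinearMap.charpoly (ρbar.ρ σ) =
        X ^ 2 - C (residue 𝒪 (t ℓ)) * X + C ((ℓ : ℕ) : ResidueField 𝒪))
    {M q : ℕ} (hq : q.Prime) (hqM : ¬ q ∣ M) (hqp : q ≠ p) (hqS : q ∉ S)
    (hTW : IsUnit ((t q) ^ 2 - ((q : 𝒪) + 1) ^ 2)) (S' : Finset ℕ) {P Q : Set ℕ} (u : ℕ → 𝒪)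
    (hP : ∀ ℓ : ℕ, ℓ.Prime → ℓ ∉ S' → ℓ ∈ P) (ε : ℤ) (α : 𝒪) :
    part (newMS M q 𝒪 ⊓ sgnMS 𝒪 ε (Gamma0 (M * q)))
      (insert (heckeU q - algebraMap 𝒪 (Module.End 𝒪 (Pairs 𝒪)) α) (Control.opF P t Q u)) = ⊥ :=
  hnew h30 h35 hp𝒪 ρbar habs S t hρt hq hqM hqp hqS hTW S'
    (fun ℓ hℓ hℓS => Set.mem_insert_of_mem _ (Or.inl ⟨ℓ, hP ℓ hℓ hℓS, rfl⟩)) ε

end main

end Fermat.Agent.RT.Eig
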