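import Fermat.Agent.RT.NewVanish
import Fermat.Agent.RT.ControlIter

/-!
# (E3) in the form of `Control.exists_controlIter` (helper86)
-/

set_option autoImplicit false

noncomputable section

open Polynomial IsLocalRing CongruenceSubgroup ModularFormClass

namespace Fermat.Agent.RT.Eig

open Fermat.Agent.LR Fermat.Agent.LR.PS Fermat.Agent.RT Fermat.Agent.RT.Point
  Fermat.Agent.CMP.S58Assembly

local notation "Qbar" => AlgebraicClosure ℚ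
local notation "Γℚ" => (AlgebraicClosure ℚ ≃ₐ[ℚ] AlgebraicClosure ℚ)

variable {𝒪 : Type} [CommRing 𝒪] [IsDomain 𝒪] [IsDiscreteValuationRing 𝒪]
  [IsAdicComplete (maximalIdeal 𝒪) 𝒪] [Finite (ResidueField 𝒪)] [CharZero 𝒪]
  {p : ℕ} [Fact p.Prime]

/-- the hypothesis `hnew` of `exists_controlIter`, `exists_controlIter_M0` (with `S₀ = S`). -/
theorem hnewIter (h30 : Datum.S30Statement) (h35 : S35Prop)
    (hp𝒪 : (p : 𝒪) ∈ maximalIdeal 𝒪)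
    (ρbar : ResidualGaloisRep (ResidueField 𝒪)) (habs : ρbar.IsAbsolutelyIrreducible)
    (S : Finset ℕ) (hpS : p ∈ S) (t : ℕ → 𝒪)
    (hρt : ∀ ℓ : ℕ, ℓ.Prime → ℓ ∉ S → ∀ A : ValuationSubring Qbar, A.LiesOverPrime ℓ →
      ∀ σ : Γℚ, A.IsFrobeniusAt σ ℓ → LinearMap.charpoly (ρbar.ρ σ) =
        X ^ 2 - C (residue 𝒪 (t ℓ)) * X + C ((ℓ : ℕ) : ResidueField 𝒪))
    {N₀ : ℕ} (hNS : ∀ ℓ : ℕ, ℓ.Prime → ℓ ∣ N₀ → ℓ ∈ S) {B : Finset ℕ}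
    (hBp : ∀ q ∈ B, q.Prime) (hBS : ∀ q ∈ B, q ∉ S)
    (hTW : ∀ q ∈ B, IsUnit (t q ^ 2 - ((q : 𝒪) + 1) ^ 2)) (ε : ℤ) (α : ℕ → 𝒪) :
    ∀ B' ⊆ B, ∀ q ∈ B, q ∉ B' →
      part (newMS (N₀ * ∏ q ∈ B', q) q 𝒪 ⊓ sgnMS 𝒪 ε (Gamma0 (N₀ * (∏ q ∈ B', q) * q)))
      (insert (heckeU q - algebraMap 𝒪 (Module.End 𝒪 (Pairs 𝒪)) (α q))
        (Control.opF (Control.prS (↑S : Set ℕ) (insert q B')) t (B' : Set ℕ) α)) = ⊥ := by
  classical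
  intro B' hB' q hq hqB
  refine hnew_opF h30 h35 hp𝒪 ρbar habs S t hρt (hBp q hq) ?_ ?_ (hBS q hq) (hTW q hq)
    (S ∪ insert q B') α ?_ ε (α q)
  · intro h
    rcases (Control.prime_dvd_mul_prod (fun r hr => hBp r (hB' hr)) (hBp q hq)).mp h with h | h
    · exact hBS q hq (hNS q (hBp q hq) h)
    · exact hqB h
  · rintro rfl
    exact hBS q hq hpS
  · intro ℓ hℓ hℓS
    rw [Finset.mem_union, not_or] at hℓS
    exact ⟨hℓ, fun h => hℓS.1 (Finset.mem_coe.1 h), hℓS.2⟩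

end Fermat.Agent.RT.Eig
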