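import Fermat.Agent.RT.GroupRing

/-!
# Norm elements on free `A[Δ]`-modules (team RT, helper59)

Let `Δ` be a finite group and `M` a free `A[Δ]`-module, `ν = ∑ δ`.
* `exists_norm_eq` : `M^Δ = ν M`;
* `exists_sum_of_norm_eq_zero` : `ν x = 0 ⟹ x ∈ ∑ (δ-1)M`.
The same in terms of a representation `ρ : Δ →* End_A(M)` (`repModule`).
-/

set_option autoImplicit false

open IsLocalRing

noncomputable section

namespace Fermat.Agent.RT.GR

section Norm

variable {A Δ : Type*} [CommRing A] [Group Δ] [Fintype Δ]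

/-- The norm element. -/
def nrm (A Δ : Type*) [CommRing A] [Group Δ] [Fintype Δ] : MonoidAlgebra A Δ :=
  ∑ δ : Δ, MonoidAlgebra.of A Δ δ

/-- coefficient at `1` -/
def e1 (A Δ : Type*) [CommRing A] [Group Δ] : MonoidAlgebra A Δ →ₗ[A] A where
  toFun x := x.coeff 1
  map_add' x y := by simp
  map_smul' a x := by simp

open Classical in
theorem e1_of (δ : Δ) : e1 A Δ (MonoidAlgebra.of A Δ δ) = if δ = 1 then 1 else 0 := by
  change (MonoidAlgebra.of A Δ δ).coeff 1 = _
  rw [MonoidAlgebra.of_apply, MonoidAlgebra.coeff_single, Finsupp.single_apply]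

theorem eq_sum_e1 (x : MonoidAlgebra A Δ) :
    x = ∑ δ : Δ, e1 A Δ (MonoidAlgebra.of A Δ δ⁻¹ * x) • MonoidAlgebra.of A Δ δ := by
  classical
  induction x using MonoidAlgebra.induction_on with
  | of g =>
    simp only [← map_mul, e1_of, inv_mul_eq_one]
    rw [Finset.sum_eq_single g]
    · simp
    · intro b _ hb
      rw [if_neg hb, zero_smul]
    · intro h; exact absurd (Finset.mem_univ _) h
  | add x y hx hy =>
    conv_lhs => rw [hx, hy]
    rw [← Finset.sum_add_distrib]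
    refine Finset.sum_congr rfl fun δ _ => ?_
    rw [mul_add, map_add, add_smul]
  | smul r x hx =>
    conv_lhs => rw [hx]
    rw [Finset.smul_sum]
    refine Finset.sum_congr rfl fun δ _ => ?_
    rw [mul_smul_comm, map_smul, smul_assoc]

theorem eq_smul_nrm {x : MonoidAlgebra A Δ} (h : ∀ δ, MonoidAlgebra.of A Δ δ * x = x) :
    x = e1 A Δ x • nrm A Δ := by
  conv_lhs => rw [eq_sum_e1 x]
  simp only [h, nrm, Finset.smul_sum]

theorem e1_nrm : e1 A Δ (nrm A Δ) = 1 := by
  classical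
  rw [nrm, map_sum]
  simp only [e1_of]
  simp

theorem nrm_mul_of (δ : Δ) : nrm A Δ * MonoidAlgebra.of A Δ δ = nrm A Δ := by
  rw [nrm, Finset.sum_mul]
  simp only [← map_mul]
  exact Fintype.sum_equiv (Equiv.mulRight δ) _ _ fun _ => rfl

theorem of_mul_nrm (δ : Δ) : MonoidAlgebra.of A Δ δ * nrm A Δ = nrm A Δ := by
  rw [nrm, Finset.mul_sum]
  simp only [← map_mul]
  exact Fintype.sum_equiv (Equiv.mulLeft δ) _ _ fun _ => rfl

/-- the `δ`-coordinate, as an element of `A[Δ]` -/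
def crd (δ : Δ) : MonoidAlgebra A Δ →+ MonoidAlgebra A Δ where
  toFun x := e1 A Δ (MonoidAlgebra.of A Δ δ⁻¹ * x) • 1
  map_zero' := by simp
  map_add' x y := by rw [mul_add, map_add, add_smul]

theorem crd_apply (δ : Δ) (x : MonoidAlgebra A Δ) :
    crd δ x = e1 A Δ (MonoidAlgebra.of A Δ δ⁻¹ * x) • 1 := rfl

/-- `λ = ∑ λ_δ δ` with `ν λ = 0` lies in the augmentation ideal. -/
theorem eq_sum_of_nrm_mul_eq_zero {x : MonoidAlgebra A Δ} (h : nrm A Δ * x = 0) :
    x = ∑ δ : Δ, (MonoidAlgebra.of A Δ δ * crd δ x - crd δ x) := by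
  simp only [crd_apply, mul_smul_comm, mul_one, Finset.sum_sub_distrib]
  rw [← eq_sum_e1 x, ← Finset.sum_smul]
  have h1 : (∑ δ : Δ, e1 A Δ (MonoidAlgebra.of A Δ δ⁻¹ * x)) = 0 := by
    rw [← map_sum, ← Finset.sum_mul]
    have h2 : (∑ δ : Δ, MonoidAlgebra.of A Δ δ⁻¹) = nrm A Δ :=
      Fintype.sum_equiv (Equiv.inv Δ) _ _ fun _ => rfl
    rw [h2, h, map_zero]
  rw [h1, zero_smul, sub_zero]

theorem nrm_mul_crd {x : MonoidAlgebra A Δ} (h : ∀ δ, MonoidAlgebra.of A Δ δ * x = x) :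
    nrm A Δ * crd 1 x = x := by
  rw [crd_apply, mul_smul_comm, mul_one, inv_one, map_one, one_mul, ← eq_smul_nrm h]

variable {M : Type*} [AddCommGroup M] [Module (MonoidAlgebra A Δ) M]

theorem exists_norm_eq [Module.Free (MonoidAlgebra A Δ) M] {x : M}
    (h : ∀ δ : Δ, MonoidAlgebra.of A Δ δ • x = x) : ∃ y : M, nrm A Δ • y = x := by
  let b := Module.Free.chooseBasis (MonoidAlgebra A Δ) M
  refine ⟨b.repr.symm ((b.repr x).mapRange (crd (1 : Δ)) (map_zero _)), ?_⟩
  apply b.repr.injective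
  rw [map_smul, LinearEquiv.apply_symm_apply]
  ext1 i
  rw [Finsupp.smul_apply, Finsupp.mapRange_apply, smul_eq_mul]
  refine nrm_mul_crd fun δ => ?_
  have := congrArg (fun z => b.repr z i) (h δ)
  simpa using this

theorem exists_sum_of_norm_eq_zero [Module.Free (MonoidAlgebra A Δ) M] {x : M}
    (h : nrm A Δ • x = 0) : ∃ f : Δ → M, x = ∑ δ : Δ, (MonoidAlgebra.of A Δ δ • f δ - f δ) := by
  let b := Module.Free.chooseBasis (MonoidAlgebra A Δ) M
  refine ⟨fun δ => b.repr.symm ((b.repr x).mapRange (crd δ) (map_zero _)), ?_⟩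
  apply b.repr.injective
  rw [map_sum]
  simp only [map_sub, map_smul, LinearEquiv.apply_symm_apply]
  ext1 i
  rw [Finsupp.finsetSum_apply]
  simp only [Finsupp.sub_apply, Finsupp.smul_apply, Finsupp.mapRange_apply, smul_eq_mul]
  refine eq_sum_of_nrm_mul_eq_zero ?_
  have := congrArg (fun z => b.repr z i) h
  simpa using this

end Norm

section rep

variable {A Δ : Type*} [CommRing A] [Group Δ] {N : Type*} [AddCommGroup N] [Module A N]

/-- The `A[Δ]`-module attached to a representation. -/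
@[implicit_reducible] def repModule (ρ : Δ →* Module.End A N) : Module (MonoidAlgebra A Δ) N :=
  Module.compHom N (MonoidAlgebra.lift A (Module.End A N) Δ ρ).toRingHom

/-- `N` is a free `A[Δ]`-module of finite rank. -/
def RepFree (ρ : Δ →* Module.End A N) : Prop :=
  letI := repModule ρ
  Module.Free (MonoidAlgebra A Δ) N ∧ Module.Finite (MonoidAlgebra A Δ) N

theorem repModule_of_smul (ρ : Δ →* Module.End A N) (δ : Δ) (x : N) :
    letI := repModule ρ
    MonoidAlgebra.of A Δ δ • x = ρ δ x := by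
  change MonoidAlgebra.lift A (Module.End A N) Δ ρ (MonoidAlgebra.of A Δ δ) x = _
  rw [MonoidAlgebra.lift_of]

theorem repModule_tower (ρ : Δ →* Module.End A N) :
    letI := repModule ρ
    IsScalarTower A (MonoidAlgebra A Δ) N :=
  letI := repModule ρ
  ⟨fun a b m => by
    change MonoidAlgebra.lift A (Module.End A N) Δ ρ (a • b) m =
      a • MonoidAlgebra.lift A (Module.End A N) Δ ρ b m
    rw [map_smul]; rfl⟩

theorem repModule_nrm_smul [Fintype Δ] (ρ : Δ →* Module.End A N) (x : N) :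
    letI := repModule ρ
    nrm A Δ • x = ∑ δ, ρ δ x := by
  letI := repModule ρ
  rw [nrm, Finset.sum_smul]
  exact Finset.sum_congr rfl fun δ _ => repModule_of_smul ρ δ x

theorem RepFree.exists_norm_eq [Fintype Δ] {ρ : Δ →* Module.End A N} (h : RepFree ρ) {x : N}
    (hx : ∀ δ, ρ δ x = x) : ∃ y, ∑ δ, ρ δ y = x := by
  letI := repModule ρ
  have := h.1
  obtain ⟨y, hy⟩ := GR.exists_norm_eq (A := A) (Δ := Δ) (x := x) fun δ => by
    rw [repModule_of_smul, hx]
  exact ⟨y, by rw [← hy, repModule_nrm_smul]⟩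

theorem RepFree.exists_sum_of_norm_eq_zero [Fintype Δ] {ρ : Δ →* Module.End A N} (h : RepFree ρ)
    {x : N} (hx : ∑ δ, ρ δ x = 0) : ∃ f : Δ → N, x = ∑ δ, (ρ δ (f δ) - f δ) := by
  letI := repModule ρ
  have := h.1
  obtain ⟨f, hf⟩ := GR.exists_sum_of_norm_eq_zero (A := A) (Δ := Δ) (x := x) (by
    rw [repModule_nrm_smul, hx])
  refine ⟨f, hf.trans (Finset.sum_congr rfl fun δ _ => by rw [repModule_of_smul])⟩

/-- `(δ - 1) y ∈ ∑_{s ∈ T} (s - 1) N` if `T` generates `Δ`. -/
theorem sub_mem_iSup_range (ρ : Δ →* Module.End A N) {ι : Type*} (g : ι → Δ)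
    (hg : Subgroup.closure (Set.range g) = ⊤) (δ : Δ) (y : N) :
    ρ δ y - y ∈ ⨆ i, LinearMap.range (ρ (g i) - 1) := by
  have hδ : δ ∈ Subgroup.closure (Set.range g) := by rw [hg]; trivial
  induction hδ using Subgroup.closure_induction generalizing y with
  | mem x hx =>
    obtain ⟨i, rfl⟩ := hx
    exact Submodule.mem_iSup_of_mem i ⟨y, rfl⟩
  | one => rw [map_one, Module.End.one_apply, sub_self]; exact zero_mem _
  | mul a b _ _ ha hb =>
    have : ρ (a * b) y - y = (ρ a (ρ b y) - ρ b y) + (ρ b y - y) := by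
      rw [map_mul, Module.End.mul_apply]; abel
    rw [this]
    exact add_mem (ha _) (hb _)
  | inv a _ ha =>
    have : ρ a⁻¹ y - y = -(ρ a (ρ a⁻¹ y) - ρ a⁻¹ y) := by
      rw [← Module.End.mul_apply, ← map_mul, mul_inv_cancel, map_one, Module.End.one_apply]
      abel
    rw [this]
    exact neg_mem (ha _)

/-- kernel of the norm = `∑ (g_i - 1) N` -/
theorem RepFree.norm_eq_zero_iff [Fintype Δ] {ρ : Δ →* Module.End A N} (h : RepFree ρ)
    {ι : Type*} (g : ι → Δ) (hg : Subgroup.closure (Set.range g) = ⊤) {x : N} :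
    ∑ δ, ρ δ x = 0 ↔ x ∈ ⨆ i, LinearMap.range (ρ (g i) - 1) := by
  constructor
  · intro hx
    obtain ⟨f, hf⟩ := h.exists_sum_of_norm_eq_zero hx
    rw [hf]
    exact Submodule.sum_mem _ fun δ _ => sub_mem_iSup_range ρ g hg δ _
  · intro hx
    have h1 : (⨆ i, LinearMap.range (ρ (g i) - 1)) ≤ LinearMap.ker (∑ δ, ρ δ) := by
      refine iSup_le fun i => ?_
      rintro _ ⟨y, rfl⟩
      rw [LinearMap.mem_ker, LinearMap.sub_apply, Module.End.one_apply, map_sub, sub_eq_zero,
        ← Module.End.mul_apply, Finset.sum_mul]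
      simp only [← map_mul]
      congr 1
      exact Fintype.sum_equiv (Equiv.mulRight (g i)) _ _ fun _ => rfl
    have := h1 hx
    rwa [LinearMap.mem_ker, LinearMap.sum_apply] at this

/-- **Abstract norm map** onto any model `N₀` of the invariants. -/
theorem RepFree.exists_norm_map [Fintype Δ] {ρ : Δ →* Module.End A N} (h : RepFree ρ)
    {ι : Type*} (g : ι → Δ) (hg : Subgroup.closure (Set.range g) = ⊤)
    {N₀ : Type*} [AddCommGroup N₀] [Module A N₀] (j : N₀ →ₗ[A] N) (hj : Function.Injective j)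
    (hj1 : ∀ y δ, ρ δ (j y) = j y) (hj2 : ∀ x : N, (∀ δ, ρ δ x = x) → ∃ y, j y = x) :
    ∃ ν : N →ₗ[A] N₀, Function.Surjective ν ∧ (∀ x, j (ν x) = ∑ δ, ρ δ x) ∧
      LinearMap.ker ν = ⨆ i, LinearMap.range (ρ (g i) - 1) := by
  have hinv : ∀ x, ∀ δ, ρ δ (∑ ε, ρ ε x) = ∑ ε, ρ ε x := by
    intro x δ
    rw [map_sum]
    simp only [← Module.End.mul_apply, ← map_mul]
    exact Fintype.sum_equiv (Equiv.mulLeft δ) _ _ fun _ => rfl
  choose f hf using fun x => hj2 (∑ ε, ρ ε x) (hinv x)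
  let ν : N →ₗ[A] N₀ :=
    { toFun := f
      map_add' := fun x y => hj (by
        rw [hf, map_add, hf, hf, ← Finset.sum_add_distrib]
        exact Finset.sum_congr rfl fun δ _ => map_add _ _ _)
      map_smul' := fun c x => hj (by
        rw [hf, RingHom.id_apply, map_smul, hf, Finset.smul_sum]
        exact Finset.sum_congr rfl fun δ _ => map_smul _ _ _) }
  refine ⟨ν, fun y => ?_, hf, ?_⟩
  · obtain ⟨x, hx⟩ := h.exists_norm_eq (hj1 y)
    exact ⟨x, hj ((hf x).trans hx)⟩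
  · ext x
    rw [LinearMap.mem_ker, ← h.norm_eq_zero_iff g hg, ← hf x]
    exact ⟨fun hx => by rw [show f x = ν x from rfl, hx, map_zero],
      fun hx => hj (by rw [map_zero]; exact hx)⟩

end rep

end Fermat.Agent.RT.GR
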