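import Fermat.Agent.RT.PatchLevelMat

/-!
# Adapted bases of patching levels
-/

set_option autoImplicit false

open IsLocalRing MvPowerSeries

namespace Fermat.Agent.RT.Patch

variable {𝒪 : Type} [CommRing 𝒪] {r : ℕ} {R : Type} [CommRing R] [Algebra 𝒪 R]
  {M : Type} [AddCommGroup M] [Module R M] {J : Ideal (MvPowerSeries (Fin r) 𝒪)}

/-- `e` is a basis of `M` as an `𝒪`-module (through `algebraMap 𝒪 R`). -/
structure OBasis (𝒪 : Type) [CommRing 𝒪] {R : Type} [CommRing R] [Algebra 𝒪 R]
    {M : Type} [AddCommGroup M] [Module R M] {d : ℕ} (e : Fin d → M) : Prop where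
  span : ∀ m : M, ∃ a : Fin d → 𝒪, m = ∑ i, algebraMap 𝒪 R (a i) • e i
  indep : ∀ a : Fin d → 𝒪, ∑ i, algebraMap 𝒪 R (a i) • e i = 0 → ∀ i, a i = 0

/-- the given basis of a level as an adapted basis. -/
def ABasis.self (L : Algebra.PatchingLevel 𝒪 r R M J) : ABasis L (fun i => L.π (L.b i)) where
  b := L.b
  span := L.b_span
  rel := L.b_rel
  π_b _ := rfl

/-- the ideal `(X_1, …, X_r)` -/
noncomputable def idealX (𝒪 : Type) [CommRing 𝒪] (r : ℕ) : Ideal (MvPowerSeries (Fin r) 𝒪) :=
  Ideal.span (Set.range fun i : Fin r => (X i : MvPowerSeries (Fin r) 𝒪))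

theorem mem_idealX_iff (f : MvPowerSeries (Fin r) 𝒪) :
    f ∈ idealX 𝒪 r ↔ constantCoeff f = 0 := by
  constructor
  · intro h
    have : idealX 𝒪 r ≤ RingHom.ker (constantCoeff : MvPowerSeries (Fin r) 𝒪 →+* 𝒪) := by
      rw [idealX, Ideal.span_le]
      rintro _ ⟨i, rfl⟩
      simp [RingHom.mem_ker]
    exact this h
  · intro h
    rw [ULim.eq_C_add_sum f, h, map_zero, zero_add]
    exact Ideal.sum_mem _ fun i _ => Ideal.mul_mem_right _ _ (Ideal.subset_span ⟨i, rfl⟩)

theorem ABasis.mem_smul_top_iff {L : Algebra.PatchingLevel 𝒪 r R M J} {d : ℕ} {e : Fin d → M}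
    (B : ABasis L e) (x : L.N) :
    x ∈ (Ideal.span (Set.range fun i : Fin r => L.φ (X i))) •
      (⊤ : Submodule (MvPowerSeries (Fin r) 𝒪) L.N) ↔ x ∈ B.sub (idealX 𝒪 r) := by
  constructor
  · intro hx
    have hle : (Ideal.span (Set.range fun i : Fin r => L.φ (X i))) •
      (⊤ : Submodule (MvPowerSeries (Fin r) 𝒪) L.N) ≤ B.sub (idealX 𝒪 r) := by
      rw [Submodule.smul_le]
      intro a ha n _
      induction ha using Submodule.span_induction with
      | mem a ha =>
        obtain ⟨i, rfl⟩ := ha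
        obtain ⟨c, rfl⟩ := B.span n
        refine B.mem_sub.mpr ⟨fun j => X i * c j, fun j =>
          Ideal.mul_mem_right _ _ (Ideal.subset_span ⟨i, rfl⟩), ?_⟩
        simp only [Finset.smul_sum, map_mul, mul_smul]
      | zero => rw [zero_smul]; exact zero_mem _
      | add a b _ _ iha ihb => rw [add_smul]; exact add_mem iha ihb
      | smul s a _ ih => rw [smul_eq_mul, mul_smul]; exact Submodule.smul_mem _ _ ih
    exact hle hx
  · intro hx
    obtain ⟨y, hy, rfl⟩ := B.mem_sub.mp hx
    refine Submodule.sum_mem _ fun i _ => Submodule.smul_mem_smul ?_ trivial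
    have h1 : (idealX 𝒪 r).map (L.φ : MvPowerSeries (Fin r) 𝒪 →+* MvPowerSeries (Fin r) 𝒪) ≤
        Ideal.span (Set.range fun i : Fin r => L.φ (X i)) := by
      rw [idealX, Ideal.map_span, Ideal.span_le]
      rintro _ ⟨_, ⟨i, rfl⟩, rfl⟩
      exact Ideal.subset_span ⟨i, rfl⟩
    exact h1 (Ideal.mem_map_of_mem _ (hy i))

theorem ABasis.oBasis {L : Algebra.PatchingLevel 𝒪 r R M J} {d : ℕ} {e : Fin d → M}
    (B : ABasis L e) (hJ : ∀ f ∈ J, constantCoeff f = 0) : OBasis 𝒪 (R := R) e where
  span := by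
    intro m
    obtain ⟨x, rfl⟩ := L.π_surjective m
    obtain ⟨c, rfl⟩ := B.span x
    exact ⟨fun i => constantCoeff (c i), B.π_sum c⟩
  indep := by
    intro a ha i
    have h1 : L.π (∑ j, L.φ (C (a j)) • B.b j) = 0 := by
      rw [B.π_sum]; simpa using ha
    rw [L.ker_π, B.mem_smul_top_iff, B.mem_sub] at h1
    obtain ⟨y, hy, h⟩ := h1
    have h2 := hJ _ (B.sub_mem (c := fun j => C (a j)) h i)
    rw [map_sub, (mem_idealX_iff _).mp (hy i), sub_zero, constantCoeff_C] at h2
    exact h2

/-- change of adapted basis. -/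
theorem ABasis.exists_of_oBasis {L : Algebra.PatchingLevel 𝒪 r R M J} {d d' : ℕ}
    {e : Fin d → M} {e' : Fin d' → M} (B : ABasis L e) (he : OBasis 𝒪 (R := R) e)
    (he' : OBasis 𝒪 (R := R) e') : Nonempty (ABasis L e') := by
  choose P hP using fun k => he'.span (e k)  -- e k = ∑ i, P k i • e' i
  choose Q hQ using fun i => he.span (e' i)  -- e' i = ∑ k, Q i k • e k
  have hPQ : ∀ k l, ∑ i, P k i * Q i l = if k = l then 1 else 0 := by
    intro k
    have h1 : ∑ l, algebraMap 𝒪 R (∑ i, P k i * Q i l - if k = l then 1 else 0) • e l = 0 := by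
      simp only [map_sub, sub_smul, Finset.sum_sub_distrib, sub_eq_zero]
      calc ∑ l, algebraMap 𝒪 R (∑ i, P k i * Q i l) • e l
          = ∑ i, algebraMap 𝒪 R (P k i) • ∑ l, algebraMap 𝒪 R (Q i l) • e l := by
            simp only [map_sum, Finset.sum_smul, map_mul, mul_smul, Finset.smul_sum]
            rw [Finset.sum_comm]
        _ = e k := by
            rw [hP k]
            exact Finset.sum_congr rfl fun i _ => by rw [← hQ i]
        _ = _ := by simp
    intro l
    exact sub_eq_zero.mp (he.indep _ h1 l)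
  have hQP : ∀ i j, ∑ k, Q i k * P k j = if i = j then 1 else 0 := by
    intro i
    have h1 : ∑ j, algebraMap 𝒪 R (∑ k, Q i k * P k j - if i = j then 1 else 0) • e' j = 0 := by
      simp only [map_sub, sub_smul, Finset.sum_sub_distrib, sub_eq_zero]
      calc ∑ j, algebraMap 𝒪 R (∑ k, Q i k * P k j) • e' j
          = ∑ k, algebraMap 𝒪 R (Q i k) • ∑ j, algebraMap 𝒪 R (P k j) • e' j := by
            simp only [map_sum, Finset.sum_smul, map_mul, mul_smul, Finset.smul_sum]
            rw [Finset.sum_comm]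
        _ = e' i := by
            rw [hQ i]
            exact Finset.sum_congr rfl fun k _ => by rw [← hP k]
        _ = _ := by simp
    intro j
    exact sub_eq_zero.mp (he'.indep _ h1 j)
  -- the new basis
  let b' : Fin d' → L.N := fun i => ∑ k, L.φ (C (Q i k)) • B.b k
  have hb' : ∀ c : Fin d' → MvPowerSeries (Fin r) 𝒪,
      ∑ i, L.φ (c i) • b' i = ∑ k, L.φ (∑ i, c i * C (Q i k)) • B.b k := by
    intro c
    simp only [b', Finset.smul_sum, smul_smul, ← map_mul]
    rw [Finset.sum_comm]
    refine Finset.sum_congr rfl fun k _ => ?_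
    rw [map_sum, Finset.sum_smul]
  refine ⟨⟨b', ?_, ?_, ?_⟩⟩
  · intro x
    obtain ⟨c, rfl⟩ := B.span x
    refine ⟨fun i => ∑ k, c k * C (P k i), ?_⟩
    rw [hb']
    refine Finset.sum_congr rfl fun l _ => ?_
    congr 2
    calc c l = ∑ k, c k * C (∑ i, P k i * Q i l) := by
            simp [hPQ]
      _ = _ := by
            simp only [map_sum, map_mul, Finset.mul_sum, Finset.sum_mul]
            rw [Finset.sum_comm]
            simp only [mul_assoc]
  · intro c
    rw [hb', B.rel]
    constructor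
    · intro h j
      have h1 : c j = ∑ k, (∑ i, c i * C (Q i k)) * C (P k j) := by
        calc c j = ∑ i, c i * C (∑ k, Q i k * P k j) := by simp [hQP]
          _ = _ := by
            simp only [map_sum, map_mul, Finset.mul_sum, Finset.sum_mul]
            rw [Finset.sum_comm]
            simp only [mul_assoc]
      rw [h1]
      exact Ideal.sum_mem _ fun k _ => Ideal.mul_mem_right _ _ (h k)
    · intro h k
      exact Ideal.sum_mem _ fun i _ => Ideal.mul_mem_right _ _ (h i)
  · intro i
    simp only [b']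
    rw [B.π_sum]
    simp only [constantCoeff_C]
    exact (hQ i).symm

end Fermat.Agent.RT.Patch
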