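import Fermat.Agent.RT.PatchingMain
import Fermat.Agent.RT.NC.Pairing
import Mathlib.RingTheory.PrincipalIdealDomain
import Mathlib.LinearAlgebra.FreeModule.PID

/-!
# Patching output in the form needed for the numerical criterion
-/

set_option autoImplicit false
set_option linter.style.haveILetI false
set_option linter.unusedSectionVars false

open IsLocalRing

namespace Fermat.Agent.RT.Patch

open Fermat.Agent.RT.ULim Fermat.Agent.RT.NC MvPowerSeries

section level

variable {𝒪 : Type} [CommRing 𝒪] {r : ℕ} {R : Type} [CommRing R] [Algebra 𝒪 R]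
  {M : Type} [AddCommGroup M] [Module R M] [Module 𝒪 M] [IsScalarTower 𝒪 R M]

theorem psi_phi (L : Algebra.PatchingLevel 𝒪 r R M ⊥) (c : MvPowerSeries (Fin r) 𝒪) :
    L.ψ (L.φ c) = algebraMap 𝒪 R (constantCoeff c) := by
  conv_lhs => rw [eq_C_add_sum c]
  have h1 : ∀ a : 𝒪, L.ψ (L.φ (C a)) = algebraMap 𝒪 R a := by
    intro a
    have h2 : (C a : MvPowerSeries (Fin r) 𝒪) = algebraMap 𝒪 _ a := rfl
    rw [h2, AlgHom.commutes, AlgHom.commutes]
  rw [map_add, map_add, h1, map_sum, map_sum, Finset.sum_eq_zero, add_zero]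
  intro i _
  rw [map_mul, map_mul, L.ψ_φ_X, zero_mul]

/-- the images of the basis form an `𝒪`-basis of `M` -/
theorem exists_basis (L : Algebra.PatchingLevel 𝒪 r R M ⊥) :
    Nonempty (Module.Basis (Fin L.d) 𝒪 M) := by
  classical
  have hφC : ∀ a : 𝒪, L.φ (C a) = C a := fun a => L.φ.commutes a
  have hψC : ∀ a : 𝒪, L.ψ (C a) = algebraMap 𝒪 R a := fun a => L.ψ.commutes a
  refine ⟨Module.Basis.mk (v := fun i => L.π (L.b i)) ?_ ?_⟩
  · rw [Fintype.linearIndependent_iff]
    intro g hg
    -- lift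
    have h1 : L.π (∑ i, L.φ (C (g i)) • L.b i) = 0 := by
      rw [map_sum]
      rw [← hg]
      refine Finset.sum_congr rfl fun i _ => ?_
      rw [L.π_smul, hφC, hψC, algebraMap_smul]
    rw [L.ker_π] at h1
    have h2 : ∀ x ∈ (Ideal.span (Set.range fun i : Fin r => L.φ (X i))) •
        (⊤ : Submodule (MvPowerSeries (Fin r) 𝒪) L.N), ∃ c : Fin L.d → MvPowerSeries (Fin r) 𝒪,
          (∀ i, constantCoeff (c i) = 0) ∧ x = ∑ i, L.φ (c i) • L.b i := by
      intro x hx
      induction hx using Submodule.smul_induction_on' with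
      | smul s hs y _ =>
        obtain ⟨e, rfl⟩ := (Ideal.mem_span_range_iff_exists_fun).mp hs
        choose k hk using fun i => L.b_span (e i • y)
        refine ⟨fun j => ∑ i, X i * k i j, ?_, ?_⟩
        · intro j
          rw [map_sum]
          exact Finset.sum_eq_zero fun i _ => by rw [map_mul, constantCoeff_X, zero_mul]
        · rw [Finset.sum_smul]
          have h3 : ∀ i, (e i * L.φ (X i)) • y = ∑ j, L.φ (X i * k i j) • L.b j := by
            intro i
            rw [mul_comm, mul_smul, hk i, Finset.smul_sum]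
            refine Finset.sum_congr rfl fun j _ => ?_
            rw [map_mul, mul_smul]
          rw [Finset.sum_congr rfl fun i _ => h3 i, Finset.sum_comm]
          refine Finset.sum_congr rfl fun j _ => ?_
          rw [map_sum, Finset.sum_smul]
      | add x _ y _ hx hy =>
        obtain ⟨c, hc, rfl⟩ := hx
        obtain ⟨c', hc', rfl⟩ := hy
        refine ⟨fun i => c i + c' i, fun i => by rw [map_add, hc, hc', add_zero], ?_⟩
        rw [← Finset.sum_add_distrib]
        refine Finset.sum_congr rfl fun i _ => ?_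
        rw [map_add, add_smul]
    obtain ⟨c, hc, hcx⟩ := h2 _ h1
    have h3 : ∑ i, L.φ (C (g i) - c i) • L.b i = 0 := by
      simp only [map_sub, sub_smul, Finset.sum_sub_distrib]
      rw [← hcx, sub_self]
    intro i
    have h4 := (L.b_rel _).mp h3 i
    have h5 : C (g i) - c i = (0 : MvPowerSeries (Fin r) 𝒪) := h4
    have h6 := congrArg (constantCoeff (σ := Fin r) (R := 𝒪)) h5
    rw [map_sub, constantCoeff_C, hc, sub_zero, map_zero] at h6
    exact h6
  · rintro m -
    obtain ⟨x, rfl⟩ := L.π_surjective m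
    obtain ⟨c, rfl⟩ := L.b_span x
    rw [map_sum]
    refine Submodule.sum_mem _ fun i _ => ?_
    rw [L.π_smul, psi_phi, algebraMap_smul]
    exact Submodule.smul_mem _ _ (Submodule.subset_span ⟨i, rfl⟩)

end level

section summand

/-- If a nonzero free `R`-module is finite free over the PID `𝒪` then so is `R`. -/
theorem finite_free_of_free {𝒪 R M : Type*} [CommRing 𝒪] [IsDomain 𝒪] [IsPrincipalIdealRing 𝒪]
    [CommRing R] [Algebra 𝒪 R] [AddCommGroup M] [Module R M] [Module 𝒪 M] [IsScalarTower 𝒪 R M]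
    [Nontrivial M] [Module.Free R M] [Module.Finite 𝒪 M] [Module.Free 𝒪 M] :
    Module.Finite 𝒪 R ∧ Module.Free 𝒪 R := by
  classical
  let b := Module.Free.chooseBasis R M
  haveI : Nonempty (Module.Free.ChooseBasisIndex R M) := by
    by_contra h
    rw [not_nonempty_iff] at h
    haveI := h
    haveI : Subsingleton M := b.repr.toEquiv.subsingleton
    exact not_subsingleton M inferInstance
  let i0 := Classical.arbitrary (Module.Free.ChooseBasisIndex R M)
  let f : R →ₗ[𝒪] M := (LinearMap.toSpanSingleton R M (b i0)).restrictScalars 𝒪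
  let g : M →ₗ[𝒪] R := (b.coord i0).restrictScalars 𝒪
  have hgf : Function.LeftInverse g f := by
    intro x
    change b.coord i0 (x • b i0) = x
    rw [map_smul, Module.Basis.coord_apply, Module.Basis.repr_self, Finsupp.single_eq_same,
      smul_eq_mul, mul_one]
  haveI : Module.Finite 𝒪 R := Module.Finite.of_surjective g hgf.surjective
  haveI : Module.IsTorsionFree 𝒪 M := inferInstance
  haveI : Module.IsTorsionFree 𝒪 R := hgf.injective.moduleIsTorsionFree f (fun c x => map_smul f c x)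
  exact ⟨inferInstance, inferInstance⟩

end summand

variable {𝒪 : Type} [CommRing 𝒪] [IsDomain 𝒪] [IsDiscreteValuationRing 𝒪]
  [Finite (ResidueField 𝒪)] [IsAdicComplete (maximalIdeal 𝒪) 𝒪]
  {r : ℕ} {R : Type} [CommRing R] [Algebra 𝒪 R]
  {M : Type} [AddCommGroup M] [Module R M] [Module 𝒪 M] [IsScalarTower 𝒪 R M]

/-- Output of patching: `R` is a finite free complete intersection and `M` is free over `R`. -/
theorem main_of_level [Nontrivial M] (L : Algebra.PatchingLevel 𝒪 r R M ⊥) :
    NC.IsCI 𝒪 R ∧ Module.Finite 𝒪 R ∧ Module.Free 𝒪 R ∧ Module.Free R M ∧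
      Module.annihilator R M = ⊥ := by
  obtain ⟨h1, h2, h3⟩ := Fermat.Agent.S57.result L
  obtain ⟨b⟩ := exists_basis L
  haveI : Module.Finite 𝒪 M := Module.Finite.of_basis b
  haveI : Module.Free 𝒪 M := Module.Free.of_basis b
  obtain ⟨h4, h5⟩ := finite_free_of_free (𝒪 := 𝒪) (R := R) (M := M)
  exact ⟨⟨r, _, L.ψ, L.ψ_surjective, h3⟩, h4, h5, h1, h2⟩

theorem main_of_datum [Nontrivial M] {ℓ : ℕ} (hℓ : (ℓ : 𝒪) ∈ maximalIdeal 𝒪)
    (D : Algebra.PatchingDatum 𝒪 ℓ r R M) :
    NC.IsCI 𝒪 R ∧ Module.Finite 𝒪 R ∧ Module.Free 𝒪 R ∧ Module.Free R M ∧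
      Module.annihilator R M = ⊥ := by
  obtain ⟨L⟩ := exists_patchingLevel_bot hℓ D
  exact main_of_level L

theorem main_of_tendsto [Nontrivial M]
    {J : ℕ → Ideal (MvPowerSeries (Fin r) 𝒪)}
    (L : ∀ n, Algebra.PatchingLevel 𝒪 r R M (J n))
    (hJ0 : ∀ n, ∀ f ∈ J n, MvPowerSeries.constantCoeff f = 0)
    (hJ : ∀ k, ∀ᶠ n in (Filter.atTop : Filter ℕ),
      J n ≤ maximalIdeal (MvPowerSeries (Fin r) 𝒪) ^ k) :
    NC.IsCI 𝒪 R ∧ Module.Finite 𝒪 R ∧ Module.Free 𝒪 R ∧ Module.Free R M ∧
      Module.annihilator R M = ⊥ := by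
  obtain ⟨L⟩ := exists_level_bot_of_tendsto L hJ0 hJ
  exact main_of_level L

end Fermat.Agent.RT.Patch
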