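import Fermat.Prelude.Def_Algebra_PatchingDatum
import Fermat.Agent.RT.ULimPS
import Mathlib.RingTheory.Nakayama
import Mathlib.LinearAlgebra.Matrix.Basis
import Mathlib.LinearAlgebra.FreeModule.Basic
import Mathlib.LinearAlgebra.Dimension.StrongRankCondition

/-!
# Patching levels in matrix form
-/

set_option autoImplicit false

open IsLocalRing MvPowerSeries

namespace Fermat.Agent.RT.Patch

/-- a finite module of cardinality `< 2 ^ K` over a local ring is killed by `m ^ K`. -/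
theorem pow_smul_top_eq_bot {S : Type*} [CommRing S] [IsLocalRing S] (K : ℕ) :
    ∀ (N : Type) [AddCommGroup N] [Module S N] [Finite N], Nat.card N < 2 ^ K →
      maximalIdeal S ^ K • (⊤ : Submodule S N) = ⊥ := by
  induction K with
  | zero =>
    intro N _ _ _ h
    have := Nat.card_pos (α := N)
    omega
  | succ K ih =>
    intro N _ _ _ h
    set N' : Submodule S N := maximalIdeal S • (⊤ : Submodule S N) with hN'
    have hfg : (⊤ : Submodule S N).FG := Module.Finite.fg_top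
    by_cases htop : N' = ⊤
    · have : (⊤ : Submodule S N) = ⊥ := by
        apply Submodule.eq_bot_of_le_smul_of_le_jacobson_bot (maximalIdeal S) _ hfg htop.ge
        exact IsLocalRing.maximalIdeal_le_jacobson _
      rw [this]; simp
    · have hcard : Nat.card N = Nat.card N' * Nat.card (N ⧸ N') :=
        Submodule.card_eq_card_quotient_mul_card N'
      have h2 : 2 ≤ Nat.card (N ⧸ N') := by
        have : Nontrivial (N ⧸ N') := Submodule.Quotient.nontrivial_iff.mpr htop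
        have : Finite (N ⧸ N') := Finite.of_surjective _ N'.mkQ_surjective
        exact Finite.one_lt_card
      have h3 : Nat.card N' < 2 ^ K := by
        rw [hcard, pow_succ] at h
        have : Nat.card N' * 2 ≤ Nat.card N' * Nat.card (N ⧸ N') := Nat.mul_le_mul_left _ h2
        omega
      have h4 := ih N' h3
      have h5 := congrArg (Submodule.map N'.subtype) h4
      rw [Submodule.map_smul'', Submodule.map_subtype_top, Submodule.map_bot] at h5
      rw [pow_succ, Submodule.mul_smul]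
      exact h5

variable {𝒪 : Type} [CommRing 𝒪] {r : ℕ} {R : Type} [CommRing R] [Algebra 𝒪 R]
  {M : Type} [AddCommGroup M] [Module R M] {J : Ideal (MvPowerSeries (Fin r) 𝒪)}

/-- a basis adapted to a family of `M`. -/
structure ABasis (L : Algebra.PatchingLevel 𝒪 r R M J) {d : ℕ} (e : Fin d → M) where
  b : Fin d → L.N
  span : ∀ x : L.N, ∃ c : Fin d → MvPowerSeries (Fin r) 𝒪, x = ∑ i, L.φ (c i) • b i
  rel : ∀ c : Fin d → MvPowerSeries (Fin r) 𝒪, ∑ i, L.φ (c i) • b i = 0 ↔ ∀ i, c i ∈ J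
  π_b : ∀ i, L.π (b i) = e i

namespace ABasis

variable {L : Algebra.PatchingLevel 𝒪 r R M J} {d : ℕ} {e : Fin d → M} (B : ABasis L e)

include B in
theorem sub_mem {c c' : Fin d → MvPowerSeries (Fin r) 𝒪}
    (h : ∑ i, L.φ (c i) • B.b i = ∑ i, L.φ (c' i) • B.b i) (i : Fin d) : c i - c' i ∈ J := by
  refine (B.rel (fun i => c i - c' i)).mp ?_ i
  simp only [map_sub, sub_smul, Finset.sum_sub_distrib, h, sub_self]

/-- the matrix of the action of `s`. -/
noncomputable def mat (s : MvPowerSeries (Fin r) 𝒪) :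
    Matrix (Fin d) (Fin d) (MvPowerSeries (Fin r) 𝒪) :=
  Matrix.of fun i j => (B.span (s • B.b j)).choose i

theorem mat_spec (s : MvPowerSeries (Fin r) 𝒪) (j : Fin d) :
    s • B.b j = ∑ i, L.φ (B.mat s i j) • B.b i := (B.span (s • B.b j)).choose_spec

theorem smul_sum (s : MvPowerSeries (Fin r) 𝒪) (v : Fin d → MvPowerSeries (Fin r) 𝒪) :
    s • ∑ j, L.φ (v j) • B.b j = ∑ i, L.φ (∑ j, B.mat s i j * v j) • B.b i := by
  calc s • ∑ j, L.φ (v j) • B.b j = ∑ j, L.φ (v j) • s • B.b j := by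
        rw [Finset.smul_sum]
        exact Finset.sum_congr rfl fun j _ => smul_comm _ _ _
    _ = ∑ j, ∑ i, L.φ (v j) • L.φ (B.mat s i j) • B.b i := by
        refine Finset.sum_congr rfl fun j _ => ?_
        rw [B.mat_spec, Finset.smul_sum]
    _ = ∑ i, ∑ j, L.φ (B.mat s i j * v j) • B.b i := by
        rw [Finset.sum_comm]
        refine Finset.sum_congr rfl fun i _ => Finset.sum_congr rfl fun j _ => ?_
        rw [smul_smul, ← map_mul, mul_comm]
    _ = _ := by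
        refine Finset.sum_congr rfl fun i _ => ?_
        rw [map_sum, Finset.sum_smul]

theorem mat_add (s t : MvPowerSeries (Fin r) 𝒪) (i j : Fin d) :
    B.mat (s + t) i j - (B.mat s i j + B.mat t i j) ∈ J := by
  refine B.sub_mem (c := fun i => B.mat (s + t) i j) (c' := fun i => B.mat s i j + B.mat t i j) ?_ i
  simp only [map_add, add_smul, Finset.sum_add_distrib, ← B.mat_spec]

theorem mat_mul (s t : MvPowerSeries (Fin r) 𝒪) (i j : Fin d) :
    B.mat (s * t) i j - (B.mat s * B.mat t) i j ∈ J := by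
  refine B.sub_mem (c := fun i => B.mat (s * t) i j) (c' := fun i => (B.mat s * B.mat t) i j) ?_ i
  simp only [← B.mat_spec, Matrix.mul_apply, mul_smul]
  rw [B.mat_spec t j, B.smul_sum]

theorem mat_φ (s : MvPowerSeries (Fin r) 𝒪) (i j : Fin d) :
    B.mat (L.φ s) i j - (if i = j then s else 0) ∈ J := by
  refine B.sub_mem (c := fun i => B.mat (L.φ s) i j) (c' := fun i => if i = j then s else 0) ?_ i
  rw [← B.mat_spec]
  simp [apply_ite, ite_smul]

theorem mat_one (i j : Fin d) : B.mat 1 i j - (if i = j then 1 else 0) ∈ J := by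
  have := B.mat_φ 1 i j
  rwa [map_one] at this

/-- `ψ ∘ φ` is the constant coefficient -/
theorem _root_.Fermat.Agent.RT.Patch.ψφ (L : Algebra.PatchingLevel 𝒪 r R M J)
    (s : MvPowerSeries (Fin r) 𝒪) : L.ψ (L.φ s) = algebraMap 𝒪 R (constantCoeff s) := by
  conv_lhs => rw [ULim.eq_C_add_sum s]
  rw [map_add, map_add, map_sum, map_sum]
  have h1 : ∀ i, L.ψ (L.φ (X i * ULim.xquot s i)) = 0 := by
    intro i
    rw [map_mul, map_mul, L.ψ_φ_X, zero_mul]
  simp only [h1, Finset.sum_const_zero, add_zero]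
  have h2 : (C (constantCoeff s) : MvPowerSeries (Fin r) 𝒪) =
    algebraMap 𝒪 (MvPowerSeries (Fin r) 𝒪) (constantCoeff s) := rfl
  rw [h2, AlgHom.commutes, AlgHom.commutes]

theorem π_sum (v : Fin d → MvPowerSeries (Fin r) 𝒪) :
    L.π (∑ j, L.φ (v j) • B.b j) = ∑ j, algebraMap 𝒪 R (constantCoeff (v j)) • e j := by
  rw [map_sum]
  refine Finset.sum_congr rfl fun j _ => ?_
  rw [L.π_smul, ψφ, B.π_b]

theorem π_mat (s : MvPowerSeries (Fin r) 𝒪) (j : Fin d) :
    L.ψ s • e j = ∑ i, algebraMap 𝒪 R (constantCoeff (B.mat s i j)) • e i := by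
  rw [← B.π_sum, ← B.mat_spec, L.π_smul, B.π_b]

/-- the submodule of combinations with coefficients in `φ (a)`. -/
def sub (B : ABasis L e) (𝔞 : Ideal (MvPowerSeries (Fin r) 𝒪)) :
    Submodule (MvPowerSeries (Fin r) 𝒪) L.N where
  carrier := {x | ∃ y : Fin d → MvPowerSeries (Fin r) 𝒪, (∀ i, y i ∈ 𝔞) ∧
    x = ∑ i, L.φ (y i) • B.b i}
  add_mem' := by
    rintro _ _ ⟨y, hy, rfl⟩ ⟨z, hz, rfl⟩
    refine ⟨fun i => y i + z i, fun i => 𝔞.add_mem (hy i) (hz i), ?_⟩
    simp only [map_add, add_smul, Finset.sum_add_distrib]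
  zero_mem' := ⟨fun _ => 0, fun _ => 𝔞.zero_mem, by simp⟩
  smul_mem' := by
    rintro s _ ⟨y, hy, rfl⟩
    refine ⟨fun i => ∑ j, B.mat s i j * y j, fun i => ?_, B.smul_sum s y⟩
    exact Ideal.sum_mem _ fun j _ => 𝔞.mul_mem_left _ (hy j)

theorem mem_sub {𝔞 : Ideal (MvPowerSeries (Fin r) 𝒪)} {x : L.N} :
    x ∈ B.sub 𝔞 ↔ ∃ y : Fin d → MvPowerSeries (Fin r) 𝒪, (∀ i, y i ∈ 𝔞) ∧
      x = ∑ i, L.φ (y i) • B.b i := Iff.rfl

theorem exists_surjective (𝔞 : Ideal (MvPowerSeries (Fin r) 𝒪)) :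
    ∃ f : (Fin d → MvPowerSeries (Fin r) 𝒪 ⧸ 𝔞) → L.N ⧸ B.sub 𝔞, Function.Surjective f := by
  choose out hout using Ideal.Quotient.mk_surjective (I := 𝔞)
  refine ⟨fun c => Submodule.Quotient.mk (∑ i, L.φ (out (c i)) • B.b i), ?_⟩
  intro q
  obtain ⟨x, rfl⟩ := Submodule.Quotient.mk_surjective _ q
  obtain ⟨c, rfl⟩ := B.span x
  refine ⟨fun i => Ideal.Quotient.mk 𝔞 (c i), ?_⟩
  dsimp only
  rw [Submodule.Quotient.eq, B.mem_sub]
  refine ⟨fun i => out (Ideal.Quotient.mk 𝔞 (c i)) - c i, fun i => ?_, ?_⟩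
  · rw [← Ideal.Quotient.eq, hout]
  · simp only [map_sub, sub_smul, Finset.sum_sub_distrib]

/-- uniform continuity of the action. -/
theorem pow_smul_le_sub [IsLocalRing 𝒪] (𝔞 : Ideal (MvPowerSeries (Fin r) 𝒪))
    [Finite (MvPowerSeries (Fin r) 𝒪 ⧸ 𝔞)] (K : ℕ)
    (hK : Nat.card (MvPowerSeries (Fin r) 𝒪 ⧸ 𝔞) ^ d < 2 ^ K) (x : L.N)
    (s : MvPowerSeries (Fin r) 𝒪) (hs : s ∈ maximalIdeal (MvPowerSeries (Fin r) 𝒪) ^ K) :
    s • x ∈ B.sub 𝔞 := by
  obtain ⟨f, hf⟩ := B.exists_surjective 𝔞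
  have hfin : Finite (L.N ⧸ B.sub 𝔞) := Finite.of_surjective f hf
  have hcard : Nat.card (L.N ⧸ B.sub 𝔞) ≤ Nat.card (MvPowerSeries (Fin r) 𝒪 ⧸ 𝔞) ^ d := by
    have := Nat.card_le_card_of_surjective f hf
    rwa [Nat.card_fun, Nat.card_fin] at this
  have h1 := pow_smul_top_eq_bot (S := MvPowerSeries (Fin r) 𝒪) K (L.N ⧸ B.sub 𝔞)
    (lt_of_le_of_lt hcard hK)
  have h2 : s • (Submodule.Quotient.mk x : L.N ⧸ B.sub 𝔞) ∈
      maximalIdeal (MvPowerSeries (Fin r) 𝒪) ^ K •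
        (⊤ : Submodule (MvPowerSeries (Fin r) 𝒪) (L.N ⧸ B.sub 𝔞)) :=
    Submodule.smul_mem_smul hs trivial
  rw [h1, Submodule.mem_bot, ← Submodule.Quotient.mk_smul, Submodule.Quotient.mk_eq_zero] at h2
  exact h2

theorem mat_mem [IsLocalRing 𝒪] (𝔞 : Ideal (MvPowerSeries (Fin r) 𝒪))
    [Finite (MvPowerSeries (Fin r) 𝒪 ⧸ 𝔞)] (hJ : J ≤ 𝔞) (K : ℕ)
    (hK : Nat.card (MvPowerSeries (Fin r) 𝒪 ⧸ 𝔞) ^ d < 2 ^ K)
    (s : MvPowerSeries (Fin r) 𝒪) (hs : s ∈ maximalIdeal (MvPowerSeries (Fin r) 𝒪) ^ K)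
    (i j : Fin d) : B.mat s i j ∈ 𝔞 := by
  obtain ⟨y, hy, h⟩ := B.mem_sub.mp (B.pow_smul_le_sub 𝔞 K hK (B.b j) s hs)
  rw [B.mat_spec] at h
  have h2 := hJ (B.sub_mem (c := fun i => B.mat s i j) h i)
  have := 𝔞.add_mem h2 (hy i)
  simpa using this

end ABasis

end Fermat.Agent.RT.Patch
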