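import Fermat.Agent.RT.Patching
import Fermat.Agent.S57

/-!
# Patching: main corollary
-/

set_option autoImplicit false

open IsLocalRing

namespace Fermat.Agent.RT.Patch

variable {𝒪 : Type} [CommRing 𝒪] [IsDomain 𝒪] [IsDiscreteValuationRing 𝒪]
  [Finite (ResidueField 𝒪)] [IsAdicComplete (maximalIdeal 𝒪) 𝒪]
  {r : ℕ} {R : Type} [CommRing R] [Algebra 𝒪 R]
  {M : Type} [AddCommGroup M] [Module R M]

/-- **Patching (Taylor–Wiles, Diamond, Fujiwara)**: for a patching datum with `M ≠ 0`, `M` is free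
and faithful over `R` and `R` is a complete intersection `𝒪⟦X₁,…,X_r⟧/(f₁,…,f_r)`. -/
theorem free_and_completeIntersection [Nontrivial M] {ℓ : ℕ} (hℓ : (ℓ : 𝒪) ∈ maximalIdeal 𝒪)
    (D : Algebra.PatchingDatum 𝒪 ℓ r R M) :
    Module.Free R M ∧ Module.annihilator R M = ⊥ ∧
      ∃ (ψ : MvPowerSeries (Fin r) 𝒪 →ₐ[𝒪] R) (f : Fin r → MvPowerSeries (Fin r) 𝒪),
        Function.Surjective ψ ∧ RingHom.ker ψ = Ideal.span (Set.range f) := by
  obtain ⟨L⟩ := exists_patchingLevel_bot hℓ D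
  obtain ⟨h1, h2, h3⟩ := Fermat.Agent.S57.result L
  exact ⟨h1, h2, L.ψ, _, L.ψ_surjective, h3⟩

/-- Variant for arbitrary sequences of levels with `J n → 0`. -/
theorem free_and_completeIntersection_of_tendsto [Nontrivial M]
    {J : ℕ → Ideal (MvPowerSeries (Fin r) 𝒪)}
    (L : ∀ n, Algebra.PatchingLevel 𝒪 r R M (J n))
    (hJ0 : ∀ n, ∀ f ∈ J n, MvPowerSeries.constantCoeff f = 0)
    (hJ : ∀ k, ∀ᶠ n in (Filter.atTop : Filter ℕ),
      J n ≤ maximalIdeal (MvPowerSeries (Fin r) 𝒪) ^ k) :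
    Module.Free R M ∧ Module.annihilator R M = ⊥ ∧
      ∃ (ψ : MvPowerSeries (Fin r) 𝒪 →ₐ[𝒪] R) (f : Fin r → MvPowerSeries (Fin r) 𝒪),
        Function.Surjective ψ ∧ RingHom.ker ψ = Ideal.span (Set.range f) := by
  obtain ⟨L⟩ := exists_level_bot_of_tendsto L hJ0 hJ
  obtain ⟨h1, h2, h3⟩ := Fermat.Agent.S57.result L
  exact ⟨h1, h2, L.ψ, _, L.ψ_surjective, h3⟩

end Fermat.Agent.RT.Patch
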