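import Mathlib

/-!
# Rigidity lemma (elementary special case of A. Weiss' theorem) (team RT, helper59)

`B` local, `M` a finite `B`-module, `δ, g ∈ B`, `Φ = 1 + δ + ⋯ + δ^(p-1)`.
If `M/ΦM` is `(δ-1)`-torsion free, `(g-1)M ⊆ (δ-1)M`, `g` has `p`-power order on `M/ΦM` and no
nonzero fixed vector on `M/ΦM`, then `(g-1)M = (δ-1)M`.
-/

set_option autoImplicit false

open IsLocalRing Polynomial

namespace Fermat.Agent.RT.Rigid

/-- binomial expansion: `(1+y)^p = 1 + y (y^(p-1) + p (1 + y S))`. -/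
theorem exists_binom {R : Type*} [CommRing R] {p : ℕ} (hp : p.Prime) (y : R) :
    ∃ S : R, (1 + y) ^ p = 1 + y * (y ^ (p - 1) + p * (1 + y * S)) := by
  have h1 := add_pow_prime_eq hp (1 : R) y
  have hp2 := hp.two_le
  have h4 : p - 1 ∈ Finset.Ioo 0 p := Finset.mem_Ioo.mpr ⟨by omega, by omega⟩
  refine ⟨∑ k ∈ (Finset.Ioo 0 p).erase (p - 1), y ^ (p - k - 2) * ((p.choose k / p : ℕ) : R), ?_⟩
  rw [h1, ← Finset.add_sum_erase _ _ h4]
  have h5 : ∑ x ∈ (Finset.Ioo 0 p).erase (p - 1),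
      (1 : R) ^ (x - 1) * y ^ (p - x - 1) * ((p.choose x / p : ℕ) : R) =
      y * ∑ k ∈ (Finset.Ioo 0 p).erase (p - 1),
        y ^ (p - k - 2) * ((p.choose k / p : ℕ) : R) := by
    rw [Finset.mul_sum]
    refine Finset.sum_congr rfl fun k hk => ?_
    have hk1 := Finset.ne_of_mem_erase hk
    have hk2 := Finset.mem_Ioo.mp (Finset.mem_of_mem_erase hk)
    have h3 : p - k - 1 = (p - k - 2) + 1 := by omega
    rw [one_pow, one_mul, h3, pow_succ]
    ring
  rw [h5]
  have h6 : p - (p - 1) - 1 = 0 := by omega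
  have h7 : p.choose (p - 1) / p = 1 := by
    rw [Nat.choose_symm_of_eq_add (b := 1) (by omega), Nat.choose_one_right, Nat.div_self hp.pos]
  have h8 : y ^ p = y * y ^ (p - 1) := by
    rw [← pow_succ']; congr 1; omega
  rw [h6, h7, h8, one_pow, one_pow]
  push_cast
  ring

section Core

variable {B M : Type*} [CommRing B] [IsLocalRing B] [AddCommGroup M] [Module B M]
  [Module.Finite B M]

/-- `unit + π θ` is surjective. -/
theorem surjective_of_unit_add {T : Module.End B M} {ε π : B} (hε : IsUnit ε)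
    (hπ : π ∈ maximalIdeal B) {θ : Module.End B M} (hT : ∀ x, T x = ε • x + π • θ x) :
    Function.Surjective T := by
  rw [← LinearMap.range_eq_top, ← top_le_iff]
  refine Submodule.le_of_le_smul_of_le_jacobson_bot (I := maximalIdeal B) Module.Finite.fg_top
    (IsLocalRing.maximalIdeal_le_jacobson _) ?_
  intro x _
  obtain ⟨e, rfl⟩ := hε
  have h1 : x = T ((↑e⁻¹ : B) • x) + (-π) • θ ((↑e⁻¹ : B) • x) := by
    rw [hT, smul_smul, Units.mul_inv, one_smul, neg_smul]
    abel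
  rw [h1]
  exact Submodule.add_mem_sup ⟨_, rfl⟩
    (Submodule.smul_mem_smul (neg_mem hπ) Submodule.mem_top)

theorem core {p : ℕ} (hp : p.Prime) {π : B} (hπ : π ∈ maximalIdeal B)
    (hΦ : ∀ x : M, (∑ i ∈ Finset.range p, (1 + π) ^ i) • x = 0)
    (hinj : ∀ x : M, π • x = 0 → x = 0) (u : Module.End B M) {N : ℕ}
    (hN : (1 + π • u) ^ (p ^ N) = 1) (hu : ∀ x, π • u x = 0 → x = 0) :
    Function.Surjective u := by
  have hpp := hp.two_le
  -- `p` acts as `-η⁻¹ π^(p-1)`
  obtain ⟨S₀, hS₀⟩ := exists_binom hp π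
  have hη : IsUnit (1 + π * S₀) := by
    by_contra h
    have h1 : (1 + π * S₀) ∈ maximalIdeal B := h
    have h2 : (1 : B) ∈ maximalIdeal B := by
      have := sub_mem h1 (Ideal.mul_mem_right S₀ _ hπ)
      simp at this
    exact (Ideal.ne_top_iff_one _).mp (maximalIdeal.isMaximal B).ne_top h2
  obtain ⟨η, hηe⟩ := hη
  have hinjn : ∀ (n : ℕ) (x : M), π ^ n • x = 0 → x = 0 := by
    intro n
    induction n with
    | zero => intro x hx; simpa using hx
    | succ n ih =>
      intro x hx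
      rw [pow_succ', mul_smul] at hx
      exact ih _ (hinj _ hx)
  have hpact : ∀ x : M, (p : B) • x = -((↑η⁻¹ : B) * π ^ (p - 1)) • x := by
    intro x
    have h1 : (∑ i ∈ Finset.range p, (1 + π) ^ i) * π = (1 + π) ^ p - 1 := by
      have := geom_sum_mul (1 + π) p
      simpa using this
    have h2 : (π * (π ^ (p - 1) + p * (1 + π * S₀))) • x = 0 := by
      have : π * (π ^ (p - 1) + p * (1 + π * S₀)) =
          (∑ i ∈ Finset.range p, (1 + π) ^ i) * π := by rw [h1, hS₀]; ring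
      rw [this, mul_comm, mul_smul, hΦ, smul_zero]
    rw [mul_smul] at h2
    have h3 := hinj _ h2
    rw [← hηe, add_smul] at h3
    have h4 : ((p : B) * (η : B)) • x = -(π ^ (p - 1) • x) := eq_neg_of_add_eq_zero_right h3
    have h5 : (p : B) • x = (↑η⁻¹ : B) • (((p : B) * (η : B)) • x) := by
      rw [smul_smul, mul_comm (p : B), ← mul_assoc, Units.inv_mul, one_mul]
    rw [h5, h4, smul_neg, smul_smul, neg_smul]
  -- work in `B[X]`, evaluated at `u`
  set E : B[X] →ₐ[B] Module.End B M := aeval u with hE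
  have hEC : ∀ (b : B) (f : B[X]) (x : M), E (C b * f) x = b • E f x := by
    intro b f x
    rw [map_mul, ← Polynomial.algebraMap_eq, AlgHom.commutes]; rfl
  have hEp : ∀ (f : B[X]) (x : M), E ((p : B[X]) * f) x = E (C (-((↑η⁻¹ : B) * π ^ (p - 1))) * f) x := by
    intro f x
    have : (p : B[X]) = C (p : B) := by simp
    rw [this, hEC, hEC, hpact]
  set Y : B[X] := C π * X with hY
  -- `E ((1+Y)^(p^k))` 
  have hEN : E ((1 + Y) ^ (p ^ N)) = 1 := by
    rw [map_pow, map_add, map_one, hY, map_mul, ← Polynomial.algebraMap_eq, AlgHom.commutes, hE,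
      aeval_X]
    have : (algebraMap B (Module.End B M)) π * u = π • u := by
      rw [Algebra.smul_def]
    rw [this, hN]
  -- step A
  have stepA : ∀ k : ℕ, ∃ z : B[X], ∀ x, E ((1 + Y) ^ (p ^ (k + 1)) - 1) x = E (C (π ^ 2) * z) x := by
    intro k
    induction k with
    | zero =>
      obtain ⟨S, hS⟩ := exists_binom hp Y
      refine ⟨C (π ^ (p - 2)) * (X ^ p - C (↑η⁻¹ : B) * X * (1 + Y * S)), fun x => ?_⟩
      rw [zero_add, pow_one, hS]
      have h1 : (1 + Y * (Y ^ (p - 1) + (p : B[X]) * (1 + Y * S)) - 1) =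
          Y * Y ^ (p - 1) + (p : B[X]) * (Y * (1 + Y * S)) := by ring
      rw [h1, map_add, LinearMap.add_apply, hEp, ← LinearMap.add_apply, ← map_add]
      congr 2
      have h2 : Y * Y ^ (p - 1) = C (π ^ 2) * (C (π ^ (p - 2)) * X ^ p) := by
        rw [← pow_succ', show p - 1 + 1 = p by omega, hY, mul_pow, ← C_pow, ← mul_assoc, ← C_mul,
          ← pow_add, show 2 + (p - 2) = p by omega]
      have h3 : π ^ (p - 1) * π = π ^ 2 * π ^ (p - 2) := by
        rw [← pow_succ, ← pow_add]; congr 1; omega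
      have h4 : C (-((↑η⁻¹ : B) * π ^ (p - 1))) * (Y * (1 + Y * S)) =
          - (C (↑η⁻¹ : B) * C (π ^ (p - 1) * π) * X * (1 + Y * S)) := by
        rw [hY]; simp only [C_neg, C_mul]; ring
      rw [h2, h4, h3, C_mul]
      ring
    | succ k ih =>
      obtain ⟨z, hz⟩ := ih
      set y := (1 + Y) ^ (p ^ (k + 1)) - 1 with hy
      obtain ⟨S, hS⟩ := exists_binom hp y
      have h1 : (1 + Y) ^ p ^ (k + 1 + 1) - 1 = y * (y ^ (p - 1) + p * (1 + y * S)) := by
        rw [pow_succ p (k + 1), pow_mul, show (1 + Y) ^ p ^ (k + 1) = 1 + y by rw [hy]; ring, hS]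
        ring
      refine ⟨(y ^ (p - 1) + p * (1 + y * S)) * z, fun x => ?_⟩
      rw [h1, mul_comm y, map_mul, Module.End.mul_apply, hz, ← Module.End.mul_apply, ← map_mul]
      congr 2
      ring
  -- step B
  have stepB : ∀ k : ℕ, E ((1 + Y) ^ (p ^ (k + 1 + 1))) = 1 → E ((1 + Y) ^ (p ^ (k + 1))) = 1 := by
    intro k hk
    obtain ⟨z, hz⟩ := stepA k
    set y := (1 + Y) ^ (p ^ (k + 1)) - 1 with hy
    obtain ⟨S, hS⟩ := exists_binom hp y
    have h1 : (1 + Y) ^ p ^ (k + 1 + 1) - 1 = y * (y ^ (p - 1) + p * (1 + y * S)) := by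
      rw [pow_succ p (k + 1), pow_mul, show (1 + Y) ^ p ^ (k + 1) = 1 + y by rw [hy]; ring, hS]
      ring
    have hz' : E y = E (C (π ^ 2) * z) := LinearMap.ext hz
    set T : B[X] := C (π ^ (p - 1)) * z ^ (p - 1) - C (↑η⁻¹ : B) * (1 + y * S) with hT
    have hypow : E (y ^ (p - 1)) = E (C (π ^ (p - 1)) * (C (π ^ (p - 1)) * z ^ (p - 1))) := by
      rw [map_pow, hz', ← map_pow]
      congr 1
      rw [mul_pow, ← C_pow, ← mul_assoc, ← C_mul, ← pow_add, ← pow_mul, two_mul]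
    have h2 : ∀ x, E (y ^ (p - 1) + p * (1 + y * S)) x = π ^ (p - 1) • E T x := by
      intro x
      rw [map_add, LinearMap.add_apply, hypow, hEp, ← LinearMap.add_apply, ← map_add, ← hEC]
      congr 2
      rw [hT]
      simp only [C_neg, C_mul]
      ring
    have h3 : ∀ x, E y (E T x) = 0 := by
      intro x
      have h4 : E ((1 + Y) ^ p ^ (k + 1 + 1) - 1) x = 0 := by
        rw [map_sub, hk, map_one, sub_self]; rfl
      rw [h1, map_mul, Module.End.mul_apply, h2, map_smul] at h4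
      exact hinjn _ _ h4
    have hTs : Function.Surjective (E T) := by
      refine surjective_of_unit_add (ε := -(↑η⁻¹ : B)) (π := π)
        (θ := E (C (π ^ (p - 2)) * z ^ (p - 1) - C (↑η⁻¹ : B) * (C π * z * S)))
        (Units.isUnit _).neg hπ (fun x => ?_)
      rw [← hEC, hT]
      have h50 : E (y * S) = E ((C (π ^ 2) * z) * S) := by
        rw [map_mul E y S, map_mul E (C (π ^ 2) * z) S, hz']
      have h51 : E (1 + y * S) = E (1 + (C (π ^ 2) * z) * S) := by
        rw [map_add E 1 (y * S), map_add E 1 ((C (π ^ 2) * z) * S), h50]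
      have h52 : E (C (↑η⁻¹ : B) * (1 + y * S)) =
          E (C (↑η⁻¹ : B) * (1 + (C (π ^ 2) * z) * S)) := by
        rw [map_mul E (C (↑η⁻¹ : B)) (1 + y * S),
          map_mul E (C (↑η⁻¹ : B)) (1 + (C (π ^ 2) * z) * S), h51]
      have h5 : E (C (π ^ (p - 1)) * z ^ (p - 1) - C (↑η⁻¹ : B) * (1 + y * S)) =
          E (C (π ^ (p - 1)) * z ^ (p - 1) - C (↑η⁻¹ : B) * (1 + (C (π ^ 2) * z) * S)) := by
        rw [map_sub E (C (π ^ (p - 1)) * z ^ (p - 1)) (C (↑η⁻¹ : B) * (1 + y * S)),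
          map_sub E (C (π ^ (p - 1)) * z ^ (p - 1))
            (C (↑η⁻¹ : B) * (1 + (C (π ^ 2) * z) * S)), h52]
      rw [h5]
      have h6 : C (π ^ (p - 1)) * z ^ (p - 1) - C (↑η⁻¹ : B) * (1 + (C (π ^ 2) * z) * S) =
          C (-(↑η⁻¹ : B)) * 1 +
          C π * (C (π ^ (p - 2)) * z ^ (p - 1) - C (↑η⁻¹ : B) * (C π * z * S)) := by
        have : π ^ (p - 1) = π * π ^ (p - 2) := by
          rw [← pow_succ']; congr 1; omega
        rw [this]
        simp only [C_neg, C_mul, C_pow]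
        ring
      rw [h6, map_add, LinearMap.add_apply, hEC]
      simp
    have h7 : E y = 0 := LinearMap.ext fun x => by
      obtain ⟨x', rfl⟩ := hTs x
      exact h3 x'
    have h8 : E ((1 + Y) ^ (p ^ (k + 1))) - 1 = 0 := by
      rw [← map_one E, ← map_sub]; exact h7
    exact sub_eq_zero.mp h8
  -- hence `g^p = 1`
  have hg : E ((1 + Y) ^ p) = 1 := by
    have key : ∀ k : ℕ, E ((1 + Y) ^ (p ^ (k + 1))) = 1 → E ((1 + Y) ^ p) = 1 := by
      intro k
      induction k with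
      | zero => intro h; simpa using h
      | succ k ih => exact fun h => ih (stepB k h)
    rcases N with _ | N
    · rw [pow_zero, pow_one] at hEN
      rw [map_pow, hEN, one_pow]
    · exact key N hEN
  -- step C
  obtain ⟨S, hS⟩ := exists_binom hp Y
  have h1 : ∀ x, E (X ^ (p - 1) - C (↑η⁻¹ : B) * (1 + Y * S)) x = 0 := by
    intro x
    have h2 : E ((1 + Y) ^ p - 1) x = 0 := by rw [map_sub, hg, map_one, sub_self]; rfl
    have h3 : (1 + Y) ^ p - 1 = Y * Y ^ (p - 1) + (p : B[X]) * (Y * (1 + Y * S)) := by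
      rw [hS]; ring
    rw [h3, map_add, LinearMap.add_apply, hEp, ← LinearMap.add_apply, ← map_add] at h2
    have h4 : Y * Y ^ (p - 1) + C (-((↑η⁻¹ : B) * π ^ (p - 1))) * (Y * (1 + Y * S)) =
        C (π ^ (p - 1)) * (Y * (X ^ (p - 1) - C (↑η⁻¹ : B) * (1 + Y * S))) := by
      rw [hY, mul_pow]
      simp only [C_neg, C_mul, C_pow]
      ring
    rw [h4, hEC] at h2
    have h5 := hinjn _ _ h2
    rw [hY, mul_assoc, hEC, map_mul, Module.End.mul_apply] at h5
    have h6 : E X = u := by rw [hE, aeval_X]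
    rw [h6] at h5
    exact hu _ h5
  have h2 : Function.Surjective (E (X ^ (p - 1))) := by
    refine surjective_of_unit_add (ε := (↑η⁻¹ : B)) (π := π)
      (θ := E (C (↑η⁻¹ : B) * (X * S))) (Units.isUnit _) hπ (fun x => ?_)
    have h3 := h1 x
    rw [map_sub, LinearMap.sub_apply, sub_eq_zero] at h3
    rw [h3, ← hEC]
    have h4 : C (↑η⁻¹ : B) * (1 + Y * S) =
        C (↑η⁻¹ : B) * 1 + C π * (C (↑η⁻¹ : B) * (X * S)) := by
      rw [hY]; ring
    rw [h4, map_add, LinearMap.add_apply, hEC]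
    simp
  intro x
  obtain ⟨x', hx'⟩ := h2 x
  rw [show p - 1 = (p - 2) + 1 by omega, pow_succ', map_mul, Module.End.mul_apply] at hx'
  have h6 : E X = u := by rw [hE, aeval_X]
  rw [h6] at hx'
  exact ⟨_, hx'⟩

end Core

/-- **Rigidity lemma.** -/
theorem rigidity {B M : Type*} [CommRing B] [IsLocalRing B] [AddCommGroup M] [Module B M]
    [Module.Finite B M] {p : ℕ} (hp : p.Prime) (hpm : (p : B) ∈ maximalIdeal B)
    {δ g : B} (hδ : δ - 1 ∈ maximalIdeal B)
    (h3 : ∀ x : M, (∃ y : M, (δ - 1) • x = (∑ i ∈ Finset.range p, δ ^ i) • y) →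
      ∃ y : M, x = (∑ i ∈ Finset.range p, δ ^ i) • y)
    (h4 : ∀ x : M, ∃ y : M, (g - 1) • x = (δ - 1) • y) {N : ℕ}
    (h5 : ∀ x : M, ∃ y : M, (g ^ p ^ N - 1) • x = (∑ i ∈ Finset.range p, δ ^ i) • y)
    (h6 : ∀ x : M, (∃ y : M, (g - 1) • x = (∑ i ∈ Finset.range p, δ ^ i) • y) →
      ∃ y : M, x = (∑ i ∈ Finset.range p, δ ^ i) • y) (y : M) :
    ∃ x : M, (δ - 1) • y = (g - 1) • x := by
  set Φ : B := ∑ i ∈ Finset.range p, δ ^ i with hΦ
  let K : Submodule B M := LinearMap.range (LinearMap.lsmul B M Φ)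
  have hK : ∀ x : M, x ∈ K ↔ ∃ y : M, x = Φ • y := fun x =>
    ⟨fun ⟨y, hy⟩ => ⟨y, hy.symm⟩, fun ⟨y, hy⟩ => ⟨y, hy.symm⟩⟩
  let P : (M ⧸ K) →ₗ[B] (M ⧸ K) := LinearMap.lsmul B (M ⧸ K) (δ - 1)
  have hPinj : Function.Injective P := by
    rw [← LinearMap.ker_eq_bot, LinearMap.ker_eq_bot']
    intro x hx
    obtain ⟨x, rfl⟩ := K.mkQ_surjective x
    rw [Submodule.mkQ_apply, Submodule.Quotient.mk_eq_zero, hK]
    refine h3 x ?_
    have h : K.mkQ ((δ - 1) • x) = 0 := by rw [map_smul]; exact hx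
    rwa [Submodule.mkQ_apply, Submodule.Quotient.mk_eq_zero, hK] at h
  let G : (M ⧸ K) →ₗ[B] (M ⧸ K) := LinearMap.lsmul B (M ⧸ K) (g - 1)
  have hG : ∀ x, G x ∈ LinearMap.range P := by
    intro x
    obtain ⟨x, rfl⟩ := K.mkQ_surjective x
    obtain ⟨y, hy⟩ := h4 x
    refine ⟨K.mkQ y, ?_⟩
    show (δ - 1) • K.mkQ y = (g - 1) • K.mkQ x
    rw [← map_smul, ← map_smul, hy]
  let u : Module.End B (M ⧸ K) :=
    (LinearEquiv.ofInjective P hPinj).symm.toLinearMap.comp (G.codRestrict (LinearMap.range P) hG)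
  have hu : ∀ x, (δ - 1) • u x = (g - 1) • x := by
    intro x
    have h := (LinearEquiv.ofInjective P hPinj).apply_symm_apply
      (G.codRestrict (LinearMap.range P) hG x)
    exact congrArg Subtype.val h
  have hu' : (1 : Module.End B (M ⧸ K)) + (δ - 1) • u = g • (1 : Module.End B (M ⧸ K)) := by
    refine LinearMap.ext fun x => ?_
    show x + (δ - 1) • u x = g • x
    rw [hu, sub_smul, one_smul]; abel
  have hsurj : Function.Surjective u := by
    refine core hp hδ (M := M ⧸ K) (fun x => ?_) (fun x hx => ?_) u (N := N) ?_ (fun x hx => ?_)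
    · obtain ⟨x, rfl⟩ := K.mkQ_surjective x
      rw [show 1 + (δ - 1) = δ by ring, ← hΦ, ← map_smul, Submodule.mkQ_apply,
        Submodule.Quotient.mk_eq_zero, hK]
      exact ⟨x, rfl⟩
    · exact hPinj (hx.trans (map_zero P).symm)
    · rw [hu', _root_.smul_pow, one_pow]
      refine LinearMap.ext fun x => ?_
      obtain ⟨x, rfl⟩ := K.mkQ_surjective x
      show g ^ p ^ N • K.mkQ x = K.mkQ x
      rw [← sub_eq_zero, ← map_smul, ← map_sub, Submodule.mkQ_apply,
        Submodule.Quotient.mk_eq_zero, hK]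
      obtain ⟨y, hy⟩ := h5 x
      exact ⟨y, by rw [← hy, sub_smul, one_smul]⟩
    · rw [hu] at hx
      obtain ⟨x, rfl⟩ := K.mkQ_surjective x
      rw [← map_smul, Submodule.mkQ_apply, Submodule.Quotient.mk_eq_zero, hK] at hx
      rw [Submodule.mkQ_apply, Submodule.Quotient.mk_eq_zero, hK]
      exact h6 x hx
  -- `Φ ∈ 𝔪`
  have hΦm : Φ ∈ maximalIdeal B := by
    have h1 : Φ - (p : B) ∈ maximalIdeal B := by
      have : Φ - (p : B) = ∑ i ∈ Finset.range p, (δ ^ i - 1) := by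
        rw [Finset.sum_sub_distrib]; simp [hΦ]
      rw [this]
      refine sum_mem fun i _ => ?_
      obtain ⟨c, hc⟩ := sub_one_dvd_pow_sub_one δ i
      rw [hc]
      exact Ideal.mul_mem_right _ _ hδ
    have h2 := add_mem h1 hpm
    rwa [sub_add_cancel] at h2
  let L1 : Submodule B M := LinearMap.range (LinearMap.lsmul B M (δ - 1))
  let L2 : Submodule B M := LinearMap.range (LinearMap.lsmul B M (g - 1))
  have hle : L1 ≤ L2 := by
    refine Submodule.le_of_le_smul_of_le_jacobson_bot (I := maximalIdeal B) ?_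
      (IsLocalRing.maximalIdeal_le_jacobson _) ?_
    · show (LinearMap.range (LinearMap.lsmul B M (δ - 1))).FG
      rw [LinearMap.range_eq_map]
      exact Module.Finite.fg_top.map _
    · rintro _ ⟨z, rfl⟩
      obtain ⟨x, hx⟩ := hsurj (K.mkQ z)
      obtain ⟨x, rfl⟩ := K.mkQ_surjective x
      obtain ⟨y1, hy1⟩ := h4 x
      have h7 : K.mkQ y1 = K.mkQ z := by
        apply hPinj
        show (δ - 1) • K.mkQ y1 = (δ - 1) • K.mkQ z
        rw [← hx, hu, ← map_smul, ← map_smul, hy1]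
      have h8 : z - y1 ∈ K := by
        rw [← Submodule.Quotient.mk_eq_zero, ← Submodule.mkQ_apply, map_sub, h7, sub_self]
      obtain ⟨w, hw⟩ := (hK _).mp h8
      have h9 : (δ - 1) • z = (g - 1) • x + Φ • ((δ - 1) • w) := by
        have : z = y1 + Φ • w := by rw [← hw]; abel
        rw [this, smul_add, hy1, smul_comm]
      show (δ - 1) • z ∈ L2 ⊔ maximalIdeal B • L1
      rw [h9]
      exact Submodule.add_mem_sup ⟨x, rfl⟩ (Submodule.smul_mem_smul hΦm ⟨w, rfl⟩)
  obtain ⟨x, hx⟩ := hle ⟨y, rfl⟩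
  exact ⟨x, hx.symm⟩

end Fermat.Agent.RT.Rigid
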