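import Fermat.Agent.RT.TWInertiaDiag
import Fermat.Agent.RT.SelUnram

/-!
# The inertia element at a Taylor–Wiles prime

`ρ : GaloisRepAdic R` with cyclotomic determinant, residually unramified at `q ≡ 1 mod p` with
distinct Frobenius eigenvalues.  Then there are a matrix model `M`, a unit `g` and an inertia
element `τ` at `P` with `M τ = diag (g, g⁻¹)`, `g ^ (p ^ a) = 1` and `M (I_P)` generated by `M τ`;
`ρ` base changed to `B` is unramified at `q` iff `g ↦ 1`.
-/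

set_option autoImplicit false
set_option linter.unusedSectionVars false

open IsLocalRing Polynomial Pointwise

namespace Fermat.Agent.RT.TWInertia

open Fermat.Agent.UDef Fermat.Agent.RT.SelUnram Fermat.Agent.RT.SelTame

local notation "Qb" => AlgebraicClosure ℚ

variable {R : Type} [CommRing R] [IsLocalRing R]

/-- The inertia element at a Taylor–Wiles prime: `M` is a model of `ρ`, `M φ = diag (A, D)`,
`M τ = diag (g, g⁻¹)` with `τ` in the inertia group of `P`, `g ^ N = 1`. -/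
structure Data (ρ : GaloisRepAdic R) (P : ValuationSubring Qb) (φ : GalQ) (N : ℕ) where
  /-- the model -/
  M : GalQ →* Matrix (Fin 2) (Fin 2) R
  isModel : IsModel ρ M
  /-- the inertia element -/
  τ : GalQ
  τ_mem : τ ∈ P.inertiaSubgroupIn ℚ
  /-- its eigenvalue -/
  g : Rˣ
  g_sub_one_mem : (g : R) - 1 ∈ maximalIdeal R
  g_pow : g ^ N = 1
  M_τ : M τ = Matrix.diagonal ![(g : R), ((g⁻¹ : Rˣ) : R)]
  M_inertia : ∀ σ ∈ P.inertiaSubgroupIn ℚ, ∃ k : ℕ, M σ = M τ ^ k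
  /-- eigenvalues of Frobenius -/
  A : R
  /-- eigenvalues of Frobenius -/
  D : R
  M_φ : M φ = Matrix.diagonal ![A, D]
  isUnit_sub : IsUnit (A - D)

/-- reduction of a matrix representation modulo an ideal -/
noncomputable def redHomI (M : GalQ →* Matrix (Fin 2) (Fin 2) R) (I : Ideal R) :
    GalQ →* (Matrix (Fin 2) (Fin 2) (R ⧸ I))ˣ :=
  ((Ideal.Quotient.mk I).mapMatrix.toMonoidHom.comp M).toHomUnits

theorem redHomI_coe (M : GalQ →* Matrix (Fin 2) (Fin 2) R) (I : Ideal R) (σ : GalQ) :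
    ((redHomI M I σ : (Matrix (Fin 2) (Fin 2) (R ⧸ I))ˣ) :
      Matrix (Fin 2) (Fin 2) (R ⧸ I)) = (Ideal.Quotient.mk I).mapMatrix (M σ) := rfl

theorem redHomI_factors {M : GalQ →* Matrix (Fin 2) (Fin 2) R} (hM : MCont M) (n : ℕ) :
    ∃ L : IntermediateField ℚ Qb, FiniteDimensional ℚ L ∧
      ∀ σ : GalQ, (∀ x ∈ L, σ x = x) → redHomI M (maximalIdeal R ^ n) σ = 1 := by
  obtain ⟨L, hL, h⟩ := hM n
  refine ⟨L, hL, fun σ hσ => ?_⟩
  apply Units.ext
  rw [redHomI_coe, Units.val_one]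
  exact map_mk_eq_one_iff.mpr (h σ hσ)

theorem redHomI_exp {M : GalQ →* Matrix (Fin 2) (Fin 2) R} {p : ℕ}
    (hp : (p : R) ∈ maximalIdeal R) {σ : GalQ} (hσ : ∀ i j, (M σ - 1) i j ∈ maximalIdeal R)
    (n : ℕ) : redHomI M (maximalIdeal R ^ n) σ ^ (p ^ n) = 1 := by
  apply Units.ext
  rw [← map_pow, redHomI_coe, Units.val_one, map_pow, map_mk_eq_one_iff]
  intro i j
  exact Ideal.pow_le_pow_right (Nat.le_succ n) (pow_p_pow_sub_one hp hσ n i j)

theorem eq_of_redHomI_eq [IsHausdorff (maximalIdeal R) R] {X Y : Matrix (Fin 2) (Fin 2) R}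
    (h : ∀ n : ℕ, (Ideal.Quotient.mk (maximalIdeal R ^ n)).mapMatrix X =
      (Ideal.Quotient.mk (maximalIdeal R ^ n)).mapMatrix Y) : X = Y := by
  ext i j
  rw [← sub_eq_zero]
  refine IsHausdorff.haus (I := maximalIdeal R) inferInstance _ fun n => ?_
  rw [SModEq.zero, smul_eq_mul, Ideal.mul_top, ← Ideal.Quotient.eq]
  exact congrFun (congrFun (h n) i) j

section

variable {p q a : ℕ} (hp : p.Prime) (hq : q.Prime) (hpq : p ≠ q)
  {P : ValuationSubring Qb} (hP : P.LiesOverPrime q) {φ : GalQ} (hφ : P.IsFrobeniusAt φ q)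
  {ρ : GaloisRepAdic R} (hdet : ρ.DetIsCyclotomic p)

include hp hq hpq hP

/-- the Frobenius relation -/
theorem frobenius_relation [IsHausdorff (maximalIdeal R) R] (hpR : (p : R) ∈ maximalIdeal R)
    (hφ : P.IsFrobeniusAt φ q)
    {M : GalQ →* Matrix (Fin 2) (Fin 2) R} (hM : MCont M)
    (h1 : ∀ σ ∈ P.inertiaSubgroupIn ℚ, ∀ i j, (M σ - 1) i j ∈ maximalIdeal R) {τ : GalQ}
    (hτ : τ ∈ P.inertiaSubgroupIn ℚ) : M φ * M τ = M τ ^ q * M φ := by
  have hcop : ∀ n, (p ^ n).Coprime q := fun n =>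
    Nat.Coprime.pow_left _ ((Nat.coprime_primes hp hq).mpr hpq)
  have h2 : ∀ n : ℕ, redHomI M (maximalIdeal R ^ n) (φ * τ * φ⁻¹) =
      redHomI M (maximalIdeal R ^ n) τ ^ q := fun n =>
    frobenius_tame hq hP (redHomI M (maximalIdeal R ^ n)) (redHomI_factors hM n) (hcop n)
      (fun σ hσ => redHomI_exp hpR (h1 σ hσ) n) hφ hτ
  apply eq_of_redHomI_eq
  intro n
  have h3 := h2 n
  rw [map_mul, map_mul, map_inv, mul_inv_eq_iff_eq_mul] at h3
  have h4 := congrArg Units.val h3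
  rw [Units.val_mul, Units.val_mul, Units.val_pow_eq_pow_val, redHomI_coe, redHomI_coe] at h4
  rw [map_mul, map_mul, map_pow]
  exact h4

/-- Inertia acts diagonally. -/
theorem inertia_diagonal [IsNoetherianRing R] [IsHausdorff (maximalIdeal R) R]
    (hdet : ρ.DetIsCyclotomic p)
    (hφ : P.IsFrobeniusAt φ q) (hpa : p ^ a ∣ q - 1) (ha : a ≠ 0) (hpa' : ¬ p ^ (a + 1) ∣ q - 1)
    {M : GalQ →* Matrix (Fin 2) (Fin 2) R} (hM : IsModel ρ M)
    (h1 : ∀ σ ∈ P.inertiaSubgroupIn ℚ, ∀ i j, (M σ - 1) i j ∈ maximalIdeal R)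
    {A D : R} (hMφ : M φ = Matrix.diagonal ![A, D]) (hAD : IsUnit (A - D)) {τ : GalQ}
    (hτ : τ ∈ P.inertiaSubgroupIn ℚ) : ∃ x : Rˣ, M τ = Matrix.diagonal ![(x : R), ((x⁻¹ : Rˣ) : R)]
      ∧ x ^ (p ^ a) = 1 ∧ (x : R) - 1 ∈ maximalIdeal R := by
  have hpR : (p : R) ∈ maximalIdeal R := hdet.1
  have hq1 : (q : R) - 1 ∈ maximalIdeal R := by
    have h2 : p ∣ q - 1 := (dvd_pow_self p ha).trans hpa
    obtain ⟨c, hc⟩ := h2
    have h3 : (q : R) - 1 = (p : R) * c := by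
      rw [← Nat.cast_mul, ← hc, Nat.cast_sub hq.one_le, Nat.cast_one]
    rw [h3]
    exact Ideal.mul_mem_right _ _ hpR
  have hrel := frobenius_relation hp hq hpq hP hpR hφ hM.mcont h1 hτ
  have hrel' := hrel
  rw [hMφ] at hrel
  obtain ⟨h01, h10⟩ := diagonal_of_conj hAD hq1 (h1 τ hτ) hrel
  have hdet1 : (M τ).det = 1 := by
    rw [IsModel.det hM, det_eq_natCast hdet (a := 1)
      (fun n μ hμ => inertia_root hp hq hpq hP hτ n μ hμ), Nat.cast_one]
  have hxy : (M τ) 0 0 * (M τ) 1 1 = 1 := by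
    rw [Matrix.det_fin_two, h01, zero_mul, sub_zero] at hdet1
    exact hdet1
  let x : Rˣ := ⟨(M τ) 0 0, (M τ) 1 1, hxy, by rw [mul_comm]; exact hxy⟩
  have hdiag : M τ = Matrix.diagonal ![(x : R), ((x⁻¹ : Rˣ) : R)] := by
    ext i j
    fin_cases i <;> fin_cases j
    · rfl
    · exact h01
    · exact h10
    · rfl
  have hx1 : (x : R) - 1 ∈ maximalIdeal R := by simpa using h1 τ hτ 0 0
  refine ⟨x, hdiag, ?_, hx1⟩
  refine pow_eq_one_of_pow_eq hp hpR hq.one_le hpa hpa' hx1 ?_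
  -- compare the upper left entries of the relation
  have h2 : (M τ) ^ q = Matrix.diagonal ![(x : R) ^ q, ((x⁻¹ : Rˣ) : R) ^ q] := by
    rw [hdiag, Matrix.diagonal_pow]
    congr 1
    funext i
    fin_cases i <;> rfl
  have hMφu : IsUnit (M φ) := (Group.isUnit φ).map M
  rw [hMφ] at hMφu
  rw [Matrix.isUnit_iff_isUnit_det, Matrix.det_diagonal, Fin.prod_univ_two] at hMφu
  have hA : IsUnit A := isUnit_of_mul_isUnit_left hMφu
  rw [h2, hdiag, Matrix.diagonal_mul_diagonal, Matrix.diagonal_mul_diagonal] at hrel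
  have h3 := congrFun (Matrix.diagonal_injective hrel) 0
  simp only [Matrix.cons_val_zero] at h3
  apply Units.ext
  rw [Units.val_pow_eq_pow_val]
  rw [mul_comm] at h3
  exact (hA.mul_right_cancel h3).symm

/-- **The inertia element at a Taylor–Wiles prime.** -/
theorem nonempty_data [IsNoetherianRing R] [IsAdicComplete (maximalIdeal R) R]
    (hdet : ρ.DetIsCyclotomic p)
    (hφ : P.IsFrobeniusAt φ q) (hpa : p ^ a ∣ q - 1) (ha : a ≠ 0) (hpa' : ¬ p ^ (a + 1) ∣ q - 1)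
    (hres : ∀ σ ∈ P.inertiaSubgroupIn ℚ, ρ.residual.ρ σ = 1)
    {α β : ResidueField R} (hαβ : α ≠ β)
    (hchar : LinearMap.charpoly (ρ.residual.ρ φ) = (X - C α) * (X - C β)) :
    ∃ T : Data ρ P φ (p ^ a), residue R T.A = α ∧ residue R T.D = β := by
  have hpR : (p : R) ∈ maximalIdeal R := hdet.1
  obtain ⟨M₀, hM₀⟩ := exists_model ρ
  have hM₀r := hM₀.residual
  obtain ⟨b₀, hb₀⟩ := hM₀r
  -- characteristic polynomial
  have hcp : (M₀ φ).map (residue R) = LinearMap.toMatrix b₀ b₀ (ρ.residual.ρ φ) := by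
    rw [hb₀]; rfl
  have hcp2 : ((M₀ φ).map (residue R)).charpoly = (X - C α) * (X - C β) := by
    rw [hcp, LinearMap.charpoly_toMatrix, hchar]
  have hcp3 : X ^ 2 - C ((M₀ φ).map (residue R)).trace * X + C ((M₀ φ).map (residue R)).det =
      X ^ 2 - C (α + β) * X + C (α * β) := by
    rw [← Matrix.charpoly_fin_two, hcp2, C_add, C_mul]
    ring
  have htr : residue R (M₀ φ).trace = α + β := by
    have h2 : residue R (M₀ φ).trace = ((M₀ φ).map (residue R)).trace := by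
      rw [Matrix.trace_fin_two, Matrix.trace_fin_two, map_add]
      rfl
    have h3 := congrArg (fun f : (ResidueField R)[X] => f.coeff 1) hcp3
    simp only [coeff_add, coeff_sub, coeff_X_pow, coeff_C_mul, coeff_X_one, coeff_C_succ] at h3
    rw [h2]
    have h4 : -((M₀ φ).map (residue R)).trace = -β + -α := by simpa using h3
    linear_combination - h4
  have hdt : residue R (M₀ φ).det = α * β := by
    have h2 : residue R (M₀ φ).det = ((M₀ φ).map (residue R)).det :=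
      RingHom.map_det (residue R) (M₀ φ)
    have h3 := congrArg (fun f : (ResidueField R)[X] => f.coeff 0) hcp3
    simp only [coeff_add, coeff_sub, coeff_X_pow, coeff_C_mul, coeff_X_zero, coeff_C_zero] at h3
    rw [h2]
    simpa using h3
  obtain ⟨A, D, Q, hA, hD, hQ, hFQ⟩ := exists_diagonalise hαβ htr hdt
  obtain ⟨Q', hQQ', hQ'Q⟩ := isUnit_iff_exists.mp hQ
  -- the conjugate model
  let M : GalQ →* Matrix (Fin 2) (Fin 2) R :=
    { toFun := fun σ => Q' * M₀ σ * Q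
      map_one' := by rw [map_one, mul_one, hQ'Q]
      map_mul' := fun σ τ => by
        rw [map_mul]
        calc Q' * (M₀ σ * M₀ τ) * Q = Q' * M₀ σ * 1 * M₀ τ * Q := by simp only [mul_assoc, mul_one]
          _ = Q' * M₀ σ * Q * (Q' * M₀ τ * Q) := by rw [← hQQ']; simp only [mul_assoc] }
  have hMdef : ∀ σ, M σ = Q' * M₀ σ * Q := fun σ => rfl
  have hM : IsModel ρ M := hM₀.of_conj Q' (isUnit_iff_exists.mpr ⟨Q, hQ'Q, hQQ'⟩) fun σ => by
    rw [hMdef, mul_assoc, hQQ', mul_one]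
  have hMφ : M φ = Matrix.diagonal ![A, D] := by
    rw [hMdef, mul_assoc, hFQ, ← mul_assoc, hQ'Q, one_mul]
  have hADu : IsUnit (A - D) := by
    rw [← residue_ne_zero_iff_isUnit, map_sub, hA, hD]
    exact sub_ne_zero.mpr hαβ
  have h1 : ∀ σ ∈ P.inertiaSubgroupIn ℚ, ∀ i j, (M σ - 1) i j ∈ maximalIdeal R := by
    intro σ hσ i j
    have h2 : mapRep (residue R) M₀ σ = 1 := by
      rw [← hb₀, hres σ hσ]
      exact LinearMap.toMatrix_one b₀
    have h3 : (M σ).map (residue R) = 1 := by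
      have h4 : (residue R).mapMatrix (M σ) = (residue R).mapMatrix Q' *
          (residue R).mapMatrix (M₀ σ) * (residue R).mapMatrix Q := by
        rw [hMdef, map_mul, map_mul]
      have h5 : (residue R).mapMatrix (M₀ σ) = 1 := h2
      rw [h5, mul_one, ← map_mul, hQ'Q, map_one] at h4
      exact h4
    rw [← residue_eq_zero_iff, Matrix.sub_apply, map_sub]
    have h6 := congrFun (congrFun h3 i) j
    rw [Matrix.map_apply] at h6
    rw [h6, Matrix.one_apply, Matrix.one_apply]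
    split_ifs <;> simp
  have hI := fun (τ : P.inertiaSubgroupIn ℚ) =>
    inertia_diagonal hp hq hpq hP hdet hφ hpa ha hpa' hM h1 hMφ hADu τ.2
  choose x hxM hxN hx1 using hI
  have hN : 0 < p ^ a := pow_pos hp.pos a
  -- comparability
  have hcmp : ∀ τ τ' : P.inertiaSubgroupIn ℚ, (∃ k : ℕ, x τ = x τ' ^ k) ∨
      ∃ k : ℕ, x τ' = x τ ^ k := by
    intro τ τ'
    refine exists_pow_of_forall hN (hxN τ) (hxN τ') fun n => ?_
    have hcop : (p ^ n).Coprime q := Nat.Coprime.pow_left _ ((Nat.coprime_primes hp hq).mpr hpq)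
    obtain ⟨t, ht, hgen⟩ := Fermat.Agent.TWP.Tame.exists_tame_generator hq hP
      (redHomI M (maximalIdeal R ^ n)) (redHomI_factors hM.mcont n) hcop
      (fun σ hσ => redHomI_exp hpR (h1 σ hσ) n)
    have hord : redHomI M (maximalIdeal R ^ n) t ^ (p ^ n) = 1 := redHomI_exp hpR (h1 t ht) n
    obtain ⟨i, hi⟩ := hgen τ τ.2
    obtain ⟨j, hj⟩ := hgen τ' τ'.2
    -- transfer to entries
    have hentry : ∀ (s s' : P.inertiaSubgroupIn ℚ) (k : ℕ),
        redHomI M (maximalIdeal R ^ n) s = redHomI M (maximalIdeal R ^ n) s' ^ k →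
        (x s : R) - (x s' : R) ^ k ∈ maximalIdeal R ^ n := by
      intro s s' k h
      have h2 := congrArg Units.val h
      rw [Units.val_pow_eq_pow_val, redHomI_coe, redHomI_coe, ← map_pow, hxM s, hxM s',
        Matrix.diagonal_pow] at h2
      have h3 := congrFun (congrFun h2 0) 0
      rw [← Ideal.Quotient.eq]
      simpa using h3
    rcases pow_dichotomy hp hord i j with ⟨k, hk⟩ | ⟨k, hk⟩
    · left
      exact ⟨k, hentry τ τ' k (by rw [hi, hk, ← hj])⟩
    · right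
      exact ⟨k, hentry τ' τ k (by rw [hj, hk, ← hi])⟩
  obtain ⟨τ₀, hτ₀⟩ := exists_generator hN x hxN hcmp
  refine ⟨{ M := M, isModel := hM, τ := τ₀, τ_mem := τ₀.2, g := x τ₀, g_sub_one_mem := hx1 τ₀,
            g_pow := hxN τ₀, M_τ := hxM τ₀, M_inertia := ?_, A := A, D := D, M_φ := hMφ,
            isUnit_sub := hADu }, hA, hD⟩
  intro σ hσ
  obtain ⟨k, hk⟩ := hτ₀ ⟨σ, hσ⟩
  refine ⟨k, ?_⟩
  have h2 := hxM ⟨σ, hσ⟩
  rw [hxM τ₀, Matrix.diagonal_pow]
  refine h2.trans ?_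
  rw [hk]
  congr 1
  funext i
  fin_cases i
  · simp
  · simp

end

theorem isModel_eq_one_iff {B : Type} [CommRing B] [IsLocalRing B] {ρ : GaloisRepAdic B}
    {M : GalQ →* Matrix (Fin 2) (Fin 2) B} (h : IsModel ρ M) (σ : GalQ) :
    M σ = 1 ↔ ρ.ρ σ = 1 := by
  obtain ⟨b, hb⟩ := h
  rw [← hb]
  constructor
  · intro h1
    apply (LinearMap.toMatrix b b).injective
    rw [h1]
    exact (LinearMap.toMatrix_one b).symm
  · intro h1
    rw [h1]
    exact LinearMap.toMatrix_one b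

/-- Unramifiedness can be tested at one place. -/
theorem isUnramifiedAt_of_place' {B : Type} [CommRing B] [IsLocalRing B] {ρ : GaloisRepAdic B}
    {q : ℕ} (hq : q.Prime) {P : ValuationSubring Qb} (hP : P.LiesOverPrime q)
    (h : ∀ σ ∈ P.inertiaSubgroupIn ℚ, ρ.ρ σ = 1) : ρ.IsUnramifiedAt q := by
  intro P' hP' σ hσ
  obtain ⟨g, rfl⟩ := FrobExists.exists_smul_eq P P' hq hP hP'
  have h1 := TWP.Place.mem_inertia_conj g⁻¹ hσ
  rw [inv_smul_smul, inv_inv] at h1
  have h2 := h _ h1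
  have h3 : σ = g * (g⁻¹ * σ * g) * g⁻¹ := by group
  rw [h3, map_mul, map_mul, h2, mul_one, ← map_mul, mul_inv_cancel, map_one]

namespace Data

variable {ρ : GaloisRepAdic R} {P : ValuationSubring Qb} {φ : GalQ} {N : ℕ} (T : Data ρ P φ N)

theorem M_inertia' {σ : GalQ} (hσ : σ ∈ P.inertiaSubgroupIn ℚ) :
    ∃ k : ℕ, T.M σ = Matrix.diagonal ![(T.g : R) ^ k, ((T.g⁻¹ : Rˣ) : R) ^ k] := by
  obtain ⟨k, hk⟩ := T.M_inertia σ hσ
  refine ⟨k, ?_⟩
  rw [hk, T.M_τ, Matrix.diagonal_pow]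
  congr 1
  funext i
  fin_cases i <;> rfl

/-- (g2) unramifiedness after base change is detected by `g`. -/
theorem isUnramifiedAt_iff {q : ℕ} (hq : q.Prime) (hP : P.LiesOverPrime q) {B : Type} [CommRing B]
    [IsLocalRing B] (ψ : R →+* B) (hψ : IsLocalHom ψ) :
    (ρ.baseChangeAlong ψ hψ).IsUnramifiedAt q ↔ ψ T.g = 1 := by
  have hMB := T.isModel.baseChangeAlong ψ hψ
  constructor
  · intro h
    have h1 := (isModel_eq_one_iff hMB T.τ).mpr (h P hP T.τ T.τ_mem)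
    have h2 := congrFun (congrFun h1 0) 0
    rw [mapRep_apply, Matrix.map_apply, T.M_τ] at h2
    simpa using h2
  · intro h
    refine isUnramifiedAt_of_place' hq hP fun σ hσ => ?_
    refine (isModel_eq_one_iff hMB σ).mp ?_
    obtain ⟨k, hk⟩ := T.M_inertia' hσ
    have h' : ψ ((T.g⁻¹ : Rˣ) : R) = 1 := by
      have h2 : ψ ((T.g : R) * ((T.g⁻¹ : Rˣ) : R)) = 1 := by rw [Units.mul_inv, map_one]
      rwa [map_mul, h, one_mul] at h2
    rw [mapRep_apply, hk]
    ext i j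
    fin_cases i <;> fin_cases j <;> simp [h, h']

/-- (g3) the trace formula for the inertia element -/
theorem trace_mul_sub (σ : GalQ) : ρ.trace (σ * T.τ) - ρ.trace σ =
    ((T.g : R) - 1) * (T.M σ 0 0 - ((T.g⁻¹ : Rˣ) : R) * T.M σ 1 1) := by
  rw [T.isModel.trace, T.isModel.trace, map_mul, T.M_τ, Matrix.trace_fin_two, Matrix.trace_fin_two,
    Matrix.mul_diagonal, Matrix.mul_diagonal]
  simp only [Matrix.cons_val_zero, Matrix.cons_val_one]
  have h : (T.g : R) * ((T.g⁻¹ : Rˣ) : R) = 1 := Units.mul_inv _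
  linear_combination T.M σ 1 1 * h

/-- (g3) with `σ` Frobenius: `tr ρ(φ τ) - tr ρ(φ)` generates `(g - 1)`. -/
theorem trace_frobenius_sub : ∃ u : R, IsUnit u ∧
    ρ.trace (φ * T.τ) - ρ.trace φ = ((T.g : R) - 1) * u := by
  refine ⟨T.M φ 0 0 - ((T.g⁻¹ : Rˣ) : R) * T.M φ 1 1, ?_, T.trace_mul_sub φ⟩
  rw [T.M_φ]
  simp only [Matrix.diagonal_apply_eq, Matrix.cons_val_zero, Matrix.cons_val_one]
  have hg : residue R (T.g : R) = 1 := by
    rw [← sub_eq_zero, ← map_one (residue R), ← map_sub, residue_eq_zero_iff]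
    exact T.g_sub_one_mem
  have hg' : residue R ((T.g⁻¹ : Rˣ) : R) = 1 := by
    have h2 : residue R ((T.g : R) * ((T.g⁻¹ : Rˣ) : R)) = 1 := by rw [Units.mul_inv, map_one]
    rwa [map_mul, hg, one_mul] at h2
  rw [← residue_ne_zero_iff_isUnit, map_sub, map_mul, hg', one_mul, ← map_sub,
    residue_ne_zero_iff_isUnit]
  exact T.isUnit_sub

theorem pow_sub_one_mem_span (k : ℕ) : (T.g : R) ^ k - 1 ∈ Ideal.span {(T.g : R) - 1} := by
  rw [Ideal.mem_span_singleton]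
  exact sub_one_dvd_pow_sub_one (T.g : R) k

theorem inv_pow_sub_one_mem_span (k : ℕ) :
    ((T.g⁻¹ : Rˣ) : R) ^ k - 1 ∈ Ideal.span {(T.g : R) - 1} := by
  have h : ((T.g⁻¹ : Rˣ) : R) ^ k * (T.g : R) ^ k = 1 := by
    rw [← mul_pow, Units.inv_mul, one_pow]
  have h1 : ((T.g⁻¹ : Rˣ) : R) ^ k - 1 = (-(((T.g⁻¹ : Rˣ) : R) ^ k)) * ((T.g : R) ^ k - 1) := by
    linear_combination h
  rw [h1]
  exact Ideal.mul_mem_left _ _ (T.pow_sub_one_mem_span k)

/-- Entries of `M σ - 1`, `σ` in inertia, lie in `(g - 1)`. -/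
theorem entry_mem_span {σ : GalQ} (hσ : σ ∈ P.inertiaSubgroupIn ℚ) (i j : Fin 2) :
    (T.M σ - 1) i j ∈ Ideal.span {(T.g : R) - 1} := by
  obtain ⟨k, hk⟩ := T.M_inertia' hσ
  rw [hk]
  fin_cases i <;> fin_cases j
  · simpa using T.pow_sub_one_mem_span k
  · simp
  · simp
  · simpa using T.inv_pow_sub_one_mem_span k

/-- (g3) all differences `tr ρ(σ τ') - tr ρ(σ)`, `τ'` in inertia at `P`, lie in `(g - 1)`. -/
theorem trace_sub_mem_span (σ : GalQ) {τ' : GalQ} (hτ' : τ' ∈ P.inertiaSubgroupIn ℚ) :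
    ρ.trace (σ * τ') - ρ.trace σ ∈ Ideal.span {(T.g : R) - 1} := by
  have h1 : ρ.trace (σ * τ') - ρ.trace σ = (T.M σ * (T.M τ' - 1)).trace := by
    rw [T.isModel.trace, T.isModel.trace, map_mul, mul_sub, mul_one, Matrix.trace_sub]
  rw [h1, Matrix.trace_fin_two, Matrix.mul_apply, Matrix.mul_apply, Fin.sum_univ_two,
    Fin.sum_univ_two]
  exact Ideal.add_mem _ (Ideal.add_mem _ (Ideal.mul_mem_left _ _ (T.entry_mem_span hτ' _ _))
    (Ideal.mul_mem_left _ _ (T.entry_mem_span hτ' _ _)))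
    (Ideal.add_mem _ (Ideal.mul_mem_left _ _ (T.entry_mem_span hτ' _ _))
    (Ideal.mul_mem_left _ _ (T.entry_mem_span hτ' _ _)))

theorem inertiaIdeal_eq : inertiaIdeal T.M P = Ideal.span {(T.g : R) - 1} := by
  apply le_antisymm
  · rw [inertiaIdeal, Ideal.span_le]
    rintro _ ⟨σ, hσ, i, j, rfl⟩
    exact T.entry_mem_span hσ i j
  · rw [Ideal.span_singleton_le_iff_mem]
    refine Ideal.subset_span ⟨T.τ, T.τ_mem, 0, 0, ?_⟩
    rw [T.M_τ]
    simp

end Data

end Fermat.Agent.RT.TWInertia
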