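import Fermat.Agent.RT.TWEig1A
import Fermat.Agent.RT.ExtPairs
import Fermat.Agent.RT.PointRep
import Fermat.Agent.RT.Act
import Fermat.Agent.RT.TWInertia
import Fermat.Agent.RT.HeckeLocalFields
import Fermat.Agent.DefCond.Basic
import Fermat.Agent.Petersson.Reduced
import Fermat.Agent.IntStr.HeckeFinite

/-!
# (E1): unramified at a Taylor–Wiles prime on the diamond invariants (helper30)

`heckeLocal (N Q²) S 𝒪 θ` acts on a module `V` of symbols of level `Γ_H` (`T_ℓ` acting as the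
twisted operator `TH ℓ`).  If `q ∣ Q` is a Taylor–Wiles prime, then an element `g` of
`heckeLocal` which maps to `1` under all points unramified at `q` acts as the identity on the
vectors of `V` fixed by the `q`-part of the diamond operators.
-/

set_option autoImplicit false
set_option linter.unusedSectionVars false

open Matrix Matrix.SpecialLinearGroup CongruenceSubgroup IsLocalRing Polynomial
open scoped MatrixGroups OnePoint

noncomputable section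

namespace Fermat.Agent.RT.TWEig

open Fermat.Agent.LR Fermat.Agent.LR.PS Fermat.Agent.RT Fermat.Agent.RT.TwistH
  Fermat.Agent.RT.Point Fermat.Agent.RT.ExtPairs Fermat.Agent.RT.MSHecke
  Fermat.Agent.CMP.S58Assembly Fermat.Agent.DR.SC

local notation "Qbar" => AlgebraicClosure ℚ
local notation "Γℚ" => (AlgebraicClosure ℚ ≃ₐ[ℚ] AlgebraicClosure ℚ)

/-! ### Generalities -/

/-- Algebra maps from a local ring to a finite algebra are local. -/
theorem isLocalHom_of_finite {𝒪 A B : Type*} [CommRing 𝒪] [CommRing A] [IsLocalRing A]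
    [CommRing B] [Nontrivial B] [Algebra 𝒪 A] [Algebra 𝒪 B] [Module.Finite 𝒪 B]
    (φ : A →ₐ[𝒪] B) : IsLocalHom (φ : A →+* B) := by
  have hne : RingHom.ker (φ : A →+* B) ≠ ⊤ := RingHom.ker_ne_top _
  have : Nontrivial (A ⧸ RingHom.ker (φ : A →+* B)) := Ideal.Quotient.nontrivial_iff.mpr hne
  have h1 : IsLocalHom (Ideal.Quotient.mk (RingHom.ker (φ : A →+* B))) :=
    IsLocalHom.of_surjective _ Ideal.Quotient.mk_surjective
  have hint : (algebraMap 𝒪 B).IsIntegral := Algebra.IsIntegral.isIntegral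
  have h2 : (RingHom.kerLift (φ : A →+* B)).IsIntegral := by
    refine RingHom.IsIntegral.tower_top
      ((Ideal.Quotient.mk (RingHom.ker (φ : A →+* B))).comp (algebraMap 𝒪 A)) _ ?_
    convert hint
    ext x
    exact φ.commutes x
  have h3 : IsLocalHom (RingHom.kerLift (φ : A →+* B)) :=
    h2.isLocalHom (RingHom.kerLift_injective _)
  have h4 : (φ : A →+* B) = (RingHom.kerLift (φ : A →+* B)).comp (Ideal.Quotient.mk _) := by
    ext x; rfl
  rw [h4]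
  exact RingHom.isLocalHom_comp _ _

section gen

variable (M : ℕ) [NeZero M] (S : Set ℕ)
variable (𝒪 : Type) [CommRing 𝒪] [IsDomain 𝒪] [IsDiscreteValuationRing 𝒪]
  [IsAdicComplete (IsLocalRing.maximalIdeal 𝒪) 𝒪]
variable (θ : CuspForm.heckeAlgebra M 2 S →+* IsLocalRing.ResidueField 𝒪)

/-- A subalgebra of `heckeLocal` containing the `T_ℓ` is everything. -/
theorem eq_top_of_T_mem [Fact (CuspForm.HasIntegralStructure M 2)]
    (hS : ∀ ℓ : ℕ, ℓ.Prime → ℓ ∣ M → ℓ ∈ S)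
    (B : Subalgebra 𝒪 (CuspForm.heckeLocal M S 𝒪 θ))
    (hB : ∀ (ℓ : ℕ) (hℓ : ℓ.Prime) (hM : ¬ ℓ ∣ M) (hS' : ℓ ∉ S),
      CuspForm.heckeLocal.π M S 𝒪 θ (CuspForm.heckeAlgebra.T hℓ hM hS') ∈ B) : B = ⊤ := by
  rw [eq_top_iff, ← HeckeLocalFields.adjoin_range_π M S 𝒪 θ, Algebra.adjoin_le_iff]
  rintro _ ⟨t, rfl⟩
  obtain ⟨P, rfl⟩ := evForms_surjective M S t
  induction P using MvPolynomial.induction_on with
  | C n =>
    have h1 : (MvPolynomial.C n : MvPolynomial (Idx S) ℤ) = (n : MvPolynomial (Idx S) ℤ) := by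
      simp
    rw [h1, map_intCast, map_intCast]
    exact B.intCast_mem n
  | add p q hp hq => rw [map_add, map_add]; exact B.add_mem hp hq
  | mul_X p ℓ hp =>
    have hℓM : ¬ (ℓ.1 : ℕ) ∣ M := fun h => ℓ.2 (hS _ ℓ.1.2 h)
    rw [map_mul, map_mul, evForms_X, genS_of_not_dvd M S ℓ hℓM]
    exact B.mul_mem hp (hB _ _ _ _)

end gen

/-- `mapCoeff` commutes with finite sums of slashes. -/
theorem mapCoeff_heckeU {R R' : Type*} [CommRing R] [CommRing R'] (f : R →+* R') (ℓ : ℕ)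
    (x : Pairs R) : mapCoeff f (heckeU ℓ x) = heckeU ℓ (mapCoeff f x) := by
  rw [heckeU_apply, heckeU_apply, map_sum]
  rfl

theorem mapCoeff_D {R R' : Type*} [CommRing R] [CommRing R'] (f : R →+* R') {N Q : ℕ}
    {Δ : Type*} [CommGroup Δ] {ψ : (ZMod Q)ˣ →* Δ} (δ : Δ) (x : Pairs R) :
    mapCoeff f (D N Q ψ δ x) = D N Q ψ δ (mapCoeff f x) := rfl

theorem mapCoeff_TH {R R' : Type*} [CommRing R] [CommRing R'] (f : R →+* R') {N Q : ℕ}
    {Δ : Type*} [CommGroup Δ] {ψ : (ZMod Q)ˣ →* Δ} (ℓ : ℕ) (x : Pairs R) :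
    mapCoeff f (TH N Q ψ ℓ x) = TH N Q ψ ℓ (mapCoeff f x) := by
  rw [TH_apply, TH_apply, map_add, mapCoeff_heckeU]
  rfl

/-- Absolute irreducibility of the residual representation of a base change. -/
theorem residual_absIrr_baseChange {A B : Type} [CommRing A] [IsLocalRing A] [CommRing B]
    [IsLocalRing B] (ρ : GaloisRepAdic A) (f : A →+* B) (hf : IsLocalHom f)
    (h : ρ.residual.IsAbsolutelyIrreducible) :
    (ρ.baseChangeAlong f hf).residual.IsAbsolutelyIrreducible := by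
  refine BN2.isAbsolutelyIrreducible_of_charpoly_eq (RingHom.id _)
    (ResidueField.map f) _ ρ.residual (fun σ => ?_) h
  rw [Polynomial.map_id, charpoly_residual, charpoly_residual,
    DefCond.charpoly_baseChangeAlong, Polynomial.map_map, Polynomial.map_map]
  rfl

/-- Distinct eigenvalues exclude the Steinberg shape `X² ∓ (q + 1) X + q`, `q = 1`. -/
theorem eq_of_steinberg {k k' : Type*} [Field k] [Field k'] (i : k →+* k') {α β : k} {c : k'}
    (hc : c = 1) (h : ((X - C α) * (X - C β)).map i = X ^ 2 - C (c + 1) * X + C c ∨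
      ((X - C α) * (X - C β)).map i = X ^ 2 + C (c + 1) * X + C c) : α = β := by
  subst hc
  have e1 : ((X - C α) * (X - C β)).map i = X ^ 2 - C (i α + i β) * X + C (i α * i β) := by
    rw [Polynomial.map_mul, Polynomial.map_sub, Polynomial.map_sub, Polynomial.map_X,
      Polynomial.map_C, Polynomial.map_C, C_add, C_mul]
    ring
  rw [e1] at h
  have hprod : i α * i β = 1 := by
    rcases h with h | h
    · have := congrArg (fun P => P.coeff 0) h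
      simpa [coeff_C] using this
    · have := congrArg (fun P => P.coeff 0) h
      simpa [coeff_C] using this
  have hsum : (i α + i β) ^ 2 = 4 := by
    rcases h with h | h
    · have h2 := congrArg (fun P => P.coeff 1) h
      simp only [coeff_add, coeff_sub, coeff_X_pow, coeff_C_mul, coeff_X_one, coeff_C_succ] at h2
      have h3 : i α + i β = 1 + 1 := by
        have : -(i α + i β) = -(1 + 1) := by simpa using h2
        exact neg_injective this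
      rw [h3]; norm_num
    · have h2 := congrArg (fun P => P.coeff 1) h
      simp only [coeff_add, coeff_sub, coeff_X_pow, coeff_C_mul, coeff_X_one, coeff_C_succ] at h2
      have h3 : i α + i β = -(1 + 1) := by
        have : -(i α + i β) = 1 + 1 := by simpa using h2
        rw [← this, neg_neg]
      rw [h3]; norm_num
  have h4 : (i α - i β) ^ 2 = 0 := by linear_combination hsum - 4 * hprod
  exact i.injective (sub_eq_zero.mp (pow_eq_zero_iff two_ne_zero |>.mp h4))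

/-! ### The main theorem -/

section main

variable {p : ℕ} [hp : Fact p.Prime] {𝒪 : Type} [CommRing 𝒪] [IsDomain 𝒪]
  [IsDiscreteValuationRing 𝒪] [IsAdicComplete (maximalIdeal 𝒪) 𝒪] [Finite (ResidueField 𝒪)]
  [CharZero 𝒪]

/-- The representation of a point of `heckeLocal M S 𝒪 θ`. -/
theorem point_facts {M : ℕ} [NeZero M] [Fact (CuspForm.HasIntegralStructure M 2)] {S : Finset ℕ}
    (hS : ∀ ℓ : ℕ, ℓ.Prime → ℓ ∣ M → ℓ ∈ S)
    {θ : CuspForm.heckeAlgebra M 2 (↑S : Set ℕ) →+* ResidueField 𝒪}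
    (d : CuspForm.HeckeGaloisRepDatum M (↑S : Set ℕ) 𝒪 θ
      (CuspForm.heckeLocal M (↑S : Set ℕ) 𝒪 θ))
    {𝒪' : Type} [CommRing 𝒪'] [IsDomain 𝒪'] [IsLocalRing 𝒪'] [Algebra 𝒪 𝒪']
    (φ : CuspForm.heckeLocal M (↑S : Set ℕ) 𝒪 θ →ₐ[𝒪] 𝒪')
    (hφ : IsLocalHom (φ : CuspForm.heckeLocal M (↑S : Set ℕ) 𝒪 θ →+* 𝒪')) :
    ∃ t : ℕ → 𝒪', Attached S t (d.ρ.baseChangeAlong
        (φ : CuspForm.heckeLocal M (↑S : Set ℕ) 𝒪 θ →+* 𝒪') hφ) ∧
      ∀ (ℓ : ℕ) (hℓ : ℓ.Prime) (hℓN : ¬ ℓ ∣ M) (hℓS : ℓ ∉ (↑S : Set ℕ)),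
        t ℓ = φ (d.π (CuspForm.heckeAlgebra.T hℓ hℓN hℓS)) := by
  classical
  let t : ℕ → 𝒪' := fun ℓ => if h : ℓ.Prime ∧ ¬ ℓ ∣ M ∧ ℓ ∉ (↑S : Set ℕ) then
    φ (d.π (CuspForm.heckeAlgebra.T h.1 h.2.1 h.2.2)) else 0
  have ht : ∀ (ℓ : ℕ) (hℓ : ℓ.Prime) (hℓN : ¬ ℓ ∣ M) (hℓS : ℓ ∉ (↑S : Set ℕ)),
      t ℓ = φ (d.π (CuspForm.heckeAlgebra.T hℓ hℓN hℓS)) := fun ℓ hℓ hℓN hℓS =>
    dif_pos ⟨hℓ, hℓN, hℓS⟩
  refine ⟨t, ?_, ht⟩
  intro ℓ hℓ hℓS A hA σ hσ
  have hℓN : ¬ ℓ ∣ M := fun h => hℓS (hS ℓ hℓ h)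
  have hℓS' : ℓ ∉ (↑S : Set ℕ) := fun h => hℓS (Finset.mem_coe.mp h)
  rw [DefCond.charpoly_baseChangeAlong, d.charpoly_frob ℓ hℓ hℓN hℓS' A hA σ hσ,
    ht ℓ hℓ hℓN hℓS']
  simp

/-- **(E1).** -/
theorem eig_one (h30 : Datum.S30Statement) (h35 : S35Prop)
    (hpO : (p : 𝒪) ∈ maximalIdeal 𝒪) {N Q q Q' : ℕ} (hQ : Q = q * Q') (hQ' : Q' ∣ Q)
    (hq : q.Prime) (hqp : q ≠ p) (hq1 : p ∣ q - 1) {Δ : Type*} [CommGroup Δ]
    {ψ : (ZMod Q)ˣ →* Δ} (H : TwHyp N Q ψ) [NeZero (N * Q ^ 2)]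
    [Fact (CuspForm.HasIntegralStructure (N * Q ^ 2) 2)] {S : Finset ℕ} (hpS : p ∈ S)
    (hS : ∀ ℓ : ℕ, ℓ.Prime → ℓ ∣ N * Q ^ 2 → ℓ ∈ S)
    {θ : CuspForm.heckeAlgebra (N * Q ^ 2) 2 (↑S : Set ℕ) →+* ResidueField 𝒪}
    (d : CuspForm.HeckeGaloisRepDatum (N * Q ^ 2) (↑S : Set ℕ) 𝒪 θ
      (CuspForm.heckeLocal (N * Q ^ 2) (↑S : Set ℕ) 𝒪 θ))
    (hd : d.π = CuspForm.heckeLocal.π (N * Q ^ 2) (↑S : Set ℕ) 𝒪 θ)
    {V : Submodule 𝒪 (Pairs 𝒪)} (hV : V ≤ MS (GammaH N Q ψ) 𝒪)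
    (Φ : CuspForm.heckeLocal (N * Q ^ 2) (↑S : Set ℕ) 𝒪 θ →ₐ[𝒪] Module.End 𝒪 V)
    (hΦ : ∀ (ℓ : ℕ) (hℓ : ℓ.Prime) (hℓN : ¬ ℓ ∣ N * Q ^ 2) (hℓS : ℓ ∉ (↑S : Set ℕ)) (x : V),
      (Φ (CuspForm.heckeLocal.π (N * Q ^ 2) (↑S : Set ℕ) 𝒪 θ
        (CuspForm.heckeAlgebra.T hℓ hℓN hℓS)) x : Pairs 𝒪) = TH N Q ψ ℓ x)
    {ℓ₀ : ℕ} (hℓ₀ : ℓ₀.Prime) (hℓ₀N : ¬ ℓ₀ ∣ N * Q ^ 2) (hℓ₀S : ℓ₀ ∉ (↑S : Set ℕ))
    (hℓ₀1 : ((ℓ₀ : ℕ) : ZMod (N * Q ^ 2)) = 1)
    (hE : θ (CuspForm.heckeAlgebra.T hℓ₀ hℓ₀N hℓ₀S) ≠ 1 + (ℓ₀ : ResidueField 𝒪))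
    {P : ValuationSubring Qbar} (hP : P.LiesOverPrime q) {σ : Γℚ} (hσ : P.IsFrobeniusAt σ q)
    {α β : ResidueField (CuspForm.heckeLocal (N * Q ^ 2) (↑S : Set ℕ) 𝒪 θ)} (hαβ : α ≠ β)
    (hchar : LinearMap.charpoly (d.ρ.residual.ρ σ) = (X - C α) * (X - C β))
    {g : CuspForm.heckeLocal (N * Q ^ 2) (↑S : Set ℕ) 𝒪 θ}
    (hg : ∀ (𝒪' : Type) [CommRing 𝒪'] [IsDomain 𝒪'] [IsLocalRing 𝒪']
      (f : CuspForm.heckeLocal (N * Q ^ 2) (↑S : Set ℕ) 𝒪 θ →+* 𝒪') (hf : IsLocalHom f),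
      (d.ρ.baseChangeAlong f hf).IsUnramifiedAt q → f g = 1)
    {z : V} (hz : ∀ u : (ZMod Q)ˣ, ZMod.unitsMap hQ' u = 1 →
      D N Q ψ (ψ u) (z : Pairs 𝒪) = z) : Φ g z = z := by
  subst hQ
  let A := CuspForm.heckeLocal (N * (q * Q') ^ 2) (↑S : Set ℕ) 𝒪 θ
  have hq0 : q ≠ 0 := hq.ne_zero
  have hqN : ¬ q ∣ N := fun h => by
    have h1 := Nat.Coprime.eq_one_of_dvd (Nat.Coprime.coprime_dvd_left h H.cop)
      (Dvd.intro _ rfl)
    exact hq.one_lt.ne' h1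
  have hqQ' : ¬ q ∣ Q' := fun h => by
    have h1 := (Nat.squarefree_mul_iff.mp H.sqf).1
    exact hq.one_lt.ne' (Nat.Coprime.eq_one_of_dvd h1 h)
  have hSN : ∀ ℓ : ℕ, ℓ.Prime → ℓ ∣ N * (q * Q') → ℓ ∈ (↑S : Set ℕ) := fun ℓ hℓ h =>
    Finset.mem_coe.mpr (hS ℓ hℓ (h.trans ⟨q * Q', by ring⟩))
  -- the module structure on `V`
  let _ : Module A V := Module.compHom V (Φ : A →+* Module.End 𝒪 V)
  have hsm : ∀ (a : A) (x : V), a • x = Φ a x := fun _ _ => rfl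
  have hst : IsScalarTower 𝒪 A V := ⟨fun c a x => by
    rw [hsm, hsm, map_smul, LinearMap.smul_apply]⟩
  have hVinv : ∀ x : V, HInv N (q * Q') ψ (x : Pairs 𝒪) := fun x => hInv_of_mem (hV x.2)
  -- the fixed vectors
  let F₀ : Submodule 𝒪 V :=
    { carrier := {x | ∀ u : (ZMod (q * Q'))ˣ, ZMod.unitsMap hQ' u = 1 →
        D N (q * Q') ψ (ψ u) (x : Pairs 𝒪) = x}
      add_mem' := fun {x y} hx hy u hu => by
        rw [Submodule.coe_add, map_add, hx u hu, hy u hu]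
      zero_mem' := fun u _ => by rw [Submodule.coe_zero, map_zero]
      smul_mem' := fun c x hx u hu => by rw [Submodule.coe_smul, map_smul, hx u hu] }
  let B : Subalgebra 𝒪 A :=
    { carrier := {a | ∀ x ∈ F₀, a • x ∈ F₀}
      add_mem' := fun {a b} ha hb x hx => by
        rw [add_smul]; exact F₀.add_mem (ha x hx) (hb x hx)
      mul_mem' := fun {a b} ha hb x hx => by rw [mul_smul]; exact ha _ (hb x hx)
      algebraMap_mem' := fun c x hx => by rw [algebraMap_smul]; exact F₀.smul_mem c hx }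
  have hB : B = ⊤ := by
    refine eq_top_of_T_mem _ _ 𝒪 θ (fun ℓ hℓ h => Finset.mem_coe.mpr (hS ℓ hℓ h)) B ?_
    intro ℓ hℓ hℓM hℓS x hx u hu
    have hℓN : ¬ ℓ ∣ N * (q * Q') := fun h => hℓS (hSN ℓ hℓ h)
    rw [hsm, hΦ, D_TH H hℓ hℓN (hVinv x), hx u hu]
  let F : Submodule A V :=
    { carrier := F₀
      add_mem' := F₀.add_mem
      zero_mem' := F₀.zero_mem
      smul_mem' := fun a x hx => by
        have ha : a ∈ B := by rw [hB]; exact Algebra.mem_top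
        exact ha x hx }
  have hredh : IsReduced (CuspForm.heckeAlgebra (N * (q * Q') ^ 2) 2 (↑S : Set ℕ)) :=
    Petersson.isReduced_heckeAlgebra fun ℓ hℓ h => Finset.mem_coe.mpr (hS ℓ hℓ h)
  have hfinh : Module.Finite ℤ (CuspForm.heckeAlgebra (N * (q * Q') ^ 2) 2 (↑S : Set ℕ)) :=
    IntStr.moduleFinite_heckeAlgebra _ 2 (↑S : Set ℕ)
  have hred : IsReduced A := HeckeLocalFields.isReduced _ _ 𝒪 θ hredh hfinh
  have hintA : Algebra.IsIntegral 𝒪 A := Algebra.IsIntegral.of_finite 𝒪 A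
  have htfV : Module.IsTorsionFree 𝒪 V := inferInstance
  have htfF : Module.IsTorsionFree 𝒪 F := by
    refine ⟨fun r hr x y hxy => ?_⟩
    have h1 := congrArg (fun w : F => (w : V)) hxy
    exact Subtype.ext (htfV.isSMulRegular hr h1)
  have key : ∀ P' ∈ associatedPrimes A F, g - 1 ∈ P' := by
    intro P' hP'
    have hP'p : P'.IsPrime := hP'.1
    have hcomap : P'.comap (algebraMap 𝒪 A) = ⊥ :=
      comap_eq_bot_of_associated (𝒪 := 𝒪) (T := A) (M := F) hP'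
    obtain ⟨𝒪', i1, i2, i3, i4, i5, i6, i7, i8, i9, i10, hinj, φ, hker⟩ :=
      Components.exists_dvr_of_isPrime 𝒪 A P' hcomap
    have hφ : IsLocalHom (φ : A →+* 𝒪') := isLocalHom_of_finite φ
    have hpO' : (p : 𝒪') ∈ maximalIdeal 𝒪' := by
      have h1 := map_nonunit (algebraMap 𝒪 𝒪') (p : 𝒪) hpO
      rwa [map_natCast] at h1
    obtain ⟨j, hj⟩ := exists_embedding_complex 𝒪'
    let _ : Algebra 𝒪 ℂ := (j.comp (algebraMap 𝒪 𝒪')).toAlgebra
    have hfs : FaithfulSMul 𝒪 ℂ :=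
      (faithfulSMul_iff_algebraMap_injective 𝒪 ℂ).mpr (hj.comp hinj)
    let χ : A →ₐ[𝒪] ℂ :=
      { j.comp (φ : A →+* 𝒪') with
        commutes' := fun c => congrArg j (φ.commutes c) }
    have hχ : ∀ a, χ a = j (φ a) := fun _ => rfl
    have hkerχ : RingHom.ker (χ : A →+* ℂ) = P' := by
      rw [← hker]
      ext a
      exact map_eq_zero_iff j hj
    let ι : F →ₗ[𝒪] Pairs 𝒪 := V.subtype ∘ₗ (F.subtype.restrictScalars 𝒪)
    have hι : Function.Injective ι := fun x y hxy => Subtype.ext (Subtype.ext hxy)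
    obtain ⟨Y, hY0, hYmem, hYeig⟩ :=
      exists_eigenPairs (K := ℂ) (T := A) (Y := F) ι hι χ (by rw [hkerχ]; exact hP')
    have hYMS : Y ∈ MS (GammaH N (q * Q') ψ) ℂ := hYmem _ fun y => mapCoeff_mem _ (hV y.1.2)
    have hYfix : ∀ u : (ZMod (q * Q'))ˣ, ZMod.unitsMap (dvd_mul_left Q' q) u = 1 →
        D N (q * Q') ψ (ψ u) Y = Y := by
      intro u hu
      have h1 := hYmem (LinearMap.ker (D N (q * Q') ψ (ψ u) - LinearMap.id)) (fun y => by
        rw [LinearMap.mem_ker, LinearMap.sub_apply, LinearMap.id_apply, sub_eq_zero, ← mapCoeff_D]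
        exact congrArg _ (y.2 u hu))
      rwa [LinearMap.mem_ker, LinearMap.sub_apply, LinearMap.id_apply, sub_eq_zero] at h1
    obtain ⟨t, hatt, ht⟩ := point_facts hS d φ hφ
    obtain ⟨C', hC0, f, hCM, hf, hfa⟩ := Point.exists_newform j ((φ : A →+* 𝒪').comp d.π)
    have htg : ∀ ℓ : ℕ, ℓ.Prime → ℓ ∉ S → ModularFormClass.qCoeff ⇑f ℓ = j (t ℓ) := by
      intro ℓ hℓ hℓS
      have hℓM : ¬ ℓ ∣ N * (q * Q') ^ 2 := fun h => hℓS (hS ℓ hℓ h)
      have hℓS' : ℓ ∉ (↑S : Set ℕ) := fun h => hℓS (Finset.mem_coe.mp h)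
      rw [hfa ℓ hℓ hℓM hℓS', ht ℓ hℓ hℓM hℓS']
      rfl
    have hYTH : ∀ ℓ : ℕ, ℓ.Prime → ℓ ∉ (↑S : Set ℕ) →
        TH N (q * Q') ψ ℓ Y = ModularFormClass.qCoeff ⇑f ℓ • Y := by
      intro ℓ hℓ hℓS
      have hℓM : ¬ ℓ ∣ N * (q * Q') ^ 2 := fun h => hℓS (Finset.mem_coe.mpr (hS ℓ hℓ h))
      rw [hYeig (d.π (CuspForm.heckeAlgebra.T hℓ hℓM hℓS)) (TH N (q * Q') ψ ℓ) (fun y => by
        rw [← mapCoeff_TH]
        refine congrArg _ ?_
        rw [hd]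
        exact hΦ ℓ hℓ hℓM hℓS y.1), hχ, hfa ℓ hℓ hℓM hℓS]
      rfl
    obtain ⟨Z, hZ, hZ0⟩ := exists_mem_eigMS_low H hYMS hY0 hYfix hSN hYTH
    -- non-Eisenstein
    have hNE : NonEis (N * (q * Q') ^ 2) (↑S : Set ℕ) (ModularFormClass.qCoeff ⇑f) := by
      refine ⟨ℓ₀, hℓ₀, hℓ₀S, hℓ₀1, fun h => hE ?_⟩
      rw [hfa ℓ₀ hℓ₀ hℓ₀N hℓ₀S] at h
      have h1 : φ (d.π (CuspForm.heckeAlgebra.T hℓ₀ hℓ₀N hℓ₀S) - (1 + (ℓ₀ : A))) = 0 := by
        apply hj
        rw [map_sub, map_sub, map_zero, map_add, map_one, map_natCast, map_add, map_one,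
          map_natCast, add_comm (1 : ℂ), sub_eq_zero]
        exact h
      by_contra hne
      have h2 : IsUnit (d.π (CuspForm.heckeAlgebra.T hℓ₀ hℓ₀N hℓ₀S) - (1 + (ℓ₀ : A))) := by
        rw [← residue_ne_zero_iff_isUnit, map_sub, d.residue_π, map_add, map_one, map_natCast]
        have h3 : (1 + (ℓ₀ : ResidueField A)) =
            ResidueField.map (algebraMap 𝒪 A) (1 + (ℓ₀ : ResidueField 𝒪)) := by simp
        rw [h3, ← map_sub, _root_.map_ne_zero, sub_ne_zero]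
        exact hne
      have h3 := h2.map (φ : A →+* 𝒪')
      rw [RingHom.coe_coe, h1] at h3
      exact not_isUnit_zero h3
    have hdiv : N * q * Q' ^ 2 ∣ N * (q * Q') ^ 2 := ⟨q, by ring⟩
    have hM' : NeZero (N * q * Q' ^ 2) :=
      ⟨fun h => NeZero.ne (N * (q * Q') ^ 2) (Nat.eq_zero_of_zero_dvd (h ▸ hdiv))⟩
    have hCdvd : C' ∣ N * q * Q' ^ 2 := by
      by_contra hcon
      have h1 := eigMS_eq_bot hf (M := N * q * Q' ^ 2) S.finite_toSet
        (fun r hr h => Finset.mem_coe.mpr (hS r hr (h.trans hdiv)))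
        (hNE.mono hdiv fun _ _ h => h) hcon
      rw [h1, Submodule.mem_bot] at hZ
      exact hZ0 hZ
    have hC2 : ¬ q ^ 2 ∣ C' := by
      intro h
      have h1 : q * q ∣ q * (N * Q' ^ 2) := by
        rw [← pow_two]
        refine (h.trans hCdvd).trans (dvd_of_eq (by ring))
      have h2 := Nat.dvd_of_mul_dvd_mul_left hq.pos h1
      rcases hq.dvd_mul.mp h2 with h3 | h3
      · exact hqN h3
      · exact hqQ' (hq.dvd_of_dvd_pow h3)
    have hNS : ∀ r : ℕ, r.Prime → r ∣ C' → r ∈ S := fun r hr h =>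
      hS r hr (h.trans hCM)
    rw [← hker, RingHom.mem_ker, map_sub, map_one, sub_eq_zero]
    refine hg 𝒪' (φ : A →+* 𝒪') hφ ?_
    have hirr := residual_absIrr_baseChange d.ρ (φ : A →+* 𝒪') hφ d.residual_absIrr
    by_cases hqC : q ∣ C'
    · exfalso
      have hst := charpoly_steinberg h35 hpO' hf hpS hNS hj htg hatt hq hqC hC2 hqp hP hσ
      have hres : ((X - C α) * (X - C β)).map (ResidueField.map (φ : A →+* 𝒪')) =
          (LinearMap.charpoly ((d.ρ.baseChangeAlong (φ : A →+* 𝒪') hφ).ρ σ)).map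
            (residue 𝒪') := by
        rw [← hchar, charpoly_residual, DefCond.charpoly_baseChangeAlong, Polynomial.map_map,
          Polynomial.map_map]
        rfl
      have hq1' : ((q : ResidueField 𝒪')) = 1 := by
        obtain ⟨m, hm⟩ := hq1
        have h1 : q = p * m + 1 := by have := hq.one_le; omega
        have h2 : (p : ResidueField 𝒪') = 0 := by
          rw [← map_natCast (residue 𝒪') p]
          exact (residue_eq_zero_iff _).mpr hpO'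
        rw [h1]
        push_cast
        rw [h2, zero_mul, zero_add]
      refine hαβ (eq_of_steinberg (ResidueField.map (φ : A →+* 𝒪')) hq1' ?_)
      rw [hres]
      rcases hst with hst | hst
      · left; rw [hst]; simp
      · right; rw [hst]; simp
    · exact Point.isUnramifiedAt h30 hpO' hf hpS hNS hj htg hatt hirr hq hqC hqp
  have h1 := smul_eq_zero_of_forall_associated (𝒪 := 𝒪) (T := A) (M := F) key ⟨z, hz⟩
  have h2 : (g - 1) • z = 0 := congrArg Subtype.val h1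
  rw [sub_smul, one_smul, sub_eq_zero, hsm] at h2
  exact h2

end main

end Fermat.Agent.RT.TWEig
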