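import Fermat.Agent.RT.TwistHNew
import Fermat.Agent.RT.PointMS

/-!
# (E1), symbol part (helper30)

A symbol `Y` of level `Γ_H` (character `ψ` mod `Q = q Q'`) which is fixed by the diamond operators
of the `q`-part gives, by twisting at the primes of `Q'` only, a symbol of level
`Γ₀(N q Q'²)` with the same twisted eigenvalues.
-/

set_option autoImplicit false

open Matrix Matrix.SpecialLinearGroup CongruenceSubgroup
open scoped MatrixGroups OnePoint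

noncomputable section

namespace Fermat.Agent.RT.TWEig

open Fermat.Agent.LR Fermat.Agent.LR.PS Fermat.Agent.RT Fermat.Agent.RT.TwistH
  Fermat.Agent.RT.Point

variable {N q Q' : ℕ} {Δ : Type*} [CommGroup Δ] {ψ : (ZMod (q * Q'))ˣ →* Δ}

/-- the `q`-part of the diamond group -/
def qPart (q Q' : ℕ) {Δ : Type*} [CommGroup Δ] (ψ : (ZMod (q * Q'))ˣ →* Δ) : Subgroup Δ :=
  (ZMod.unitsMap (dvd_mul_left Q' q)).ker.map ψ

theorem ker_le (q Q' : ℕ) {Δ : Type*} [CommGroup Δ] (ψ : (ZMod (q * Q'))ˣ →* Δ) :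
    (ZMod.unitsMap (dvd_mul_left Q' q)).ker ≤
      ((QuotientGroup.mk' (qPart q Q' ψ)).comp ψ).ker := by
  intro u hu
  rw [MonoidHom.mem_ker, MonoidHom.comp_apply, ← MonoidHom.mem_ker, QuotientGroup.ker_mk']
  exact ⟨u, hu, rfl⟩

/-- the character of the lower level -/
def psiLow (q Q' : ℕ) [NeZero (q * Q')] {Δ : Type*} [CommGroup Δ]
    (ψ : (ZMod (q * Q'))ˣ →* Δ) : (ZMod Q')ˣ →* Δ ⧸ qPart q Q' ψ :=
  MonoidHom.liftOfSurjective (ZMod.unitsMap (dvd_mul_left Q' q))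
    (ZMod.unitsMap_surjective (dvd_mul_left Q' q)) ⟨_, ker_le q Q' ψ⟩

theorem psiLow_unitsMap [NeZero (q * Q')] (u : (ZMod (q * Q'))ˣ) :
    psiLow q Q' ψ (ZMod.unitsMap (dvd_mul_left Q' q) u) = QuotientGroup.mk' _ (ψ u) :=
  MonoidHom.liftOfRightInverse_comp_apply _ _ _ _ u

theorem card_quot_dvd (_H : TwHyp N (q * Q') ψ) : Nat.card (Δ ⧸ qPart q Q' ψ) ∣ Nat.card Δ :=
  Subgroup.card_quotient_dvd_card _

theorem twHyp_low (H : TwHyp N (q * Q') ψ) [NeZero (q * Q')] :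
    TwHyp (N * q) Q' (psiLow q Q' ψ) where
  hN := mul_ne_zero H.hN fun h => H.hQ (by rw [h, zero_mul])
  cop := by
    refine Nat.Coprime.mul_left (Nat.Coprime.coprime_mul_left_right H.cop) ?_
    exact (Nat.squarefree_mul_iff.mp H.sqf).1
  sqf := (Nat.squarefree_mul_iff.mp H.sqf).2.2
  surj := by
    intro δ
    obtain ⟨δ, rfl⟩ := QuotientGroup.mk'_surjective _ δ
    obtain ⟨u, rfl⟩ := H.surj δ
    exact ⟨_, psiLow_unitsMap u⟩
  odd := by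
    obtain ⟨m, hm⟩ := card_quot_dvd H
    exact (Nat.odd_mul.mp (hm ▸ H.odd)).1

/-- **Lowering the level of a symbol fixed by the `q`-part of the diamonds.** -/
theorem exists_mem_eigMS_low (H : TwHyp N (q * Q') ψ) {Y : Pairs ℂ}
    (hY : Y ∈ MS (GammaH N (q * Q') ψ) ℂ) (hY0 : Y ≠ 0)
    (hfix : ∀ u : (ZMod (q * Q'))ˣ, ZMod.unitsMap (dvd_mul_left Q' q) u = 1 →
      D N (q * Q') ψ (ψ u) Y = Y) {S : Set ℕ}
    (hS : ∀ ℓ : ℕ, ℓ.Prime → ℓ ∣ N * (q * Q') → ℓ ∈ S) {c : ℕ → ℂ}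
    (hc : ∀ ℓ : ℕ, ℓ.Prime → ℓ ∉ S → TH N (q * Q') ψ ℓ Y = c ℓ • Y) :
    ∃ Z ∈ eigMS (N * q * Q' ^ 2) S c, Z ≠ 0 := by
  have hQ0 : NeZero (q * Q') := ⟨H.hQ⟩
  have hQ'0 : NeZero Q' := ⟨fun h => H.hQ (by rw [h, mul_zero])⟩
  have H' := twHyp_low H
  have hfix' : ∀ u : (ZMod (q * Q'))ˣ,
      psiLow q Q' ψ (ZMod.unitsMap (dvd_mul_left Q' q) u) = 1 →
      D N (q * Q') ψ (ψ u) Y = Y := by
    intro u hu
    rw [psiLow_unitsMap, ← MonoidHom.mem_ker, QuotientGroup.ker_mk'] at hu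
    obtain ⟨v, hv, hvu⟩ := hu
    rw [← hvu]
    exact hfix v hv
  have hYl : Y ∈ MS (GammaH (N * q) Q' (psiLow q Q' ψ)) ℂ := mem_lower H hY hfix'
  have hYi := hInv_of_mem hY
  have hYi' := hInv_of_mem hYl
  obtain ⟨ε, hε⟩ : ∃ ε, Tw (N * q) Q' (psiLow q Q' ψ) (D (N * q) Q' (psiLow q Q' ψ) ε Y) ≠ 0 := by
    by_contra hcon
    push Not at hcon
    exact hY0 (Tw_injective H' (nTor_of_charZero ℂ) hYi' hcon)
  refine ⟨_, ⟨Tw_mem H' (D_mem hYl ε), fun ℓ hℓ hℓS => ?_⟩, hε⟩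
  have hℓN : ¬ ℓ ∣ N * (q * Q') := fun h => hℓS (hS ℓ hℓ h)
  have hℓN' : ¬ ℓ ∣ N * q * Q' := by rwa [mul_assoc]
  have hcop : ℓ.Coprime (q * Q') :=
    (Nat.Prime.coprime_iff_not_dvd hℓ).mpr fun h => hℓN (h.mul_left N)
  rw [heckeT_Tw H' hℓ hℓN' (hYi'.D ε), ← D_TH H' hℓ hℓN' hYi',
    ← TH_lower H H' (card_quot_dvd H) hYi hYi' hcop, hc ℓ hℓ hℓS, map_smul, map_smul]

end Fermat.Agent.RT.TWEig
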