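import Fermat.Agent.RT.TwistHNew
import Fermat.Agent.RT.PointMS
import Mathlib.Analysis.Fourier.FiniteAbelian.PontryaginDuality

/-!
# (E2), symbol part (helper30)

* `ech χ` : the projection (up to a scalar) of symbols of level `Γ_H` to the `χ`-part, `χ : Δ → ℂ`;
* `eq_zero_of_new` : a symbol of level `Γ_H` in the eigenspace of a newform of level dividing
  `N q Q'²`, killed by `∑_{j<p} [δ₀^j]` (`δ₀` in the `q`-part), vanishes.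
-/

set_option autoImplicit false

open Matrix Matrix.SpecialLinearGroup CongruenceSubgroup
open scoped MatrixGroups OnePoint

noncomputable section

namespace Fermat.Agent.RT.TWEig

open Fermat.Agent.LR Fermat.Agent.LR.PS Fermat.Agent.RT Fermat.Agent.RT.TwistH
  Fermat.Agent.RT.Point Fermat.Agent.Newform

section ech

variable {N Q : ℕ} {Δ : Type*} [CommGroup Δ] [Fintype Δ] {ψ : (ZMod Q)ˣ →* Δ}

/-- `∑ χ(δ⁻¹) [δ]` -/
def ech (N Q : ℕ) {Δ : Type*} [CommGroup Δ] [Fintype Δ] (ψ : (ZMod Q)ˣ →* Δ) (χ : Δ →* ℂ) :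
    Pairs ℂ →ₗ[ℂ] Pairs ℂ := ∑ δ : Δ, χ δ⁻¹ • D N Q ψ δ

theorem ech_apply (χ : Δ →* ℂ) (x : Pairs ℂ) :
    ech N Q ψ χ x = ∑ δ : Δ, χ δ⁻¹ • D N Q ψ δ x := by
  simp [ech]

theorem ech_D (H : TwHyp N Q ψ) {x : Pairs ℂ} (hx : HInv N Q ψ x) (χ : Δ →* ℂ) (τ : Δ) :
    ech N Q ψ χ (D N Q ψ τ x) = χ τ • ech N Q ψ χ x := by
  rw [ech_apply, ech_apply, Finset.smul_sum, ← Equiv.sum_comp (Equiv.mulRight τ)
    (fun δ => χ τ • χ δ⁻¹ • D N Q ψ δ x)]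
  refine Finset.sum_congr rfl fun δ _ => ?_
  rw [Equiv.coe_mulRight, hx.D_D H, smul_smul]
  congr 1
  rw [← map_mul]
  congr 1
  group

theorem D_ech (H : TwHyp N Q ψ) {x : Pairs ℂ} (hx : HInv N Q ψ x) (χ : Δ →* ℂ) (τ : Δ) :
    D N Q ψ τ (ech N Q ψ χ x) = χ τ • ech N Q ψ χ x := by
  rw [← ech_D H hx, ech_apply, ech_apply, map_sum]
  refine Finset.sum_congr rfl fun δ _ => ?_
  rw [map_smul, hx.D_D H, hx.D_D H, mul_comm]

theorem ech_mem {x : Pairs ℂ} (hx : x ∈ MS (GammaH N Q ψ) ℂ) (χ : Δ →* ℂ) :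
    ech N Q ψ χ x ∈ MS (GammaH N Q ψ) ℂ := by
  rw [ech_apply]
  exact Submodule.sum_mem _ fun δ _ => Submodule.smul_mem _ _ (D_mem hx δ)

theorem TH_ech (H : TwHyp N Q ψ) {x : Pairs ℂ} (hx : HInv N Q ψ x) (χ : Δ →* ℂ) {ℓ : ℕ}
    (hℓ : ℓ.Prime) (hℓN : ¬ ℓ ∣ N * Q) :
    TH N Q ψ ℓ (ech N Q ψ χ x) = ech N Q ψ χ (TH N Q ψ ℓ x) := by
  rw [ech_apply, ech_apply, map_sum]
  exact Finset.sum_congr rfl fun δ _ => by rw [map_smul, D_TH H hℓ hℓN hx]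

/-- a character of `Δ` from an additive character -/
def chiOf (a : AddChar (Additive Δ) ℂ) : Δ →* ℂ where
  toFun δ := a (Additive.ofMul δ)
  map_one' := a.map_zero_eq_one
  map_mul' _ _ := a.map_add_eq_mul _ _

theorem exists_ech_ne_zero (H : TwHyp N Q ψ) {x : Pairs ℂ} (hx : HInv N Q ψ x) (hx0 : x ≠ 0) :
    ∃ χ : Δ →* ℂ, ech N Q ψ χ x ≠ 0 := by
  classical
  by_contra hcon
  push Not at hcon
  have h1 : ∑ a : AddChar (Additive Δ) ℂ, ech N Q ψ (chiOf a) x = 0 :=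
    Finset.sum_eq_zero fun a _ => hcon _
  simp only [ech_apply] at h1
  rw [Finset.sum_comm] at h1
  have h2 : ∀ δ : Δ, ∑ a : AddChar (Additive Δ) ℂ, (chiOf a) δ⁻¹ • D N Q ψ δ x =
      if δ = 1 then (Fintype.card Δ : ℂ) • x else 0 := by
    intro δ
    rw [← Finset.sum_smul]
    have h3 : ∑ a : AddChar (Additive Δ) ℂ, (chiOf a) δ⁻¹ =
        ∑ a : AddChar (Additive Δ) ℂ, a (Additive.ofMul δ⁻¹) := rfl
    rw [h3, AddChar.sum_apply_eq_ite]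
    by_cases hδ : δ = 1
    · subst hδ
      rw [if_pos (by simp), if_pos rfl, hx.D_one H]
      congr 1
      exact congrArg Nat.cast (Fintype.card_congr Additive.toMul)
    · rw [if_neg, if_neg hδ, zero_smul]
      intro h
      apply hδ
      have h4 : δ⁻¹ = 1 := h
      exact inv_eq_one.mp h4
  rw [Finset.sum_congr rfl fun δ _ => h2 δ, Finset.sum_ite_eq' Finset.univ (1 : Δ),
    if_pos (Finset.mem_univ _)] at h1
  rcases smul_eq_zero.mp h1 with h | h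
  · exact Fintype.card_ne_zero (Nat.cast_eq_zero.mp h)
  · exact hx0 h

end ech

variable {N Q q Q' : ℕ} {Δ : Type*} [CommGroup Δ] {ψ : (ZMod Q)ˣ →* Δ}

/-- **(E2), symbol part.** -/
theorem eq_zero_of_new (H : TwHyp N Q ψ) (hq : q.Prime) (hQ : Q = q * Q') (hQ' : Q' ∣ Q)
    {C : ℕ} [NeZero C] {f : CuspForm (Gamma0 C) 2} (hf : f.IsNewform)
    (hC : C ∣ N * Q' ^ 2 * q) {S : Set ℕ} (hSfin : S.Finite)
    (hS : ∀ ℓ : ℕ, ℓ.Prime → ℓ ∣ N * Q ^ 2 → ℓ ∈ S)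
    (hNE : NonEis (N * Q ^ 2) S (ModularFormClass.qCoeff ⇑f)) {y : Pairs ℂ}
    (hy : y ∈ MS (GammaH N Q ψ) ℂ)
    (hTH : ∀ ℓ : ℕ, ℓ.Prime → ℓ ∉ S → TH N Q ψ ℓ y = ModularFormClass.qCoeff ⇑f ℓ • y)
    {u₀ : (ZMod Q)ˣ} (hu₀ : ZMod.unitsMap hQ' u₀ = 1) {m : ℕ} (hm : m ≠ 0)
    (hsum : ∑ j ∈ Finset.range m, D N Q ψ (ψ u₀ ^ j) y = 0) : y = 0 := by
  classical
  by_contra hy0
  have hcard0 : Nat.card Δ ≠ 0 := fun h => by
    have := H.odd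
    rw [h] at this
    exact absurd this (by decide)
  have hfinΔ : Finite Δ := Nat.finite_of_card_ne_zero hcard0
  let _ : Fintype Δ := Fintype.ofFinite Δ
  have hyi := hInv_of_mem hy
  have hQ0 : NeZero Q := ⟨H.hQ⟩
  have hNQ : NeZero (N * Q ^ 2) := ⟨mul_ne_zero H.hN (pow_ne_zero 2 H.hQ)⟩
  obtain ⟨χ, hχ0⟩ := exists_ech_ne_zero H hyi hy0
  set x := ech N Q ψ χ y with hx
  have hxm : x ∈ MS (GammaH N Q ψ) ℂ := ech_mem hy χ
  have hxi := hInv_of_mem hxm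
  have hχ1 : χ (ψ u₀) ≠ 1 := by
    intro h1
    have h2 : ech N Q ψ χ (∑ j ∈ Finset.range m, D N Q ψ (ψ u₀ ^ j) y) = 0 := by
      rw [hsum, map_zero]
    rw [map_sum] at h2
    have h3 : ∀ j ∈ Finset.range m, ech N Q ψ χ (D N Q ψ (ψ u₀ ^ j) y) = x := by
      intro j _
      rw [ech_D H hyi, map_pow, h1, one_pow, one_smul]
    rw [Finset.sum_congr rfl h3, Finset.sum_const, Finset.card_range] at h2
    have h4 : (m : ℂ) • x = 0 := by rw [Nat.cast_smul_eq_nsmul]; exact h2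
    rcases smul_eq_zero.mp h4 with h | h
    · exact hm (Nat.cast_eq_zero.mp h)
    · exact hχ0 h
  -- the twist
  have hTx : ∀ ℓ : ℕ, ℓ.Prime → ℓ ∉ S → TH N Q ψ ℓ x = ModularFormClass.qCoeff ⇑f ℓ • x := by
    intro ℓ hℓ hℓS
    have hℓN : ¬ ℓ ∣ N * Q := fun h => hℓS (hS ℓ hℓ (h.trans ⟨Q, by ring⟩))
    rw [hx, TH_ech H hyi χ hℓ hℓN, hTH ℓ hℓ hℓS, map_smul]
  have hw : Tw N Q ψ x ∈ eigMS (N * Q ^ 2) S (ModularFormClass.qCoeff ⇑f) := by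
    refine ⟨Tw_mem H hxm, fun ℓ hℓ hℓS => ?_⟩
    have hℓN : ¬ ℓ ∣ N * Q := fun h => hℓS (hS ℓ hℓ (h.trans ⟨Q, by ring⟩))
    rw [heckeT_Tw H hℓ hℓN hxi, hTx ℓ hℓ hℓS, map_smul]
  have hdivq : q ∣ N * Q ^ 2 := by rw [hQ]; exact ⟨N * Q' ^ 2 * q, by ring⟩
  have hdiv : N * Q ^ 2 / q = N * Q' ^ 2 * q := by
    rw [hQ, Nat.div_eq_iff_eq_mul_left hq.pos ⟨N * Q' ^ 2 * q, by ring⟩]
    ring
  obtain ⟨z0, hz0, z1, hz1, hz⟩ := exists_of_mem_eigMS hf hSfin hS hNE hq hdivq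
    (by rw [hdiv]; exact hC) hw
  rw [hdiv] at hz0 hz1
  refine hχ0 (eq_zero_of_Tw_old H hq hQ hQ' hxi χ (fun δ => D_ech H hyi χ δ) ⟨u₀, ?_, hχ1⟩
    (fun γ hγ => hz0.1.2 γ hγ) (TInv_of_mem hz1.1) hz)
  have h5 := congrArg Units.val hu₀
  rwa [ZMod.unitsMap_val] at h5

end Fermat.Agent.RT.TWEig
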