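import Fermat.Agent.RT.TWEig1M
import Fermat.Agent.RT.TWEig2A

/-!
# (E2): ramified at a Taylor–Wiles prime on the non-trivial part of the diamonds (helper30)

`heckeLocal (N Q²) S 𝒪 θ` acts on a module `V` of symbols of level `Γ_H`; if `δ₀` is in the
`q`-part of the diamond group, then a vector killed by `∑_{j<m} [δ₀^j]` and fixed by `g` is zero,
where `g ∈ heckeLocal` is such that a point with `g ↦ 1` is unramified at `q` (uses S36).
-/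

set_option autoImplicit false
set_option linter.unusedSectionVars false

open Matrix Matrix.SpecialLinearGroup CongruenceSubgroup IsLocalRing Polynomial
open scoped MatrixGroups OnePoint

noncomputable section

namespace Fermat.Agent.RT.TWEig

open Fermat.Agent.LR Fermat.Agent.LR.PS Fermat.Agent.RT Fermat.Agent.RT.TwistH
  Fermat.Agent.RT.Point Fermat.Agent.RT.ExtPairs Fermat.Agent.RT.MSHecke
  Fermat.Agent.CMP.S58Assembly Fermat.Agent.DR.SC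

local notation "Qbar" => AlgebraicClosure ℚ
local notation "Γℚ" => (AlgebraicClosure ℚ ≃ₐ[ℚ] AlgebraicClosure ℚ)

section main

variable {p : ℕ} [hp : Fact p.Prime] {𝒪 : Type} [CommRing 𝒪] [IsDomain 𝒪]
  [IsDiscreteValuationRing 𝒪] [IsAdicComplete (maximalIdeal 𝒪) 𝒪] [Finite (ResidueField 𝒪)]
  [CharZero 𝒪]

theorem unipotent_of_unramified {A : Type} [CommRing A] [IsLocalRing A] {ρ : GaloisRepAdic A}
    {q : ℕ} (h : ρ.IsUnramifiedAt q) : ρ.IsUnipotentOnInertiaAt q := by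
  intro P hP σ hσ
  rw [h P hP σ hσ, LinearMap.charpoly_one, ρ.finrank_eq]

/-- **(E2).** -/
theorem eig_two (h36 : S36Prop) (hp2 : p ≠ 2)
    (hpO : (p : 𝒪) ∈ maximalIdeal 𝒪) {N Q q Q' : ℕ} (hQ : Q = q * Q') (hQ' : Q' ∣ Q)
    (hq : q.Prime) (hqp : q ≠ p) {Δ : Type*} [CommGroup Δ]
    {ψ : (ZMod Q)ˣ →* Δ} (H : TwHyp N Q ψ) [NeZero (N * Q ^ 2)]
    [Fact (CuspForm.HasIntegralStructure (N * Q ^ 2) 2)] {S : Finset ℕ} (hpS : p ∈ S)
    (hS : ∀ ℓ : ℕ, ℓ.Prime → ℓ ∣ N * Q ^ 2 → ℓ ∈ S)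
    {θ : CuspForm.heckeAlgebra (N * Q ^ 2) 2 (↑S : Set ℕ) →+* ResidueField 𝒪}
    (d : CuspForm.HeckeGaloisRepDatum (N * Q ^ 2) (↑S : Set ℕ) 𝒪 θ
      (CuspForm.heckeLocal (N * Q ^ 2) (↑S : Set ℕ) 𝒪 θ))
    (hd : d.π = CuspForm.heckeLocal.π (N * Q ^ 2) (↑S : Set ℕ) 𝒪 θ)
    {V : Submodule 𝒪 (Pairs 𝒪)} (hV : V ≤ MS (GammaH N Q ψ) 𝒪)
    (Φ : CuspForm.heckeLocal (N * Q ^ 2) (↑S : Set ℕ) 𝒪 θ →ₐ[𝒪] Module.End 𝒪 V)
    (hΦ : ∀ (ℓ : ℕ) (hℓ : ℓ.Prime) (hℓN : ¬ ℓ ∣ N * Q ^ 2) (hℓS : ℓ ∉ (↑S : Set ℕ)) (x : V),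
      (Φ (CuspForm.heckeLocal.π (N * Q ^ 2) (↑S : Set ℕ) 𝒪 θ
        (CuspForm.heckeAlgebra.T hℓ hℓN hℓS)) x : Pairs 𝒪) = TH N Q ψ ℓ x)
    {ℓ₀ : ℕ} (hℓ₀ : ℓ₀.Prime) (hℓ₀N : ¬ ℓ₀ ∣ N * Q ^ 2) (hℓ₀S : ℓ₀ ∉ (↑S : Set ℕ))
    (hℓ₀1 : ((ℓ₀ : ℕ) : ZMod (N * Q ^ 2)) = 1)
    (hE : θ (CuspForm.heckeAlgebra.T hℓ₀ hℓ₀N hℓ₀S) ≠ 1 + (ℓ₀ : ResidueField 𝒪))
    {g : CuspForm.heckeLocal (N * Q ^ 2) (↑S : Set ℕ) 𝒪 θ}
    (hg : ∀ (𝒪' : Type) [CommRing 𝒪'] [IsDomain 𝒪'] [IsLocalRing 𝒪']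
      (f : CuspForm.heckeLocal (N * Q ^ 2) (↑S : Set ℕ) 𝒪 θ →+* 𝒪') (hf : IsLocalHom f),
      f g = 1 → (d.ρ.baseChangeAlong f hf).IsUnramifiedAt q)
    {u₀ : (ZMod Q)ˣ} (hu₀ : ZMod.unitsMap hQ' u₀ = 1) {m : ℕ} (hm : m ≠ 0)
    {z : V} (hz : ∑ j ∈ Finset.range m, D N Q ψ (ψ u₀ ^ j) (z : Pairs 𝒪) = 0)
    (hgz : Φ g z = z) : z = 0 := by
  let A := CuspForm.heckeLocal (N * Q ^ 2) (↑S : Set ℕ) 𝒪 θ
  have hSN : ∀ ℓ : ℕ, ℓ.Prime → ℓ ∣ N * Q → ℓ ∈ (↑S : Set ℕ) := fun ℓ hℓ h =>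
    Finset.mem_coe.mpr (hS ℓ hℓ (h.trans ⟨Q, by ring⟩))
  have hqN : ¬ q ∣ N := fun h => by
    have h1 := Nat.Coprime.eq_one_of_dvd (Nat.Coprime.coprime_dvd_left h H.cop)
      (by rw [hQ]; exact Dvd.intro _ rfl)
    exact hq.one_lt.ne' h1
  have hqQ' : ¬ q ∣ Q' := fun h => by
    have h1 := H.sqf
    rw [hQ] at h1
    exact hq.one_lt.ne' (Nat.Coprime.eq_one_of_dvd (Nat.squarefree_mul_iff.mp h1).1 h)
  -- the module structure on `V`
  let _ : Module A V := Module.compHom V (Φ : A →+* Module.End 𝒪 V)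
  have hsm : ∀ (a : A) (x : V), a • x = Φ a x := fun _ _ => rfl
  have hst : IsScalarTower 𝒪 A V := ⟨fun c a x => by
    rw [hsm, hsm, map_smul, LinearMap.smul_apply]⟩
  have hVinv : ∀ x : V, HInv N Q ψ (x : Pairs 𝒪) := fun x => hInv_of_mem (hV x.2)
  let sop : Pairs 𝒪 →ₗ[𝒪] Pairs 𝒪 := ∑ j ∈ Finset.range m, D N Q ψ (ψ u₀ ^ j)
  have hsop : ∀ x, sop x = ∑ j ∈ Finset.range m, D N Q ψ (ψ u₀ ^ j) x := fun x => by
    simp [sop]
  let F₀ : Submodule 𝒪 V :=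
    { carrier := {x | sop (x : Pairs 𝒪) = 0}
      add_mem' := fun {x y} hx hy => by
        show sop ((x : Pairs 𝒪) + y) = 0
        rw [map_add, hx, hy, add_zero]
      zero_mem' := map_zero sop
      smul_mem' := fun c x hx => by
        show sop (c • (x : Pairs 𝒪)) = 0
        rw [map_smul, hx, smul_zero] }
  let B : Subalgebra 𝒪 A :=
    { carrier := {a | ∀ x ∈ F₀, a • x ∈ F₀}
      add_mem' := fun {a b} ha hb x hx => by
        rw [add_smul]; exact F₀.add_mem (ha x hx) (hb x hx)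
      mul_mem' := fun {a b} ha hb x hx => by rw [mul_smul]; exact ha _ (hb x hx)
      algebraMap_mem' := fun c x hx => by rw [algebraMap_smul]; exact F₀.smul_mem c hx }
  have hB : B = ⊤ := by
    refine eq_top_of_T_mem _ _ 𝒪 θ (fun ℓ hℓ h => Finset.mem_coe.mpr (hS ℓ hℓ h)) B ?_
    intro ℓ hℓ hℓM hℓS x hx
    have hℓN : ¬ ℓ ∣ N * Q := fun h => hℓS (hSN ℓ hℓ h)
    show sop _ = 0
    have hx' : ∑ j ∈ Finset.range m, D N Q ψ (ψ u₀ ^ j) (x : Pairs 𝒪) = 0 := by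
      rw [← hsop]; exact hx
    rw [hsm, hΦ, hsop, Finset.sum_congr rfl fun j _ => D_TH H hℓ hℓN (hVinv x) (ψ u₀ ^ j),
      ← map_sum, hx', map_zero]
  let F : Submodule A V :=
    { carrier := {x | x ∈ F₀ ∧ g • x = x}
      add_mem' := fun {x y} hx hy => ⟨F₀.add_mem hx.1 hy.1, by rw [smul_add, hx.2, hy.2]⟩
      zero_mem' := ⟨F₀.zero_mem, smul_zero _⟩
      smul_mem' := fun a x hx => by
        have ha : a ∈ B := by rw [hB]; exact Algebra.mem_top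
        exact ⟨ha x hx.1, by rw [smul_comm, hx.2]⟩ }
  have hFg : ∀ x : F, (g - 1 : A) • x = 0 := fun x => by
    have h1 : g • (x : V) = x := x.2.2
    have h2 : (g - 1 : A) • (x : V) = 0 := by
      rw [sub_smul, one_smul, sub_eq_zero]
      exact h1
    exact Subtype.ext h2
  by_contra hz0
  have hzF : z ∈ F := ⟨by show sop _ = 0; rw [hsop]; exact hz, hgz⟩
  have hz0' : (⟨z, hzF⟩ : F) ≠ 0 := fun h => hz0 (congrArg Subtype.val h)
  obtain ⟨P', hP', -⟩ := exists_le_isAssociatedPrime_of_isNoetherianRing A (M := F) ⟨z, hzF⟩ hz0'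
  have hP'' : P' ∈ associatedPrimes A F := hP'
  have hgP : g - 1 ∈ P' := by
    obtain ⟨-, x, hx⟩ := isAssociatedPrime_iff.mp hP'
    rw [hx, Submodule.mem_colon_singleton, Submodule.mem_bot]
    exact hFg x
  have htfV : Module.IsTorsionFree 𝒪 V := inferInstance
  have htfF : Module.IsTorsionFree 𝒪 F := by
    refine ⟨fun r hr x y hxy => ?_⟩
    have h1 := congrArg (fun w : F => (w : V)) hxy
    exact Subtype.ext (htfV.isSMulRegular hr h1)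
  have hP'p : P'.IsPrime := hP''.1
  have hcomap : P'.comap (algebraMap 𝒪 A) = ⊥ :=
    comap_eq_bot_of_associated (𝒪 := 𝒪) (T := A) (M := F) hP''
  obtain ⟨𝒪', i1, i2, i3, i4, i5, i6, i7, i8, i9, i10, hinj, φ, hker⟩ :=
    Components.exists_dvr_of_isPrime 𝒪 A P' hcomap
  have hφ : IsLocalHom (φ : A →+* 𝒪') := isLocalHom_of_finite φ
  have hpO' : (p : 𝒪') ∈ maximalIdeal 𝒪' := by
    have h1 := map_nonunit (algebraMap 𝒪 𝒪') (p : 𝒪) hpO
    rwa [map_natCast] at h1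
  obtain ⟨j, hj⟩ := exists_embedding_complex 𝒪'
  let _ : Algebra 𝒪 ℂ := (j.comp (algebraMap 𝒪 𝒪')).toAlgebra
  have hfs : FaithfulSMul 𝒪 ℂ :=
    (faithfulSMul_iff_algebraMap_injective 𝒪 ℂ).mpr (hj.comp hinj)
  let χ : A →ₐ[𝒪] ℂ :=
    { j.comp (φ : A →+* 𝒪') with
      commutes' := fun c => congrArg j (φ.commutes c) }
  have hχ : ∀ a, χ a = j (φ a) := fun _ => rfl
  have hkerχ : RingHom.ker (χ : A →+* ℂ) = P' := by
    rw [← hker]
    ext a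
    exact map_eq_zero_iff j hj
  let ι : F →ₗ[𝒪] Pairs 𝒪 := V.subtype ∘ₗ (F.subtype.restrictScalars 𝒪)
  have hι : Function.Injective ι := fun x y hxy => Subtype.ext (Subtype.ext hxy)
  obtain ⟨Y, hY0, hYmem, hYeig⟩ :=
    exists_eigenPairs (K := ℂ) (T := A) (Y := F) ι hι χ (by rw [hkerχ]; exact hP'')
  have hYMS : Y ∈ MS (GammaH N Q ψ) ℂ := hYmem _ fun y => mapCoeff_mem _ (hV y.1.2)
  have hYsum : ∑ j ∈ Finset.range m, D N Q ψ (ψ u₀ ^ j) Y = 0 := by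
    have h1 := hYmem (LinearMap.ker (∑ j ∈ Finset.range m, D N Q ψ (ψ u₀ ^ j))) (fun y => by
      rw [LinearMap.mem_ker, LinearMap.sum_apply]
      have h2 : sop ((y : V) : Pairs 𝒪) = 0 := y.2.1
      rw [hsop] at h2
      have h3 := congrArg (mapCoeff (algebraMap 𝒪 ℂ)) h2
      rw [map_sum, map_zero] at h3
      exact h3)
    rwa [LinearMap.mem_ker, LinearMap.sum_apply] at h1
  obtain ⟨t, hatt, ht⟩ := point_facts hS d φ hφ
  obtain ⟨C', hC0, f, hCM, hf, hfa⟩ := Point.exists_newform j ((φ : A →+* 𝒪').comp d.π)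
  have htg : ∀ ℓ : ℕ, ℓ.Prime → ℓ ∉ S → ModularFormClass.qCoeff ⇑f ℓ = j (t ℓ) := by
    intro ℓ hℓ hℓS
    have hℓM : ¬ ℓ ∣ N * Q ^ 2 := fun h => hℓS (hS ℓ hℓ h)
    have hℓS' : ℓ ∉ (↑S : Set ℕ) := fun h => hℓS (Finset.mem_coe.mp h)
    rw [hfa ℓ hℓ hℓM hℓS', ht ℓ hℓ hℓM hℓS']
    rfl
  have hYTH : ∀ ℓ : ℕ, ℓ.Prime → ℓ ∉ (↑S : Set ℕ) →
      TH N Q ψ ℓ Y = ModularFormClass.qCoeff ⇑f ℓ • Y := by
    intro ℓ hℓ hℓS
    have hℓM : ¬ ℓ ∣ N * Q ^ 2 := fun h => hℓS (Finset.mem_coe.mpr (hS ℓ hℓ h))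
    rw [hYeig (d.π (CuspForm.heckeAlgebra.T hℓ hℓM hℓS)) (TH N Q ψ ℓ) (fun y => by
      rw [← mapCoeff_TH]
      refine congrArg _ ?_
      rw [hd]
      exact hΦ ℓ hℓ hℓM hℓS y.1), hχ, hfa ℓ hℓ hℓM hℓS]
    rfl
  -- non-Eisenstein
  have hNE : NonEis (N * Q ^ 2) (↑S : Set ℕ) (ModularFormClass.qCoeff ⇑f) := by
    refine ⟨ℓ₀, hℓ₀, hℓ₀S, hℓ₀1, fun h => hE ?_⟩
    rw [hfa ℓ₀ hℓ₀ hℓ₀N hℓ₀S] at h
    have h1 : φ (d.π (CuspForm.heckeAlgebra.T hℓ₀ hℓ₀N hℓ₀S) - (1 + (ℓ₀ : A))) = 0 := by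
      apply hj
      rw [map_sub, map_sub, map_zero, map_add, map_one, map_natCast, map_add, map_one,
        map_natCast, add_comm (1 : ℂ), sub_eq_zero]
      exact h
    by_contra hne
    have h2 : IsUnit (d.π (CuspForm.heckeAlgebra.T hℓ₀ hℓ₀N hℓ₀S) - (1 + (ℓ₀ : A))) := by
      rw [← residue_ne_zero_iff_isUnit, map_sub, d.residue_π, map_add, map_one, map_natCast]
      have h3 : (1 + (ℓ₀ : ResidueField A)) =
          ResidueField.map (algebraMap 𝒪 A) (1 + (ℓ₀ : ResidueField 𝒪)) := by simp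
      rw [h3, ← map_sub, _root_.map_ne_zero, sub_ne_zero]
      exact hne
    have h3 := h2.map (φ : A →+* 𝒪')
    rw [RingHom.coe_coe, h1] at h3
    exact not_isUnit_zero h3
  have hNS : ∀ r : ℕ, r.Prime → r ∣ C' → r ∈ S := fun r hr h => hS r hr (h.trans hCM)
  have hirr := residual_absIrr_baseChange d.ρ (φ : A →+* 𝒪') hφ d.residual_absIrr
  -- unramified at `q`
  have hφg : φ g = 1 := by
    rw [← hker, RingHom.mem_ker, map_sub, map_one, sub_eq_zero] at hgP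
    exact hgP
  have hunr := hg 𝒪' (φ : A →+* 𝒪') hφ hφg
  have hfac : C'.factorization q ≠ 2 := fun h =>
    not_unipotent h36 hpO' hp2 hf hpS hNS hj htg hatt hirr hq hqp h
      (unipotent_of_unramified hunr)
  -- the conductor
  have hMfac : (N * Q ^ 2).factorization q = 2 := by
    rw [hQ, mul_pow, Nat.factorization_mul H.hN, Nat.factorization_mul]
    · simp only [Finsupp.add_apply]
      rw [Nat.factorization_eq_zero_of_not_dvd hqN, Nat.factorization_pow, Nat.factorization_pow,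
        Finsupp.smul_apply, Finsupp.smul_apply, Nat.factorization_eq_zero_of_not_dvd hqQ',
        Nat.Prime.factorization_self hq]
      simp
    · exact pow_ne_zero 2 hq.ne_zero
    · exact pow_ne_zero 2 fun h => H.hQ (by rw [hQ, h, mul_zero])
    · rw [← mul_pow, ← hQ]; exact pow_ne_zero 2 H.hQ
  have hMne : N * Q ^ 2 ≠ 0 := NeZero.ne _
  have hCle : C'.factorization q ≤ 1 := by
    have h1 := (Nat.factorization_le_iff_dvd (NeZero.ne C') hMne).mpr hCM q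
    rw [hMfac] at h1
    omega
  have hdivq : q ∣ N * Q ^ 2 := by rw [hQ]; exact ⟨N * Q' ^ 2 * q, by ring⟩
  have hdiv : N * Q ^ 2 / q = N * Q' ^ 2 * q := by
    rw [hQ, Nat.div_eq_iff_eq_mul_left hq.pos ⟨N * Q' ^ 2 * q, by ring⟩]
    ring
  have hC : C' ∣ N * Q' ^ 2 * q := by
    have hne : N * Q' ^ 2 * q ≠ 0 := by
      rw [← hdiv]
      exact (Nat.div_pos (Nat.le_of_dvd (Nat.pos_of_ne_zero hMne) hdivq) hq.pos).ne'
    rw [← Nat.factorization_le_iff_dvd (NeZero.ne C') hne]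
    intro r
    by_cases hr : r = q
    · subst hr
      refine hCle.trans ?_
      exact (hq.dvd_iff_one_le_factorization hne).mp (dvd_mul_left _ _)
    · have h1 := (Nat.factorization_le_iff_dvd (NeZero.ne C') hMne).mpr hCM r
      have h2 : N * Q ^ 2 = N * Q' ^ 2 * q * q := by rw [hQ]; ring
      rw [h2, Nat.factorization_mul hne hq.ne_zero, Finsupp.add_apply] at h1
      have h3 : q.factorization r = 0 := by
        rw [hq.factorization, Finsupp.single_apply, if_neg (Ne.symm hr)]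
      rwa [h3, add_zero] at h1
  exact hY0 (eq_zero_of_new H hq hQ hQ' hf hC S.finite_toSet
    (fun ℓ hℓ h => Finset.mem_coe.mpr (hS ℓ hℓ h)) hNE hYMS hYTH hu₀ hm hYsum)

end main

end Fermat.Agent.RT.TWEig
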