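import Fermat.Agent.RT.TWEig2

/-!
# (E2) for the Taylor–Wiles module `M'` (helper30)
-/

set_option autoImplicit false
set_option linter.unusedSectionVars false

open Matrix Matrix.SpecialLinearGroup CongruenceSubgroup IsLocalRing Polynomial
open scoped MatrixGroups OnePoint

noncomputable section

namespace Fermat.Agent.RT.TWS

open Fermat.Agent.LR Fermat.Agent.LR.PS Fermat.Agent.RT Fermat.Agent.RT.TwistH
  Fermat.Agent.RT.GroupAlg Fermat.Agent.RT.Dict Fermat.Agent.RT.Loc Fermat.Agent.RT.GR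
  Fermat.Agent.RT.MSHecke Fermat.Agent.CMP.S58Assembly

namespace TWP

variable {p N r : ℕ} {W : TWP p N r} [hp : Fact p.Prime]

/-- A unit `≡ 1` modulo the other primes with `ψ(u) = ` the `i`-th generator. -/
theorem exists_unit_gen (i : Fin r) : ∃ u : (ZMod W.Q)ˣ, ZMod.unitsMap (Qe_dvd i) u = 1 ∧
    W.ψ u = gen (fun i => p ^ W.a i) i := by
  classical
  obtain ⟨v₀, hv₀⟩ := psiAt_surjective (W.prime i) (W.ha i) (Multiplicative.ofAdd 1)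
  obtain ⟨u, hu⟩ := W.exists_unit (Function.update (fun _ => 1) i v₀)
  refine ⟨u, ?_, ?_⟩
  · apply Units.ext
    rw [ZMod.unitsMap_val, Units.val_one]
    have hQ0 : NeZero W.Q := ⟨W.Q_ne_zero⟩
    set a : ℕ := (u : ZMod W.Q).val with ha
    have hau : ((a : ℕ) : ZMod W.Q) = u := ZMod.natCast_zmod_val _
    have h1 : ∀ j ∈ Finset.univ.erase i, ((W.q j : ℕ) : ℤ) ∣ (a : ℤ) - 1 := by
      intro j hj
      have hji : j ≠ i := (Finset.mem_erase.mp hj).1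
      have h2 := congrArg Units.val (hu j)
      rw [Function.update_of_ne hji, ZMod.unitsMap_val, Units.val_one, ← hau] at h2
      have h3 : (((a : ℤ) - 1 : ℤ) : ZMod (W.q j)) = 0 := by
        push_cast
        rw [ZMod.cast_natCast (W.dvd_Q j)] at h2
        rw [h2, sub_self]
      exact (ZMod.intCast_zmod_eq_zero_iff_dvd _ _).mp h3
    have h4 : ((Qe W i : ℕ) : ℤ) ∣ (a : ℤ) - 1 := by
      rw [Qe, Nat.cast_prod]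
      refine Finset.prod_dvd_of_coprime (fun j _ k _ hjk => ?_) h1
      exact Nat.isCoprime_iff_coprime.mpr (W.coprime_pair hjk)
    have h5 := (ZMod.intCast_zmod_eq_zero_iff_dvd _ _).mpr h4
    push_cast at h5
    rw [← hau, ZMod.cast_natCast (Qe_dvd i)]
    exact sub_eq_zero.mp h5
  · funext j
    rw [ψ_apply, hu]
    by_cases hj : j = i
    · subst hj
      rw [Function.update_self, hv₀, GroupAlg.gen, Pi.mulSingle_eq_same]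
    · rw [Function.update_of_ne hj, map_one, GroupAlg.gen, Pi.mulSingle_eq_of_ne hj]

variable {𝒪 : Type} [CommRing 𝒪] [IsDomain 𝒪] [IsDiscreteValuationRing 𝒪]
  [IsAdicComplete (maximalIdeal 𝒪) 𝒪] [Finite (ResidueField 𝒪)] [CharZero 𝒪]
variable {ε : ℤ} {t α : ℕ → 𝒪} {S I : Set ℕ} {SQ : Finset ℕ}

/-- **(E2) on `M'`.** -/
theorem eig_two (h36 : S36Prop) (hpO : (p : 𝒪) ∈ maximalIdeal 𝒪)
    (hG : W.Good S I) (hSQ : IsSQ W S (↑SQ : Set ℕ)) (hpS : p ∈ SQ) [NeZero (N * W.Q ^ 2)]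
    [Fact (CuspForm.HasIntegralStructure (N * W.Q ^ 2) 2)]
    {θ : CuspForm.heckeAlgebra (N * W.Q ^ 2) 2 (↑SQ : Set ℕ) →+* ResidueField 𝒪}
    (hθ : ∀ (ℓ : ℕ) (hℓ : ℓ.Prime) (hℓN : ¬ ℓ ∣ N * W.Q ^ 2) (hℓS : ℓ ∉ (↑SQ : Set ℕ)),
      residue 𝒪 (t ℓ) = θ (CuspForm.heckeAlgebra.T hℓ hℓN hℓS))
    (hE : ∃ ℓ₀ : ℕ, ℓ₀.Prime ∧ ℓ₀ ∉ (↑SQ : Set ℕ) ∧ ((ℓ₀ : ℕ) : ZMod (N * W.Q ^ 2)) = 1 ∧
      residue 𝒪 (t ℓ₀) ≠ 1 + (ℓ₀ : ResidueField 𝒪))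
    (d : CuspForm.HeckeGaloisRepDatum (N * W.Q ^ 2) (↑SQ : Set ℕ) 𝒪 θ
      (CuspForm.heckeLocal (N * W.Q ^ 2) (↑SQ : Set ℕ) 𝒪 θ))
    (hd : d.π = CuspForm.heckeLocal.π (N * W.Q ^ 2) (↑SQ : Set ℕ) 𝒪 θ)
    (Φ : CuspForm.heckeLocal (N * W.Q ^ 2) (↑SQ : Set ℕ) 𝒪 θ →ₐ[𝒪]
      Module.End 𝒪 (W.M' ε S t I α))
    (hΦ : ∀ (ℓ : ℕ) (hℓ : ℓ.Prime) (hℓN : ¬ ℓ ∣ N * W.Q ^ 2) (hℓS : ℓ ∉ (↑SQ : Set ℕ)),
      Φ (CuspForm.heckeLocal.π (N * W.Q ^ 2) (↑SQ : Set ℕ) 𝒪 θ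
        (CuspForm.heckeAlgebra.T hℓ hℓN hℓS)) =
          hopM' hG ε t α (isHop_TH hℓ (not_dvd_of_IsSQ hG hSQ hℓ hℓS)))
    (i : Fin r) {g : CuspForm.heckeLocal (N * W.Q ^ 2) (↑SQ : Set ℕ) 𝒪 θ}
    (hg : ∀ (𝒪' : Type) [CommRing 𝒪'] [IsDomain 𝒪'] [IsLocalRing 𝒪']
      (f : CuspForm.heckeLocal (N * W.Q ^ 2) (↑SQ : Set ℕ) 𝒪 θ →+* 𝒪') (hf : IsLocalHom f),
      f g = 1 → (d.ρ.baseChangeAlong f hf).IsUnramifiedAt (W.q i))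
    {m : ℕ} (hm : m ≠ 0) {z : W.M' ε S t I α}
    (hz : ∑ j ∈ Finset.range m, dia' hG ε t α (gen (fun i => p ^ W.a i) i ^ j) z = 0)
    (hgz : Φ g z = z) : z = 0 := by
  obtain ⟨ℓ₀, hℓ₀, hℓ₀S, hℓ₀1, hne⟩ := hE
  have hℓ₀N := not_dvd_sq_of_IsSQ hG hSQ hℓ₀ hℓ₀S
  obtain ⟨u₀, hu₀, hψ⟩ := exists_unit_gen (W := W) i
  refine TWEig.eig_two h36 hG.hp2 hpO (Q_eq_mul i) (Qe_dvd i) (W.prime i) (W.ne i)
    hG.hyp hpS ?_ d hd M'_le_MS Φ ?_ hℓ₀ hℓ₀N hℓ₀S hℓ₀1 ?_ hg hu₀ hm ?_ hgz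
  · intro ℓ hℓ h
    by_contra hcon
    exact not_dvd_sq_of_IsSQ hG hSQ hℓ (fun h' => hcon (Finset.mem_coe.mp h')) h
  · intro ℓ hℓ hℓN hℓS x
    rw [hΦ]
    rfl
  · rw [← hθ ℓ₀ hℓ₀ hℓ₀N hℓ₀S]
    exact hne
  · rw [hψ]
    have h1 := congrArg Subtype.val hz
    rw [Submodule.coe_sum, Submodule.coe_zero] at h1
    exact h1

end TWP

end Fermat.Agent.RT.TWS
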