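import Mathlib

/-!
# Two by two matrices over a local ring: congruences and diagonalisation

* `pow_entries`, `pow_p_pow_sub_one`: powers of matrices congruent to `1`;
* `diagonal_of_conj`: if `F = diag(a, d)` with `a - d` a unit and `F T F⁻¹ = T ^ q`, `T ≡ 1`,
  `q ≡ 1` modulo the maximal ideal, then `T` is diagonal;
* `exists_diagonalise`: Hensel's lemma for the eigenspaces;
* `pow_eq_one_of_prime_to`, `mem_zpowers_dichotomy`.
-/

set_option autoImplicit false
set_option linter.unusedSectionVars false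

open IsLocalRing

namespace Fermat.Agent.RT.TWInertia

section Powers

variable {R : Type} [CommRing R] [IsLocalRing R]

theorem map_mk_eq_one_iff {I : Ideal R} {M : Matrix (Fin 2) (Fin 2) R} :
    (Ideal.Quotient.mk I).mapMatrix M = 1 ↔ ∀ i j, (M - 1) i j ∈ I := by
  rw [← sub_eq_zero, ← map_one (Ideal.Quotient.mk I).mapMatrix, ← map_sub]
  constructor
  · intro h i j
    rw [← Ideal.Quotient.eq_zero_iff_mem]
    exact congrFun (congrFun h i) j
  · intro h
    ext i j
    exact Ideal.Quotient.eq_zero_iff_mem.mpr (h i j)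

theorem pow_sub_one_mem {I : Ideal R} {M : Matrix (Fin 2) (Fin 2) R} (h : ∀ i j, (M - 1) i j ∈ I)
    (n : ℕ) (i j : Fin 2) : (M ^ n - 1) i j ∈ I := by
  revert i j
  rw [← map_mk_eq_one_iff] at h ⊢
  rw [map_pow, h, one_pow]

theorem mul_mem_mul {I J : Ideal R} {X Y : Matrix (Fin 2) (Fin 2) R} (hX : ∀ i j, X i j ∈ I)
    (hY : ∀ i j, Y i j ∈ J) (i j : Fin 2) : (X * Y) i j ∈ I * J := by
  rw [Matrix.mul_apply]
  exact Ideal.sum_mem _ fun k _ => Ideal.mul_mem_mul (hX i k) (hY k j)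

/-- If `M ≡ 1` modulo `𝔪` then `M ^ (p ^ n) ≡ 1` modulo `𝔪 ^ (n + 1)`. -/
theorem pow_p_pow_sub_one {p : ℕ} (hp : (p : R) ∈ maximalIdeal R)
    {M : Matrix (Fin 2) (Fin 2) R} (h : ∀ i j, (M - 1) i j ∈ maximalIdeal R) (n : ℕ)
    (i j : Fin 2) : (M ^ (p ^ n) - 1) i j ∈ maximalIdeal R ^ (n + 1) := by
  induction n generalizing i j with
  | zero => simpa using h i j
  | succ n ih =>
    rw [pow_succ p n, pow_mul, ← mul_geom_sum, pow_succ (maximalIdeal R) (n + 1)]
    refine mul_mem_mul ih (fun i j => ?_) i j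
    have h1 : (Ideal.Quotient.mk (maximalIdeal R)).mapMatrix (M ^ p ^ n) = 1 :=
      map_mk_eq_one_iff.mpr fun i j => pow_sub_one_mem h _ i j
    have h2 : (Ideal.Quotient.mk (maximalIdeal R)).mapMatrix
        (∑ k ∈ Finset.range p, (M ^ p ^ n) ^ k) = 0 := by
      rw [map_sum]
      simp only [map_pow] at h1 ⊢
      rw [h1]
      simp only [one_pow, Finset.sum_const, Finset.card_range]
      ext i j
      rw [nsmul_eq_mul, ← Matrix.diagonal_natCast', Matrix.diagonal_mul]
      have h3 : ((p : ℕ) : R ⧸ maximalIdeal R) = 0 := by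
        rw [← map_natCast (Ideal.Quotient.mk (maximalIdeal R))]
        exact Ideal.Quotient.eq_zero_iff_mem.mpr hp
      simp [h3]
    rw [← Ideal.Quotient.eq_zero_iff_mem]
    exact congrFun (congrFun h2 i) j

/-- Off-diagonal entries of a power. -/
theorem pow_offdiag {T : Matrix (Fin 2) (Fin 2) R} (h : ∀ i j, (T - 1) i j ∈ maximalIdeal R)
    (n : ℕ) :
    (T ^ n) 0 1 - n * T 0 1 ∈ maximalIdeal R * Ideal.span {T 0 1, T 1 0} ∧
      (T ^ n) 1 0 - n * T 1 0 ∈ maximalIdeal R * Ideal.span {T 0 1, T 1 0} := by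
  set J := Ideal.span {T 0 1, T 1 0} with hJ
  have h01 : T 0 1 ∈ J := Ideal.subset_span (by simp)
  have h10 : T 1 0 ∈ J := Ideal.subset_span (by simp)
  have hle : maximalIdeal R * J ≤ J := Ideal.mul_le_right
  induction n with
  | zero => simp
  | succ n ih =>
    obtain ⟨ih1, ih2⟩ := ih
    have e01 : (T ^ n) 0 1 ∈ J := by
      have := Ideal.add_mem _ (hle ih1) (Ideal.mul_mem_left _ (n : R) h01)
      simpa using this
    have e10 : (T ^ n) 1 0 ∈ J := by
      have := Ideal.add_mem _ (hle ih2) (Ideal.mul_mem_left _ (n : R) h10)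
      simpa using this
    have m00 : (T ^ n) 0 0 - 1 ∈ maximalIdeal R := by
      simpa using pow_sub_one_mem h n 0 0
    have m11 : (T ^ n) 1 1 - 1 ∈ maximalIdeal R := by
      simpa using pow_sub_one_mem h n 1 1
    have t00 : T 0 0 - 1 ∈ maximalIdeal R := by simpa using h 0 0
    have t11 : T 1 1 - 1 ∈ maximalIdeal R := by simpa using h 1 1
    constructor
    · have e : (T ^ (n + 1)) 0 1 - ((n + 1 : ℕ) : R) * T 0 1 =
          ((T ^ n) 0 1 - n * T 0 1) + ((T ^ n) 0 0 - 1) * T 0 1 + (T 1 1 - 1) * (T ^ n) 0 1 := by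
        rw [pow_succ, Matrix.mul_apply, Fin.sum_univ_two]
        push_cast
        ring
      rw [e]
      exact Ideal.add_mem _ (Ideal.add_mem _ ih1 (Ideal.mul_mem_mul m00 h01))
        (Ideal.mul_mem_mul t11 e01)
    · have e : (T ^ (n + 1)) 1 0 - ((n + 1 : ℕ) : R) * T 1 0 =
          ((T ^ n) 1 0 - n * T 1 0) + ((T ^ n) 1 1 - 1) * T 1 0 + (T 0 0 - 1) * (T ^ n) 1 0 := by
        rw [pow_succ, Matrix.mul_apply, Fin.sum_univ_two]
        push_cast
        ring
      rw [e]
      exact Ideal.add_mem _ (Ideal.add_mem _ ih2 (Ideal.mul_mem_mul m11 h10))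
        (Ideal.mul_mem_mul t00 e10)

/-- A matrix `T ≡ 1` conjugated by a regular diagonal matrix to its `q`-th power is diagonal. -/
theorem diagonal_of_conj {a d : R} (had : IsUnit (a - d)) {q : ℕ}
    (hq : (q : R) - 1 ∈ maximalIdeal R) {T : Matrix (Fin 2) (Fin 2) R}
    (h : ∀ i j, (T - 1) i j ∈ maximalIdeal R)
    (hc : Matrix.diagonal ![a, d] * T = T ^ q * Matrix.diagonal ![a, d]) :
    T 0 1 = 0 ∧ T 1 0 = 0 := by
  set J := Ideal.span {T 0 1, T 1 0} with hJ
  have h01 : T 0 1 ∈ J := Ideal.subset_span (by simp)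
  have h10 : T 1 0 ∈ J := Ideal.subset_span (by simp)
  obtain ⟨k1, k2⟩ := pow_offdiag h q
  have c01 := congrFun (congrFun hc 0) 1
  have c10 := congrFun (congrFun hc 1) 0
  rw [Matrix.diagonal_mul, Matrix.mul_diagonal] at c01 c10
  simp only [Matrix.cons_val_zero, Matrix.cons_val_one] at c01 c10
  have r01 : T 0 1 ∈ maximalIdeal R * J := by
    have e : (a - d) * T 0 1 = d * ((T ^ q) 0 1 - q * T 0 1) + d * (((q : R) - 1) * T 0 1) := by
      linear_combination c01
    have := Ideal.add_mem _ (Ideal.mul_mem_left _ d k1)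
      (Ideal.mul_mem_left _ d (Ideal.mul_mem_mul hq h01))
    rw [← e] at this
    exact (Ideal.unit_mul_mem_iff_mem _ had).mp this
  have r10 : T 1 0 ∈ maximalIdeal R * J := by
    have e : (a - d) * T 1 0 = -(a * ((T ^ q) 1 0 - q * T 1 0) + a * (((q : R) - 1) * T 1 0)) := by
      linear_combination - c10
    have := Ideal.add_mem _ (Ideal.mul_mem_left _ a k2)
      (Ideal.mul_mem_left _ a (Ideal.mul_mem_mul hq h10))
    have := Submodule.neg_mem _ this
    rw [← e] at this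
    exact (Ideal.unit_mul_mem_iff_mem _ had).mp this
  have hJ0 : J = ⊥ := by
    refine Submodule.eq_bot_of_le_smul_of_le_jacobson_bot (maximalIdeal R) J ?_ ?_ ?_
    · exact Submodule.fg_span (Set.toFinite _)
    · rw [smul_eq_mul, hJ, Ideal.span_le]
      rintro x (rfl | rfl)
      · exact r01
      · exact r10
    · exact (jacobson_eq_maximalIdeal ⊥ bot_ne_top).ge
  rw [hJ0] at h01 h10
  exact ⟨(Submodule.mem_bot R).mp h01, (Submodule.mem_bot R).mp h10⟩

end Powers

section Orders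

variable {R : Type} [CommRing R] [IsLocalRing R]

/-- An element congruent to `1` with `y ^ m = 1`, `m` prime to the residue characteristic, is
`1`. -/
theorem eq_one_of_pow_eq_one {m : ℕ} (hm : IsUnit (m : R)) {y : R} (hy : y - 1 ∈ maximalIdeal R)
    (h : y ^ m = 1) : y = 1 := by
  have h1 : (y - 1) * ∑ k ∈ Finset.range m, y ^ k = 0 := by rw [mul_geom_sum, h, sub_self]
  have h2 : IsUnit (∑ k ∈ Finset.range m, y ^ k) := by
    rw [← residue_ne_zero_iff_isUnit]
    have h3 : residue R y = 1 := by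
      rw [← sub_eq_zero, ← map_one (residue R), ← map_sub, residue_eq_zero_iff]
      exact hy
    have h4 : residue R (∑ k ∈ Finset.range m, y ^ k) = residue R (m : R) := by
      rw [map_sum]
      simp [h3]
    rw [h4, residue_ne_zero_iff_isUnit]
    exact hm
  have h5 := (h2.mul_left_eq_zero).mp h1
  exact sub_eq_zero.mp h5

/-- `x ^ q = x` and `x ≡ 1` imply `x ^ (p ^ a) = 1` if `p ^ a` exactly divides `q - 1`. -/
theorem pow_eq_one_of_pow_eq {p a q : ℕ} (hp : p.Prime) (hpR : (p : R) ∈ maximalIdeal R)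
    (hq1 : 1 ≤ q) (ha : p ^ a ∣ q - 1) (ha' : ¬ p ^ (a + 1) ∣ q - 1) {x : Rˣ}
    (hx : (x : R) - 1 ∈ maximalIdeal R) (h : x ^ q = x) : x ^ (p ^ a) = 1 := by
  obtain ⟨m, hm⟩ := ha
  have hpm : ¬ p ∣ m := by
    rintro ⟨c, rfl⟩
    exact ha' ⟨c, by rw [hm]; ring⟩
  have hmu : IsUnit (m : R) := by
    by_contra hu
    have hmem : (m : R) ∈ maximalIdeal R := (mem_maximalIdeal _).mpr hu
    have hcop : IsCoprime (p : ℤ) (m : ℤ) :=
      Nat.Coprime.isCoprime ((Nat.Prime.coprime_iff_not_dvd hp).mpr hpm)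
    obtain ⟨u, v, huv⟩ := hcop
    have h1 : (u : R) * (p : R) + (v : R) * (m : R) = 1 := by
      have := congrArg (Int.cast : ℤ → R) huv
      push_cast at this
      exact this
    exact (Ideal.ne_top_iff_one _).mp (maximalIdeal.isMaximal R).ne_top
      (h1 ▸ Ideal.add_mem _ (Ideal.mul_mem_left _ _ hpR) (Ideal.mul_mem_left _ _ hmem))
  have h1 : x ^ (q - 1) = 1 := by
    have h2 : x ^ (q - 1) * x = 1 * x := by
      rw [← pow_succ, Nat.sub_add_cancel hq1, h, one_mul]
    exact mul_right_cancel h2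
  rw [hm, pow_mul] at h1
  apply Units.ext
  rw [Units.val_one]
  refine eq_one_of_pow_eq_one hmu ?_ ?_
  · have h3 : residue R ((x ^ p ^ a : Rˣ) : R) = 1 := by
      rw [Units.val_pow_eq_pow_val, map_pow]
      have h4 : residue R (x : R) = 1 := by
        rw [← sub_eq_zero, ← map_one (residue R), ← map_sub, residue_eq_zero_iff]
        exact hx
      rw [h4, one_pow]
    rw [← residue_eq_zero_iff, map_sub, h3, map_one, sub_self]
  · rw [← Units.val_pow_eq_pow_val, h1, Units.val_one]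

/-- Two powers of an element of `p`-power order: one is a power of the other. -/
theorem pow_dichotomy {G : Type} [Group G] {p : ℕ} (hp : p.Prime) {a : ℕ} {t : G}
    (ht : t ^ (p ^ a) = 1) (i j : ℕ) : (∃ k : ℕ, t ^ i = (t ^ j) ^ k) ∨ ∃ k : ℕ, t ^ j = (t ^ i) ^ k := by
  have key : ∀ i j : ℕ, Nat.gcd j (p ^ a) ∣ Nat.gcd i (p ^ a) → ∃ k : ℕ, t ^ i = (t ^ j) ^ k := by
    intro i j hij
    -- `t ^ gcd` is a power of `t ^ j`
    have hpos : 0 < p ^ a := pow_pos hp.pos a
    have h1 : ∃ k : ℕ, t ^ (Nat.gcd j (p ^ a)) = (t ^ j) ^ k := by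
      rcases (Nat.le_of_dvd hpos (Nat.gcd_dvd_right j (p ^ a))).lt_or_eq with hlt | heq
      · obtain ⟨k, -, hk⟩ := Nat.exists_mul_mod_eq_gcd hlt
        refine ⟨k, ?_⟩
        rw [← pow_mul]
        have h2 : t ^ (j * k) = t ^ (j * k % (p ^ a)) := by
          conv_lhs => rw [← Nat.div_add_mod (j * k) (p ^ a), pow_add, pow_mul, ht, one_pow, one_mul]
        rw [h2, hk]
      · exact ⟨0, by rw [heq, ht, pow_zero]⟩
    obtain ⟨k, hk⟩ := h1
    obtain ⟨c, hc⟩ := hij.trans (Nat.gcd_dvd_left i (p ^ a))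
    exact ⟨k * c, by rw [hc, pow_mul, hk, ← pow_mul]⟩
  obtain ⟨e, he, he'⟩ := (Nat.dvd_prime_pow hp).mp (Nat.gcd_dvd_right i (p ^ a))
  obtain ⟨e2, he2, he2'⟩ := (Nat.dvd_prime_pow hp).mp (Nat.gcd_dvd_right j (p ^ a))
  rcases le_total e e2 with hle | hle
  · right
    apply key
    rw [he', he2']
    exact pow_dvd_pow p hle
  · left
    apply key
    rw [he', he2']
    exact pow_dvd_pow p hle

/-- In a separated local ring: if for every `n` one of `x`, `y` is a power of the other modulo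
`𝔪 ^ n`, and both are killed by `N > 0`, then one is a power of the other. -/
theorem exists_pow_of_forall [IsHausdorff (maximalIdeal R) R] {N : ℕ} (hN : 0 < N) {x y : Rˣ}
    (hx : x ^ N = 1) (hy : y ^ N = 1)
    (h : ∀ n : ℕ, (∃ k : ℕ, (x : R) - (y : R) ^ k ∈ maximalIdeal R ^ n) ∨
      ∃ k : ℕ, (y : R) - (x : R) ^ k ∈ maximalIdeal R ^ n) :
    (∃ k : ℕ, x = y ^ k) ∨ ∃ k : ℕ, y = x ^ k := by
  by_contra hcon
  push Not at hcon
  obtain ⟨h1, h2⟩ := hcon
  have haus : ∀ z : R, z ≠ 0 → ∃ n : ℕ, z ∉ maximalIdeal R ^ n := by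
    intro z hz
    by_contra hz'
    push Not at hz'
    apply hz
    refine IsHausdorff.haus (I := maximalIdeal R) inferInstance z fun n => ?_
    rw [SModEq.zero, smul_eq_mul, Ideal.mul_top]
    exact hz' n
  have h1' : ∀ k : ℕ, ∃ n : ℕ, (x : R) - (y : R) ^ k ∉ maximalIdeal R ^ n := fun k =>
    haus _ fun h0 => h1 k (Units.ext (by rw [Units.val_pow_eq_pow_val]; exact sub_eq_zero.mp h0))
  have h2' : ∀ k : ℕ, ∃ n : ℕ, (y : R) - (x : R) ^ k ∉ maximalIdeal R ^ n := fun k =>
    haus _ fun h0 => h2 k (Units.ext (by rw [Units.val_pow_eq_pow_val]; exact sub_eq_zero.mp h0))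
  choose f1 hf1 using h1'
  choose f2 hf2 using h2'
  have hred : ∀ (z : Rˣ), z ^ N = 1 → ∀ k, (z : R) ^ k = (z : R) ^ (k % N) := by
    intro z hz k
    have hz' : (z : R) ^ N = 1 := by rw [← Units.val_pow_eq_pow_val, hz, Units.val_one]
    conv_lhs => rw [← Nat.div_add_mod k N, pow_add, pow_mul, hz', one_pow, one_mul]
  let n := ((Finset.range N).sup f1) ⊔ ((Finset.range N).sup f2)
  rcases h n with ⟨k, hk⟩ | ⟨k, hk⟩
  · rw [hred y hy k] at hk
    apply hf1 (k % N)
    exact Ideal.pow_le_pow_right (le_trans (Finset.le_sup (Finset.mem_range.mpr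
      (Nat.mod_lt _ hN))) le_sup_left) hk
  · rw [hred x hx k] at hk
    apply hf2 (k % N)
    exact Ideal.pow_le_pow_right (le_trans (Finset.le_sup (Finset.mem_range.mpr
      (Nat.mod_lt _ hN))) le_sup_right) hk

/-- A family of elements killed by `N > 0`, pairwise comparable, has a generator. -/
theorem exists_generator {G ι : Type} [Group G] [Nonempty ι] {N : ℕ} (hN : 0 < N) (x : ι → G)
    (hx : ∀ i, x i ^ N = 1) (h : ∀ i j, (∃ k : ℕ, x i = x j ^ k) ∨ ∃ k : ℕ, x j = x i ^ k) :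
    ∃ i₀, ∀ i, ∃ k : ℕ, x i = x i₀ ^ k := by
  have hle : ∀ i, orderOf (x i) ≤ N := fun i =>
    Nat.le_of_dvd hN (orderOf_dvd_of_pow_eq_one (hx i))
  have hfin : (Set.range fun i => orderOf (x i)).Finite :=
    Set.Finite.subset (Set.finite_Iic N) (by rintro _ ⟨i, rfl⟩; exact hle i)
  obtain ⟨m, ⟨i₀, rfl⟩, hm⟩ := Set.exists_max_image _ id hfin (Set.range_nonempty _)
  refine ⟨i₀, fun i => ?_⟩
  rcases h i i₀ with h1 | ⟨k, hk⟩
  · exact h1
  · have hfo : ∀ i, IsOfFinOrder (x i) := fun i => isOfFinOrder_iff_pow_eq_one.mpr ⟨N, hN, hx i⟩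
    have h2 : Subgroup.zpowers (x i₀) ≤ Subgroup.zpowers (x i) := by
      rw [Subgroup.zpowers_le, hk]
      exact Subgroup.npow_mem_zpowers _ _
    have h3 : orderOf (x i) ≤ orderOf (x i₀) := hm _ ⟨i, rfl⟩
    have h4 : Subgroup.zpowers (x i₀) = Subgroup.zpowers (x i) := by
      have : Finite (Subgroup.zpowers (x i)) := (hfo i).finite_zpowers
      refine Subgroup.eq_of_le_of_card_ge h2 ?_
      rw [Nat.card_zpowers, Nat.card_zpowers]
      exact h3
    have h5 : x i ∈ Subgroup.zpowers (x i₀) := by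
      rw [h4]
      exact Subgroup.mem_zpowers _
    have h6 := (hfo i₀).mem_powers_iff_mem_zpowers.mpr h5
    obtain ⟨k, hk⟩ := h6
    exact ⟨k, hk.symm⟩

end Orders

end Fermat.Agent.RT.TWInertia
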