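import Fermat.Agent.RT.TWInertiaAlg

/-!
# Diagonalising a matrix with distinct residual eigenvalues
-/

set_option autoImplicit false
set_option linter.unusedSectionVars false

open IsLocalRing Polynomial

namespace Fermat.Agent.RT.TWInertia

variable {R : Type} [CommRing R] [IsLocalRing R]

/-- Hensel's lemma for the eigenvalues. -/
theorem exists_eigenvalues [IsAdicComplete (maximalIdeal R) R] {t δ : R}
    {α β : ResidueField R} (hαβ : α ≠ β) (htr : residue R t = α + β)
    (hdet : residue R δ = α * β) :
    ∃ A D : R, residue R A = α ∧ residue R D = β ∧ A + D = t ∧ A * D = δ := by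
  obtain ⟨a₀, ha₀⟩ := residue_surjective α
  let f : R[X] := X ^ 2 - C t * X + C δ
  have hf : f.Monic := by
    simp only [f]
    monicity!
  have h1 : f.eval a₀ ∈ maximalIdeal R := by
    rw [← residue_eq_zero_iff]
    simp only [f, eval_add, eval_sub, eval_pow, eval_X, eval_mul, eval_C, map_add, map_sub,
      map_pow, map_mul, ha₀, htr, hdet]
    ring
  have h2 : IsUnit (Ideal.Quotient.mk (maximalIdeal R) (f.derivative.eval a₀)) := by
    have h3 : residue R (f.derivative.eval a₀) = α - β := by
      simp only [f, derivative_add, derivative_sub, derivative_X_pow, derivative_mul, derivative_C,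
        derivative_X, eval_add, eval_sub, eval_mul, eval_C, eval_pow, eval_X, eval_natCast,
        eval_zero, eval_one, map_add, map_sub, map_mul, ha₀, htr, map_natCast, map_zero, map_one]
      simp [ha₀]
      ring
    have h4 : residue R (f.derivative.eval a₀) ≠ 0 := by
      rw [h3]
      exact sub_ne_zero.mpr hαβ
    exact (residue_ne_zero_iff_isUnit _).mp h4 |>.map _
  obtain ⟨A, hA, hAa⟩ := HenselianRing.is_henselian (I := maximalIdeal R) f hf a₀ h1 h2
  have hA' : A ^ 2 - t * A + δ = 0 := by
    have : f.eval A = 0 := hA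
    simpa [f] using this
  have hrA : residue R A = α := by
    rw [← ha₀, ← sub_eq_zero, ← map_sub, residue_eq_zero_iff]
    exact hAa
  refine ⟨A, t - A, hrA, ?_, by ring, by linear_combination - hA'⟩
  rw [map_sub, htr, hrA]
  ring

theorem mul_sub_diag {F : Matrix (Fin 2) (Fin 2) R} {A D : R} (hAD : A + D = F 0 0 + F 1 1)
    (hAD' : A * D = F 0 0 * F 1 1 - F 0 1 * F 1 0) (i j : Fin 2) :
    (F * (F - Matrix.diagonal ![D, D])) i j = A * (F - Matrix.diagonal ![D, D]) i j := by
  rw [Matrix.mul_apply, Fin.sum_univ_two]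
  fin_cases i <;> fin_cases j <;>
    simp only [Matrix.sub_apply, Matrix.diagonal_apply, Matrix.cons_val_zero,
      Matrix.cons_val_one, Fin.zero_eta, Fin.mk_one, Fin.isValue, if_true,
      zero_ne_one, one_ne_zero, if_false, sub_zero]
  · linear_combination (- F 0 0) * hAD + hAD'
  · linear_combination (- F 0 1) * hAD
  · linear_combination (- F 1 0) * hAD
  · linear_combination (- F 1 1) * hAD + hAD'

theorem exists_isUnit_entry {F : Matrix (Fin 2) (Fin 2) R} {A D : R}
    (hAD : A + D = F 0 0 + F 1 1) (hne : residue R A ≠ residue R D) :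
    ∃ i j, IsUnit ((F - Matrix.diagonal ![D, D]) i j) := by
  by_contra hcon
  push Not at hcon
  have h0 := hcon 0 0
  have h1 := hcon 1 1
  rw [← residue_ne_zero_iff_isUnit, not_not] at h0 h1
  simp only [Matrix.sub_apply, Matrix.diagonal_apply, Matrix.cons_val_zero,
      Matrix.cons_val_one, if_true, map_sub, sub_eq_zero] at h0 h1
  apply hne
  have h2 := congrArg (residue R) hAD
  rw [map_add, map_add, h0, h1] at h2
  exact add_right_cancel h2

/-- **Diagonalisation** of a matrix with distinct residual eigenvalues. -/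
theorem exists_diagonalise [IsAdicComplete (maximalIdeal R) R] {F : Matrix (Fin 2) (Fin 2) R}
    {α β : ResidueField R} (hαβ : α ≠ β) (htr : residue R F.trace = α + β)
    (hdet : residue R F.det = α * β) :
    ∃ (A D : R) (Q : Matrix (Fin 2) (Fin 2) R), residue R A = α ∧ residue R D = β ∧
      IsUnit Q ∧ F * Q = Q * Matrix.diagonal ![A, D] := by
  obtain ⟨A, D, hA, hD, hAD, hAD'⟩ := exists_eigenvalues hαβ htr hdet
  rw [Matrix.trace_fin_two] at hAD
  rw [Matrix.det_fin_two] at hAD'
  have hne : residue R A ≠ residue R D := by rw [hA, hD]; exact hαβ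
  have hDA : D + A = F 0 0 + F 1 1 := by rw [add_comm]; exact hAD
  have hDA' : D * A = F 0 0 * F 1 1 - F 0 1 * F 1 0 := by rw [mul_comm]; exact hAD'
  obtain ⟨i0, j0, hu0⟩ := exists_isUnit_entry hAD hne
  obtain ⟨i1, j1, hu1⟩ := exists_isUnit_entry hDA hne.symm
  have hF0 := mul_sub_diag hAD hAD'
  have hF1 := mul_sub_diag hDA hDA'
  set X0 : Matrix (Fin 2) (Fin 2) R := F - Matrix.diagonal ![D, D] with hX0
  set X1 : Matrix (Fin 2) (Fin 2) R := F - Matrix.diagonal ![A, A] with hX1
  let Q : Matrix (Fin 2) (Fin 2) R := Matrix.of fun i j => ![X0 i j0, X1 i j1] j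
  have hQ0 : ∀ i, Q i 0 = X0 i j0 := fun i => rfl
  have hQ1 : ∀ i, Q i 1 = X1 i j1 := fun i => rfl
  have hFQ : F * Q = Q * Matrix.diagonal ![A, D] := by
    ext i j
    rw [Matrix.mul_diagonal]
    fin_cases j
    · have h1 := hF0 i j0
      rw [Matrix.mul_apply] at h1 ⊢
      simp only [Fin.zero_eta, Fin.isValue, hQ0, Matrix.cons_val_zero]
      rw [h1, mul_comm]
    · have h1 := hF1 i j1
      rw [Matrix.mul_apply] at h1 ⊢
      simp only [Fin.mk_one, Fin.isValue, hQ1]
      rw [h1, mul_comm]
      rfl
  refine ⟨A, D, Q, hA, hD, ?_, hFQ⟩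
  rw [Matrix.isUnit_iff_isUnit_det]
  by_contra hu
  have h0 : (Q.map (residue R)).det = 0 := by
    have h1 : residue R Q.det = 0 := by
      rw [residue_eq_zero_iff]
      exact (mem_maximalIdeal _).mpr hu
    rw [← h1]
    exact (RingHom.map_det (residue R) Q).symm
  obtain ⟨v, hv0, hv⟩ := Matrix.exists_mulVec_eq_zero_iff.mpr h0
  -- apply `F`
  have hFv : (Q.map (residue R)).mulVec ((Matrix.diagonal ![α, β]).mulVec v) = 0 := by
    rw [Matrix.mulVec_mulVec]
    have h2 : Q.map (residue R) * Matrix.diagonal ![α, β] = F.map (residue R) * Q.map (residue R) := by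
      have h3 := congrArg (residue R).mapMatrix hFQ
      rw [map_mul, map_mul] at h3
      have h4 : (residue R).mapMatrix (Matrix.diagonal ![A, D]) = Matrix.diagonal ![α, β] := by
        ext i j
        fin_cases i <;> fin_cases j <;> simp [hA, hD]
      rw [h4] at h3
      exact h3.symm
    rw [h2, ← Matrix.mulVec_mulVec, hv, Matrix.mulVec_zero]
  have e0 : ∀ i, residue R (Q i 0) * v 0 + residue R (Q i 1) * v 1 = 0 := by
    intro i
    have := congrFun hv i
    simpa [Matrix.mulVec, dotProduct, Fin.sum_univ_two] using this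
  have e1 : ∀ i, residue R (Q i 0) * (α * v 0) + residue R (Q i 1) * (β * v 1) = 0 := by
    intro i
    have := congrFun hFv i
    simpa [Matrix.mulVec, dotProduct, Fin.sum_univ_two, Matrix.diagonal_apply] using this
  have hv00 : v 0 = 0 := by
    have h1 : (α - β) * (residue R (Q i0 0) * v 0) = 0 := by
      linear_combination e1 i0 - β * e0 i0
    have h2 := (mul_eq_zero.mp h1).resolve_left (sub_ne_zero.mpr hαβ)
    exact (mul_eq_zero.mp h2).resolve_left ((residue_ne_zero_iff_isUnit _).mpr hu0)
  have hv1 : v 1 = 0 := by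
    have h1 : (α - β) * (residue R (Q i1 1) * v 1) = 0 := by
      linear_combination α * e0 i1 - e1 i1
    have h2 := (mul_eq_zero.mp h1).resolve_left (sub_ne_zero.mpr hαβ)
    exact (mul_eq_zero.mp h2).resolve_left ((residue_ne_zero_iff_isUnit _).mpr hu1)
  apply hv0
  funext i
  fin_cases i
  · exact hv00
  · exact hv1

end Fermat.Agent.RT.TWInertia
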