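import Fermat.Agent.RT.TWLevelIn
import Fermat.Agent.RT.TW.Traces
import Fermat.Agent.RT.ControlIter
import Fermat.Agent.RT.NewVanishIter
import Fermat.Agent.RT.TypeLevels
import Fermat.Agent.RT.AuxPrime
import Fermat.Agent.RT.Wiring.MLTDefs

/-!
# The Hecke side input at the Taylor–Wiles levels (team RT, helper59)

`twInputProp : Typ.Inputs → S36Prop → TauAll → Wiring.TWInputProp`.
-/

set_option autoImplicit false
set_option linter.unusedSectionVars false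
set_option linter.style.haveILetI false

open Matrix Matrix.SpecialLinearGroup CongruenceSubgroup IsLocalRing CuspForm Polynomial
open scoped MatrixGroups OnePoint

noncomputable section

namespace Fermat.Agent.RT.TWIn

open Fermat.Agent.LR Fermat.Agent.LR.PS Fermat.Agent.RT Fermat.Agent.RT.TwistH
  Fermat.Agent.RT.GroupAlg Fermat.Agent.RT.Dict Fermat.Agent.RT.Loc Fermat.Agent.RT.GR
  Fermat.Agent.RT.MSHecke Fermat.Agent.RT.HeckeLocalFields Fermat.Agent.RT.TWS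
  Fermat.Agent.RT.TWS.TWP Fermat.Agent.UDef Fermat.Agent.RT.TWInertia Fermat.Agent.RT.Wiring
  Fermat.Agent.RT.TWBase Fermat.Agent.DefCond

local notation "Qbar" => AlgebraicClosure ℚ
local notation "Γℚ" => (AlgebraicClosure ℚ ≃ₐ[ℚ] AlgebraicClosure ℚ)

/-- `TauInput` for all `W`. -/
def TauAll : Prop :=
  ∀ (p : ℕ) [Fact p.Prime], p ≠ 2 → ∀ (W : WeierstrassCurve ℤ) (hΔ : W.Δ ≠ 0),
    W.IsSemistableModel → W.ModRepIsIrreducible p →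
    ∀ (𝒪 : Type) [CommRing 𝒪] [IsDomain 𝒪] [IsDiscreteValuationRing 𝒪]
      [IsAdicComplete (maximalIdeal 𝒪) 𝒪] [Finite (ResidueField 𝒪)] [CharZero 𝒪]
      [Algebra ℤ_[p] 𝒪] [Module.Finite ℤ_[p] 𝒪] [IsLocalHom (algebraMap ℤ_[p] 𝒪)],
      (p : 𝒪) ∈ maximalIdeal 𝒪 → Typ.TauInput hΔ (p := p) 𝒪

section

variable {p : ℕ} [hp : Fact p.Prime] {W : WeierstrassCurve ℤ} (hΔ : W.Δ ≠ 0)
  {𝒪 : Type} [CommRing 𝒪] [IsDomain 𝒪] [IsDiscreteValuationRing 𝒪]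
  [IsAdicComplete (maximalIdeal 𝒪) 𝒪] [Finite (ResidueField 𝒪)] [CharZero 𝒪]
  [Algebra ℤ_[p] 𝒪] [Module.Finite ℤ_[p] 𝒪] [IsLocalHom (algebraMap ℤ_[p] 𝒪)]

theorem isUnit_natCast_of_ne (hp𝒪 : (p : 𝒪) ∈ maximalIdeal 𝒪) {q : ℕ} (hq : q.Prime)
    (hqp : q ≠ p) : IsUnit (q : 𝒪) := by
  by_contra hc
  have h1 : (q : 𝒪) ∈ maximalIdeal 𝒪 := (mem_maximalIdeal _).mpr hc
  have hcop : IsCoprime (q : ℤ) (p : ℤ) :=
    Nat.isCoprime_iff_coprime.mpr ((Nat.coprime_primes hq hp.out).mpr hqp)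
  obtain ⟨u, v, huv⟩ := hcop
  have h2 : (1 : 𝒪) = (u : 𝒪) * q + (v : 𝒪) * p := by
    have := congrArg (Int.cast : ℤ → 𝒪) huv
    push_cast at this
    exact this.symm
  refine (Ideal.ne_top_iff_one _).mp (maximalIdeal.isMaximal 𝒪).ne_top ?_
  rw [h2]
  exact add_mem (Ideal.mul_mem_left _ _ h1) (Ideal.mul_mem_left _ _ hp𝒪)

/-- The condition at the auxiliary and Taylor–Wiles primes. -/
structure GoodAt (W : WeierstrassCurve ℤ) (p : ℕ) (k : Type) [Field k] (q : ℕ) : Prop where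
  prime : q.Prime
  not_mem : q ∉ Sbad W p
  ne : ((W.apOfModel q : ℤ) : k) ^ 2 ≠ ((q : k) + 1) ^ 2
  roots : ∃ α β : k, α ≠ β ∧ ((W.apOfModel q : ℤ) : k) = α + β ∧ (q : k) = α * β

theorem zmod3_pow (x : ZMod 3) : x ^ 3 = x := by revert x; decide

include hΔ in
/-- The auxiliary set: empty if `p ≠ 3`, a prime `≡ 2 mod 3` if `p = 3`. -/
theorem exists_auxSet (hp2 : p ≠ 2) (hss : W.IsSemistableModel) (hirr : W.ModRepIsIrreducible p)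
    (hp𝒪 : (p : 𝒪) ∈ maximalIdeal 𝒪)
    (hζ : ∃ ζ : ResidueField 𝒪, IsPrimitiveRoot ζ (p ^ 2 - 1)) :
    ∃ Rs : Finset ℕ, (∀ q ∈ Rs, GoodAt W p (ResidueField 𝒪) q) ∧
      (IsUnit (3 : 𝒪) ∨ ∃ s ∈ Rs, s % 3 = 2) := by
  by_cases hp3 : p = 3
  · subst hp3
    have h3 : (3 : ResidueField 𝒪) = 0 := by
      have := (residue_eq_zero_iff ((3 : ℕ) : 𝒪)).mpr hp𝒪
      rw [map_natCast] at this
      exact_mod_cast this
    have hF : ∀ ℓ : ℕ, ℓ.Prime → ℓ ∉ Sbad W 3 → ∀ A : ValuationSubring Qbar,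
        A.LiesOverPrime ℓ → ∀ σ : Γℚ, A.IsFrobeniusAt σ ℓ →
          LinearMap.charpoly ((rhoBar W hΔ 3 𝒪).ρ σ) =
            X ^ 2 - C ((W.apOfModel ℓ : ℤ) : ResidueField 𝒪) * X + C (ℓ : ResidueField 𝒪) := by
      intro ℓ hℓ hℓS A hA σ hσ
      obtain ⟨h1, h2⟩ := not_mem_Sbad hΔ hℓ hℓS
      exact rhoBar_charpoly_frob hΔ 𝒪 hℓ h1 h2 A hA hσ
    obtain ⟨r, hr, hrS, -, hr3, ht, h⟩ := AuxPrime.exists_aux_prime_charpoly h3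
      (rhoBar W hΔ 3 𝒪) (rhoBar_HTW W hΔ hss 3 hp2 hirr 𝒪) (Sbad W 3)
      (fun ℓ => ((W.apOfModel ℓ : ℤ) : ResidueField 𝒪)) hF (fun ℓ _ _ => by
        have h5 : CharP (ResidueField 𝒪) 3 := by
          have : Fact (Nat.Prime 3) := ⟨Nat.prime_three⟩
          exact (CharP.charP_iff_prime_eq_zero Nat.prime_three).mpr (by exact_mod_cast h3)
        have h6 := congrArg (ZMod.castHom (dvd_refl 3) (ResidueField 𝒪))
          (zmod3_pow ((W.apOfModel ℓ : ℤ) : ZMod 3))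
        rwa [map_pow, map_intCast] at h6) ∅
    obtain ⟨A, hA⟩ := FrobExists.exists_liesOverPrime (AlgebraicClosure ℚ) hr
    obtain ⟨σ, hσ⟩ := FrobExists.exists_isFrobeniusAt A hr hA
    obtain ⟨α, β, hαβ⟩ := rhoBar_split hΔ 𝒪 hζ σ
    obtain ⟨e1, e2, e3, -, -⟩ := h A hA σ hσ α β hαβ
    refine ⟨{r}, fun q hq => ?_, Or.inr ⟨r, Finset.mem_singleton_self r, hr3⟩⟩
    rw [Finset.mem_singleton] at hq
    subst hq
    refine ⟨hr, hrS, fun hc => ?_, α, β, e3, e1.symm, e2.symm⟩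
    have hr' : (q : ResidueField 𝒪) = -1 := by
      have : q = 3 * (q / 3) + 2 := by omega
      rw [this]
      push_cast
      rw [h3]
      linear_combination h3
    rw [hr', neg_add_cancel, zero_pow two_ne_zero] at hc
    exact ht (pow_eq_zero_iff two_ne_zero |>.mp hc)
  · refine ⟨∅, fun q hq => absurd hq (Finset.notMem_empty q), Or.inl ?_⟩
    have := isUnit_natCast_of_ne hp𝒪 Nat.prime_three (Ne.symm hp3)
    exact_mod_cast this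

/-- Taylor–Wiles primes are good. -/
theorem goodAt_tw (hp𝒪 : (p : 𝒪) ∈ maximalIdeal 𝒪) {S : Finset ℕ} (hS : Sbad W p ⊆ S)
    {n r : ℕ} (Q : TW.TWSet (rhoBar W hΔ p 𝒪) p S n r) (i : Fin r) :
    GoodAt W p (ResidueField 𝒪) (Q.q i) := by
  have hnm : Q.q i ∉ Sbad W p := fun h => Q.not_mem i (hS h)
  obtain ⟨h1, h2⟩ := not_mem_Sbad hΔ (Q.prime i) hnm
  have h3 := rhoBar_charpoly_frob hΔ 𝒪 (Q.prime i) h1 h2 (Q.P i) (Q.liesOver i) (Q.isFrobenius i)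
  rw [Q.charpoly i] at h3
  obtain ⟨h4, h5⟩ := add_mul_of_charpoly h3.symm
  have h6 : (Q.q i : ResidueField 𝒪) = 1 := by
    have h7 : p ∣ Q.q i - 1 :=
      (dvd_pow_self p (by have := Q.lt_a i; omega)).trans (Q.dvd i)
    obtain ⟨c, hc⟩ := h7
    have h8 : Q.q i = p * c + 1 := by have := (Q.prime i).one_le; omega
    have h9 : (p : ResidueField 𝒪) = 0 := by
      rw [← map_natCast (residue 𝒪)]; exact (residue_eq_zero_iff _).mpr hp𝒪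
    rw [h8]; push_cast; rw [h9]; ring
  refine ⟨Q.prime i, hnm, fun hc => ?_, Q.α i, Q.β i, Q.α_ne_β i, h4, h5⟩
  rw [h4, h6] at hc
  rw [h6] at h5
  have h10 : (Q.α i - Q.β i) ^ 2 = 0 := by linear_combination hc + 4 * h5
  exact Q.α_ne_β i (sub_eq_zero.mp (pow_eq_zero_iff two_ne_zero |>.mp h10))

/-- Lifts of the roots. -/
theorem exists_alpha (hp𝒪 : (p : 𝒪) ∈ maximalIdeal 𝒪) (B : Finset ℕ)
    (hB : ∀ q ∈ B, GoodAt W p (ResidueField 𝒪) q)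
    (t : ℕ → 𝒪) (ht : ∀ q ∈ B, residue 𝒪 (t q) = ((W.apOfModel q : ℤ) : ResidueField 𝒪)) :
    ∃ α : ℕ → 𝒪, (∀ q ∈ B, IsUnit (α q)) ∧
      (∀ q ∈ B, α q ^ 2 - t q * α q + q ∈ maximalIdeal 𝒪) ∧
      (∀ q ∈ B, IsUnit (2 * α q - t q)) ∧
      (∀ q ∈ B, IsUnit (t q ^ 2 - ((q : 𝒪) + 1) ^ 2)) := by
  have key : ∀ q : ℕ, ∃ a : 𝒪, q ∈ B → IsUnit a ∧ a ^ 2 - t q * a + q ∈ maximalIdeal 𝒪 ∧
      IsUnit (2 * a - t q) := by
    intro q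
    by_cases hq : q ∈ B
    · obtain ⟨α, β, h1, h2, h3⟩ := (hB q hq).roots
      have hqp : q ≠ p := fun h => (hB q hq).not_mem (h ▸ p_mem_Sbad)
      obtain ⟨A, -, h4, h5, h6⟩ := exists_lift (t := t q) (q := (q : 𝒪)) (α := α) (β := β)
        (by rw [ht q hq, h2]) (by rw [map_natCast, h3])
        (isUnit_natCast_of_ne hp𝒪 (hB q hq).prime hqp) h1
      exact ⟨A, fun _ => ⟨h4, h5, h6⟩⟩
    · exact ⟨0, fun h => absurd h hq⟩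
  choose α hα using key
  refine ⟨α, fun q hq => (hα q hq).1, fun q hq => (hα q hq).2.1, fun q hq => (hα q hq).2.2,
    fun q hq => isUnit_of_residue_ne fun h => (hB q hq).ne ?_⟩
  rw [map_sub, map_pow, map_pow, map_add, map_one, map_natCast, ht q hq, sub_eq_zero] at h
  exact h

theorem trace_of_isEquiv {A B : Type} [CommRing A] [IsLocalRing A] [CommRing B] [IsLocalRing B]
    {ρ : GaloisRepAdic A} {ρ' : GaloisRepAdic B} (φ : A →+* B) (hφ : IsLocalHom φ)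
    (he : (ρ.baseChangeAlong φ hφ).IsEquiv ρ') (σ : Γℚ) : φ (ρ.trace σ) = ρ'.trace σ := by
  obtain ⟨e⟩ := he
  have h1 : (LinearMap.charpoly (ρ.ρ σ)).map φ = LinearMap.charpoly (ρ'.ρ σ) := by
    rw [← charpoly_baseChangeAlong φ hφ, ← charpoly_equiv e σ]
  rw [BN2.charpoly_eq_of_finrank_two ρ.finrank_eq, BN2.charpoly_eq_of_finrank_two ρ'.finrank_eq,
    Polynomial.map_add, Polynomial.map_sub, Polynomial.map_mul, Polynomial.map_pow,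
    Polynomial.map_X, Polynomial.map_C, Polynomial.map_C] at h1
  exact CMP.S58Assembly.eq_of_quad h1

variable [NeZero (Nmin W p)]

theorem datum_dCond_tw (I : Typ.Inputs) (hp𝒪 : (p : 𝒪) ∈ maximalIdeal 𝒪) (hp2 : p ≠ 2)
    (hss : W.IsSemistableModel) (hirr : W.ModRepIsIrreducible p)
    (hτ : Typ.TauInput hΔ (p := p) 𝒪) {SQ : Finset ℕ} (hS : Sbad W p ⊆ SQ) {R : ℕ}
    {Qs : Finset ℕ} (hR : Typ.AuxOK W p (ResidueField 𝒪) R Qs)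
    (hQ : ∀ q ∈ Qs, q.Prime) (hQS : ∀ q ∈ Qs, q ∉ Smin W p)
    {N : ℕ} [NeZero N] [Fact (HasIntegralStructure N 2)] (hN : N = Typ.twLevel W p R Qs)
    (hNS : ∀ q : ℕ, q.Prime → q ∣ N → q ∈ SQ)
    {θ : heckeAlgebra N 2 (↑SQ : Set ℕ) →+* ResidueField 𝒪} (hθ : ThetaW W θ)
    (d : HeckeGaloisRepDatum N (↑SQ : Set ℕ) 𝒪 θ (heckeLocal N (↑SQ : Set ℕ) 𝒪 θ)) :
    dCond (tmin W p) 𝒪 p (Smin W p ∪ Qs) (Smin W p) d.ρ := by
  have hpp : p.Prime := hp.out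
  have hpQ : p ∉ Qs := fun h => hQS p h p_mem_Smin
  have habs := rhoBar_isAbsolutelyIrreducible (W := W) (p := p) hΔ 𝒪 hp2 hss hirr
  have hres := datum_residual_isEquiv d hNS habs (hθ.charpoly_frob hΔ hS)
  refine Typ.dCond_of_datum (hS p_mem_Sbad) hNS hp𝒪 d I hp2 hres (tmin W p) _ _
    (Finset.mem_union_left _ p_mem_Smin) ?_ ?_ ?_
  · intro q hq hqN hqS
    rw [hN] at hqN ⊢
    obtain ⟨h1, h2⟩ := (Typ.dvd_twLevel_cases hΔ hR hQ hq hqN).resolve_left hqS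
    exact ⟨h2, Typ.noNewAt_rhoBar hΔ 𝒪 hq (hR.ne q hq h1) (hR.good q hq h1) (hR.ap q hq h1)⟩
  · intro q hqS hq _
    rw [hN]
    exact Typ.not_sq_dvd_twLevel hΔ hR hQ hQS hq hqS
  · refine Typ.atP_tmin hΔ 𝒪 hss hτ (NeZero.ne N) ?_
    rw [hN, Typ.factorization_twLevel hR hQ, if_neg hpQ, Typ.factorization_aux_eq_zero hR
      (fun hq' => Typ.not_dvd_aux_of_mem_Sbad hΔ hR p_mem_Sbad hq')]
    omega

/-- **The Hecke side input at the Taylor–Wiles levels**, for a given auxiliary set. -/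
theorem twInput_W (I : Typ.Inputs) (h36 : CMP.S58Assembly.S36Prop)
    (hp𝒪 : (p : 𝒪) ∈ maximalIdeal 𝒪) (hp2 : p ≠ 2)
    (hss : W.IsSemistableModel) (hirr : W.ModRepIsIrreducible p)
    (hτ : Typ.TauInput hΔ (p := p) 𝒪)
    (χ₀ : heckeAlgebra (Nmin W p) 2 (↑(Sbad W p) : Set ℕ) →+* 𝒪)
    (hχ₀ : ThetaW W ((residue 𝒪).comp χ₀))
    (D₁ : GaloisRep.DeformationRingData 𝒪 (rhoBar W hΔ p 𝒪)
      (dCond (tmin W p) 𝒪 p (Smin W p) (Smin W p)))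
    (Ψ : D₁.R →ₐ[𝒪] Module.End 𝒪 (Num.Mmin (↑(Sbad W p) : Set ℕ) (tOf χ₀) (Nmin W p)))
    (hΨ : ∀ ℓ : ℕ, ℓ.Prime → ℓ ∉ Sbad W p → ∀ A : ValuationSubring Qbar,
      A.LiesOverPrime ℓ → ∀ σ : Γℚ, A.IsFrobeniusAt σ ℓ →
        ∀ x : Num.Mmin (↑(Sbad W p) : Set ℕ) (tOf χ₀) (Nmin W p),
          (Ψ (D₁.ρ.trace σ) x : Pairs 𝒪) = heckeT ℓ x)
    (Rs : Finset ℕ) (hRs : ∀ q ∈ Rs, GoodAt W p (ResidueField 𝒪) q)
    (h3 : IsUnit (3 : 𝒪) ∨ ∃ s ∈ Rs, s % 3 = 2) :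
    @TW.TWInput 𝒪 _ _ _ _ (rhoBar W hΔ p 𝒪) (tmin W p) p (Sbad W p ∪ Rs) (Smin W p) D₁
      (Num.Mmin (↑(Sbad W p) : Set ℕ) (tOf χ₀) (Nmin W p)) _
      (Module.compHom _ (Ψ : D₁.R →+* Module.End 𝒪
        (Num.Mmin (↑(Sbad W p) : Set ℕ) (tOf χ₀) (Nmin W p)))) := by
  classical
  intro r n Q DQ πR hπ hequiv T _
  have hQgood : ∀ i, GoodAt W p (ResidueField 𝒪) (Q.q i) :=
    goodAt_tw hΔ hp𝒪 Finset.subset_union_left Q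
  have hRp : ∀ q ∈ Rs, q.Prime := fun q hq => (hRs q hq).prime
  have hprod0 : (∏ q ∈ Rs, q) ≠ 0 := Finset.prod_ne_zero_iff.mpr fun q hq => (hRp q hq).ne_zero
  obtain ⟨N, hN⟩ : ∃ N, N = Nmin W p * ∏ q ∈ Rs, q := ⟨_, rfl⟩
  have hN0 : N ≠ 0 := by rw [hN]; exact mul_ne_zero (NeZero.ne _) hprod0
  have hpS : p ∈ Sbad W p ∪ Rs := Finset.mem_union_left _ p_mem_Sbad
  have hNmS : ∀ ℓ : ℕ, ℓ.Prime → ℓ ∣ Nmin W p → ℓ ∈ Sbad W p := hNS_min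
  have hNS : ∀ ℓ : ℕ, ℓ.Prime → ℓ ∣ N → ℓ ∈ Sbad W p ∪ Rs := by
    intro ℓ hℓ h
    rw [hN] at h
    rcases (Nat.Prime.dvd_mul hℓ).mp h with h | h
    · exact Finset.mem_union_left _ (hNmS ℓ hℓ h)
    · obtain ⟨q, hq, hd⟩ := (Prime.dvd_finsetProd_iff hℓ.prime _).mp h
      rw [(Nat.prime_dvd_prime_iff_eq hℓ (hRp q hq)).mp hd]
      exact Finset.mem_union_right _ hq
  obtain ⟨V, hV⟩ : ∃ V : TWP p N r, V = toTWP Q hNS hpS := ⟨_, rfl⟩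
  have hVq : V.q = Q.q := by rw [hV]; rfl
  have hVa : V.a = Q.a := by rw [hV]; rfl
  obtain ⟨B, hBdef⟩ : ∃ B : Finset ℕ, B = Rs ∪ Finset.univ.image Q.q := ⟨_, rfl⟩
  have hBiff : ∀ ℓ : ℕ, ℓ ∈ B ↔ ℓ ∈ Rs ∨ ∃ i, ℓ = V.q i := by
    intro ℓ
    rw [hBdef, Finset.mem_union, Finset.mem_image, hVq]
    refine or_congr Iff.rfl ⟨?_, ?_⟩
    · rintro ⟨i, -, rfl⟩; exact ⟨i, rfl⟩
    · rintro ⟨i, rfl⟩; exact ⟨i, Finset.mem_univ i, rfl⟩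
  have hBgood : ∀ q ∈ B, GoodAt W p (ResidueField 𝒪) q := by
    intro q hq
    rcases (hBiff q).mp hq with h | ⟨i, rfl⟩
    · exact hRs q h
    · rw [hVq]; exact hQgood i
  have ht : ∀ ℓ : ℕ, ℓ.Prime → ℓ ∉ Sbad W p →
      residue 𝒪 (tOf χ₀ ℓ) = ((W.apOfModel ℓ : ℤ) : ResidueField 𝒪) := by
    intro ℓ hℓ hℓS
    have h1 : ¬ ℓ ∣ Nmin W p := fun h => hℓS (hNmS ℓ hℓ h)
    have h2 : ℓ ∉ (↑(Sbad W p) : Set ℕ) := fun h => hℓS (Finset.mem_coe.mp h)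
    rw [tOf_eq χ₀ hℓ h1 h2]
    exact hχ₀ ℓ hℓ h1 h2
  obtain ⟨α, hα1, hα2, hα3, hα4⟩ := exists_alpha hp𝒪 B hBgood (tOf χ₀)
    (fun q hq => ht q (hBgood q hq).prime (hBgood q hq).not_mem)
  obtain ⟨SQ, hSQdef⟩ : ∃ SQ : Finset ℕ, SQ = Sbad W p ∪ Rs ∪ Finset.univ.image Q.q := ⟨_, rfl⟩
  have hSQiff : ∀ ℓ : ℕ, ℓ ∈ SQ ↔ ℓ ∈ Sbad W p ∪ Rs ∨ ∃ i, ℓ = V.q i := by
    intro ℓ
    rw [hSQdef, Finset.mem_union (s := Sbad W p ∪ Rs), Finset.mem_image, hVq]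
    refine or_congr Iff.rfl ⟨?_, ?_⟩
    · rintro ⟨i, -, rfl⟩; exact ⟨i, rfl⟩
    · rintro ⟨i, rfl⟩; exact ⟨i, Finset.mem_univ i, rfl⟩
  have hSbadSQ : Sbad W p ⊆ SQ := fun ℓ h =>
    (hSQiff ℓ).mpr (Or.inl (Finset.mem_union_left _ h))
  have hG : V.Good (↑(Sbad W p ∪ Rs) : Set ℕ) (↑B : Set ℕ) := by
    refine ⟨hN0, hp2, fun ℓ hℓ h => Finset.mem_coe.mpr (hNS ℓ hℓ h), fun s hs => ?_⟩
    have hs' := Finset.mem_coe.mp hs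
    refine ⟨(hBgood s hs').prime, ?_⟩
    rcases (hBiff s).mp hs' with h | ⟨i, rfl⟩
    · refine Dvd.dvd.mul_right ?_ _
      rw [hN]
      exact (Finset.dvd_prod_of_mem (fun q => q) h).mul_left _
    · exact (V.dvd_Q i).mul_left _
  have hSQ : IsSQ V (↑(Sbad W p ∪ Rs) : Set ℕ) (↑SQ : Set ℕ) := by
    intro ℓ hℓ
    rw [Finset.mem_coe, Finset.mem_coe, hSQiff, V.prime_dvd_Q_iff hℓ]
  have hlev0 : N * V.Q ^ 2 ≠ 0 := mul_ne_zero hN0 (pow_ne_zero 2 V.Q_ne_zero)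
  have : NeZero (N * V.Q ^ 2) := ⟨hlev0⟩
  have : Fact (HasIntegralStructure (N * V.Q ^ 2) 2) := ⟨IntStr.hasIntegralStructure _ 2⟩
  have hlevS : ∀ q : ℕ, q.Prime → q ∣ N * V.Q ^ 2 → q ∈ SQ := by
    intro q hq h
    by_contra hc
    exact not_dvd_sq_of_IsSQ hG hSQ hq (fun h' => hc (Finset.mem_coe.mp h')) h
  have hdvd : Nmin W p ∣ N * V.Q ^ 2 := Dvd.dvd.mul_right ⟨_, hN⟩ _
  have hθW : ThetaW W (((residue 𝒪).comp χ₀).comp (TWBase.chg hdvd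
      (Finset.coe_subset.mpr hSbadSQ) (fun q hq h => Finset.mem_coe.mpr (hlevS q hq h)))) :=
    hχ₀.chg hdvd _ _
  obtain ⟨θ, hθdef⟩ : ∃ θ : heckeAlgebra (N * V.Q ^ 2) 2 (↑SQ : Set ℕ) →+* ResidueField 𝒪,
      ThetaW W θ := ⟨_, hθW⟩
  have hθ : ∀ (ℓ : ℕ) (hℓ : ℓ.Prime) (hℓN : ¬ ℓ ∣ N * V.Q ^ 2) (hℓS : ℓ ∉ (↑SQ : Set ℕ)),
      residue 𝒪 (tOf χ₀ ℓ) = θ (heckeAlgebra.T hℓ hℓN hℓS) := by
    intro ℓ hℓ hℓN hℓS
    rw [hθdef ℓ hℓ hℓN hℓS]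
    exact ht ℓ hℓ fun h => hℓS (Finset.mem_coe.mpr (hSbadSQ h))
  have hρt0 : ∀ ℓ : ℕ, ℓ.Prime → ℓ ∉ Sbad W p → ∀ A : ValuationSubring Qbar,
      A.LiesOverPrime ℓ → ∀ σ : Γℚ, A.IsFrobeniusAt σ ℓ →
        LinearMap.charpoly ((rhoBar W hΔ p 𝒪).ρ σ) =
          X ^ 2 - C (residue 𝒪 (tOf χ₀ ℓ)) * X + C ((ℓ : ℕ) : ResidueField 𝒪) := by
    intro ℓ hℓ hℓS A hA σ hσ
    obtain ⟨h1, h2⟩ := not_mem_Sbad hΔ hℓ hℓS
    rw [ht ℓ hℓ hℓS, rhoBar_charpoly_frob hΔ 𝒪 hℓ h1 h2 A hA hσ]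
  have hρt : ∀ ℓ : ℕ, ℓ.Prime → ℓ ∉ SQ → ∀ A : ValuationSubring Qbar,
      A.LiesOverPrime ℓ → ∀ σ : Γℚ, A.IsFrobeniusAt σ ℓ →
        LinearMap.charpoly ((rhoBar W hΔ p 𝒪).ρ σ) =
          X ^ 2 - C (residue 𝒪 (tOf χ₀ ℓ)) * X + C ((ℓ : ℕ) : ResidueField 𝒪) :=
    fun ℓ hℓ hℓS => hρt0 ℓ hℓ fun h => hℓS (hSbadSQ h)
  have habs := rhoBar_isAbsolutelyIrreducible (W := W) (p := p) hΔ 𝒪 hp2 hss hirr
  -- the level
  have hlev : N * V.Q ^ 2 = Typ.twLevel W p (∏ q ∈ Rs, q) (Finset.univ.image Q.q) := by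
    have h1 : V.Q = ∏ q ∈ Finset.univ.image Q.q, q := by
      rw [Finset.prod_image (fun i _ j _ h => Q.q_injective h), TWP.Q, hVq]
    have h2 : ∀ x : ℕ, N * x ^ 2 = (∏ q ∈ Rs, q) * Nmin W p * x ^ 2 := fun x => by
      rw [hN]; ring
    rw [Typ.twLevel, ← h1]
    exact h2 _
  have hAux : Typ.AuxOK W p (ResidueField 𝒪) (∏ q ∈ Rs, q) (Finset.univ.image Q.q) := by
    have hd : ∀ r : ℕ, r.Prime → r ∣ ∏ q ∈ Rs, q → r ∈ Rs := by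
      intro r hr h
      obtain ⟨q, hq, hd⟩ := (Prime.dvd_finsetProd_iff hr.prime _).mp h
      rw [(Nat.prime_dvd_prime_iff_eq hr (hRp q hq)).mp hd]
      exact hq
    refine ⟨?_, ?_, ?_, ?_, ?_⟩
    · refine Finset.squarefree_prod_of_pairwise_isCoprime (fun i hi j hj hij => ?_)
        fun i hi => (hRp i hi).squarefree
      exact Nat.coprime_iff_isRelPrime.mp ((Nat.coprime_primes (hRp i hi) (hRp j hj)).mpr hij)
    · rintro r hr h rfl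
      exact (hRs r (hd r hr h)).not_mem p_mem_Sbad
    · intro r hr h
      exact (not_mem_Sbad hΔ hr (hRs r (hd r hr h)).not_mem).2
    · intro r hr h h'
      obtain ⟨i, -, hi⟩ := Finset.mem_image.mp h'
      exact Q.not_mem i (by rw [hi]; exact Finset.mem_union_right _ (hd r hr h))
    · intro r hr h
      exact (hRs r (hd r hr h)).ne
  -- control
  obtain ⟨e₀, he₀, -⟩ := Control.exists_controlIter_M0 (ε := 1) (α := α) (t := tOf χ₀)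
    (S₀ := (↑(Sbad W p) : Set ℕ)) V
    (fun ℓ hℓ h => Finset.mem_coe.mpr (hNmS ℓ hℓ h)) hN hRp (S := (↑(Sbad W p ∪ Rs) : Set ℕ))
    (fun ℓ => by rw [Finset.mem_coe, Finset.mem_coe, Finset.mem_union]) hBiff rfl
    (fun q hq h => (hBgood q hq).not_mem (Finset.mem_coe.mp h)) hα1 hα2 hα3 hα4
    (Eig.hnewIter I.s30 I.s35 hp𝒪 (rhoBar W hΔ p 𝒪) habs (Sbad W p) p_mem_Sbad (tOf χ₀) hρt0
      hNmS (fun q hq => (hBgood q hq).prime) (fun q hq => (hBgood q hq).not_mem) hα4 1 α)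
  have hMeq : part (sgnMS 𝒪 1 (Gamma0 (Nmin W p)))
      (Control.opF {ℓ | ℓ.Prime ∧ ℓ ∉ (↑(Sbad W p) : Set ℕ)} (tOf χ₀) ∅ α) =
        Num.Mmin (↑(Sbad W p) : Set ℕ) (tOf χ₀) (Nmin W p) := by
    rw [← fam_eq_opF]
    exact Mb_eq_MP
  obtain ⟨E, hE⟩ : ∃ E : part (sgnMS 𝒪 1 (Gamma0 (Nmin W p)))
      (Control.opF {ℓ | ℓ.Prime ∧ ℓ ∉ (↑(Sbad W p) : Set ℕ)} (tOf χ₀) ∅ α) ≃ₗ[𝒪]
        Num.Mmin (↑(Sbad W p) : Set ℕ) (tOf χ₀) (Nmin W p),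
      ∀ x, (E x : Pairs 𝒪) = x :=
    ⟨LinearEquiv.ofEq _ _ hMeq, fun x => LinearEquiv.coe_ofEq_apply _ _⟩
  have hE' : ∀ y, (E.symm y : Pairs 𝒪) = y := fun y => by
    rw [← hE (E.symm y), LinearEquiv.apply_symm_apply]
  obtain ⟨e, he⟩ : ∃ e : V.M0 1 (↑(Sbad W p ∪ Rs) : Set ℕ) (tOf χ₀) (↑B : Set ℕ) α ≃ₗ[𝒪]
      Num.Mmin (↑(Sbad W p) : Set ℕ) (tOf χ₀) (Nmin W p), ∀ x, e x = E (e₀.symm x) :=
    ⟨e₀.symm.trans E, fun x => rfl⟩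
  letI i1 : Module D₁.R (Num.Mmin (↑(Sbad W p) : Set ℕ) (tOf χ₀) (Nmin W p)) :=
    Module.compHom _ (Ψ : D₁.R →+* Module.End 𝒪
      (Num.Mmin (↑(Sbad W p) : Set ℕ) (tOf χ₀) (Nmin W p)))
  have hsm : ∀ (f : D₁.R) (x : Num.Mmin (↑(Sbad W p) : Set ℕ) (tOf χ₀) (Nmin W p)),
      f • x = Ψ f x := fun _ _ => rfl
  have htower : IsScalarTower 𝒪 D₁.R
      (Num.Mmin (↑(Sbad W p) : Set ℕ) (tOf χ₀) (Nmin W p)) := ⟨fun c f x => by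
    rw [hsm, hsm, map_smul, LinearMap.smul_apply]⟩
  subst hV
  refine exists_TWHecke_level (W := toTWP Q hNS hpS) I.s30 I.s35 h36
    (by exact_mod_cast isUnit_natCast_of_ne hp𝒪 Nat.prime_two (Ne.symm hp2)) hp𝒪 hG hSQ
    (hSbadSQ p_mem_Sbad) ?_ hθ hρt DQ ?_ ?_ Q.liesOver Q.isFrobenius Q.α_ne_β Q.charpoly T πR
    (Num.Mmin (↑(Sbad W p) : Set ℕ) (tOf χ₀) (Nmin W p)) e ?_
  · rcases h3 with h3 | ⟨s, hs, hs3⟩
    · exact Or.inl h3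
    · refine Or.inr ⟨s, hRp s hs, hs3, ?_⟩
      rw [hN]
      exact (Finset.dvd_prod_of_mem (fun q => q) hs).mul_left _
  · intro X _ _ _ Ψ₁ Ψ₂ S' h
    exact TW.end_eq_of_frob DQ (good_dCond 𝒪 _ _ (tmin W p) hp.out hp2).baseChange hp.out
      (dCond_det DQ.isOfType) S' Ψ₁ Ψ₂ h
  · intro d hd hdet
    exact datum_dCond_tw hΔ I hp𝒪 hp2 hss hirr hτ hSbadSQ hAux
      (fun q hq => by
        obtain ⟨i, -, rfl⟩ := Finset.mem_image.mp hq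
        exact Q.prime i)
      (fun q hq h => by
        obtain ⟨i, -, rfl⟩ := Finset.mem_image.mp hq
        exact Q.not_mem i (Finset.mem_union_left _ (Smin_subset_Sbad h))) hlev hlevS hθdef d
  · intro ℓ hℓ hℓS A hA σ hσ x x' hx
    have htr : πR (DQ.ρ.trace σ) = D₁.ρ.trace σ := trace_of_isEquiv _ hπ hequiv σ
    have hℓS' : ℓ ∉ Sbad W p := fun h => hℓS (hSbadSQ h)
    have hℓB : ℓ ∉ B := fun h => hℓS ((hSQiff ℓ).mpr (by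
      rcases (hBiff ℓ).mp h with h | h
      · exact Or.inl (Finset.mem_union_right _ h)
      · exact Or.inr h))
    rw [htr, hsm]
    obtain ⟨y', hy'⟩ : ∃ y', y' = Ψ (D₁.ρ.trace σ) (e x) := ⟨_, rfl⟩
    have h1 : (y' : Pairs 𝒪) = heckeT ℓ (e x : Pairs 𝒪) := by
      rw [hy']; exact hΨ ℓ hℓ hℓS' A hA σ hσ (e x)
    rw [← hy']
    have h2 : (e x : Pairs 𝒪) = (e₀.symm x : Pairs 𝒪) := by rw [he, hE]
    have h4 := he₀ ℓ hℓ (fun h => hℓS' (Finset.mem_coe.mp h)) hℓB (e₀.symm x) (E.symm y')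
      (by rw [hE', h1, h2])
    rw [LinearEquiv.apply_symm_apply, ← hx] at h4
    have h5 : e₀ (E.symm y') = x' := Subtype.ext h4
    rw [← h5, he, LinearEquiv.symm_apply_apply, LinearEquiv.apply_symm_apply]

end

/-- **The Hecke side input at the Taylor–Wiles levels.** -/
theorem twInputProp (I : Typ.Inputs) (h36 : CMP.S58Assembly.S36Prop) (hτ : TauAll) :
    TWInputProp := by
  intro p _ hp2 W hΔ hss hirr _ 𝒪 _ _ _ _ _ _ _ _ _ hp𝒪 hζ χ₀ hχ₀ D₁ Ψ hΨ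
  obtain ⟨Rs, hRs, h3⟩ := exists_auxSet (𝒪 := 𝒪) hΔ hp2 hss hirr hp𝒪 hζ
  refine ⟨Sbad W p ∪ Rs, Finset.subset_union_left, fun q hq => ?_,
    twInput_W hΔ I h36 hp𝒪 hp2 hss hirr (hτ p hp2 W hΔ hss hirr 𝒪 hp𝒪) χ₀ hχ₀ D₁ Ψ hΨ Rs hRs h3⟩
  rcases Finset.mem_union.mp hq with h | h
  · exact prime_of_mem_Sbad Fact.out h
  · exact (hRs q h).prime

end Fermat.Agent.RT.TWIn
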