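import Fermat.Agent.RT.TWInst
import Fermat.Agent.RT.TWEig1M
import Fermat.Agent.RT.Wiring.HDatum
import Fermat.Agent.RT.TWEig2M
import Fermat.Agent.RT.TWBase
import Fermat.Agent.RT.DatumGal

/-!
# The action of the deformation ring on the Taylor–Wiles module (team RT, helper59)

* `toTWP` : the `TWP` attached to a `TWSet`;
* `commute_of_gen` : an endomorphism commuting with the Hecke operators commutes with the image of
  `heckeLocal`;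
* `TWAction` : the action of a deformation ring on the Taylor–Wiles module.
-/

set_option autoImplicit false
set_option linter.unusedSectionVars false
set_option linter.style.haveILetI false

open Matrix Matrix.SpecialLinearGroup CongruenceSubgroup IsLocalRing CuspForm Polynomial
open scoped MatrixGroups OnePoint

noncomputable section

namespace Fermat.Agent.RT.TWIn

open Fermat.Agent.LR Fermat.Agent.LR.PS Fermat.Agent.RT Fermat.Agent.RT.TwistH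
  Fermat.Agent.RT.GroupAlg Fermat.Agent.RT.Dict Fermat.Agent.RT.Loc Fermat.Agent.RT.GR
  Fermat.Agent.RT.MSHecke Fermat.Agent.RT.HeckeLocalFields Fermat.Agent.RT.TWS
  Fermat.Agent.RT.TWS.TWP Fermat.Agent.UDef Fermat.Agent.RT.TWInertia

local notation "Qbar" => AlgebraicClosure ℚ
local notation "Γℚ" => (AlgebraicClosure ℚ ≃ₐ[ℚ] AlgebraicClosure ℚ)

/-- The `TWP` attached to a `TWSet`. -/
def toTWP {k : Type} [Field k] {ρbar : ResidualGaloisRep k} {p : ℕ} {S : Finset ℕ} {n r : ℕ}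
    (Q : TW.TWSet ρbar p S n r) {N : ℕ} (hNS : ∀ ℓ : ℕ, ℓ.Prime → ℓ ∣ N → ℓ ∈ S) (hpS : p ∈ S) :
    TWP p N r where
  q := Q.q
  inj := Q.q_injective
  prime := Q.prime
  ndvd i h := Q.not_mem i (hNS _ (Q.prime i) h)
  ne i h := Q.not_mem i (by rw [h]; exact hpS)
  a := Q.a
  apos i := by have := Q.lt_a i; omega
  ha := Q.dvd
  ha' := Q.not_dvd

section gen

variable {M : ℕ} [NeZero M] {S : Set ℕ} {𝒪 : Type} [CommRing 𝒪] [IsDomain 𝒪]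
  [IsDiscreteValuationRing 𝒪] [IsAdicComplete (maximalIdeal 𝒪) 𝒪]
  {θ : heckeAlgebra M 2 S →+* ResidueField 𝒪} [Fact (HasIntegralStructure M 2)]

/-- `heckeLocal` is generated by the Hecke operators. -/
theorem adjoin_gen (h : ∀ ℓ : ℕ, ℓ.Prime → ℓ ∉ S → ¬ ℓ ∣ M)
    (B : Subalgebra 𝒪 (heckeLocal M S 𝒪 θ))
    (hB : ∀ (ℓ : ℕ) (hℓ : ℓ.Prime) (hℓM : ¬ ℓ ∣ M) (hℓS : ℓ ∉ S),
      heckeLocal.π M S 𝒪 θ (heckeAlgebra.T hℓ hℓM hℓS) ∈ B) : B = ⊤ := by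
  rw [eq_top_iff, ← adjoin_range_π M S 𝒪 θ]
  refine Algebra.adjoin_le ?_
  rintro _ ⟨t, rfl⟩
  obtain ⟨P, rfl⟩ := evForms_surjective M S t
  induction P using MvPolynomial.induction_on with
  | C a =>
    rw [show (MvPolynomial.C a : MvPolynomial (Idx S) ℤ) = algebraMap ℤ _ a from rfl,
      AlgHom.commutes]
    have h1 : heckeLocal.π M S 𝒪 θ (algebraMap ℤ _ a) = ((a : ℤ) : heckeLocal M S 𝒪 θ) := by
      rw [eq_intCast, map_intCast]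
    rw [h1]
    exact intCast_mem B a
  | add P₁ P₂ h1 h2 => rw [map_add, map_add]; exact add_mem h1 h2
  | mul_X P i h1 =>
    rw [map_mul, map_mul, evForms_X, genS_of_not_dvd M S i (h _ i.1.2 i.2)]
    exact mul_mem h1 (hB _ _ _ _)

/-- An endomorphism commuting with the Hecke operators commutes with the image of `heckeLocal`. -/
theorem commute_of_gen (h : ∀ ℓ : ℕ, ℓ.Prime → ℓ ∉ S → ¬ ℓ ∣ M) {E : Type*} [Semiring E] [Algebra 𝒪 E]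
    (Φ : heckeLocal M S 𝒪 θ →ₐ[𝒪] E) (b : E)
    (hb : ∀ (ℓ : ℕ) (hℓ : ℓ.Prime) (hℓM : ¬ ℓ ∣ M) (hℓS : ℓ ∉ S),
      Commute (Φ (heckeLocal.π M S 𝒪 θ (heckeAlgebra.T hℓ hℓM hℓS))) b)
    (x : heckeLocal M S 𝒪 θ) : Commute (Φ x) b := by
  have h1 := adjoin_gen (θ := θ) h ((Subalgebra.centralizer 𝒪 {b}).comap Φ) (by
    intro ℓ hℓ hℓM hℓS
    rw [Subalgebra.mem_comap, Subalgebra.mem_centralizer_iff]
    rintro _ rfl
    exact (hb ℓ hℓ hℓM hℓS).eq.symm)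
  have h2 : x ∈ (Subalgebra.centralizer 𝒪 {b}).comap Φ := by rw [h1]; exact Algebra.mem_top
  rw [Subalgebra.mem_comap, Subalgebra.mem_centralizer_iff] at h2
  exact (h2 b rfl).symm

end gen

section level

variable {p : ℕ} [hp : Fact p.Prime] {𝒪 : Type} [CommRing 𝒪] [IsDomain 𝒪]
  [IsDiscreteValuationRing 𝒪] [IsAdicComplete (maximalIdeal 𝒪) 𝒪] [Finite (ResidueField 𝒪)]
  [CharZero 𝒪] {ρbar : ResidualGaloisRep (ResidueField 𝒪)}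
  {N r : ℕ} {W : TWP p N r} {t α : ℕ → 𝒪} {S I : Set ℕ} {SQ : Finset ℕ}

/-- The datum at the level `N Q²`. -/
theorem exists_datum_level (h30 : Datum.S30Statement) (hp2 : p ≠ 2)
    (hp𝒪 : (p : 𝒪) ∈ maximalIdeal 𝒪) (habs : ρbar.IsAbsolutelyIrreducible)
    {M : ℕ} [NeZero M] [Fact (HasIntegralStructure M 2)] (hpS : p ∈ SQ)
    (hMS : ∀ q : ℕ, q.Prime → q ∣ M → q ∈ SQ)
    {θ : heckeAlgebra M 2 (↑SQ : Set ℕ) →+* ResidueField 𝒪}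
    (hθ : ∀ (ℓ : ℕ) (hℓ : ℓ.Prime) (hℓM : ¬ ℓ ∣ M) (hℓS : ℓ ∉ (↑SQ : Set ℕ)),
      residue 𝒪 (t ℓ) = θ (heckeAlgebra.T hℓ hℓM hℓS))
    (hρt : ∀ ℓ : ℕ, ℓ.Prime → ℓ ∉ SQ → ∀ A : ValuationSubring Qbar, A.LiesOverPrime ℓ →
      ∀ σ : Γℚ, A.IsFrobeniusAt σ ℓ → LinearMap.charpoly (ρbar.ρ σ) =
        X ^ 2 - C (residue 𝒪 (t ℓ)) * X + C ((ℓ : ℕ) : ResidueField 𝒪)) :
    ∃ d : HeckeGaloisRepDatum M (↑SQ : Set ℕ) 𝒪 θ (heckeLocal M (↑SQ : Set ℕ) 𝒪 θ),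
      d.π = heckeLocal.π M (↑SQ : Set ℕ) 𝒪 θ ∧ d.ρ.DetIsCyclotomic p :=
  DatumGal.exists_datum_of_S30 hp2 M SQ hpS hMS 𝒪 hp𝒪 θ (RingHom.id _) (RingHom.id _) ρbar habs
    (fun ℓ hℓ hℓM hℓS A hA σ hσ => by
      rw [Polynomial.map_id, Polynomial.map_id, ← hθ ℓ hℓ hℓM hℓS]
      exact hρt ℓ hℓ (fun h => hℓS (Finset.mem_coe.mpr h)) A hA σ hσ) CMP.Density.frobDensity h30

variable {𝒟 : ∀ ⦃A : Type⦄ [CommRing A] [IsLocalRing A] [Algebra 𝒪 A], GaloisRepAdic A → Prop}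

theorem isUnramifiedAt_comp_iff {A B C : Type} [CommRing A] [IsLocalRing A] [CommRing B]
    [IsLocalRing B] [CommRing C] [IsLocalRing C] {ρ : GaloisRepAdic A} {ρ' : GaloisRepAdic B}
    {φ : A →+* B} (hφ : IsLocalHom φ) (he : (ρ.baseChangeAlong φ hφ).IsEquiv ρ') (f : B →+* C)
    (hf : IsLocalHom f) (hloc : IsLocalHom (f.comp φ)) {q : ℕ} :
    (ρ'.baseChangeAlong f hf).IsUnramifiedAt q ↔
      (ρ.baseChangeAlong (f.comp φ) hloc).IsUnramifiedAt q := by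
  have h4 : (ρ'.baseChangeAlong f hf).IsEquiv (ρ.baseChangeAlong (f.comp φ) hloc) :=
    SelStep.IsEquiv.trans' (SelStep.IsEquiv.bc (SelStep.IsEquiv.symm' he) f hf)
      (SelStep.bc_comp ρ φ hφ f hf _ hloc rfl)
  exact ⟨fun h => Wiring.isUnramifiedAt_of_isEquiv h4 h,
    fun h => Wiring.isUnramifiedAt_of_isEquiv (SelStep.IsEquiv.symm' h4) h⟩

/-- Restriction of an action along an injective map, compared with a second action. -/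
theorem ext_act {R' : Type} [CommRing R'] [Algebra 𝒪 R'] {X' X₀ M : Type} [AddCommGroup X']
    [Module 𝒪 X'] [AddCommGroup X₀] [Module 𝒪 X₀] [AddCommGroup M] [Module 𝒪 M]
    (Ψ : R' →ₐ[𝒪] Module.End 𝒪 X') (ι : X₀ →ₗ[𝒪] X') (hι : Function.Injective ι)
    (hstab : ∀ f x, Ψ f (ι x) ∈ LinearMap.range ι)
    {R₁ : Type} [CommRing R₁] [Algebra 𝒪 R₁] (πR : R' →ₐ[𝒪] R₁)
    [Module R₁ M] [IsScalarTower 𝒪 R₁ M] (e : X₀ ≃ₗ[𝒪] M) (F : Set R')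
    (hUniq : ∀ (Ψ₁ Ψ₂ : R' →ₐ[𝒪] Module.End 𝒪 X₀), (∀ f ∈ F, Ψ₁ f = Ψ₂ f) → Ψ₁ = Ψ₂)
    (he : ∀ f ∈ F, ∀ x x' : X₀, ι x' = Ψ f (ι x) → e x' = πR f • e x)
    (f : R') (x y : X₀) (hxy : ι y = Ψ f (ι x)) : e y = πR f • e x := by
  choose g hg using hstab
  let Ψ₁ : R' →ₐ[𝒪] Module.End 𝒪 X₀ :=
    { toFun := fun f =>
        { toFun := g f
          map_add' := fun x y => hι (by rw [hg, map_add, map_add, map_add, hg, hg])
          map_smul' := fun c x => hι (by rw [hg, map_smul, map_smul, map_smul, hg]; rfl) }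
      map_one' := LinearMap.ext fun x => hι (by
        show ι (g 1 x) = ι x
        rw [hg, map_one]; rfl)
      map_mul' := fun f f' => LinearMap.ext fun x => hι (by
        show ι (g (f * f') x) = ι (g f (g f' x))
        rw [hg, map_mul, Module.End.mul_apply, hg, hg])
      map_zero' := LinearMap.ext fun x => hι (by
        show ι (g 0 x) = ι 0
        rw [hg, map_zero, LinearMap.zero_apply, map_zero])
      map_add' := fun f f' => LinearMap.ext fun x => hι (by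
        show ι (g (f + f') x) = ι (g f x + g f' x)
        rw [hg, map_add, LinearMap.add_apply, map_add, hg, hg])
      commutes' := fun c => LinearMap.ext fun x => hι (by
        show ι (g (algebraMap 𝒪 R' c) x) = ι (c • x)
        rw [hg, AlgHom.commutes, Module.algebraMap_end_apply, map_smul]) }
  have hΨ₁ : ∀ f x, ι (Ψ₁ f x) = Ψ f (ι x) := fun f x => hg f x
  let Ψ₂ : R' →ₐ[𝒪] Module.End 𝒪 X₀ :=
    { toFun := fun f =>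
        { toFun := fun x => e.symm (πR f • e x)
          map_add' := fun x y => by rw [map_add, smul_add, map_add]
          map_smul' := fun c x => by
            rw [e.map_smul, smul_comm (πR f) c (e x), e.symm.map_smul]; rfl }
      map_one' := LinearMap.ext fun x => by
        show e.symm (πR 1 • e x) = x
        rw [map_one, one_smul, LinearEquiv.symm_apply_apply]
      map_mul' := fun f g => LinearMap.ext fun x => by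
        show e.symm (πR (f * g) • e x) = e.symm (πR f • e (e.symm (πR g • e x)))
        rw [map_mul, mul_smul, LinearEquiv.apply_symm_apply]
      map_zero' := LinearMap.ext fun x => by
        show e.symm (πR 0 • e x) = 0
        rw [map_zero, zero_smul, map_zero]
      map_add' := fun f g => LinearMap.ext fun x => by
        show e.symm (πR (f + g) • e x) = e.symm (πR f • e x) + e.symm (πR g • e x)
        rw [map_add, add_smul, map_add]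
      commutes' := fun c => LinearMap.ext fun x => by
        show e.symm (πR (algebraMap 𝒪 R' c) • e x) = c • x
        rw [AlgHom.commutes, algebraMap_smul, map_smul, LinearEquiv.symm_apply_apply] }
  have hΨ₂ : ∀ f x, e (Ψ₂ f x) = πR f • e x := fun f x => LinearEquiv.apply_symm_apply e _
  have h12 : Ψ₁ = Ψ₂ := hUniq Ψ₁ Ψ₂ fun f hf => LinearMap.ext fun x => e.injective (by
    rw [hΨ₂]
    exact he f hf x (Ψ₁ f x) (hΨ₁ f x))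
  have h6 : y = Ψ₁ f x := hι (by rw [hΨ₁]; exact hxy)
  rw [h6, h12, hΨ₂]

/-- The action of the deformation ring on the Taylor–Wiles module. -/
theorem exists_psi (h30 : Datum.S30Statement) (h35 : CMP.S58Assembly.S35Prop)
    (h36 : CMP.S58Assembly.S36Prop)
    (hp𝒪 : (p : 𝒪) ∈ maximalIdeal 𝒪) (hG : W.Good S I) (hSQ : IsSQ W S (↑SQ : Set ℕ))
    (hpS : p ∈ SQ)
    [NeZero (N * W.Q ^ 2)] [Fact (HasIntegralStructure (N * W.Q ^ 2) 2)]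
    {θ : heckeAlgebra (N * W.Q ^ 2) 2 (↑SQ : Set ℕ) →+* ResidueField 𝒪}
    (hθ : ∀ (ℓ : ℕ) (hℓ : ℓ.Prime) (hℓN : ¬ ℓ ∣ N * W.Q ^ 2) (hℓS : ℓ ∉ (↑SQ : Set ℕ)),
      residue 𝒪 (t ℓ) = θ (heckeAlgebra.T hℓ hℓN hℓS))
    (hρt : ∀ ℓ : ℕ, ℓ.Prime → ℓ ∉ SQ → ∀ A : ValuationSubring Qbar, A.LiesOverPrime ℓ →
      ∀ σ : Γℚ, A.IsFrobeniusAt σ ℓ → LinearMap.charpoly (ρbar.ρ σ) =
        X ^ 2 - C (residue 𝒪 (t ℓ)) * X + C ((ℓ : ℕ) : ResidueField 𝒪))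
    (D : GaloisRep.DeformationRingData 𝒪 ρbar 𝒟)
    (htype : ∀ d : HeckeGaloisRepDatum (N * W.Q ^ 2) (↑SQ : Set ℕ) 𝒪 θ
      (heckeLocal (N * W.Q ^ 2) (↑SQ : Set ℕ) 𝒪 θ),
      d.π = heckeLocal.π (N * W.Q ^ 2) (↑SQ : Set ℕ) 𝒪 θ → d.ρ.DetIsCyclotomic p → 𝒟 d.ρ)
    {P : Fin r → ValuationSubring Qbar} (hP : ∀ i, (P i).LiesOverPrime (W.q i))
    {φ : Fin r → Γℚ} (hφ : ∀ i, (P i).IsFrobeniusAt (φ i) (W.q i))
    {a b : Fin r → ResidueField 𝒪} (hab : ∀ i, a i ≠ b i)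
    (hchar : ∀ i, LinearMap.charpoly (ρbar.ρ (φ i)) = (X - C (a i)) * (X - C (b i)))
    (T : ∀ i, Data D.ρ (P i) (φ i) (p ^ W.a i)) :
    ∃ Ψ : D.R →ₐ[𝒪] Module.End 𝒪 (W.M' 1 S t I α),
      (∀ (ℓ : ℕ) (hℓ : ℓ.Prime) (hℓS : ℓ ∉ SQ) (A : ValuationSubring Qbar),
        A.LiesOverPrime ℓ → ∀ σ : Γℚ, A.IsFrobeniusAt σ ℓ → Ψ (D.ρ.trace σ) =
          hopM' hG 1 t α (isHop_TH hℓ (not_dvd_of_IsSQ hG hSQ hℓ
            (fun h => hℓS (Finset.mem_coe.mp h))))) ∧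
      (∀ f δ, Commute (Ψ f) (dia' hG 1 t α δ)) ∧
      (∀ i z, dia' hG 1 t α (GroupAlg.gen _ i) z = z → Ψ ((T i).g : D.R) z = z) ∧
      (∀ i z, ∑ j ∈ Finset.range p, dia' hG 1 t α (GroupAlg.gen _ i ^ j) z = 0 →
        Ψ ((T i).g : D.R) z = z → z = 0) := by
  have hNS : ∀ ℓ : ℕ, ℓ.Prime → ℓ ∉ (↑SQ : Set ℕ) → ¬ ℓ ∣ N * W.Q ^ 2 := fun ℓ hℓ h =>
    not_dvd_sq_of_IsSQ hG hSQ hℓ h
  have hNS' : ∀ q : ℕ, q.Prime → q ∣ N * W.Q ^ 2 → q ∈ SQ := fun q hq h => by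
    by_contra hc
    exact hNS q hq (fun h' => hc (Finset.mem_coe.mp h')) h
  have hpk : (p : ResidueField 𝒪) = 0 := by
    rw [← map_natCast (residue 𝒪)]
    exact (residue_eq_zero_iff _).mpr hp𝒪
  obtain ⟨d, hd, hdet⟩ := exists_datum_level h30 hG.hp2 hp𝒪 D.absIrr hpS hNS' hθ hρt
  have hfrob : ∀ (ℓ : ℕ) (hℓ : ℓ.Prime) (hℓN : ¬ ℓ ∣ N * W.Q ^ 2) (hℓS : ℓ ∉ (↑SQ : Set ℕ)),
      ∀ A : ValuationSubring Qbar, A.LiesOverPrime ℓ →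
        ∀ σ : Γℚ, A.IsFrobeniusAt σ ℓ → LinearMap.charpoly (ρbar.ρ σ) =
          X ^ 2 - C (θ (heckeAlgebra.T hℓ hℓN hℓS)) * X + C ((ℓ : ResidueField 𝒪)) := by
    intro ℓ hℓ hℓN hℓS A hA σ hσ
    rw [← hθ ℓ hℓ hℓN hℓS]
    exact hρt ℓ hℓ (fun h => hℓS (Finset.mem_coe.mpr h)) A hA σ hσ
  obtain ⟨φQ, hφQ1, hφQ2, hφQ3⟩ := Wiring.exists_surj_of_datum D d hNS' (htype d hd hdet) hfrob
  have hres := Wiring.datum_residual_isEquiv d hNS' D.absIrr hfrob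
  obtain ⟨ℓ₀, hℓ₀, hℓ₀S, hℓ₀1, hℓ₀2⟩ := TWBase.exists_nonEis hpk ρbar D.absIrr SQ
    (fun ℓ => residue 𝒪 (t ℓ)) hρt (N * W.Q ^ 2) SQ
  have hE : ∃ ℓ₀ : ℕ, ℓ₀.Prime ∧ ℓ₀ ∉ (↑SQ : Set ℕ) ∧ ((ℓ₀ : ℕ) : ZMod (N * W.Q ^ 2)) = 1 ∧
      residue 𝒪 (t ℓ₀) ≠ 1 + (ℓ₀ : ResidueField 𝒪) :=
    ⟨ℓ₀, hℓ₀, fun h => hℓ₀S (Finset.mem_coe.mp h), hℓ₀1, hℓ₀2⟩
  obtain ⟨Φ, hΦ⟩ := TWP.exists_act (ε := 1) (α := α) (I := I) hG hSQ θ hθ hE
  have hg : ∀ (i : Fin r) (𝒪' : Type) [CommRing 𝒪'] [IsDomain 𝒪'] [IsLocalRing 𝒪']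
      (f : heckeLocal (N * W.Q ^ 2) (↑SQ : Set ℕ) 𝒪 θ →+* 𝒪') (hf : IsLocalHom f),
      (d.ρ.baseChangeAlong f hf).IsUnramifiedAt (W.q i) ↔ f (φQ ((T i).g : D.R)) = 1 := by
    intro i 𝒪' _ _ _ f hf
    have hloc : IsLocalHom (f.comp (φQ : D.R →+* _)) := RingHom.isLocalHom_comp _ _
    have h1 := (T i).isUnramifiedAt_iff (W.prime i) (hP i) (f.comp (φQ : D.R →+* _)) hloc
    exact (isUnramifiedAt_comp_iff hφQ2 hφQ3 f hf hloc).trans h1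
  refine ⟨Φ.comp φQ, ?_, ?_, ?_, ?_⟩
  · intro ℓ hℓ hℓS A hA σ hσ
    have hℓS' : ℓ ∉ (↑SQ : Set ℕ) := fun h => hℓS (Finset.mem_coe.mp h)
    rw [AlgHom.comp_apply, Wiring.map_trace_frob D d φQ hφQ2 hφQ3 hℓ (hNS ℓ hℓ hℓS') hℓS' hA hσ,
      hd, hΦ]
  · intro f δ
    refine commute_of_gen hNS Φ _ (fun ℓ hℓ hℓN hℓS => ?_) (φQ f)
    rw [hΦ]
    exact hopM'_dia' hG _ δ
  · intro i z hz
    refine eig_one h30 h35 hp𝒪 hG hSQ hpS hθ hE d hd Φ hΦ i (hP i) (hφ i)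
      (α' := ResidueField.map (algebraMap 𝒪 _) (a i)) (β' := ResidueField.map (algebraMap 𝒪 _) (b i))
      (fun h => hab i ((ResidueField.map (algebraMap 𝒪 _)).injective h)) ?_
      (fun 𝒪' _ _ _ f hf h => (hg i 𝒪' f hf).mp h) hz
    rw [charpoly_of_isEquiv hres, hchar, Polynomial.map_mul, Polynomial.map_sub,
      Polynomial.map_sub, Polynomial.map_X, Polynomial.map_C, Polynomial.map_C]
  · intro i z hz hgz
    exact eig_two h36 hp𝒪 hG hSQ hpS hθ hE d hd Φ hΦ i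
      (fun 𝒪' _ _ _ f hf h => (hg i 𝒪' f hf).mpr h) hp.out.ne_zero hz hgz

/-- **The `TWHecke` structure at one Taylor–Wiles level.** -/
theorem exists_TWHecke_level (h30 : Datum.S30Statement) (h35 : CMP.S58Assembly.S35Prop)
    (h36 : CMP.S58Assembly.S36Prop) (h2 : IsUnit (2 : 𝒪))
    (hp𝒪 : (p : 𝒪) ∈ maximalIdeal 𝒪) (hG : W.Good S I) (hSQ : IsSQ W S (↑SQ : Set ℕ))
    (hpS : p ∈ SQ)
    (h3 : IsUnit (3 : 𝒪) ∨ ∃ s : ℕ, s.Prime ∧ s % 3 = 2 ∧ s ∣ N)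
    [NeZero (N * W.Q ^ 2)] [Fact (HasIntegralStructure (N * W.Q ^ 2) 2)]
    {θ : heckeAlgebra (N * W.Q ^ 2) 2 (↑SQ : Set ℕ) →+* ResidueField 𝒪}
    (hθ : ∀ (ℓ : ℕ) (hℓ : ℓ.Prime) (hℓN : ¬ ℓ ∣ N * W.Q ^ 2) (hℓS : ℓ ∉ (↑SQ : Set ℕ)),
      residue 𝒪 (t ℓ) = θ (heckeAlgebra.T hℓ hℓN hℓS))
    (hρt : ∀ ℓ : ℕ, ℓ.Prime → ℓ ∉ SQ → ∀ A : ValuationSubring Qbar, A.LiesOverPrime ℓ →
      ∀ σ : Γℚ, A.IsFrobeniusAt σ ℓ → LinearMap.charpoly (ρbar.ρ σ) =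
        X ^ 2 - C (residue 𝒪 (t ℓ)) * X + C ((ℓ : ℕ) : ResidueField 𝒪))
    (D : GaloisRep.DeformationRingData 𝒪 ρbar 𝒟)
    (hUniq : ∀ (X : Type) [AddCommGroup X] [Module 𝒪 X] [Module.Finite 𝒪 X]
      (Ψ₁ Ψ₂ : D.R →ₐ[𝒪] Module.End 𝒪 X) (S' : Finset ℕ),
      (∀ ℓ : ℕ, ℓ.Prime → ℓ ∉ S' → ∀ A : ValuationSubring Qbar, A.LiesOverPrime ℓ →
        ∀ σ : Γℚ, A.IsFrobeniusAt σ ℓ → Ψ₁ (D.ρ.trace σ) = Ψ₂ (D.ρ.trace σ)) → Ψ₁ = Ψ₂)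
    (htype : ∀ d : HeckeGaloisRepDatum (N * W.Q ^ 2) (↑SQ : Set ℕ) 𝒪 θ
      (heckeLocal (N * W.Q ^ 2) (↑SQ : Set ℕ) 𝒪 θ),
      d.π = heckeLocal.π (N * W.Q ^ 2) (↑SQ : Set ℕ) 𝒪 θ → d.ρ.DetIsCyclotomic p → 𝒟 d.ρ)
    {P : Fin r → ValuationSubring Qbar} (hP : ∀ i, (P i).LiesOverPrime (W.q i))
    {φ : Fin r → Γℚ} (hφ : ∀ i, (P i).IsFrobeniusAt (φ i) (W.q i))
    {a b : Fin r → ResidueField 𝒪} (hab : ∀ i, a i ≠ b i)
    (hchar : ∀ i, LinearMap.charpoly (ρbar.ρ (φ i)) = (X - C (a i)) * (X - C (b i)))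
    (T : ∀ i, Data D.ρ (P i) (φ i) (p ^ W.a i))
    {R₁ : Type} [CommRing R₁] [Algebra 𝒪 R₁] (πR : D.R →ₐ[𝒪] R₁)
    (M : Type) [AddCommGroup M] [Module 𝒪 M] [Module R₁ M] [IsScalarTower 𝒪 R₁ M]
    (e : W.M0 1 S t I α ≃ₗ[𝒪] M)
    (he : ∀ ℓ : ℕ, ℓ.Prime → ℓ ∉ SQ → ∀ A : ValuationSubring Qbar, A.LiesOverPrime ℓ →
      ∀ σ : Γℚ, A.IsFrobeniusAt σ ℓ → ∀ x x' : W.M0 1 S t I α,
        (x' : Pairs 𝒪) = heckeT ℓ x → e x' = πR (D.ρ.trace σ) • e x) :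
    Nonempty (TW.TWHecke 𝒪 p W.a (fun i => ((T i).g : D.R)) πR M) := by
  obtain ⟨Ψ, hΨT, hΨD, hE1, hE2⟩ := exists_psi (α := α) h30 h35 h36 hp𝒪 hG hSQ hpS hθ hρt D htype
    hP hφ hab hchar T
  refine exists_TWHecke hG h2 hp𝒪 h3 _ πR M Ψ hΨD hE1 hE2 e ?_
  have hfin := finite_M' (𝒪 := 𝒪) (ε := 1) (t := t) (α := α) hG
  have hfin0 : Module.Finite 𝒪 (W.M0 1 S t I α) :=
    Module.Finite.of_injective (Submodule.inclusion (M0_le hG)) (Submodule.inclusion_injective _)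
  refine ext_act Ψ (Submodule.inclusion (M0_le hG)) (Submodule.inclusion_injective _) ?_ πR e
    {f | ∃ ℓ : ℕ, ℓ.Prime ∧ ℓ ∉ SQ ∧ ∃ A : ValuationSubring Qbar, A.LiesOverPrime ℓ ∧
      ∃ σ : Γℚ, A.IsFrobeniusAt σ ℓ ∧ f = D.ρ.trace σ} ?_ ?_
  · intro f x
    set z := Ψ f (Submodule.inclusion (M0_le hG) x) with hz
    have hzδ : ∀ δ, dia' hG 1 t α δ z = z := by
      intro δ
      have h1 : dia' hG 1 t α δ (Submodule.inclusion (M0_le hG) x) =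
          Submodule.inclusion (M0_le hG) x :=
        Subtype.ext (D_of_mem_Gamma0 ((mem_M0_iff hG).mp x.2).2 δ)
      have h2 := LinearMap.congr_fun (hΨD f δ).eq (Submodule.inclusion (M0_le hG) x)
      rw [Module.End.mul_apply, Module.End.mul_apply, h1] at h2
      exact h2.symm
    have hz0 : (z : Pairs 𝒪) ∈ W.M0 1 S t I α := by
      rw [mem_M0_iff hG]
      refine ⟨z.2, ?_⟩
      rw [mem_Gamma0_iff_D hG.hyp (M'_le_MS z.2)]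
      intro δ
      have h3 := congrArg Subtype.val (hzδ δ)
      rw [dia'_coe] at h3
      exact h3
    exact ⟨⟨(z : Pairs 𝒪), hz0⟩, Subtype.ext rfl⟩
  · intro Ψ₁ Ψ₂ h12
    exact hUniq (W.M0 1 S t I α) Ψ₁ Ψ₂ SQ fun ℓ hℓ hℓS A hA σ hσ =>
      h12 _ ⟨ℓ, hℓ, hℓS, A, hA, σ, hσ, rfl⟩
  · rintro f ⟨ℓ, hℓ, hℓS, A, hA, σ, hσ, rfl⟩ x x' hx
    refine he ℓ hℓ hℓS A hA σ hσ x x' ?_
    have h5 := congrArg Subtype.val hx
    rw [hΨT ℓ hℓ hℓS A hA σ hσ, hopM'_coe, Submodule.coe_inclusion, Submodule.coe_inclusion] at h5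
    rw [← TH_eq_of_mem_M0 hG x.2 ℓ]
    exact h5

end level

end Fermat.Agent.RT.TWIn
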