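import Mathlib
import Fermat.Agent.RT.Neben

/-!
# Twisting modular symbols by Dirichlet characters

`tw φ x = ∑_{u mod q} φ(u) x|[1 u/q; 0 1]` maps `MSψ (level L, ψ)` to
`MSψ (level L q, ψ φ⁻²)`; it satisfies `φ(ℓ) T_ℓ (tw x) = tw (T_ℓ x)`, commutes with the involution
if `φ(-1) = 1`, and it is injective if `q ∥ L`, `ψ_q = φ²` and `φ` has odd order.
-/

set_option autoImplicit false
set_option linter.unusedSectionVars false

noncomputable section

open Matrix Matrix.SpecialLinearGroup CongruenceSubgroup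
open scoped MatrixGroups OnePoint

namespace Fermat.Agent.RT.Twist

open Fermat.Agent.LR Fermat.Agent.LR.PS Fermat.Agent.ES ModularCurve.Period Fermat.Agent.RT.Neben

variable {Λ : Type*} [CommRing Λ]

section Shift

variable (q : ℕ)

/-- `x ↦ x|[1 u/q; 0 1]`. -/
def sh (u : ZMod q) : Pairs Λ →ₗ[Λ] Pairs Λ := slash (triMat q (u.val : ℤ) q)

variable [NeZero q]

theorem qq_ne : (q : ℤ) * (q : ℤ) ≠ 0 := by
  have : (q : ℤ) ≠ 0 := by exact_mod_cast NeZero.ne q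
  exact mul_ne_zero this this

theorem sh_intCast {x : Pairs Λ} (hx : TInv x) (b : ℤ) :
    sh q (b : ZMod q) x = slash (triMat q b q) x := by
  refine slash_triMat_congr hx (qq_ne q) ?_
  rw [← ZMod.intCast_eq_intCast_iff]
  simp

theorem slash_triMat_scale {x : Pairs Λ} {a b d k : ℤ} (had : a * d ≠ 0) (hk : k ≠ 0) :
    slash (triMat (k * a) (k * b) (k * d)) x = slash (triMat a b d) x := by
  have h : k * a * (k * d) ≠ 0 := by
    have : k * a * (k * d) = (k * k) * (a * d) := by ring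
    rw [this]; exact mul_ne_zero (mul_ne_zero hk hk) had
  refine slash_congr (c := (k : ℚ)) (by exact_mod_cast hk) ?_ x
  rw [val_triMat _ h, val_triMat _ had]
  ext i j
  fin_cases i <;> fin_cases j <;> simp

theorem sh_sh {x : Pairs Λ} (hx : TInv x) (u v : ZMod q) : sh q u (sh q v x) = sh q (v + u) x := by
  have h0 : (q : ℤ) ≠ 0 := by exact_mod_cast NeZero.ne q
  have h1 : (v + u : ZMod q) = (((v.val : ℤ) + (u.val : ℤ) : ℤ) : ZMod q) := by simp
  rw [h1, sh_intCast q hx, sh, sh, ← slash_mul, triMat_mul _ _ (qq_ne q) (qq_ne q)]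
  rw [← slash_triMat_scale (qq_ne q) h0, show (q : ℤ) * (u.val : ℤ) + (v.val : ℤ) * q =
    q * ((v.val : ℤ) + (u.val : ℤ)) by ring]

theorem sh_zero (x : Pairs Λ) : sh q 0 x = x := by
  rw [sh, ZMod.val_zero]
  refine (slash_congr (c := (q : ℚ)) (by exact_mod_cast NeZero.ne q) ?_ x).trans (slash_one x)
  rw [val_triMat _ (qq_ne q)]
  ext i j
  fin_cases i <;> fin_cases j <;> simp

theorem TInv_triMat {x : Pairs Λ} (hx : TInv x) (a b d : ℤ) (had : a * d ≠ 0) (hda : d ∣ a) :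
    TInv (slash (triMat a b d) x) := by
  intro k
  obtain ⟨e, he⟩ := hda
  have h1 : slash (toQ (ModularGroup.T ^ k)) (slash (triMat a b d) x) =
      slash (toQ (ModularGroup.T ^ (e * k)) * triMat a b d) x := by
    rw [← slash_mul]
    refine slash_congr (c := 1) one_ne_zero ?_ x
    rw [one_smul, val_mul', val_mul', val_toQ_T_zpow, val_toQ_T_zpow, val_triMat _ had]
    have he' : (a : ℚ) = d * e := by exact_mod_cast he
    ext i j
    fin_cases i <;> fin_cases j <;> simp [Matrix.mul_apply, Fin.sum_univ_two]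
    rw [he']; ring
  rw [h1, slash_mul, hx]

theorem TInv_sh {x : Pairs Λ} (hx : TInv x) (u : ZMod q) : TInv (sh q u x) :=
  TInv_triMat hx _ _ _ (qq_ne q) dvd_rfl

end Shift

section Twist

variable {q : ℕ} [NeZero q] (φ : DirichletCharacter Λ q)

/-- The twist by `φ`. -/
def tw : Pairs Λ →ₗ[Λ] Pairs Λ := ∑ u : ZMod q, φ u • sh q u

theorem tw_apply (x : Pairs Λ) : tw φ x = ∑ u : ZMod q, φ u • sh q u x := by
  simp [tw]

theorem TInv_tw {x : Pairs Λ} (hx : TInv x) : TInv (tw φ x) := by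
  intro k
  rw [tw_apply, map_sum]
  refine Finset.sum_congr rfl fun u _ => ?_
  rw [map_smul, TInv_sh q hx u k]

/-- The key matrix identity. -/
theorem exists_conj {L : ℕ} (hqL : q ∣ L) {γ : SL(2, ℤ)} (hγ : γ ∈ Gamma0 (L * q)) (u : ZMod q) :
    ∃ γ' ∈ Gamma0 L, ((γ' 1 1 : ℤ) : ZMod L) = ((γ 1 1 : ℤ) : ZMod L) ∧
      triMat q (u.val : ℤ) q * toQ γ =
        toQ γ' * triMat q ((((γ 1 1 : ℤ) : ZMod q) ^ 2 * u).val : ℤ) q := by
  set u' : ZMod q := ((γ 1 1 : ℤ) : ZMod q) ^ 2 * u with hu'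
  obtain ⟨e, he⟩ := mem_Gamma0_iff.mp hγ
  obtain ⟨M, hM⟩ := hqL
  have hdet := det_eq' γ
  have hq0 : (q : ℤ) ≠ 0 := by exact_mod_cast NeZero.ne q
  -- divisibility
  have hdvd : (q : ℤ) ∣ γ 1 1 * u.val - γ 0 0 * u'.val - L * e * u.val * u'.val := by
    rw [← ZMod.intCast_zmod_eq_zero_iff_dvd]
    have hL0 : ((L : ℕ) : ZMod q) = 0 := by rw [hM]; simp
    have h1 := congrArg (fun n : ℤ => (n : ZMod q)) hdet
    rw [he] at h1
    push_cast at h1 ⊢
    rw [hL0] at h1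
    simp only [ZMod.natCast_val, ZMod.cast_id', id_eq]
    rw [hL0, hu']
    linear_combination (-((γ 1 1 : ℤ) : ZMod q) * u) * h1
  obtain ⟨b', hb'⟩ := hdvd
  have hdet' : (γ 0 0 + L * e * u.val) * (γ 1 1 - L * e * u'.val) - (γ 0 1 + b') * (L * q * e)
      = 1 := by
    rw [he] at hdet
    push_cast at hdet
    linear_combination hdet + (L : ℤ) * e * hb'
  refine ⟨mkSL (γ 0 0 + L * e * u.val) (γ 0 1 + b') (L * q * e) (γ 1 1 - L * e * u'.val) hdet',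
    ?_, ?_, ?_⟩
  · rw [mem_Gamma0_iff]
    simp only [mkSL, of_apply, cons_val', cons_val_one, cons_val_zero]
    exact ⟨q * e, by ring⟩
  · simp only [mkSL, of_apply, cons_val', cons_val_one]
    push_cast
    rw [ZMod.natCast_self]; ring
  · apply Units.ext
    rw [val_mul', val_mul', val_toQ, val_toQ_mkSL, val_triMat _ (qq_ne q), val_triMat _ (qq_ne q)]
    have he' : ((γ 1 0 : ℤ) : ℚ) = L * q * e := by rw [he]; push_cast; ring
    have hb'' : (γ 1 1 : ℚ) * (u.val : ℤ) - (γ 0 0 : ℚ) * (u'.val : ℤ) -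
        L * e * (u.val : ℤ) * (u'.val : ℤ) = q * b' := by exact_mod_cast hb'
    rw [he']
    ext i j
    fin_cases i <;> fin_cases j <;> simp [Matrix.mul_apply, Fin.sum_univ_two, -ZMod.natCast_val]
    · ring
    · push_cast at hb''
      linear_combination hb''
    · ring
    · ring

/-- **The twist of a symbol of level `L` has level `L q`.** -/
theorem tw_mem {L : ℕ} (hqL : q ∣ L) {ψ : DirichletCharacter Λ L}
    {ψ' : DirichletCharacter Λ (L * q)}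
    (h : ∀ d : ℤ, IsUnit (d : ZMod (L * q)) →
      ψ' (d : ZMod (L * q)) * φ (d : ZMod q) ^ 2 = ψ (d : ZMod L))
    {x : Pairs Λ} (hx : x ∈ MSψ ψ) : tw φ x ∈ MSψ ψ' := by
  refine ⟨fun a b c => ?_, fun γ hγ => ?_⟩
  · rw [tw_apply]
    simp only [Finset.sum_apply]
    rw [← Finset.sum_add_distrib]
    refine Finset.sum_congr rfl fun s _ => ?_
    simp only [Pi.smul_apply]
    rw [← smul_add]
    exact congrArg _ (hx.1 _ _ _)
  · have hu := isUnit_of_mem hγ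
    have hd := h _ hu
    have huq : IsUnit ((γ 1 1 : ℤ) : ZMod q) := by
      have h1 := hu.map (ZMod.castHom (dvd_mul_left q L) (ZMod q))
      simpa using h1
    obtain ⟨w, hw⟩ := huq
    rw [tw_apply, map_sum, Finset.smul_sum]
    rw [← Equiv.sum_comp (Units.mulLeft (w ^ 2)) (fun u : ZMod q =>
      ψ' ((γ 1 1 : ℤ) : ZMod (L * q)) • φ u • sh q u x)]
    refine Finset.sum_congr rfl fun u _ => ?_
    obtain ⟨γ', h1, h2, h3⟩ := exists_conj hqL hγ u
    rw [map_smul, sh, ← slash_mul, h3, slash_mul, hx.2 γ' h1, map_smul, h2, ← hd]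
    have e1 : (Units.mulLeft (w ^ 2)) u = ((γ 1 1 : ℤ) : ZMod q) ^ 2 * u := by
      rw [Units.mulLeft_apply, Units.val_pow_eq_pow_val, hw]
    rw [e1, sh, smul_smul, smul_smul, map_mul, map_pow]
    congr 1
    ring

theorem sum_periodic_shift {A : Type*} [AddCommGroup A] (ℓ : ℕ) [NeZero ℓ] (g : ℤ → A)
    (hg : ∀ j j' : ℤ, (j : ZMod ℓ) = (j' : ZMod ℓ) → g j = g j') (m : ℤ) :
    ∑ j : ZMod ℓ, g ((j.val : ℤ) + m) = ∑ j : ZMod ℓ, g (j.val : ℤ) := by
  rw [← Equiv.sum_comp (Equiv.addRight (m : ZMod ℓ)) (fun j : ZMod ℓ => g (j.val : ℤ))]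
  refine Finset.sum_congr rfl fun j _ => hg _ _ ?_
  simp

theorem heckeU_tw {ℓ : ℕ} (hℓ : ℓ ≠ 0) (hℓq : Nat.Coprime ℓ q) {x : Pairs Λ} (hx : TInv x) :
    φ (ℓ : ZMod q) • heckeU ℓ (tw φ x) = tw φ (heckeU ℓ x) := by
  have : NeZero ℓ := ⟨hℓ⟩
  have hℓ0 : (ℓ : ℤ) ≠ 0 := by exact_mod_cast hℓ
  have hq0 : (q : ℤ) ≠ 0 := by exact_mod_cast NeZero.ne q
  obtain ⟨w, hw⟩ := (ZMod.isUnit_iff_coprime ℓ q).mpr hℓq
  have h1ℓ : (1 : ℤ) * (ℓ : ℤ) ≠ 0 := by rwa [one_mul]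
  have hqℓ : (q : ℤ) * ((q : ℤ) * ℓ) ≠ 0 := mul_ne_zero hq0 (mul_ne_zero hq0 hℓ0)
  rw [tw_apply, tw_apply, map_sum, Finset.smul_sum]
  rw [← Equiv.sum_comp (Units.mulLeft w) (fun u : ZMod q => φ u • sh q u (heckeU ℓ x))]
  refine Finset.sum_congr rfl fun u _ => ?_
  rw [Units.mulLeft_apply, hw, map_smul, smul_smul, map_mul]
  congr 1
  -- both sides
  rw [heckeU_eq_sum_zmod, heckeU_eq_sum_zmod, map_sum]
  let g : ℤ → Pairs Λ := fun j => slash (triMat q ((q : ℤ) * j + (ℓ : ℤ) * (u.val : ℤ))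
    ((q : ℤ) * ℓ)) x
  have hg : ∀ j j' : ℤ, (j : ZMod ℓ) = (j' : ZMod ℓ) → g j = g j' := by
    intro j j' hj
    refine slash_triMat_congr hx hqℓ ?_
    have h2 := (ZMod.intCast_eq_intCast_iff _ _ _).mp hj
    exact Int.ModEq.add_right _ (Int.ModEq.mul_left' h2)
  -- the representative of `ℓ u`
  have hm : ∃ m : ℤ, (((ℓ : ZMod q) * u).val : ℤ) = (ℓ : ℤ) * (u.val : ℤ) + q * m := by
    have h2 : ((((ℓ : ZMod q) * u).val : ℤ) : ZMod q) = (((ℓ : ℤ) * (u.val : ℤ) : ℤ) : ZMod q) := by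
      simp
    obtain ⟨m, hm⟩ := ((ZMod.intCast_eq_intCast_iff _ _ _).mp h2).symm.dvd
    exact ⟨m, by linarith⟩
  obtain ⟨m, hm⟩ := hm
  have hL : ∀ j : ZMod ℓ, slash (heckeMat ℓ (j.val : ℤ)) (sh q u x) = g (j.val : ℤ) := by
    intro j
    rw [sh, ← slash_mul, triMat_mul _ _ (qq_ne q) h1ℓ]
    simp only [mul_one, g]
    rw [mul_comm (u.val : ℤ)]
  have hR : ∀ j : ZMod ℓ, sh q ((ℓ : ZMod q) * u) (slash (heckeMat ℓ (j.val : ℤ)) x) =
      g ((j.val : ℤ) + m) := by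
    intro j
    rw [sh, ← slash_mul, triMat_mul _ _ h1ℓ (qq_ne q)]
    simp only [g]
    rw [hm, one_mul, show (1 : ℤ) * ((ℓ : ℤ) * (u.val : ℤ) + q * m) + (j.val : ℤ) * q =
      q * ((j.val : ℤ) + m) + ℓ * (u.val : ℤ) by ring, mul_comm (ℓ : ℤ) (q : ℤ)]
  rw [Finset.sum_congr rfl fun j _ => hL j, Finset.sum_congr rfl fun j _ => hR j,
    sum_periodic_shift ℓ g hg m]

theorem degen_tw {ℓ : ℕ} (hℓ : ℓ ≠ 0) (hℓq : Nat.Coprime ℓ q) {x : Pairs Λ} (hx : TInv x) :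
    degen ℓ (tw φ x) = φ (ℓ : ZMod q) • tw φ (degen ℓ x) := by
  have hℓ0 : (ℓ : ℤ) ≠ 0 := by exact_mod_cast hℓ
  have hq0 : (q : ℤ) ≠ 0 := by exact_mod_cast NeZero.ne q
  obtain ⟨w, hw⟩ := (ZMod.isUnit_iff_coprime ℓ q).mpr hℓq
  have hℓ1 : (ℓ : ℤ) * (1 : ℤ) ≠ 0 := by rwa [mul_one]
  have hqℓ : ((q : ℤ) * ℓ) * q ≠ 0 := mul_ne_zero (mul_ne_zero hq0 hℓ0) hq0
  rw [tw_apply, tw_apply, map_sum, Finset.smul_sum]
  rw [← Equiv.sum_comp (Units.mulLeft w) (fun u : ZMod q => degen ℓ (φ u • sh q u x))]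
  refine Finset.sum_congr rfl fun u _ => ?_
  rw [Units.mulLeft_apply, hw, map_smul, smul_smul, map_mul]
  congr 1
  rw [degen_apply, degen_apply, sh, sh, ← slash_mul, ← slash_mul, triMat_mul _ _ (qq_ne q) hℓ1,
    triMat_mul _ _ hℓ1 (qq_ne q)]
  simp only [mul_zero, mul_one, one_mul, zero_mul, zero_add, add_zero]
  rw [mul_comm (ℓ : ℤ) (q : ℤ)]
  refine slash_triMat_congr hx hqℓ ?_
  rw [← ZMod.intCast_eq_intCast_iff]
  simp

/-- **Hecke equivariance of the twist.** -/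
theorem hopψ_tw {L : ℕ} {ψ : DirichletCharacter Λ L} {ψ' : DirichletCharacter Λ (L * q)}
    (h : ∀ d : ℤ, IsUnit (d : ZMod (L * q)) →
      ψ' (d : ZMod (L * q)) * φ (d : ZMod q) ^ 2 = ψ (d : ZMod L))
    {ℓ : ℕ} (hℓ : ℓ.Prime) (hℓq : Nat.Coprime ℓ q) {x : Pairs Λ} (hx : TInv x) :
    φ (ℓ : ZMod q) • hopψ ψ' ℓ (tw φ x) = tw φ (hopψ ψ ℓ x) := by
  rw [hopψ_apply, hopψ_apply, smul_add, map_add, heckeU_tw φ hℓ.ne_zero hℓq hx]
  congr 1
  rw [degen_tw φ hℓ.ne_zero hℓq hx, smul_smul, smul_smul, map_smul]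
  congr 1
  by_cases hL : ℓ ∣ L
  · rw [ψ'.map_nonunit (not_isUnit_of_dvd hℓ (hL.mul_right q)),
      ψ.map_nonunit (not_isUnit_of_dvd hℓ hL)]
    ring
  · have h1 : IsUnit (((ℓ : ℤ) : ZMod (L * q))) := by
      have h2 : ¬ ℓ ∣ L * q := by
        intro h3
        rcases hℓ.dvd_mul.mp h3 with h4 | h4
        · exact hL h4
        · exact hℓ.one_lt.ne' (Nat.dvd_one.mp (hℓq ▸ Nat.dvd_gcd dvd_rfl h4))
      simpa using isUnit_of_not_dvd hℓ h2
    have h2 := h _ h1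
    push_cast at h2
    rw [← h2]; ring

/-- The twist commutes with the involution. -/
theorem tw_slash_jMat (hφ : φ (-1) = 1) {x : Pairs Λ} (hx : TInv x) :
    tw φ (slash jMat x) = slash jMat (tw φ x) := by
  rw [tw_apply, tw_apply, map_sum]
  rw [← Equiv.sum_comp (Equiv.neg (ZMod q)) (fun u : ZMod q => slash jMat (φ u • sh q u x))]
  refine Finset.sum_congr rfl fun u _ => ?_
  have e1 : φ ((Equiv.neg (ZMod q)) u) = φ u := by
    rw [Equiv.neg_apply, ← neg_one_mul, map_mul, hφ, one_mul]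
  rw [map_smul, e1]
  congr 1
  have e2 : (Equiv.neg (ZMod q)) u = ((-(u.val : ℤ) : ℤ) : ZMod q) := by simp
  rw [e2, sh_intCast q hx, sh, ← slash_mul, ← slash_mul]
  refine slash_congr (c := 1) one_ne_zero ?_ x
  rw [one_smul, val_mul', val_mul', val_jMat, val_triMat _ (qq_ne q), val_triMat _ (qq_ne q)]
  ext i j
  fin_cases i <;> fin_cases j <;> simp [Matrix.mul_apply, Fin.sum_univ_two]

end Twist

end Fermat.Agent.RT.Twist
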