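import Fermat.Agent.RT.Defs
import Fermat.Agent.LR.Ihara

/-!
# Diamond operators, twisted Hecke operators and twisting on `MS (GammaH N Q ψ)` (RT-TWIST, 1)

Setting `TwHyp N Q ψ` : `N, Q` coprime, `Q` squarefree, `ψ : (ℤ/Q)ˣ → Δ` surjective, `#Δ` odd.

* `D N Q ψ δ` : the diamond operator, `slash (toQ γ)` with `γ ∈ Γ₀(NQ)`, `dia γ = δ`.
* `wch ψ`, `wN ψ ℓ` : the square root `w = ψ^((#Δ+1)/2)` of `ψ`.
* `TH N Q ψ ℓ = heckeU ℓ ∘ D (w ℓ)⁻¹ + degen ℓ ∘ D (w ℓ)`.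
* `Tw N Q ψ x = ∑ u : (ℤ/Q)ˣ, slash (T^{u/Q}) (D (w u) x)`.
-/

set_option autoImplicit false

open Matrix Matrix.SpecialLinearGroup CongruenceSubgroup
open scoped MatrixGroups OnePoint

noncomputable section

namespace Fermat.Agent.RT.TwistH

open Fermat.Agent.LR Fermat.Agent.LR.PS Fermat.Agent.RT ModularCurve.Period

variable {R : Type*} [CommRing R]
variable {N Q : ℕ} {Δ : Type*} [CommGroup Δ] {ψ : (ZMod Q)ˣ →* Δ}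

/-- the standing hypotheses -/
structure TwHyp (N Q : ℕ) {Δ : Type*} [CommGroup Δ] (ψ : (ZMod Q)ˣ →* Δ) : Prop where
  hN : N ≠ 0
  cop : Nat.Coprime N Q
  sqf : Squarefree Q
  surj : Function.Surjective ψ
  odd : Odd (Nat.card Δ)

theorem TwHyp.hQ (H : TwHyp N Q ψ) : Q ≠ 0 := H.sqf.ne_zero

theorem TwHyp.hNQ (H : TwHyp N Q ψ) : N * Q ≠ 0 := mul_ne_zero H.hN H.hQ

/-! ### Elements of `Γ₀(M)` with given lower right entry -/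

theorem exists_Gamma0_unit {M Q : ℕ} (hM : M ≠ 0) (hQM : Q ∣ M) (u : (ZMod Q)ˣ) :
    ∃ γ ∈ Gamma0 M, ((γ 1 1 : ℤ) : ZMod Q) = u := by
  have : NeZero M := ⟨hM⟩
  obtain ⟨v, hv⟩ := ZMod.unitsMap_surjective hQM u
  have hc : Nat.Coprime (v : ZMod M).val M := ZMod.val_coe_unit_coprime v
  obtain ⟨a, b, hab⟩ := Nat.isCoprime_iff_coprime.mpr hc
  refine ⟨mkSL a (-b) M ((v : ZMod M).val : ℤ) (by linear_combination hab), ?_, ?_⟩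
  · rw [mem_Gamma0_iff]; simp [mkSL]
  · have h1 : (mkSL a (-b) M ((v : ZMod M).val : ℤ) (by linear_combination hab)) 1 1 =
        ((v : ZMod M).val : ℤ) := by simp [mkSL]
    rw [h1, ← hv, ZMod.unitsMap_val]
    push_cast
    rw [ZMod.natCast_val]

/-- the lower right entry mod `Q` of an element of `Γ₀(NQ)`. -/
def dQ (N Q : ℕ) : Gamma0 (N * Q) →* (ZMod Q)ˣ :=
  (ZMod.unitsMap (dvd_mul_left Q N)).comp (Gamma0Map (N * Q)).toHomUnits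

theorem dQ_val (γ : Gamma0 (N * Q)) : ((dQ N Q γ : (ZMod Q)ˣ) : ZMod Q) =
    (((γ : SL(2, ℤ)) 1 1 : ℤ) : ZMod Q) := by
  rw [dQ, MonoidHom.comp_apply, ZMod.unitsMap_val]
  simp [Gamma0Map]

theorem dia_eq (γ : Gamma0 (N * Q)) : dia N Q ψ γ = ψ (dQ N Q γ) := rfl

theorem dQ_eq {γ : Gamma0 (N * Q)} {u : (ZMod Q)ˣ}
    (h : (((γ : SL(2, ℤ)) 1 1 : ℤ) : ZMod Q) = u) : dQ N Q γ = u :=
  Units.ext (by rw [dQ_val, h])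

theorem exists_dQ (H : TwHyp N Q ψ) (u : (ZMod Q)ˣ) : ∃ γ : Gamma0 (N * Q), dQ N Q γ = u := by
  obtain ⟨γ, h1, h2⟩ := exists_Gamma0_unit H.hNQ (dvd_mul_left Q N) u
  exact ⟨⟨γ, h1⟩, dQ_eq h2⟩

theorem exists_dia (H : TwHyp N Q ψ) (δ : Δ) : ∃ γ : Gamma0 (N * Q), dia N Q ψ γ = δ := by
  obtain ⟨u, rfl⟩ := H.surj δ
  obtain ⟨γ, h⟩ := exists_dQ H u
  exact ⟨γ, by rw [dia_eq, h]⟩

/-! ### Diamond operators -/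

open Classical in
/-- an element of `Γ₀(NQ)` with `dia = δ`. -/
def gam (N Q : ℕ) {Δ : Type*} [CommGroup Δ] (ψ : (ZMod Q)ˣ →* Δ) (δ : Δ) : Gamma0 (N * Q) :=
  if h : ∃ γ : Gamma0 (N * Q), dia N Q ψ γ = δ then h.choose else 1

theorem dia_gam (H : TwHyp N Q ψ) (δ : Δ) : dia N Q ψ (gam N Q ψ δ) = δ := by
  rw [gam, dif_pos (exists_dia H δ)]
  exact (exists_dia H δ).choose_spec

/-- the diamond operator -/
def D (N Q : ℕ) {Δ : Type*} [CommGroup Δ] (ψ : (ZMod Q)ˣ →* Δ) (δ : Δ) : Pairs R →ₗ[R] Pairs R :=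
  slash (toQ (gam N Q ψ δ : SL(2, ℤ)))

theorem D_apply (δ : Δ) (x : Pairs R) :
    D N Q ψ δ x = slash (toQ (gam N Q ψ δ : SL(2, ℤ))) x := rfl

/-- `Γ_H`-invariance only -/
def HInv (N Q : ℕ) {Δ : Type*} [CommGroup Δ] (ψ : (ZMod Q)ˣ →* Δ) (x : Pairs R) : Prop :=
  ∀ γ : Gamma0 (N * Q), dia N Q ψ γ = 1 → slash (toQ (γ : SL(2, ℤ))) x = x

theorem hInv_of_mem {x : Pairs R} (hx : x ∈ MS (GammaH N Q ψ) R) : HInv N Q ψ x :=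
  fun γ hγ => hx.2 _ (mem_GammaH.mpr ⟨γ.2, hγ⟩)

theorem mem_MS_GammaH {x : Pairs R} : x ∈ MS (GammaH N Q ψ) R ↔
    (∀ a b c, x a b + x b c = x a c) ∧ HInv N Q ψ x := by
  refine ⟨fun h => ⟨h.1, hInv_of_mem h⟩, fun h => ⟨h.1, fun γ hγ => ?_⟩⟩
  obtain ⟨h1, h2⟩ := mem_GammaH.mp hγ
  exact h.2 ⟨γ, h1⟩ h2

theorem HInv.congr {x : Pairs R} (hx : HInv N Q ψ x) {γ γ' : Gamma0 (N * Q)}
    (h : dia N Q ψ γ = dia N Q ψ γ') :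
    slash (toQ (γ : SL(2, ℤ))) x = slash (toQ (γ' : SL(2, ℤ))) x := by
  have h1 : slash (toQ ((γ * γ'⁻¹ : Gamma0 (N * Q)) : SL(2, ℤ))) x = x :=
    hx _ (by rw [map_mul, map_inv, h, mul_inv_cancel])
  have h2 : (γ : SL(2, ℤ)) = ((γ * γ'⁻¹ : Gamma0 (N * Q)) : SL(2, ℤ)) * (γ' : SL(2, ℤ)) := by
    push_cast; group
  conv_lhs => rw [h2, toQ_mul, slash_mul, h1]

theorem HInv.slash_eq (H : TwHyp N Q ψ) {x : Pairs R} (hx : HInv N Q ψ x)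
    (γ : Gamma0 (N * Q)) : slash (toQ (γ : SL(2, ℤ))) x = D N Q ψ (dia N Q ψ γ) x :=
  hx.congr (by rw [dia_gam H])

theorem HInv.slash_eq' (H : TwHyp N Q ψ) {x : Pairs R} (hx : HInv N Q ψ x)
    {γ : SL(2, ℤ)} (hγ : γ ∈ Gamma0 (N * Q)) (u : (ZMod Q)ˣ) (hu : ((γ 1 1 : ℤ) : ZMod Q) = u) :
    slash (toQ γ) x = D N Q ψ (ψ u) x := by
  have h1 := hx.slash_eq H ⟨γ, hγ⟩
  rw [dia_eq, dQ_eq (γ := ⟨γ, hγ⟩) hu] at h1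
  exact h1

theorem HInv.slash {x : Pairs R} (hx : HInv N Q ψ x) (γ : Gamma0 (N * Q)) :
    HInv N Q ψ (slash (toQ (γ : SL(2, ℤ))) x) := by
  intro γ' hγ'
  have h1 := hx.congr (γ := γ * γ') (γ' := γ) (by rw [map_mul, hγ', mul_one])
  rw [Subgroup.coe_mul, toQ_mul, slash_mul] at h1
  exact h1

theorem HInv.D {x : Pairs R} (hx : HInv N Q ψ x) (δ : Δ) : HInv N Q ψ (D N Q ψ δ x) :=
  hx.slash _

theorem HInv.D_one (H : TwHyp N Q ψ) {x : Pairs R} (hx : HInv N Q ψ x) :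
    TwistH.D N Q ψ 1 x = x := by
  rw [D_apply]; exact hx _ (dia_gam H 1)

theorem HInv.D_D (H : TwHyp N Q ψ) {x : Pairs R} (hx : HInv N Q ψ x) (δ ε : Δ) :
    TwistH.D N Q ψ δ (TwistH.D N Q ψ ε x) = TwistH.D N Q ψ (δ * ε) x := by
  rw [D_apply δ, D_apply ε, ← slash_mul, ← toQ_mul, ← Subgroup.coe_mul, hx.slash_eq H, map_mul,
    dia_gam H, dia_gam H, mul_comm]

theorem D_mem {x : Pairs R} (hx : x ∈ MS (GammaH N Q ψ) R) (δ : Δ) :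
    D N Q ψ δ x ∈ MS (GammaH N Q ψ) R :=
  mem_MS_GammaH.mpr ⟨slash_add_of_add hx.1 _, (hInv_of_mem hx).D δ⟩

theorem D_one (H : TwHyp N Q ψ) {x : Pairs R} (hx : x ∈ MS (GammaH N Q ψ) R) :
    D N Q ψ 1 x = x := (hInv_of_mem hx).D_one H

theorem D_D (H : TwHyp N Q ψ) {x : Pairs R} (hx : x ∈ MS (GammaH N Q ψ) R) (δ ε : Δ) :
    D N Q ψ δ (D N Q ψ ε x) = D N Q ψ (δ * ε) x := (hInv_of_mem hx).D_D H δ ε

/-- a symbol on `Γ_H` is on `Γ₀(NQ)` iff it is fixed by the diamond operators. -/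
theorem mem_Gamma0_iff_D (H : TwHyp N Q ψ) {x : Pairs R} (hx : x ∈ MS (GammaH N Q ψ) R) :
    x ∈ MS (Gamma0 (N * Q)) R ↔ ∀ δ, D N Q ψ δ x = x := by
  refine ⟨fun h δ => h.2 _ (gam N Q ψ δ).2, fun h => ⟨hx.1, fun γ hγ => ?_⟩⟩
  exact ((hInv_of_mem hx).slash_eq H ⟨γ, hγ⟩).trans (h _)

theorem GammaH_le_Gamma0 : GammaH N Q ψ ≤ Gamma0 (N * Q) := fun _ hγ => (mem_GammaH.mp hγ).1

theorem MS_Gamma0_le : MS (Gamma0 (N * Q)) R ≤ MS (GammaH N Q ψ) R :=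
  MS_mono GammaH_le_Gamma0

theorem D_of_mem_Gamma0 {x : Pairs R} (hx : x ∈ MS (Gamma0 (N * Q)) R) (δ : Δ) :
    D N Q ψ δ x = x := hx.2 _ (gam N Q ψ δ).2

theorem dia_T_zpow (k : ℤ) :
    dia N Q ψ ⟨ModularGroup.T ^ k, T_zpow_mem_Gamma0 (N * Q) k⟩ = 1 := by
  rw [dia_eq, dQ_eq (u := 1), map_one]
  rw [ModularGroup.coe_T_zpow]; simp

theorem HInv.tInv {x : Pairs R} (hx : HInv N Q ψ x) : TInv x :=
  fun k => hx ⟨ModularGroup.T ^ k, T_zpow_mem_Gamma0 (N * Q) k⟩ (dia_T_zpow k)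

/-! ### The square root of `ψ` -/

/-- `w = ψ^((#Δ+1)/2)` -/
def wch {Q : ℕ} {Δ : Type*} [CommGroup Δ] (ψ : (ZMod Q)ˣ →* Δ) : (ZMod Q)ˣ →* Δ :=
  (powMonoidHom ((Nat.card Δ + 1) / 2)).comp ψ

theorem wch_apply (u : (ZMod Q)ˣ) : wch ψ u = ψ u ^ ((Nat.card Δ + 1) / 2) := rfl

theorem wch_eq (u : (ZMod Q)ˣ) : wch ψ u = ψ (u ^ ((Nat.card Δ + 1) / 2)) := by
  rw [map_pow]; rfl

theorem wch_mul_self (H : TwHyp N Q ψ) (u : (ZMod Q)ˣ) : wch ψ u * wch ψ u = ψ u := by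
  obtain ⟨k, hk⟩ := H.odd
  have h1 : (Nat.card Δ + 1) / 2 + (Nat.card Δ + 1) / 2 = Nat.card Δ + 1 := by omega
  rw [wch_apply, ← pow_add, h1, pow_succ, pow_card_eq_one', one_mul]

/-- `w(ℓ)` (`1` if `ℓ` is not coprime to `Q`). -/
def wN {Q : ℕ} {Δ : Type*} [CommGroup Δ] (ψ : (ZMod Q)ˣ →* Δ) (ℓ : ℕ) : Δ :=
  if h : ℓ.Coprime Q then wch ψ (ZMod.unitOfCoprime ℓ h) else 1

theorem wN_of_coprime {ℓ : ℕ} (h : ℓ.Coprime Q) :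
    wN ψ ℓ = wch ψ (ZMod.unitOfCoprime ℓ h) := by rw [wN, dif_pos h]

theorem wN_mul_self (H : TwHyp N Q ψ) {ℓ : ℕ} (h : ℓ.Coprime Q) :
    wN ψ ℓ * wN ψ ℓ = ψ (ZMod.unitOfCoprime ℓ h) := by
  rw [wN_of_coprime h, wch_mul_self H]

theorem wch_neg_one (H : TwHyp N Q ψ) : wch ψ (-1) = 1 := by
  have h1 : wch ψ (-1) ^ 2 = 1 := by rw [← map_pow]; simp
  obtain ⟨k, hk⟩ := H.odd
  have h3 : wch ψ (-1) ^ (2 * k + 1) = 1 := by rw [← hk, pow_card_eq_one']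
  rw [pow_succ, pow_mul, h1, one_pow, one_mul] at h3
  exact h3

/-! ### Twisted Hecke operators -/

/-- the operator `T_ℓ` twisted by `w⁻¹` -/
def TH (N Q : ℕ) {Δ : Type*} [CommGroup Δ] (ψ : (ZMod Q)ˣ →* Δ) (ℓ : ℕ) :
    Pairs R →ₗ[R] Pairs R :=
  heckeU ℓ ∘ₗ D N Q ψ (wN ψ ℓ)⁻¹ + degen ℓ ∘ₗ D N Q ψ (wN ψ ℓ)

theorem TH_apply (ℓ : ℕ) (x : Pairs R) : TH N Q ψ ℓ x =
    heckeU ℓ (D N Q ψ (wN ψ ℓ)⁻¹ x) + degen ℓ (D N Q ψ (wN ψ ℓ) x) := rfl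

/-- lower right entry of `heckeRepQ ℓ s` -/
def lrE (ℓ : ℕ) (s : OnePoint (ZMod ℓ)) : ℕ := s.elim 1 (fun _ => ℓ)

/-- upper right entry of `heckeRepQ ℓ s` -/
def urE (ℓ : ℕ) (s : OnePoint (ZMod ℓ)) : ℤ := s.elim 0 (fun j => (j.val : ℤ))

theorem heckeRepQ_col {ℓ : ℕ} (hℓ : ℓ ≠ 0) (s : OnePoint (ZMod ℓ)) :
    (heckeRepQ ℓ s : Matrix (Fin 2) (Fin 2) ℚ) 1 0 = 0 ∧
    (heckeRepQ ℓ s : Matrix (Fin 2) (Fin 2) ℚ) 1 1 = lrE ℓ s ∧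
    (heckeRepQ ℓ s : Matrix (Fin 2) (Fin 2) ℚ) 0 1 = urE ℓ s := by
  induction s using OnePoint.rec with
  | infty => rw [heckeRepQ_infty, val_diagMat hℓ]; simp [lrE, urE]
  | coe j => rw [heckeRepQ_coe, val_heckeMat hℓ]; simp [lrE, urE]

theorem heckeRepQ_mul' {ℓ : ℕ} [Fact ℓ.Prime] {M Q : ℕ} (hM : ¬ ℓ ∣ M) (hQ : Q ∣ M)
    (g : SL(2, ℤ)) (hg : (M : ℤ) ∣ g 1 0) (s : OnePoint (ZMod ℓ)) :
    ∃ g' : SL(2, ℤ), (M : ℤ) ∣ g' 1 0 ∧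
      heckeRepQ ℓ s * toQ g = toQ g' * heckeRepQ ℓ (redMat ℓ g • s) ∧
      ((lrE ℓ s : ℕ) : ZMod Q) * ((g 1 1 : ℤ) : ZMod Q) =
        ((g' 1 1 : ℤ) : ZMod Q) * ((lrE ℓ (redMat ℓ g • s) : ℕ) : ZMod Q) := by
  have hℓ : ℓ ≠ 0 := (Fact.out : ℓ.Prime).ne_zero
  obtain ⟨g', h1, h2⟩ := heckeRepQ_mul hM g hg s
  refine ⟨g', h1, h2, ?_⟩
  have h3 := congrFun (congrFun (congrArg (fun m : GL (Fin 2) ℚ =>
    (m : Matrix (Fin 2) (Fin 2) ℚ)) h2) 1) 1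
  simp only [val_mul', Matrix.mul_apply, Fin.sum_univ_two, toQ_entry] at h3
  obtain ⟨e1, e2, -⟩ := heckeRepQ_col hℓ s
  obtain ⟨-, e5, e6⟩ := heckeRepQ_col hℓ (redMat ℓ g • s)
  rw [e1, e2, e5, e6, zero_mul, zero_add] at h3
  have h4 : ((lrE ℓ s : ℕ) : ℤ) * g 1 1 = g' 1 0 * urE ℓ (redMat ℓ g • s) +
      g' 1 1 * ((lrE ℓ (redMat ℓ g • s) : ℕ) : ℤ) := by exact_mod_cast h3
  have h5 := congrArg (Int.cast : ℤ → ZMod Q) h4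
  have h6 : ((g' 1 0 : ℤ) : ZMod Q) = 0 := (ZMod.intCast_zmod_eq_zero_iff_dvd _ _).mpr
    ((Int.natCast_dvd_natCast.mpr hQ).trans h1)
  push_cast at h5
  rw [h6, zero_mul, zero_add] at h5
  exact h5

/-- the unit of `ℤ/Q` given by `lrE` -/
def lrU {ℓ Q : ℕ} (h : ℓ.Coprime Q) (s : OnePoint (ZMod ℓ)) : (ZMod Q)ˣ :=
  s.elim 1 (fun _ => ZMod.unitOfCoprime ℓ h)

theorem lrU_val {ℓ Q : ℕ} (h : ℓ.Coprime Q) (s : OnePoint (ZMod ℓ)) :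
    ((lrU h s : (ZMod Q)ˣ) : ZMod Q) = ((lrE ℓ s : ℕ) : ZMod Q) := by
  induction s using OnePoint.rec with
  | infty => show ((1 : (ZMod Q)ˣ) : ZMod Q) = ((1 : ℕ) : ZMod Q); simp
  | coe j => exact ZMod.coe_unitOfCoprime ℓ h

theorem TH_eq_sum (H : TwHyp N Q ψ) {ℓ : ℕ} [NeZero ℓ] (h : ℓ.Coprime Q) (x : Pairs R) :
    TH N Q ψ ℓ x = ∑ s : OnePoint (ZMod ℓ),
      slash (heckeRepQ ℓ s) (D N Q ψ (wN ψ ℓ * (ψ (lrU h s))⁻¹) x) := by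
  rw [TH_apply, heckeU_eq_sum_zmod, add_comm, degen_apply]
  have h1 : (wN ψ ℓ)⁻¹ = wN ψ ℓ * (ψ (ZMod.unitOfCoprime ℓ h))⁻¹ := by
    rw [← wN_mul_self H h]; group
  rw [h1]
  have h2 : D N Q ψ (wN ψ ℓ) x = D N Q ψ (wN ψ ℓ * (ψ (lrU h (∞ : OnePoint (ZMod ℓ))))⁻¹) x := by
    have : lrU h (∞ : OnePoint (ZMod ℓ)) = 1 := rfl
    rw [this, map_one, inv_one, mul_one]
  rw [h2]
  exact (Fintype.sum_option (fun s : OnePoint (ZMod ℓ) =>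
    slash (heckeRepQ ℓ s) (D N Q ψ (wN ψ ℓ * (ψ (lrU h s))⁻¹) x))).symm

theorem slash_TH (H : TwHyp N Q ψ) {ℓ : ℕ} (hℓ : ℓ.Prime) (hℓN : ¬ ℓ ∣ N * Q) {x : Pairs R}
    (hx : HInv N Q ψ x) (γ : Gamma0 (N * Q)) :
    slash (toQ (γ : SL(2, ℤ))) (TH N Q ψ ℓ x) = TH N Q ψ ℓ (D N Q ψ (dia N Q ψ γ) x) := by
  have : Fact ℓ.Prime := ⟨hℓ⟩
  have hcop : ℓ.Coprime Q :=
    (Nat.Prime.coprime_iff_not_dvd hℓ).mpr fun h => hℓN (h.mul_left N)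
  rw [TH_eq_sum H hcop, TH_eq_sum H hcop, map_sum]
  rw [← Equiv.sum_comp (MulAction.toPerm (redMat ℓ (γ : SL(2, ℤ))))
    (fun s => slash (heckeRepQ ℓ s) (D N Q ψ (wN ψ ℓ * (ψ (lrU hcop s))⁻¹)
      (D N Q ψ (dia N Q ψ γ) x)))]
  refine Finset.sum_congr rfl fun s _ => ?_
  obtain ⟨g', h1, h2, h3⟩ := heckeRepQ_mul' hℓN (dvd_mul_left Q N) (γ : SL(2, ℤ))
    (mem_Gamma0_iff.mp γ.2) s
  have hg' : g' ∈ Gamma0 (N * Q) := mem_Gamma0_iff.mpr h1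
  have h4 : lrU hcop s * dQ N Q γ = dQ N Q ⟨g', hg'⟩ * lrU hcop (redMat ℓ (γ : SL(2, ℤ)) • s) := by
    apply Units.ext
    rw [Units.val_mul, Units.val_mul, lrU_val, lrU_val, dQ_val, dQ_val]
    exact h3
  rw [← slash_mul, h2, slash_mul, MulAction.toPerm_apply]
  congr 1
  rw [(hx.D _).slash_eq H ⟨g', hg'⟩, hx.D_D H, hx.D_D H]
  congr 2
  rw [dia_eq, dia_eq]
  have h5 := congrArg ψ h4
  rw [map_mul, map_mul] at h5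
  have h6 : ψ (dQ N Q ⟨g', hg'⟩) = ψ (lrU hcop s) * ψ (dQ N Q γ) *
      (ψ (lrU hcop (redMat ℓ (γ : SL(2, ℤ)) • s)))⁻¹ := by rw [h5]; group
  rw [h6]
  have hcomm : ∀ a b c d : Δ, a * b * c * (d * a⁻¹) = d * c * b := fun a b c d => by
    rw [mul_comm d a⁻¹, mul_assoc (a * b), mul_comm c (a⁻¹ * d), mul_assoc a b, ← mul_assoc b,
      ← mul_assoc b, mul_comm b a⁻¹, mul_assoc a⁻¹ b d, ← mul_assoc a, ← mul_assoc a,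
      mul_inv_cancel, one_mul, mul_comm b d, mul_assoc, mul_comm b c, ← mul_assoc]
  rw [hcomm]

theorem HInv.TH (H : TwHyp N Q ψ) {ℓ : ℕ} (hℓ : ℓ.Prime) (hℓN : ¬ ℓ ∣ N * Q) {x : Pairs R}
    (hx : HInv N Q ψ x) : HInv N Q ψ (TH N Q ψ ℓ x) := by
  intro γ hγ
  rw [slash_TH H hℓ hℓN hx, hγ, hx.D_one H]

/-- (T1) `TH ℓ` commutes with the diamond operators. -/
theorem D_TH (H : TwHyp N Q ψ) {ℓ : ℕ} (hℓ : ℓ.Prime) (hℓN : ¬ ℓ ∣ N * Q) {x : Pairs R}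
    (hx : HInv N Q ψ x) (δ : Δ) : D N Q ψ δ (TH N Q ψ ℓ x) = TH N Q ψ ℓ (D N Q ψ δ x) := by
  rw [D_apply δ (TH N Q ψ ℓ x), slash_TH H hℓ hℓN hx, dia_gam H]

theorem TH_add_trans {x : Pairs R} (h : ∀ a b c, x a b + x b c = x a c) (ℓ : ℕ)
    (a b c : Cusp) : TH N Q ψ ℓ x a b + TH N Q ψ ℓ x b c = TH N Q ψ ℓ x a c := by
  have h1 := heckeU_add_trans (slash_add_of_add h
    (toQ (gam N Q ψ (wN ψ ℓ)⁻¹ : SL(2, ℤ)))) ℓ a b c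
  have h2 := slash_add_of_add (slash_add_of_add h (toQ (gam N Q ψ (wN ψ ℓ) : SL(2, ℤ))))
    (diagMat ℓ) a b c
  simp only [TH_apply, D_apply, degen_apply, Pi.add_apply]
  rw [← h1, ← h2]
  ring

/-- (T1) `TH ℓ` preserves `MS (GammaH N Q ψ)`. -/
theorem TH_mem (H : TwHyp N Q ψ) {ℓ : ℕ} (hℓ : ℓ.Prime) (hℓN : ¬ ℓ ∣ N * Q) {x : Pairs R}
    (hx : x ∈ MS (GammaH N Q ψ) R) : TH N Q ψ ℓ x ∈ MS (GammaH N Q ψ) R :=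
  mem_MS_GammaH.mpr ⟨TH_add_trans hx.1 ℓ, (hInv_of_mem hx).TH H hℓ hℓN⟩

/-- (T2) -/
theorem TH_of_mem_Gamma0 {x : Pairs R} (hx : x ∈ MS (Gamma0 (N * Q)) R) (ℓ : ℕ) :
    TH N Q ψ ℓ x = heckeT ℓ x := by
  rw [TH_apply, D_of_mem_Gamma0 hx, D_of_mem_Gamma0 hx, heckeT_apply]

/-! ### `U_r`, `r ∣ NQ` -/

theorem slash_heckeU (H : TwHyp N Q ψ) {r : ℕ} (hr : r ≠ 0) (hrN : r ∣ N * Q) {x : Pairs R}
    (hx : HInv N Q ψ x) (γ : Gamma0 (N * Q)) :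
    slash (toQ (γ : SL(2, ℤ))) (heckeU r x) = heckeU r (D N Q ψ (dia N Q ψ γ) x) := by
  have : NeZero r := ⟨hr⟩
  have hγN := mem_Gamma0_iff.mp γ.2
  obtain ⟨π, hπ⟩ := heckeMat_mul_of_dvd (q := r) (γ : SL(2, ℤ))
    ((Int.natCast_dvd_natCast.mpr hrN).trans hγN)
  rw [heckeU_eq_sum_zmod, heckeU_eq_sum_zmod, map_sum]
  rw [← Equiv.sum_comp π (fun s : ZMod r => slash (heckeMat r (s.val : ℤ))
    (D N Q ψ (dia N Q ψ γ) x))]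
  refine Finset.sum_congr rfl fun s _ => ?_
  obtain ⟨g', h1, h2⟩ := hπ s
  have hg' : g' ∈ Gamma0 (N * Q) := mem_Gamma0_iff.mpr (h1 ▸ Dvd.dvd.mul_left hγN _)
  rw [← slash_mul, h2, slash_mul, hx.slash_eq H ⟨g', hg'⟩]
  congr 2
  rw [dia_eq, dia_eq]
  congr 2
  apply dQ_eq
  rw [dQ_val]
  have h3 := congrFun (congrFun (congrArg (fun m : GL (Fin 2) ℚ =>
    (m : Matrix (Fin 2) (Fin 2) ℚ)) h2) 1) 1
  simp only [val_mul', Matrix.mul_apply, Fin.sum_univ_two, toQ_entry, val_heckeMat hr] at h3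
  simp only [Matrix.of_apply, Matrix.cons_val', Matrix.cons_val_zero, Matrix.cons_val_one,
    Matrix.cons_val_fin_one, zero_mul, zero_add] at h3
  rw [h1] at h3
  have hr' : (r : ℚ) ≠ 0 := by exact_mod_cast hr
  have h4 : (((γ : SL(2, ℤ)) 1 1 : ℤ) : ℚ) = (((γ : SL(2, ℤ)) 1 0 : ℤ) : ℚ) * ((π s).val : ℤ) +
      ((g' 1 1 : ℤ) : ℚ) := by
    push_cast at h3 ⊢
    have : (r : ℚ) * (((γ : SL(2, ℤ)) 1 1 : ℤ) : ℚ) =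
      r * ((((γ : SL(2, ℤ)) 1 0 : ℤ) : ℚ) * ((π s).val : ℚ) + ((g' 1 1 : ℤ) : ℚ)) := by
      rw [h3]; ring
    exact mul_left_cancel₀ hr' this
  have h5 : ((γ : SL(2, ℤ)) 1 1 : ℤ) = (γ : SL(2, ℤ)) 1 0 * ((π s).val : ℤ) + g' 1 1 := by
    exact_mod_cast h4
  have h6 := congrArg (Int.cast : ℤ → ZMod Q) h5
  have h7 : (((γ : SL(2, ℤ)) 1 0 : ℤ) : ZMod Q) = 0 :=
    (ZMod.intCast_zmod_eq_zero_iff_dvd _ _).mpr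
      ((Int.natCast_dvd_natCast.mpr (dvd_mul_left Q N)).trans hγN)
  push_cast at h6
  rw [h7, zero_mul, zero_add] at h6
  exact h6.symm

theorem HInv.heckeU (H : TwHyp N Q ψ) {r : ℕ} (hr : r ≠ 0) (hrN : r ∣ N * Q) {x : Pairs R}
    (hx : HInv N Q ψ x) : HInv N Q ψ (heckeU r x) := by
  intro γ hγ
  rw [slash_heckeU H hr hrN hx, hγ, hx.D_one H]

/-- (T1) `U_r` commutes with the diamond operators, `r ∣ NQ`. -/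
theorem D_heckeU (H : TwHyp N Q ψ) {r : ℕ} (hr : r ≠ 0) (hrN : r ∣ N * Q) {x : Pairs R}
    (hx : HInv N Q ψ x) (δ : Δ) : D N Q ψ δ (heckeU r x) = heckeU r (D N Q ψ δ x) := by
  rw [D_apply δ (LR.heckeU r x), slash_heckeU H hr hrN hx, dia_gam H]

/-- (T1) -/
theorem heckeU_mem_GammaH (H : TwHyp N Q ψ) {r : ℕ} (hr : r ≠ 0) (hrN : r ∣ N * Q) {x : Pairs R}
    (hx : x ∈ MS (GammaH N Q ψ) R) : heckeU r x ∈ MS (GammaH N Q ψ) R :=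
  mem_MS_GammaH.mpr ⟨heckeU_add_trans hx.1 r, (hInv_of_mem hx).heckeU H hr hrN⟩

/-! ### the involution -/

theorem dia_jConj (γ : Gamma0 (N * Q)) :
    dia N Q ψ ⟨jConjSL γ, jConjSL_mem_Gamma0 γ.2⟩ = dia N Q ψ γ := by
  rw [dia_eq, dia_eq]
  congr 1
  apply dQ_eq
  rw [dQ_val]
  simp

theorem slash_jMat_comm (H : TwHyp N Q ψ) {x : Pairs R} (hx : HInv N Q ψ x)
    (γ : Gamma0 (N * Q)) : slash (toQ (γ : SL(2, ℤ))) (slash jMat x) =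
      slash jMat (D N Q ψ (dia N Q ψ γ) x) := by
  rw [← slash_mul, jMat_mul_toQ, slash_mul,
    hx.slash_eq H ⟨jConjSL γ, jConjSL_mem_Gamma0 γ.2⟩, dia_jConj]

theorem HInv.jMat (H : TwHyp N Q ψ) {x : Pairs R} (hx : HInv N Q ψ x) :
    HInv N Q ψ (LR.slash jMat x) := by
  intro γ hγ
  rw [slash_jMat_comm H hx, hγ, hx.D_one H]

/-- (T1) -/
theorem D_jMat (H : TwHyp N Q ψ) {x : Pairs R} (hx : HInv N Q ψ x) (δ : Δ) :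
    D N Q ψ δ (slash jMat x) = slash jMat (D N Q ψ δ x) := by
  rw [D_apply δ (LR.slash jMat x), slash_jMat_comm H hx, dia_gam H]

/-- (T1) -/
theorem jMat_mem_GammaH (H : TwHyp N Q ψ) {x : Pairs R} (hx : x ∈ MS (GammaH N Q ψ) R) :
    slash jMat x ∈ MS (GammaH N Q ψ) R :=
  mem_MS_GammaH.mpr ⟨slash_add_of_add hx.1 _, (hInv_of_mem hx).jMat H⟩

/-- (T1) -/
theorem heckeU_jMat {x : Pairs R} (hx : TInv x) {ℓ : ℕ} (hℓ : ℓ ≠ 0) :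
    heckeU ℓ (slash jMat x) = slash jMat (heckeU ℓ x) := by
  rw [heckeU_apply, heckeU_apply, map_sum]
  simp only [← slash_mul, jMat_mul_heckeMat hℓ]
  simp only [slash_mul]
  refine sum_range_neg_of_periodic ℓ (fun j => slash jMat (slash (heckeMat ℓ j) x)) fun j => ?_
  have h1 : j + (ℓ : ℤ) ≡ j [ZMOD ℓ] := by simp [Int.ModEq]
  show slash jMat (slash (heckeMat ℓ (j + ℓ)) x) = slash jMat (slash (heckeMat ℓ j) x)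
  rw [slash_triMat_congr hx (by simpa using hℓ) h1]

/-- (T1) -/
theorem TH_jMat (H : TwHyp N Q ψ) {x : Pairs R} (hx : HInv N Q ψ x) {ℓ : ℕ} (hℓ : ℓ ≠ 0) :
    TH N Q ψ ℓ (slash jMat x) = slash jMat (TH N Q ψ ℓ x) := by
  rw [TH_apply, TH_apply, D_jMat H hx, D_jMat H hx, map_add, heckeU_jMat (hx.D _).tInv hℓ,
    degen_apply, degen_apply, ← slash_mul, jMat_mul_diagMat hℓ, slash_mul]

/-! ### commutation -/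

/-- (T1) `TH ℓ` and `U_r` commute. -/
theorem TH_heckeU (H : TwHyp N Q ψ) {ℓ r : ℕ} (hℓ : ℓ.Prime) (hr : r ≠ 0)
    (hrN : r ∣ N * Q) (hrℓ : Nat.Coprime ℓ r) {x : Pairs R} (hx : HInv N Q ψ x) :
    TH N Q ψ ℓ (heckeU r x) = heckeU r (TH N Q ψ ℓ x) := by
  rw [TH_apply, TH_apply, D_heckeU H hr hrN hx, D_heckeU H hr hrN hx, map_add,
    heckeU_comm ℓ r hℓ.ne_zero hr, heckeU_degen hr hℓ.ne_zero hrℓ (hx.D _).tInv]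

theorem TH_TH_aux (H : TwHyp N Q ψ) {ℓ r : ℕ} (hℓ : ℓ.Prime) (hr : r.Prime)
    (hrN : ¬ r ∣ N * Q) (hrℓ : Nat.Coprime ℓ r) {x : Pairs R} (hx : HInv N Q ψ x) :
    TH N Q ψ ℓ (TH N Q ψ r x) =
      heckeU ℓ (heckeU r (D N Q ψ ((wN ψ r)⁻¹ * (wN ψ ℓ)⁻¹) x)) +
      degen r (heckeU ℓ (D N Q ψ (wN ψ r * (wN ψ ℓ)⁻¹) x)) +
      (degen ℓ (heckeU r (D N Q ψ ((wN ψ r)⁻¹ * wN ψ ℓ) x)) +
      degen ℓ (degen r (D N Q ψ (wN ψ r * wN ψ ℓ) x))) := by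
  rw [TH_apply ℓ, D_TH H hr hrN hx, D_TH H hr hrN hx, TH_apply, TH_apply, map_add, map_add,
    hx.D_D H, hx.D_D H, hx.D_D H, hx.D_D H,
    heckeU_degen hℓ.ne_zero hr.ne_zero hrℓ.symm (hx.D _).tInv]

/-- (T1) the operators `TH ℓ` commute. -/
theorem TH_comm (H : TwHyp N Q ψ) {ℓ r : ℕ} (hℓ : ℓ.Prime) (hℓN : ¬ ℓ ∣ N * Q) (hr : r.Prime)
    (hrN : ¬ r ∣ N * Q) {x : Pairs R} (hx : HInv N Q ψ x) :
    TH N Q ψ ℓ (TH N Q ψ r x) = TH N Q ψ r (TH N Q ψ ℓ x) := by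
  by_cases hlr : ℓ = r
  · rw [hlr]
  have hcop : Nat.Coprime ℓ r := (Nat.coprime_primes hℓ hr).mpr hlr
  rw [TH_TH_aux H hℓ hr hrN hcop hx, TH_TH_aux H hr hℓ hℓN hcop.symm hx,
    heckeU_comm ℓ r hℓ.ne_zero hr.ne_zero, degen_comm ℓ r hℓ.ne_zero hr.ne_zero,
    mul_comm (wN ψ ℓ)⁻¹ (wN ψ r)⁻¹, mul_comm (wN ψ ℓ) (wN ψ r),
    mul_comm (wN ψ ℓ) (wN ψ r)⁻¹, mul_comm (wN ψ ℓ)⁻¹ (wN ψ r)]
  abel

end Fermat.Agent.RT.TwistH
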