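import Fermat.Agent.RT.TwistH

/-!
# The twisting operator (RT-TWIST, 2)

* `ts Q v` : slash by `T^{v/Q}`.
* `Tw N Q ψ x = ∑ u : (ℤ/Q)ˣ, ts Q u (D (w u) x)`.
* `Tw_mem` (T3), `heckeT_Tw`, `heckeU_Tw` (T4), `Tw_jMat` (T5), `heckeU_Tw_eq_zero`.
-/

set_option autoImplicit false

open Matrix Matrix.SpecialLinearGroup CongruenceSubgroup
open scoped MatrixGroups OnePoint

noncomputable section

namespace Fermat.Agent.RT.TwistH

open Fermat.Agent.LR Fermat.Agent.LR.PS Fermat.Agent.RT ModularCurve.Period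

variable {R : Type*} [CommRing R]
variable {N Q : ℕ} {Δ : Type*} [CommGroup Δ] {ψ : (ZMod Q)ˣ →* Δ}

/-! ### slash by `T^{v/Q}` -/

/-- slash by `T^{v/Q}` -/
def ts (Q : ℕ) (v : ℤ) : Pairs R →ₗ[R] Pairs R := slash (triMat Q v Q)

theorem ts_apply (Q : ℕ) (v : ℤ) (x : Pairs R) : ts Q v x = slash (triMat Q v Q) x := rfl

theorem sq_ne {Q : ℕ} (hQ : Q ≠ 0) : (Q : ℤ) * Q ≠ 0 := by
  have : (Q : ℤ) ≠ 0 := by exact_mod_cast hQ
  exact mul_ne_zero this this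

theorem slash_triMat_scale {k a b d : ℤ} (hk : k ≠ 0) (had : a * d ≠ 0) (x : Pairs R) :
    slash (triMat (k * a) (k * b) (k * d)) x = slash (triMat a b d) x := by
  have h1 : k * a * (k * d) ≠ 0 := by
    have : k * a * (k * d) = (k * k) * (a * d) := by ring
    rw [this]; exact mul_ne_zero (mul_ne_zero hk hk) had
  refine slash_congr (c := (k : ℚ)) (by exact_mod_cast hk) ?_ x
  rw [val_triMat _ h1, val_triMat _ had]
  ext i j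
  fin_cases i <;> fin_cases j <;> simp

theorem ts_ts {Q : ℕ} (hQ : Q ≠ 0) (v w : ℤ) (x : Pairs R) : ts Q v (ts Q w x) = ts Q (v + w) x := by
  rw [ts_apply, ts_apply, ts_apply, ← slash_mul, triMat_mul _ _ (sq_ne hQ) (sq_ne hQ)]
  have h1 : (Q : ℤ) * v + w * Q = Q * (v + w) := by ring
  rw [h1, slash_triMat_scale (by exact_mod_cast hQ) (sq_ne hQ)]

theorem ts_zero {Q : ℕ} (hQ : Q ≠ 0) (x : Pairs R) : ts Q 0 x = x := by
  rw [ts_apply]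
  have h1 : slash (triMat Q 0 Q) x = slash (1 : GL (Fin 2) ℚ) x := by
    refine slash_congr (c := (Q : ℚ)) (by exact_mod_cast hQ) ?_ x
    rw [val_triMat _ (sq_ne hQ)]
    ext i j
    fin_cases i <;> fin_cases j <;> simp
  rw [h1, slash_one]

theorem ts_scale {k Q : ℕ} (hk : k ≠ 0) (hQ : Q ≠ 0) (v : ℤ) (x : Pairs R) :
    ts (k * Q) (k * v) x = ts Q v x := by
  rw [ts_apply, ts_apply]
  push_cast
  exact slash_triMat_scale (by exact_mod_cast hk) (sq_ne hQ) x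

theorem ts_congr {Q : ℕ} (hQ : Q ≠ 0) {x : Pairs R} (hx : TInv x) {v w : ℤ}
    (h : v ≡ w [ZMOD Q]) : ts Q v x = ts Q w x :=
  slash_triMat_congr hx (sq_ne hQ) h

/-- commuting `T^{v/E}` past an element of `Γ₀(E²)`. -/
theorem slash_ts {E : ℕ} (hE : E ≠ 0) {γ : SL(2, ℤ)} {e f v v' : ℤ}
    (he : γ 1 0 = E * E * e) (hf : γ 1 1 * v - γ 0 0 * v' = E * f) :
    ∃ γ' : SL(2, ℤ), γ' 1 0 = γ 1 0 ∧ γ' 1 1 = γ 1 1 - E * e * v' ∧
      ∀ x : Pairs R, slash (toQ γ) (ts E v x) = ts E v' (slash (toQ γ') x) := by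
  have hdet := det_eq' γ
  rw [he] at hdet
  refine ⟨mkSL (γ 0 0 + E * e * v) (γ 0 1 + f - v * e * v') (E * E * e) (γ 1 1 - E * e * v')
    (by linear_combination hdet + E * e * hf), ?_, ?_, fun x => ?_⟩
  · rw [he]; simp [mkSL]
  · simp [mkSL]
  · rw [ts_apply, ts_apply, ← slash_mul, ← slash_mul]
    congr 2
    apply Units.ext
    rw [val_mul', val_mul', val_toQ_mkSL, val_toQ, val_triMat _ (sq_ne hE),
      val_triMat _ (sq_ne hE), he]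
    have hf' : ((γ 1 1 : ℤ) : ℚ) * v - ((γ 0 0 : ℤ) : ℚ) * v' = E * f := by exact_mod_cast hf
    ext i j
    fin_cases i <;> fin_cases j <;> simp [Matrix.mul_apply, Fin.sum_univ_two]
    · ring
    · linear_combination hf'
    · ring
    · ring

/-! ### commutation of `ts` with Hecke operators -/

theorem heckeU_ts {Q ℓ : ℕ} (hQ : Q ≠ 0) (hℓ : ℓ ≠ 0) (v : ℤ) (x : Pairs R) :
    heckeU ℓ (ts Q v x) = ts Q (ℓ * v) (heckeU ℓ x) := by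
  rw [heckeU_apply, heckeU_apply, map_sum]
  refine Finset.sum_congr rfl fun j _ => ?_
  rw [ts_apply, ts_apply, ← slash_mul, ← slash_mul,
    triMat_mul _ _ (sq_ne hQ) (by simpa using hℓ), triMat_mul _ _ (by simpa using hℓ) (sq_ne hQ)]
  congr 2
  ring_nf

theorem degen_ts {Q ℓ : ℕ} (hQ : Q ≠ 0) (hℓ : ℓ ≠ 0) (v : ℤ) (x : Pairs R) :
    degen ℓ (ts Q (ℓ * v) x) = ts Q v (degen ℓ x) := by
  rw [degen_apply, degen_apply, ts_apply, ts_apply, ← slash_mul, ← slash_mul,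
    triMat_mul _ _ (sq_ne hQ) (by simpa using hℓ), triMat_mul _ _ (by simpa using hℓ) (sq_ne hQ)]
  congr 2
  ring_nf

theorem jMat_ts {Q : ℕ} (hQ : Q ≠ 0) (v : ℤ) (x : Pairs R) :
    slash jMat (ts Q v x) = ts Q (-v) (slash jMat x) := by
  rw [ts_apply, ts_apply, ← slash_mul, ← slash_mul, jMat,
    triMat_mul _ _ (sq_ne hQ) (by norm_num), triMat_mul _ _ (by norm_num) (sq_ne hQ)]
  congr 2
  ring_nf

theorem tInv_heckeU {x : Pairs R} (hx : TInv x) {ℓ : ℕ} (hℓ : ℓ ≠ 0) : TInv (heckeU ℓ x) := by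
  have : NeZero ℓ := ⟨hℓ⟩
  intro k
  rw [heckeU_eq_sum_zmod, map_sum,
    ← Equiv.sum_comp (Equiv.addRight ((k : ℤ) : ZMod ℓ)) (fun j : ZMod ℓ =>
      slash (heckeMat ℓ (j.val : ℤ)) x)]
  refine Finset.sum_congr rfl fun j _ => ?_
  rw [← slash_mul]
  have h1 : heckeMat ℓ (j.val : ℤ) * toQ (ModularGroup.T ^ k) = heckeMat ℓ ((j.val : ℤ) + k) := by
    apply Units.ext
    rw [val_mul', val_toQ_T_zpow, val_heckeMat hℓ, val_heckeMat hℓ]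
    ext i k'
    fin_cases i <;> fin_cases k' <;> simp [Matrix.mul_apply, Fin.sum_univ_two, add_comm]
  rw [h1]
  refine slash_triMat_congr hx (by simpa using hℓ) ?_
  rw [← ZMod.intCast_eq_intCast_iff]
  simp

/-! ### The twist -/

/-- the twisting operator -/
def Tw (N Q : ℕ) [NeZero Q] {Δ : Type*} [CommGroup Δ] (ψ : (ZMod Q)ˣ →* Δ) :
    Pairs R →ₗ[R] Pairs R :=
  ∑ u : (ZMod Q)ˣ, ts Q ((u : ZMod Q).val : ℤ) ∘ₗ D N Q ψ (wch ψ u)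

theorem Tw_apply [NeZero Q] (x : Pairs R) :
    Tw N Q ψ x = ∑ u : (ZMod Q)ˣ, ts Q ((u : ZMod Q).val : ℤ) (D N Q ψ (wch ψ u) x) := by
  simp [Tw]

theorem modEq_val_of_cast {Q : ℕ} [NeZero Q] {v : ℤ} {u : ZMod Q} (h : (v : ZMod Q) = u) :
    v ≡ (u.val : ℤ) [ZMOD Q] := by
  rw [← ZMod.intCast_eq_intCast_iff, h]
  simp

/-- (T3) the twist is of level `Γ₀(NQ²)`. -/
theorem slash_Tw (H : TwHyp N Q ψ) [NeZero Q] {x : Pairs R} (hx : HInv N Q ψ x) {γ : SL(2, ℤ)}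
    (hγ : γ ∈ Gamma0 (N * Q ^ 2)) : slash (toQ γ) (Tw N Q ψ x) = Tw N Q ψ x := by
  have hγ' : γ ∈ Gamma0 (N * Q) := Gamma0_mono ⟨Q, by ring⟩ hγ
  obtain ⟨c, hc⟩ := mem_Gamma0_iff.mp hγ
  set d : (ZMod Q)ˣ := dQ N Q ⟨γ, hγ'⟩ with hd
  have hd' : ((d : (ZMod Q)ˣ) : ZMod Q) = ((γ 1 1 : ℤ) : ZMod Q) := dQ_val ⟨γ, hγ'⟩
  have had : ((γ 0 0 : ℤ) : ZMod Q) * ((γ 1 1 : ℤ) : ZMod Q) = 1 := by
    have h1 := congrArg (Int.cast : ℤ → ZMod Q) (det_eq' γ)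
    rw [hc] at h1
    push_cast at h1
    simpa using h1
  rw [Tw_apply, map_sum, ← Equiv.sum_comp (Equiv.mulRight (d * d))
    (fun u : (ZMod Q)ˣ => ts Q ((u : ZMod Q).val : ℤ) (D N Q ψ (wch ψ u) x))]
  refine Finset.sum_congr rfl fun u _ => ?_
  rw [Equiv.coe_mulRight]
  have h2 : (Q : ℤ) ∣ γ 1 1 * ((u : ZMod Q).val : ℤ) -
      γ 0 0 * (((u * (d * d) : (ZMod Q)ˣ) : ZMod Q).val : ℤ) := by
    rw [← ZMod.intCast_zmod_eq_zero_iff_dvd]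
    push_cast
    rw [ZMod.natCast_zmod_val, ZMod.natCast_zmod_val]
    rw [hd']
    linear_combination (-(u : ZMod Q) * ((γ 1 1 : ℤ) : ZMod Q)) * had
  obtain ⟨f, hf⟩ := h2
  obtain ⟨γ', h3, h4, h5⟩ := slash_ts (R := R) (E := Q) H.hQ (γ := γ) (e := N * c)
    (by rw [hc]; push_cast; ring) hf
  rw [h5]
  congr 1
  have hγ'' : γ' ∈ Gamma0 (N * Q) := by rw [mem_Gamma0_iff, h3]; exact mem_Gamma0_iff.mp hγ'
  have h6 : ((γ' 1 1 : ℤ) : ZMod Q) = d := by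
    rw [h4, hd']; push_cast; simp
  rw [(hx.D _).slash_eq' H hγ'' d h6, hx.D_D H, map_mul, map_mul, wch_mul_self H, mul_comm]

theorem sum_add_trans {ι : Type*} (s : Finset ι) (F : ι → Pairs R)
    (h : ∀ i ∈ s, ∀ a b c, F i a b + F i b c = F i a c) (a b c : Cusp) :
    (∑ i ∈ s, F i) a b + (∑ i ∈ s, F i) b c = (∑ i ∈ s, F i) a c := by
  simp only [Finset.sum_apply, ← Finset.sum_add_distrib]
  exact Finset.sum_congr rfl fun i hi => h i hi a b c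

/-- (T3) -/
theorem Tw_mem (H : TwHyp N Q ψ) [NeZero Q] {x : Pairs R} (hx : x ∈ MS (GammaH N Q ψ) R) :
    Tw N Q ψ x ∈ MS (Gamma0 (N * Q ^ 2)) R := by
  refine ⟨?_, fun γ hγ => slash_Tw H (hInv_of_mem hx) hγ⟩
  rw [Tw_apply]
  exact sum_add_trans _ _ fun u _ => slash_add_of_add (slash_add_of_add hx.1 _) _

/-- commutation of `Tw` with a diamond operator (trivial form). -/
theorem Tw_D (H : TwHyp N Q ψ) [NeZero Q] {x : Pairs R} (hx : HInv N Q ψ x) (δ : Δ) :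
    Tw N Q ψ (D N Q ψ δ x) =
      ∑ u : (ZMod Q)ˣ, ts Q ((u : ZMod Q).val : ℤ) (D N Q ψ (wch ψ u * δ) x) := by
  rw [Tw_apply]
  exact Finset.sum_congr rfl fun u _ => by rw [hx.D_D H]

theorem heckeU_Tw_aux (H : TwHyp N Q ψ) [NeZero Q] {ℓ : ℕ} (hℓ : ℓ ≠ 0) (hcop : ℓ.Coprime Q)
    {x : Pairs R} (hx : HInv N Q ψ x) :
    heckeU ℓ (Tw N Q ψ x) =
      ∑ u : (ZMod Q)ˣ, ts Q ((u : ZMod Q).val : ℤ) (heckeU ℓ (D N Q ψ ((wN ψ ℓ)⁻¹ * wch ψ u) x)) := by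
  rw [Tw_apply, map_sum,
    ← Equiv.sum_comp (Equiv.mulLeft (ZMod.unitOfCoprime ℓ hcop)) (fun u : (ZMod Q)ˣ =>
      ts Q ((u : ZMod Q).val : ℤ) (heckeU ℓ (D N Q ψ ((wN ψ ℓ)⁻¹ * wch ψ u) x)))]
  refine Finset.sum_congr rfl fun u _ => ?_
  rw [heckeU_ts H.hQ hℓ, Equiv.coe_mulLeft, map_mul, wN_of_coprime hcop, inv_mul_cancel_left]
  refine ts_congr H.hQ (tInv_heckeU (hx.D _).tInv hℓ) (modEq_val_of_cast ?_)
  push_cast
  rw [ZMod.natCast_zmod_val, ZMod.coe_unitOfCoprime]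

theorem degen_Tw_aux (H : TwHyp N Q ψ) [NeZero Q] {ℓ : ℕ} (hℓ : ℓ ≠ 0) (hcop : ℓ.Coprime Q)
    {x : Pairs R} (hx : HInv N Q ψ x) :
    degen ℓ (Tw N Q ψ x) =
      ∑ u : (ZMod Q)ˣ, ts Q ((u : ZMod Q).val : ℤ) (degen ℓ (D N Q ψ (wN ψ ℓ * wch ψ u) x)) := by
  rw [Tw_apply, map_sum,
    ← Equiv.sum_comp (Equiv.mulLeft (ZMod.unitOfCoprime ℓ hcop)) (fun u : (ZMod Q)ˣ =>
      degen ℓ (ts Q ((u : ZMod Q).val : ℤ) (D N Q ψ (wch ψ u) x)))]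
  refine Finset.sum_congr rfl fun u _ => ?_
  rw [Equiv.coe_mulLeft, map_mul, wN_of_coprime hcop, ← degen_ts H.hQ hℓ]
  congr 1
  refine (ts_congr H.hQ (hx.D _).tInv (modEq_val_of_cast ?_)).symm
  push_cast
  rw [ZMod.natCast_zmod_val, ZMod.coe_unitOfCoprime]

/-- (T4) `T_ℓ ∘ Tw = Tw ∘ TH ℓ`, `ℓ ∤ NQ`. -/
theorem heckeT_Tw (H : TwHyp N Q ψ) [NeZero Q] {ℓ : ℕ} (hℓ : ℓ.Prime) (hℓN : ¬ ℓ ∣ N * Q)
    {x : Pairs R} (hx : HInv N Q ψ x) :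
    heckeT ℓ (Tw N Q ψ x) = Tw N Q ψ (TH N Q ψ ℓ x) := by
  have hcop : ℓ.Coprime Q :=
    (Nat.Prime.coprime_iff_not_dvd hℓ).mpr fun h => hℓN (h.mul_left N)
  rw [heckeT_apply, heckeU_Tw_aux H hℓ.ne_zero hcop hx, degen_Tw_aux H hℓ.ne_zero hcop hx,
    Tw_apply, ← Finset.sum_add_distrib]
  refine Finset.sum_congr rfl fun u _ => ?_
  rw [D_TH H hℓ hℓN hx, TH_apply, map_add, hx.D_D H, hx.D_D H]

/-- (T4) `U_r ∘ Tw = Tw ∘ U_r ∘ D_{w(r)⁻¹}`, `r ∣ N`. -/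
theorem heckeU_Tw (H : TwHyp N Q ψ) [NeZero Q] {r : ℕ} (hr : r ≠ 0) (hrN : r ∣ N)
    {x : Pairs R} (hx : HInv N Q ψ x) :
    heckeU r (Tw N Q ψ x) = Tw N Q ψ (heckeU r (D N Q ψ (wN ψ r)⁻¹ x)) := by
  have hcop : r.Coprime Q := Nat.Coprime.coprime_dvd_left hrN H.cop
  rw [heckeU_Tw_aux H hr hcop hx, Tw_apply]
  refine Finset.sum_congr rfl fun u _ => ?_
  rw [D_heckeU H hr (hrN.mul_right Q) (hx.D _), hx.D_D H, mul_comm]

/-- (T5) -/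
theorem Tw_jMat (H : TwHyp N Q ψ) [NeZero Q] {x : Pairs R} (hx : HInv N Q ψ x) :
    Tw N Q ψ (slash jMat x) = slash jMat (Tw N Q ψ x) := by
  rw [Tw_apply, Tw_apply, map_sum,
    ← Equiv.sum_comp (Equiv.neg (ZMod Q)ˣ) (fun u : (ZMod Q)ˣ =>
      slash jMat (ts Q ((u : ZMod Q).val : ℤ) (D N Q ψ (wch ψ u) x)))]
  refine Finset.sum_congr rfl fun u _ => ?_
  have h1 : wch ψ (-u) = wch ψ u := by
    rw [← neg_one_mul, map_mul, wch_neg_one H, one_mul]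
  rw [Equiv.neg_apply, h1, jMat_ts H.hQ, D_jMat H hx]
  refine ts_congr H.hQ ((hx.D _).jMat H).tInv (modEq_val_of_cast ?_).symm
  push_cast
  rw [ZMod.natCast_zmod_val, neg_neg]

/-- (T4) `U_q ∘ Tw = 0`, `q ∣ Q` on elements killed by the `w`-norm at `q`. -/
theorem heckeU_Tw_eq_zero (H : TwHyp N Q ψ) [NeZero Q]
    (htf : ∀ (n : ℕ) (y : R), n ≠ 0 → (n : R) * y = 0 → y = 0)
    {q Q' : ℕ} (hQ' : Q = q * Q') {x : Pairs R} (hx : HInv N Q ψ x)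
    (S : Finset (ZMod Q)ˣ) (hS : S.Nonempty)
    (hS1 : ∀ t ∈ S, (Q' : ℤ) ∣ ((t : ZMod Q).val : ℤ) - 1)
    (h0 : ∑ t ∈ S, D N Q ψ (wch ψ t) x = 0) :
    heckeU q (Tw N Q ψ x) = 0 := by
  have hq : q ≠ 0 := by rintro rfl; exact H.hQ (by rw [hQ', zero_mul])
  set F : (ZMod Q)ˣ → Pairs R := fun u =>
    ts Q (q * ((u : ZMod Q).val : ℤ)) (heckeU q (D N Q ψ (wch ψ u) x)) with hF
  have h1 : heckeU q (Tw N Q ψ x) = ∑ u, F u := by
    rw [Tw_apply, map_sum]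
    exact Finset.sum_congr rfl fun u _ => heckeU_ts H.hQ hq _ _
  have h2 : ∀ t ∈ S, ∑ u, F u = ∑ u : (ZMod Q)ˣ, ts Q (q * ((u : ZMod Q).val : ℤ))
      (heckeU q (D N Q ψ (wch ψ u) (D N Q ψ (wch ψ t) x))) := by
    intro t ht
    rw [← Equiv.sum_comp (Equiv.mulRight t) F]
    refine Finset.sum_congr rfl fun u _ => ?_
    rw [hF]
    simp only [Equiv.coe_mulRight, map_mul]
    rw [hx.D_D H]
    refine ts_congr H.hQ (tInv_heckeU (hx.D _).tInv hq) ?_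
    obtain ⟨k, hk⟩ := hS1 t ht
    rw [← ZMod.intCast_eq_intCast_iff]
    push_cast
    have h3 : ((((u * t : (ZMod Q)ˣ) : ZMod Q).val : ℕ) : ZMod Q) = u * t := by
      rw [ZMod.natCast_zmod_val, Units.val_mul]
    have h4 : (t : ZMod Q) = 1 + (Q' : ZMod Q) * k := by
      have h5 := congrArg (Int.cast : ℤ → ZMod Q) hk
      push_cast at h5
      rw [ZMod.natCast_zmod_val] at h5
      linear_combination h5
    have h6 : ((q : ZMod Q)) * (Q' : ZMod Q) = 0 := by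
      rw [← Nat.cast_mul, ← hQ']; simp
    rw [← Units.val_mul, h3, h4, ZMod.natCast_zmod_val]
    linear_combination (u : ZMod Q) * k * h6
  have h3 : ((S.card : ℕ) : R) • ∑ u, F u = 0 := by
    have h4 : ∑ t ∈ S, ∑ u, F u = 0 := by
      rw [Finset.sum_congr rfl h2, Finset.sum_comm]
      refine Finset.sum_eq_zero fun u _ => ?_
      rw [← map_sum, ← map_sum, ← map_sum, h0, map_zero, map_zero, map_zero]
    rw [Finset.sum_const] at h4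
    rw [← h4, Nat.cast_smul_eq_nsmul]
  rw [h1]
  funext a b
  have h5 := congrFun (congrFun h3 a) b
  exact htf _ _ (Finset.card_ne_zero.mpr hS) h5

end Fermat.Agent.RT.TwistH
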