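import Mathlib
import Fermat.Agent.RT.Twist

/-!
# Injectivity of the twist

If `q ∥ L`, `ψ_q = φ²`, `φ` has odd order and the coefficient ring is torsion-free, then
`tw φ` is injective on `MSψ (level L, ψ)`.
-/

set_option autoImplicit false
set_option linter.unusedSectionVars false

noncomputable section

open Matrix Matrix.SpecialLinearGroup CongruenceSubgroup
open scoped MatrixGroups OnePoint

namespace Fermat.Agent.RT.Twist

open Fermat.Agent.LR Fermat.Agent.LR.PS Fermat.Agent.ES ModularCurve.Period Fermat.Agent.RT.Neben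

variable {Λ : Type*} [CommRing Λ] {q : ℕ} [Fact q.Prime] (φ : DirichletCharacter Λ q)

/-- the sum of the values -/
def sumφ : Λ := ∑ t : ZMod q, φ t

theorem mul_sumφ {v : ZMod q} (hv : v ≠ 0) : φ v * sumφ φ = sumφ φ := by
  rw [sumφ, Finset.mul_sum]
  rw [← Equiv.sum_comp (Equiv.mulLeft₀ v hv) (fun t => φ t)]
  exact Finset.sum_congr rfl fun t _ => by rw [Equiv.mulLeft₀_apply, map_mul]

theorem card_erase_zero : (Finset.univ.erase (0 : ZMod q)).card = q - 1 := by
  rw [Finset.card_erase_of_mem (Finset.mem_univ _), Finset.card_univ, ZMod.card]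

theorem sumφ_eq : sumφ φ = ∑ t ∈ Finset.univ.erase (0 : ZMod q), φ t := by
  rw [sumφ, ← Finset.add_sum_erase Finset.univ _ (Finset.mem_univ (0 : ZMod q)), φ.map_zero,
    zero_add]

theorem sumφ_sq : sumφ φ * sumφ φ = ((q : Λ) - 1) * sumφ φ := by
  have h1 : sumφ φ * sumφ φ = ∑ t ∈ Finset.univ.erase (0 : ZMod q), φ t * sumφ φ := by
    rw [← Finset.sum_mul, ← sumφ_eq]
  rw [h1, Finset.sum_congr rfl fun t ht => mul_sumφ φ
    (Finset.ne_of_mem_erase ht), Finset.sum_const, card_erase_zero, nsmul_eq_mul,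
    Nat.cast_sub (Fact.out : q.Prime).one_le, Nat.cast_one]

theorem conv_eq (hφ : φ (-1) = 1) (w : ZMod q) :
    ∑ u : ZMod q, φ u * φ⁻¹ (w - u) = (sumφ φ - 1) + if w = 0 then (q : Λ) - sumφ φ else 0 := by
  by_cases hw : w = 0
  · subst hw
    rw [if_pos rfl]
    rw [← Finset.add_sum_erase Finset.univ _ (Finset.mem_univ (0 : ZMod q)), φ.map_zero, zero_mul,
      zero_add]
    have h1 : ∀ u ∈ Finset.univ.erase (0 : ZMod q), φ u * φ⁻¹ (0 - u) = 1 := by
      intro u hu
      have hu0 := Finset.ne_of_mem_erase hu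
      rw [MulChar.inv_apply', ← map_mul]
      have : u * (0 - u)⁻¹ = -1 := by
        rw [zero_sub, inv_neg, mul_neg, mul_inv_cancel₀ hu0]
      rw [this, hφ]
    rw [Finset.sum_congr rfl h1, Finset.sum_const, card_erase_zero, nsmul_eq_mul, mul_one,
      Nat.cast_sub (Fact.out : q.Prime).one_le, Nat.cast_one]
    ring
  · rw [if_neg hw, add_zero]
    have h2 : ∑ u : ZMod q, φ u * φ⁻¹ (w - u) =
        ∑ u ∈ Finset.univ.erase w, φ (u * (w - u)⁻¹) := by
      rw [← Finset.add_sum_erase Finset.univ _ (Finset.mem_univ w), sub_self, MulChar.map_zero,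
        mul_zero, zero_add]
      exact Finset.sum_congr rfl fun u _ => by rw [MulChar.inv_apply', map_mul]
    have h3 : sumφ φ - 1 = ∑ t ∈ Finset.univ.erase (-1 : ZMod q), φ t := by
      rw [sumφ, ← Finset.add_sum_erase Finset.univ _ (Finset.mem_univ (-1 : ZMod q)), hφ]
      ring
    rw [h2, h3]
    refine Finset.sum_bij' (fun u _ => u * (w - u)⁻¹) (fun t _ => w * t * (1 + t)⁻¹) ?_ ?_ ?_ ?_ ?_
    · intro u hu
      have hu' : w - u ≠ 0 := sub_ne_zero.mpr (Finset.ne_of_mem_erase hu).symm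
      refine Finset.mem_erase.mpr ⟨fun h => ?_, Finset.mem_univ _⟩
      have h4 := congrArg (· * (w - u)) h
      simp only [mul_assoc, inv_mul_cancel₀ hu', mul_one] at h4
      exact hw (by linear_combination h4)
    · intro t ht
      have ht' : 1 + t ≠ 0 := by
        intro h
        exact Finset.ne_of_mem_erase ht (by linear_combination h)
      refine Finset.mem_erase.mpr ⟨fun h => ?_, Finset.mem_univ _⟩
      have h4 := congrArg (· * (1 + t)) h
      simp only [mul_assoc, inv_mul_cancel₀ ht', mul_one] at h4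
      exact hw (by linear_combination -h4)
    · intro u hu
      have hu' : w - u ≠ 0 := sub_ne_zero.mpr (Finset.ne_of_mem_erase hu).symm
      have h5 : 1 + u * (w - u)⁻¹ = w * (w - u)⁻¹ := by
        field_simp
        ring
      rw [h5]
      field_simp
    · intro t ht
      have ht' : 1 + t ≠ 0 := by
        intro h
        exact Finset.ne_of_mem_erase ht (by linear_combination h)
      have h5 : w - w * t * (1 + t)⁻¹ = w * (1 + t)⁻¹ := by
        field_simp
        ring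
      rw [h5]
      field_simp
    · intro u hu
      rfl

theorem tw_inv_tw (hφ : φ (-1) = 1) {x : Pairs Λ} (hx : TInv x) :
    tw φ⁻¹ (tw φ x) = ((q : Λ) - sumφ φ) • x + (sumφ φ - 1) • ∑ w : ZMod q, sh q w x := by
  rw [tw_apply φ x, tw_apply φ⁻¹]
  have h1 : ∀ v : ZMod q, φ⁻¹ v • sh q v (∑ u : ZMod q, φ u • sh q u x) =
      ∑ u : ZMod q, (φ u * φ⁻¹ v) • sh q (u + v) x := by
    intro v
    rw [map_sum, Finset.smul_sum]
    refine Finset.sum_congr rfl fun u _ => ?_
    rw [map_smul, sh_sh q hx, smul_smul, mul_comm]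
  rw [Finset.sum_congr rfl fun v _ => h1 v, Finset.sum_comm]
  have h2 : ∀ u : ZMod q, ∑ v : ZMod q, (φ u * φ⁻¹ v) • sh q (u + v) x =
      ∑ w : ZMod q, (φ u * φ⁻¹ (w - u)) • sh q w x := by
    intro u
    rw [← Equiv.sum_comp (Equiv.addLeft u) (fun w => (φ u * φ⁻¹ (w - u)) • sh q w x)]
    refine Finset.sum_congr rfl fun v _ => ?_
    rw [Equiv.coe_addLeft, add_sub_cancel_left]
  rw [Finset.sum_congr rfl fun u _ => h2 u, Finset.sum_comm]
  have h3 : ∀ w : ZMod q, ∑ u : ZMod q, (φ u * φ⁻¹ (w - u)) • sh q w x =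
      (sumφ φ - 1) • sh q w x + if w = 0 then ((q : Λ) - sumφ φ) • x else 0 := by
    intro w
    rw [← Finset.sum_smul, conv_eq φ hφ w, add_smul]
    by_cases hw : w = 0
    · rw [if_pos hw, if_pos hw, hw, sh_zero]
    · rw [if_neg hw, if_neg hw, zero_smul]
  rw [Finset.sum_congr rfl fun w _ => h3 w, Finset.sum_add_distrib, ← Finset.smul_sum,
    Finset.sum_ite_eq' Finset.univ (0 : ZMod q), if_pos (Finset.mem_univ _), add_comm]

theorem sh_sum (v : ZMod q) {x : Pairs Λ} (hx : TInv x) :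
    sh q v (∑ w : ZMod q, sh q w x) = ∑ w : ZMod q, sh q w x := by
  rw [map_sum]
  rw [← Equiv.sum_comp (Equiv.addRight v) (fun w => sh q w x)]
  exact Finset.sum_congr rfl fun w _ => by rw [sh_sh q hx]; rfl

theorem sum_sh_tw {x : Pairs Λ} (hx : TInv x) :
    ∑ v : ZMod q, sh q v (tw φ x) = sumφ φ • ∑ w : ZMod q, sh q w x := by
  rw [tw_apply]
  have h1 : ∀ v : ZMod q, sh q v (∑ u : ZMod q, φ u • sh q u x) =
      ∑ u : ZMod q, φ u • sh q (u + v) x := by
    intro v
    rw [map_sum]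
    exact Finset.sum_congr rfl fun u _ => by rw [map_smul, sh_sh q hx]
  rw [Finset.sum_congr rfl fun v _ => h1 v, Finset.sum_comm, sumφ, Finset.sum_smul]
  refine Finset.sum_congr rfl fun u _ => ?_
  rw [← Finset.smul_sum]
  congr 1
  rw [← Equiv.sum_comp (Equiv.addLeft u) (fun w => sh q w x)]
  rfl

variable [Module.IsTorsionFree ℤ Λ]

theorem eq_zero_of_natCast_smul {n : ℕ} (hn : n ≠ 0) {x : Pairs Λ} (h : (n : Λ) • x = 0) :
    x = 0 := by
  funext a b
  have h1 := congrFun (congrFun h a) b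
  simp only [Pi.smul_apply, smul_eq_mul, Pi.zero_apply] at h1
  have h2 : (n : ℤ) • x a b = 0 := by
    rw [zsmul_eq_mul]; push_cast; exact h1
  exact (smul_eq_zero.mp h2).resolve_left (by exact_mod_cast hn)

/-- first part: a symbol killed by the twist is invariant under `[1 1/q; 0 1]` -/
theorem sh_eq_of_tw_eq_zero (hφ : φ (-1) = 1) {x : Pairs Λ} (hx : TInv x) (h0 : tw φ x = 0) :
    sumφ φ • x = 0 ∧ ∀ v : ZMod q, sh q v x = x := by
  have h1 := tw_inv_tw φ hφ hx
  have h2 := sum_sh_tw φ hx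
  rw [h0, map_zero] at h1
  rw [h0, Finset.sum_eq_zero (fun v _ => map_zero _)] at h2
  set Sx := ∑ w : ZMod q, sh q w x with hSx
  have h3 : Sx = ((q : Λ) - sumφ φ) • x := by
    have : (sumφ φ - 1) • Sx = - Sx := by rw [sub_smul, ← h2, one_smul, zero_sub]
    rw [this] at h1
    exact (sub_eq_zero.mp (by rw [sub_eq_add_neg]; exact h1.symm)).symm
  have h4 : sumφ φ • x = 0 := by
    have h5 : sumφ φ • (((q : Λ) - sumφ φ) • x) = 0 := by rw [← h3, ← h2]
    rw [smul_smul, mul_sub, sumφ_sq, mul_comm (sumφ φ), ← sub_mul, sub_sub_cancel, one_mul] at h5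
    exact h5
  refine ⟨h4, fun v => ?_⟩
  have h5 : Sx = (q : Λ) • x := by rw [h3, sub_smul, h4, sub_zero]
  have h6 := sh_sum v hx
  rw [← hSx, h5, map_smul] at h6
  have h7 : (q : Λ) • (sh q v x - x) = 0 := by rw [smul_sub, h6, sub_self]
  exact sub_eq_zero.mp (eq_zero_of_natCast_smul (Fact.out : q.Prime).ne_zero h7)

/-- second part: such a symbol is killed by `φ(t)² - 1`. -/
theorem smul_eq_of_sh_eq {L M : ℕ} (hL : L = q * M) (hqM : ¬ q ∣ M) {ψ : DirichletCharacter Λ L}
    (hψ : ∀ d : ℤ, (d : ZMod M) = 1 → IsUnit (d : ZMod q) →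
      ψ (d : ZMod L) = φ (d : ZMod q) ^ 2)
    {x : Pairs Λ} (hx : x ∈ MSψ ψ) (hsh : ∀ v : ZMod q, sh q v x = x) {t : ZMod q} (ht : t ≠ 0) :
    φ t ^ 2 • x = x := by
  have hq0 : (q : ℤ) ≠ 0 := by exact_mod_cast (Fact.out : q.Prime).ne_zero
  have hqQ : (q : ℚ) ≠ 0 := by exact_mod_cast (Fact.out : q.Prime).ne_zero
  have hx' := TInv_of_memψ hx
  have h1q : (1 : ℤ) * (q : ℤ) ≠ 0 := by rwa [one_mul]
  have hM0 : ((M : ℕ) : ZMod q) ≠ 0 := by rwa [Ne, ZMod.natCast_eq_zero_iff]
  obtain ⟨y, hy⟩ := ZMod.intCast_surjective ((t - 1) * ((M : ZMod q))⁻¹)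
  obtain ⟨a, ha⟩ := ZMod.intCast_surjective (-t⁻¹ : ZMod q)
  have hMy : ((1 + M * y : ℤ) : ZMod q) = t := by
    push_cast; rw [hy, mul_comm (t - 1), ← mul_assoc, mul_inv_cancel₀ hM0, one_mul]; ring
  have hdvd : (q : ℤ) ∣ a + (1 + a * (M * y)) := by
    rw [← ZMod.intCast_zmod_eq_zero_iff_dvd]
    have : ((a + (1 + a * (M * y)) : ℤ) : ZMod q) = 1 + (a : ZMod q) * ((1 + M * y : ℤ) : ZMod q) := by
      push_cast; ring
    rw [this, hMy, ha, neg_mul, inv_mul_cancel₀ ht]
    ring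
  obtain ⟨b', hb'⟩ := hdvd
  let x'' : Pairs Λ := slash (triMat 1 0 q) x
  -- translation invariance
  have hT : ∀ k : ℤ, slash (toQ (ModularGroup.T ^ k)) x'' = x'' := by
    intro k
    have e1 : slash (toQ (ModularGroup.T ^ k)) x'' = slash (triMat 1 k q) x := by
      rw [← slash_mul]
      refine slash_congr (c := 1) one_ne_zero ?_ x
      rw [one_smul, val_mul', val_toQ_T_zpow, val_triMat _ h1q, val_triMat _ h1q]
      ext i j
      fin_cases i <;> fin_cases j <;> simp [Matrix.mul_apply, Fin.sum_univ_two]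
    have e2 : slash (triMat 1 0 q) (sh q (k : ZMod q) x) = slash (triMat 1 k q) x := by
      rw [sh_intCast q hx', ← slash_mul, triMat_mul _ _ (qq_ne q) h1q]
      rw [← slash_triMat_scale h1q hq0]
      congr 2
      simp [mul_comm]
    rw [e1, ← e2, hsh]
  -- lower triangular invariance
  have hdetL : (1 : ℤ) * 1 - 0 * (M * y) = 1 := by ring
  have hLw : slash (toQ (mkSL 1 0 (M * y) 1 hdetL)) x'' = x'' := by
    have hdet2 : (1 : ℤ) * 1 - 0 * (q * (M * y)) = 1 := by ring
    have hmem : mkSL 1 0 (q * (M * y)) 1 hdet2 ∈ Gamma0 L := by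
      rw [mem_Gamma0_iff]
      simp only [mkSL, of_apply, cons_val', cons_val_one, cons_val_zero]
      rw [hL]; push_cast
      exact ⟨y, by ring⟩
    have e1 : slash (toQ (mkSL 1 0 (M * y) 1 hdetL)) x'' =
        slash (toQ (mkSL 1 0 (q * (M * y)) 1 hdet2) * triMat 1 0 q) x := by
      rw [← slash_mul]
      refine slash_congr (c := 1) one_ne_zero ?_ x
      rw [one_smul, val_mul', val_mul', val_toQ_mkSL, val_toQ_mkSL, val_triMat _ h1q]
      ext i j
      fin_cases i <;> fin_cases j <;> simp [Matrix.mul_apply, Fin.sum_univ_two]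
    rw [e1, slash_mul, hx.2 _ hmem]
    have e2 : ((mkSL 1 0 (q * (M * y)) 1 hdet2) 1 1 : ℤ) = 1 := by simp [mkSL]
    rw [e2, Int.cast_one, map_one, one_smul]
  -- the word
  have hdetP : (1 + a * (M * y)) * (1 + M * y) - b' * (q * (M * y)) = 1 := by
    linear_combination (M * y : ℤ) * hb'
  have hmemP : mkSL (1 + a * (M * y)) b' (q * (M * y)) (1 + M * y) hdetP ∈ Gamma0 L := by
    rw [mem_Gamma0_iff]
    simp only [mkSL, of_apply, cons_val', cons_val_one, cons_val_zero]
    rw [hL]; push_cast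
    exact ⟨y, by ring⟩
  have hP : slash (toQ (ModularGroup.T ^ (1 : ℤ))) (slash (toQ (mkSL 1 0 (M * y) 1 hdetL))
      (slash (toQ (ModularGroup.T ^ a)) x'')) =
      slash (toQ (mkSL (1 + a * (M * y)) b' (q * (M * y)) (1 + M * y) hdetP) * triMat 1 0 q) x := by
    rw [← slash_mul, ← slash_mul, ← slash_mul]
    refine slash_congr (c := 1) one_ne_zero ?_ x
    have hb'' : (a : ℚ) + (1 + a * (M * y)) = q * b' := by exact_mod_cast hb'
    rw [one_smul, val_mul', val_mul', val_mul', val_mul', val_toQ_mkSL, val_toQ_mkSL,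
      val_triMat _ h1q, val_toQ_T_zpow, val_toQ_T_zpow]
    ext i j
    fin_cases i <;> fin_cases j <;> simp [Matrix.mul_apply, Fin.sum_univ_two]
    · linear_combination hb''
    · ring
  rw [hT, hLw, hT, slash_mul, hx.2 _ hmemP, map_smul] at hP
  have e2 : ((mkSL (1 + a * (M * y)) b' (q * (M * y)) (1 + M * y) hdetP) 1 1 : ℤ) = 1 + M * y := by
    simp [mkSL]
  rw [e2, hψ (1 + M * y) (by push_cast; rw [ZMod.natCast_self]; ring)
    (by rw [hMy]; exact isUnit_iff_ne_zero.mpr ht), hMy] at hP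
  -- back to `x`
  have h1 : slash (triMat q 0 1) x'' = x := by
    have hq1 : (q : ℤ) * 1 ≠ 0 := by rwa [mul_one]
    rw [← slash_mul, triMat_mul _ _ h1q hq1]
    refine (slash_congr (c := (q : ℚ)) hqQ ?_ x).trans (slash_one x)
    rw [val_triMat _ (by simpa using mul_ne_zero hq0 hq0)]
    ext i j
    fin_cases i <;> fin_cases j <;> simp
  have h2 := congrArg (slash (triMat q 0 1)) hP
  rw [map_smul, h1] at h2
  exact h2.symm

/-- **Injectivity of the twist.** -/
theorem eq_zero_of_tw_eq_zero {L M : ℕ} (hL : L = q * M) (hqM : ¬ q ∣ M)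
    {ψ : DirichletCharacter Λ L}
    (hψ : ∀ d : ℤ, (d : ZMod M) = 1 → IsUnit (d : ZMod q) →
      ψ (d : ZMod L) = φ (d : ZMod q) ^ 2) {m : ℕ} (hm : Odd m) (hφm : ∀ t : ZMod q, t ≠ 0 →
      φ t ^ m = 1) {x : Pairs Λ} (hx : x ∈ MSψ ψ) (h0 : tw φ x = 0) : x = 0 := by
  obtain ⟨k, hk⟩ := hm
  have hφ : φ (-1) = 1 := by
    have h1 : φ (-1) ^ m = 1 := hφm _ (neg_ne_zero.mpr one_ne_zero)
    have h2 : φ (-1) ^ 2 = 1 := by rw [← map_pow]; simp
    rw [hk, pow_succ, pow_mul, h2, one_pow, one_mul] at h1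
    exact h1
  obtain ⟨h1, h2⟩ := sh_eq_of_tw_eq_zero φ hφ (TInv_of_memψ hx) h0
  have h3 : ∀ t : ZMod q, t ≠ 0 → φ t • x = x := by
    intro t ht
    have h4 := smul_eq_of_sh_eq φ hL hqM hψ hx h2 ht
    have h5 : ∀ n : ℕ, (φ t ^ 2) ^ n • x = x := by
      intro n
      induction n with
      | zero => rw [pow_zero, one_smul]
      | succ n ih => rw [pow_succ, mul_smul, h4, ih]
    have h6 : φ t = (φ t ^ 2) ^ (k + 1) := by
      rw [← pow_mul]
      have : 2 * (k + 1) = m + 1 := by omega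
      rw [this, pow_succ, hφm t ht, one_mul]
    rw [h6]
    exact h5 _
  have h4 : sumφ φ • x = ((q - 1 : ℕ) : Λ) • x := by
    rw [sumφ_eq, Finset.sum_smul, Finset.sum_congr rfl fun t ht => h3 t (Finset.ne_of_mem_erase ht),
      Finset.sum_const, card_erase_zero, Nat.cast_smul_eq_nsmul]
  rw [h1] at h4
  refine eq_zero_of_natCast_smul ?_ h4.symm
  have := (Fact.out : q.Prime).two_le
  omega

end Fermat.Agent.RT.Twist
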