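import Mathlib
import Fermat.Agent.RT.TwistInj

/-!
# Twisting at several primes

`exists_twist`: `MSψ (level L, ψ) ↪ MS (Γ₀(L ∏ q))` when `ψ = ∏ φ_q²` with `φ_q` of odd order and
`q ∥ L` for all `q ∈ Q`.
-/

set_option autoImplicit false
set_option linter.unusedSectionVars false

noncomputable section

open Matrix Matrix.SpecialLinearGroup CongruenceSubgroup
open scoped MatrixGroups OnePoint

namespace Fermat.Agent.RT.Twist

open Fermat.Agent.LR Fermat.Agent.LR.PS Fermat.Agent.ES ModularCurve.Period Fermat.Agent.RT.Neben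

variable {Λ : Type*} [CommRing Λ]

/-- A nebentypus which is trivial on units. -/
theorem eq_one_of_forall {L : ℕ} {ψ : DirichletCharacter Λ L}
    (h : ∀ d : ℤ, IsUnit (d : ZMod L) → ψ (d : ZMod L) = 1) : ψ = 1 := by
  refine MulChar.ext fun a => ?_
  rw [MulChar.one_apply_coe]
  obtain ⟨d, hd⟩ := ZMod.intCast_surjective (a : ZMod L)
  rw [← hd]
  exact h d (hd ▸ a.isUnit)

theorem changeLevel_intCast {n m : ℕ} (hm : n ∣ m) (χ : DirichletCharacter Λ n) {d : ℤ}
    (hd : IsUnit (d : ZMod m)) :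
    DirichletCharacter.changeLevel hm χ (d : ZMod m) = χ (d : ZMod n) := by
  obtain ⟨u, hu⟩ := hd
  rw [← hu, DirichletCharacter.changeLevel_eq_cast_of_dvd, hu, ZMod.cast_intCast hm]

/-- the nebentypus after the twist -/
def twChar {L q : ℕ} (ψ : DirichletCharacter Λ L) (φ : DirichletCharacter Λ q) :
    DirichletCharacter Λ (L * q) :=
  DirichletCharacter.changeLevel (dvd_mul_right L q) ψ *
    (DirichletCharacter.changeLevel (dvd_mul_left q L) φ ^ 2)⁻¹

theorem twChar_mul {L q : ℕ} (ψ : DirichletCharacter Λ L) (φ : DirichletCharacter Λ q) {d : ℤ}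
    (hd : IsUnit (d : ZMod (L * q))) :
    twChar ψ φ (d : ZMod (L * q)) * φ (d : ZMod q) ^ 2 = ψ (d : ZMod L) := by
  rw [← changeLevel_intCast (dvd_mul_left q L) φ hd, ← changeLevel_intCast (dvd_mul_right L q) ψ hd]
  rw [← MulChar.pow_apply' _ two_ne_zero, ← MulChar.mul_apply, twChar, inv_mul_cancel_right]

/-- **Twisting at several primes.** -/
theorem exists_twist [Module.IsTorsionFree ℤ Λ] (φ : ∀ q : ℕ, DirichletCharacter Λ q) {m : ℕ}
    (hm : Odd m) (Q : Finset ℕ) (hφm : ∀ q ∈ Q, ∀ t : ZMod q, t ≠ 0 → φ q t ^ m = 1) :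
    ∀ {L : ℕ} (_ : ∀ q ∈ Q, q.Prime ∧ q ∣ L ∧ ¬ q ^ 2 ∣ L) (ψ : DirichletCharacter Λ L)
      (_ : ∀ d : ℤ, IsUnit (d : ZMod L) → ψ (d : ZMod L) = ∏ q ∈ Q, φ q (d : ZMod q) ^ 2),
    ∃ F : Pairs Λ →ₗ[Λ] Pairs Λ,
      (∀ x ∈ MSψ ψ, F x ∈ MS (Gamma0 (L * ∏ q ∈ Q, q)) Λ) ∧
      (∀ x ∈ MSψ ψ, F x = 0 → x = 0) ∧
      (∀ ℓ : ℕ, ℓ.Prime → ℓ ∉ Q → ∀ x ∈ MSψ ψ,
        (∏ q ∈ Q, φ q (ℓ : ZMod q)) • hop Λ (L * ∏ q ∈ Q, q) ℓ (F x) = F (hopψ ψ ℓ x)) ∧
      (∀ x ∈ MSψ ψ, F (slash jMat x) = slash jMat (F x)) := by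
  classical
  induction Q using Finset.induction_on with
  | empty =>
    intro L _ ψ hψ
    have h1 : ψ = 1 := eq_one_of_forall (fun d hd => by rw [hψ d hd, Finset.prod_empty])
    subst h1
    refine ⟨LinearMap.id, fun x hx => ?_, fun x _ h => h, fun ℓ hℓ _ x _ => ?_, fun x _ => rfl⟩
    · rw [Finset.prod_empty, mul_one, ← MSψ_one]; exact hx
    · rw [Finset.prod_empty, Finset.prod_empty, mul_one, one_smul, hopψ_one hℓ]
      rfl
  | insert q Q hqQ ih =>
    intro L hL ψ hψ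
    obtain ⟨hqp, hqL, hqL2⟩ := hL q (Finset.mem_insert_self q Q)
    have hFq : Fact q.Prime := ⟨hqp⟩
    obtain ⟨M, hM⟩ := hqL
    have hqM : ¬ q ∣ M := by
      rintro ⟨M', hM'⟩
      exact hqL2 ⟨M', by rw [hM, hM', pow_two, mul_assoc]⟩
    -- the character at level `L q`
    have hψ' : ∀ d : ℤ, IsUnit (d : ZMod (L * q)) →
        twChar ψ (φ q) (d : ZMod (L * q)) = ∏ r ∈ Q, φ r (d : ZMod r) ^ 2 := by
      intro d hd
      have h1 := twChar_mul ψ (φ q) hd
      have hdL : IsUnit (d : ZMod L) := by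
        have h2 := hd.map (ZMod.castHom (dvd_mul_right L q) (ZMod L))
        simpa using h2
      have hdq : IsUnit (d : ZMod q) := by
        have h2 := hd.map (ZMod.castHom (dvd_mul_left q L) (ZMod q))
        simpa using h2
      rw [hψ d hdL, Finset.prod_insert hqQ, mul_comm] at h1
      have h3 : IsUnit (φ q (d : ZMod q) ^ 2) := (hdq.map (φ q)).pow 2
      exact h3.mul_left_cancel h1
    obtain ⟨F, hF1, hF2, hF3, hF4⟩ := ih (fun r hr => hφm r (Finset.mem_insert_of_mem hr))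
      (L := L * q) (fun r hr => by
        obtain ⟨h1, h2, h3⟩ := hL r (Finset.mem_insert_of_mem hr)
        refine ⟨h1, h2.mul_right q, fun h4 => h3 ?_⟩
        have hrq : r ≠ q := fun h => hqQ (h ▸ hr)
        exact (Nat.Coprime.pow_left 2 ((Nat.coprime_primes h1 hqp).mpr hrq)).dvd_of_dvd_mul_right
          h4)
      (twChar ψ (φ q)) hψ'
    have htw : ∀ x ∈ MSψ ψ, tw (φ q) x ∈ MSψ (twChar ψ (φ q)) := fun x hx =>
      tw_mem (φ q) ⟨M, hM⟩ (fun d hd => twChar_mul ψ (φ q) hd) hx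
    have hlev : L * q * ∏ r ∈ Q, r = L * ∏ r ∈ insert q Q, r := by
      rw [Finset.prod_insert hqQ, mul_assoc]
    refine ⟨F ∘ₗ tw (φ q), fun x hx => ?_, fun x hx h0 => ?_, fun ℓ hℓ hℓQ x hx => ?_,
      fun x hx => ?_⟩
    · rw [← hlev]
      exact hF1 _ (htw x hx)
    · have h1 := hF2 _ (htw x hx) h0
      refine eq_zero_of_tw_eq_zero (φ q) hM hqM (ψ := ψ) ?_ hm
        (hφm q (Finset.mem_insert_self q Q)) hx h1
      intro d hd1 hdq
      -- unit mod `L`
      have hdL : IsUnit (d : ZMod L) := by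
        rw [ZMod.coe_int_isUnit_iff_isCoprime] at hdq ⊢
        have hdM : IsUnit (d : ZMod M) := by rw [hd1]; exact isUnit_one
        rw [ZMod.coe_int_isUnit_iff_isCoprime] at hdM
        rw [hM]
        push_cast
        exact IsCoprime.mul_left hdq hdM
      rw [hψ d hdL, Finset.prod_insert hqQ]
      rw [Finset.prod_eq_one, mul_one]
      intro r hr
      obtain ⟨h1, h2, h3⟩ := hL r (Finset.mem_insert_of_mem hr)
      have hrq : r ≠ q := fun h => hqQ (h ▸ hr)
      have hrM : r ∣ M := by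
        rw [hM] at h2
        exact ((Nat.coprime_primes h1 hqp).mpr hrq).dvd_of_dvd_mul_left h2
      have h4 : (d : ZMod r) = 1 := by
        have h5 := congrArg (ZMod.castHom hrM (ZMod r)) hd1
        rwa [map_one, map_intCast] at h5
      rw [h4, map_one, one_pow]
    · rw [Finset.mem_insert, not_or] at hℓQ
      have h1 := hF3 ℓ hℓ hℓQ.2 _ (htw x hx)
      have h2 := hopψ_tw (φ q) (fun d hd => twChar_mul ψ (φ q) hd) hℓ
        ((Nat.coprime_primes hℓ hqp).mpr hℓQ.1) (TInv_of_memψ hx)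
      rw [Finset.prod_insert hqQ, ← hlev, mul_smul, LinearMap.comp_apply, h1, LinearMap.comp_apply,
        ← h2, map_smul]
    · have hφ1 : φ q (-1) = 1 := by
        obtain ⟨k, hk⟩ := hm
        have h1 : φ q (-1) ^ m = 1 :=
          hφm q (Finset.mem_insert_self q Q) _ (neg_ne_zero.mpr one_ne_zero)
        have h2 : φ q (-1) ^ 2 = 1 := by rw [← map_pow]; simp
        rw [hk, pow_succ, pow_mul, h2, one_pow, one_mul] at h1
        exact h1
      rw [LinearMap.comp_apply, tw_slash_jMat (φ q) hφ1 (TInv_of_memψ hx), hF4 _ (htw x hx)]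
      rfl

end Fermat.Agent.RT.Twist
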