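import Fermat.Agent.RT.TypePoint
import Fermat.Agent.RT.SelReady
import Fermat.Agent.RT.Wiring.Defs
import Fermat.Agent.FrobCompareDet
import Fermat.Agent.DR.ResidualCompare

/-!
# RT-TYPE: Hecke algebra representations satisfy the deformation conditions

* `S32Prop`, `S33Prop`, `S34Prop` : the frozen statements;
* `AtP t p N ρbar` : the condition at `p` on the level and on `ρbar`;
* `dCond_of_datum` : for every `HeckeGaloisRepDatum N S 𝒪 θ T`, `dCond t 𝒪 p S₀ Sm H.ρ`.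
-/

set_option autoImplicit false

open Polynomial IsLocalRing CongruenceSubgroup ModularFormClass CuspForm

namespace Fermat.Agent.RT.Typ

open Fermat.Agent.CMP Fermat.Agent.FrobCompare Fermat.Agent.CMP.Density
open Fermat.Agent.CMP.S58Assembly (S35Prop S36Prop eq_of_quad)
open Fermat.Agent.RT.Wiring

local notation "Γℚ" => (AlgebraicClosure ℚ ≃ₐ[ℚ] AlgebraicClosure ℚ)

/-- The statement S32. -/
def S32Prop : Prop :=
  ∀ {p : ℕ} {N : ℕ} [NeZero N] {S : Finset ℕ}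
  {𝒪 : Type} [CommRing 𝒪] [IsDomain 𝒪] [IsDiscreteValuationRing 𝒪]
  [IsAdicComplete (IsLocalRing.maximalIdeal 𝒪) 𝒪]
  {θ : CuspForm.heckeAlgebra N 2 (↑S : Set ℕ) →+* IsLocalRing.ResidueField 𝒪}
  {T : Type} [CommRing T] [IsLocalRing T] [IsNoetherianRing T]
  [IsAdicComplete (IsLocalRing.maximalIdeal T) T] [Algebra 𝒪 T] [IsLocalHom (algebraMap 𝒪 T)]
  [Module.Finite 𝒪 T] [Module.Free 𝒪 T]
    [Finite (IsLocalRing.ResidueField 𝒪)] [CharZero 𝒪]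
    (_hp : p.Prime) (_hp2 : p ≠ 2) (_hp𝒪 : (p : 𝒪) ∈ IsLocalRing.maximalIdeal 𝒪) (_hpN : ¬ p ∣ N)
    (_hpS : p ∈ S) (_hNS : ∀ q : ℕ, q.Prime → q ∣ N → q ∈ S)
    (H : CuspForm.HeckeGaloisRepDatum N (↑S : Set ℕ) 𝒪 θ T),
    H.ρ.IsFlatAt p

/-- The statement S33. -/
def S33Prop : Prop :=
  ∀ {p : ℕ} {N : ℕ} [NeZero N] {S : Finset ℕ}
  {𝒪 : Type} [CommRing 𝒪] [IsDomain 𝒪] [IsDiscreteValuationRing 𝒪]
  [IsAdicComplete (IsLocalRing.maximalIdeal 𝒪) 𝒪]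
  {θ : CuspForm.heckeAlgebra N 2 (↑S : Set ℕ) →+* IsLocalRing.ResidueField 𝒪}
  {T : Type} [CommRing T] [IsLocalRing T] [IsNoetherianRing T]
  [IsAdicComplete (IsLocalRing.maximalIdeal T) T] [Algebra 𝒪 T] [IsLocalHom (algebraMap 𝒪 T)]
  [Module.Finite 𝒪 T] [Module.Free 𝒪 T]
    [Finite (IsLocalRing.ResidueField 𝒪)] [CharZero 𝒪]
    (_hp : p.Prime) (_hp2 : p ≠ 2) (_hp𝒪 : (p : 𝒪) ∈ IsLocalRing.maximalIdeal 𝒪)
    (_hN : p ∣ N ∧ ¬ p ^ 2 ∣ N)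
    (_hNS : ∀ q : ℕ, q.Prime → q ∣ N → q ∈ S)
    (H : CuspForm.HeckeGaloisRepDatum N (↑S : Set ℕ) 𝒪 θ T)
    (_hres : (GaloisRepAdic.ofResidualGaloisRep H.ρ.residual).IsOrdinaryAt p),
    H.ρ.IsOrdinaryAt p

/-- The statement S34. -/
def S34Prop : Prop :=
  ∀ {𝒪 : Type} [CommRing 𝒪] [IsDomain 𝒪] [IsDiscreteValuationRing 𝒪]
    [IsAdicComplete (maximalIdeal 𝒪) 𝒪] [Finite (ResidueField 𝒪)] [CharZero 𝒪]
    {p : ℕ} (_hp : p.Prime) (_hp𝒪 : (p : 𝒪) ∈ maximalIdeal 𝒪)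
    {N : ℕ} [NeZero N] {S : Finset ℕ} (_hpS : p ∈ S) (_hNS : ∀ q : ℕ, q.Prime → q ∣ N → q ∈ S)
    {θ : CuspForm.heckeAlgebra N 2 (↑S : Set ℕ) →+* ResidueField 𝒪}
    {T : Type} [CommRing T] [IsLocalRing T] [IsNoetherianRing T]
    [IsAdicComplete (maximalIdeal T) T] [Algebra 𝒪 T] [IsLocalHom (algebraMap 𝒪 T)]
    [Module.Finite 𝒪 T] [Module.Free 𝒪 T]
    (H : CuspForm.HeckeGaloisRepDatum N (↑S : Set ℕ) 𝒪 θ T)
    (q : ℕ) (_hq : q.Prime) (_hqp : q ≠ p) (_hqN : q ∣ N) (_hq2 : ¬ q ^ 2 ∣ N),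
    H.ρ.IsUnipotentOnInertiaAt q

/-- All the frozen statements which are used. -/
structure Inputs : Prop where
  s30 : Datum.S30Statement
  s32 : S32Prop
  s33 : S33Prop
  s34 : S34Prop
  s35 : S35Prop

/-- `tr ρbar(Frob_q)² ≠ (q+1)²` for some Frobenius at `q`: there are no `q`-new forms of level
`q ∥ N` congruent to `ρbar`. -/
def NoNewAt {k : Type} [Field k] (ρbar : ResidualGaloisRep k) (q : ℕ) : Prop :=
  ∃ A : ValuationSubring (AlgebraicClosure ℚ), A.LiesOverPrime q ∧ ∃ σ : Γℚ,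
    A.IsFrobeniusAt σ q ∧ (LinearMap.trace k ρbar.V (ρbar.ρ σ)) ^ 2 ≠ ((q : k) + 1) ^ 2

/-- The hypothesis at `p` on the level `N` and on `ρbar`, for the type `t`. -/
def AtP {k : Type} [Field k] (t : PType) (p N : ℕ) (ρbar : ResidualGaloisRep k) : Prop :=
  match t with
  | .flat => ¬ p ∣ N
  | .ord => p ∣ N ∧ ¬ p ^ 2 ∣ N ∧ (GaloisRepAdic.ofResidualGaloisRep ρbar).IsOrdinaryAt p
  | .strict => p ∣ N ∧ ¬ p ^ 2 ∣ N ∧ (GaloisRepAdic.ofResidualGaloisRep ρbar).IsOrdinaryAt p ∧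
      ∀ P : ValuationSubring (AlgebraicClosure ℚ), P.LiesOverPrime p →
        ∃ τ : Γℚ, PStep.IsTau P p τ ∧ ρbar.ρ τ ≠ 1

theorem p_mem_maximalIdeal {p : ℕ} {𝒪 T : Type} [CommRing 𝒪] [IsLocalRing 𝒪]
    (hp𝒪 : (p : 𝒪) ∈ maximalIdeal 𝒪) [CommRing T] [IsLocalRing T] [Algebra 𝒪 T]
    [IsLocalHom (algebraMap 𝒪 T)] : (p : T) ∈ maximalIdeal T := by
  have h1 := map_nonunit (algebraMap 𝒪 T) (p : 𝒪) hp𝒪
  rwa [map_natCast] at h1

section Datum

variable {p : ℕ} [hpf : Fact p.Prime] {N : ℕ} [NeZero N] {S : Finset ℕ} (hpS : p ∈ S)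
  (hNS : ∀ q : ℕ, q.Prime → q ∣ N → q ∈ S)
  {𝒪 : Type} [CommRing 𝒪] [IsDomain 𝒪] [IsDiscreteValuationRing 𝒪]
  [IsAdicComplete (maximalIdeal 𝒪) 𝒪] [Finite (ResidueField 𝒪)] [CharZero 𝒪]
  (hp𝒪 : (p : 𝒪) ∈ maximalIdeal 𝒪)
  {θ : heckeAlgebra N 2 (↑S : Set ℕ) →+* ResidueField 𝒪}
  {T : Type} [CommRing T] [IsLocalRing T] [IsNoetherianRing T]
  [IsAdicComplete (maximalIdeal T) T] [Algebra 𝒪 T] [IsLocalHom (algebraMap 𝒪 T)]
  [Module.Finite 𝒪 T] [Module.Free 𝒪 T]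
  (H : HeckeGaloisRepDatum N (↑S : Set ℕ) 𝒪 θ T)

omit [Finite (ResidueField 𝒪)] [CharZero 𝒪] in
theorem attached_baseChange {B : Type} [CommRing B] [IsLocalRing B] (φ : T →+* B)
    (hφ : IsLocalHom φ) : Attached (φ.comp H.π) (H.ρ.baseChangeAlong φ hφ) := by
  intro ℓ hℓ hℓN hℓS A hA σ hσ
  rw [DefCond.charpoly_baseChangeAlong, H.charpoly_frob ℓ hℓ hℓN hℓS A hA σ hσ,
    Polynomial.map_add, Polynomial.map_sub, Polynomial.map_mul, Polynomial.map_pow,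
    Polynomial.map_X, Polynomial.map_C, Polynomial.map_C, map_natCast φ]
  rfl

include hpS hNS hp𝒪 in
/-- The representation is unramified at the primes `q ∤ N`, `q ≠ p`. -/
theorem isUnramifiedAt_of_not_dvd (hS30 : Datum.S30Statement) {q : ℕ} (hq : q.Prime)
    (hqN : ¬ q ∣ N) (hqp : q ≠ p) : H.ρ.IsUnramifiedAt q := by
  refine isUnramifiedAt_of_points hNS H q ?_
  intro B _ _ _ _ _ _ _ _ _ _ hinj φ hφ A hA σ hσ h
  have hpB : (p : B) ∈ maximalIdeal B := p_mem_maximalIdeal hp𝒪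
  obtain ⟨M, _, hMN, g, hg, chig, iota, hchig, -, hiota⟩ :=
    exists_newform_of_point (S := (↑S : Set ℕ)) hNS ((φ : T →+* B).comp H.π)
  exact trace_inertia_of_not_dvd hpS hNS hpB (attached_baseChange H (φ : T →+* B) hφ) hMN hiota
    hS30 hq hqp (fun h => hqN (h.trans hMN)) A hA σ hσ h

include hpS hNS hp𝒪 in
/-- The representation is unramified at the primes `q ≠ p`, `q² ∤ N`, if
`tr ρ(Frob_q)² ≠ (q+1)²` residually. -/
theorem isUnramifiedAt_of_noNewAt (hS30 : Datum.S30Statement) (h35 : S35Prop) {q : ℕ}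
    (hq : q.Prime) (hqN : ¬ q ^ 2 ∣ N) (hqp : q ≠ p) (hno : NoNewAt H.ρ.residual q) :
    H.ρ.IsUnramifiedAt q := by
  refine isUnramifiedAt_of_points hNS H q ?_
  intro B _ _ _ _ _ _ _ _ _ _ hinj φ hφ A hA σ hσ h
  have hpB : (p : B) ∈ maximalIdeal B := p_mem_maximalIdeal hp𝒪
  obtain ⟨M, _, hMN, g, hg, chig, iota, hchig, -, hiota⟩ :=
    exists_newform_of_point (S := (↑S : Set ℕ)) hNS ((φ : T →+* B).comp H.π)
  have hatt := attached_baseChange H (φ : T →+* B) hφ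
  refine trace_inertia_of_not_dvd hpS hNS hpB hatt hMN hiota hS30 hq hqp (fun hqM => ?_)
    A hA σ hσ h
  obtain ⟨A', hA', σ', hσ', hne⟩ := hno
  apply hne
  have h1 := trace_frob_sq_of_dvd hpS hNS hpB hatt hMN hg hchig hiota h35 hq hqp hqM
    (fun h => hqN (h.trans hMN)) A' hA' σ' hσ'
  have h2 : LinearMap.trace B (H.ρ.baseChangeAlong (φ : T →+* B) hφ).V
      ((H.ρ.baseChangeAlong (φ : T →+* B) hφ).ρ σ') =
        φ (LinearMap.trace T H.ρ.V (H.ρ.ρ σ')) := by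
    have := BN2.trace_eq_of_charpoly_map_eq (H.ρ.baseChangeAlong (φ : T →+* B) hφ).finrank_eq
      H.ρ.finrank_eq (RingHom.id B) (φ : T →+* B)
      ((H.ρ.baseChangeAlong (φ : T →+* B) hφ).ρ σ') (H.ρ.ρ σ')
      (by rw [Polynomial.map_id, DefCond.charpoly_baseChangeAlong])
    exact this
  have h3 : LinearMap.trace (ResidueField T) H.ρ.residual.V (H.ρ.residual.ρ σ') =
      residue T (LinearMap.trace T H.ρ.V (H.ρ.ρ σ')) := by
    have := BN2.trace_eq_of_charpoly_map_eq H.ρ.residual.finrank_eq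
      H.ρ.finrank_eq (RingHom.id (ResidueField T)) (residue T)
      (H.ρ.residual.ρ σ') (H.ρ.ρ σ')
      (by rw [Polynomial.map_id, S58Assembly.charpoly_residual])
    exact this
  have h4 : ResidueField.map (φ : T →+* B)
      ((LinearMap.trace (ResidueField T) H.ρ.residual.V (H.ρ.residual.ρ σ')) ^ 2) =
      ResidueField.map (φ : T →+* B) (((q : ResidueField T) + 1) ^ 2) := by
    rw [map_pow, h3, ResidueField.map_residue, ← map_pow, map_pow (ResidueField.map _), map_add,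
      map_natCast, map_one]
    change residue B ((φ (LinearMap.trace T H.ρ.V (H.ρ.ρ σ'))) ^ 2) = _
    rw [← h2, h1, map_pow, map_add, map_natCast, map_one]
  exact (ResidueField.map (φ : T →+* B)).injective h4

end Datum

section Main

variable {p : ℕ} [hpf : Fact p.Prime] {N : ℕ} [NeZero N] {S : Finset ℕ} (hpS : p ∈ S)
  (hNS : ∀ q : ℕ, q.Prime → q ∣ N → q ∈ S)
  {𝒪 : Type} [CommRing 𝒪] [IsDomain 𝒪] [IsDiscreteValuationRing 𝒪]
  [IsAdicComplete (maximalIdeal 𝒪) 𝒪] [Finite (ResidueField 𝒪)] [CharZero 𝒪]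
  (hp𝒪 : (p : 𝒪) ∈ maximalIdeal 𝒪)
  {θ : heckeAlgebra N 2 (↑S : Set ℕ) →+* ResidueField 𝒪}
  {T : Type} [CommRing T] [IsLocalRing T] [IsNoetherianRing T]
  [IsAdicComplete (maximalIdeal T) T] [Algebra 𝒪 T] [IsLocalHom (algebraMap 𝒪 T)]
  [Module.Finite 𝒪 T] [Module.Free 𝒪 T]
  (H : HeckeGaloisRepDatum N (↑S : Set ℕ) 𝒪 θ T)

include hNS hp𝒪 in
omit [Finite (ResidueField 𝒪)] [CharZero 𝒪] in
/-- The determinant is cyclotomic. -/
theorem detIsCyclotomic : H.ρ.DetIsCyclotomic p := by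
  refine detIsCyclotomic_of_frob frobDensity H.ρ (Fact.out : p.Prime).ne_zero
    (p_mem_maximalIdeal hp𝒪) S fun ℓ hℓ hℓS P hP σ hσ => ?_
  have hℓN : ¬ ℓ ∣ N := fun h => hℓS (hNS ℓ hℓ h)
  have h1 := H.charpoly_frob ℓ hℓ hℓN (by simpa using hℓS) P hP σ hσ
  rw [BN2.charpoly_eq_of_finrank_two H.ρ.finrank_eq] at h1
  have h2 := congrArg (fun P => P.coeff 0) h1
  simpa [coeff_C] using h2

/-- Characteristic polynomials of equivalent residual representations. -/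
theorem residual_charpoly_of_isEquiv {k : Type} [Field k] {ρ ρ' : ResidualGaloisRep k}
    (h : ρ.IsEquiv ρ') (σ : Γℚ) : LinearMap.charpoly (ρ.ρ σ) = LinearMap.charpoly (ρ'.ρ σ) := by
  obtain ⟨e⟩ := h
  have h : e.toLinearEquiv.conj (ρ.ρ σ) = ρ'.ρ σ := by
    refine LinearMap.ext fun x => ?_
    rw [LinearEquiv.conj_apply_apply, e.map_apply, LinearEquiv.apply_symm_apply]
  rw [← h, LinearEquiv.charpoly_conj]

theorem noNewAt_of_isEquiv {k k' : Type} [Field k] [Field k'] {ρ : ResidualGaloisRep k}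
    {ρ' : ResidualGaloisRep k'} (r : k →+* k') (h : ρ'.IsEquiv (ρ.baseChangeAlong r)) {q : ℕ}
    (hno : NoNewAt ρ q) : NoNewAt ρ' q := by
  obtain ⟨A, hA, σ, hσ, hne⟩ := hno
  refine ⟨A, hA, σ, hσ, fun h1 => hne (r.injective ?_)⟩
  have h2 := BN2.trace_eq_of_charpoly_map_eq ρ'.finrank_eq ρ.finrank_eq (RingHom.id k') r
    (ρ'.ρ σ) (ρ.ρ σ) (by
      rw [Polynomial.map_id, residual_charpoly_of_isEquiv h σ,
        DR.ResidualCompare.charpoly_baseChangeAlong])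
  rw [map_pow, ← h2, map_pow, map_add, map_natCast, map_one]
  exact h1

theorem isUnipotentOnInertiaAt_of_isUnramifiedAt {A : Type} [CommRing A] [IsLocalRing A]
    {ρ : GaloisRepAdic A} {q : ℕ} (h : ρ.IsUnramifiedAt q) : ρ.IsUnipotentOnInertiaAt q := by
  intro P hP σ hσ
  rw [h P hP σ hσ, BN2.charpoly_eq_of_finrank_two ρ.finrank_eq, LinearMap.trace_one,
    map_one (LinearMap.det : Module.End A ρ.V →* A), ρ.finrank_eq]
  simp only [Nat.cast_ofNat, map_ofNat, map_one]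
  ring

include hpS hNS hp𝒪 in
/-- **RT-TYPE**: the representation of a Hecke algebra satisfies the deformation condition. -/
theorem dCond_of_datum (I : Inputs) (hp2 : p ≠ 2) {ρbar : ResidualGaloisRep (ResidueField 𝒪)}
    (hres : H.ρ.residual.IsEquiv (ρbar.baseChangeAlong (ResidueField.map (algebraMap 𝒪 T))))
    (t : PType) (S₀ Sm : Finset ℕ) (hpS₀ : p ∈ S₀)
    (hunr : ∀ q : ℕ, q.Prime → q ∣ N → q ∉ S₀ → ¬ q ^ 2 ∣ N ∧ NoNewAt ρbar q)
    (huni : ∀ q ∈ Sm, q.Prime → q ≠ p → ¬ q ^ 2 ∣ N) (hpt : AtP t p N ρbar) :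
    dCond t 𝒪 p S₀ Sm H.ρ := by
  have hp : p.Prime := Fact.out
  have hdet : H.ρ.DetIsCyclotomic p := detIsCyclotomic hNS hp𝒪 H
  have hunr' : ∀ q : ℕ, q.Prime → q ∉ S₀ → H.ρ.IsUnramifiedAt q := by
    intro q hq hqS₀
    have hqp : q ≠ p := fun h => hqS₀ (h ▸ hpS₀)
    by_cases hqN : q ∣ N
    · obtain ⟨h1, h2⟩ := hunr q hq hqN hqS₀
      exact isUnramifiedAt_of_noNewAt hpS hNS hp𝒪 H I.s30 I.s35 hq h1 hqp
        (noNewAt_of_isEquiv _ hres h2)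
    · exact isUnramifiedAt_of_not_dvd hpS hNS hp𝒪 H I.s30 hq hqN hqp
  have hfin : Finite (ResidueField T) := Components.finite_residueField (R := 𝒪)
  refine ⟨?_, fun q hq hqp hqp' => ?_⟩
  · cases t with
    | flat => exact ⟨hdet, I.s32 hp hp2 hp𝒪 hpt hpS hNS H, hunr'⟩
    | ord =>
      obtain ⟨h1, h2, h3⟩ := hpt
      exact ⟨hdet, I.s33 hp hp2 hp𝒪 ⟨h1, h2⟩ hNS H (SelMain.isOrdinaryAt_residual h3 _ hres),
        hunr'⟩
    | strict =>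
      obtain ⟨h1, h2, h3, h4⟩ := hpt
      have hord := I.s33 hp hp2 hp𝒪 ⟨h1, h2⟩ hNS H (SelMain.isOrdinaryAt_residual h3 _ hres)
      exact ⟨hdet, SelMain.isStrictOrdinaryAt_of_deformation_tau hp hfin h4 _ hres hord hdet,
        hunr'⟩
  · by_cases hqN : q ∣ N
    · exact I.s34 hp hp𝒪 hpS hNS H q hqp hqp' hqN (huni q hq hqp hqp')
    · exact isUnipotentOnInertiaAt_of_isUnramifiedAt
        (isUnramifiedAt_of_not_dvd hpS hNS hp𝒪 H I.s30 hqp hqN hqp')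

end Main

end Fermat.Agent.RT.Typ
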