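import Mathlib
import Fermat.Agent.CMP.CharExtend
import Fermat.Agent.CMP.EigenCharOn
import Fermat.Agent.CMP.S58Assembly
import Fermat.Agent.Oldform
import Fermat.Agent.IntStr.Main
import Fermat.Agent.RT.Components
import Fermat.Agent.RT.Reduced
import Fermat.Agent.RT.Datum
import Fermat.Agent.S31Lib.TraceForm
import Fermat.Agent.Petersson.Reduced
import Fermat.Agent.DefCond.Basic

/-!
# Points of Hecke algebras and newforms; inertia at primes not dividing the conductor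

* `exists_newform_of_point` : a character `χ : heckeAlgebra N 2 S →+* B` with values in a domain of
  characteristic zero comes from a newform `g` of level `M ∣ N` and an injective homomorphism
  `iota : chig.range →+* B`;
* `trace_frob_sq_of_dvd` : if `q ∥ M` then `tr ρ(Frob_q)² = (q+1)²` (S35);
* `trace_inertia_of_not_dvd` : if `q ∤ M` then `tr ρ` is invariant under inertia at `q`;
* `isUnramifiedAt_of_trace_ne` : a `HeckeGaloisRepDatum` is unramified at `q ∥ N`, `q ≠ p` if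
  `tr ρbar(Frob_q)² ≠ (q+1)²` (no `q`-new forms).
-/

set_option autoImplicit false

open Polynomial IsLocalRing CongruenceSubgroup ModularFormClass CuspForm

namespace Fermat.Agent.RT.Typ

open Fermat.Agent.CMP Fermat.Agent.FrobCompare Fermat.Agent.CMP.Density
open Fermat.Agent.CMP.S58Assembly (S35Prop S36Prop eq_of_quad)

local notation "Γℚ" => (AlgebraicClosure ℚ ≃ₐ[ℚ] AlgebraicClosure ℚ)

/-- A domain of characteristic zero, finite over `ℤ`, embeds in `ℂ`. -/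
theorem exists_embedding_complex (R : Type*) [CommRing R] [IsDomain R] [CharZero R]
    [Module.Finite ℤ R] : ∃ j : R →+* ℂ, Function.Injective j := by
  have h1 : Algebra.IsIntegral ℤ R := Algebra.IsIntegral.of_finite ℤ R
  have h2 : Algebra.IsAlgebraic ℤ R := inferInstance
  have h3 : Function.Injective (algebraMap ℤ R) := Int.cast_injective
  have h4 : FaithfulSMul ℤ R := (faithfulSMul_iff_algebraMap_injective ℤ R).mpr h3
  have h5 : FaithfulSMul ℤ ℂ :=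
    (faithfulSMul_iff_algebraMap_injective ℤ ℂ).mpr Int.cast_injective
  let j : R →ₐ[ℤ] ℂ := IsAlgClosed.lift
  refine ⟨(j : R →+* ℂ), (RingHom.injective_iff_ker_eq_bot _).mpr
    (Ideal.eq_bot_of_comap_eq_bot (R := ℤ) ?_)⟩
  rw [eq_bot_iff]
  intro n hn
  rw [Ideal.mem_comap, RingHom.mem_ker] at hn
  have h6 : ((n : ℤ) : ℂ) = 0 := by
    rw [← map_intCast (j : R →+* ℂ) n]
    exact hn
  exact_mod_cast h6

/-- **Points come from newforms.** -/
theorem exists_newform_of_point {N : ℕ} [NeZero N] {S : Set ℕ}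
    (hNS : ∀ q : ℕ, q.Prime → q ∣ N → q ∈ S) {B : Type*} [CommRing B] [IsDomain B] [CharZero B]
    (χ : heckeAlgebra N 2 S →+* B) :
    ∃ (M : ℕ) (_ : NeZero M) (_ : M ∣ N) (g : CuspForm (Gamma0 M) 2) (_ : g.IsNewform)
      (chig : heckeAlgebra M 2 S →+* ℂ) (iota : chig.range →+* B),
      (∀ (ℓ : ℕ) (hℓ : ℓ.Prime) (hℓM : ¬ ℓ ∣ M) (hℓS : ℓ ∉ S),
        chig (heckeAlgebra.T hℓ hℓM hℓS) = qCoeff ⇑g ℓ) ∧ Function.Injective iota ∧
      ∀ (ℓ : ℕ) (hℓ : ℓ.Prime) (hℓN : ¬ ℓ ∣ N) (hℓM : ¬ ℓ ∣ M) (hℓS : ℓ ∉ S),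
        iota (chig.rangeRestrict (heckeAlgebra.T hℓ hℓM hℓS)) =
          χ (heckeAlgebra.T hℓ hℓN hℓS) := by
  have hfin0 : Module.Finite ℤ (heckeAlgebra N 2 S) := IntStr.moduleFinite_heckeAlgebra N 2 S
  have hfin : Module.Finite ℤ χ.range :=
    Module.Finite.of_surjective χ.rangeRestrict.toIntAlgHom.toLinearMap
      χ.rangeRestrict_surjective
  obtain ⟨j, hj⟩ := exists_embedding_complex χ.range
  obtain ⟨f, hf, hfa⟩ := CharExtend.exists_eigenform_of_char (j.comp χ.rangeRestrict)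
  obtain ⟨M, hMN, g, hg, hga⟩ := Oldform.exists_isNewform (NeZero.ne N) hf
  have hM0 : M ≠ 0 := fun h => NeZero.ne N (by rw [h] at hMN; exact zero_dvd_iff.mp hMN)
  have : NeZero M := ⟨hM0⟩
  -- the eigenvalues of `g` are in the range of `j`
  have hle : (EigenCharOn.eigenCharOn S hg.1).range ≤ j.range := by
    refine EigenCharOn.range_eigenCharOn_le S hg.1 _ fun ℓ hℓ hℓS => ?_
    have hℓN : ¬ ℓ ∣ N := fun h => hℓS (hNS ℓ hℓ h)
    rw [hga ℓ hℓ hℓN, hfa ℓ hℓ hℓN hℓS]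
    exact ⟨_, rfl⟩
  let e : χ.range ≃+* j.range := RingEquiv.ofBijective j.rangeRestrict
    ⟨fun x y h => hj (congrArg Subtype.val h), j.rangeRestrict_surjective⟩
  let iota : (EigenCharOn.eigenCharOn S hg.1).range →+* B :=
    (χ.range.subtype).comp ((e.symm : j.range →+* χ.range).comp (Subring.inclusion hle))
  refine ⟨M, this, hMN, g, hg, EigenCharOn.eigenCharOn S hg.1, iota, ?_, ?_, ?_⟩
  · exact fun ℓ hℓ hℓM hℓS => EigenCharOn.eigenCharOn_T _ hg.1 hℓ hℓM hℓS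
  · exact (Subtype.val_injective.comp e.symm.injective).comp (Subring.inclusion_injective hle)
  · intro ℓ hℓ hℓN hℓM hℓS
    change ((e.symm (Subring.inclusion hle _) : χ.range) : B) = _
    have h1 : Subring.inclusion hle ((EigenCharOn.eigenCharOn S hg.1).rangeRestrict
        (heckeAlgebra.T hℓ hℓM hℓS)) = e (χ.rangeRestrict (heckeAlgebra.T hℓ hℓN hℓS)) := by
      apply Subtype.ext
      change EigenCharOn.eigenCharOn S hg.1 (heckeAlgebra.T hℓ hℓM hℓS) =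
        j (χ.rangeRestrict (heckeAlgebra.T hℓ hℓN hℓS))
      rw [EigenCharOn.eigenCharOn_T _ hg.1 hℓ hℓM hℓS, hga ℓ hℓ hℓN, hfa ℓ hℓ hℓN hℓS]
      rfl
    rw [h1, e.symm_apply_apply]
    rfl

section Attached

/-- `ρ` is attached to the character `χ` of the Hecke algebra. -/
def Attached {N : ℕ} [NeZero N] {S : Set ℕ} {B : Type} [CommRing B] [IsLocalRing B]
    (χ : heckeAlgebra N 2 S →+* B) (ρ : GaloisRepAdic B) : Prop :=
  ∀ (ℓ : ℕ) (hℓ : ℓ.Prime) (hℓN : ¬ ℓ ∣ N) (hℓS : ℓ ∉ S),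
    ∀ A : ValuationSubring (AlgebraicClosure ℚ), A.LiesOverPrime ℓ →
      ∀ σ : Γℚ, A.IsFrobeniusAt σ ℓ → LinearMap.charpoly (ρ.ρ σ) =
        X ^ 2 - C (χ (heckeAlgebra.T hℓ hℓN hℓS)) * X + C (ℓ : B)

variable {p : ℕ} [Fact p.Prime] {N : ℕ} [NeZero N] {S : Finset ℕ} (hpS : p ∈ S)
  (hNS : ∀ q : ℕ, q.Prime → q ∣ N → q ∈ S)
  {B : Type} [CommRing B] [IsDomain B] [IsDiscreteValuationRing B]
  [IsAdicComplete (maximalIdeal B) B] [Finite (ResidueField B)] [CharZero B]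
  (hpB : (p : B) ∈ maximalIdeal B) {χ : heckeAlgebra N 2 (↑S : Set ℕ) →+* B}
  {ρ : GaloisRepAdic B} (hρ : Attached χ ρ)
  {M : ℕ} [NeZero M] (hMN : M ∣ N) {g : CuspForm (Gamma0 M) 2} (hg : g.IsNewform)
  {chig : heckeAlgebra M 2 (↑S : Set ℕ) →+* ℂ} {iota : chig.range →+* B}
  (hchig : ∀ (ℓ : ℕ) (hℓ : ℓ.Prime) (hℓM : ¬ ℓ ∣ M) (hℓS : ℓ ∉ (↑S : Set ℕ)),
    chig (heckeAlgebra.T hℓ hℓM hℓS) = qCoeff ⇑g ℓ)
  (hiota : ∀ (ℓ : ℕ) (hℓ : ℓ.Prime) (hℓN : ¬ ℓ ∣ N) (hℓM : ¬ ℓ ∣ M) (hℓS : ℓ ∉ (↑S : Set ℕ)),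
    iota (chig.rangeRestrict (heckeAlgebra.T hℓ hℓM hℓS)) = χ (heckeAlgebra.T hℓ hℓN hℓS))

include hNS hρ hMN hiota in
/-- Comparison of two representations attached to the same point. -/
theorem charpoly_eq_of_attached {B' : Type} [CommRing B'] [IsLocalRing B'] [IsNoetherianRing B']
    [Algebra B B'] [IsLocalHom (algebraMap B B')] {ρ' : GaloisRepAdic B'}
    (hρ' : ∀ (ℓ : ℕ) (hℓ : ℓ.Prime) (hℓM : ¬ ℓ ∣ M) (hℓS : ℓ ∉ (↑S : Set ℕ)),
      ∀ A : ValuationSubring (AlgebraicClosure ℚ), A.LiesOverPrime ℓ →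
        ∀ σ : Γℚ, A.IsFrobeniusAt σ ℓ → LinearMap.charpoly (ρ'.ρ σ) =
          X ^ 2 - C (algebraMap B B' ((iota.comp chig.rangeRestrict)
            (heckeAlgebra.T hℓ hℓM hℓS))) * X + C ((ℓ : B'))) (σ : Γℚ) :
    LinearMap.charpoly (ρ'.ρ σ) = (LinearMap.charpoly (ρ.ρ σ)).map (algebraMap B B') := by
  have hloc1 : IsLocalHom (RingHom.id B') := ⟨fun a ha => ha⟩
  have key := adic_charpoly_map_eq frobDensity (RingHom.id B') (algebraMap B B') hloc1 inferInstance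
    ρ' ρ S (fun ℓ hℓ hℓS A hA τ hτ => ?_) σ
  · rwa [Polynomial.map_id] at key
  · have hℓS' : ℓ ∉ (↑S : Set ℕ) := fun h => hℓS (Finset.mem_coe.mp h)
    have hℓN : ¬ ℓ ∣ N := fun h => hℓS (hNS ℓ hℓ h)
    have hℓM : ¬ ℓ ∣ M := fun h => hℓN (h.trans hMN)
    rw [Polynomial.map_id, hρ' ℓ hℓ hℓM hℓS' A hA τ hτ, hρ ℓ hℓ hℓN hℓS' A hA τ hτ,
      RingHom.comp_apply, hiota ℓ hℓ hℓN hℓM hℓS', Polynomial.map_add, Polynomial.map_sub,
      Polynomial.map_mul, Polynomial.map_pow, Polynomial.map_X, Polynomial.map_C,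
      Polynomial.map_C, map_natCast (algebraMap B B')]

include hpS hNS hpB hρ hMN hg hchig hiota in
/-- **(PT2)** If `q ∥ M`, `q ≠ p` then `tr ρ(Frob_q)² = (q+1)²`. -/
theorem trace_frob_sq_of_dvd (h35 : S35Prop) {q : ℕ} (hq : q.Prime) (hqp : q ≠ p) (hqM : q ∣ M)
    (hqM2 : ¬ q ^ 2 ∣ M) (A : ValuationSubring (AlgebraicClosure ℚ)) (hA : A.LiesOverPrime q)
    (σ : Γℚ) (hσ : A.IsFrobeniusAt σ q) :
    (LinearMap.trace B ρ.V (ρ.ρ σ)) ^ 2 = ((q : B) + 1) ^ 2 := by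
  obtain ⟨B', j1, j2, j3, j4, j5, j6, j7, j8, j9, hinj, ρ', hρ', hρq⟩ :=
    h35 hg p S B hpB chig hchig iota hpS (fun r hr hrM => hNS r hr (hrM.trans hMN))
  have hcmp := charpoly_eq_of_attached hNS hρ hMN hiota hρ' σ
  apply hinj
  have h1 : ∀ a b : B', LinearMap.charpoly (ρ'.ρ σ) = X ^ 2 - C a * X + C b →
      algebraMap B B' (LinearMap.trace B ρ.V (ρ.ρ σ)) = a := by
    intro a b h
    rw [hcmp, BN2.charpoly_eq_of_finrank_two ρ.finrank_eq, Polynomial.map_add, Polynomial.map_sub,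
      Polynomial.map_mul, Polynomial.map_pow, Polynomial.map_X, Polynomial.map_C,
      Polynomial.map_C] at h
    exact eq_of_quad h
  rcases hρq q hq hqp hqM hqM2 A hA σ hσ with h | h
  · rw [map_pow, h1 _ _ h, map_pow, map_add, map_natCast, map_one]
  · have h2 : LinearMap.charpoly (ρ'.ρ σ) = X ^ 2 - C (-((q : B') + 1)) * X + C ((q : B')) := by
      rw [h, C_neg]; ring
    rw [map_pow, h1 _ _ h2, map_pow, map_add, map_natCast, map_one, neg_sq]

include hpS hNS hpB hρ hMN hiota in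
/-- **(PT1)** If `q ∤ M`, `q ≠ p` then the trace of `ρ` is invariant under inertia at `q`. -/
theorem trace_inertia_of_not_dvd (hS30 : Datum.S30Statement) {q : ℕ} (hq : q.Prime) (hqp : q ≠ p) (hqM : ¬ q ∣ M)
    (A : ValuationSubring (AlgebraicClosure ℚ)) (hA : A.LiesOverPrime q)
    (σ : Γℚ) (hσ : σ ∈ A.inertiaSubgroupIn ℚ) (h : Γℚ) :
    LinearMap.trace B ρ.V (ρ.ρ (σ * h)) = LinearMap.trace B ρ.V (ρ.ρ h) := by
  obtain ⟨B', j1, j2, j3, j4, j5, j6, j7, j8, j9, hinj, ρ', hρ', hunr⟩ :=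
    hS30 p M S hpS (fun r hr hrM => hNS r hr (hrM.trans hMN)) B hpB
      (iota.comp chig.rangeRestrict)
  have hcmp := charpoly_eq_of_attached hNS hρ hMN hiota hρ'
  have hloc1 : ∀ τ, LinearMap.trace B' ρ'.V (ρ'.ρ τ) =
      algebraMap B B' (LinearMap.trace B ρ.V (ρ.ρ τ)) := fun τ => by
    have := BN2.trace_eq_of_charpoly_map_eq ρ'.finrank_eq ρ.finrank_eq (RingHom.id B')
      (algebraMap B B') (ρ'.ρ τ) (ρ.ρ τ) (by rw [Polynomial.map_id, hcmp τ])
    exact this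
  apply hinj
  rw [← hloc1, ← hloc1, map_mul, hunr q hq hqM hqp A hA σ hσ, one_mul]

end Attached

section Datum

variable {p : ℕ} {N : ℕ} [NeZero N] {S : Finset ℕ}
  {𝒪 : Type} [CommRing 𝒪] [IsDomain 𝒪] [IsDiscreteValuationRing 𝒪]
  [IsAdicComplete (maximalIdeal 𝒪) 𝒪] [Finite (ResidueField 𝒪)] [CharZero 𝒪]
  {θ : heckeAlgebra N 2 (↑S : Set ℕ) →+* ResidueField 𝒪}
  {T : Type} [CommRing T] [IsLocalRing T] [IsNoetherianRing T]
  [IsAdicComplete (maximalIdeal T) T] [Algebra 𝒪 T] [IsLocalHom (algebraMap 𝒪 T)]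
  [Module.Finite 𝒪 T] [Module.Free 𝒪 T]

omit [Finite (ResidueField 𝒪)] in
theorem isReduced_of_datum (hNS : ∀ q : ℕ, q.Prime → q ∣ N → q ∈ S)
    (H : HeckeGaloisRepDatum N (↑S : Set ℕ) 𝒪 θ T) : IsReduced T := by
  have h1 : IsReduced (heckeAlgebra N 2 (↑S : Set ℕ)) := Petersson.isReduced_heckeAlgebra hNS
  have h2 : Module.Finite ℤ (heckeAlgebra N 2 (↑S : Set ℕ)) :=
    IntStr.moduleFinite_heckeAlgebra N 2 (↑S : Set ℕ)
  exact Reduced.isReduced_of_adjoin_range_eq_top (heckeAlgebra N 2 (↑S : Set ℕ)) 𝒪 T H.π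
    H.adjoin_range_π

/-- If, for all points of `T`, the trace is invariant under inertia at `q`, then the
representation is unramified at `q`. -/
theorem isUnramifiedAt_of_points (hNS : ∀ q : ℕ, q.Prime → q ∣ N → q ∈ S)
    (H : HeckeGaloisRepDatum N (↑S : Set ℕ) 𝒪 θ T) (q : ℕ)
    (hpt : ∀ (B : Type) [CommRing B] [IsDomain B] [IsDiscreteValuationRing B]
      [IsAdicComplete (maximalIdeal B) B] [Finite (ResidueField B)]
      [CharZero B] [Algebra 𝒪 B] [Module.Finite 𝒪 B] [Module.Free 𝒪 B]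
      [IsLocalHom (algebraMap 𝒪 B)], Function.Injective (algebraMap 𝒪 B) →
      ∀ (φ : T →ₐ[𝒪] B) (hφ : IsLocalHom (φ : T →+* B)),
        ∀ A : ValuationSubring (AlgebraicClosure ℚ), A.LiesOverPrime q →
        ∀ σ ∈ A.inertiaSubgroupIn ℚ, ∀ h : Γℚ,
          LinearMap.trace B (H.ρ.baseChangeAlong (φ : T →+* B) hφ).V
            ((H.ρ.baseChangeAlong (φ : T →+* B) hφ).ρ (σ * h)) =
          LinearMap.trace B (H.ρ.baseChangeAlong (φ : T →+* B) hφ).V
            ((H.ρ.baseChangeAlong (φ : T →+* B) hφ).ρ h)) :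
    H.ρ.IsUnramifiedAt q := by
  intro A hA σ hσ
  refine S31Lib.rho_eq_one_of_trace_eq H.ρ H.residual_absIrr σ fun h => ?_
  have hred := isReduced_of_datum hNS H
  rw [← sub_eq_zero]
  refine Components.eq_zero_of_forall_components 𝒪 T _ ?_
  intro B _ _ _ _ _ _ _ _ _ _ hinj φ
  have hφ : IsLocalHom (φ : T →+* B) := by
    have h1 : (φ : T →+* B).comp (algebraMap 𝒪 T) = algebraMap 𝒪 B := φ.comp_algebraMap
    refine ⟨fun a ha => ?_⟩
    by_contra hna
    have h2 : a ∈ maximalIdeal T := hna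
    -- `a` is integral over `𝒪`: some power lies in `𝔪_𝒪 T`
    have hfl := Ideal.exists_pow_le_of_le_radical_of_fg_radical
      (I := (maximalIdeal 𝒪).map (algebraMap 𝒪 T)) (J := maximalIdeal T)
    have h3 : maximalIdeal T ≤ ((maximalIdeal 𝒪).map (algebraMap 𝒪 T)).radical := by
      rw [Ideal.radical_eq_sInf]
      refine le_sInf fun P hP => ?_
      obtain ⟨hP1, hP2⟩ := hP
      have hP3 : (P.comap (algebraMap 𝒪 T)) = maximalIdeal 𝒪 := by
        have h4 : maximalIdeal 𝒪 ≤ P.comap (algebraMap 𝒪 T) := Ideal.map_le_iff_le_comap.mp hP1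
        have h5 : (P.comap (algebraMap 𝒪 T)).IsPrime := inferInstance
        exact ((maximalIdeal.isMaximal 𝒪).eq_of_le h5.ne_top h4).symm
      have hint : Algebra.IsIntegral 𝒪 T := Algebra.IsIntegral.of_finite 𝒪 T
      have hmax : P.IsMaximal := Ideal.isMaximal_of_isIntegral_of_isMaximal_comap P
        (by rw [hP3]; exact maximalIdeal.isMaximal 𝒪)
      rw [eq_maximalIdeal hmax]
    obtain ⟨n, hn⟩ := h3 h2
    have h6 : (φ : T →+* B) (a ^ n) ∈ maximalIdeal B := by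
      have h7 : (maximalIdeal 𝒪).map (algebraMap 𝒪 T) ≤ (maximalIdeal B).comap (φ : T →+* B) := by
        rw [Ideal.map_le_iff_le_comap, Ideal.comap_comap, h1]
        intro x hx
        exact map_nonunit (algebraMap 𝒪 B) x hx
      exact h7 hn
    rw [map_pow] at h6
    exact (mem_maximalIdeal _).mp h6 (ha.pow n)
  have h2 := hpt B hinj φ hφ A hA σ hσ h
  have h3 : ∀ τ, LinearMap.trace B (H.ρ.baseChangeAlong (φ : T →+* B) hφ).V
      ((H.ρ.baseChangeAlong (φ : T →+* B) hφ).ρ τ) = φ (LinearMap.trace T H.ρ.V (H.ρ.ρ τ)) := by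
    intro τ
    have := BN2.trace_eq_of_charpoly_map_eq (H.ρ.baseChangeAlong (φ : T →+* B) hφ).finrank_eq
      H.ρ.finrank_eq (RingHom.id B) (φ : T →+* B)
      ((H.ρ.baseChangeAlong (φ : T →+* B) hφ).ρ τ) (H.ρ.ρ τ)
      (by rw [Polynomial.map_id, DefCond.charpoly_baseChangeAlong])
    exact this
  rw [map_sub, ← h3, ← h3, h2, sub_self]

end Datum

end Fermat.Agent.RT.Typ
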