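import Fermat.Agent.RT.TypeMain
import Fermat.Agent.RT.DatumGal
import Fermat.Agent.RT.MSHecke
import Fermat.Agent.S54
import Fermat.Agent.IntStr.Main

/-!
# RT-TYPE: surjections from the deformation rings to the Hecke algebras

* `exists_datum` : the datum over `heckeLocal N S 𝒪 θ`;
* `residual_isEquiv` : its residual representation is `ρbar`;
* `exists_surjective` : for every `D : DeformationRingData 𝒪 ρbar (dCond t 𝒪 p S₀ Sm)` there is a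
  surjective `φ : D.R →ₐ[𝒪] heckeLocal N S 𝒪 θ`;
* `exists_action` : composed with an action of `heckeLocal`.
-/

set_option autoImplicit false

open Polynomial IsLocalRing CongruenceSubgroup ModularFormClass CuspForm

namespace Fermat.Agent.RT.Typ

open Fermat.Agent.CMP Fermat.Agent.FrobCompare Fermat.Agent.CMP.Density
open Fermat.Agent.RT.Wiring

local notation "Γℚ" => (AlgebraicClosure ℚ ≃ₐ[ℚ] AlgebraicClosure ℚ)

/-- `θ` is the eigensystem of `ρbar`. -/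
def ResAttached {N : ℕ} [NeZero N] {S : Set ℕ} {k : Type} [Field k]
    (θ : heckeAlgebra N 2 S →+* k) (ρbar : ResidualGaloisRep k) : Prop :=
  ∀ (ℓ : ℕ) (hℓ : ℓ.Prime) (hℓN : ¬ ℓ ∣ N) (hℓS : ℓ ∉ S),
    ∀ A : ValuationSubring (AlgebraicClosure ℚ), A.LiesOverPrime ℓ →
      ∀ σ : Γℚ, A.IsFrobeniusAt σ ℓ → LinearMap.charpoly (ρbar.ρ σ) =
        X ^ 2 - C (θ (heckeAlgebra.T hℓ hℓN hℓS)) * X + C (ℓ : k)

section

variable {p : ℕ} [hpf : Fact p.Prime] {N : ℕ} [NeZero N] {S : Finset ℕ} (hpS : p ∈ S)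
  (hNS : ∀ q : ℕ, q.Prime → q ∣ N → q ∈ S)
  {𝒪 : Type} [CommRing 𝒪] [IsDomain 𝒪] [IsDiscreteValuationRing 𝒪]
  [IsAdicComplete (maximalIdeal 𝒪) 𝒪]
  (hp𝒪 : (p : 𝒪) ∈ maximalIdeal 𝒪)
  {θ : heckeAlgebra N 2 (↑S : Set ℕ) →+* ResidueField 𝒪}
  {ρbar : ResidualGaloisRep (ResidueField 𝒪)} (habs : ρbar.IsAbsolutelyIrreducible)
  (hρbar : ResAttached θ ρbar)

section Residual

variable {T : Type} [CommRing T] [IsLocalRing T] [IsNoetherianRing T]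
  [IsAdicComplete (maximalIdeal T) T] [Algebra 𝒪 T] [IsLocalHom (algebraMap 𝒪 T)]
  [Module.Finite 𝒪 T] [Module.Free 𝒪 T]
  (H : HeckeGaloisRepDatum N (↑S : Set ℕ) 𝒪 θ T)

include hNS habs hρbar in
/-- The residual representation of a datum is `ρbar`. -/
theorem residual_isEquiv :
    H.ρ.residual.IsEquiv (ρbar.baseChangeAlong (ResidueField.map (algebraMap 𝒪 T))) := by
  have hcp : ∀ σ, LinearMap.charpoly (H.ρ.residual.ρ σ) =
      (LinearMap.charpoly (ρbar.ρ σ)).map (ResidueField.map (algebraMap 𝒪 T)) := by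
    intro σ
    have h := residual_charpoly_map_eq frobDensity (RingHom.id (ResidueField T))
      (ResidueField.map (algebraMap 𝒪 T)) H.ρ.residual ρbar S (fun ℓ hℓ hℓS A hA τ hτ => ?_) σ
    · rwa [Polynomial.map_id] at h
    · have hℓN : ¬ ℓ ∣ N := fun h => hℓS (hNS ℓ hℓ h)
      have hℓS' : ℓ ∉ (↑S : Set ℕ) := by simpa using hℓS
      rw [Polynomial.map_id, S58Assembly.charpoly_residual,
        H.charpoly_frob ℓ hℓ hℓN hℓS' A hA τ hτ, hρbar ℓ hℓ hℓN hℓS' A hA τ hτ]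
      simp only [Polynomial.map_add, Polynomial.map_sub, Polynomial.map_mul, Polynomial.map_pow,
        Polynomial.map_X, Polynomial.map_C]
      rw [H.residue_π, map_natCast (residue T), map_natCast (ResidueField.map (algebraMap 𝒪 T))]
  have hirr : (ρbar.baseChangeAlong (ResidueField.map (algebraMap 𝒪 T))).IsAbsolutelyIrreducible :=
    BN2.isAbsolutelyIrreducible_of_charpoly_eq (RingHom.id _)
      (ResidueField.map (algebraMap 𝒪 T)) _ _ (fun σ => by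
        rw [Polynomial.map_id, DR.ResidualCompare.charpoly_baseChangeAlong]) habs
  exact BN2.isEquiv_of_charpoly_eq _ _ (fun σ => by
    rw [hcp, DR.ResidualCompare.charpoly_baseChangeAlong]) hirr

end Residual

variable [Finite (ResidueField 𝒪)] [CharZero 𝒪] [Fact (HasIntegralStructure N 2)]

include hpS hNS hp𝒪 habs hρbar in
/-- **Existence of the datum** over `heckeLocal N S 𝒪 θ`. -/
theorem exists_datum (hS30 : Datum.S30Statement) (hp2 : p ≠ 2) :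
    ∃ d : HeckeGaloisRepDatum N (↑S : Set ℕ) 𝒪 θ (heckeLocal N (↑S : Set ℕ) 𝒪 θ),
      d.π = heckeLocal.π N (↑S : Set ℕ) 𝒪 θ := by
  obtain ⟨d, hd, -⟩ := DatumGal.exists_datum_of_S30 hp2 N S hpS hNS 𝒪 hp𝒪 θ
    (RingHom.id (ResidueField 𝒪)) (RingHom.id (ResidueField 𝒪)) ρbar habs
    (fun ℓ hℓ hℓN hℓS P hP σ hσ => by
      rw [hρbar ℓ hℓ hℓN hℓS P hP σ hσ]) frobDensity hS30
  exact ⟨d, hd⟩

include hpS hNS hp𝒪 habs hρbar in
/-- **RT-TYPE, consequence**: a surjection from the deformation ring to the Hecke algebra. -/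
theorem exists_surjective (I : Inputs) (hp2 : p ≠ 2) (t : PType) (S₀ Sm : Finset ℕ)
    (hpS₀ : p ∈ S₀)
    (hunr : ∀ q : ℕ, q.Prime → q ∣ N → q ∉ S₀ → ¬ q ^ 2 ∣ N ∧ NoNewAt ρbar q)
    (huni : ∀ q ∈ Sm, q.Prime → q ≠ p → ¬ q ^ 2 ∣ N) (hpt : AtP t p N ρbar)
    (D : GaloisRep.DeformationRingData 𝒪 ρbar (dCond t 𝒪 p S₀ Sm)) :
    ∃ (d : HeckeGaloisRepDatum N (↑S : Set ℕ) 𝒪 θ (heckeLocal N (↑S : Set ℕ) 𝒪 θ))
      (φ : D.R →ₐ[𝒪] heckeLocal N (↑S : Set ℕ) 𝒪 θ)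
      (hφ : IsLocalHom (φ : D.R →+* heckeLocal N (↑S : Set ℕ) 𝒪 θ)),
      d.π = heckeLocal.π N (↑S : Set ℕ) 𝒪 θ ∧ dCond t 𝒪 p S₀ Sm d.ρ ∧
      Function.Surjective φ ∧
      (D.ρ.baseChangeAlong (φ : D.R →+* heckeLocal N (↑S : Set ℕ) 𝒪 θ) hφ).IsEquiv d.ρ ∧
      ∀ (ℓ : ℕ) (hℓ : ℓ.Prime) (hℓN : ¬ ℓ ∣ N) (hℓS : ℓ ∉ (↑S : Set ℕ)),
        ∀ A : ValuationSubring (AlgebraicClosure ℚ), A.LiesOverPrime ℓ →
          ∀ σ : Γℚ, A.IsFrobeniusAt σ ℓ → φ (D.ρ.trace σ) =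
            heckeLocal.π N (↑S : Set ℕ) 𝒪 θ (heckeAlgebra.T hℓ hℓN hℓS) := by
  obtain ⟨d, hd⟩ := exists_datum hpS hNS hp𝒪 habs hρbar I.s30 hp2
  have hres := residual_isEquiv hNS habs hρbar d
  have hD := dCond_of_datum hpS hNS hp𝒪 d I hp2 hres t S₀ Sm hpS₀ hunr huni hpt
  obtain ⟨φ, hsurj, hφ, he⟩ := S54.result D d (fun q hq hqN => by simpa using hNS q hq hqN) hD hres
  refine ⟨d, φ, hφ, hd, hD, hsurj, he, fun ℓ hℓ hℓN hℓS A hA σ hσ => ?_⟩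
  obtain ⟨e⟩ := he
  have h1 := S54.charpoly_eq_of_equiv e σ
  rw [S54.charpoly_baseChangeAlong, d.charpoly_frob ℓ hℓ hℓN hℓS A hA σ hσ,
    BN2.charpoly_eq_of_finrank_two D.ρ.finrank_eq, Polynomial.map_add, Polynomial.map_sub,
    Polynomial.map_mul, Polynomial.map_pow, Polynomial.map_X, Polynomial.map_C,
    Polynomial.map_C, hd] at h1
  exact S58Assembly.eq_of_quad h1

end

/-- Composition with an action of `heckeLocal` (RT-ACT): `D.R` acts, and the trace of Frobenius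
at `ℓ` acts as `a ℓ`. -/
theorem exists_action {N : ℕ} [NeZero N] {S : Finset ℕ}
    (hNS : ∀ q : ℕ, q.Prime → q ∣ N → q ∈ S)
    {𝒪 : Type} [CommRing 𝒪] [IsDomain 𝒪] [IsDiscreteValuationRing 𝒪]
    [IsAdicComplete (maximalIdeal 𝒪) 𝒪] [Fact (HasIntegralStructure N 2)]
    {θ : heckeAlgebra N 2 (↑S : Set ℕ) →+* ResidueField 𝒪}
    {R : Type} [CommRing R] [IsLocalRing R] [Algebra 𝒪 R] {ρ : GaloisRepAdic R}
    (φ : R →ₐ[𝒪] heckeLocal N (↑S : Set ℕ) 𝒪 θ)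
    (htr : ∀ (ℓ : ℕ) (hℓ : ℓ.Prime) (hℓN : ¬ ℓ ∣ N) (hℓS : ℓ ∉ (↑S : Set ℕ)),
        ∀ A : ValuationSubring (AlgebraicClosure ℚ), A.LiesOverPrime ℓ →
          ∀ σ : Γℚ, A.IsFrobeniusAt σ ℓ → φ (ρ.trace σ) =
            heckeLocal.π N (↑S : Set ℕ) 𝒪 θ (heckeAlgebra.T hℓ hℓN hℓS))
    {E : Type*} [Ring E] [Algebra 𝒪 E] (Φ : heckeLocal N (↑S : Set ℕ) 𝒪 θ →ₐ[𝒪] E)
    (a : MSHecke.Idx (↑S : Set ℕ) → E)
    (hΦ : ∀ ℓ, Φ (heckeLocal.π N (↑S : Set ℕ) 𝒪 θ (MSHecke.genS N (↑S : Set ℕ) ℓ)) = a ℓ)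
    (ℓ : MSHecke.Idx (↑S : Set ℕ)) (A : ValuationSubring (AlgebraicClosure ℚ))
    (hA : A.LiesOverPrime (ℓ.1 : ℕ)) (σ : Γℚ) (hσ : A.IsFrobeniusAt σ (ℓ.1 : ℕ)) :
    (Φ.comp φ) (ρ.trace σ) = a ℓ := by
  have hℓN : ¬ (ℓ.1 : ℕ) ∣ N := fun h => ℓ.2 (by simpa using hNS _ ℓ.1.2 h)
  rw [AlgHom.comp_apply, htr (ℓ.1 : ℕ) ℓ.1.2 hℓN ℓ.2 A hA σ hσ, ← hΦ ℓ,
    MSHecke.genS_of_not_dvd N (↑S : Set ℕ) ℓ hℓN]

end Fermat.Agent.RT.Typ
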